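import Mathlib
import Fermat.Agent.FF.PlacesCoord

/-!
# Program B (B4.2): the places of the projective line

`k` algebraically closed, `L = RatFunc k`.  Using the general theory of places of a function field
with a separable coordinate (`FF/PlacesCoord`), with `x = X` and `n = 1`:

* `isSepVarS_X` : `X` is a separating variable of degree one;
* `placeAt a` : the unique place where `X - a` vanishes, `placeInfty` : the unique pole of `X`;
* `eq_placeAt_or_eq_placeInfty` : every place is one of these;
* `ord_placeAt_X_sub`, `ord_placeInfty_X` : orders.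
-/

set_option autoImplicit false

open AlgebraicCurve Fermat.Agent.X0 Fermat.Agent.FF IntermediateField Polynomial

namespace Fermat.Agent.BR.P1

variable (k : Type*) [Field k]

/-- `X` is a separating variable of degree one of `k(X)`. -/
theorem isSepVarS_X : IsSepVarS k (RatFunc.X : RatFunc k) 1 := by
  have htop : k⟮(RatFunc.X : RatFunc k)⟯ = ⊤ := RatFunc.adjoin_X
  refine ⟨⟨RatFunc.transcendental_X, ?_, ?_⟩, ?_⟩
  · rw [htop]
    exact Module.Finite.of_surjective (Algebra.linearMap (⊤ : IntermediateField k (RatFunc k))
      (RatFunc k)) (fun x => ⟨⟨x, IntermediateField.mem_top⟩, rfl⟩)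
  · rw [htop]
    exact IntermediateField.finrank_top
  · rw [htop]
    exact ⟨fun x => isSeparable_algebraMap
      (⟨x, IntermediateField.mem_top⟩ : (⊤ : IntermediateField k (RatFunc k)))⟩

variable [IsAlgClosed k]

/-- There is exactly one place over every value of `X`, and `X - a` is a uniformiser there. -/
theorem placesOver_X_subsingleton (a : k) {v w : Place k (RatFunc k)}
    (hv : v ∈ placesOver (RatFunc.X : RatFunc k) a)
    (hw : w ∈ placesOver (RatFunc.X : RatFunc k) a) : v = w := by
  classical
  by_contra hne
  have h := sum_ord_placesOver_S (isSepVarS_X k) a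
  have hv' : v ∈ (finite_placesOver_S (isSepVarS_X k) a).toFinset := by
    rwa [Set.Finite.mem_toFinset]
  have hw' : w ∈ (finite_placesOver_S (isSepVarS_X k) a).toFinset := by
    rwa [Set.Finite.mem_toFinset]
  have hsub : ({v, w} : Finset (Place k (RatFunc k))) ⊆
      (finite_placesOver_S (isSepVarS_X k) a).toFinset := by
    intro u hu
    rw [Finset.mem_insert, Finset.mem_singleton] at hu
    rcases hu with rfl | rfl
    · exact hv'
    · exact hw'
  have hle := Finset.sum_le_sum_of_subset_of_nonneg (f := fun u : Place k (RatFunc k) =>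
      u.ord ((RatFunc.X : RatFunc k) - algebraMap k (RatFunc k) a)) hsub (by
    intro u hu _
    rw [Set.Finite.mem_toFinset] at hu
    exact le_of_lt hu)
  rw [Finset.sum_pair hne] at hle
  rw [mem_placesOver] at hv hw
  have : (2 : ℤ) ≤ ((1 : ℕ) : ℤ) := by
    rw [← h]
    exact le_trans (by omega) hle
  norm_num at this

/-- the place `X = a` of `k(X)` -/
noncomputable def placeAt (a : k) : Place k (RatFunc k) :=
  Classical.choose (exists_place_over (isSepVarS_X k) a)

theorem placeAt_mem (a : k) : placeAt k a ∈ placesOver (RatFunc.X : RatFunc k) a :=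
  Classical.choose_spec (exists_place_over (isSepVarS_X k) a)

variable {k}

theorem eq_placeAt {a : k} {v : Place k (RatFunc k)}
    (hv : v ∈ placesOver (RatFunc.X : RatFunc k) a) : v = placeAt k a :=
  placesOver_X_subsingleton k a hv (placeAt_mem k a)

theorem eq_placeAt_of_ord_pos {a : k} {v : Place k (RatFunc k)}
    (hv : 0 < v.ord ((RatFunc.X : RatFunc k) - RatFunc.C a)) : v = placeAt k a :=
  eq_placeAt hv

theorem ord_placeAt_X_sub (a : k) :
    (placeAt k a).ord ((RatFunc.X : RatFunc k) - RatFunc.C a) = 1 := by
  classical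
  have h := sum_ord_placesOver_S (isSepVarS_X k) a
  have hS : (finite_placesOver_S (isSepVarS_X k) a).toFinset = {placeAt k a} := by
    ext v
    rw [Set.Finite.mem_toFinset, Finset.mem_singleton]
    exact ⟨fun hv => eq_placeAt hv, fun hv => hv ▸ placeAt_mem k a⟩
  rw [hS, Finset.sum_singleton] at h
  exact_mod_cast h

theorem placeAt_injective : Function.Injective (placeAt k) := by
  intro a b hab
  have h1 := placeAt_mem k a
  have h2 := placeAt_mem k b
  rw [hab] at h1
  exact Place.ord_pos_unique_constant _ h1 h2

theorem ord_placeAt_X_sub_of_ne {a b : k} (hab : a ≠ b) :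
    (placeAt k a).ord ((RatFunc.X : RatFunc k) - RatFunc.C b) = 0 := by
  have h : (RatFunc.X : RatFunc k) - RatFunc.C b =
      ((RatFunc.X : RatFunc k) - algebraMap k (RatFunc k) a) +
        algebraMap k (RatFunc k) (a - b) := by
    rw [map_sub, RatFunc.algebraMap_eq_C]
    ring
  rw [h]
  exact Place.ord_add_algebraMap_of_pos _ (placeAt_mem k a) (sub_ne_zero.mpr hab)

variable (k)

/-- `X` has exactly one pole. -/
theorem placesOverInfty_X_subsingleton {v w : Place k (RatFunc k)}
    (hv : v ∈ placesOverInfty k (RatFunc.X : RatFunc k))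
    (hw : w ∈ placesOverInfty k (RatFunc.X : RatFunc k)) : v = w := by
  classical
  by_contra hne
  have h := sum_ord_placesOverInfty_S (isSepVarS_X k)
  have hv' : v ∈ (finite_placesOverInfty_S (isSepVarS_X k)).toFinset := by
    rwa [Set.Finite.mem_toFinset]
  have hw' : w ∈ (finite_placesOverInfty_S (isSepVarS_X k)).toFinset := by
    rwa [Set.Finite.mem_toFinset]
  have hsub : ({v, w} : Finset (Place k (RatFunc k))) ⊆
      (finite_placesOverInfty_S (isSepVarS_X k)).toFinset := by
    intro u hu
    rw [Finset.mem_insert, Finset.mem_singleton] at hu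
    rcases hu with rfl | rfl
    · exact hv'
    · exact hw'
  have hle := Finset.sum_le_sum_of_subset_of_nonneg (f := fun u : Place k (RatFunc k) =>
      -u.ord (RatFunc.X : RatFunc k)) hsub (by
    intro u hu _
    rw [Set.Finite.mem_toFinset, mem_placesOverInfty] at hu
    omega)
  rw [Finset.sum_pair hne] at hle
  rw [mem_placesOverInfty] at hv hw
  have : (2 : ℤ) ≤ ((1 : ℕ) : ℤ) := by
    rw [← h]
    exact le_trans (by omega) hle
  norm_num at this

theorem exists_place_infty : ∃ v : Place k (RatFunc k),
    v ∈ placesOverInfty k (RatFunc.X : RatFunc k) := by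
  classical
  by_contra hcon
  push Not at hcon
  have h := sum_ord_placesOverInfty_S (isSepVarS_X k)
  have hempty : (finite_placesOverInfty_S (isSepVarS_X k)).toFinset = ∅ := by
    rw [Finset.eq_empty_iff_forall_notMem]
    intro v hv
    rw [Set.Finite.mem_toFinset] at hv
    exact hcon v hv
  rw [hempty, Finset.sum_empty] at h
  norm_num at h

/-- the pole of `X` -/
noncomputable def placeInfty : Place k (RatFunc k) := Classical.choose (exists_place_infty k)

theorem placeInfty_mem : placeInfty k ∈ placesOverInfty k (RatFunc.X : RatFunc k) :=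
  Classical.choose_spec (exists_place_infty k)

variable {k}

theorem eq_placeInfty {v : Place k (RatFunc k)} (hv : v.ord (RatFunc.X : RatFunc k) < 0) :
    v = placeInfty k :=
  placesOverInfty_X_subsingleton k hv (placeInfty_mem k)

theorem ord_placeInfty_X : (placeInfty k).ord (RatFunc.X : RatFunc k) = -1 := by
  classical
  have h := sum_ord_placesOverInfty_S (isSepVarS_X k)
  have hS : (finite_placesOverInfty_S (isSepVarS_X k)).toFinset = {placeInfty k} := by
    ext v
    rw [Set.Finite.mem_toFinset, Finset.mem_singleton]
    exact ⟨fun hv => eq_placeInfty hv, fun hv => hv ▸ placeInfty_mem k⟩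
  rw [hS, Finset.sum_singleton] at h
  have h' : -(placeInfty k).ord (RatFunc.X : RatFunc k) = 1 := by exact_mod_cast h
  omega

theorem placeAt_ne_placeInfty (a : k) : placeAt k a ≠ placeInfty k := by
  intro h
  exact Set.disjoint_left.mp (placesOver_disjoint_placesOverInfty (RatFunc.X : RatFunc k) a)
    (placeAt_mem k a) (h ▸ placeInfty_mem k)

/-- **Classification of the places of the projective line.** -/
theorem eq_placeAt_or_eq_placeInfty (v : Place k (RatFunc k)) :
    (∃ a : k, v = placeAt k a) ∨ v = placeInfty k := by
  by_cases hX : v.ord (RatFunc.X : RatFunc k) < 0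
  · exact Or.inr (eq_placeInfty hX)
  · left
    push Not at hX
    have hmem : (RatFunc.X : RatFunc k) ∈ v.toValuationSubring := Place.mem_of_ord_nonneg v hX
    obtain ⟨a, ha⟩ := Place.exists_adicValuation_sub_lt_one_S (isSepVarS_X k) v hmem
    refine ⟨a, eq_placeAt ?_⟩
    rw [mem_placesOver]
    have hne : (RatFunc.X : RatFunc k) - algebraMap k (RatFunc k) a ≠ 0 := by
      intro h0
      have hX' : (RatFunc.X : RatFunc k) = algebraMap k (RatFunc k) a := sub_eq_zero.mp h0
      exact RatFunc.transcendental_X (K := k) (hX' ▸ isAlgebraic_algebraMap a)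
    rw [Fermat.Agent.X0.Place.adicValuation_eq_exp_neg_ord v hne] at ha
    rw [← WithZero.exp_zero, WithZero.exp_lt_exp] at ha
    omega

end Fermat.Agent.BR.P1
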