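import Fermat.Agent.BR.AnnulusRed
import Fermat.Agent.BR.P1Places

/-!
# Program B, node B4.3 (R2): the reduction of annular points to an exceptional `ℙ¹` and its
compatibility with inertia

`F / K` a function field, `A` a valuation subring of `K` with algebraically closed residue field
`k`, `T` a set of places of `F / K` (the tube of a node `e`), `u : F` the annulus coordinate of the
node and `a : K` a gauge (`v a = λ`, the position of the exceptional component `(e, λ)` of the
refined model).

* `redExc A T u a P : Option (Place k (RatFunc k))` : the partial reduction onto the exceptional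
  component `(e, λ)`: `some (X = ubar P)` when `P ∈ T` and `v (u(P)) = v a`, `none` otherwise;
* `redExc_ne_placeAt_zero`, `redExc_ne_placeInfty` : the values avoid the two nodes `0`, `∞`;
* `redExc_smul` : **compatibility** (the shape of `Nodal.NodalRed.Compat` on the component
  `(e, λ)`): if `σ` lies in the inertia group, `g` is a semilinear automorphism over `σ` fixing `u`
  and preserving the tube `T`, and `α` is an automorphism of `k(X)` acting on the places by
  `X = c ↦ X = chi σ a * c`, then `redExc (g • P) = (redExc P).map (α • ·)`;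
* `redExc_eq_none_of_valuation_ne` : different positions have disjoint domains.
-/

set_option autoImplicit false

open IsLocalRing AlgebraicCurve

namespace Fermat.Agent.BR.AnnulusRed

open Fermat.Agent.Red Fermat.Agent.BR.InertiaRed Fermat.Agent.BR.P1

variable {K₀ K F : Type*} [Field K₀] [Field K] [Algebra K₀ K] [Field F] [Algebra K F]

section Def

variable (A : ValuationSubring K) [IsAlgClosed (ResidueField A)]

open Classical in
/-- The partial reduction of the places of `F / K` onto the exceptional component at the position
`v a` of the node with tube `T` and annulus coordinate `u`. -/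
noncomputable def redExc (T : Set (Place K F)) (u : F) (a : K) (P : Place K F) :
    Option (Place (ResidueField A) (RatFunc (ResidueField A))) :=
  if P ∈ T ∧ A.valuation (evalAt P u) = A.valuation a then
    some (placeAt (ResidueField A) (ubar A u a P))
  else none

variable {A}
variable {T : Set (Place K F)} {u : F} {a : K} {P : Place K F}

theorem redExc_of_mem (hP : P ∈ T) (hv : A.valuation (evalAt P u) = A.valuation a) :
    redExc A T u a P = some (placeAt (ResidueField A) (ubar A u a P)) := by
  unfold redExc
  rw [if_pos ⟨hP, hv⟩]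

theorem redExc_of_not (h : ¬ (P ∈ T ∧ A.valuation (evalAt P u) = A.valuation a)) :
    redExc A T u a P = none := by
  unfold redExc
  rw [if_neg h]

theorem redExc_isSome_iff :
    (redExc A T u a P).isSome ↔ P ∈ T ∧ A.valuation (evalAt P u) = A.valuation a := by
  by_cases h : P ∈ T ∧ A.valuation (evalAt P u) = A.valuation a
  · rw [redExc_of_mem h.1 h.2]
    simp [h]
  · rw [redExc_of_not h]
    simp [h]

theorem redExc_eq_some_iff {Q : Place (ResidueField A) (RatFunc (ResidueField A))} :
    redExc A T u a P = some Q ↔
      (P ∈ T ∧ A.valuation (evalAt P u) = A.valuation a) ∧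
        Q = placeAt (ResidueField A) (ubar A u a P) := by
  by_cases h : P ∈ T ∧ A.valuation (evalAt P u) = A.valuation a
  · rw [redExc_of_mem h.1 h.2, Option.some_inj]
    exact ⟨fun hQ => ⟨h, hQ.symm⟩, fun hQ => hQ.2.symm⟩
  · rw [redExc_of_not h]
    exact ⟨fun hQ => by simp at hQ, fun hQ => absurd hQ.1 h⟩

/-- Different positions of the same annulus have disjoint domains. -/
theorem redExc_eq_none_of_valuation_ne {a' : K} (haa' : A.valuation a' ≠ A.valuation a)
    (h : (redExc A T u a P).isSome) : redExc A T u a' P = none := by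
  rw [redExc_isSome_iff] at h
  apply redExc_of_not
  rintro ⟨_, h2⟩
  exact haa' (h2.symm.trans h.2)

/-- The reductions avoid the node `X = 0`. -/
theorem redExc_ne_placeAt_zero (ha : a ≠ 0) :
    redExc A T u a P ≠ some (placeAt (ResidueField A) 0) := by
  intro h
  rw [redExc_eq_some_iff] at h
  obtain ⟨⟨_, hv⟩, hQ⟩ := h
  exact ubar_ne_zero A ha hv (placeAt_injective hQ).symm

/-- The reductions avoid the node `X = ∞`. -/
theorem redExc_ne_placeInfty :
    redExc A T u a P ≠ some (placeInfty (ResidueField A)) := by
  intro h
  rw [redExc_eq_some_iff] at h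
  exact placeAt_ne_placeInfty _ h.2.symm

end Def

section Compat

variable (A : ValuationSubring K) [IsAlgClosed (ResidueField A)] {σ : K ≃ₐ[K₀] K}

/-- **Compatibility of the reduction onto the exceptional component with inertia**
(the `Compat` clause of `Nodal.NodalRed` on the component `(e, λ)`). -/
theorem redExc_smul (hσ : σ ∈ A.inertiaSubgroupIn K₀)
    (hval : ∀ x : K, A.valuation (σ x) = A.valuation x)
    (g : SemilinearAut K F) (hg : SemilinearAut.baseAut g = σ.toRingEquiv)
    {T : Set (Place K F)} (hT : ∀ P : Place K F, g • P ∈ T ↔ P ∈ T)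
    {u : F} (hu : g • u = u) {a : K} (ha : a ≠ 0)
    (α : SemilinearAut (ResidueField A) (RatFunc (ResidueField A)))
    (hα : ∀ c : ResidueField A, c ≠ 0 →
      α • placeAt (ResidueField A) c = placeAt (ResidueField A) (chi A σ a * c))
    (P : Place K F) :
    redExc A T u a (g • P) = (redExc A T u a P).map (fun Q => α • Q) := by
  by_cases h : P ∈ T ∧ A.valuation (evalAt P u) = A.valuation a
  · have h' : g • P ∈ T ∧ A.valuation (evalAt (g • P) u) = A.valuation a :=
      ⟨(hT P).mpr h.1, (valuation_evalAt_smul_of_fixed A hval g hg hu P).trans h.2⟩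
    rw [redExc_of_mem h.1 h.2, redExc_of_mem h'.1 h'.2, Option.map_some,
      ubar_smul A hσ hval g hg hu ha h.2, hα _ (ubar_ne_zero A ha h.2)]
  · have h' : ¬ (g • P ∈ T ∧ A.valuation (evalAt (g • P) u) = A.valuation a) := by
      rintro ⟨h1, h2⟩
      exact h ⟨(hT P).mp h1, (valuation_evalAt_smul_of_fixed A hval g hg hu P).symm.trans h2⟩
    rw [redExc_of_not h, redExc_of_not h', Option.map_none]

end Compat

/-! ### Tubes cut out by two coordinate functions -/

section Tube

variable (A : ValuationSubring K)

/-- The tube of the point `(0, 0)` of the special fibre in the coordinates `x`, `y`: the places at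
which `x` and `y` take values in the open unit disc. -/
def tube (x y : F) : Set (Place K F) :=
  {P | ∃ x₀ y₀ : K, IsValueAt P x x₀ ∧ IsValueAt P y y₀ ∧
    A.valuation x₀ < 1 ∧ A.valuation y₀ < 1}

variable {A}

theorem mem_tube_iff {x y : F} {P : Place K F} :
    P ∈ tube A x y ↔ ∃ x₀ y₀ : K, IsValueAt P x x₀ ∧ IsValueAt P y y₀ ∧
      A.valuation x₀ < 1 ∧ A.valuation y₀ < 1 := Iff.rfl

theorem smul_mem_tube (g : SemilinearAut K F)
    (hgv : ∀ c : K, A.valuation (SemilinearAut.baseAut g c) = A.valuation c) {x y : F}
    (hx : g • x = x) (hy : g • y = y) {P : Place K F} (hP : P ∈ tube A x y) :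
    g • P ∈ tube A x y := by
  obtain ⟨x₀, y₀, h1, h2, h3, h4⟩ := hP
  refine ⟨SemilinearAut.baseAut g x₀, SemilinearAut.baseAut g y₀,
    isValueAt_smul_of_fixed g hx h1, isValueAt_smul_of_fixed g hy h2, ?_, ?_⟩
  · rw [hgv]; exact h3
  · rw [hgv]; exact h4

/-- The tube is stable under a semilinear automorphism fixing the coordinates whose base
automorphism preserves the valuation. -/
theorem smul_mem_tube_iff (g : SemilinearAut K F)
    (hgv : ∀ c : K, A.valuation (SemilinearAut.baseAut g c) = A.valuation c) {x y : F}
    (hx : g • x = x) (hy : g • y = y) (P : Place K F) :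
    g • P ∈ tube A x y ↔ P ∈ tube A x y := by
  refine ⟨fun h => ?_, smul_mem_tube g hgv hx hy⟩
  have hgv' : ∀ c : K, A.valuation (SemilinearAut.baseAut g⁻¹ c) = A.valuation c := by
    intro c
    have h1 := hgv (SemilinearAut.baseAut g⁻¹ c)
    rw [SemilinearAut.baseAut_inv] at h1 ⊢
    have h2 : SemilinearAut.baseAut g ((SemilinearAut.baseAut g).symm c) = c :=
      (SemilinearAut.baseAut g).apply_symm_apply c
    have h3 : A.valuation (SemilinearAut.baseAut g ((SemilinearAut.baseAut g).symm c)) =
        A.valuation ((SemilinearAut.baseAut g).symm c) := h1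
    rw [h2] at h3
    exact h3.symm
  have hx' : g⁻¹ • x = x := by
    conv_lhs => rw [← hx]
    exact inv_smul_smul g x
  have hy' : g⁻¹ • y = y := by
    conv_lhs => rw [← hy]
    exact inv_smul_smul g y
  have h3 := smul_mem_tube g⁻¹ hgv' hx' hy' h
  rwa [inv_smul_smul] at h3

end Tube

/-! ### Specialisation to the arithmetic Galois action over `ℚ̄` -/

section Qbar

open ModularCurve

local notation "Qb" => AlgebraicClosure ℚ

variable (A : ValuationSubring Qb) {σ : Qb ≃ₐ[ℚ] Qb}
  (F₀ : IntermediateField ℚ (LaurentSeries ℚ))

/-- The tube in coordinates fixed by `σ` is stable under the arithmetic action of an inertia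
element `σ`. -/
theorem arithmeticGalois_smul_mem_tube_iff (hσ : σ ∈ A.inertiaSubgroupIn ℚ)
    {x y : laurentBaseChange Qb F₀} (hx : arithmeticGalois F₀ σ • x = x)
    (hy : arithmeticGalois F₀ σ • y = y) (P : Place Qb (laurentBaseChange Qb F₀)) :
    arithmeticGalois F₀ σ • P ∈ tube A x y ↔ P ∈ tube A x y :=
  smul_mem_tube_iff (arithmeticGalois F₀ σ)
    (fun c => Fermat.Agent.S05.valuation_apply_eq_of_mem_inertia A hσ c) hx hy P

/-- **Compatibility on an exceptional component for the arithmetic Galois action.** -/
theorem redExc_arithmeticGalois [IsAlgClosed (ResidueField A)]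
    (hσ : σ ∈ A.inertiaSubgroupIn ℚ)
    {T : Set (Place Qb (laurentBaseChange Qb F₀))}
    (hT : ∀ P : Place Qb (laurentBaseChange Qb F₀), arithmeticGalois F₀ σ • P ∈ T ↔ P ∈ T)
    {u : laurentBaseChange Qb F₀} (hu : arithmeticGalois F₀ σ • u = u) {a : Qb} (ha : a ≠ 0)
    (α : SemilinearAut (ResidueField A) (RatFunc (ResidueField A)))
    (hα : ∀ c : ResidueField A, c ≠ 0 →
      α • placeAt (ResidueField A) c = placeAt (ResidueField A) (chi A σ a * c))
    (P : Place Qb (laurentBaseChange Qb F₀)) :
    redExc A T u a (arithmeticGalois F₀ σ • P) = (redExc A T u a P).map (fun Q => α • Q) :=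
  redExc_smul A hσ (Fermat.Agent.S05.valuation_apply_eq_of_mem_inertia A hσ)
    (arithmeticGalois F₀ σ) rfl hT hu ha α hα P

end Qbar

end Fermat.Agent.BR.AnnulusRed
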