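/-
Program B (BADRED), block B2 (helper22): a Newton-polygon engine over an arbitrary valued field.

Convention: Mathlib's multiplicative `Valuation K Γ₀`; `v x` is the *size* of `x` (a larger additive
valuation is a smaller size). For a split polynomial `P = ∑ aᵢ Yⁱ`:

* `map_sum_eq_of_dominant`, `eval_ne_zero_of_dominant` : the dominant term principle;
* `coeff_prod_mul_pow_le_of_small`, `coeff_prod_mul_pow_le_of_big` : coefficient bounds for
  `∏ (X - r)` when all roots are small, resp. big;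
* `vertex` : **vertex lemma**: if the lines of slopes `ρ < τ` through the point `k` support the
  Newton polygon, there is no root with `ρ < |y| < τ` and exactly `k` roots with `|y| ≤ ρ`.
Mathlib only.
-/
import Mathlib

set_option autoImplicit false

namespace Fermat.Agent.BR.Newton

open Polynomial

variable {K : Type*} [Field K] {Γ₀ : Type*} [LinearOrderedCommGroupWithZero Γ₀]
  (v : Valuation K Γ₀)

/-! ### The dominant term principle -/

/-- If one term of a finite sum is strictly bigger than all the others, the sum has its size. -/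
theorem map_sum_eq_of_dominant {ι : Type*} [DecidableEq ι] (s : Finset ι) (f : ι → K) {j : ι}
    (hj : j ∈ s) (h : ∀ i ∈ s, i ≠ j → v (f i) < v (f j)) :
    v (∑ i ∈ s, f i) = v (f j) := by
  rw [← Finset.add_sum_erase s f hj]
  by_cases hz : v (f j) = 0
  · have he : s.erase j = ∅ := by
      rw [Finset.eq_empty_iff_forall_notMem]
      intro i hi
      have := h i (Finset.mem_of_mem_erase hi) (Finset.ne_of_mem_erase hi)
      rw [hz] at this
      exact not_lt_zero this
    rw [he, Finset.sum_empty, add_zero]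
  · have hlt : v (∑ i ∈ s.erase j, f i) < v (f j) :=
      v.map_sum_lt hz (fun i hi => h i (Finset.mem_of_mem_erase hi) (Finset.ne_of_mem_erase hi))
    exact v.map_add_eq_of_lt_left hlt

/-- A polynomial does not vanish at a point where one of its terms strictly dominates. -/
theorem eval_ne_zero_of_dominant (P : K[X]) (y : K) (j : ℕ) (hj : P.coeff j * y ^ j ≠ 0)
    (h : ∀ i ≤ P.natDegree, i ≠ j → v (P.coeff i * y ^ i) < v (P.coeff j * y ^ j)) :
    P.eval y ≠ 0 := by
  have hjd : j ≤ P.natDegree := le_natDegree_of_ne_zero (left_ne_zero_of_mul hj)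
  rw [eval_eq_sum_range]
  have hdom := map_sum_eq_of_dominant v (Finset.range (P.natDegree + 1))
    (fun i => P.coeff i * y ^ i) (Finset.mem_range.mpr (Nat.lt_succ_of_le hjd))
    (fun i hi hij => h i (Nat.lt_succ_iff.mp (Finset.mem_range.mp hi)) hij)
  intro h0
  rw [h0, map_zero] at hdom
  exact hj ((v.zero_iff).mp hdom.symm)

/-- the size of the dominant term is the size of the value -/
theorem map_eval_eq_of_dominant (P : K[X]) (y : K) (j : ℕ) (hjd : j ≤ P.natDegree)
    (h : ∀ i ≤ P.natDegree, i ≠ j → v (P.coeff i * y ^ i) < v (P.coeff j * y ^ j)) :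
    v (P.eval y) = v (P.coeff j * y ^ j) := by
  rw [eval_eq_sum_range]
  exact map_sum_eq_of_dominant v (Finset.range (P.natDegree + 1))
    (fun i => P.coeff i * y ^ i) (Finset.mem_range.mpr (Nat.lt_succ_of_le hjd))
    (fun i hi hij => h i (Nat.lt_succ_iff.mp (Finset.mem_range.mp hi)) hij)

/-! ### Products of linear factors -/

/-- the monic polynomial with prescribed roots -/
noncomputable def prodX (R : Multiset K) : K[X] := (R.map fun r => X - C r).prod

@[simp] theorem prodX_zero : prodX (0 : Multiset K) = 1 := by simp [prodX]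

@[simp] theorem prodX_cons (r : K) (R : Multiset K) : prodX (r ::ₘ R) = (X - C r) * prodX R := by
  simp [prodX]

theorem prodX_add (R S : Multiset K) : prodX (R + S) = prodX R * prodX S := by
  simp [prodX]

theorem prodX_monic (R : Multiset K) : (prodX R).Monic :=
  monic_multiset_prod_of_monic _ _ fun r _ => monic_X_sub_C r

theorem prodX_natDegree (R : Multiset K) : (prodX R).natDegree = Multiset.card R :=
  natDegree_multiset_prod_X_sub_C_eq_card R

theorem prodX_coeff_card (R : Multiset K) : (prodX R).coeff (Multiset.card R) = 1 := by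
  have h := (prodX_monic R).coeff_natDegree
  rwa [prodX_natDegree] at h

theorem prodX_coeff_zero_cons (r : K) (R : Multiset K) :
    (prodX (r ::ₘ R)).coeff 0 = -r * (prodX R).coeff 0 := by
  rw [prodX_cons, mul_coeff_zero]
  simp

theorem prodX_coeff_succ_cons (r : K) (R : Multiset K) (a : ℕ) :
    (prodX (r ::ₘ R)).coeff (a + 1) = (prodX R).coeff a - (prodX R).coeff (a + 1) * r := by
  rw [prodX_cons, coeff_X_sub_C_mul, mul_comm r]

/-- the size of the constant term is the product of the sizes of the roots -/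
theorem map_prodX_coeff_zero (R : Multiset K) : v ((prodX R).coeff 0) = (R.map v).prod := by
  induction R using Multiset.induction_on with
  | empty => simp
  | cons r R ih =>
    rw [prodX_coeff_zero_cons, map_mul, Valuation.map_neg, ih, Multiset.map_cons, Multiset.prod_cons]

/-- if all roots have size `≤ ρ` then `|aᵢ| ρⁱ ≤ ρ ^ n` -/
theorem coeff_prod_mul_pow_le_of_small (R : Multiset K) (ρ : Γ₀) (h : ∀ r ∈ R, v r ≤ ρ) (i : ℕ) :
    v ((prodX R).coeff i) * ρ ^ i ≤ ρ ^ Multiset.card R := by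
  induction R using Multiset.induction_on generalizing i with
  | empty =>
    rcases Nat.eq_zero_or_pos i with rfl | hi
    · simp
    · have : (prodX (0 : Multiset K)).coeff i = 0 := by
        rw [prodX_zero, coeff_one, if_neg hi.ne']
      rw [this, map_zero, zero_mul]
      exact zero_le
  | cons r R ih =>
    have hr : v r ≤ ρ := h r (Multiset.mem_cons_self r R)
    have hR : ∀ r' ∈ R, v r' ≤ ρ := fun r' hr' => h r' (Multiset.mem_cons_of_mem hr')
    rw [Multiset.card_cons, pow_succ]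
    rcases Nat.eq_zero_or_pos i with rfl | hi
    · rw [prodX_coeff_zero_cons, map_mul, Valuation.map_neg, pow_zero, mul_one]
      have := ih hR 0
      rw [pow_zero, mul_one] at this
      calc v r * v ((prodX R).coeff 0) ≤ ρ * ρ ^ Multiset.card R := mul_le_mul' hr this
        _ = ρ ^ Multiset.card R * ρ := mul_comm _ _
    · obtain ⟨a, rfl⟩ : ∃ a, i = a + 1 := ⟨i - 1, by omega⟩
      rw [prodX_coeff_succ_cons]
      have h1 : v ((prodX R).coeff a) * ρ ^ (a + 1) ≤ ρ ^ Multiset.card R * ρ := by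
        rw [pow_succ, ← mul_assoc]
        exact mul_le_mul_left (ih hR a) ρ
      have h2 : v ((prodX R).coeff (a + 1) * r) * ρ ^ (a + 1) ≤ ρ ^ Multiset.card R * ρ := by
        rw [map_mul, mul_right_comm]
        exact mul_le_mul' (ih hR (a + 1)) hr
      calc v ((prodX R).coeff a - (prodX R).coeff (a + 1) * r) * ρ ^ (a + 1)
          ≤ max (v ((prodX R).coeff a)) (v ((prodX R).coeff (a + 1) * r)) * ρ ^ (a + 1) :=
            mul_le_mul_left (v.map_sub _ _) _
        _ ≤ ρ ^ Multiset.card R * ρ := by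
            rcases max_cases (v ((prodX R).coeff a)) (v ((prodX R).coeff (a + 1) * r)) with
              ⟨h, _⟩ | ⟨h, _⟩
            · rw [h]; exact h1
            · rw [h]; exact h2


/-- if all roots have size `≥ τ > 0` then `|aᵢ| τⁱ ≤ ∏ |r|` -/
theorem coeff_prod_mul_pow_le_of_big (R : Multiset K) (τ : Γ₀) (h : ∀ r ∈ R, τ ≤ v r) (i : ℕ) :
    v ((prodX R).coeff i) * τ ^ i ≤ (R.map v).prod := by
  induction R using Multiset.induction_on generalizing i with
  | empty =>
    rcases Nat.eq_zero_or_pos i with rfl | hi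
    · simp
    · have : (prodX (0 : Multiset K)).coeff i = 0 := by
        rw [prodX_zero, coeff_one, if_neg hi.ne']
      rw [this, map_zero, zero_mul]
      exact zero_le
  | cons r R ih =>
    have hr : τ ≤ v r := h r (Multiset.mem_cons_self r R)
    have hR : ∀ r' ∈ R, τ ≤ v r' := fun r' hr' => h r' (Multiset.mem_cons_of_mem hr')
    rw [Multiset.map_cons, Multiset.prod_cons]
    rcases Nat.eq_zero_or_pos i with rfl | hi
    · rw [prodX_coeff_zero_cons, map_mul, Valuation.map_neg, pow_zero, mul_one]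
      have := ih hR 0
      rw [pow_zero, mul_one] at this
      exact mul_le_mul' le_rfl this
    · obtain ⟨a, rfl⟩ : ∃ a, i = a + 1 := ⟨i - 1, by omega⟩
      rw [prodX_coeff_succ_cons]
      have h1 : v ((prodX R).coeff a) * τ ^ (a + 1) ≤ v r * (R.map v).prod := by
        rw [pow_succ, ← mul_assoc, mul_comm (v r)]
        exact mul_le_mul' (ih hR a) hr
      have h2 : v ((prodX R).coeff (a + 1) * r) * τ ^ (a + 1) ≤ v r * (R.map v).prod := by
        rw [map_mul, mul_right_comm, mul_comm (v r)]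
        exact mul_le_mul' (ih hR (a + 1)) le_rfl
      calc v ((prodX R).coeff a - (prodX R).coeff (a + 1) * r) * τ ^ (a + 1)
          ≤ max (v ((prodX R).coeff a)) (v ((prodX R).coeff (a + 1) * r)) * τ ^ (a + 1) :=
            mul_le_mul_left (v.map_sub _ _) _
        _ ≤ v r * (R.map v).prod := by
            rcases max_cases (v ((prodX R).coeff a)) (v ((prodX R).coeff (a + 1) * r)) with
              ⟨h, _⟩ | ⟨h, _⟩
            · rw [h]; exact h1
            · rw [h]; exact h2

/-! ### Arithmetic in the value group -/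

/-- moving from the slope `ρ` to a bigger slope `t` on the left of a vertex -/
theorem mul_pow_lt_of_le_low {A B ρ t : Γ₀} {i k : ℕ} (hρ : 0 < ρ) (hρt : ρ < t) (hik : i < k)
    (hB : B ≠ 0) (h : A * ρ ^ i ≤ B * ρ ^ k) : A * t ^ i < B * t ^ k := by
  obtain ⟨d, rfl⟩ : ∃ d, k = i + d := ⟨k - i, by omega⟩
  have hd : d ≠ 0 := by omega
  have ht : 0 < t := lt_trans hρ hρt
  have h1 : A ≤ B * ρ ^ d := by
    rw [pow_add, mul_comm (ρ ^ i), ← mul_assoc] at h
    exact le_of_mul_le_mul_right h (pow_pos hρ i)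
  have h2 : B * ρ ^ d < B * t ^ d := by
    rw [mul_comm B, mul_comm B]
    exact mul_lt_mul_of_pos_right (pow_lt_pow_left₀ hρt hρ.le hd) (zero_lt_iff.mpr hB)
  calc A * t ^ i ≤ B * ρ ^ d * t ^ i := mul_le_mul' h1 le_rfl
    _ < B * t ^ d * t ^ i := mul_lt_mul_of_pos_right h2 (pow_pos ht i)
    _ = B * t ^ (i + d) := by rw [pow_add, mul_assoc, mul_comm (t ^ d)]

/-- moving from the slope `τ` to a smaller slope `t` on the right of a vertex -/
theorem mul_pow_lt_of_le_high {A B τ t : Γ₀} {i k : ℕ} (ht : 0 < t) (htτ : t < τ) (hki : k < i)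
    (hB : B ≠ 0) (h : A * τ ^ i ≤ B * τ ^ k) : A * t ^ i < B * t ^ k := by
  obtain ⟨d, rfl⟩ : ∃ d, i = k + d := ⟨i - k, by omega⟩
  have hd : d ≠ 0 := by omega
  have hτ : 0 < τ := lt_trans ht htτ
  have h1 : A * τ ^ d ≤ B := by
    rw [pow_add, mul_comm (τ ^ k), ← mul_assoc] at h
    exact le_of_mul_le_mul_right h (pow_pos hτ k)
  rcases eq_or_ne A 0 with rfl | hA
  · rw [zero_mul]
    exact mul_pos (zero_lt_iff.mpr hB) (pow_pos ht k)
  have h2 : A * t ^ d < A * τ ^ d := by
    rw [mul_comm A, mul_comm A]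
    exact mul_lt_mul_of_pos_right (pow_lt_pow_left₀ htτ ht.le hd) (zero_lt_iff.mpr hA)
  calc A * t ^ (k + d) = A * t ^ d * t ^ k := by rw [pow_add, mul_assoc, mul_comm (t ^ d)]
    _ < A * τ ^ d * t ^ k := mul_lt_mul_of_pos_right h2 (pow_pos ht k)
    _ ≤ B * t ^ k := mul_le_mul' h1 le_rfl


/-! ### The vertex lemma -/

/-- no root in the open annulus `ρ < |y| < τ` when the lines of slopes `ρ`, `τ` through the point
`k` support the Newton polygon -/
theorem eval_ne_zero_of_mem_annulus (P : K[X]) (k : ℕ) {ρ τ : Γ₀} (hρ : 0 < ρ)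
    (hk : P.coeff k ≠ 0)
    (hlow : ∀ i < k, v (P.coeff i) * ρ ^ i ≤ v (P.coeff k) * ρ ^ k)
    (hhigh : ∀ i, k < i → v (P.coeff i) * τ ^ i ≤ v (P.coeff k) * τ ^ k)
    {y : K} (h1 : ρ < v y) (h2 : v y < τ) : P.eval y ≠ 0 := by
  have hy0 : y ≠ 0 := fun h => by
    rw [h, map_zero] at h1
    exact not_lt_zero h1
  have hvk : v (P.coeff k) ≠ 0 := (v.ne_zero_iff).mpr hk
  apply eval_ne_zero_of_dominant v P y k (mul_ne_zero hk (pow_ne_zero k hy0))
  intro i _ hik
  rw [map_mul, map_mul, map_pow, map_pow]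
  rcases lt_or_gt_of_ne hik with h | h
  · exact mul_pow_lt_of_le_low hρ h1 h hvk (hlow i h)
  · exact mul_pow_lt_of_le_high (lt_trans hρ h1) h2 h hvk (hhigh i h)

/-- **Vertex lemma.** Let `P` be a split polynomial, `k` an index with `aₖ ≠ 0` and `0 < ρ < τ`
such that `|aᵢ| ρⁱ ≤ |aₖ| ρᵏ` for `i < k` and `|aᵢ| τⁱ ≤ |aₖ| τᵏ` for `i > k`. Then `P` has no root
with `ρ < |y| < τ` and exactly `k` roots (with multiplicity) with `|y| ≤ ρ`. -/
theorem vertex (P : K[X]) (hP : P.Splits) (k : ℕ) {ρ τ : Γ₀} (hρ : 0 < ρ) (hρτ : ρ < τ)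
    (hk : P.coeff k ≠ 0)
    (hlow : ∀ i < k, v (P.coeff i) * ρ ^ i ≤ v (P.coeff k) * ρ ^ k)
    (hhigh : ∀ i, k < i → v (P.coeff i) * τ ^ i ≤ v (P.coeff k) * τ ^ k) :
    (∀ y ∈ P.roots, v y ≤ ρ ∨ τ ≤ v y) ∧
      Multiset.card (P.roots.filter fun y => v y ≤ ρ) = k := by
  classical
  have hP0 : P ≠ 0 := fun h => hk (by rw [h, coeff_zero])
  have hτ : 0 < τ := lt_trans hρ hρτ
  have hvk : v (P.coeff k) ≠ 0 := (v.ne_zero_iff).mpr hk
  have hann : ∀ y ∈ P.roots, v y ≤ ρ ∨ τ ≤ v y := by
    intro y hy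
    by_contra hcon
    simp only [not_or, not_le] at hcon
    exact eval_ne_zero_of_mem_annulus v P k hρ hk hlow hhigh hcon.1 hcon.2
      ((mem_roots hP0).mp hy)
  refine ⟨hann, ?_⟩
  set S := P.roots.filter fun y => v y ≤ ρ with hS
  set B := P.roots.filter fun y => ¬ v y ≤ ρ with hB
  have hSB : S + B = P.roots := Multiset.filter_add_not _ _
  have hfac : P = C P.leadingCoeff * (prodX S * prodX B) := by
    rw [← prodX_add, hSB]
    exact hP.eq_prod_roots
  have hSsmall : ∀ r ∈ S, v r ≤ ρ := fun r hr => (Multiset.mem_filter.mp hr).2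
  have hBbig : ∀ r ∈ B, τ ≤ v r := by
    intro r hr
    obtain ⟨hr1, hr2⟩ := Multiset.mem_filter.mp hr
    rcases hann r hr1 with h | h
    · exact absurd h hr2
    · exact h
  set Pr := (B.map v).prod with hPrdef
  have hPr : 0 < Pr := by
    rw [hPrdef]
    apply zero_lt_iff.mpr
    rw [Ne, Multiset.prod_eq_zero_iff]
    intro h0
    obtain ⟨r, hr, hr0⟩ := Multiset.mem_map.mp h0
    have := hBbig r hr
    rw [hr0] at this
    exact not_lt_of_ge this hτ
  have hcoeff : ∀ m, P.coeff m = P.leadingCoeff *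
      ∑ x ∈ Finset.HasAntidiagonal.antidiagonal m, (prodX S).coeff x.1 * (prodX B).coeff x.2 := by
    intro m
    conv_lhs => rw [hfac]
    rw [coeff_C_mul, coeff_mul]
  -- the general bound
  have hbound : ∀ θ : Γ₀, 0 < θ → (∀ r ∈ S, v r ≤ θ) → (∀ r ∈ B, θ ≤ v r) → ∀ m,
      v (P.coeff m) * θ ^ m ≤ v P.leadingCoeff * Pr * θ ^ Multiset.card S := by
    intro θ hθ hS' hB' m
    rw [hcoeff m, map_mul, mul_assoc, mul_assoc]
    refine mul_le_mul' le_rfl ?_
    have hm : 0 < θ ^ m := pow_pos hθ m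
    rw [← le_div_iff₀ hm]
    apply v.map_sum_le
    intro x hx
    rw [le_div_iff₀ hm]
    have hxm : x.1 + x.2 = m := Finset.HasAntidiagonal.mem_antidiagonal.mp hx
    rw [← hxm, pow_add, map_mul]
    calc v ((prodX S).coeff x.1) * v ((prodX B).coeff x.2) * (θ ^ x.1 * θ ^ x.2)
        = (v ((prodX B).coeff x.2) * θ ^ x.2) * (v ((prodX S).coeff x.1) * θ ^ x.1) := by
          rw [mul_mul_mul_comm, mul_comm]
      _ ≤ Pr * θ ^ Multiset.card S :=
          mul_le_mul' (coeff_prod_mul_pow_le_of_big v B θ hB' x.2)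
            (coeff_prod_mul_pow_le_of_small v S θ hS' x.1)
  -- the exact value at the index `card S`
  have hexact : v (P.coeff (Multiset.card S)) = v P.leadingCoeff * Pr := by
    rw [hcoeff, map_mul]
    congr 1
    have hmem : (Multiset.card S, 0) ∈ Finset.HasAntidiagonal.antidiagonal (Multiset.card S) := by
      rw [Finset.HasAntidiagonal.mem_antidiagonal]
      simp
    rw [map_sum_eq_of_dominant v (Finset.HasAntidiagonal.antidiagonal (Multiset.card S))
      (fun x => (prodX S).coeff x.1 * (prodX B).coeff x.2) hmem]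
    · show v ((prodX S).coeff (Multiset.card S) * (prodX B).coeff 0) = Pr
      rw [prodX_coeff_card, one_mul, map_prodX_coeff_zero]
    · intro x hx hne
      show v ((prodX S).coeff x.1 * (prodX B).coeff x.2) <
        v ((prodX S).coeff (Multiset.card S) * (prodX B).coeff 0)
      rw [prodX_coeff_card, one_mul, map_prodX_coeff_zero, map_mul]
      have hxm : x.1 + x.2 = Multiset.card S := Finset.HasAntidiagonal.mem_antidiagonal.mp hx
      have hl : x.2 ≠ 0 := by
        intro h0
        apply hne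
        ext
        · simp only; omega
        · simpa using h0
      have h1 : v ((prodX S).coeff x.1) ≤ ρ ^ x.2 := by
        have := coeff_prod_mul_pow_le_of_small v S ρ hSsmall x.1
        rw [← hxm, pow_add, mul_comm (ρ ^ x.1)] at this
        exact le_of_mul_le_mul_right this (pow_pos hρ x.1)
      have h2 := coeff_prod_mul_pow_le_of_big v B τ hBbig x.2
      by_contra hge
      rw [not_lt] at hge
      have h3 : Pr * τ ^ x.2 ≤ ρ ^ x.2 * Pr := by
        calc Pr * τ ^ x.2
            ≤ v ((prodX S).coeff x.1) * v ((prodX B).coeff x.2) * τ ^ x.2 :=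
              mul_le_mul' hge le_rfl
          _ = v ((prodX S).coeff x.1) * (v ((prodX B).coeff x.2) * τ ^ x.2) := mul_assoc _ _ _
          _ ≤ ρ ^ x.2 * Pr := mul_le_mul' h1 h2
      have h4 : ρ ^ x.2 * Pr < τ ^ x.2 * Pr :=
        mul_lt_mul_of_pos_right (pow_lt_pow_left₀ hρτ hρ.le hl) hPr
      rw [mul_comm Pr] at h3
      exact absurd h3 (not_le.mpr h4)
  rcases lt_trichotomy (Multiset.card S) k with h | h | h
  · exfalso
    have h1 := hbound τ hτ (fun r hr => (hSsmall r hr).trans hρτ.le) hBbig k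
    rw [← hexact] at h1
    have h2 := mul_pow_lt_of_le_low hρ hρτ h hvk (hlow _ h)
    exact absurd h1 (not_le.mpr h2)
  · exact h
  · exfalso
    have h1 := hbound ρ hρ hSsmall (fun r hr => hρτ.le.trans (hBbig r hr)) k
    rw [← hexact] at h1
    have h2 := mul_pow_lt_of_le_high hρ hρτ h hvk (hhigh _ h)
    exact absurd h1 (not_le.mpr h2)


/-! ### The two ends of the polygon -/

/-- upper bound for the roots: if `|aᵢ| τⁱ ≤ |aₙ| τⁿ` for all `i < n = natDegree P`, every root has
size `≤ τ` -/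
theorem le_of_isRoot_of_forall_lt (P : K[X]) (hP0 : P ≠ 0) {τ : Γ₀} (hτ : 0 < τ)
    (h : ∀ i < P.natDegree, v (P.coeff i) * τ ^ i ≤ v (P.coeff P.natDegree) * τ ^ P.natDegree)
    {y : K} (hy : P.eval y = 0) : v y ≤ τ := by
  by_contra hcon
  rw [not_le] at hcon
  have hn : P.coeff P.natDegree ≠ 0 := by
    rw [coeff_natDegree]
    exact leadingCoeff_ne_zero.mpr hP0
  have hy0 : y ≠ 0 := fun h0 => by
    rw [h0, map_zero] at hcon
    exact not_lt_zero hcon
  refine eval_ne_zero_of_dominant v P y P.natDegree (mul_ne_zero hn (pow_ne_zero _ hy0)) ?_ hy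
  intro i hi hne
  rw [map_mul, map_mul, map_pow, map_pow]
  exact mul_pow_lt_of_le_low hτ hcon (lt_of_le_of_ne hi hne) ((v.ne_zero_iff).mpr hn)
    (h i (lt_of_le_of_ne hi hne))

/-- lower bound for the roots: if `a₀ ≠ 0` and `|aᵢ| ρⁱ ≤ |a₀|` for all `i > 0`, every root has
size `≥ ρ` -/
theorem le_of_isRoot_of_forall_pos (P : K[X]) (h0 : P.coeff 0 ≠ 0) {ρ : Γ₀}
    (h : ∀ i, 0 < i → v (P.coeff i) * ρ ^ i ≤ v (P.coeff 0))
    {y : K} (hy : P.eval y = 0) : ρ ≤ v y := by
  by_contra hcon
  rw [not_le] at hcon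
  have hy0 : y ≠ 0 := by
    intro hy0
    rw [hy0, ← coeff_zero_eq_eval_zero] at hy
    exact h0 hy
  have hvy : 0 < v y := zero_lt_iff.mpr ((v.ne_zero_iff).mpr hy0)
  refine eval_ne_zero_of_dominant v P y 0 (by rwa [pow_zero, mul_one]) ?_ hy
  intro i _ hne
  rw [map_mul, map_mul, map_pow, map_pow]
  refine mul_pow_lt_of_le_high hvy hcon (Nat.pos_of_ne_zero hne) ((v.ne_zero_iff).mpr h0) ?_
  rw [pow_zero, mul_one]
  exact h i (Nat.pos_of_ne_zero hne)

/-! ### One and two slopes -/

/-- **One slope**: if `a₀ ≠ 0`, `|a₀| = |aₙ| τⁿ` and all the points `(i, |aᵢ|)` lie above the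
segment, every root has size `τ`. -/
theorem map_eq_of_isRoot_one_slope (P : K[X]) (h0 : P.coeff 0 ≠ 0) {τ : Γ₀} (hτ : 0 < τ)
    (hn : v (P.coeff 0) = v (P.coeff P.natDegree) * τ ^ P.natDegree)
    (h : ∀ i, v (P.coeff i) * τ ^ i ≤ v (P.coeff 0))
    {y : K} (hy : P.eval y = 0) : v y = τ := by
  have hP0 : P ≠ 0 := fun hz => h0 (by rw [hz, coeff_zero])
  refine le_antisymm ?_ ?_
  · exact le_of_isRoot_of_forall_lt v P hP0 hτ (fun i _ => by rw [← hn]; exact h i) hy
  · exact le_of_isRoot_of_forall_pos v P h0 (fun i _ => h i) hy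

/-- **Two slopes.** Let `k ≤ n = natDegree P`, `0 < ρ < τ` with `|a₀| = |aₖ| ρᵏ`,
`|aₖ| τᵏ = |aₙ| τⁿ` and all points above the two segments. Then every root has size `ρ` or `τ`,
exactly `k` roots have size `ρ` and `n - k` have size `τ`. -/
theorem two_slopes (P : K[X]) (hP : P.Splits) (k : ℕ)
    {ρ τ : Γ₀} (hρ : 0 < ρ) (hρτ : ρ < τ) (hk : P.coeff k ≠ 0)
    (h0 : v (P.coeff 0) = v (P.coeff k) * ρ ^ k)
    (hn : v (P.coeff k) * τ ^ k = v (P.coeff P.natDegree) * τ ^ P.natDegree)
    (hlow : ∀ i < k, v (P.coeff i) * ρ ^ i ≤ v (P.coeff k) * ρ ^ k)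
    (hhigh : ∀ i, k < i → v (P.coeff i) * τ ^ i ≤ v (P.coeff k) * τ ^ k) :
    (∀ y ∈ P.roots, v y = ρ ∨ v y = τ) ∧
      Multiset.card (P.roots.filter fun y => v y = ρ) = k ∧
      Multiset.card (P.roots.filter fun y => v y = τ) = P.natDegree - k := by
  classical
  have hP0 : P ≠ 0 := fun hz => hk (by rw [hz, coeff_zero])
  have hτ : 0 < τ := lt_trans hρ hρτ
  have hvk : v (P.coeff k) ≠ 0 := (v.ne_zero_iff).mpr hk
  have ha0 : P.coeff 0 ≠ 0 := by
    rw [← v.ne_zero_iff, h0]
    exact mul_ne_zero hvk (pow_ne_zero _ hρ.ne')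
  obtain ⟨hann, hcard⟩ := vertex v P hP k hρ hρτ hk hlow hhigh
  -- all roots have size between `ρ` and `τ`
  have hge : ∀ y ∈ P.roots, ρ ≤ v y := by
    intro y hy
    refine le_of_isRoot_of_forall_pos v P ha0 ?_ ((mem_roots hP0).mp hy)
    intro i hi
    rw [h0]
    rcases lt_trichotomy i k with h | h | h
    · exact hlow i h
    · rw [h]
    · exact (mul_pow_lt_of_le_high hρ hρτ h hvk (hhigh i h)).le
  have hle : ∀ y ∈ P.roots, v y ≤ τ := by
    intro y hy
    refine le_of_isRoot_of_forall_lt v P hP0 hτ ?_ ((mem_roots hP0).mp hy)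
    intro i hi
    rw [← hn]
    rcases lt_trichotomy i k with h | h | h
    · exact (mul_pow_lt_of_le_low hρ hρτ h hvk (hlow i h)).le
    · rw [h]
    · exact hhigh i h
  have hcases : ∀ y ∈ P.roots, v y = ρ ∨ v y = τ := by
    intro y hy
    rcases hann y hy with h | h
    · exact Or.inl (le_antisymm h (hge y hy))
    · exact Or.inr (le_antisymm (hle y hy) h)
  have hfρ : (P.roots.filter fun y => v y = ρ) = P.roots.filter fun y => v y ≤ ρ := by
    apply Multiset.filter_congr
    intro y hy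
    exact ⟨fun h => h.le, fun h => le_antisymm h (hge y hy)⟩
  have hfτ : (P.roots.filter fun y => v y = τ) = P.roots.filter fun y => ¬ v y ≤ ρ := by
    apply Multiset.filter_congr
    intro y hy
    constructor
    · intro h
      rw [h, not_le]
      exact hρτ
    · intro h
      rcases hcases y hy with h' | h'
      · exact absurd h'.le h
      · exact h'
  refine ⟨hcases, by rw [hfρ, hcard], ?_⟩
  have htot : Multiset.card (P.roots.filter fun y => v y ≤ ρ) +
      Multiset.card (P.roots.filter fun y => ¬ v y ≤ ρ) = P.natDegree := by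
    rw [← Multiset.card_add, Multiset.filter_add_not, hP.natDegree_eq_card_roots]
  rw [hfτ]
  omega

/-! ### Isolated roots -/

/-- a multiset of roots of cardinality one gives a unique root -/
theorem existsUnique_of_card_filter_eq_one (P : K[X]) (hP0 : P ≠ 0) (p : K → Prop)
    [DecidablePred p] (h : Multiset.card (P.roots.filter p) = 1) :
    ∃! y, P.eval y = 0 ∧ p y := by
  obtain ⟨a, ha⟩ := Multiset.card_eq_one.mp h
  have hmem : ∀ y, (P.eval y = 0 ∧ p y) ↔ y = a := by
    intro y
    have : y ∈ P.roots.filter p ↔ y = a := by rw [ha, Multiset.mem_singleton]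
    rw [← this, Multiset.mem_filter, mem_roots hP0, IsRoot.def]
  exact ⟨a, (hmem a).mpr rfl, fun y hy => (hmem y).mp hy⟩

/-- **An isolated root is fixed by valuation-preserving automorphisms**: if `σ` preserves `v` and
the coefficients of `P`, and `P` has exactly one root (with multiplicity) of size `≤ ρ`, then `σ`
fixes this root. -/
theorem map_eq_self_of_card_filter_eq_one (P : K[X]) (hP0 : P ≠ 0) (σ : K →+* K)
    (hσ : ∀ x, v (σ x) = v x) (hPσ : P.map σ = P) (p : Γ₀ → Prop) [DecidablePred p]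
    (h1 : Multiset.card (P.roots.filter fun y => p (v y)) = 1)
    {y : K} (hy : P.eval y = 0) (hyp : p (v y)) : σ y = y := by
  obtain ⟨a, ha⟩ := Multiset.card_eq_one.mp h1
  have hmem : ∀ z, (P.eval z = 0 ∧ p (v z)) → z = a := by
    intro z hz
    have : z ∈ P.roots.filter fun y => p (v y) := by
      rw [Multiset.mem_filter, mem_roots hP0]
      exact hz
    rw [ha, Multiset.mem_singleton] at this
    exact this
  have hσy : P.eval (σ y) = 0 := by
    rw [← hPσ, eval_map, eval₂_at_apply, hy, map_zero]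
  have hya : y = a := hmem y ⟨hy, hyp⟩
  have hσa : σ y = a := hmem (σ y) ⟨hσy, by rw [hσ]; exact hyp⟩
  rw [hσa, hya]

/-- **First order approximation of the isolated small root** in the two-slope situation with
`k = 1`: a root `y` of size `ρ` satisfies `|a₁ y + a₀| < |a₀|`. -/
theorem map_coeff_one_mul_add_lt (P : K[X]) {ρ τ : Γ₀} (hρ : 0 < ρ) (hρτ : ρ < τ)
    (h1 : P.coeff 1 ≠ 0) (h0 : v (P.coeff 0) = v (P.coeff 1) * ρ)
    (hhigh : ∀ i, 1 < i → v (P.coeff i) * τ ^ i ≤ v (P.coeff 1) * τ ^ 1)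
    {y : K} (hy : P.eval y = 0) (hyρ : v y = ρ) :
    v (P.coeff 1 * y + P.coeff 0) < v (P.coeff 0) := by
  classical
  have hv1 : v (P.coeff 1) ≠ 0 := (v.ne_zero_iff).mpr h1
  have hv0 : v (P.coeff 0) ≠ 0 := by
    rw [h0]
    exact mul_ne_zero hv1 hρ.ne'
  rcases Nat.lt_or_ge P.natDegree 1 with hdeg | hdeg
  · exact absurd (coeff_eq_zero_of_natDegree_lt hdeg) h1
  have hsum := eval_eq_sum_range (p := P) y
  rw [hy] at hsum
  have hm0 : 0 ∈ Finset.range (P.natDegree + 1) := Finset.mem_range.mpr (by omega)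
  have hm1 : 1 ∈ (Finset.range (P.natDegree + 1)).erase 0 :=
    Finset.mem_erase.mpr ⟨one_ne_zero, Finset.mem_range.mpr (by omega)⟩
  rw [← Finset.add_sum_erase _ _ hm0, ← Finset.add_sum_erase _ _ hm1, pow_zero, mul_one,
    pow_one, ← add_assoc] at hsum
  have hrest : P.coeff 1 * y + P.coeff 0 =
      -∑ i ∈ ((Finset.range (P.natDegree + 1)).erase 0).erase 1, P.coeff i * y ^ i := by
    rw [add_comm (P.coeff 1 * y)]
    exact eq_neg_of_add_eq_zero_left hsum.symm
  rw [hrest, Valuation.map_neg]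
  apply v.map_sum_lt hv0
  intro i hi
  have hi1 : i ≠ 1 := Finset.ne_of_mem_erase hi
  have hi0 : i ≠ 0 := Finset.ne_of_mem_erase (Finset.mem_of_mem_erase hi)
  have hlt := mul_pow_lt_of_le_high hρ hρτ (show 1 < i by omega) hv1 (hhigh i (by omega))
  rw [pow_one, ← h0] at hlt
  rw [map_mul, map_pow, hyρ]
  exact hlt

end Fermat.Agent.BR.Newton
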