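/-
Program B (bad reduction), block B2, node NP-NODE (helper20).
The local equation of a node of thickness `v(π)`:
`G(x, y) = (x^q - y) (x - y^q) + π R(x, y)`, `R` with integral coefficients (`IntCoeff₂ v R`) and
unit constant term, over a field `K` with a (multiplicative) valuation `v : Valuation K Γ₀`
(same convention as `BR/NewtonPoly.lean`: `|x| := v x`).
* `annulus_of_zero`: on the zeros of `G` in the open unit bidisc, `X' = x - y^q`, `Y' = y - x^q`
  satisfy `|X'| |Y'| = |π|`, `|π| < |X'|, |Y'| < 1` (standard node of thickness `v(π)`);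
* `zero_unique_of_coordX/Y`, `coordX_injective`, `coordY_injective`: the annulus coordinates are
  injective on the zeros in the open unit bidisc (no algebraic closedness needed);
* `exists_zero_of_coordX/Y`, `existsUnique_zero_of_coordX/Y`, `existsUnique_zero_of_coord`:
  (`K` algebraically closed) for every `c` with `|π| < |c| < 1` there is a unique zero in the open
  unit bidisc with `x - y^q = c` (resp. `y - x^q = c`): the annulus bijection;
* `map_y_of_coordX`, `map_x_of_coordY`, `map_y_of_coordX_of_lt/_of_gt`: position of the point;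
* `map_nodeEq`, `nodeEq_map_eq_zero`, `zero_map_of_coordX/Y`, `zero_map_of_coord`,
  `map_eq_self_of_coordX`: equivariance under valuation-preserving ring endomorphisms fixing `G`;
* generic one-variable tools: `root_unique_of_dominant_linear`, `map_coeff_zero_of_dominant_linear`,
  `exists_root_lt_one` (a polynomial whose linear coefficient dominates has exactly one root in the
  open unit disc).
-/
import Mathlib
import Fermat.Agent.BR.NewtonPoly

set_option autoImplicit false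

namespace Fermat.Agent.BR.NodeNewton

open Polynomial
open Fermat.Agent.BR
open scoped Polynomial.Bivariate

variable {K : Type*} [Field K] {Γ₀ : Type*} [LinearOrderedCommGroupWithZero Γ₀]
  (v : Valuation K Γ₀)

/-! ### polynomials with integral coefficients -/

/-- all coefficients have size `≤ 1` -/
def IntCoeff (P : K[X]) : Prop := ∀ i, v (P.coeff i) ≤ 1

variable {v}

theorem IntCoeff.zero : IntCoeff v (0 : K[X]) := fun i => by simp

theorem IntCoeff.C {a : K} (ha : v a ≤ 1) : IntCoeff v (C a) := fun i => by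
  rw [coeff_C]
  split_ifs
  · exact ha
  · simp

theorem IntCoeff.one : IntCoeff v (1 : K[X]) := by
  have : (1 : K[X]) = Polynomial.C 1 := by simp
  rw [this]
  exact IntCoeff.C (by simp)

theorem IntCoeff.X : IntCoeff v (X : K[X]) := fun i => by
  rw [coeff_X]
  split_ifs <;> simp

theorem IntCoeff.add {P Q : K[X]} (hP : IntCoeff v P) (hQ : IntCoeff v Q) : IntCoeff v (P + Q) :=
  fun i => by
    rw [coeff_add]
    exact le_trans (v.map_add _ _) (max_le (hP i) (hQ i))

theorem IntCoeff.neg {P : K[X]} (hP : IntCoeff v P) : IntCoeff v (-P) := fun i => by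
  rw [coeff_neg, Valuation.map_neg]
  exact hP i

theorem IntCoeff.sub {P Q : K[X]} (hP : IntCoeff v P) (hQ : IntCoeff v Q) : IntCoeff v (P - Q) := by
  rw [sub_eq_add_neg]
  exact hP.add hQ.neg

theorem IntCoeff.mul {P Q : K[X]} (hP : IntCoeff v P) (hQ : IntCoeff v Q) : IntCoeff v (P * Q) :=
  fun i => by
    rw [coeff_mul]
    apply v.map_sum_le
    intro x _
    rw [map_mul]
    exact mul_le_one' (hP _) (hQ _)

theorem IntCoeff.pow {P : K[X]} (hP : IntCoeff v P) (n : ℕ) : IntCoeff v (P ^ n) := by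
  induction n with
  | zero => rw [pow_zero]; exact IntCoeff.one
  | succ n ih => rw [pow_succ]; exact ih.mul hP

theorem IntCoeff.sum {ι : Type*} (s : Finset ι) (f : ι → K[X]) (h : ∀ i ∈ s, IntCoeff v (f i)) :
    IntCoeff v (∑ i ∈ s, f i) := fun n => by
  rw [finsetSum_coeff]
  apply v.map_sum_le
  intro i hi
  exact h i hi n

theorem IntCoeff.comp {P S : K[X]} (hP : IntCoeff v P) (hS : IntCoeff v S) :
    IntCoeff v (P.comp S) := by
  rw [comp_eq_sum_left, Polynomial.sum_def]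
  apply IntCoeff.sum
  intro i _
  exact (IntCoeff.C (hP i)).mul (hS.pow i)

/-- evaluation of an integral polynomial at an integral point -/
theorem IntCoeff.eval_le {P : K[X]} (hP : IntCoeff v P) {x : K} (hx : v x ≤ 1) :
    v (P.eval x) ≤ 1 := by
  rw [eval_eq_sum_range]
  apply v.map_sum_le
  intro i _
  rw [map_mul, map_pow]
  exact mul_le_one' (hP i) (pow_le_one' hx i)

/-- evaluation of an integral polynomial at a point of the open unit disc -/
theorem IntCoeff.eval_sub_coeff_zero_lt {P : K[X]} (hP : IntCoeff v P) {x : K} (hx : v x < 1) :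
    v (P.eval x - P.coeff 0) < 1 := by
  have h : P.eval x - P.coeff 0 = ∑ i ∈ Finset.range (P.natDegree + 1), if i = 0 then 0
      else P.coeff i * x ^ i := by
    rw [eval_eq_sum_range, Finset.sum_range_succ', Finset.sum_range_succ']
    simp
  rw [h]
  apply v.map_sum_lt (by simp)
  intro i _
  split_ifs with hi
  · simp
  · rw [map_mul, map_pow]
    have h1 : v x ^ i < 1 := pow_lt_one₀ (by simp) hx hi
    calc v (P.coeff i) * v x ^ i ≤ 1 * v x ^ i := mul_le_mul' (hP i) le_rfl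
      _ = v x ^ i := one_mul _
      _ < 1 := h1

/-! ### bivariate polynomials with integral coefficients -/

variable (v) in
/-- all coefficients of a bivariate polynomial have size `≤ 1` -/
def IntCoeff₂ (R : K[X][Y]) : Prop := ∀ i, IntCoeff v (R.coeff i)

theorem evalEval_eq_sum (R : K[X][Y]) (x y : K) :
    R.evalEval x y = ∑ i ∈ Finset.range (R.natDegree + 1), (R.coeff i).eval x * y ^ i := by
  rw [evalEval, show eval (C y) R = ∑ i ∈ Finset.range (R.natDegree + 1), R.coeff i * (C y) ^ i from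
    eval_eq_sum_range _, eval_finsetSum]
  simp

theorem IntCoeff₂.evalEval_le {R : K[X][Y]} (hR : IntCoeff₂ v R) {x y : K} (hx : v x ≤ 1)
    (hy : v y ≤ 1) : v (R.evalEval x y) ≤ 1 := by
  rw [evalEval_eq_sum]
  apply v.map_sum_le
  intro i _
  rw [map_mul, map_pow]
  exact mul_le_one' ((hR i).eval_le hx) (pow_le_one' hy i)

/-- the value of an integral bivariate polynomial at a point of the open unit bidisc is congruent
to its constant term -/
theorem IntCoeff₂.evalEval_sub_lt {R : K[X][Y]} (hR : IntCoeff₂ v R) {x y : K} (hx : v x < 1)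
    (hy : v y < 1) : v (R.evalEval x y - (R.coeff 0).coeff 0) < 1 := by
  have h : R.evalEval x y - (R.coeff 0).coeff 0 =
      ∑ i ∈ Finset.range (R.natDegree + 1), if i = 0 then (R.coeff 0).eval x - (R.coeff 0).coeff 0
        else (R.coeff i).eval x * y ^ i := by
    rw [evalEval_eq_sum, Finset.sum_range_succ', Finset.sum_range_succ']
    simp
    ring
  rw [h]
  apply v.map_sum_lt (by simp)
  intro i _
  split_ifs with hi
  · exact (hR 0).eval_sub_coeff_zero_lt hx
  · rw [map_mul, map_pow]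
    have h1 : v y ^ i < 1 := pow_lt_one₀ (by simp) hy hi
    calc v ((R.coeff i).eval x) * v y ^ i ≤ 1 * v y ^ i :=
          mul_le_mul' ((hR i).eval_le hx.le) le_rfl
      _ = v y ^ i := one_mul _
      _ < 1 := h1

/-- the value of an integral bivariate polynomial with unit constant term at a point of the open
unit bidisc is a unit -/
theorem IntCoeff₂.evalEval_eq_one {R : K[X][Y]} (hR : IntCoeff₂ v R)
    (hγ : v ((R.coeff 0).coeff 0) = 1) {x y : K} (hx : v x < 1) (hy : v y < 1) :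
    v (R.evalEval x y) = 1 := by
  have h := hR.evalEval_sub_lt hx hy
  have e : R.evalEval x y = (R.evalEval x y - (R.coeff 0).coeff 0) + (R.coeff 0).coeff 0 := by ring
  rw [e, Valuation.map_add_eq_of_lt_right _ (by rw [hγ]; exact h), hγ]

/-! ### the node equation -/

/-- the local equation of a node: `(x^q - y) (x - y^q) + π R(x, y)` -/
noncomputable def nodeEq (q : ℕ) (pi : K) (R : K[X][Y]) (x y : K) : K :=
  (x ^ q - y) * (x - y ^ q) + pi * R.evalEval x y

/-- **The annulus.** On the zeros of the node equation in the open unit bidisc the functions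
`X' = x - y^q` and `Y' = y - x^q` satisfy `|X'| |Y'| = |π|` and `|π| < |X'|, |Y'| < 1`. -/
theorem annulus_of_zero {q : ℕ} (hq : q ≠ 0) {pi : K} (hpi : pi ≠ 0) {R : K[X][Y]}
    (hR : IntCoeff₂ v R) (hγ : v ((R.coeff 0).coeff 0) = 1) {x y : K} (hx : v x < 1)
    (hy : v y < 1) (h0 : nodeEq q pi R x y = 0) :
    v (x - y ^ q) * v (y - x ^ q) = v pi ∧ v pi < v (x - y ^ q) ∧ v (x - y ^ q) < 1 ∧
      v pi < v (y - x ^ q) ∧ v (y - x ^ q) < 1 := by
  have hprod : (x - y ^ q) * (y - x ^ q) = pi * R.evalEval x y := by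
    unfold nodeEq at h0
    linear_combination -h0
  have hu := hR.evalEval_eq_one hγ hx hy
  have hv : v (x - y ^ q) * v (y - x ^ q) = v pi := by
    rw [← map_mul, hprod, map_mul, hu, mul_one]
  have hpi0 : v pi ≠ 0 := (Valuation.ne_zero_iff v).2 hpi
  have hxq : v (x ^ q) < 1 := by rw [map_pow]; exact pow_lt_one₀ (by simp) hx hq
  have hyq : v (y ^ q) < 1 := by rw [map_pow]; exact pow_lt_one₀ (by simp) hy hq
  have hX : v (x - y ^ q) < 1 := v.map_sub_lt hx hyq
  have hY : v (y - x ^ q) < 1 := v.map_sub_lt hy hxq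
  have hX0 : v (x - y ^ q) ≠ 0 := fun h => hpi0 (by rw [← hv, h, zero_mul])
  have hY0 : v (y - x ^ q) ≠ 0 := fun h => hpi0 (by rw [← hv, h, mul_zero])
  refine ⟨hv, ?_, hX, ?_, hY⟩
  · calc v pi = v (x - y ^ q) * v (y - x ^ q) := hv.symm
      _ < v (x - y ^ q) * 1 := mul_lt_mul_of_pos_left hY (zero_lt_iff.2 hX0)
      _ = v (x - y ^ q) := mul_one _
  · calc v pi = v (x - y ^ q) * v (y - x ^ q) := hv.symm
      _ < 1 * v (y - x ^ q) := mul_lt_mul_of_pos_right hX (zero_lt_iff.2 hY0)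
      _ = v (y - x ^ q) := one_mul _

/-! ### polynomials with a dominant linear coefficient -/

/-- the divided difference of `x ^ i` at two points of the open unit disc is small for `2 ≤ i` -/
theorem geom_sum₂_lt_one {y₁ y₂ : K} (h₁ : v y₁ < 1) (h₂ : v y₂ < 1) {i : ℕ} (hi : 2 ≤ i) :
    v (∑ j ∈ Finset.range i, y₁ ^ j * y₂ ^ (i - 1 - j)) < 1 := by
  apply v.map_sum_lt (by simp)
  intro j hj
  rw [Finset.mem_range] at hj
  rw [map_mul, map_pow, map_pow]
  rcases Nat.eq_zero_or_pos j with h0 | h0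
  · subst h0
    rw [pow_zero, one_mul]
    exact pow_lt_one₀ (by simp) h₂ (by omega)
  · calc v y₁ ^ j * v y₂ ^ (i - 1 - j) ≤ v y₁ ^ j * 1 :=
          mul_le_mul' le_rfl (pow_le_one' h₂.le _)
      _ = v y₁ ^ j := mul_one _
      _ < 1 := pow_lt_one₀ (by simp) h₁ (by omega)

/-- **Uniqueness of the small root.** If the linear coefficient of `P` dominates all the others
(weakly) and is nonzero, then `P` has at most one root in the open unit disc. -/
theorem root_unique_of_dominant_linear {P : K[X]} (h1 : P.coeff 1 ≠ 0)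
    (hdom : ∀ i, v (P.coeff i) ≤ v (P.coeff 1)) {y₁ y₂ : K} (h₁ : v y₁ < 1) (h₂ : v y₂ < 1)
    (e₁ : P.eval y₁ = 0) (e₂ : P.eval y₂ = 0) : y₁ = y₂ := by
  classical
  have hv1 : v (P.coeff 1) ≠ 0 := (v.ne_zero_iff).mpr h1
  have hdeg : 1 ≤ P.natDegree := by
    by_contra hcon
    exact h1 (coeff_eq_zero_of_natDegree_lt (by omega))
  -- the divided difference
  set D : K := ∑ i ∈ Finset.range (P.natDegree + 1),
    P.coeff i * ∑ j ∈ Finset.range i, y₁ ^ j * y₂ ^ (i - 1 - j) with hD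
  have hfac : P.eval y₁ - P.eval y₂ = D * (y₁ - y₂) := by
    rw [eval_eq_sum_range, eval_eq_sum_range, ← Finset.sum_sub_distrib, hD, Finset.sum_mul]
    apply Finset.sum_congr rfl
    intro i _
    rw [mul_assoc, (Commute.all y₁ y₂).geom_sum₂_mul, mul_sub]
  have hm1 : 1 ∈ Finset.range (P.natDegree + 1) := Finset.mem_range.mpr (by omega)
  have hDv : v D = v (P.coeff 1) := by
    rw [hD, ← Finset.add_sum_erase _ _ hm1]
    have e1 : P.coeff 1 * ∑ j ∈ Finset.range 1, y₁ ^ j * y₂ ^ (1 - 1 - j) = P.coeff 1 := by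
      simp
    rw [e1]
    apply Valuation.map_add_eq_of_lt_left
    apply v.map_sum_lt hv1
    intro i hi
    have hi1 : i ≠ 1 := Finset.ne_of_mem_erase hi
    rcases Nat.eq_zero_or_pos i with h0 | h0
    · subst h0
      simp [zero_lt_iff, hv1]
    · rw [map_mul]
      calc v (P.coeff i) * v (∑ j ∈ Finset.range i, y₁ ^ j * y₂ ^ (i - 1 - j))
          ≤ v (P.coeff 1) * v (∑ j ∈ Finset.range i, y₁ ^ j * y₂ ^ (i - 1 - j)) :=
            mul_le_mul' (hdom i) le_rfl
        _ < v (P.coeff 1) * 1 :=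
            mul_lt_mul_of_pos_left (geom_sum₂_lt_one h₁ h₂ (by omega)) (zero_lt_iff.2 hv1)
        _ = v (P.coeff 1) := mul_one _
  have hD0 : D ≠ 0 := by
    intro h
    rw [h, map_zero] at hDv
    exact hv1 hDv.symm
  rw [e₁, e₂, sub_zero] at hfac
  have := (mul_eq_zero.mp hfac.symm).resolve_left hD0
  exact sub_eq_zero.mp this

/-- **Size of the small root.** If the linear coefficient of `P` dominates all the others
(weakly), a root `y` in the open unit disc satisfies `|a₀| = |y| |a₁|`. -/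
theorem map_coeff_zero_of_dominant_linear {P : K[X]}
    (hdom : ∀ i, v (P.coeff i) ≤ v (P.coeff 1)) {y : K} (hy : v y < 1)
    (e : P.eval y = 0) : v (P.coeff 0) = v y * v (P.coeff 1) := by
  classical
  rcases eq_or_ne (P.coeff 1) 0 with h1 | h1
  · have h0 : v (P.coeff 0) ≤ 0 := by
      have := hdom 0
      rwa [h1, map_zero] at this
    rw [h1, map_zero, mul_zero]
    exact le_antisymm h0 zero_le
  have hv1 : v (P.coeff 1) ≠ 0 := (v.ne_zero_iff).mpr h1
  rcases eq_or_ne y 0 with hy0 | hy0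
  · subst hy0
    rw [← coeff_zero_eq_eval_zero] at e
    rw [e, map_zero, zero_mul]
  have hvy : v y ≠ 0 := (v.ne_zero_iff).mpr hy0
  have hdeg : 1 ≤ P.natDegree := by
    by_contra hcon
    exact h1 (coeff_eq_zero_of_natDegree_lt (by omega))
  have hsum := eval_eq_sum_range (p := P) y
  rw [e] at hsum
  have hm0 : 0 ∈ Finset.range (P.natDegree + 1) := Finset.mem_range.mpr (by omega)
  have hm1 : 1 ∈ (Finset.range (P.natDegree + 1)).erase 0 :=
    Finset.mem_erase.mpr ⟨one_ne_zero, Finset.mem_range.mpr (by omega)⟩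
  rw [← Finset.add_sum_erase _ _ hm0, ← Finset.add_sum_erase _ _ hm1, pow_zero, mul_one,
    pow_one] at hsum
  have h0 : P.coeff 0 = -(P.coeff 1 * y +
      ∑ i ∈ ((Finset.range (P.natDegree + 1)).erase 0).erase 1, P.coeff i * y ^ i) :=
    eq_neg_of_add_eq_zero_left hsum.symm
  have hlt : v (∑ i ∈ ((Finset.range (P.natDegree + 1)).erase 0).erase 1, P.coeff i * y ^ i) <
      v (P.coeff 1 * y) := by
    apply v.map_sum_lt (by rw [map_mul]; exact mul_ne_zero hv1 hvy)
    intro i hi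
    have hi1 : i ≠ 1 := Finset.ne_of_mem_erase hi
    have hi0 : i ≠ 0 := Finset.ne_of_mem_erase (Finset.mem_of_mem_erase hi)
    obtain ⟨k, rfl⟩ : ∃ k, i = k + 2 := ⟨i - 2, by omega⟩
    rw [map_mul, map_mul, map_pow]
    have hk : v y ^ (k + 2) < v y := by
      calc v y ^ (k + 2) = v y ^ (k + 1) * v y := pow_succ _ _
        _ < 1 * v y := mul_lt_mul_of_pos_right (pow_lt_one₀ (by simp) hy (by omega))
            (zero_lt_iff.2 hvy)
        _ = v y := one_mul _
    calc v (P.coeff (k + 2)) * v y ^ (k + 2) ≤ v (P.coeff 1) * v y ^ (k + 2) :=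
          mul_le_mul' (hdom _) le_rfl
      _ < v (P.coeff 1) * v y := mul_lt_mul_of_pos_left hk (zero_lt_iff.2 hv1)
  rw [h0, Valuation.map_neg, Valuation.map_add_eq_of_lt_left _ hlt, map_mul, mul_comm]

/-- **Existence of the small root.** A split polynomial whose linear coefficient is strictly bigger
than its constant coefficient has a root in the open unit disc. -/
theorem exists_root_lt_one {P : K[X]} (hP : P.Splits) (h01 : v (P.coeff 0) < v (P.coeff 1)) :
    ∃ y, v y < 1 ∧ P.eval y = 0 := by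
  classical
  have hP0 : P ≠ 0 := by
    intro h
    rw [h] at h01
    simp at h01
  by_contra hcon
  have hbig : ∀ r ∈ P.roots, 1 ≤ v r := by
    intro r hr
    by_contra hlt
    exact hcon ⟨r, not_le.mp hlt, (mem_roots hP0).mp hr⟩
  have hfac : P = C P.leadingCoeff * Newton.prodX P.roots := hP.eq_prod_roots
  have hb := Newton.coeff_prod_mul_pow_le_of_big v P.roots 1 hbig 1
  rw [one_pow, mul_one, ← Newton.map_prodX_coeff_zero] at hb
  have h1 : v (P.coeff 1) ≤ v (P.coeff 0) := by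
    conv_lhs => rw [hfac]
    conv_rhs => rw [hfac]
    rw [coeff_C_mul, coeff_C_mul, map_mul, map_mul]
    exact mul_le_mul' le_rfl hb
  exact absurd h01 (not_lt.mpr h1)

/-! ### the fibre polynomial -/

/-- the polynomial `c ((c + T^q)^q - T) + π Rc(T)` whose roots in the open unit disc are the
points of the node with coordinate `c` -/
noncomputable def fibrePoly (q : ℕ) (pi c : K) (Rc : K[X]) : K[X] :=
  C c * ((C c + X ^ q) ^ q - X) + C pi * Rc

theorem fibrePoly_eval (q : ℕ) (pi c : K) (Rc : K[X]) (y : K) :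
    (fibrePoly q pi c Rc).eval y = c * ((c + y ^ q) ^ q - y) + pi * Rc.eval y := by
  simp [fibrePoly]

theorem pow_coeff_one {q : ℕ} (hq : 2 ≤ q) (c : K) : ((C c + X ^ q : K[X]) ^ q).coeff 1 = 0 := by
  have h : (C c + X ^ q : K[X]) ^ q = expand K q ((C c + X) ^ q) := by
    simp
  rw [h, coeff_expand (by omega)]
  rw [if_neg]
  rw [Nat.dvd_one]
  omega

theorem pow_coeff_zero {q : ℕ} (hq : q ≠ 0) (c : K) :
    ((C c + X ^ q : K[X]) ^ q).coeff 0 = c ^ q := by
  rw [coeff_zero_eq_eval_zero]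
  simp [hq]

theorem intCoeff_pow {q : ℕ} {c : K} (hc : v c ≤ 1) : IntCoeff v ((C c + X ^ q : K[X]) ^ q) :=
  ((IntCoeff.C hc).add (IntCoeff.X.pow q)).pow q

theorem fibrePoly_coeff (q : ℕ) (pi c : K) (Rc : K[X]) (i : ℕ) :
    (fibrePoly q pi c Rc).coeff i =
      c * (((C c + X ^ q : K[X]) ^ q).coeff i - (X : K[X]).coeff i) + pi * Rc.coeff i := by
  rw [fibrePoly, coeff_add, coeff_C_mul, coeff_C_mul, coeff_sub]

theorem fibrePoly_coeff_zero {q : ℕ} (hq : q ≠ 0) (pi c : K) (Rc : K[X]) :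
    (fibrePoly q pi c Rc).coeff 0 = c ^ (q + 1) + pi * Rc.eval 0 := by
  rw [fibrePoly_coeff, pow_coeff_zero hq, coeff_X_zero, sub_zero, ← coeff_zero_eq_eval_zero]
  ring

theorem map_fibrePoly_coeff_one {q : ℕ} (hq : 2 ≤ q) {pi c : K} (hc2 : v pi < v c) {Rc : K[X]}
    (hRc : IntCoeff v Rc) : v ((fibrePoly q pi c Rc).coeff 1) = v c := by
  rw [fibrePoly_coeff, pow_coeff_one hq, coeff_X_one, zero_sub, mul_neg, mul_one]
  have h : v (pi * Rc.coeff 1) < v (-c) := by
    rw [Valuation.map_neg, map_mul]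
    calc v pi * v (Rc.coeff 1) ≤ v pi * 1 := mul_le_mul' le_rfl (hRc 1)
      _ = v pi := mul_one _
      _ < v c := hc2
  rw [Valuation.map_add_eq_of_lt_left _ h, Valuation.map_neg]

theorem map_fibrePoly_coeff_le {q : ℕ} {pi c : K} (hc1 : v c ≤ 1) (hc2 : v pi < v c) {Rc : K[X]}
    (hRc : IntCoeff v Rc) (i : ℕ) : v ((fibrePoly q pi c Rc).coeff i) ≤ v c := by
  rw [fibrePoly_coeff]
  refine le_trans (v.map_add _ _) (max_le ?_ ?_)
  · rw [map_mul]
    have h : v (((C c + X ^ q : K[X]) ^ q).coeff i - (X : K[X]).coeff i) ≤ 1 := by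
      rw [← coeff_sub]
      exact ((intCoeff_pow (q := q) hc1).sub IntCoeff.X) i
    calc v c * _ ≤ v c * 1 := mul_le_mul' le_rfl h
      _ = v c := mul_one _
  · rw [map_mul]
    calc v pi * v (Rc.coeff i) ≤ v pi * 1 := mul_le_mul' le_rfl (hRc i)
      _ = v pi := mul_one _
      _ ≤ v c := hc2.le

theorem map_fibrePoly_coeff_zero_lt {q : ℕ} (hq : q ≠ 0) {pi c : K} (hc1 : v c < 1)
    (hc2 : v pi < v c) {Rc : K[X]} (hRc : IntCoeff v Rc) :
    v ((fibrePoly q pi c Rc).coeff 0) < v c := by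
  have hc0 : 0 < v c := lt_of_le_of_lt zero_le hc2
  rw [fibrePoly_coeff, pow_coeff_zero hq, coeff_X_zero, sub_zero]
  refine lt_of_le_of_lt (v.map_add _ _) (max_lt ?_ ?_)
  · rw [map_mul, map_pow]
    calc v c * v c ^ q < v c * 1 :=
          mul_lt_mul_of_pos_left (pow_lt_one₀ zero_le hc1 hq) hc0
      _ = v c := mul_one _
  · rw [map_mul]
    calc v pi * v (Rc.coeff 0) ≤ v pi * 1 := mul_le_mul' le_rfl (hRc 0)
      _ = v pi := mul_one _
      _ < v c := hc2

/-- uniqueness of the root of the fibre polynomial in the open unit disc -/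
theorem fibre_unique {q : ℕ} (hq : 2 ≤ q) {pi c : K} (hc1 : v c < 1) (hc2 : v pi < v c)
    {Rc : K[X]} (hRc : IntCoeff v Rc) {y₁ y₂ : K} (h₁ : v y₁ < 1) (h₂ : v y₂ < 1)
    (e₁ : c * ((c + y₁ ^ q) ^ q - y₁) + pi * Rc.eval y₁ = 0)
    (e₂ : c * ((c + y₂ ^ q) ^ q - y₂) + pi * Rc.eval y₂ = 0) : y₁ = y₂ := by
  have hc0 : 0 < v c := lt_of_le_of_lt zero_le hc2
  have h1v := map_fibrePoly_coeff_one hq hc2 hRc
  have h1 : (fibrePoly q pi c Rc).coeff 1 ≠ 0 := by
    intro h
    rw [h, map_zero] at h1v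
    exact hc0.ne h1v
  refine root_unique_of_dominant_linear (v := v) h1 (fun i => ?_) h₁ h₂ ?_ ?_
  · rw [h1v]
    exact map_fibrePoly_coeff_le hc1.le hc2 hRc i
  · rw [fibrePoly_eval]; exact e₁
  · rw [fibrePoly_eval]; exact e₂

/-- existence of a root of the fibre polynomial in the open unit disc -/
theorem fibre_exists [IsAlgClosed K] {q : ℕ} (hq : 2 ≤ q) {pi c : K} (hc1 : v c < 1)
    (hc2 : v pi < v c) {Rc : K[X]} (hRc : IntCoeff v Rc) :
    ∃ y, v y < 1 ∧ c * ((c + y ^ q) ^ q - y) + pi * Rc.eval y = 0 := by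
  have h01 : v ((fibrePoly q pi c Rc).coeff 0) < v ((fibrePoly q pi c Rc).coeff 1) := by
    rw [map_fibrePoly_coeff_one hq hc2 hRc]
    exact map_fibrePoly_coeff_zero_lt (by omega) hc1 hc2 hRc
  obtain ⟨y, hy, e⟩ := exists_root_lt_one (IsAlgClosed.splits _) h01
  exact ⟨y, hy, by rw [← fibrePoly_eval]; exact e⟩

/-- the size of the root of the fibre polynomial in the open unit disc -/
theorem fibre_size {q : ℕ} (hq : 2 ≤ q) {pi c : K} (hc1 : v c < 1) (hc2 : v pi < v c)
    {Rc : K[X]} (hRc : IntCoeff v Rc) {y : K} (hy : v y < 1)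
    (e : c * ((c + y ^ q) ^ q - y) + pi * Rc.eval y = 0) :
    v y * v c = v (c ^ (q + 1) + pi * Rc.eval 0) := by
  have h1v := map_fibrePoly_coeff_one hq hc2 hRc
  have h := map_coeff_zero_of_dominant_linear (v := v) (P := fibrePoly q pi c Rc)
    (fun i => by rw [h1v]; exact map_fibrePoly_coeff_le hc1.le hc2 hRc i) hy
    (by rw [fibrePoly_eval]; exact e)
  rw [h1v, fibrePoly_coeff_zero (by omega)] at h
  exact h.symm

/-! ### the two substitutions -/

/-- `R(c + T^q, T)` as a polynomial in `T` -/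
noncomputable def substX (q : ℕ) (c : K) (R : K[X][Y]) : K[X] :=
  ∑ i ∈ Finset.range (R.natDegree + 1), (R.coeff i).comp (C c + X ^ q) * X ^ i

theorem substX_eval (q : ℕ) (c : K) (R : K[X][Y]) (y : K) :
    (substX q c R).eval y = R.evalEval (c + y ^ q) y := by
  rw [substX, eval_finsetSum, evalEval_eq_sum]
  apply Finset.sum_congr rfl
  intro i _
  simp [eval_comp]

theorem substX_intCoeff (q : ℕ) {c : K} (hc : v c ≤ 1) {R : K[X][Y]} (hR : IntCoeff₂ v R) :
    IntCoeff v (substX q c R) :=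
  IntCoeff.sum _ _ fun i _ =>
    ((hR i).comp ((IntCoeff.C hc).add (IntCoeff.X.pow q))).mul (IntCoeff.X.pow i)

/-- `R(T, c + T^q)` as a polynomial in `T` -/
noncomputable def substY (q : ℕ) (c : K) (R : K[X][Y]) : K[X] := R.eval (C c + X ^ q)

theorem substY_eval (q : ℕ) (c : K) (R : K[X][Y]) (x : K) :
    (substY q c R).eval x = R.evalEval x (c + x ^ q) := by
  have h : R.eval (C c + X ^ q) =
      ∑ i ∈ Finset.range (R.natDegree + 1), R.coeff i * (C c + X ^ q) ^ i := eval_eq_sum_range _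
  rw [substY, h, eval_finsetSum, evalEval_eq_sum]
  simp

theorem substY_intCoeff (q : ℕ) {c : K} (hc : v c ≤ 1) {R : K[X][Y]} (hR : IntCoeff₂ v R) :
    IntCoeff v (substY q c R) := by
  have h : R.eval (C c + X ^ q) =
      ∑ i ∈ Finset.range (R.natDegree + 1), R.coeff i * (C c + X ^ q) ^ i := eval_eq_sum_range _
  rw [substY, h]
  exact IntCoeff.sum _ _ fun i _ =>
    (hR i).mul (((IntCoeff.C hc).add (IntCoeff.X.pow q)).pow i)

theorem nodeEq_coordX (q : ℕ) (pi : K) (R : K[X][Y]) (c y : K) :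
    nodeEq q pi R (c + y ^ q) y = c * ((c + y ^ q) ^ q - y) + pi * (substX q c R).eval y := by
  rw [substX_eval, nodeEq]
  ring

theorem nodeEq_coordY (q : ℕ) (pi : K) (R : K[X][Y]) (c x : K) :
    nodeEq q pi R x (c + x ^ q) = c * ((c + x ^ q) ^ q - x) + pi * (substY q c R).eval x := by
  rw [substY_eval, nodeEq]
  ring

/-! ### the annulus bijection -/

/-- **Injectivity of the coordinate `X' = x - y^q`** on the zeros of the node equation in the open
unit bidisc lying over the annulus `|π| < |X'| < 1`. -/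
theorem zero_unique_of_coordX {q : ℕ} (hq : 2 ≤ q) {pi : K} {R : K[X][Y]} (hR : IntCoeff₂ v R)
    {c : K} (hc1 : v c < 1) (hc2 : v pi < v c) {x y x' y' : K} (hy : v y < 1) (hy' : v y' < 1)
    (h0 : nodeEq q pi R x y = 0) (h0' : nodeEq q pi R x' y' = 0)
    (hc : x - y ^ q = c) (hc' : x' - y' ^ q = c) : x = x' ∧ y = y' := by
  have ex : x = c + y ^ q := by rw [← hc]; ring
  have ex' : x' = c + y' ^ q := by rw [← hc']; ring
  rw [ex, nodeEq_coordX] at h0
  rw [ex', nodeEq_coordX] at h0'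
  have hyy := fibre_unique hq hc1 hc2 (substX_intCoeff q hc1.le hR) hy hy' h0 h0'
  refine ⟨?_, hyy⟩
  rw [ex, ex', hyy]

/-- **Injectivity of the coordinate `Y' = y - x^q`**. -/
theorem zero_unique_of_coordY {q : ℕ} (hq : 2 ≤ q) {pi : K} {R : K[X][Y]} (hR : IntCoeff₂ v R)
    {c : K} (hc1 : v c < 1) (hc2 : v pi < v c) {x y x' y' : K} (hx : v x < 1) (hx' : v x' < 1)
    (h0 : nodeEq q pi R x y = 0) (h0' : nodeEq q pi R x' y' = 0)
    (hc : y - x ^ q = c) (hc' : y' - x' ^ q = c) : x = x' ∧ y = y' := by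
  have ey : y = c + x ^ q := by rw [← hc]; ring
  have ey' : y' = c + x' ^ q := by rw [← hc']; ring
  rw [ey, nodeEq_coordY] at h0
  rw [ey', nodeEq_coordY] at h0'
  have hxx := fibre_unique hq hc1 hc2 (substY_intCoeff q hc1.le hR) hx hx' h0 h0'
  refine ⟨hxx, ?_⟩
  rw [ey, ey', hxx]

/-- **Surjectivity of the coordinate `X' = x - y^q`** onto the annulus `|π| < |c| < 1`
(`K` algebraically closed). -/
theorem exists_zero_of_coordX [IsAlgClosed K] {q : ℕ} (hq : 2 ≤ q) {pi : K} {R : K[X][Y]}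
    (hR : IntCoeff₂ v R) {c : K} (hc1 : v c < 1) (hc2 : v pi < v c) :
    ∃ x y : K, v x < 1 ∧ v y < 1 ∧ nodeEq q pi R x y = 0 ∧ x - y ^ q = c := by
  obtain ⟨y, hy, e⟩ := fibre_exists hq hc1 hc2 (substX_intCoeff q hc1.le hR)
  refine ⟨c + y ^ q, y, ?_, hy, ?_, by ring⟩
  · refine lt_of_le_of_lt (v.map_add _ _) (max_lt hc1 ?_)
    rw [map_pow]
    exact pow_lt_one₀ zero_le hy (by omega)
  · rw [nodeEq_coordX]
    exact e

/-- **Surjectivity of the coordinate `Y' = y - x^q`** onto the annulus `|π| < |c| < 1`. -/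
theorem exists_zero_of_coordY [IsAlgClosed K] {q : ℕ} (hq : 2 ≤ q) {pi : K} {R : K[X][Y]}
    (hR : IntCoeff₂ v R) {c : K} (hc1 : v c < 1) (hc2 : v pi < v c) :
    ∃ x y : K, v x < 1 ∧ v y < 1 ∧ nodeEq q pi R x y = 0 ∧ y - x ^ q = c := by
  obtain ⟨x, hx, e⟩ := fibre_exists hq hc1 hc2 (substY_intCoeff q hc1.le hR)
  refine ⟨x, c + x ^ q, hx, ?_, ?_, by ring⟩
  · refine lt_of_le_of_lt (v.map_add _ _) (max_lt hc1 ?_)
    rw [map_pow]
    exact pow_lt_one₀ zero_le hx (by omega)
  · rw [nodeEq_coordY]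
    exact e

/-- **The annulus bijection** (coordinate `X' = x - y^q`): for every `c` with `|π| < |c| < 1`
there is exactly one zero of the node equation in the open unit bidisc with `x - y^q = c`. -/
theorem existsUnique_zero_of_coordX [IsAlgClosed K] {q : ℕ} (hq : 2 ≤ q) {pi : K} {R : K[X][Y]}
    (hR : IntCoeff₂ v R) {c : K} (hc1 : v c < 1) (hc2 : v pi < v c) :
    ∃! z : K × K, v z.1 < 1 ∧ v z.2 < 1 ∧ nodeEq q pi R z.1 z.2 = 0 ∧ z.1 - z.2 ^ q = c := by
  obtain ⟨x, y, hx, hy, h0, hc⟩ := exists_zero_of_coordX hq hR hc1 hc2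
  refine ⟨(x, y), ⟨hx, hy, h0, hc⟩, ?_⟩
  rintro ⟨x', y'⟩ ⟨_, hy', h0', hc'⟩
  obtain ⟨e1, e2⟩ := zero_unique_of_coordX hq hR hc1 hc2 hy' hy h0' h0 hc' hc
  exact Prod.ext e1 e2

/-- **The annulus bijection** (coordinate `Y' = y - x^q`). -/
theorem existsUnique_zero_of_coordY [IsAlgClosed K] {q : ℕ} (hq : 2 ≤ q) {pi : K} {R : K[X][Y]}
    (hR : IntCoeff₂ v R) {c : K} (hc1 : v c < 1) (hc2 : v pi < v c) :
    ∃! z : K × K, v z.1 < 1 ∧ v z.2 < 1 ∧ nodeEq q pi R z.1 z.2 = 0 ∧ z.2 - z.1 ^ q = c := by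
  obtain ⟨x, y, hx, hy, h0, hc⟩ := exists_zero_of_coordY hq hR hc1 hc2
  refine ⟨(x, y), ⟨hx, hy, h0, hc⟩, ?_⟩
  rintro ⟨x', y'⟩ ⟨hx', _, h0', hc'⟩
  obtain ⟨e1, e2⟩ := zero_unique_of_coordY hq hR hc1 hc2 hx' hx h0' h0 hc' hc
  exact Prod.ext e1 e2

/-- the coordinate `X' = x - y^q` is injective on all the zeros in the open unit bidisc -/
theorem coordX_injective {q : ℕ} (hq : 2 ≤ q) {pi : K} (hpi : pi ≠ 0) {R : K[X][Y]}
    (hR : IntCoeff₂ v R) (hγ : v ((R.coeff 0).coeff 0) = 1) {x y x' y' : K}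
    (hx : v x < 1) (hy : v y < 1) (hy' : v y' < 1)
    (h0 : nodeEq q pi R x y = 0) (h0' : nodeEq q pi R x' y' = 0)
    (hc : x - y ^ q = x' - y' ^ q) : x = x' ∧ y = y' := by
  obtain ⟨-, h2, h3, -, -⟩ := annulus_of_zero (by omega) hpi hR hγ hx hy h0
  exact zero_unique_of_coordX hq hR h3 h2 hy hy' h0 h0' rfl hc.symm

/-- the coordinate `Y' = y - x^q` is injective on all the zeros in the open unit bidisc -/
theorem coordY_injective {q : ℕ} (hq : 2 ≤ q) {pi : K} (hpi : pi ≠ 0) {R : K[X][Y]}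
    (hR : IntCoeff₂ v R) (hγ : v ((R.coeff 0).coeff 0) = 1) {x y x' y' : K}
    (hx : v x < 1) (hy : v y < 1) (hx' : v x' < 1)
    (h0 : nodeEq q pi R x y = 0) (h0' : nodeEq q pi R x' y' = 0)
    (hc : y - x ^ q = y' - x' ^ q) : x = x' ∧ y = y' := by
  obtain ⟨-, -, -, h4, h5⟩ := annulus_of_zero (by omega) hpi hR hγ hx hy h0
  exact zero_unique_of_coordY hq hR h5 h4 hx hx' h0 h0' rfl hc.symm

/-! ### size of the coordinates of the point with given annulus coordinate -/

/-- the size of `y` at the zero with `x - y^q = c`: `|y| |c| = |c^(q+1) + π R(c, 0)|` -/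
theorem map_y_of_coordX {q : ℕ} (hq : 2 ≤ q) {pi : K} {R : K[X][Y]} (hR : IntCoeff₂ v R)
    {c : K} (hc1 : v c < 1) (hc2 : v pi < v c) {x y : K} (hy : v y < 1)
    (h0 : nodeEq q pi R x y = 0) (hc : x - y ^ q = c) :
    v y * v c = v (c ^ (q + 1) + pi * R.evalEval c 0) := by
  have ex : x = c + y ^ q := by rw [← hc]; ring
  rw [ex, nodeEq_coordX] at h0
  have h := fibre_size hq hc1 hc2 (substX_intCoeff q hc1.le hR) hy h0
  rw [substX_eval, zero_pow (by omega), add_zero] at h
  exact h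

/-- the size of `x` at the zero with `y - x^q = c`: `|x| |c| = |c^(q+1) + π R(0, c)|` -/
theorem map_x_of_coordY {q : ℕ} (hq : 2 ≤ q) {pi : K} {R : K[X][Y]} (hR : IntCoeff₂ v R)
    {c : K} (hc1 : v c < 1) (hc2 : v pi < v c) {x y : K} (hx : v x < 1)
    (h0 : nodeEq q pi R x y = 0) (hc : y - x ^ q = c) :
    v x * v c = v (c ^ (q + 1) + pi * R.evalEval 0 c) := by
  have ey : y = c + x ^ q := by rw [← hc]; ring
  rw [ey, nodeEq_coordY] at h0
  have h := fibre_size hq hc1 hc2 (substY_intCoeff q hc1.le hR) hx h0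
  rw [substY_eval, zero_pow (by omega), add_zero] at h
  exact h

/-! ### equivariance -/

/-- ring homomorphisms transport the node equation -/
theorem map_nodeEq (σ : K →+* K) (q : ℕ) (pi : K) (R : K[X][Y]) (x y : K) :
    σ (nodeEq q pi R x y) = nodeEq q (σ pi) (R.map (mapRingHom σ)) (σ x) (σ y) := by
  simp only [nodeEq, map_add, map_mul, map_sub, map_pow, map_mapRingHom_evalEval]

/-- a ring endomorphism fixing the node equation permutes its zeros -/
theorem nodeEq_map_eq_zero (σ : K →+* K) {q : ℕ} {pi : K} {R : K[X][Y]} (hpi : σ pi = pi)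
    (hRσ : R.map (mapRingHom σ) = R) {x y : K} (h0 : nodeEq q pi R x y = 0) :
    nodeEq q pi R (σ x) (σ y) = 0 := by
  have h := map_nodeEq σ q pi R x y
  rw [h0, map_zero, hpi, hRσ] at h
  exact h.symm

/-- **Equivariance of the annulus coordinate**: a valuation-preserving ring endomorphism `σ` fixing
the node equation sends the zero with coordinate `c` to the zero with coordinate `σ c`. -/
theorem zero_map_of_coordX (σ : K →+* K) (hσ : ∀ a, v (σ a) = v a) {q : ℕ} (hq : 2 ≤ q) {pi : K}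
    (hpi : σ pi = pi) {R : K[X][Y]} (hR : IntCoeff₂ v R) (hRσ : R.map (mapRingHom σ) = R)
    {c : K} (hc1 : v c < 1) (hc2 : v pi < v c) {x y x' y' : K} (hy : v y < 1) (hy' : v y' < 1)
    (h0 : nodeEq q pi R x y = 0) (h0' : nodeEq q pi R x' y' = 0)
    (hc : x - y ^ q = c) (hc' : x' - y' ^ q = σ c) : x' = σ x ∧ y' = σ y := by
  have h0σ := nodeEq_map_eq_zero σ hpi hRσ h0
  have hcσ : σ x - σ y ^ q = σ c := by rw [← hc, map_sub, map_pow]
  exact zero_unique_of_coordX hq hR (by rw [hσ]; exact hc1) (by rw [hσ]; exact hc2) hy'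
    (by rw [hσ]; exact hy) h0' h0σ hc' hcσ

/-- a valuation-preserving ring endomorphism fixing the node equation and the annulus coordinate
`x - y^q` of a zero fixes this zero -/
theorem map_eq_self_of_coordX (σ : K →+* K) (hσ : ∀ a, v (σ a) = v a) {q : ℕ} (hq : 2 ≤ q)
    {pi : K} (hpi : σ pi = pi) {R : K[X][Y]} (hR : IntCoeff₂ v R)
    (hRσ : R.map (mapRingHom σ) = R) {x y : K} (hy : v y < 1) (hc1 : v (x - y ^ q) < 1)
    (hc2 : v pi < v (x - y ^ q)) (h0 : nodeEq q pi R x y = 0)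
    (hfix : σ (x - y ^ q) = x - y ^ q) : σ x = x ∧ σ y = y := by
  have h := zero_map_of_coordX σ hσ hq hpi hR hRσ hc1 hc2 hy hy h0 h0 rfl hfix.symm
  exact ⟨h.1.symm, h.2.symm⟩

/-- **Equivariance**, coordinate `Y' = y - x^q`. -/
theorem zero_map_of_coordY (σ : K →+* K) (hσ : ∀ a, v (σ a) = v a) {q : ℕ} (hq : 2 ≤ q) {pi : K}
    (hpi : σ pi = pi) {R : K[X][Y]} (hR : IntCoeff₂ v R) (hRσ : R.map (mapRingHom σ) = R)
    {c : K} (hc1 : v c < 1) (hc2 : v pi < v c) {x y x' y' : K} (hx : v x < 1) (hx' : v x' < 1)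
    (h0 : nodeEq q pi R x y = 0) (h0' : nodeEq q pi R x' y' = 0)
    (hc : y - x ^ q = c) (hc' : y' - x' ^ q = σ c) : x' = σ x ∧ y' = σ y := by
  have h0σ := nodeEq_map_eq_zero σ hpi hRσ h0
  have hcσ : σ y - σ x ^ q = σ c := by rw [← hc, map_sub, map_pow]
  exact zero_unique_of_coordY hq hR (by rw [hσ]; exact hc1) (by rw [hσ]; exact hc2) hx'
    (by rw [hσ]; exact hx) h0' h0σ hc' hcσ

/-! ### consequences and variants -/

/-- position of the point in the first half of the annulus: if `|π| < |c|^(q+1)` then `|y| = |c|^q`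
at the zero with `x - y^q = c` -/
theorem map_y_of_coordX_of_lt {q : ℕ} (hq : 2 ≤ q) {pi : K} {R : K[X][Y]} (hR : IntCoeff₂ v R)
    {c : K} (hc1 : v c < 1) (hc2 : v pi < v c ^ (q + 1)) {x y : K} (hy : v y < 1)
    (h0 : nodeEq q pi R x y = 0) (hc : x - y ^ q = c) : v y = v c ^ q := by
  have hc0 : v c ≠ 0 := by
    intro h
    rw [h, zero_pow (by omega)] at hc2
    exact not_lt_zero hc2
  have hc2' : v pi < v c := by
    refine lt_of_lt_of_le hc2 ?_
    rw [pow_succ]
    calc v c ^ q * v c ≤ 1 * v c := mul_le_mul' (pow_le_one' hc1.le q) le_rfl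
      _ = v c := one_mul _
  have h := map_y_of_coordX hq hR hc1 hc2' hy h0 hc
  have hlt : v (pi * R.evalEval c 0) < v (c ^ (q + 1)) := by
    rw [map_mul, map_pow]
    calc v pi * v (R.evalEval c 0) ≤ v pi * 1 :=
          mul_le_mul' le_rfl (hR.evalEval_le hc1.le (by simp))
      _ = v pi := mul_one _
      _ < v c ^ (q + 1) := hc2
  rw [Valuation.map_add_eq_of_lt_left _ hlt, map_pow, pow_succ] at h
  exact mul_right_cancel₀ hc0 h

/-- position of the point in the second half of the annulus: if `|c|^(q+1) < |π|` then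
`|y| |c| = |π|` at the zero with `x - y^q = c` -/
theorem map_y_of_coordX_of_gt {q : ℕ} (hq : 2 ≤ q) {pi : K} {R : K[X][Y]} (hR : IntCoeff₂ v R)
    (hγ : v ((R.coeff 0).coeff 0) = 1) {c : K} (hc1 : v c < 1) (hc2 : v pi < v c)
    (hc3 : v c ^ (q + 1) < v pi) {x y : K} (hy : v y < 1)
    (h0 : nodeEq q pi R x y = 0) (hc : x - y ^ q = c) : v y * v c = v pi := by
  have h := map_y_of_coordX hq hR hc1 hc2 hy h0 hc
  have hu : v (R.evalEval c 0) = 1 := hR.evalEval_eq_one hγ hc1 (by simp)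
  have hlt : v (c ^ (q + 1)) < v (pi * R.evalEval c 0) := by
    rw [map_mul, map_pow, hu, mul_one]
    exact hc3
  rw [Valuation.map_add_eq_of_lt_right _ hlt, map_mul, hu, mul_one] at h
  exact h

/-- the node equation as a bivariate polynomial (`x = C X`, `y = Y`) -/
noncomputable def nodePoly (q : ℕ) (pi : K) (R : K[X][Y]) : K[X][Y] :=
  ((C X) ^ q - Y) * (C X - Y ^ q) + C (C pi) * R

theorem nodePoly_evalEval (q : ℕ) (pi : K) (R : K[X][Y]) (x y : K) :
    (nodePoly q pi R).evalEval x y = nodeEq q pi R x y := by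
  simp [nodePoly, nodeEq, evalEval_add, evalEval_mul, evalEval_sub, evalEval_pow, evalEval_C]

/-- the annulus bijection in the form announced in the statement finding
(coordinate `X' = x - y^q`) -/
theorem existsUnique_zero_of_coord [IsAlgClosed K] {q : ℕ} (hq : 2 ≤ q) {pi : K} {R : K[X][Y]}
    (hR : IntCoeff₂ v R) (c : K) (hc1 : v c < 1) (hc2 : v pi < v c) :
    ∃! z : K × K, v z.1 < 1 ∧ v z.2 < 1 ∧ nodeEq q pi R z.1 z.2 = 0 ∧ z.1 - z.2 ^ q = c :=
  existsUnique_zero_of_coordX hq hR hc1 hc2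

/-- equivariance in the form announced in the statement finding: if `z` is the zero with
coordinate `c` and `z'` the zero with coordinate `σ c` then `z' = σ z` -/
theorem zero_map_of_coord (σ : K →+* K) (hσ : ∀ a, v (σ a) = v a) {q : ℕ} (hq : 2 ≤ q) {pi : K}
    (hpi : σ pi = pi) {R : K[X][Y]} (hR : IntCoeff₂ v R) (hRσ : R.map (mapRingHom σ) = R)
    {c : K} (hc1 : v c < 1) (hc2 : v pi < v c) {z z' : K × K}
    (hz : v z.1 < 1 ∧ v z.2 < 1 ∧ nodeEq q pi R z.1 z.2 = 0 ∧ z.1 - z.2 ^ q = c)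
    (hz' : v z'.1 < 1 ∧ v z'.2 < 1 ∧ nodeEq q pi R z'.1 z'.2 = 0 ∧ z'.1 - z'.2 ^ q = σ c) :
    z' = (σ z.1, σ z.2) := by
  obtain ⟨e1, e2⟩ := zero_map_of_coordX σ hσ hq hpi hR hRσ hc1 hc2 hz.2.1 hz'.2.1 hz.2.2.1
    hz'.2.2.1 hz.2.2.2 hz'.2.2.2
  exact Prod.ext e1 e2

end Fermat.Agent.BR.NodeNewton
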