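import Fermat.Agent.BR.AnnulusCompat
import Fermat.Agent.BR.NodeNewton

/-!
# Program B, node B4.3 (a): the annulus coordinate on the places of the tube of a node

Bridge between the point-level analysis of the node equation (`BR/NodeNewton`, helper20) and the
places of a function field `F / K`: if two functions `x y : F` satisfy the node equation
`(x^q - y)(x - y^q) + π R(x, y) = 0` in `F` (`R` integral with unit constant term), then at every
place `P` of the tube `tube A x y` (both `x`, `y` take values in the open unit disc) the values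
`(x(P), y(P))` form a zero of the node equation in `K²`, hence

* `tube_coord_lt`, `tube_coord_gt` : the annulus coordinate `u = x - y^q` satisfies
  `|π| < |u(P)| < 1`, and `tube_coord_mul` : `|u(P)| |u'(P)| = |π|` for `u' = y - x^q`;
* `tube_values_eq_of_coord_eq` : the values `(x(P), y(P))` are determined by `u(P)`;
* `isValueAt_aeval`, `isValueAt_evalEval` : values of polynomial expressions.
-/

set_option autoImplicit false

open IsLocalRing AlgebraicCurve Polynomial

open scoped Polynomial.Bivariate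

namespace Fermat.Agent.BR.AnnulusRed

open Fermat.Agent.Red Fermat.Agent.BR.NodeNewton

variable {K F : Type*} [Field K] [Field F] [Algebra K F]

/-! ### values of polynomial expressions -/

/-- The value of `p(x)` at `P` is `p(x(P))`. -/
theorem isValueAt_aeval {P : Place K F} {x : F} {x₀ : K} (hx : IsValueAt P x x₀) (p : K[X]) :
    IsValueAt P (aeval x p) (p.eval x₀) := by
  induction p using Polynomial.induction_on' with
  | add p r hp hr =>
    rw [map_add, eval_add]
    exact hp.add hr
  | monomial n a =>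
    rw [aeval_monomial, eval_monomial]
    exact (isValueAt_algebraMap P a).mul (hx.pow n)

theorem isValueAt_eval_map {P : Place K F} {x : F} {x₀ : K} (hx : IsValueAt P x x₀) (p : K[X]) :
    IsValueAt P ((p.map (algebraMap K F)).eval x) (p.eval x₀) := by
  rw [eval_map_algebraMap]
  exact isValueAt_aeval hx p

/-- The value of `R(x, y)` at `P` is `R(x(P), y(P))`. -/
theorem isValueAt_evalEval {P : Place K F} {x y : F} {x₀ y₀ : K} (hx : IsValueAt P x x₀)
    (hy : IsValueAt P y y₀) (R : K[X][Y]) :
    IsValueAt P ((R.map (mapRingHom (algebraMap K F))).evalEval x y) (R.evalEval x₀ y₀) := by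
  induction R using Polynomial.induction_on' with
  | add p r hp hr =>
    rw [Polynomial.map_add, evalEval_add, evalEval_add]
    exact hp.add hr
  | monomial n a =>
    have e1 : ((monomial n a : K[X][Y]).map (mapRingHom (algebraMap K F))).evalEval x y =
        (a.map (algebraMap K F)).eval x * y ^ n := by
      rw [Polynomial.map_monomial, evalEval, eval_monomial, eval_mul, eval_pow, eval_C]
      rfl
    have e2 : (monomial n a : K[X][Y]).evalEval x₀ y₀ = a.eval x₀ * y₀ ^ n := by
      rw [evalEval, eval_monomial, eval_mul, eval_pow, eval_C]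
    rw [e1, e2]
    exact (isValueAt_eval_map hx a).mul (hy.pow n)

/-- The value of the node equation. -/
theorem isValueAt_nodeEq {P : Place K F} {x y : F} {x₀ y₀ : K} (hx : IsValueAt P x x₀)
    (hy : IsValueAt P y y₀) (q : ℕ) (pi : K) (R : K[X][Y]) :
    IsValueAt P (nodeEq q (algebraMap K F pi) (R.map (mapRingHom (algebraMap K F))) x y)
      (nodeEq q pi R x₀ y₀) := by
  unfold nodeEq
  exact (((hx.pow q).sub hy).mul (hx.sub (hy.pow q))).add
    ((isValueAt_algebraMap P pi).mul (isValueAt_evalEval hx hy R))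

/-- The values of `(x, y)` at a place form a zero of the node equation. -/
theorem nodeEq_eq_zero_of_isValueAt {q : ℕ} {pi : K} {R : K[X][Y]} {x y : F}
    (hrel : nodeEq q (algebraMap K F pi) (R.map (mapRingHom (algebraMap K F))) x y = 0)
    {P : Place K F} {x₀ y₀ : K} (hx : IsValueAt P x x₀) (hy : IsValueAt P y y₀) :
    nodeEq q pi R x₀ y₀ = 0 := by
  have h := isValueAt_nodeEq hx hy q pi R
  rw [hrel] at h
  exact h.unique (isValueAt_zero P)

/-! ### the annulus coordinate on the tube -/

section Tube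

variable {A : ValuationSubring K} {q : ℕ} {pi : K} {R : K[X][Y]} {x y : F}

/-- The values of the coordinates at a place of the tube. -/
theorem exists_values_of_mem_tube
    (hrel : nodeEq q (algebraMap K F pi) (R.map (mapRingHom (algebraMap K F))) x y = 0)
    {P : Place K F} (hP : P ∈ tube A x y) :
    ∃ x₀ y₀ : K, IsValueAt P x x₀ ∧ IsValueAt P y y₀ ∧ A.valuation x₀ < 1 ∧
      A.valuation y₀ < 1 ∧ nodeEq q pi R x₀ y₀ = 0 ∧
      evalAt P x = x₀ ∧ evalAt P y = y₀ ∧
      evalAt P (x - y ^ q) = x₀ - y₀ ^ q ∧ evalAt P (y - x ^ q) = y₀ - x₀ ^ q := by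
  obtain ⟨x₀, y₀, hx, hy, h1, h2⟩ := hP
  exact ⟨x₀, y₀, hx, hy, h1, h2, nodeEq_eq_zero_of_isValueAt hrel hx hy,
    evalAt_eq_of_isValueAt hx, evalAt_eq_of_isValueAt hy,
    evalAt_eq_of_isValueAt (hx.sub (hy.pow q)), evalAt_eq_of_isValueAt (hy.sub (hx.pow q))⟩

/-- `|u(P)| |u'(P)| = |π|` on the tube (`u = x - y^q`, `u' = y - x^q`). -/
theorem tube_coord_mul (hq : q ≠ 0) (hpi : pi ≠ 0) (hR : IntCoeff₂ A.valuation R)
    (hγ : A.valuation ((R.coeff 0).coeff 0) = 1)
    (hrel : nodeEq q (algebraMap K F pi) (R.map (mapRingHom (algebraMap K F))) x y = 0)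
    {P : Place K F} (hP : P ∈ tube A x y) :
    A.valuation (evalAt P (x - y ^ q)) * A.valuation (evalAt P (y - x ^ q)) = A.valuation pi := by
  obtain ⟨x₀, y₀, -, -, h1, h2, h0, -, -, e1, e2⟩ := exists_values_of_mem_tube hrel hP
  rw [e1, e2]
  exact (annulus_of_zero hq hpi hR hγ h1 h2 h0).1

/-- `|π| < |u(P)|` on the tube. -/
theorem tube_coord_gt (hq : q ≠ 0) (hpi : pi ≠ 0) (hR : IntCoeff₂ A.valuation R)
    (hγ : A.valuation ((R.coeff 0).coeff 0) = 1)
    (hrel : nodeEq q (algebraMap K F pi) (R.map (mapRingHom (algebraMap K F))) x y = 0)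
    {P : Place K F} (hP : P ∈ tube A x y) :
    A.valuation pi < A.valuation (evalAt P (x - y ^ q)) := by
  obtain ⟨x₀, y₀, -, -, h1, h2, h0, -, -, e1, -⟩ := exists_values_of_mem_tube hrel hP
  rw [e1]
  exact (annulus_of_zero hq hpi hR hγ h1 h2 h0).2.1

/-- `|u(P)| < 1` on the tube. -/
theorem tube_coord_lt (hq : q ≠ 0) (hpi : pi ≠ 0) (hR : IntCoeff₂ A.valuation R)
    (hγ : A.valuation ((R.coeff 0).coeff 0) = 1)
    (hrel : nodeEq q (algebraMap K F pi) (R.map (mapRingHom (algebraMap K F))) x y = 0)
    {P : Place K F} (hP : P ∈ tube A x y) :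
    A.valuation (evalAt P (x - y ^ q)) < 1 := by
  obtain ⟨x₀, y₀, -, -, h1, h2, h0, -, -, e1, -⟩ := exists_values_of_mem_tube hrel hP
  rw [e1]
  exact (annulus_of_zero hq hpi hR hγ h1 h2 h0).2.2.1

/-- The coordinate `u(P)` is nonzero on the tube. -/
theorem tube_coord_ne_zero (hq : q ≠ 0) (hpi : pi ≠ 0) (hR : IntCoeff₂ A.valuation R)
    (hγ : A.valuation ((R.coeff 0).coeff 0) = 1)
    (hrel : nodeEq q (algebraMap K F pi) (R.map (mapRingHom (algebraMap K F))) x y = 0)
    {P : Place K F} (hP : P ∈ tube A x y) : evalAt P (x - y ^ q) ≠ 0 := by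
  intro h
  have h1 := tube_coord_gt hq hpi hR hγ hrel hP
  rw [h, map_zero] at h1
  exact not_lt_zero' h1

/-- **The values `(x(P), y(P))` are determined by the annulus coordinate `u(P)`.** -/
theorem tube_values_eq_of_coord_eq (hq : 2 ≤ q) (hpi : pi ≠ 0) (hR : IntCoeff₂ A.valuation R)
    (hγ : A.valuation ((R.coeff 0).coeff 0) = 1)
    (hrel : nodeEq q (algebraMap K F pi) (R.map (mapRingHom (algebraMap K F))) x y = 0)
    {P P' : Place K F} (hP : P ∈ tube A x y) (hP' : P' ∈ tube A x y)
    (h : evalAt P (x - y ^ q) = evalAt P' (x - y ^ q)) :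
    evalAt P x = evalAt P' x ∧ evalAt P y = evalAt P' y := by
  obtain ⟨x₀, y₀, -, -, h1, h2, h0, ex, ey, e1, -⟩ := exists_values_of_mem_tube hrel hP
  obtain ⟨x₀', y₀', -, -, -, h2', h0', ex', ey', e1', -⟩ := exists_values_of_mem_tube hrel hP'
  rw [e1, e1'] at h
  rw [ex, ey, ex', ey']
  exact coordX_injective hq hpi hR hγ h1 h2 h2' h0 h0' h

end Tube

end Fermat.Agent.BR.AnnulusRed
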