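import Fermat.Agent.BR.InertiaRed
import Fermat.Agent.Red.Values
import Fermat.Prelude.Def_AlgebraicCurve_BaseChangeGalois
import Fermat.Prelude.Def_ModularCurve_ArithmeticGalois

/-!
# Program B, node B4.3 (a), generic half: equivariance of values and of angular reductions

`F / K` a function field, `g : SemilinearAut K F` a semilinear automorphism with base automorphism
`g.baseAut` of `K`.

* `adicValuation_smul`, `isValueAt_smul`, `evalAt_smul` : values of functions at places are
  equivariant: `(g • h)(g • P) = g (h(P))`; in particular for a function `u` fixed by `g`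
  (a function defined over the fixed field of the base automorphism, e.g. the annulus coordinate
  `u_e` of a node): `u(g • P) = g (u(P))` (`evalAt_smul_of_fixed`).
* `ubar A u a P := angRes A (u(P)) a` : the reduction of the point `P` of the circle
  `v (u(P)) = v a` of the annulus with coordinate `u` to the exceptional component `ℙ¹ ∖ {0, ∞}`
  at the position `v a`.
* `ubar_smul` : **rotation**: for `σ` in the inertia group of `A` and `g` over `σ` fixing `u`,
  `ubar (g • P) = chi σ a * ubar P`; `valuation_evalAt_smul_of_fixed` : the circles (hence the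
  annulus and each position `λ = v a`) are stable under `g`.
* `ubar_arithmeticGalois`, `ubar_arithmeticGalois_sq` : the same for the arithmetic Galois action
  of `Gal(ℚ̄/ℚ)` on the places of `X₀(N)` over `ℚ̄`, and the second iterate.
-/

set_option autoImplicit false

open IsLocalRing AlgebraicCurve

namespace Fermat.Agent.BR.AnnulusRed

open Fermat.Agent.Red Fermat.Agent.BR.InertiaRed

section Generic

variable {K F : Type*} [Field K] [Field F] [Algebra K F]

/-- The normalised valuations of the places are equivariant. -/
theorem adicValuation_smul (g : SemilinearAut K F) (P : Place K F) (f : F) :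
    (g • P).adicValuation (g • f) = P.adicValuation f := by
  rcases eq_or_ne f 0 with rfl | hf
  · rw [smul_zero, map_zero, map_zero]
  · have hgf : g • f ≠ 0 := by
      intro h
      apply hf
      have := congrArg (fun x => g⁻¹ • x) h
      simpa using this
    rw [Place.adicValuation_eq_exp_neg_ord _ hgf, Place.adicValuation_eq_exp_neg_ord _ hf,
      SemilinearAut.ord_smul]

/-- **Values are equivariant**: `(g • h)(g • P) = g (h(P))`. -/
theorem isValueAt_smul (g : SemilinearAut K F) {P : Place K F} {h : F} {c : K}
    (hc : IsValueAt P h c) : IsValueAt (g • P) (g • h) (SemilinearAut.baseAut g c) := by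
  unfold IsValueAt at hc ⊢
  rw [← SemilinearAut.smul_algebraMap, ← smul_sub, adicValuation_smul]
  exact hc

theorem isValueAt_smul_iff (g : SemilinearAut K F) {P : Place K F} {h : F} {c : K} :
    IsValueAt (g • P) (g • h) (SemilinearAut.baseAut g c) ↔ IsValueAt P h c := by
  refine ⟨fun hc => ?_, isValueAt_smul g⟩
  have h1 := isValueAt_smul g⁻¹ hc
  rw [inv_smul_smul, inv_smul_smul, SemilinearAut.baseAut_inv] at h1
  have h2 : (SemilinearAut.baseAut g)⁻¹ (SemilinearAut.baseAut g c) = c :=
    (SemilinearAut.baseAut g).symm_apply_apply c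
  have h3 : IsValueAt P h ((SemilinearAut.baseAut g)⁻¹ (SemilinearAut.baseAut g c)) := h1
  rw [h2] at h3
  exact h3

/-- For a function `u` fixed by `g`: `u(g • P) = g (u(P))`. -/
theorem isValueAt_smul_of_fixed (g : SemilinearAut K F) {P : Place K F} {u : F} {c : K}
    (hu : g • u = u) (hc : IsValueAt P u c) :
    IsValueAt (g • P) u (SemilinearAut.baseAut g c) := by
  have h := isValueAt_smul g hc
  rwa [hu] at h

/-- **`(g • h)(g • P) = g (h(P))`**, unconditionally (junk values included). -/
theorem evalAt_smul (g : SemilinearAut K F) (P : Place K F) (h : F) :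
    evalAt (g • P) (g • h) = SemilinearAut.baseAut g (evalAt P h) := by
  by_cases hex : ∃ c : K, IsValueAt P h c
  · obtain ⟨c, hc⟩ := hex
    rw [evalAt_eq_of_isValueAt hc, evalAt_eq_of_isValueAt (isValueAt_smul g hc)]
  · have hex' : ¬ ∃ c : K, IsValueAt (g • P) (g • h) c := by
      rintro ⟨c, hc⟩
      apply hex
      refine ⟨(SemilinearAut.baseAut g).symm c, ?_⟩
      rw [← isValueAt_smul_iff g, RingEquiv.apply_symm_apply]
      exact hc
    have e1 : evalAt P h = 0 := by rw [evalAt, dif_neg hex]
    have e2 : evalAt (g • P) (g • h) = 0 := by rw [evalAt, dif_neg hex']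
    rw [e1, e2, map_zero]

/-- **The coordinate of `g • P`**: for a function `u` fixed by `g`, `u(g • P) = g (u(P))`. -/
theorem evalAt_smul_of_fixed (g : SemilinearAut K F) (P : Place K F) {u : F} (hu : g • u = u) :
    evalAt (g • P) u = SemilinearAut.baseAut g (evalAt P u) := by
  have h := evalAt_smul g P u
  rwa [hu] at h

theorem evalAt_smul_smul_of_fixed (g : SemilinearAut K F) (P : Place K F) {u : F}
    (hu : g • u = u) :
    evalAt (g • g • P) u = SemilinearAut.baseAut g (SemilinearAut.baseAut g (evalAt P u)) := by
  rw [evalAt_smul_of_fixed g _ hu, evalAt_smul_of_fixed g _ hu]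

end Generic

section Inertia

variable {K₀ K F : Type*} [Field K₀] [Field K] [Algebra K₀ K] [Field F] [Algebra K F]

/-- The reduction of the point `P` of the circle `v (u(P)) = v a` (coordinate `u`, gauge `a`) to
`𝔾_m` over the residue field. -/
noncomputable def ubar (A : ValuationSubring K) (u : F) (a : K) (P : Place K F) :
    ResidueField A := angRes A (evalAt P u) a

theorem ubar_ne_zero (A : ValuationSubring K) {u : F} {a : K} (ha : a ≠ 0) {P : Place K F}
    (hv : A.valuation (evalAt P u) = A.valuation a) : ubar A u a P ≠ 0 :=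
  angRes_ne_zero A ha hv

variable (A : ValuationSubring K) {σ : K ≃ₐ[K₀] K}

/-- The circles `v (u(P)) = const` are stable under `g`. -/
theorem valuation_evalAt_smul_of_fixed (hval : ∀ x : K, A.valuation (σ x) = A.valuation x)
    (g : SemilinearAut K F) (hg : SemilinearAut.baseAut g = σ.toRingEquiv) {u : F}
    (hu : g • u = u) (P : Place K F) :
    A.valuation (evalAt (g • P) u) = A.valuation (evalAt P u) := by
  rw [evalAt_smul_of_fixed g P hu, hg]
  exact hval _

/-- **Rotation of the reductions of annular points**: for `σ` in the inertia group of `A`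
(preserving the valuation), `g` a semilinear automorphism over `σ` fixing the coordinate `u`, and
`P` on the circle `v (u(P)) = v a`: `ubar (g • P) = chi σ a * ubar P`. -/
theorem ubar_smul (hσ : σ ∈ A.inertiaSubgroupIn K₀)
    (hval : ∀ x : K, A.valuation (σ x) = A.valuation x)
    (g : SemilinearAut K F) (hg : SemilinearAut.baseAut g = σ.toRingEquiv) {u : F}
    (hu : g • u = u) {a : K} (ha : a ≠ 0) {P : Place K F}
    (hv : A.valuation (evalAt P u) = A.valuation a) :
    ubar A u a (g • P) = chi A σ a * ubar A u a P := by
  unfold ubar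
  rw [evalAt_smul_of_fixed g P hu, hg]
  exact angRes_apply A hσ ha hv (hval a)

end Inertia

/-! ### Specialisation to the arithmetic Galois action over `ℚ̄` -/

section Qbar

open ModularCurve

local notation "Qb" => AlgebraicClosure ℚ

variable (A : ValuationSubring Qb) {σ : Qb ≃ₐ[ℚ] Qb}
  (F₀ : IntermediateField ℚ (LaurentSeries ℚ))

/-- The value of a `σ`-fixed function at `σ • P` is `σ` of the value at `P`. -/
theorem evalAt_arithmeticGalois (σ : Qb ≃ₐ[ℚ] Qb) (P : Place Qb (laurentBaseChange Qb F₀))
    {u : laurentBaseChange Qb F₀} (hu : arithmeticGalois F₀ σ • u = u) :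
    evalAt (arithmeticGalois F₀ σ • P) u = σ (evalAt P u) :=
  evalAt_smul_of_fixed (arithmeticGalois F₀ σ) P hu

/-- The circles `v (u(P)) = const` are stable under inertia. -/
theorem valuation_evalAt_arithmeticGalois (hσ : σ ∈ A.inertiaSubgroupIn ℚ)
    (P : Place Qb (laurentBaseChange Qb F₀)) {u : laurentBaseChange Qb F₀}
    (hu : arithmeticGalois F₀ σ • u = u) :
    A.valuation (evalAt (arithmeticGalois F₀ σ • P) u) = A.valuation (evalAt P u) := by
  rw [evalAt_arithmeticGalois F₀ σ P hu]
  exact Fermat.Agent.S05.valuation_apply_eq_of_mem_inertia A hσ _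

/-- **Rotation** for the arithmetic Galois action: `ubar (σ • P) = chi σ a * ubar P`. -/
theorem ubar_arithmeticGalois (hσ : σ ∈ A.inertiaSubgroupIn ℚ)
    {u : laurentBaseChange Qb F₀} (hu : arithmeticGalois F₀ σ • u = u) {a : Qb} (ha : a ≠ 0)
    {P : Place Qb (laurentBaseChange Qb F₀)}
    (hv : A.valuation (evalAt P u) = A.valuation a) :
    ubar A u a (arithmeticGalois F₀ σ • P) = chi A σ a * ubar A u a P :=
  ubar_smul A hσ (Fermat.Agent.S05.valuation_apply_eq_of_mem_inertia A hσ)
    (arithmeticGalois F₀ σ) rfl hu ha hv

/-- The second iterate: `ubar (σ • σ • P) = chi σ a ^ 2 * ubar P`. -/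
theorem ubar_arithmeticGalois_sq (hσ : σ ∈ A.inertiaSubgroupIn ℚ)
    {u : laurentBaseChange Qb F₀} (hu : arithmeticGalois F₀ σ • u = u) {a : Qb} (ha : a ≠ 0)
    {P : Place Qb (laurentBaseChange Qb F₀)}
    (hv : A.valuation (evalAt P u) = A.valuation a) :
    ubar A u a (arithmeticGalois F₀ σ • arithmeticGalois F₀ σ • P) =
      chi A σ a ^ 2 * ubar A u a P := by
  have hv' : A.valuation (evalAt (arithmeticGalois F₀ σ • P) u) = A.valuation a := by
    rw [valuation_evalAt_arithmeticGalois A F₀ hσ P hu, hv]
  rw [ubar_arithmeticGalois A F₀ hσ hu ha hv', ubar_arithmeticGalois A F₀ hσ hu ha hv, sq,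
    mul_assoc]

end Qbar

end Fermat.Agent.BR.AnnulusRed
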