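import Mathlib
import Fermat.Prelude.Def_AlgebraicCurve_BaseChangeGalois

/-!
# Program B (bad reduction): the nodal reduction interface and the second-difference argument

* `NodalRed K F k` : the minimal core of a semistable reduction setup of a function field `F/K`
  (`K` a valued field with residue field `k`): components `V` of the special fibre with residue
  function fields `Ft v / k`, a *partial* reduction of the places of `F/K` onto the smooth points
  of the components (`r v P = none` if `P` does not reduce to a smooth point of `v`), and the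
  nodes `E`, each node `e` being a pair of places `Qs e` on `Ft (src e)`, `Qt e` on `Ft (tgt e)`.
* `NodalRed.NTK` : no torsion in the kernel of reduction, in *principal reduction form with
  matching at the nodes* (the deliverable of block B3).
* `NodalRed.sq_smul_mem_principal` : the second-difference argument (block B4, steps (R3), (R4)):
  if `g` acts compatibly with automorphisms `α v` of the components and the second differences
  `α² B - 2 α B + B` of the reduced divisors are principal by functions which are `1` at the nodes,
  then `g² D - 2 g D + D` is principal for every degree zero divisor `D` supported on smooth places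
  with `m D` principal.
-/

set_option autoImplicit false

namespace Fermat.Agent.BR.Nodal

open AlgebraicCurve

/-- The minimal core of a semistable reduction setup: components, residue function fields, partial
reduction of places onto smooth points, nodes. -/
structure NodalRed (K F k : Type*) [Field K] [Field F] [Algebra K F] [Field k] where
  /-- the components of the special fibre -/
  V : Type
  /-- the residue function fields of the components -/
  Ft : V → Type
  [instField : ∀ v, Field (Ft v)]
  [instAlgebra : ∀ v, Algebra k (Ft v)]
  /-- the partial reduction of places onto the smooth points of the component `v` -/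
  r : ∀ v, Place K F → Option (Place k (Ft v))
  r_unique : ∀ (P : Place K F) (v w : V), (r v P).isSome → (r w P).isSome → v = w
  /-- the places of the component `v` lying under a node -/
  nodePts : ∀ v, Set (Place k (Ft v))
  r_not_node : ∀ (v : V) (P : Place K F) (Q : Place k (Ft v)), r v P = some Q → Q ∉ nodePts v
  /-- the nodes -/
  E : Type
  src : E → V
  tgt : E → V
  Qs : ∀ e, Place k (Ft (src e))
  Qt : ∀ e, Place k (Ft (tgt e))
  Qs_mem : ∀ e, Qs e ∈ nodePts (src e)
  Qt_mem : ∀ e, Qt e ∈ nodePts (tgt e)

attribute [instance] NodalRed.instField NodalRed.instAlgebra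

namespace NodalRed

variable {K F k : Type*} [Field K] [Field F] [Algebra K F] [Field k] (S : NodalRed K F k)

/-- `P` reduces to a smooth point of the special fibre. -/
def IsSmooth (P : Place K F) : Prop := ∃ v, (S.r v P).isSome

/-- The part of the reduction of a divisor lying on the component `v`. -/
noncomputable def redDiv (v : S.V) : Divisor K F →+ Divisor k (S.Ft v) :=
  Finsupp.liftAddHom fun P => (S.r v P).elim 0 (fun Q => Finsupp.singleAddHom Q)

theorem redDiv_single (v : S.V) (P : Place K F) (n : ℤ) :
    S.redDiv v (Finsupp.single P n) = (S.r v P).elim 0 (fun Q => Finsupp.single Q n) := by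
  unfold redDiv
  rw [Finsupp.liftAddHom_apply_single]
  cases S.r v P <;> rfl

/-- **No torsion in the kernel of reduction, principal reduction form with matching at the
nodes.** A degree zero divisor `D` supported on places with smooth reduction, with `m D` principal
(`m` prime to the residue characteristic), whose reduction is principal on the nodal special fibre
(a family of functions `ρ v` on the components with `div (ρ v)` = the part of the reduction on `v`,
whose values at the two branches of every node agree), is principal. -/
def NTK : Prop :=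
  ∀ m : ℕ, (m : k) ≠ 0 → ∀ D : Divisor K F, Divisor.degree D = 0 →
    (∀ P ∈ D.support, S.IsSmooth P) →
    m • D ∈ Divisor.principal (K := K) (F := F) →
    (∃ ρ : ∀ v, S.Ft v, (∀ v, ρ v ≠ 0) ∧
      (∀ v (Q : Place k (S.Ft v)), S.redDiv v D Q = Q.ord (ρ v)) ∧
      ∀ e, ∃ c : k, c ≠ 0 ∧
        (S.Qs e).adicValuation (ρ (S.src e) - algebraMap k (S.Ft (S.src e)) c) < 1 ∧
        (S.Qt e).adicValuation (ρ (S.tgt e) - algebraMap k (S.Ft (S.tgt e)) c) < 1) →
    D ∈ Divisor.principal (K := K) (F := F)

/-- `g` acts on the reductions through the automorphisms `α v` of the components. -/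
def Compat (g : SemilinearAut K F) (α : ∀ v, SemilinearAut k (S.Ft v)) : Prop :=
  ∀ v (P : Place K F), S.r v (g • P) = (S.r v P).map (fun Q => α v • Q)

variable {S}

theorem Compat.isSmooth {g : SemilinearAut K F} {α : ∀ v, SemilinearAut k (S.Ft v)}
    (h : S.Compat g α) {P : Place K F} (hP : S.IsSmooth P) : S.IsSmooth (g • P) := by
  obtain ⟨v, hv⟩ := hP
  refine ⟨v, ?_⟩
  rw [h v P, Option.isSome_map]
  exact hv

theorem Compat.redDiv_smul {g : SemilinearAut K F} {α : ∀ v, SemilinearAut k (S.Ft v)}
    (h : S.Compat g α) (v : S.V) (D : Divisor K F) :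
    S.redDiv v (g • D) = α v • S.redDiv v D := by
  induction D using Finsupp.induction with
  | zero => simp
  | single_add P n D _ _ ih =>
    rw [smul_add, map_add, map_add, smul_add, ih, SemilinearAut.smul_single, redDiv_single,
      redDiv_single, h v P]
    cases S.r v P with
    | none => simp
    | some Q => simp

theorem support_smul_subset (g : SemilinearAut K F) (D : Divisor K F) {P : Place K F}
    (hP : P ∈ (g • D).support) : ∃ P' ∈ D.support, P = g • P' := by
  classical
  rw [SemilinearAut.divisor_smul_def] at hP
  have h := Finsupp.mapDomain_support hP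
  rw [Finset.mem_image] at h
  obtain ⟨P', hP', rfl⟩ := h
  exact ⟨P', hP', rfl⟩

/-- **The second-difference argument.** -/
theorem sq_smul_mem_principal (hS : S.NTK) {g : SemilinearAut K F}
    {α : ∀ v, SemilinearAut k (S.Ft v)} (hc : S.Compat g α)
    {m : ℕ} (hm : (m : k) ≠ 0) {D : Divisor K F} (hdeg : Divisor.degree D = 0)
    (hsm : ∀ P ∈ D.support, S.IsSmooth P)
    (hmD : m • D ∈ Divisor.principal (K := K) (F := F))
    (hρ : ∃ ρ : ∀ v, S.Ft v, (∀ v, ρ v ≠ 0) ∧
      (∀ v (Q : Place k (S.Ft v)),
        (α v • α v • S.redDiv v D - (2 : ℤ) • α v • S.redDiv v D + S.redDiv v D) Q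
          = Q.ord (ρ v)) ∧
      ∀ e, (S.Qs e).adicValuation (ρ (S.src e) - 1) < 1 ∧
        (S.Qt e).adicValuation (ρ (S.tgt e) - 1) < 1) :
    g • g • D - (2 : ℤ) • g • D + D ∈ Divisor.principal (K := K) (F := F) := by
  classical
  apply hS m hm
  · simp [map_add, map_sub, hdeg]
  · intro P hP
    have h1 := Finsupp.support_add hP
    rw [Finset.mem_union] at h1
    rcases h1 with h1 | h1
    · have h2 := Finsupp.support_sub h1
      rw [Finset.mem_union] at h2
      rcases h2 with h2 | h2
      · obtain ⟨P', hP', rfl⟩ := support_smul_subset g _ h2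
        obtain ⟨P'', hP'', rfl⟩ := support_smul_subset g _ hP'
        exact hc.isSmooth (hc.isSmooth (hsm _ hP''))
      · have h3 : P ∈ (g • D).support := Finsupp.support_smul h2
        obtain ⟨P', hP', rfl⟩ := support_smul_subset g _ h3
        exact hc.isSmooth (hsm _ hP')
    · exact hsm _ h1
  · have h1 : m • (g • g • D - (2 : ℤ) • g • D + D) =
        g • g • (m • D) - (2 : ℤ) • g • (m • D) + m • D := by
      simp only [smul_add, smul_sub, smul_comm m]
    rw [h1]
    exact add_mem (sub_mem
      (SemilinearAut.smul_mem_principal g (SemilinearAut.smul_mem_principal g hmD))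
      (zsmul_mem (SemilinearAut.smul_mem_principal g hmD) 2)) hmD
  · obtain ⟨ρ, hρ0, hρdiv, hρnode⟩ := hρ
    refine ⟨ρ, hρ0, ?_, ?_⟩
    · intro v Q
      rw [← hρdiv v Q]
      simp only [map_add, map_sub, map_zsmul, hc.redDiv_smul]
    · intro e
      refine ⟨1, one_ne_zero, ?_, ?_⟩
      · rw [map_one]
        exact (hρnode e).1
      · rw [map_one]
        exact (hρnode e).2

/-! ### The second differences on the components -/

variable (S)

/-- The second difference `a² B - 2 a B + B` of every divisor `B` on the component `v` supported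
off the nodes is the divisor of a function which takes the value `1` at the nodes of `v`.
(Holds trivially for `a = 1`; on an exceptional `ℙ¹` with nodes `0`, `∞` and `a : u ↦ z u` it is
the identity `ρ = r(z⁻² u) r(u) / r(z⁻¹ u)²`, `ρ(0) = ρ(∞) = 1`.) -/
def SecondDiffOK (v : S.V) (a : SemilinearAut k (S.Ft v)) : Prop :=
  ∀ B : Divisor k (S.Ft v), (∀ Q ∈ B.support, Q ∉ S.nodePts v) →
    ∃ ρ : S.Ft v, ρ ≠ 0 ∧
      (∀ Q : Place k (S.Ft v), (a • a • B - (2 : ℤ) • a • B + B) Q = Q.ord ρ) ∧
      ∀ Q ∈ S.nodePts v, Q.adicValuation (ρ - 1) < 1

theorem secondDiffOK_one (v : S.V) : S.SecondDiffOK v 1 := by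
  intro B _
  refine ⟨1, one_ne_zero, fun Q => ?_, fun Q _ => ?_⟩
  · rw [one_smul, one_smul, Place.ord_one]
    have : B - (2 : ℤ) • B + B = 0 := by
      rw [two_smul]
      abel
    rw [this]
    rfl
  · rw [sub_self, map_zero]
    exact zero_lt_one

variable {S}

theorem redDiv_support_not_node (v : S.V) (D : Divisor K F) :
    ∀ Q ∈ (S.redDiv v D).support, Q ∉ S.nodePts v := by
  classical
  induction D using Finsupp.induction with
  | zero => simp
  | single_add P n D _ _ ih =>
    intro Q hQ
    rw [map_add] at hQ
    have h1 := Finsupp.support_add hQ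
    rw [Finset.mem_union] at h1
    rcases h1 with h1 | h1
    · rw [redDiv_single] at h1
      cases hr : S.r v P with
      | none => rw [hr] at h1; simp at h1
      | some Q' =>
        rw [hr] at h1
        have h2 : Q ∈ (Finsupp.single Q' n).support := h1
        have h3 := Finsupp.support_single_subset h2
        rw [Finset.mem_singleton] at h3
        rw [h3]
        exact S.r_not_node v P Q' hr
    · exact ih Q h1

/-- The second-difference argument from the componentwise property `SecondDiffOK`. -/
theorem sq_smul_mem_principal_of_secondDiffOK (hS : S.NTK) {g : SemilinearAut K F}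
    {α : ∀ v, SemilinearAut k (S.Ft v)} (hc : S.Compat g α)
    (hα : ∀ v, S.SecondDiffOK v (α v))
    {m : ℕ} (hm : (m : k) ≠ 0) {D : Divisor K F} (hdeg : Divisor.degree D = 0)
    (hsm : ∀ P ∈ D.support, S.IsSmooth P)
    (hmD : m • D ∈ Divisor.principal (K := K) (F := F)) :
    g • g • D - (2 : ℤ) • g • D + D ∈ Divisor.principal (K := K) (F := F) := by
  apply sq_smul_mem_principal hS hc hm hdeg hsm hmD
  choose ρ hρ0 hρdiv hρnode using fun v => hα v (S.redDiv v D) (redDiv_support_not_node v D)
  exact ⟨ρ, hρ0, hρdiv, fun e => ⟨hρnode _ _ (S.Qs_mem e), hρnode _ _ (S.Qt_mem e)⟩⟩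

end NodalRed

/-! ### The statement on `Pic⁰` -/

section Pic

variable {K F : Type*} [Field K] [Field F] [Algebra K F]

/-- `g` has nodal reductions with residue field `k`: every finite set of places has smooth
reduction in a suitable nodal reduction setup with `NTK`, on which `g` acts compatibly with
automorphisms of the components with principal second differences. -/
def HasNodalReductions (k : Type*) [Field k] (g : SemilinearAut K F) : Prop :=
  ∀ T : Finset (Place K F), ∃ S : NodalRed K F k, S.NTK ∧ (∀ P ∈ T, S.IsSmooth P) ∧
    ∃ α : ∀ v, SemilinearAut k (S.Ft v), S.Compat g α ∧ ∀ v, S.SecondDiffOK v (α v)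

/-- **Unipotence on torsion from nodal reductions**: if `g` has nodal reductions with residue
field `k` then `(g - 1)² = 0` on the `m`-torsion of `Pic⁰`, `m` prime to the characteristic of
`k`. -/
theorem smul_smul_sub_eq_of_hasNodalReductions {k : Type*} [Field k] {g : SemilinearAut K F}
    (hg : HasNodalReductions k g) {m : ℕ} (hm : (m : k) ≠ 0) (x : Pic0 K F)
    (hx : m • x = 0) : g • (g • x - x) = g • x - x := by
  classical
  obtain ⟨D, rfl⟩ := Pic0.mk_surjective x
  obtain ⟨S, hS, hT, α, hc, hα⟩ := hg (D : Divisor K F).support
  have hdeg : Divisor.degree (D : Divisor K F) = 0 := D.2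
  have hmD : m • (D : Divisor K F) ∈ Divisor.principal (K := K) (F := F) := by
    have h1 : Pic0.mk (m • D) = 0 := hx
    have h2 := (QuotientAddGroup.eq_zero_iff _).mp h1
    rw [AddSubgroup.mem_addSubgroupOf] at h2
    exact h2
  have key := NodalRed.sq_smul_mem_principal_of_secondDiffOK hS hc hα hm hdeg hT hmD
  -- translate to `Pic⁰`
  have h3 : g • g • Pic0.mk D - (2 : ℤ) • g • Pic0.mk D + Pic0.mk D = 0 := by
    rw [SemilinearAut.pic0_smul_mk, SemilinearAut.pic0_smul_mk]
    have h4 : Pic0.mk (SemilinearAut.degZeroSMulHom g (SemilinearAut.degZeroSMulHom g D)) -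
        (2 : ℤ) • Pic0.mk (SemilinearAut.degZeroSMulHom g D) + Pic0.mk D =
        Pic0.mk (SemilinearAut.degZeroSMulHom g (SemilinearAut.degZeroSMulHom g D) -
          (2 : ℤ) • SemilinearAut.degZeroSMulHom g D + D) := rfl
    rw [h4]
    refine (QuotientAddGroup.eq_zero_iff _).mpr ?_
    rw [AddSubgroup.mem_addSubgroupOf]
    exact key
  rw [smul_sub]
  rw [two_zsmul] at h3
  have h5 : g • g • Pic0.mk D - g • Pic0.mk D - (g • Pic0.mk D - Pic0.mk D) = 0 := by
    rw [← h3]
    abel
  exact sub_eq_zero.mp h5

end Pic

end Fermat.Agent.BR.Nodal
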