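import Mathlib
import Fermat.Prelude.Def_AlgebraicCurve_BaseChangeGalois
import Fermat.Prelude.Def_AlgebraicCurve_Repartitions
import Fermat.Agent.X0.Alg.PlaceBasic

/-!
# Program B (bad reduction), node B4.2 P1ROT: second differences on a rotated projective line

Let `k` be an algebraically closed field and `L = k(u)` a rational function field over `k`, given
model-agnostically by `Generates k u : ∀ f : L, ∃ p q, aeval u q ≠ 0 ∧ f * aeval u q = aeval u p`.

* `Generates.exists_coord` : every place `Q` of `L / k` at which `u` is regular has a coordinate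
  `a : k`, `u ≡ a` modulo the maximal ideal of `Q`;
* `Generates.ord_sub_coord` : `u - a` is a uniformizer at such a place;
* `Generates.place_ext` : such a place is determined by its coordinate;
* `Generates.exists_secondDiff` : **the rotation identity**. If `α` is a `k`-linear automorphism of
  `L` with `α u = z u` (`z ≠ 0`), then for every divisor `B` supported on the places where `u` is a
  unit there is `ρ ≠ 0` whose divisor is the second difference `α² B - 2 α B + B`, and which is `≡ 1`
  at all places where `u` is not a unit (the two nodes `u = 0`, `u = ∞`):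
  `ρ = (α² r) r / (α r)²`, `r = ∏ (u - a_Q) ^ B(Q)`.
-/

set_option autoImplicit false

open AlgebraicCurve Polynomial WithZero

namespace Fermat.Agent.BR.POne

variable {k L : Type*} [Field k] [Field L] [Algebra k L]

/-! ### One-units at a place -/

/-- `f` is a one-unit at `Q`: `f ≡ 1` modulo the maximal ideal of `Q`. -/
def OneUnit (Q : Place k L) (f : L) : Prop := Q.adicValuation (f - 1) < 1

namespace OneUnit

variable {Q : Place k L} {f g : L}

theorem one : OneUnit Q (1 : L) := by
  unfold OneUnit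
  rw [sub_self, map_zero]
  exact zero_lt_one

theorem val_eq_one (hf : OneUnit Q f) : Q.adicValuation f = 1 := by
  have h1 : f = 1 + (f - 1) := by ring
  have h2 : Q.adicValuation (f - 1) < Q.adicValuation (1 : L) := by
    rw [map_one]
    exact hf
  have h3 := Valuation.map_add_eq_of_lt_left Q.adicValuation h2
  rw [← h1, map_one] at h3
  exact h3

theorem ne_zero (hf : OneUnit Q f) : f ≠ 0 := by
  rintro rfl
  have := hf.val_eq_one
  rw [map_zero] at this
  exact zero_ne_one this

theorem mul (hf : OneUnit Q f) (hg : OneUnit Q g) : OneUnit Q (f * g) := by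
  unfold OneUnit
  have h1 : f * g - 1 = (f - 1) * g + (g - 1) := by ring
  rw [h1]
  refine (Valuation.map_add _ _ _).trans_lt (max_lt ?_ hg)
  rw [map_mul, hg.val_eq_one, mul_one]
  exact hf

theorem inv (hf : OneUnit Q f) : OneUnit Q f⁻¹ := by
  unfold OneUnit
  have hf0 := hf.ne_zero
  have h1 : f⁻¹ - 1 = -(f - 1) * f⁻¹ := by
    field_simp
    ring
  rw [h1, map_mul, Valuation.map_neg, map_inv₀, hf.val_eq_one, inv_one, mul_one]
  exact hf

theorem div (hf : OneUnit Q f) (hg : OneUnit Q g) : OneUnit Q (f / g) := by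
  rw [div_eq_mul_inv]
  exact hf.mul hg.inv

theorem pow (hf : OneUnit Q f) (n : ℕ) : OneUnit Q (f ^ n) := by
  induction n with
  | zero => rw [pow_zero]; exact one
  | succ n ih => rw [pow_succ]; exact ih.mul hf

theorem zpow (hf : OneUnit Q f) (n : ℤ) : OneUnit Q (f ^ n) := by
  cases n with
  | ofNat n => rw [Int.ofNat_eq_natCast, zpow_natCast]; exact hf.pow n
  | negSucc n => rw [zpow_negSucc]; exact (hf.pow _).inv

theorem prod {ι : Type*} (s : Finset ι) (F : ι → L) (h : ∀ i ∈ s, OneUnit Q (F i)) :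
    OneUnit Q (∏ i ∈ s, F i) := by
  classical
  induction s using Finset.induction_on with
  | empty => rw [Finset.prod_empty]; exact one
  | insert i s hi ih =>
    rw [Finset.prod_insert hi]
    exact (h i (Finset.mem_insert_self i s)).mul
      (ih fun j hj => h j (Finset.mem_insert_of_mem hj))

end OneUnit

/-! ### Constants and polynomials in `u` at a place -/

theorem val_const {Q : Place k L} {a : k} (ha : a ≠ 0) :
    Q.adicValuation (algebraMap k L a) = 1 := by
  have h1 := Q.adicValuation_algebraMap_le_one a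
  have h2 := Q.adicValuation_algebraMap_le_one a⁻¹
  have h3 : Q.adicValuation (algebraMap k L a) * Q.adicValuation (algebraMap k L a⁻¹) = 1 := by
    rw [← map_mul, ← map_mul, mul_inv_cancel₀ ha, map_one, map_one]
  refine le_antisymm h1 ?_
  calc (1 : ℤᵐ⁰) = Q.adicValuation (algebraMap k L a) * Q.adicValuation (algebraMap k L a⁻¹) :=
        h3.symm
    _ ≤ Q.adicValuation (algebraMap k L a) * 1 := by gcongr
    _ = Q.adicValuation (algebraMap k L a) := mul_one _

theorem mem_iff_val_le_one {Q : Place k L} {f : L} :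
    f ∈ Q.toValuationSubring ↔ Q.adicValuation f ≤ 1 := by
  rw [Fermat.Agent.X0.Place.mem_iff_ord_nonneg, Q.adicValuation_le_one_iff]
  constructor
  · exact fun h => Or.inr h
  · rintro (rfl | h)
    · simp
    · exact h

theorem val_aeval_le_one {Q : Place k L} {u : L} (hu : Q.adicValuation u ≤ 1) (P : k[X]) :
    Q.adicValuation (aeval u P) ≤ 1 := by
  induction P using Polynomial.induction_on' with
  | add p q hp hq =>
    rw [map_add]
    exact (Valuation.map_add _ _ _).trans (max_le hp hq)
  | monomial n a =>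
    rw [aeval_monomial, map_mul, map_pow]
    exact mul_le_one' (Q.adicValuation_algebraMap_le_one a) (pow_le_one' hu n)

/-- A polynomial not vanishing at the coordinate `a` of `Q` is a unit at `Q`. -/
theorem val_aeval_of_eval_ne_zero {Q : Place k L} {u : L} {a : k}
    (ha : Q.adicValuation (u - algebraMap k L a) < 1) {G : k[X]} (hG : G.eval a ≠ 0) :
    Q.adicValuation (aeval u G) = 1 := by
  have hu : Q.adicValuation u ≤ 1 := by
    have h1 : u = (u - algebraMap k L a) + algebraMap k L a := by ring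
    rw [h1]
    exact (Valuation.map_add _ _ _).trans
      (max_le ha.le (Q.adicValuation_algebraMap_le_one a))
  obtain ⟨H, hH⟩ := Polynomial.X_sub_C_dvd_sub_C_eval (a := a) (p := G)
  have h1 : aeval u G = algebraMap k L (G.eval a) + (u - algebraMap k L a) * aeval u H := by
    have h2 : G = C (G.eval a) + (X - C a) * H := by rw [← hH]; ring
    conv_lhs => rw [h2]
    simp [aeval_C]
  have h3 : Q.adicValuation ((u - algebraMap k L a) * aeval u H) <
      Q.adicValuation (algebraMap k L (G.eval a)) := by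
    rw [val_const hG, map_mul]
    calc Q.adicValuation (u - algebraMap k L a) * Q.adicValuation (aeval u H)
        ≤ Q.adicValuation (u - algebraMap k L a) * 1 := by
          gcongr
          exact val_aeval_le_one hu H
      _ < 1 := by rw [mul_one]; exact ha
  rw [h1, Valuation.map_add_eq_of_lt_left _ h3, val_const hG]

/-- The valuation of a polynomial in `u` at a place with coordinate `a`. -/
theorem val_aeval {Q : Place k L} {u : L} {a : k}
    (ha : Q.adicValuation (u - algebraMap k L a) < 1) {P : k[X]} (hP : P ≠ 0) :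
    Q.adicValuation (aeval u P) =
      Q.adicValuation (u - algebraMap k L a) ^ P.rootMultiplicity a := by
  obtain ⟨G, hG, hGa⟩ := Polynomial.exists_eq_pow_rootMultiplicity_mul_and_not_dvd P hP a
  have hGa' : G.eval a ≠ 0 := fun h => hGa (Polynomial.dvd_iff_isRoot.mpr h)
  conv_lhs => rw [hG]
  rw [map_mul, map_pow, map_mul, map_pow, val_aeval_of_eval_ne_zero ha hGa', mul_one]
  simp [aeval_C]

/-! ### Rational function fields, model-agnostically -/

/-- `L = k(u)`: every element of `L` is a quotient of polynomials in `u`. -/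
def Generates (k : Type*) {L : Type*} [Field k] [Field L] [Algebra k L] (u : L) : Prop :=
  ∀ f : L, ∃ p q : k[X], aeval u q ≠ 0 ∧ f * aeval u q = aeval u p

theorem generates_of_adjoin_eq_top {u : L} (h : IntermediateField.adjoin k {u} = ⊤) :
    Generates k u := by
  intro f
  have hf : f ∈ IntermediateField.adjoin k {u} := by rw [h]; exact IntermediateField.mem_top
  rw [IntermediateField.mem_adjoin_simple_iff] at hf
  obtain ⟨p, q, hpq⟩ := hf
  by_cases hq : aeval u q = 0
  · refine ⟨0, 1, by simp, ?_⟩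
    rw [hpq, hq, div_zero]
    simp
  · exact ⟨p, q, hq, by rw [hpq, div_mul_cancel₀ _ hq]⟩

theorem generates_ratFunc : Generates k (RatFunc.X : RatFunc k) := by
  intro f
  refine ⟨f.num, f.denom, ?_, ?_⟩
  · rw [RatFunc.aeval_X_left_eq_algebraMap]
    exact RatFunc.algebraMap_ne_zero f.denom_ne_zero
  · rw [RatFunc.aeval_X_left_eq_algebraMap, RatFunc.aeval_X_left_eq_algebraMap]
    have h := RatFunc.num_div_denom f
    rw [div_eq_iff (RatFunc.algebraMap_ne_zero f.denom_ne_zero)] at h
    exact h.symm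

namespace Generates

variable {u : L}

/-- Some nonzero polynomial in `u` is a non-unit at a place where `u` is regular. -/
theorem exists_val_aeval_lt_one (hgen : Generates k u) (Q : Place k L)
    (hu : Q.adicValuation u ≤ 1) :
    ∃ P : k[X], aeval u P ≠ 0 ∧ Q.adicValuation (aeval u P) < 1 := by
  by_contra hcon
  push Not at hcon
  have hall : ∀ P : k[X], aeval u P ≠ 0 → Q.adicValuation (aeval u P) = 1 := fun P hP =>
    le_antisymm (val_aeval_le_one hu P) (hcon P hP)
  apply Q.ne_top'
  refine SetLike.ext fun f => ⟨fun _ => ValuationSubring.mem_top f, fun _ => ?_⟩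
  rw [mem_iff_val_le_one]
  obtain ⟨p, q, hq, hpq⟩ := hgen f
  have h1 : Q.adicValuation f * Q.adicValuation (aeval u q) = Q.adicValuation (aeval u p) := by
    rw [← map_mul, hpq]
  rw [hall q hq, mul_one] at h1
  rw [h1]
  exact val_aeval_le_one hu p

/-- Over an algebraically closed field every place where `u` is regular has a coordinate. -/
theorem exists_coord [IsAlgClosed k] (hgen : Generates k u) (Q : Place k L)
    (hu : Q.adicValuation u ≤ 1) : ∃ a : k, Q.adicValuation (u - algebraMap k L a) < 1 := by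
  obtain ⟨P, hP0, hP⟩ := hgen.exists_val_aeval_lt_one Q hu
  -- induction on the degree
  suffices h : ∀ n : ℕ, ∀ P : k[X], P.natDegree = n → aeval u P ≠ 0 →
      Q.adicValuation (aeval u P) < 1 → ∃ a : k, Q.adicValuation (u - algebraMap k L a) < 1 from
    h _ P rfl hP0 hP
  intro n
  induction n with
  | zero =>
    intro P hdeg hP0 hP
    exfalso
    rw [Polynomial.eq_C_of_natDegree_eq_zero hdeg, aeval_C] at hP hP0
    have hc : P.coeff 0 ≠ 0 := fun h => hP0 (by rw [h, map_zero])
    rw [val_const hc] at hP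
    exact lt_irrefl _ hP
  | succ n ih =>
    intro P hdeg hP0 hP
    have hdeg' : P.degree ≠ 0 := by
      have hpos : 0 < P.natDegree := by omega
      exact (Polynomial.natDegree_pos_iff_degree_pos.mp hpos).ne'
    obtain ⟨a, ha⟩ := IsAlgClosed.exists_root P hdeg'
    obtain ⟨P', rfl⟩ := Polynomial.dvd_iff_isRoot.mpr ha
    by_cases hva : Q.adicValuation (u - algebraMap k L a) < 1
    · exact ⟨a, hva⟩
    have hfac : aeval u ((X - C a) * P') = (u - algebraMap k L a) * aeval u P' := by
      simp [aeval_C]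
    rw [hfac] at hP hP0
    have hP'0 : aeval u P' ≠ 0 := right_ne_zero_of_mul hP0
    have hP'ne : P' ≠ 0 := fun h => hP'0 (by rw [h, map_zero])
    have hle : Q.adicValuation (u - algebraMap k L a) ≤ 1 :=
      (Valuation.map_sub _ _ _).trans (max_le hu (Q.adicValuation_algebraMap_le_one a))
    have hone : Q.adicValuation (u - algebraMap k L a) = 1 :=
      le_antisymm hle (not_lt.mp hva)
    rw [map_mul, hone, one_mul] at hP
    refine ih P' ?_ hP'0 hP
    have h1 := Polynomial.natDegree_mul (Polynomial.X_sub_C_ne_zero a) hP'ne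
    rw [hdeg, Polynomial.natDegree_X_sub_C] at h1
    omega

/-- The coordinate of a place is unique. -/
theorem coord_unique {Q : Place k L} {a b : k}
    (ha : Q.adicValuation (u - algebraMap k L a) < 1)
    (hb : Q.adicValuation (u - algebraMap k L b) < 1) : a = b := by
  by_contra hab
  have h1 : algebraMap k L (a - b) = (u - algebraMap k L b) - (u - algebraMap k L a) := by
    rw [map_sub]; ring
  have h2 : Q.adicValuation (algebraMap k L (a - b)) < 1 := by
    rw [h1]
    exact (Valuation.map_sub _ _ _).trans_lt (max_lt hb ha)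
  rw [val_const (sub_ne_zero.mpr hab)] at h2
  exact lt_irrefl _ h2

/-- At a place with coordinate `a`, `u - b` is a unit for `b ≠ a`. -/
theorem val_sub_of_ne {Q : Place k L} {a b : k}
    (ha : Q.adicValuation (u - algebraMap k L a) < 1) (hab : a ≠ b) :
    Q.adicValuation (u - algebraMap k L b) = 1 := by
  have h1 : u - algebraMap k L b = algebraMap k L (a - b) + (u - algebraMap k L a) := by
    rw [map_sub]; ring
  have h2 : Q.adicValuation (u - algebraMap k L a) < Q.adicValuation (algebraMap k L (a - b)) := by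
    rw [val_const (sub_ne_zero.mpr hab)]
    exact ha
  rw [h1, Valuation.map_add_eq_of_lt_left _ h2, val_const (sub_ne_zero.mpr hab)]

/-- The order of a function at a place with coordinate `a`, in terms of root multiplicities,
up to the factor `ord (u - a)` (which is `1`, see `ord_sub_coord`). -/
theorem ord_eq_mul {Q : Place k L} {a : k}
    (ha : Q.adicValuation (u - algebraMap k L a) < 1) {f : L} (hf : f ≠ 0) {p q : k[X]}
    (hq : aeval u q ≠ 0) (hpq : f * aeval u q = aeval u p) :
    Q.ord f = ((p.rootMultiplicity a : ℤ) - q.rootMultiplicity a) *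
      Q.ord (u - algebraMap k L a) := by
  have hp : aeval u p ≠ 0 := by rw [← hpq]; exact mul_ne_zero hf hq
  have hp0 : p ≠ 0 := fun h => hp (by rw [h, map_zero])
  have hq0 : q ≠ 0 := fun h => hq (by rw [h, map_zero])
  have h1 : Q.ord f + Q.ord (aeval u q) = Q.ord (aeval u p) := by
    rw [← Q.ord_mul hf hq, hpq]
  have key : ∀ P : k[X], P ≠ 0 → Q.ord (aeval u P) =
      (P.rootMultiplicity a : ℤ) * Q.ord (u - algebraMap k L a) := by
    intro P hP
    unfold Place.ord
    rw [val_aeval ha hP, WithZero.log_pow]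
    simp
  rw [key p hp0, key q hq0] at h1
  linarith

/-- `u - a` is a uniformizer at the place with coordinate `a`. -/
theorem ord_sub_coord (hgen : Generates k u) {Q : Place k L} {a : k}
    (ha : Q.adicValuation (u - algebraMap k L a) < 1) :
    Q.ord (u - algebraMap k L a) = 1 := by
  obtain ⟨π, hπ⟩ := IsDiscreteValuationRing.exists_irreducible Q.toValuationSubring
  have hπ0 : (π : L) ≠ 0 := by
    simpa [ne_eq, ZeroMemClass.coe_eq_zero] using hπ.ne_zero
  obtain ⟨p, q, hq, hpq⟩ := hgen (π : L)
  have h1 := ord_eq_mul ha hπ0 hq hpq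
  rw [Q.ord_coe_irreducible hπ] at h1
  -- `ord (u - a)` is a positive divisor of `1`
  have hpos : 0 ≤ Q.ord (u - algebraMap k L a) := by
    apply Fermat.Agent.X0.Place.ord_nonneg_of_mem
    rw [mem_iff_val_le_one]
    exact ha.le
  exact Int.eq_one_of_mul_eq_one_left hpos h1.symm

/-- The order of a function at a place with coordinate `a`. -/
theorem ord_eq (hgen : Generates k u) {Q : Place k L} {a : k}
    (ha : Q.adicValuation (u - algebraMap k L a) < 1) {f : L} (hf : f ≠ 0) {p q : k[X]}
    (hq : aeval u q ≠ 0) (hpq : f * aeval u q = aeval u p) :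
    Q.ord f = (p.rootMultiplicity a : ℤ) - q.rootMultiplicity a := by
  rw [ord_eq_mul ha hf hq hpq, hgen.ord_sub_coord ha, mul_one]

/-- A place where `u` is regular is determined by its coordinate. -/
theorem place_ext (hgen : Generates k u) {Q Q' : Place k L} {a : k}
    (ha : Q.adicValuation (u - algebraMap k L a) < 1)
    (ha' : Q'.adicValuation (u - algebraMap k L a) < 1) : Q = Q' := by
  apply Place.ext
  refine SetLike.ext fun f => ?_
  rw [Fermat.Agent.X0.Place.mem_iff_ord_nonneg, Fermat.Agent.X0.Place.mem_iff_ord_nonneg]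
  rcases eq_or_ne f 0 with rfl | hf
  · simp
  obtain ⟨p, q, hq, hpq⟩ := hgen f
  rw [hgen.ord_eq ha hf hq hpq, hgen.ord_eq ha' hf hq hpq]

end Generates

/-! ### Orders of products -/

theorem ord_prod (Q : Place k L) {ι : Type*} (s : Finset ι) (F : ι → L)
    (h : ∀ i ∈ s, F i ≠ 0) : Q.ord (∏ i ∈ s, F i) = ∑ i ∈ s, Q.ord (F i) := by
  classical
  induction s using Finset.induction_on with
  | empty => simp
  | insert i s hi ih =>
    have h1 : F i ≠ 0 := h i (Finset.mem_insert_self i s)
    have h2 : ∀ j ∈ s, F j ≠ 0 := fun j hj => h j (Finset.mem_insert_of_mem hj)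
    rw [Finset.prod_insert hi, Finset.sum_insert hi,
      Q.ord_mul h1 (Finset.prod_ne_zero_iff.mpr h2), ih h2]

theorem prod_zpow_const {ι : Type*} (s : Finset ι) {x : L} (hx : x ≠ 0) (n : ι → ℤ) :
    ∏ i ∈ s, x ^ n i = x ^ ∑ i ∈ s, n i := by
  classical
  induction s using Finset.induction_on with
  | empty => simp
  | insert i s hi ih => rw [Finset.prod_insert hi, Finset.sum_insert hi, ih, zpow_add₀ hx]

theorem ord_of_val_eq_one {Q : Place k L} {f : L} (h : Q.adicValuation f = 1) : Q.ord f = 0 := by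
  unfold Place.ord
  rw [h]
  simp

theorem ord_const (Q : Place k L) (a : k) : Q.ord (algebraMap k L a) = 0 :=
  Fermat.Agent.X0.Place.ord_algebraMap Q a

/-! ### The rotation -/

section Rotation

variable {u : L} (α : SemilinearAut k L)

theorem ord_inv_smul (Q : Place k L) (f : L) : (α⁻¹ • Q).ord f = Q.ord (α • f) := by
  have h := SemilinearAut.ord_smul α (α⁻¹ • Q) f
  rw [smul_inv_smul] at h
  exact h.symm

theorem mem_inv_smul (Q : Place k L) (f : L) :
    f ∈ (α⁻¹ • Q).toValuationSubring ↔ α • f ∈ Q.toValuationSubring := by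
  rw [Fermat.Agent.X0.Place.mem_iff_ord_nonneg, Fermat.Agent.X0.Place.mem_iff_ord_nonneg,
    ord_inv_smul]

theorem val_inv_smul_le_one (Q : Place k L) (f : L) :
    (α⁻¹ • Q).adicValuation f ≤ 1 ↔ Q.adicValuation (α • f) ≤ 1 := by
  rw [← mem_iff_val_le_one, ← mem_iff_val_le_one, mem_inv_smul]

variable {α} {z : k}

theorem val_const_mul {Q : Place k L} {c : k} (hc : c ≠ 0) (f : L) :
    Q.adicValuation (algebraMap k L c * f) = Q.adicValuation f := by
  rw [map_mul, val_const hc, one_mul]

/-- `u` is regular at `α⁻¹ Q` iff it is regular at `Q`. -/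
theorem val_u_inv_smul_le_one (hz : z ≠ 0) (hαu : α • u = algebraMap k L z * u) (Q : Place k L) :
    (α⁻¹ • Q).adicValuation u ≤ 1 ↔ Q.adicValuation u ≤ 1 := by
  rw [val_inv_smul_le_one, hαu, val_const_mul hz]

theorem smul_lin (hα : ∀ c : k, α • algebraMap k L c = algebraMap k L c)
    (hαu : α • u = algebraMap k L z * u) (c a : k) :
    α • (algebraMap k L c * u - algebraMap k L a) =
      algebraMap k L (z * c) * u - algebraMap k L a := by
  rw [smul_sub, smul_mul', hα, hα, hαu, map_mul]
  ring

end Rotation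

/-! ### The function `r` of a divisor and its rotations -/

/-- `∏ (c u - a_Q) ^ B(Q)` over the support of `B`. -/
noncomputable def rr (u : L) (B : Divisor k L) (a : Place k L → k) (c : k) : L :=
  ∏ Q ∈ B.support, (algebraMap k L c * u - algebraMap k L (a Q)) ^ (B Q)

section RR

variable {u : L} {B : Divisor k L} {a : Place k L → k}

theorem smul_rr {α : SemilinearAut k L} {z : k}
    (hα : ∀ c : k, α • algebraMap k L c = algebraMap k L c)
    (hαu : α • u = algebraMap k L z * u) (c : k) :
    α • rr u B a c = rr u B a (z * c) := by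
  unfold rr
  show SemilinearAut.toRingAut α _ = _
  rw [map_prod]
  refine Finset.prod_congr rfl fun Q _ => ?_
  rw [map_zpow₀]
  congr 1
  exact smul_lin hα hαu c (a Q)

/-- The factors are nonzero: `u` is not a constant. -/
theorem lin_ne_zero (hgen : Generates k u) {Q : Place k L} {b : k}
    (hb : Q.adicValuation (u - algebraMap k L b) < 1) {c : k} (hc : c ≠ 0) (a' : k) :
    algebraMap k L c * u - algebraMap k L a' ≠ 0 := by
  intro h
  have h1 : u = algebraMap k L (a' / c) := by
    rw [map_div₀]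
    rw [sub_eq_zero] at h
    rw [eq_div_iff ((_root_.map_ne_zero _).mpr hc), mul_comm]
    exact h
  have h2 := hgen.ord_sub_coord hb
  rw [h1, ← map_sub, ord_const] at h2
  exact zero_ne_one h2

theorem rr_ne_zero (hgen : Generates k u)
    (ha : ∀ Q ∈ B.support, Q.adicValuation (u - algebraMap k L (a Q)) < 1) {c : k} (hc : c ≠ 0) :
    rr u B a c ≠ 0 := by
  unfold rr
  rw [Finset.prod_ne_zero_iff]
  intro Q hQ
  exact zpow_ne_zero _ (lin_ne_zero hgen (ha Q hQ) hc _)

/-- The order of `r = ∏ (u - a_Q) ^ B(Q)` at a place where `u` is regular. -/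
theorem ord_rr_one [IsAlgClosed k] (hgen : Generates k u)
    (ha : ∀ Q ∈ B.support, Q.adicValuation (u - algebraMap k L (a Q)) < 1)
    (Q' : Place k L) (hQ' : Q'.adicValuation u ≤ 1) :
    Q'.ord (rr u B a 1) = B Q' := by
  classical
  unfold rr
  rw [ord_prod Q' _ _ fun Q hQ => zpow_ne_zero _ (lin_ne_zero hgen (ha Q hQ) one_ne_zero _)]
  obtain ⟨a', ha'⟩ := hgen.exists_coord Q' hQ'
  have hterm : ∀ Q ∈ B.support,
      Q'.ord ((algebraMap k L 1 * u - algebraMap k L (a Q)) ^ (B Q)) =
        if Q = Q' then B Q else 0 := by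
    intro Q hQ
    rw [Q'.ord_zpow, map_one, one_mul]
    split_ifs with h
    · subst h
      rw [hgen.ord_sub_coord (ha Q hQ), mul_one]
    · have hne : a' ≠ a Q := by
        intro h'
        apply h
        rw [h'] at ha'
        exact hgen.place_ext (ha Q hQ) ha'
      rw [ord_of_val_eq_one (Generates.val_sub_of_ne ha' hne), mul_zero]
  rw [Finset.sum_congr rfl hterm, Finset.sum_ite_eq' B.support Q' fun Q => B Q]
  split_ifs with h
  · rfl
  · exact (Finsupp.notMem_support_iff.mp h).symm

/-- At a place where `u` has a pole, every factor `c u - a` has the order of `u`. -/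
theorem ord_lin_of_pole {Q' : Place k L} (hQ' : ¬Q'.adicValuation u ≤ 1) {c : k} (hc : c ≠ 0)
    (a' : k) : Q'.ord (algebraMap k L c * u - algebraMap k L a') = Q'.ord u := by
  have h1 : Q'.adicValuation (algebraMap k L a') < Q'.adicValuation (algebraMap k L c * u) := by
    rw [val_const_mul hc]
    exact (Q'.adicValuation_algebraMap_le_one a').trans_lt (not_le.mp hQ')
  unfold Place.ord
  rw [Valuation.map_sub_eq_of_lt_left _ h1, val_const_mul hc]

theorem ord_rr_of_pole (hgen : Generates k u)
    (ha : ∀ Q ∈ B.support, Q.adicValuation (u - algebraMap k L (a Q)) < 1)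
    {Q' : Place k L} (hQ' : ¬Q'.adicValuation u ≤ 1) {c : k} (hc : c ≠ 0) :
    Q'.ord (rr u B a c) = (∑ Q ∈ B.support, B Q) * Q'.ord u := by
  unfold rr
  rw [ord_prod Q' _ _ fun Q hQ => zpow_ne_zero _ (lin_ne_zero hgen (ha Q hQ) hc _),
    Finset.sum_mul]
  refine Finset.sum_congr rfl fun Q _ => ?_
  rw [Q'.ord_zpow, ord_lin_of_pole hQ' hc]

/-- At the place `u = 0` the function `∏ (c u - a_Q) ^ B(Q)` is a one-unit times the constant
`∏ (-a_Q) ^ B(Q)`. -/
theorem oneUnit_rr_div_of_zero (ha0 : ∀ Q ∈ B.support, a Q ≠ 0) {Q' : Place k L}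
    (hQ' : Q'.adicValuation u < 1) (c : k) :
    OneUnit Q' (rr u B a c / ∏ Q ∈ B.support, (-algebraMap k L (a Q)) ^ (B Q)) := by
  unfold rr
  rw [← Finset.prod_div_distrib]
  refine OneUnit.prod _ _ fun Q hQ => ?_
  rw [← div_zpow]
  refine OneUnit.zpow ?_ _
  have hne : algebraMap k L (a Q) ≠ 0 := (_root_.map_ne_zero _).mpr (ha0 Q hQ)
  unfold OneUnit
  have h1 : (algebraMap k L c * u - algebraMap k L (a Q)) / -algebraMap k L (a Q) - 1 =
      -(algebraMap k L c * u) * (algebraMap k L (a Q))⁻¹ := by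
    field_simp
    ring
  rw [h1, map_mul, Valuation.map_neg, map_inv₀, val_const (ha0 Q hQ), inv_one, mul_one, map_mul]
  calc Q'.adicValuation (algebraMap k L c) * Q'.adicValuation u
      ≤ 1 * Q'.adicValuation u := by
        gcongr
        exact Q'.adicValuation_algebraMap_le_one c
    _ < 1 := by rw [one_mul]; exact hQ'

/-- At the place `u = ∞` the function `∏ (c u - a_Q) ^ B(Q)` is a one-unit times
`(c u) ^ deg B`. -/
theorem oneUnit_rr_div_of_pole {Q' : Place k L} (hQ' : ¬Q'.adicValuation u ≤ 1) {c : k}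
    (hc : c ≠ 0) :
    OneUnit Q' (rr u B a c / (algebraMap k L c * u) ^ (∑ Q ∈ B.support, B Q)) := by
  have hu0 : u ≠ 0 := by
    rintro rfl
    apply hQ'
    rw [map_zero]
    exact zero_le_one
  have hcu : algebraMap k L c * u ≠ 0 := mul_ne_zero ((_root_.map_ne_zero _).mpr hc) hu0
  unfold rr
  rw [← prod_zpow_const _ hcu, ← Finset.prod_div_distrib]
  refine OneUnit.prod _ _ fun Q _ => ?_
  rw [← div_zpow]
  refine OneUnit.zpow ?_ _
  unfold OneUnit
  have hc' : algebraMap k L c ≠ 0 := (_root_.map_ne_zero _).mpr hc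
  have h1 : (algebraMap k L c * u - algebraMap k L (a Q)) / (algebraMap k L c * u) - 1 =
      -algebraMap k L (a Q) * (algebraMap k L c * u)⁻¹ := by
    field_simp
    ring
  rw [h1, map_mul, Valuation.map_neg, map_inv₀, val_const_mul hc]
  have hlt : 1 < Q'.adicValuation u := not_le.mp hQ'
  have hpos : Q'.adicValuation u ≠ 0 := (Valuation.ne_zero_iff _).mpr hu0
  calc Q'.adicValuation (algebraMap k L (a Q)) * (Q'.adicValuation u)⁻¹
      ≤ 1 * (Q'.adicValuation u)⁻¹ := by
        gcongr
        exact Q'.adicValuation_algebraMap_le_one _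
    _ < 1 := by
        rw [one_mul]
        exact inv_lt_one_of_one_lt₀ hlt

end RR

/-! ### The rotation identity -/

theorem oneUnit_of_normalizers {Q : Place k L} {R₂ R₁ R₀ n₂ n₁ n₀ : L}
    (hn₁ : n₁ ≠ 0) (hn : n₂ * n₀ = n₁ ^ 2)
    (h₂ : OneUnit Q (R₂ / n₂)) (h₁ : OneUnit Q (R₁ / n₁)) (h₀ : OneUnit Q (R₀ / n₀)) :
    OneUnit Q (R₂ * R₀ / R₁ ^ 2) := by
  have h := (h₂.mul h₀).div (h₁.pow 2)
  have hR₁ : R₁ ≠ 0 := by
    intro h0
    have := h₁.ne_zero
    rw [h0, zero_div] at this
    exact this rfl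
  have e : R₂ / n₂ * (R₀ / n₀) / (R₁ / n₁) ^ 2 = R₂ * R₀ / R₁ ^ 2 := by
    rw [div_pow, div_mul_div_comm, hn]
    field_simp
  rwa [e] at h

/-- **The rotation identity on `ℙ¹`.** Let `L = k(u)` with `k` algebraically closed and `α` a
`k`-linear automorphism of `L` with `α u = z u`, `z ≠ 0`. For every divisor `B` supported on the
places where `u` is a unit, the second difference `α² B - 2 α B + B` is the divisor of a function
`ρ` which is `≡ 1` at the places where `u` is not a unit (`u = 0` and `u = ∞`). -/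
theorem Generates.exists_secondDiff [IsAlgClosed k] {u : L} (hgen : Generates k u)
    (α : SemilinearAut k L) (hα : ∀ c : k, α • algebraMap k L c = algebraMap k L c)
    {z : k} (hz : z ≠ 0) (hαu : α • u = algebraMap k L z * u)
    (B : Divisor k L) (hB : ∀ Q ∈ B.support, Q.adicValuation u = 1) :
    ∃ ρ : L, ρ ≠ 0 ∧
      (∀ Q : Place k L, (α • α • B - (2 : ℤ) • α • B + B) Q = Q.ord ρ) ∧
      ∀ Q : Place k L, Q.adicValuation u ≠ 1 → Q.adicValuation (ρ - 1) < 1 := by
  classical
  have hex : ∀ Q ∈ B.support, ∃ a : k, Q.adicValuation (u - algebraMap k L a) < 1 :=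
    fun Q hQ => hgen.exists_coord Q (hB Q hQ).le
  choose! a ha using hex
  have ha0 : ∀ Q ∈ B.support, a Q ≠ 0 := by
    intro Q hQ h0
    have := ha Q hQ
    rw [h0, map_zero, sub_zero, hB Q hQ] at this
    exact lt_irrefl _ this
  have hR0 : ∀ c, c ≠ 0 → rr u B a c ≠ 0 := fun c hc => rr_ne_zero hgen ha hc
  have hz1 : z * 1 ≠ 0 := mul_ne_zero hz one_ne_zero
  have hzz : z * (z * 1) ≠ 0 := mul_ne_zero hz hz1
  have hs1 : α • rr u B a 1 = rr u B a (z * 1) := smul_rr hα hαu 1
  have hs2 : α • α • rr u B a 1 = rr u B a (z * (z * 1)) := by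
    rw [hs1]
    exact smul_rr hα hαu _
  have hB0 : ∀ Q' : Place k L, ¬Q'.adicValuation u ≤ 1 → B Q' = 0 := by
    intro Q' h
    by_contra hne
    exact h (hB Q' (Finsupp.mem_support_iff.mpr hne)).le
  refine ⟨rr u B a (z * (z * 1)) * rr u B a 1 / rr u B a (z * 1) ^ 2, ?_, ?_, ?_⟩
  · exact div_ne_zero (mul_ne_zero (hR0 _ hzz) (hR0 _ one_ne_zero)) (pow_ne_zero _ (hR0 _ hz1))
  · intro Q
    have hL : (α • α • B - (2 : ℤ) • α • B + B) Q =
        B (α⁻¹ • α⁻¹ • Q) - 2 * B (α⁻¹ • Q) + B Q := by
      simp only [Finsupp.coe_add, Finsupp.coe_sub, Pi.add_apply, Pi.sub_apply, Finsupp.coe_smul,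
        Pi.smul_apply, smul_eq_mul, SemilinearAut.divisor_smul_apply]
    have hord : Q.ord (rr u B a (z * (z * 1)) * rr u B a 1 / rr u B a (z * 1) ^ 2) =
        Q.ord (rr u B a (z * (z * 1))) + Q.ord (rr u B a 1) - 2 * Q.ord (rr u B a (z * 1)) := by
      rw [div_eq_mul_inv, Q.ord_mul (mul_ne_zero (hR0 _ hzz) (hR0 _ one_ne_zero))
        (inv_ne_zero (pow_ne_zero _ (hR0 _ hz1))), Q.ord_mul (hR0 _ hzz) (hR0 _ one_ne_zero),
        Q.ord_inv, Fermat.Agent.X0.Place.ord_pow]
      push_cast
      ring
    rw [hL, hord]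
    by_cases hQ : Q.adicValuation u ≤ 1
    · have hQ1 : (α⁻¹ • Q).adicValuation u ≤ 1 := (val_u_inv_smul_le_one hz hαu Q).mpr hQ
      have hQ2 : (α⁻¹ • α⁻¹ • Q).adicValuation u ≤ 1 :=
        (val_u_inv_smul_le_one hz hαu _).mpr hQ1
      have e2 : Q.ord (rr u B a (z * (z * 1))) = B (α⁻¹ • α⁻¹ • Q) := by
        rw [← hs2, ← ord_inv_smul, ← ord_inv_smul]
        exact ord_rr_one hgen ha _ hQ2
      have e1 : Q.ord (rr u B a (z * 1)) = B (α⁻¹ • Q) := by
        rw [← hs1, ← ord_inv_smul]
        exact ord_rr_one hgen ha _ hQ1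
      have e0 : Q.ord (rr u B a 1) = B Q := ord_rr_one hgen ha Q hQ
      rw [e2, e1, e0]
      ring
    · have hQ1 : ¬(α⁻¹ • Q).adicValuation u ≤ 1 := fun h =>
        hQ ((val_u_inv_smul_le_one hz hαu Q).mp h)
      have hQ2 : ¬(α⁻¹ • α⁻¹ • Q).adicValuation u ≤ 1 := fun h =>
        hQ1 ((val_u_inv_smul_le_one hz hαu _).mp h)
      rw [hB0 _ hQ, hB0 _ hQ1, hB0 _ hQ2, ord_rr_of_pole hgen ha hQ hzz,
        ord_rr_of_pole hgen ha hQ one_ne_zero, ord_rr_of_pole hgen ha hQ hz1]
      ring
  · intro Q hQ
    show OneUnit Q _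
    rcases lt_or_gt_of_ne hQ with hlt | hgt
    · have hn0 : (∏ Q' ∈ B.support, (-algebraMap k L (a Q')) ^ (B Q')) ≠ 0 :=
        Finset.prod_ne_zero_iff.mpr fun Q' hQ' =>
          zpow_ne_zero _ (neg_ne_zero.mpr ((_root_.map_ne_zero _).mpr (ha0 Q' hQ')))
      exact oneUnit_of_normalizers hn0 (sq _).symm (oneUnit_rr_div_of_zero ha0 hlt _)
        (oneUnit_rr_div_of_zero ha0 hlt _) (oneUnit_rr_div_of_zero ha0 hlt _)
    · have hQ' : ¬Q.adicValuation u ≤ 1 := not_le.mpr hgt
      have hu0 : u ≠ 0 := by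
        rintro rfl
        apply hQ'
        rw [map_zero]
        exact zero_le_one
      refine oneUnit_of_normalizers (n₂ := (algebraMap k L (z * (z * 1)) * u) ^ _)
        (n₁ := (algebraMap k L (z * 1) * u) ^ _) (n₀ := (algebraMap k L 1 * u) ^ _)
        (zpow_ne_zero _ (mul_ne_zero ((_root_.map_ne_zero _).mpr hz1) hu0)) ?_
        (oneUnit_rr_div_of_pole hQ' hzz) (oneUnit_rr_div_of_pole hQ' hz1)
        (oneUnit_rr_div_of_pole hQ' one_ne_zero)
      rw [sq, ← mul_zpow, ← mul_zpow]
      congr 1
      simp only [map_mul, map_one]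
      ring

end Fermat.Agent.BR.POne
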