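import Mathlib
import Fermat.Agent.BR.NodalRed
import Fermat.Agent.BR.POneRot

/-!
# Program B (bad reduction), node B4.2 P1ROT: `SecondDiffOK` on the exceptional components

* `secondDiffOK_of_rotation` : on a component `v` of a nodal reduction setup `S` whose residue
  function field is `k(u)` (`Generates k u`), whose nodes are exactly the places where `u` is not a
  unit (`u = 0`, `u = ∞`), every `k`-linear automorphism `α` with `α u = z u` satisfies
  `S.SecondDiffOK v α` (the input (R3) of `Nodal.HasNodalReductions`).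
* `rotRatFunc z` : the rotation `X ↦ z X` of `RatFunc k`, and `exists_secondDiff_ratFunc` : the
  rotation identity on the standard model `RatFunc k` (non-vacuity of the hypotheses).
-/

set_option autoImplicit false

open AlgebraicCurve Polynomial

namespace Fermat.Agent.BR.POne

open Fermat.Agent.BR.Nodal

/-- **`SecondDiffOK` for a rotation of an exceptional `ℙ¹`.** -/
theorem secondDiffOK_of_rotation {K F k : Type*} [Field K] [Field F] [Algebra K F] [Field k]
    [IsAlgClosed k] (S : NodalRed K F k) (v : S.V) {u : S.Ft v} (hgen : Generates k u)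
    (α : SemilinearAut k (S.Ft v))
    (hα : ∀ c : k, α • algebraMap k (S.Ft v) c = algebraMap k (S.Ft v) c)
    {z : k} (hz : z ≠ 0) (hαu : α • u = algebraMap k (S.Ft v) z * u)
    (hnode : ∀ Q ∈ S.nodePts v, Q.adicValuation u ≠ 1)
    (hsmooth : ∀ Q : Place k (S.Ft v), Q ∉ S.nodePts v → Q.adicValuation u = 1) :
    S.SecondDiffOK v α := by
  intro B hB
  obtain ⟨ρ, hρ0, hdiv, hnodes⟩ :=
    hgen.exists_secondDiff α hα hz hαu B fun Q hQ => hsmooth Q (hB Q hQ)
  exact ⟨ρ, hρ0, hdiv, fun Q hQ => hnodes Q (hnode Q hQ)⟩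

/-! ### The standard model `RatFunc k` -/

section RatFunc

variable {k : Type*} [Field k]

/-- The rotation `X ↦ z X` of `RatFunc k`. -/
noncomputable def rotRatFunc (z : k) (hz : z ≠ 0) : RatFunc k ≃ₐ[k] RatFunc k :=
  letI := invertibleOfNonzero hz
  IsFractionRing.algEquivOfAlgEquiv (Polynomial.algEquivCMulXAddC z 0)

theorem rotRatFunc_X (z : k) (hz : z ≠ 0) :
    rotRatFunc z hz RatFunc.X = algebraMap k (RatFunc k) z * RatFunc.X := by
  unfold rotRatFunc
  rw [← RatFunc.algebraMap_X, IsFractionRing.algEquivOfAlgEquiv_algebraMap]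
  simp [RatFunc.algebraMap_eq_C, RatFunc.algebraMap_C]

/-- The rotation identity on `RatFunc k`. -/
theorem exists_secondDiff_ratFunc [IsAlgClosed k] {z : k} (hz : z ≠ 0)
    (B : Divisor k (RatFunc k))
    (hB : ∀ Q ∈ B.support, Q.adicValuation (RatFunc.X : RatFunc k) = 1) :
    ∃ ρ : RatFunc k, ρ ≠ 0 ∧
      (∀ Q : Place k (RatFunc k),
        (SemilinearAut.ofAlgAut (rotRatFunc z hz) • SemilinearAut.ofAlgAut (rotRatFunc z hz) • B -
          (2 : ℤ) • SemilinearAut.ofAlgAut (rotRatFunc z hz) • B + B) Q = Q.ord ρ) ∧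
      ∀ Q : Place k (RatFunc k), Q.adicValuation (RatFunc.X : RatFunc k) ≠ 1 →
        Q.adicValuation (ρ - 1) < 1 :=
  generates_ratFunc.exists_secondDiff (SemilinearAut.ofAlgAut (rotRatFunc z hz))
    (fun c => by rw [SemilinearAut.ofAlgAut_smul, AlgEquiv.commutes]) hz
    (by rw [SemilinearAut.ofAlgAut_smul, rotRatFunc_X]) B hB

end RatFunc

end Fermat.Agent.BR.POne
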