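import Fermat.Agent.BR.AnnulusCompat
import Fermat.Agent.BR.POneSecondDiff

/-!
# Program B, node B4.3/B4.4 glue: the rotation of the exceptional `ℙ¹` in the standard model

Links the reduction `redExc` of annular points (`BR/AnnulusCompat`) with the rotation
`rotRatFunc z : X ↦ z X` of `RatFunc k` (`BR/POneSecondDiff`, helper8) on the places
`placeAt c`, `placeInfty` of `RatFunc k` (`BR/P1Places`, helper14).

* `rot_smul_placeAt` : the rotation `X ↦ z X` moves the place `X = c` to the place `X = z⁻¹ c`;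
  `rot_smul_placeInfty` : it fixes the place `X = ∞`;
* `adicValuation_X_placeAt` (`c ≠ 0`), `adicValuation_X_placeAt_zero`,
  `adicValuation_X_placeInfty` : `|X| = 1` exactly at the places `X = c`, `c ≠ 0`
  (hypotheses `hnode`, `hsmooth` of `POne.secondDiffOK_of_rotation` for
  `nodePts = {placeAt 0, placeInfty}`);
* `redExc_smul_rot` : the `Compat` clause on an exceptional component with the explicit
  automorphism `α = rotRatFunc (chi σ a)⁻¹`.
-/

set_option autoImplicit false

open IsLocalRing AlgebraicCurve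

namespace Fermat.Agent.BR.AnnulusRed

open Fermat.Agent.Red Fermat.Agent.BR.InertiaRed Fermat.Agent.BR.P1 Fermat.Agent.BR.POne
  Fermat.Agent.X0

section Rot

variable {k : Type*} [Field k] [IsAlgClosed k]

/-- The rotation `X ↦ z X` as a semilinear automorphism of `k(X)`. -/
noncomputable def rotAut (z : k) (hz : z ≠ 0) : SemilinearAut k (RatFunc k) :=
  SemilinearAut.ofAlgAut (rotRatFunc z hz)

theorem rotAut_smul_algebraMap (z : k) (hz : z ≠ 0) (c : k) :
    rotAut z hz • algebraMap k (RatFunc k) c = algebraMap k (RatFunc k) c := by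
  unfold rotAut
  rw [SemilinearAut.ofAlgAut_smul, AlgEquiv.commutes]

theorem rotAut_smul_X (z : k) (hz : z ≠ 0) :
    rotAut z hz • (RatFunc.X : RatFunc k) = algebraMap k (RatFunc k) z * RatFunc.X := by
  unfold rotAut
  rw [SemilinearAut.ofAlgAut_smul, rotRatFunc_X]

/-- **The rotation `X ↦ z X` moves the place `X = c` to the place `X = z⁻¹ c`.** -/
theorem rot_smul_placeAt (z : k) (hz : z ≠ 0) (c : k) :
    rotAut z hz • placeAt k c = placeAt k (z⁻¹ * c) := by
  apply eq_placeAt_of_ord_pos
  have h1 : (RatFunc.X : RatFunc k) - RatFunc.C (z⁻¹ * c) =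
      algebraMap k (RatFunc k) z⁻¹ * (rotAut z hz • ((RatFunc.X : RatFunc k) - RatFunc.C c)) := by
    have e : algebraMap k (RatFunc k) z⁻¹ * algebraMap k (RatFunc k) z = 1 := by
      rw [← map_mul, inv_mul_cancel₀ hz, map_one]
    rw [smul_sub, rotAut_smul_X, ← RatFunc.algebraMap_eq_C, rotAut_smul_algebraMap, map_mul,
      mul_sub, ← mul_assoc, e, one_mul]
  have hne : (RatFunc.X : RatFunc k) - RatFunc.C c ≠ 0 := by
    intro h
    have := ord_placeAt_X_sub (k := k) c
    rw [h] at this
    simp at this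
  have hne' : rotAut z hz • ((RatFunc.X : RatFunc k) - RatFunc.C c) ≠ 0 := by
    intro h
    apply hne
    have := congrArg (fun x => (rotAut z hz)⁻¹ • x) h
    simpa using this
  have hz' : algebraMap k (RatFunc k) z⁻¹ ≠ 0 := (map_ne_zero _).mpr (inv_ne_zero hz)
  rw [h1, Place.ord_mul _ hz' hne', Place.ord_algebraMap, zero_add, SemilinearAut.ord_smul,
    ord_placeAt_X_sub]
  exact one_pos

/-- The rotation fixes the place `X = ∞`. -/
theorem rot_smul_placeInfty (z : k) (hz : z ≠ 0) :
    rotAut z hz • placeInfty k = placeInfty k := by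
  apply eq_placeInfty
  have h1 : (RatFunc.X : RatFunc k) =
      algebraMap k (RatFunc k) z⁻¹ * (rotAut z hz • (RatFunc.X : RatFunc k)) := by
    have e : algebraMap k (RatFunc k) z⁻¹ * algebraMap k (RatFunc k) z = 1 := by
      rw [← map_mul, inv_mul_cancel₀ hz, map_one]
    rw [rotAut_smul_X, ← mul_assoc, e, one_mul]
  have hX : (RatFunc.X : RatFunc k) ≠ 0 := RatFunc.X_ne_zero
  have hne' : rotAut z hz • (RatFunc.X : RatFunc k) ≠ 0 := by
    intro h
    apply hX
    have := congrArg (fun x => (rotAut z hz)⁻¹ • x) h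
    simpa using this
  have hz' : algebraMap k (RatFunc k) z⁻¹ ≠ 0 := (map_ne_zero _).mpr (inv_ne_zero hz)
  rw [h1, Place.ord_mul _ hz' hne', Place.ord_algebraMap, zero_add, SemilinearAut.ord_smul,
    ord_placeInfty_X]
  exact neg_one_lt_zero

/-- The places `X = c`, `c ≠ 0`, are exactly the places where `|X| = 1` (1). -/
theorem adicValuation_X_placeAt {c : k} (hc : c ≠ 0) :
    (placeAt k c).adicValuation (RatFunc.X : RatFunc k) = 1 := by
  have h : (placeAt k c).ord ((RatFunc.X : RatFunc k) - RatFunc.C 0) = 0 :=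
    ord_placeAt_X_sub_of_ne hc
  rw [map_zero, sub_zero] at h
  rw [AlgebraicCurve.Place.adicValuation_eq_exp_neg_ord _ RatFunc.X_ne_zero, h, neg_zero, WithZero.exp_zero]

/-- (2) `|X| < 1` at the place `X = 0`. -/
theorem adicValuation_X_placeAt_zero :
    (placeAt k (0 : k)).adicValuation (RatFunc.X : RatFunc k) ≠ 1 := by
  have h : (placeAt k (0 : k)).ord ((RatFunc.X : RatFunc k) - RatFunc.C 0) = 1 :=
    ord_placeAt_X_sub 0
  rw [map_zero, sub_zero] at h
  rw [AlgebraicCurve.Place.adicValuation_eq_exp_neg_ord _ RatFunc.X_ne_zero, h, ← WithZero.exp_zero]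
  intro h2
  have := WithZero.exp_injective h2
  omega

/-- (3) `|X| > 1` at the place `X = ∞`. -/
theorem adicValuation_X_placeInfty :
    (placeInfty k).adicValuation (RatFunc.X : RatFunc k) ≠ 1 := by
  rw [AlgebraicCurve.Place.adicValuation_eq_exp_neg_ord _ RatFunc.X_ne_zero, ord_placeInfty_X,
    ← WithZero.exp_zero]
  intro h2
  have := WithZero.exp_injective h2
  omega

/-- A place of `k(X)` with `|X| = 1` is one of the places `X = c`, `c ≠ 0`. -/
theorem exists_eq_placeAt_of_adicValuation_X {Q : Place k (RatFunc k)}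
    (hQ : Q.adicValuation (RatFunc.X : RatFunc k) = 1) : ∃ c : k, c ≠ 0 ∧ Q = placeAt k c := by
  rcases eq_placeAt_or_eq_placeInfty Q with ⟨c, rfl⟩ | rfl
  · refine ⟨c, ?_, rfl⟩
    rintro rfl
    exact adicValuation_X_placeAt_zero hQ
  · exact absurd hQ adicValuation_X_placeInfty

end Rot

section Compat

variable {K₀ K F : Type*} [Field K₀] [Field K] [Algebra K₀ K] [Field F] [Algebra K F]
variable (A : ValuationSubring K) [IsAlgClosed (ResidueField A)] {σ : K ≃ₐ[K₀] K}

/-- **The `Compat` clause on an exceptional component, explicit form**: the inertia element `σ`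
acts on the reductions of the points of the circle `v (u(P)) = v a` through the rotation
`X ↦ (chi σ a)⁻¹ X` of `k(X)`. -/
theorem redExc_smul_rot (hσ : σ ∈ A.inertiaSubgroupIn K₀)
    (hval : ∀ x : K, A.valuation (σ x) = A.valuation x)
    (g : SemilinearAut K F) (hg : SemilinearAut.baseAut g = σ.toRingEquiv)
    {T : Set (Place K F)} (hT : ∀ P : Place K F, g • P ∈ T ↔ P ∈ T)
    {u : F} (hu : g • u = u) {a : K} (ha : a ≠ 0) (P : Place K F) :
    redExc A T u a (g • P) = (redExc A T u a P).map
      (fun Q => rotAut (chi A σ a)⁻¹ (inv_ne_zero (chi_ne_zero A ha (hval a))) • Q) := by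
  apply redExc_smul A hσ hval g hg hT hu ha
  intro c _
  rw [rot_smul_placeAt, inv_inv]

end Compat

end Fermat.Agent.BR.AnnulusRed
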