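import Mathlib

/-!
# Program B, block B1: transport of best approximations along a dense subfield

Abstract lemma (Mathlib only).  `(F, O, res)` a valued field over `(K, A)`, `α : F₀ → F` a
`K`-embedding of a valued field `(F₀, O₀, res₀)` with `O ∩ F₀ = O₀` and compatible residue maps.
Assume

* `approx₀` : best approximations from finite-dimensional `K`-subspaces in `F₀`
  (the `approx` field of `Val.ConstRed` / `Red.RedSetup`);
* `dense`   : `α F₀` is dense in `F` for the topology of `O`;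
* `compare` : the unit ball `V ∩ O` of a finite-dimensional `K`-subspace is bounded in
  coordinates;
* `hscale`  : every nonzero element of `F` is a `K`-multiple of a unit of `O`.

Then `(F, O, res)` has best approximations (`approx_of_dense`).  Proof: a linear perturbation
`φ : V + K y → F₀`, `|φ f - f| < |f|`.
-/

set_option autoImplicit false

namespace Fermat.Agent.BR.ApproxDense

variable {K F F₀ Ft Ft₀ : Type*} [Field K] [Field F] [Algebra K F] [Field F₀] [Algebra K F₀]
  [Ring Ft] [Ring Ft₀]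

section Basic

variable (O : ValuationSubring F)

theorem mem_nonunits_iff_not_isUnit (x : O) : (x : F) ∈ O.nonunits ↔ ¬ IsUnit x := by
  rw [ValuationSubring.coe_mem_nonunits_iff, IsLocalRing.mem_maximalIdeal, mem_nonunits_iff]

theorem mem_of_mem_nonunits' {x : F} (hx : x ∈ O.nonunits) : x ∈ O :=
  (O.valuation_le_one_iff x).1 ((O.mem_nonunits_iff).1 hx).le

theorem mul_mem_nonunits_left {x y : F} (hx : x ∈ O.nonunits) (hy : y ∈ O) :
    x * y ∈ O.nonunits := by
  rw [O.mem_nonunits_iff, map_mul]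
  calc O.valuation x * O.valuation y ≤ O.valuation x * 1 :=
        mul_le_mul_right ((O.valuation_le_one_iff y).2 hy) _
    _ = O.valuation x := mul_one _
    _ < 1 := (O.mem_nonunits_iff).1 hx

theorem add_mem_nonunits' {x y : F} (hx : x ∈ O.nonunits) (hy : y ∈ O.nonunits) :
    x + y ∈ O.nonunits := by
  rw [O.mem_nonunits_iff] at hx hy ⊢
  exact (Valuation.map_add _ x y).trans_lt (max_lt hx hy)

theorem sum_mem_nonunits' {ι : Type*} (s : Finset ι) (f : ι → F)
    (h : ∀ i ∈ s, f i ∈ O.nonunits) : ∑ i ∈ s, f i ∈ O.nonunits := by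
  classical
  induction s using Finset.induction_on with
  | empty =>
    rw [Finset.sum_empty, O.mem_nonunits_iff, map_zero]
    exact zero_lt_one
  | insert a s ha ih =>
    rw [Finset.sum_insert ha]
    exact add_mem_nonunits' O (h a (Finset.mem_insert_self a s))
      (ih fun i hi => h i (Finset.mem_insert_of_mem hi))

theorem inv_mem_nonunits_of_notMem {x : F} (hx : x ∉ O) : x⁻¹ ∈ O.nonunits := by
  rw [O.mem_nonunits_iff, map_inv₀]
  have h1 : 1 < O.valuation x := by
    rw [← not_le, O.valuation_le_one_iff]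
    exact hx
  exact inv_lt_one_of_one_lt₀ h1

end Basic

variable (A : ValuationSubring K) (O : ValuationSubring F) (res : O →+* Ft)
  (O₀ : ValuationSubring F₀) (res₀ : O₀ →+* Ft₀) (α : F₀ →ₐ[K] F) (jt : Ft₀ →+* Ft)

/-- **Transport of best approximations along a dense subfield.** -/
theorem approx_of_dense
    (hjt : Function.Injective jt)
    (hα : ∀ x : F₀, α x ∈ O ↔ x ∈ O₀)
    (hres : ∀ (x : F₀) (hx : x ∈ O₀) (hx' : α x ∈ O), res ⟨α x, hx'⟩ = jt (res₀ ⟨x, hx⟩))
    (hker : ∀ x : O, res x = 0 ↔ ¬ IsUnit x)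
    (hA : ∀ a : K, algebraMap K F a ∈ O ↔ a ∈ A)
    (hscale : ∀ f : F, f ≠ 0 → ∃ d : K, d ≠ 0 ∧ ∃ h : d • f ∈ O, res ⟨d • f, h⟩ ≠ 0)
    (hπ : ∃ p : K, p ≠ 0 ∧ p ∈ A.nonunits)
    (approx₀ : ∀ V₀ : Submodule K F₀, Module.Finite K V₀ → ∀ y₀ : F₀, y₀ ∉ V₀ →
      ∃ w ∈ V₀, ∃ c : K, c ≠ 0 ∧ ∃ h : c • (y₀ - w) ∈ O₀,
        ∀ z : O₀, (z : F₀) ∈ V₀ → res₀ z ≠ res₀ ⟨c • (y₀ - w), h⟩)
    (dense : ∀ (z : F) (ε : K), ε ≠ 0 → ∃ g : F₀, (z - α g) * (algebraMap K F ε)⁻¹ ∈ O)
    (compare : ∀ (m : ℕ) (v : Fin m → F), LinearIndependent K v →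
      ∃ c : K, c ≠ 0 ∧ ∀ a : Fin m → K, ∑ i, a i • v i ∈ O → ∀ i, c * a i ∈ A)
    (V : Submodule K F) (hV : Module.Finite K V) (y : F) (hy : y ∉ V) :
    ∃ w ∈ V, ∃ c : K, c ≠ 0 ∧ ∃ h : c • (y - w) ∈ O,
      ∀ z : O, (z : F) ∈ V → res z ≠ res ⟨c • (y - w), h⟩ := by
  classical
  -- constants of `A` in `O`
  have hAnon : ∀ a : K, a ∈ A.nonunits → algebraMap K F a ∈ O.nonunits := by
    intro a ha
    have haA : a ∈ A := (A.valuation_le_one_iff a).1 ((A.mem_nonunits_iff).1 ha).le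
    have hmem : algebraMap K F a ∈ O := (hA a).2 haA
    by_contra hnot
    by_cases ha0 : a = 0
    · apply hnot
      rw [ha0, map_zero, O.mem_nonunits_iff, map_zero]
      exact zero_lt_one
    have h1 : O.valuation (algebraMap K F a) = 1 := by
      rw [O.mem_nonunits_iff, not_lt] at hnot
      exact le_antisymm ((O.valuation_le_one_iff _).2 hmem) hnot
    have h2 : (algebraMap K F a)⁻¹ ∈ O := by
      rw [← O.valuation_le_one_iff, map_inv₀, h1, inv_one]
    rw [← map_inv₀, hA] at h2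
    have h3 : A.valuation a⁻¹ ≤ 1 := (A.valuation_le_one_iff _).2 h2
    rw [map_inv₀] at h3
    have h4 : A.valuation a < 1 := (A.mem_nonunits_iff).1 ha
    have h5 : A.valuation a ≠ 0 := (Valuation.ne_zero_iff _).2 ha0
    have h6 : 1 ≤ A.valuation a := by
      have := (inv_le_one₀ (lt_of_le_of_ne zero_le h5.symm)).1 h3
      exact this
    exact absurd h4 (not_lt.2 h6)
  -- a basis of `V`, extended by `y`
  set n := Module.finrank K V with hn
  let u : Module.Basis (Fin n) K V := Module.finBasis K V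
  set v : Fin (n + 1) → F := Fin.cons y (fun i => ((u i : V) : F)) with hv
  have hv0 : v 0 = y := rfl
  have hvs : ∀ i : Fin n, v i.succ = ((u i : V) : F) := fun i => rfl
  have hli : LinearIndependent K v := by
    rw [hv, linearIndependent_finCons]
    refine ⟨?_, ?_⟩
    · have h1 : LinearIndependent K (fun i => (V.subtype (u i))) :=
        u.linearIndependent.map' V.subtype (Submodule.ker_subtype V)
      exact h1
    · intro hmem
      apply hy
      have hle : Submodule.span K (Set.range fun i : Fin n => ((u i : V) : F)) ≤ V := by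
        rw [Submodule.span_le]
        rintro _ ⟨i, rfl⟩
        exact (u i).2
      exact hle hmem
  obtain ⟨c₀, hc₀, hcmp⟩ := compare (n + 1) v hli
  obtain ⟨p, hp0, hp⟩ := hπ
  set ε : K := c₀ * p with hε
  have hε0 : ε ≠ 0 := mul_ne_zero hc₀ hp0
  set εF : F := algebraMap K F ε with hεF
  have hεF0 : εF ≠ 0 := (map_ne_zero (algebraMap K F)).2 hε0
  -- the approximations of the basis vectors
  choose g hg using fun i => dense (v i) ε hε0
  -- the two linear maps in coordinates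
  set f : (Fin (n + 1) → K) → F := fun a => ∑ i, a i • v i with hf
  set Φ : (Fin (n + 1) → K) → F₀ := fun a => ∑ i, a i • g i with hΦ
  have hf_smul : ∀ (d : K) a, f (d • a) = d • f a := by
    intro d a
    simp only [hf, Pi.smul_apply, smul_eq_mul, Finset.smul_sum, mul_smul]
  have hΦ_smul : ∀ (d : K) a, Φ (d • a) = d • Φ a := by
    intro d a
    simp only [hΦ, Pi.smul_apply, smul_eq_mul, Finset.smul_sum, mul_smul]
  have hαΦ : ∀ a, α (Φ a) = ∑ i, a i • α (g i) := by
    intro a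
    simp only [hΦ, map_sum, map_smul]
  -- (P1)
  have P1 : ∀ a, f a ∈ O → f a - α (Φ a) ∈ O.nonunits := by
    intro a ha
    have hc := hcmp a ha
    have h1 : f a - α (Φ a) = ∑ i, algebraMap K F (a i * ε) * ((v i - α (g i)) * εF⁻¹) := by
      rw [hαΦ, hf, ← Finset.sum_sub_distrib]
      refine Finset.sum_congr rfl fun i _ => ?_
      rw [map_mul, ← hεF, ← smul_sub, Algebra.smul_def]
      field_simp
    rw [h1]
    refine sum_mem_nonunits' O _ _ fun i _ => ?_
    refine mul_mem_nonunits_left O (hAnon _ ?_) (hg i)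
    have h2 : a i * ε = (c₀ * a i) * p := by rw [hε]; ring
    rw [h2, A.mem_nonunits_iff, map_mul]
    calc A.valuation (c₀ * a i) * A.valuation p ≤ 1 * A.valuation p :=
          mul_le_mul_left ((A.valuation_le_one_iff _).2 (hc i)) _
      _ = A.valuation p := one_mul _
      _ < 1 := (A.mem_nonunits_iff).1 hp
  have P1mem : ∀ a, f a ∈ O → α (Φ a) ∈ O := by
    intro a ha
    have h1 : α (Φ a) = f a - (f a - α (Φ a)) := by ring
    rw [h1]
    exact sub_mem ha (mem_of_mem_nonunits' O (P1 a ha))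
  have P1res : ∀ a (ha : f a ∈ O) (ha' : α (Φ a) ∈ O), res ⟨f a, ha⟩ = res ⟨α (Φ a), ha'⟩ := by
    intro a ha ha'
    have hmem : f a - α (Φ a) ∈ O := mem_of_mem_nonunits' O (P1 a ha)
    have h1 : res ⟨f a - α (Φ a), hmem⟩ = 0 := by
      rw [hker, ← mem_nonunits_iff_not_isUnit]
      exact P1 a ha
    have h2 : (⟨f a - α (Φ a), hmem⟩ : O) = ⟨f a, ha⟩ - ⟨α (Φ a), ha'⟩ := Subtype.ext rfl
    rw [h2, map_sub, sub_eq_zero] at h1
    exact h1
  -- units of `O` among the `f a`
  have Punit : ∀ a, f a ≠ 0 → ∃ d : K, d ≠ 0 ∧ ∃ h : f (d • a) ∈ O, ∃ h' : α (Φ (d • a)) ∈ O,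
      res ⟨f (d • a), h⟩ ≠ 0 ∧ res ⟨α (Φ (d • a)), h'⟩ ≠ 0 := by
    intro a ha
    obtain ⟨d, hd, h, hne⟩ := hscale (f a) ha
    have h' : f (d • a) ∈ O := by rw [hf_smul]; exact h
    have hne' : res ⟨f (d • a), h'⟩ ≠ 0 := by
      have : (⟨f (d • a), h'⟩ : O) = ⟨d • f a, h⟩ := Subtype.ext (hf_smul d a)
      rw [this]
      exact hne
    refine ⟨d, hd, h', P1mem _ h', hne', ?_⟩
    rw [← P1res _ h' (P1mem _ h')]
    exact hne'
  -- (P3)
  have P3 : ∀ a, Φ a = 0 → a = 0 := by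
    intro a ha
    by_contra hne
    have hfa : f a ≠ 0 := by
      intro h0
      apply hne
      funext i
      exact (Fintype.linearIndependent_iff.1 hli) a h0 i
    obtain ⟨d, hd, h, h', -, hne'⟩ := Punit a hfa
    apply hne'
    have : (⟨α (Φ (d • a)), h'⟩ : O) = 0 := by
      apply Subtype.ext
      show α (Φ (d • a)) = 0
      rw [hΦ_smul, ha, smul_zero, map_zero]
    rw [this, map_zero]
  -- (P2)
  have P2 : ∀ a, α (Φ a) ∈ O → f a ∈ O := by
    intro a ha
    by_contra hnot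
    have hfa : f a ≠ 0 := fun h0 => hnot (h0 ▸ O.zero_mem)
    obtain ⟨d, hd, h, h', -, hne'⟩ := Punit a hfa
    apply hne'
    rw [hker, ← mem_nonunits_iff_not_isUnit]
    show α (Φ (d • a)) ∈ O.nonunits
    -- `d` is a nonunit constant
    have hdF : algebraMap K F d ∈ O.nonunits := by
      have h1 : algebraMap K F d = f (d • a) * (f a)⁻¹ := by
        rw [hf_smul, Algebra.smul_def, mul_assoc, mul_inv_cancel₀ hfa, mul_one]
      rw [h1, mul_comm]
      exact mul_mem_nonunits_left O (inv_mem_nonunits_of_notMem O hnot) h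
    rw [hΦ_smul, map_smul, Algebra.smul_def]
    exact mul_mem_nonunits_left O hdF ha
  -- the subspace `V₀ = φ(V)` and `y₀ = φ(y)`
  set V₀ : Submodule K F₀ := Submodule.span K (Set.range fun i : Fin n => g i.succ) with hV₀
  have hV₀fin : Module.Finite K V₀ := Module.Finite.span_of_finite K (Set.finite_range _)
  -- coordinates of elements of `V` and `V₀`
  have hV₀mem : ∀ x : F₀, x ∈ V₀ ↔ ∃ a : Fin (n + 1) → K, a 0 = 0 ∧ Φ a = x := by
    intro x
    constructor
    · intro hx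
      rw [hV₀, Submodule.mem_span_range_iff_exists_fun] at hx
      obtain ⟨b, rfl⟩ := hx
      refine ⟨Fin.cons 0 b, rfl, ?_⟩
      simp only [hΦ]
      rw [Fin.sum_univ_succ]
      simp
    · rintro ⟨a, ha0, rfl⟩
      simp only [hΦ]
      rw [Fin.sum_univ_succ, ha0, zero_smul, zero_add]
      exact Submodule.sum_mem _ fun i _ => Submodule.smul_mem _ _
        (Submodule.subset_span ⟨i, rfl⟩)
  have hVmem : ∀ x : F, x ∈ V ↔ ∃ a : Fin (n + 1) → K, a 0 = 0 ∧ f a = x := by
    intro x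
    constructor
    · intro hx
      refine ⟨Fin.cons 0 (fun i => u.repr ⟨x, hx⟩ i), rfl, ?_⟩
      simp only [hf]
      rw [Fin.sum_univ_succ]
      simp only [Fin.cons_zero, zero_smul, zero_add, Fin.cons_succ, hvs]
      have h1 := u.sum_repr ⟨x, hx⟩
      have h2 := congrArg (fun z : V => (z : F)) h1
      simp only [Submodule.coe_sum, Submodule.coe_smul] at h2
      exact h2
    · rintro ⟨a, ha0, rfl⟩
      simp only [hf]
      rw [Fin.sum_univ_succ, ha0, zero_smul, zero_add]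
      exact Submodule.sum_mem _ fun i _ => Submodule.smul_mem _ _ (by rw [hvs]; exact (u i).2)
  set e0 : Fin (n + 1) → K := Pi.single 0 1 with he0
  have hfe0 : f e0 = y := by
    simp only [hf, he0]
    rw [Finset.sum_eq_single 0]
    · simp [hv0]
    · intro i _ hi
      rw [Pi.single_eq_of_ne hi, zero_smul]
    · intro h
      exact absurd (Finset.mem_univ _) h
  have hΦe0 : Φ e0 = g 0 := by
    simp only [hΦ, he0]
    rw [Finset.sum_eq_single 0]
    · simp
    · intro i _ hi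
      rw [Pi.single_eq_of_ne hi, zero_smul]
    · intro h
      exact absurd (Finset.mem_univ _) h
  have hf_sub : ∀ a b, f (a - b) = f a - f b := by
    intro a b
    simp only [hf, Pi.sub_apply, sub_smul, Finset.sum_sub_distrib]
  have hΦ_sub : ∀ a b, Φ (a - b) = Φ a - Φ b := by
    intro a b
    simp only [hΦ, Pi.sub_apply, sub_smul, Finset.sum_sub_distrib]
  have hy₀ : g 0 ∉ V₀ := by
    intro hmem
    obtain ⟨a, ha0, ha⟩ := (hV₀mem _).1 hmem
    have h1 : Φ (e0 - a) = 0 := by rw [hΦ_sub, hΦe0, ha, sub_self]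
    have h2 := congrFun (P3 _ h1) 0
    rw [Pi.sub_apply, ha0, he0, Pi.single_eq_same, sub_zero, Pi.zero_apply] at h2
    exact one_ne_zero h2
  obtain ⟨w₀, hw₀, c, hc, h₀, hbest⟩ := approx₀ V₀ hV₀fin (g 0) hy₀
  obtain ⟨aw, haw0, haw⟩ := (hV₀mem _).1 hw₀
  have hwV : f aw ∈ V := (hVmem _).2 ⟨aw, haw0, rfl⟩
  -- the coordinate vector of `c (y - w)`
  set ad : Fin (n + 1) → K := c • (e0 - aw) with had
  have hfad : f ad = c • (y - f aw) := by rw [had, hf_smul, hf_sub, hfe0]
  have hΦad : Φ ad = c • (g 0 - w₀) := by rw [had, hΦ_smul, hΦ_sub, hΦe0, haw]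
  have hαmem : α (Φ ad) ∈ O := by rw [hΦad]; exact (hα _).2 h₀
  have hmem : c • (y - f aw) ∈ O := by rw [← hfad]; exact P2 ad hαmem
  refine ⟨f aw, hwV, c, hc, hmem, fun z hz heq => ?_⟩
  obtain ⟨az, haz0, haz⟩ := (hVmem _).1 hz
  have hfazO : f az ∈ O := by rw [haz]; exact z.2
  have hαz : α (Φ az) ∈ O := P1mem az hfazO
  have hΦzO₀ : Φ az ∈ O₀ := (hα _).1 hαz
  have hΦzV₀ : Φ az ∈ V₀ := (hV₀mem _).2 ⟨az, haz0, rfl⟩
  apply hbest ⟨Φ az, hΦzO₀⟩ hΦzV₀
  apply hjt
  rw [← hres (Φ az) hΦzO₀ hαz, ← hres (c • (g 0 - w₀)) h₀ ((hα _).2 h₀)]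
  have e1 : res ⟨α (Φ az), hαz⟩ = res z := by
    rw [← P1res az hfazO hαz]
    congr 1
    exact Subtype.ext haz
  have hfadO : f ad ∈ O := by rw [hfad]; exact hmem
  have e2 : res ⟨α (c • (g 0 - w₀)), (hα _).2 h₀⟩ = res ⟨c • (y - f aw), hmem⟩ := by
    have h1 := P1res ad hfadO hαmem
    have h2 : (⟨f ad, hfadO⟩ : O) = ⟨c • (y - f aw), hmem⟩ := Subtype.ext hfad
    have h3 : (⟨α (Φ ad), hαmem⟩ : O) = ⟨α (c • (g 0 - w₀)), (hα _).2 h₀⟩ :=
      Subtype.ext (congrArg α hΦad)
    rw [h2, h3] at h1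
    exact h1.symm
  rw [e1, e2]
  exact heq

end Fermat.Agent.BR.ApproxDense
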