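import Mathlib
import Fermat.Prelude.Def_AlgebraicCurve_BaseChangeGalois

/-!
# Program B (bad reduction), block B4, node B4.1: the abstract second-difference theorem

Setting (all abstract): a function field `F/K`, a family of "components" `v : V` with residue
function fields `Ft v / k`, the set `Pt` of reduced points (a component together with a place
on it), a partial *smooth reduction* map `red : Place K F → Option Pt`, and a semilinear
automorphism `g` of `F/K` (an inertia element) which acts on the reduced points through a map
`θ : Pt → Pt` (`hG1`).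

Hypotheses:
* `hInj` : the injectivity theorem of block B3 in *principal-reduction form*, with an abstract
  predicate `Match` ("the family glues at the nodes"): a degree-zero divisor `E` supported on
  smooth-reducing places with `m • E` principal (`m` prime to the residue characteristic) whose
  reduction is the divisor of a `Match`-family is principal;
* `hG2` : the second difference `θ_*(θ_* X - X) - (θ_* X - X)` of every pushed divisor
  `X = push D` is the divisor of a `Match`-family (on the two big components `θ = id` and the
  family is `1`; on a chain component `θ` is a rotation of `P^1` fixing the two nodes and the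
  family is `r(z⁻² u) r(u) / r(z⁻¹ u)²`, which takes the value `1` at both nodes).

Conclusion (`sq_diff_principal`): for every `m`-torsion divisor `D` supported on smooth-reducing
places, `g • (g • D - D) - (g • D - D)` is principal, i.e. `(g - 1)^2` kills the class of `D`.
-/

set_option autoImplicit false

namespace Fermat.Agent.BR.B4Core

open AlgebraicCurve

universe u₁ u₂ u₃ u₄ u₅

section Option

variable {α : Type*} {β : Type*} {M : Type*} [AddCommMonoid M]

/-- `Finsupp.some` commutes with `mapDomain` along `Option.map`. -/
theorem some_mapDomain_optionMap (θ : α → β) (X : Option α →₀ M) :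
    (Finsupp.mapDomain (Option.map θ) X).some = Finsupp.mapDomain θ X.some := by
  induction X using Finsupp.induction_linear with
  | zero => simp
  | add X Y hX hY =>
    rw [Finsupp.mapDomain_add, Finsupp.some_add, hX, hY, Finsupp.some_add, Finsupp.mapDomain_add]
  | single o c =>
    cases o with
    | none =>
      simp [Finsupp.mapDomain_single]
    | some a =>
      simp [Finsupp.mapDomain_single]

end Option

variable {K : Type u₁} {F : Type u₂} {k : Type u₃} [Field K] [Field F] [Algebra K F] [Field k]
variable {V : Type u₄} (Ft : V → Type u₅) [∀ v, Field (Ft v)] [∀ v, Algebra k (Ft v)]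

/-- Reduced points: a component together with a place of its residue function field. -/
abbrev Pt (k : Type u₃) [Field k] {V : Type u₄} (Ft : V → Type u₅) [∀ v, Field (Ft v)]
    [∀ v, Algebra k (Ft v)] : Type (max u₄ u₅) :=
  Σ v : V, Place k (Ft v)

variable {Ft}

/-- Push-forward of a divisor along a partial reduction map (places without smooth reduction
are dropped). -/
noncomputable def push (red : Place K F → Option (Pt k Ft)) (D : Divisor K F) : Pt k Ft →₀ ℤ :=
  (Finsupp.mapDomain red D).some

section Push

variable (red : Place K F → Option (Pt k Ft))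

@[simp] theorem push_zero : push red (0 : Divisor K F) = 0 := by
  simp [push]

theorem push_add (D E : Divisor K F) : push red (D + E) = push red D + push red E := by
  simp [push, Finsupp.mapDomain_add, Finsupp.some_add]

theorem push_neg (D : Divisor K F) : push red (-D) = -push red D := by
  have h := push_add red D (-D)
  rw [add_neg_cancel, push_zero] at h
  exact eq_neg_of_add_eq_zero_right h.symm

theorem push_sub (D E : Divisor K F) : push red (D - E) = push red D - push red E := by
  rw [sub_eq_add_neg, push_add, push_neg, sub_eq_add_neg]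

/-- Equivariance of the push-forward. -/
theorem push_smul (g : SemilinearAut K F) (θ : Pt k Ft → Pt k Ft)
    (hG1 : ∀ P : Place K F, red (g • P) = (red P).map θ) (D : Divisor K F) :
    push red (g • D) = Finsupp.mapDomain θ (push red D) := by
  have hcomp : (fun P : Place K F => red (g • P)) = Option.map θ ∘ red := funext hG1
  unfold push
  rw [SemilinearAut.divisor_smul_def, ← Finsupp.mapDomain_comp,
    show red ∘ (fun P : Place K F => g • P) = Option.map θ ∘ red from hcomp,
    Finsupp.mapDomain_comp, some_mapDomain_optionMap]

end Push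

/-- **Node B4.1.** The abstract second-difference theorem. -/
theorem sq_diff_principal
    (red : Place K F → Option (Pt k Ft)) (Match : (∀ v, Ft v) → Prop)
    (hInj : ∀ m : ℕ, (m : k) ≠ 0 → ∀ E : Divisor K F, Divisor.degree E = 0 →
      (∀ P ∈ E.support, (red P).isSome) →
      m • E ∈ Divisor.principal (K := K) (F := F) →
      (∃ φ : ∀ v, Ft v, (∀ v, φ v ≠ 0) ∧ Match φ ∧
        ∀ pt : Pt k Ft, push red E pt = pt.2.ord (φ pt.1)) →
      E ∈ Divisor.principal (K := K) (F := F))
    (g : SemilinearAut K F) (θ : Pt k Ft → Pt k Ft)
    (hG1 : ∀ P : Place K F, red (g • P) = (red P).map θ)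
    (hG2 : ∀ D : Divisor K F, (∀ P ∈ D.support, (red P).isSome) →
      ∃ ρ : ∀ v, Ft v, (∀ v, ρ v ≠ 0) ∧ Match ρ ∧
        ∀ pt : Pt k Ft,
          (Finsupp.mapDomain θ (Finsupp.mapDomain θ (push red D) - push red D)
            - (Finsupp.mapDomain θ (push red D) - push red D)) pt = pt.2.ord (ρ pt.1))
    (m : ℕ) (hm : (m : k) ≠ 0) (D : Divisor K F) (hdeg : Divisor.degree D = 0)
    (hsm : ∀ P ∈ D.support, (red P).isSome)
    (hmD : m • D ∈ Divisor.principal (K := K) (F := F)) :
    g • (g • D - D) - (g • D - D) ∈ Divisor.principal (K := K) (F := F) := by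
  classical
  -- smooth reduction is preserved by `g`
  have hsome : ∀ E : Divisor K F, (∀ P ∈ E.support, (red P).isSome) →
      ∀ P ∈ (g • E).support, (red P).isSome := by
    intro E hE P hP
    have h1 : (g • E) P ≠ 0 := Finsupp.mem_support_iff.mp hP
    rw [SemilinearAut.divisor_smul_apply] at h1
    have h2 := hE (g⁻¹ • P) (Finsupp.mem_support_iff.mpr h1)
    have h3 := hG1 (g⁻¹ • P)
    rw [smul_inv_smul] at h3
    rw [h3, Option.isSome_map]
    exact h2
  have hsupp_sub : ∀ A B : Divisor K F, (∀ P ∈ A.support, (red P).isSome) →
      (∀ P ∈ B.support, (red P).isSome) → ∀ P ∈ (A - B).support, (red P).isSome := by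
    intro A B hA hB P hP
    have h := Finsupp.support_sub (f := A) (g := B) hP
    rcases Finset.mem_union.mp h with h | h
    · exact hA P h
    · exact hB P h
  have hs1 : ∀ P ∈ (g • D - D).support, (red P).isSome :=
    hsupp_sub _ _ (hsome D hsm) hsm
  refine hInj m hm _ ?_ ?_ ?_ ?_
  · -- degree
    rw [map_sub, map_sub, SemilinearAut.degree_smul, map_sub, SemilinearAut.degree_smul, hdeg]
    simp
  · -- support
    exact hsupp_sub _ _ (hsome _ hs1) hs1
  · -- `m`-torsion
    have hg : ∀ E : Divisor K F, g • (m • E) = m • (g • E) := fun E => by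
      rw [smul_comm]
    have hE : m • (g • (g • D - D) - (g • D - D))
        = g • (g • (m • D) - m • D) - (g • (m • D) - m • D) := by
      simp only [smul_sub, hg]
    rw [hE]
    have h1 : g • (m • D) - m • D ∈ Divisor.principal (K := K) (F := F) :=
      sub_mem (SemilinearAut.smul_mem_principal g hmD) hmD
    exact sub_mem (SemilinearAut.smul_mem_principal g h1) h1
  · -- the reduction is the divisor of a matching family
    obtain ⟨ρ, hρ0, hρM, hρ⟩ := hG2 D hsm
    refine ⟨ρ, hρ0, hρM, fun pt => ?_⟩
    rw [← hρ pt, push_sub, push_smul red g θ hG1, push_sub, push_smul red g θ hG1]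

/-- **Node B4.1, class-group form.** Under the hypotheses of `sq_diff_principal`, the class
`x` of an `m`-torsion degree-zero divisor supported on smooth-reducing places satisfies
`g • (g • x - x) = g • x - x`, i.e. `(g - 1)^2 x = 0`. -/
theorem pic0_sq_diff
    (red : Place K F → Option (Pt k Ft)) (Match : (∀ v, Ft v) → Prop)
    (hInj : ∀ m : ℕ, (m : k) ≠ 0 → ∀ E : Divisor K F, Divisor.degree E = 0 →
      (∀ P ∈ E.support, (red P).isSome) →
      m • E ∈ Divisor.principal (K := K) (F := F) →
      (∃ φ : ∀ v, Ft v, (∀ v, φ v ≠ 0) ∧ Match φ ∧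
        ∀ pt : Pt k Ft, push red E pt = pt.2.ord (φ pt.1)) →
      E ∈ Divisor.principal (K := K) (F := F))
    (g : SemilinearAut K F) (θ : Pt k Ft → Pt k Ft)
    (hG1 : ∀ P : Place K F, red (g • P) = (red P).map θ)
    (hG2 : ∀ D : Divisor K F, (∀ P ∈ D.support, (red P).isSome) →
      ∃ ρ : ∀ v, Ft v, (∀ v, ρ v ≠ 0) ∧ Match ρ ∧
        ∀ pt : Pt k Ft,
          (Finsupp.mapDomain θ (Finsupp.mapDomain θ (push red D) - push red D)
            - (Finsupp.mapDomain θ (push red D) - push red D)) pt = pt.2.ord (ρ pt.1))
    (m : ℕ) (hm : (m : k) ≠ 0) (D : Divisor.degZero (K := K) (F := F))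
    (hsm : ∀ P ∈ (D : Divisor K F).support, (red P).isSome)
    (hx : m • Pic0.mk D = 0) :
    g • (g • Pic0.mk D - Pic0.mk D) = g • Pic0.mk D - Pic0.mk D := by
  have hmD : m • (D : Divisor K F) ∈ Divisor.principal (K := K) (F := F) := by
    have h1 : Pic0.mk (m • D) = 0 := by
      rw [← hx]
      exact map_nsmul (QuotientAddGroup.mk' _) m D
    have h2 := (QuotientAddGroup.eq_zero_iff (m • D)).mp h1
    rw [AddSubgroup.mem_addSubgroupOf] at h2
    simpa using h2
  have hmain := sq_diff_principal red Match hInj g θ hG1 hG2 m hm (D : Divisor K F)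
    (Divisor.mem_degZero.mp D.2) hsm hmD
  -- translate to the class group
  set x := Pic0.mk D with hxdef
  have hgx : g • x = Pic0.mk (SemilinearAut.degZeroSMulHom g D) := SemilinearAut.pic0_smul_mk g D
  have hsub : g • x - x = Pic0.mk (SemilinearAut.degZeroSMulHom g D - D) := by
    rw [hgx]; rfl
  have hg2 : g • (g • x - x)
      = Pic0.mk (SemilinearAut.degZeroSMulHom g (SemilinearAut.degZeroSMulHom g D - D)) := by
    rw [hsub]; exact SemilinearAut.pic0_smul_mk g _
  rw [← sub_eq_zero, hg2, hsub]
  have hmk : ∀ A B : Divisor.degZero (K := K) (F := F), Pic0.mk A - Pic0.mk B = Pic0.mk (A - B) :=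
    fun _ _ => rfl
  rw [hmk]
  refine (QuotientAddGroup.eq_zero_iff _).mpr ?_
  rw [AddSubgroup.mem_addSubgroupOf]
  have hcoe : ((SemilinearAut.degZeroSMulHom g (SemilinearAut.degZeroSMulHom g D - D)
      - (SemilinearAut.degZeroSMulHom g D - D) : Divisor.degZero (K := K) (F := F)) : Divisor K F)
      = g • (g • (D : Divisor K F) - (D : Divisor K F)) - (g • (D : Divisor K F) - D) := by
    simp [smul_sub]
  rw [hcoe]
  exact hmain

end Fermat.Agent.BR.B4Core
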