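import Mathlib
import Fermat.Agent.Red.LatticeReduction
import Fermat.Agent.Red.LatticeKernel
import Fermat.Agent.Red.UnitRed

/-!
# Program B (BADRED), block B3: lattice reduction for an abstract unit ball

The lattice layer of Program L (`Red/LatticeReduction`, `Red/TwoLattice`, the lattice part of
`Red/Ending`, and (U1) of `Red/UnitRed`) never uses that the unit ball `O` is a *valuation* ring
nor that the residue ring is a field.  It is ported here once and for all to an abstract unit
ball:

* `ResBall A π` : a subring `O` of `F` containing the image of the valuation subring `A` of `K`,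
  with a ring homomorphism `res : O →+* R` into a `k`-algebra `R` which is `π : A →+* k` on the
  constants, `π` killing the non-units of `A`.
* `ResBall.Approx` : the best-approximation property (verbatim the field `approx` of
  `Red.RedSetup`).

Instances (file `BR/MultiLattice.lean`): `O = ⨅ v, O v` for a finite family of valuation subrings
of `F` with residue fields `Ft v`, `R = ∀ v, Ft v`; `O = O₁ ⊓ O₂`, `R = Ft₁ × Ft₂`.

The lemma names are those of `Red.RedSetup`.  The residue-space statements (`resSpace`,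
`finrank_resSpace`, reduced bases) need `Function.Surjective π` as in `Red/`; the lattice-basis
statements (`exists_latticeBasis`, the two-lattice lemmas, `exists_bound_linearMap`) do not.
`approx_of_latticeBases` is the converse: saturation and lattice bases give `Approx`.
-/

set_option autoImplicit false

namespace Fermat.Agent.BR

open Module Fermat.Agent.Red

/-- An abstract unit ball of `F` over the valuation subring `A` of `K`, with residue map into the
`k`-algebra `R`. -/
structure ResBall {K F k R : Type*} [Field K] [Field F] [Algebra K F] [Field k] [CommRing R]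
    [Algebra k R] (A : ValuationSubring K) (π : A →+* k) where
  /-- the unit ball -/
  O : Subring F
  /-- the residue map -/
  res : O →+* R
  algebraMap_mem : ∀ a : K, a ∈ A → algebraMap K F a ∈ O
  res_algebraMap : ∀ (a : K) (ha : a ∈ A),
    res ⟨algebraMap K F a, algebraMap_mem a ha⟩ = algebraMap k R (π ⟨a, ha⟩)
  pi_eq_zero : ∀ (a : K) (ha : a ∈ A), a⁻¹ ∉ A → π ⟨a, ha⟩ = 0

variable {K F k R : Type*} [Field K] [Field F] [Algebra K F] [Field k] [CommRing R]
  [Algebra k R] {A : ValuationSubring K} {π : A →+* k}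

namespace ResBall

variable (B : ResBall (F := F) (R := R) A π)

/-- The best-approximation property of the unit ball (verbatim the field `approx` of
`Red.RedSetup`): every finite-dimensional `K`-subspace of `F` is orthogonally complemented. -/
def Approx : Prop :=
  ∀ V : Submodule K F, Module.Finite K V → ∀ y : F, y ∉ V →
    ∃ w ∈ V, ∃ c : K, c ≠ 0 ∧ ∃ h : c • (y - w) ∈ B.O,
      ∀ z : B.O, (z : F) ∈ V → B.res z ≠ B.res ⟨c • (y - w), h⟩

/-! ### Basic API (port of `Red/Basic.lean`) -/

/-- The residue map, extended by zero outside the unit ball. -/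
noncomputable def resF (x : F) : R :=
  letI := Classical.propDecidable (x ∈ B.O)
  if h : x ∈ B.O then B.res ⟨x, h⟩ else 0

theorem resF_of_mem {x : F} (h : x ∈ B.O) : B.resF x = B.res ⟨x, h⟩ := by
  unfold resF
  rw [dif_pos h]

theorem resF_of_not_mem {x : F} (h : x ∉ B.O) : B.resF x = 0 := by
  unfold resF
  rw [dif_neg h]

@[simp] theorem resF_zero : B.resF 0 = 0 := by
  rw [B.resF_of_mem B.O.zero_mem]
  exact map_zero B.res

@[simp] theorem resF_one : B.resF 1 = 1 := by
  rw [B.resF_of_mem B.O.one_mem]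
  exact map_one B.res

theorem resF_add {x y : F} (hx : x ∈ B.O) (hy : y ∈ B.O) :
    B.resF (x + y) = B.resF x + B.resF y := by
  rw [B.resF_of_mem hx, B.resF_of_mem hy, B.resF_of_mem (B.O.add_mem hx hy), ← map_add]
  rfl

theorem resF_mul {x y : F} (hx : x ∈ B.O) (hy : y ∈ B.O) :
    B.resF (x * y) = B.resF x * B.resF y := by
  rw [B.resF_of_mem hx, B.resF_of_mem hy, B.resF_of_mem (B.O.mul_mem hx hy), ← map_mul]
  rfl

theorem resF_neg {x : F} (hx : x ∈ B.O) : B.resF (-x) = -B.resF x := by
  rw [B.resF_of_mem hx, B.resF_of_mem (B.O.neg_mem hx), ← map_neg]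
  rfl

theorem resF_sub {x y : F} (hx : x ∈ B.O) (hy : y ∈ B.O) :
    B.resF (x - y) = B.resF x - B.resF y := by
  rw [sub_eq_add_neg, B.resF_add hx (B.O.neg_mem hy), B.resF_neg hy, sub_eq_add_neg]

theorem resF_pow {x : F} (hx : x ∈ B.O) (n : ℕ) : B.resF (x ^ n) = B.resF x ^ n := by
  rw [B.resF_of_mem hx, B.resF_of_mem (pow_mem hx n), ← map_pow]
  rfl

theorem resF_sum {ι : Type*} (s : Finset ι) (x : ι → F) (hx : ∀ i ∈ s, x i ∈ B.O) :
    B.resF (∑ i ∈ s, x i) = ∑ i ∈ s, B.resF (x i) := by
  classical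
  induction s using Finset.induction_on with
  | empty => simp
  | insert i s hi ih =>
    rw [Finset.sum_insert hi, Finset.sum_insert hi,
      B.resF_add (hx i (Finset.mem_insert_self i s))
        (B.O.sum_mem fun j hj => hx j (Finset.mem_insert_of_mem hj)),
      ih fun j hj => hx j (Finset.mem_insert_of_mem hj)]

theorem sum_mem {ι : Type*} (s : Finset ι) (x : ι → F) (hx : ∀ i ∈ s, x i ∈ B.O) :
    ∑ i ∈ s, x i ∈ B.O :=
  B.O.sum_mem hx

theorem resF_algebraMap {a : K} (ha : a ∈ A) :
    B.resF (algebraMap K F a) = algebraMap k R (π ⟨a, ha⟩) := by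
  rw [B.resF_of_mem (B.algebraMap_mem a ha)]
  exact B.res_algebraMap a ha

theorem smul_mem {a : K} (ha : a ∈ A) {x : F} (hx : x ∈ B.O) : a • x ∈ B.O := by
  rw [Algebra.smul_def]
  exact B.O.mul_mem (B.algebraMap_mem a ha) hx

theorem resF_smul {a : K} (ha : a ∈ A) {x : F} (hx : x ∈ B.O) :
    B.resF (a • x) = π ⟨a, ha⟩ • B.resF x := by
  rw [Algebra.smul_def, B.resF_mul (B.algebraMap_mem a ha) hx, B.resF_algebraMap ha,
    Algebra.smul_def]

include B in
/-- `π` kills the moduli (non-zero non-units) of `A`. -/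
theorem pi_eq_zero_of_isModulus {t : K} (ht : IsModulus A t) : π ⟨t, ht.mem⟩ = 0 :=
  B.pi_eq_zero t ht.mem ht.inv_not_mem

/-- If `a ∉ A` then `a⁻¹` is a non-unit of `A`, so scaling by it kills residues. -/
theorem resF_smul_eq_zero_of_not_mem {a : K} (ha : a ∉ A) {x : F} (hx : x ∈ B.O) :
    a⁻¹ • x ∈ B.O ∧ B.resF (a⁻¹ • x) = 0 := by
  have hai : a⁻¹ ∈ A := (A.mem_or_inv_mem a).resolve_left ha
  refine ⟨B.smul_mem hai hx, ?_⟩
  rw [B.resF_smul hai hx]
  have : π ⟨a⁻¹, hai⟩ = 0 := B.pi_eq_zero _ hai (by simpa using ha)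
  rw [this, zero_smul]

theorem mem_of_resF_ne_zero {x : F} (h : B.resF x ≠ 0) : x ∈ B.O := by
  by_contra hx
  exact h (B.resF_of_not_mem hx)

theorem ne_zero_of_resF_ne_zero {x : F} (h : B.resF x ≠ 0) : x ≠ 0 := by
  rintro rfl
  exact h B.resF_zero

/-! ### Reduction of lattices (port of `Red/LatticeReduction.lean`) -/

/-- Residue of an `A`-linear combination of elements of `O`. -/
theorem resF_sum_smul {ι : Type*} [Fintype ι] (x : ι → F) (hx : ∀ i, x i ∈ B.O)
    (b : ι → K) (hb : ∀ i, b i ∈ A) :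
    (∑ i, b i • x i) ∈ B.O ∧
      B.resF (∑ i, b i • x i) = ∑ i, π ⟨b i, hb i⟩ • B.resF (x i) := by
  refine ⟨B.O.sum_mem fun i _ => B.smul_mem (hb i) (hx i), ?_⟩
  rw [B.resF_sum Finset.univ _ fun i _ => B.smul_mem (hb i) (hx i)]
  exact Finset.sum_congr rfl fun i _ => B.resF_smul (hb i) (hx i)

/-- **(R0a)** Residue-independent elements of `O` are norm-independent: a `K`-linear
combination lies in `O` only if all coefficients lie in `A`. -/
theorem mem_of_sum_smul_mem {ι : Type*} [Fintype ι] (x : ι → F) (hx : ∀ i, x i ∈ B.O)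
    (hind : LinearIndependent k fun i => B.resF (x i)) (a : ι → K)
    (h : ∑ i, a i • x i ∈ B.O) : ∀ i, a i ∈ A := by
  by_contra hcon
  push Not at hcon
  obtain ⟨i₀, hi₀⟩ := hcon
  have h₀ : a i₀ ≠ 0 := fun h => hi₀ (h ▸ A.zero_mem)
  obtain ⟨j, hj0, hb, hle⟩ := RedSetup.exists_normalise (A := A) a i₀ h₀
  have hjA : a j ∉ A := by
    rw [← A.valuation_le_one_iff, not_le]
    have : 1 < A.valuation (a i₀) := by
      rw [← not_le, A.valuation_le_one_iff]; exact hi₀
    exact lt_of_lt_of_le this hle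
  obtain ⟨hmem, hres⟩ := B.resF_sum_smul x hx (fun i => (a j)⁻¹ * a i) hb
  have hsum : ∑ i, ((a j)⁻¹ * a i) • x i = (a j)⁻¹ • ∑ i, a i • x i := by
    rw [Finset.smul_sum]
    exact Finset.sum_congr rfl fun i _ => by rw [mul_smul]
  have hzero : B.resF (∑ i, ((a j)⁻¹ * a i) • x i) = 0 := by
    rw [hsum]
    exact (B.resF_smul_eq_zero_of_not_mem hjA h).2
  rw [hres] at hzero
  have := Fintype.linearIndependent_iff.mp hind _ hzero j
  have h1 : (⟨(a j)⁻¹ * a j, hb j⟩ : A) = 1 := by
    ext
    simp [inv_mul_cancel₀ hj0]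
  rw [h1, map_one] at this
  exact one_ne_zero this

/-- **(R0a')** Residue-independent elements of `O` are `K`-linearly independent. -/
theorem linearIndependent_of_resF {ι : Type*} [Fintype ι] (x : ι → F) (hx : ∀ i, x i ∈ B.O)
    (hind : LinearIndependent k fun i => B.resF (x i)) : LinearIndependent K x := by
  rw [Fintype.linearIndependent_iff]
  intro a ha
  by_contra hcon
  push Not at hcon
  obtain ⟨i₀, hi₀⟩ := hcon
  obtain ⟨j, hj0, hb, -⟩ := RedSetup.exists_normalise (A := A) a i₀ hi₀
  obtain ⟨-, hres⟩ := B.resF_sum_smul x hx (fun i => (a j)⁻¹ * a i) hb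
  have hsum : ∑ i, ((a j)⁻¹ * a i) • x i = (a j)⁻¹ • ∑ i, a i • x i := by
    rw [Finset.smul_sum]
    exact Finset.sum_congr rfl fun i _ => by rw [mul_smul]
  rw [hsum, ha, smul_zero, B.resF_zero] at hres
  have := Fintype.linearIndependent_iff.mp hind _ hres.symm j
  have h1 : (⟨(a j)⁻¹ * a j, hb j⟩ : A) = 1 := by
    ext
    simp [inv_mul_cancel₀ hj0]
  rw [h1, map_one] at this
  exact one_ne_zero this

section ResSpace

variable (hπ : Function.Surjective π)

/-- The `k`-space of residues of the elements of `V ∩ O`. -/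
def resSpace (V : Submodule K F) : Submodule k R where
  carrier := {t | ∃ z ∈ V, z ∈ B.O ∧ B.resF z = t}
  zero_mem' := ⟨0, V.zero_mem, B.O.zero_mem, B.resF_zero⟩
  add_mem' := by
    rintro _ _ ⟨z, hz, hzO, rfl⟩ ⟨w, hw, hwO, rfl⟩
    exact ⟨z + w, V.add_mem hz hw, B.O.add_mem hzO hwO, B.resF_add hzO hwO⟩
  smul_mem' := by
    rintro c _ ⟨z, hz, hzO, rfl⟩
    obtain ⟨a, rfl⟩ := hπ c
    exact ⟨(a : K) • z, V.smul_mem _ hz, B.smul_mem a.2 hzO, B.resF_smul a.2 hzO⟩

theorem mem_resSpace {V : Submodule K F} {t : R} :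
    t ∈ B.resSpace hπ V ↔ ∃ z ∈ V, z ∈ B.O ∧ B.resF z = t := Iff.rfl

theorem resF_mem_resSpace {V : Submodule K F} {z : F} (hz : z ∈ V) (hzO : z ∈ B.O) :
    B.resF z ∈ B.resSpace hπ V := ⟨z, hz, hzO, rfl⟩

theorem resSpace_mono {V W : Submodule K F} (h : V ≤ W) :
    B.resSpace hπ V ≤ B.resSpace hπ W := by
  rintro _ ⟨z, hz, hzO, rfl⟩
  exact ⟨z, h hz, hzO, rfl⟩

/-- A `k`-independent family in `resSpace V` has at most `finrank K V` elements. -/
theorem card_le_finrank_of_linearIndependent_resSpace (V : Submodule K F)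
    [FiniteDimensional K V] {ι : Type*} [Fintype ι] (t : ι → R)
    (ht : ∀ i, t i ∈ B.resSpace hπ V) (hind : LinearIndependent k t) :
    Fintype.card ι ≤ finrank K V := by
  choose z hzV hzO hzt using ht
  have hind' : LinearIndependent k fun i => B.resF (z i) := by
    have : (fun i => B.resF (z i)) = t := funext hzt
    rw [this]; exact hind
  have hK := B.linearIndependent_of_resF z hzO hind'
  have hK' : LinearIndependent K fun i => (⟨z i, hzV i⟩ : V) := by
    apply LinearIndependent.of_comp V.subtype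
    exact hK
  exact hK'.fintype_card_le_finrank

theorem rank_resSpace_le (V : Submodule K F) [FiniteDimensional K V] :
    Module.rank k (B.resSpace hπ V) ≤ (finrank K V : Cardinal) := by
  apply rank_le
  intro s hs
  have h1 : LinearIndependent k fun i : s => ((i : B.resSpace hπ V) : R) := by
    have := hs.map' (B.resSpace hπ V).subtype (Submodule.ker_subtype _)
    exact this
  have := B.card_le_finrank_of_linearIndependent_resSpace hπ V
    (fun i : s => ((i : B.resSpace hπ V) : R)) (fun i => (i : B.resSpace hπ V).2) h1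
  simpa using this

instance finite_resSpace (V : Submodule K F) [FiniteDimensional K V] :
    Module.Finite k (B.resSpace hπ V) := by
  rw [← Module.rank_lt_aleph0_iff]
  exact lt_of_le_of_lt (B.rank_resSpace_le hπ V) Cardinal.natCast_lt_aleph0

theorem finrank_resSpace_le (V : Submodule K F) [FiniteDimensional K V] :
    finrank k (B.resSpace hπ V) ≤ finrank K V := by
  have h := B.rank_resSpace_le hπ V
  have := B.finite_resSpace hπ V
  rw [← finrank_eq_rank] at h
  exact_mod_cast h

variable (hB : B.Approx)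

include hπ hB in
/-- **Reduced families.** Every `K`-independent family can be replaced by a family in `O`
with `k`-independent residues and the same `K`-span (Gram–Schmidt with `Approx`). -/
theorem exists_reduced_of_linearIndependent :
    ∀ (n : ℕ) (x : Fin n → F), LinearIndependent K x →
      ∃ z : Fin n → F, (∀ i, z i ∈ B.O) ∧ (LinearIndependent k fun i => B.resF (z i)) ∧
        Submodule.span K (Set.range z) = Submodule.span K (Set.range x) := by
  intro n
  induction n with
  | zero =>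
    intro x _
    refine ⟨x, fun i => i.elim0, linearIndependent_empty_type, rfl⟩
  | succ n ih =>
    intro x hx
    have hxs : x = Fin.snoc (Fin.init x) (x (Fin.last n)) := (Fin.snoc_init_self x).symm
    rw [hxs, linearIndependent_finSnoc] at hx
    obtain ⟨hx', hy⟩ := hx
    obtain ⟨z', hz'O, hz'ind, hz'span⟩ := ih (Fin.init x) hx'
    set W := Submodule.span K (Set.range (Fin.init x)) with hW
    set y := x (Fin.last n) with hydef
    have hWfin : Module.Finite K W := Module.Finite.span_of_finite K (Set.finite_range _)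
    obtain ⟨w, hw, c, hc, h, hne⟩ := hB W hWfin y hy
    refine ⟨Fin.snoc z' (c • (y - w)), ?_, ?_, ?_⟩
    · intro i
      refine Fin.lastCases ?_ (fun j => ?_) i
      · rw [Fin.snoc_last]; exact h
      · rw [Fin.snoc_castSucc]; exact hz'O j
    · have hfun : (fun i => B.resF ((Fin.snoc z' (c • (y - w)) : Fin (n + 1) → F) i)) =
          Fin.snoc (fun j => B.resF (z' j)) (B.resF (c • (y - w))) := by
        funext i
        refine Fin.lastCases ?_ (fun j => ?_) i
        · simp only [Fin.snoc_last]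
        · simp only [Fin.snoc_castSucc]
      rw [hfun, linearIndependent_finSnoc]
      refine ⟨hz'ind, fun hmem => ?_⟩
      have hle : Submodule.span k (Set.range fun j => B.resF (z' j)) ≤ B.resSpace hπ W := by
        rw [Submodule.span_le]
        rintro _ ⟨j, rfl⟩
        refine B.resF_mem_resSpace hπ ?_ (hz'O j)
        have hj : z' j ∈ Submodule.span K (Set.range z') := Submodule.subset_span ⟨j, rfl⟩
        rw [hz'span] at hj
        exact hj
      obtain ⟨z₀, hz₀W, hz₀O, hz₀⟩ := hle hmem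
      apply hne ⟨z₀, hz₀O⟩ hz₀W
      rw [← B.resF_of_mem hz₀O, ← B.resF_of_mem h]
      exact hz₀
    · rw [hxs, Fin.range_snoc, Fin.range_snoc, Submodule.span_insert, Submodule.span_insert,
        hz'span]
      apply le_antisymm
      · apply sup_le
        · rw [Submodule.span_singleton_le_iff_mem]
          have h1 : c • (y - w) = c • y - c • w := smul_sub c y w
          rw [h1]
          refine Submodule.sub_mem _ ?_ ?_
          · exact Submodule.mem_sup_left (Submodule.smul_mem _ _ (Submodule.mem_span_singleton_self y))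
          · exact Submodule.mem_sup_right (Submodule.smul_mem _ _ hw)
        · exact le_sup_right
      · apply sup_le
        · rw [Submodule.span_singleton_le_iff_mem]
          have h1 : c⁻¹ • (c • (y - w)) + w = y := by
            rw [smul_smul, inv_mul_cancel₀ hc, one_smul, sub_add_cancel]
          have h2 : c⁻¹ • (c • (y - w)) + w ∈
              (Submodule.span K {c • (y - w)}) ⊔ W := by
            refine Submodule.add_mem _ ?_ ?_
            · exact Submodule.mem_sup_left
                (Submodule.smul_mem _ _ (Submodule.mem_span_singleton_self _))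
            · exact Submodule.mem_sup_right hw
          rwa [h1] at h2
        · exact le_sup_right

include hπ hB in
/-- **Reduced bases.** A finite-dimensional `K`-subspace `V` of `F` has a `K`-basis in `O`
with `k`-independent residues. -/
theorem exists_reducedBasis (V : Submodule K F) [FiniteDimensional K V] :
    ∃ z : Fin (finrank K V) → F, (∀ i, z i ∈ V) ∧ (∀ i, z i ∈ B.O) ∧
      (LinearIndependent k fun i => B.resF (z i)) ∧ LinearIndependent K z ∧
      Submodule.span K (Set.range z) = V := by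
  set b := Module.finBasis K V with hb
  have hx : LinearIndependent K fun i => ((b i : V) : F) :=
    b.linearIndependent.map' V.subtype (Submodule.ker_subtype V)
  have hspan : Submodule.span K (Set.range fun i => ((b i : V) : F)) = V := by
    have h1 : (Set.range fun i => ((b i : V) : F)) = V.subtype '' Set.range b := by
      rw [← Set.range_comp]; rfl
    rw [h1, Submodule.span_image, b.span_eq, Submodule.map_top, Submodule.range_subtype]
  obtain ⟨z, hzO, hzind, hzspan⟩ :=
    B.exists_reduced_of_linearIndependent hπ hB _ (fun i => ((b i : V) : F)) hx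
  rw [hspan] at hzspan
  refine ⟨z, fun i => ?_, hzO, hzind, B.linearIndependent_of_resF z hzO hzind, hzspan⟩
  rw [← hzspan]
  exact Submodule.subset_span ⟨i, rfl⟩

include hB in
/-- **(R0b)** `dim_k res(V ∩ O) = dim_K V`. -/
theorem finrank_resSpace (V : Submodule K F) [FiniteDimensional K V] :
    finrank k (B.resSpace hπ V) = finrank K V := by
  apply le_antisymm (B.finrank_resSpace_le hπ V)
  obtain ⟨z, hzV, hzO, hzind, -, -⟩ := B.exists_reducedBasis hπ hB V
  have h1 : LinearIndependent k fun i =>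
      (⟨B.resF (z i), B.resF_mem_resSpace hπ (hzV i) (hzO i)⟩ : B.resSpace hπ V) := by
    apply LinearIndependent.of_comp (B.resSpace hπ V).subtype
    exact hzind
  have := B.finite_resSpace hπ V
  simpa using h1.fintype_card_le_finrank

/-- `V ∩ O` is the `A`-span of a reduced basis. -/
theorem exists_coeff_of_mem {n : ℕ} (z : Fin n → F) (hzO : ∀ i, z i ∈ B.O)
    (hzind : LinearIndependent k fun i => B.resF (z i)) {y : F}
    (hy : y ∈ Submodule.span K (Set.range z)) (hyO : y ∈ B.O) :
    ∃ a : Fin n → K, (∀ i, a i ∈ A) ∧ y = ∑ i, a i • z i := by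
  obtain ⟨a, ha⟩ := (Submodule.mem_span_range_iff_exists_fun K).mp hy
  refine ⟨a, B.mem_of_sum_smul_mem z hzO hzind a ?_, ha.symm⟩
  rw [ha]; exact hyO

end ResSpace

/-! ### Scaling into the unit ball, (U1) -/

section Scaling

variable {B} (hB : B.Approx)

include hB in
/-- Every nonzero element of `F` is scaled by a nonzero constant to an element of `O` with
nonzero residue. -/
theorem exists_smul_mem_O' {x : F} (hx : x ≠ 0) :
    ∃ c : K, c ≠ 0 ∧ c • x ∈ B.O ∧ B.resF (c • x) ≠ 0 := by
  obtain ⟨w, hw, c, hc, h, hne⟩ := hB ⊥ inferInstance x (by simpa using hx)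
  have hw0 : w = 0 := by simpa using hw
  subst hw0
  rw [sub_zero] at h
  refine ⟨c, hc, h, ?_⟩
  have h0 := hne 0 (by simp)
  rw [map_zero] at h0
  rw [B.resF_of_mem h]
  simpa [sub_zero] using h0.symm

include hB in
/-- Every element of `F` is scaled into `O` by a nonzero element of `A`. -/
theorem exists_smul_mem_O (x : F) : ∃ c : K, c ∈ A ∧ c ≠ 0 ∧ c • x ∈ B.O := by
  by_cases hx : x = 0
  · exact ⟨1, A.one_mem, one_ne_zero, by rw [hx, smul_zero]; exact B.O.zero_mem⟩
  · obtain ⟨c, hc, h, -⟩ := exists_smul_mem_O' hB hx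
    by_cases hcA : c ∈ A
    · exact ⟨c, hcA, hc, h⟩
    · have hci : c⁻¹ ∈ A := (A.mem_or_inv_mem c).resolve_left hcA
      refine ⟨1, A.one_mem, one_ne_zero, ?_⟩
      rw [one_smul]
      have hxx : x = c⁻¹ • (c • x) := by rw [smul_smul, inv_mul_cancel₀ hc, one_smul]
      rw [hxx]
      exact B.smul_mem hci h

include hB in
/-- **(U1)** A nonzero element of `O` with zero residue is `a • w` with `a` a modulus of `A` and
`w ∈ O` with nonzero residue. -/
theorem exists_smul_of_resF_eq_zero {x : F} (hxO : x ∈ B.O) (hx : x ≠ 0) (hres : B.resF x = 0) :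
    ∃ a : K, IsModulus A a ∧ ∃ w : F, w ∈ B.O ∧ B.resF w ≠ 0 ∧ x = a • w := by
  obtain ⟨c, hc, h, hne⟩ := exists_smul_mem_O' hB hx
  have hcA : c ∉ A := by
    intro hcA
    apply hne
    rw [B.resF_smul hcA hxO, hres, smul_zero]
  have hci : c⁻¹ ∈ A := (A.mem_or_inv_mem c).resolve_left hcA
  refine ⟨c⁻¹, ⟨hci, inv_ne_zero hc, by simpa using hcA⟩, c • x, h, hne, ?_⟩
  rw [smul_smul, inv_mul_cancel₀ hc, one_smul]

end Scaling

/-! ### Best approximation from lattice bases -/

section LatticeBases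

/-- **Saturation**: a nonzero element of `O` with zero residue is a non-unit of `A` times an
element of `O`. -/
def Saturated : Prop :=
  ∀ x : F, x ∈ B.O → x ≠ 0 → B.resF x = 0 → ∃ a : K, a ∈ A ∧ a⁻¹ ∉ A ∧ ∃ w ∈ B.O, x = a • w

/-- **Lattice bases**: every finite-dimensional subspace `W` of `F` has a `K`-basis `u` such that
`W ∩ O` is the `A`-span of `u`. -/
def HasLatticeBases : Prop :=
  ∀ W : Submodule K F, Module.Finite K W → ∃ (n : ℕ) (u : Fin n → F),
    Submodule.span K (Set.range u) = W ∧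
    ∀ x ∈ W, x ∈ B.O ↔ ∃ a : Fin n → K, (∀ i, a i ∈ A) ∧ x = ∑ i, a i • u i

variable {B}

/-- A saturated unit ball with lattice bases has best approximations. -/
theorem approx_of_latticeBases (hsat : B.Saturated) (hlat : B.HasLatticeBases) : B.Approx := by
  classical
  intro V hfin y hy
  obtain ⟨φ, hφy, hφV⟩ := Submodule.exists_le_ker_of_notMem hy
  have hφV' : ∀ v ∈ V, φ v = 0 := fun v hv => LinearMap.mem_ker.mp (hφV hv)
  set W : Submodule K F := V ⊔ Submodule.span K {y} with hW
  have hWfin : Module.Finite K W := by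
    have : Module.Finite K V := hfin
    infer_instance
  obtain ⟨n, u, hspan, hmem⟩ := hlat W hWfin
  have huW : ∀ i, u i ∈ W := fun i => hspan ▸ Submodule.subset_span ⟨i, rfl⟩
  have hyW : y ∈ W := Submodule.mem_sup_right (Submodule.mem_span_singleton_self y)
  -- the coefficients of `φ`
  have hex : ∃ i, φ (u i) ≠ 0 := by
    by_contra hcon
    push Not at hcon
    apply hφy
    rw [← hspan] at hyW
    obtain ⟨a, rfl⟩ := (Submodule.mem_span_range_iff_exists_fun K).mp hyW
    rw [map_sum]
    exact Finset.sum_eq_zero fun i _ => by rw [map_smul, hcon i, smul_zero]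
  obtain ⟨i₀, hi₀, hdiv⟩ := exists_pivot A (fun i => φ (u i)) hex
  -- decompose `u i₀`
  obtain ⟨v₀, hv₀, y', hy', hsum⟩ := Submodule.mem_sup.mp (huW i₀)
  obtain ⟨t, rfl⟩ := Submodule.mem_span_singleton.mp hy'
  have ht : t ≠ 0 := by
    rintro rfl
    apply hi₀
    rw [← hsum, zero_smul, add_zero]
    exact hφV' v₀ hv₀
  have hcw : t • (y - -(t⁻¹ • v₀)) = u i₀ := by
    rw [sub_neg_eq_add, smul_add, smul_smul, mul_inv_cancel₀ ht, one_smul, ← hsum, add_comm]
  have hu₀O : u i₀ ∈ B.O := by
    rw [hmem _ (huW i₀)]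
    refine ⟨Pi.single i₀ 1, fun i => ?_, ?_⟩
    · by_cases h : i = i₀
      · subst h; rw [Pi.single_eq_same]; exact A.one_mem
      · rw [Pi.single_eq_of_ne h]; exact A.zero_mem
    · rw [Finset.sum_eq_single i₀]
      · rw [Pi.single_eq_same, one_smul]
      · intro j _ hj
        rw [Pi.single_eq_of_ne hj, zero_smul]
      · intro h
        exact absurd (Finset.mem_univ _) h
  refine ⟨-(t⁻¹ • v₀), V.neg_mem (V.smul_mem _ hv₀), t, ht, hcw ▸ hu₀O, ?_⟩
  intro z hzV hres
  -- `x := u i₀ - z` has zero residue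
  set x : F := u i₀ - (z : F) with hx
  have hxO : x ∈ B.O := B.O.sub_mem hu₀O z.2
  have hxW : x ∈ W := W.sub_mem (huW i₀) (Submodule.mem_sup_left hzV)
  have hφx : φ x = φ (u i₀) := by
    rw [hx, map_sub, hφV' _ hzV, sub_zero]
  have hx0 : x ≠ 0 := by
    intro h0
    apply hi₀
    rw [← hφx, h0, map_zero]
  have hresx : B.resF x = 0 := by
    rw [hx, B.resF_sub hu₀O z.2, B.resF_of_mem hu₀O, B.resF_of_mem z.2, sub_eq_zero]
    rw [hres]
    congr 1
    exact Subtype.ext hcw.symm
  obtain ⟨a, haA, hainv, w', hw'O, hxw'⟩ := hsat x hxO hx0 hresx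
  have ha0 : a ≠ 0 := by
    rintro rfl
    apply hx0
    rw [hxw', zero_smul]
  have hw'W : w' ∈ W := by
    have : w' = a⁻¹ • x := by rw [hxw', smul_smul, inv_mul_cancel₀ ha0, one_smul]
    rw [this]
    exact W.smul_mem _ hxW
  obtain ⟨b, hbA, hw'b⟩ := (hmem w' hw'W).mp hw'O
  -- apply `φ`
  have hφ1 : φ (u i₀) = a * ∑ i, b i * φ (u i) := by
    rw [← hφx, hxw', map_smul, hw'b, map_sum, smul_eq_mul]
    congr 1
    exact Finset.sum_congr rfl fun i _ => by rw [map_smul, smul_eq_mul]
  apply hainv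
  have hinv : a⁻¹ = ∑ i, b i * (φ (u i) / φ (u i₀)) := by
    have h1 : (∑ i, b i * (φ (u i) / φ (u i₀))) = (∑ i, b i * φ (u i)) / φ (u i₀) := by
      rw [Finset.sum_div]
      exact Finset.sum_congr rfl fun i _ => by rw [mul_div_assoc]
    rw [h1, eq_div_iff hi₀]
    rw [hφ1]
    field_simp
  rw [hinv]
  exact A.sum_mem fun i _ => A.mul_mem _ _ (hbA i) (hdiv i)

/-- **Lattice bases from best approximation** (Gram–Schmidt with `Approx`; no residue
independence and no surjectivity of `π` is needed): every `K`-independent family `x` can be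
replaced by a family `z` in `O` with the same `K`-span `W` such that `W ∩ O` is the `A`-span
of `z`. -/
theorem exists_latticeBasis_of_linearIndependent (hB : B.Approx) :
    ∀ (n : ℕ) (x : Fin n → F), LinearIndependent K x →
      ∃ z : Fin n → F, (∀ i, z i ∈ B.O) ∧
        Submodule.span K (Set.range z) = Submodule.span K (Set.range x) ∧
        ∀ y ∈ Submodule.span K (Set.range x), y ∈ B.O →
          ∃ a : Fin n → K, (∀ i, a i ∈ A) ∧ y = ∑ i, a i • z i := by
  intro n
  induction n with
  | zero =>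
    intro x _
    refine ⟨x, fun i => i.elim0, rfl, fun y hy _ => ⟨fun i => i.elim0, fun i => i.elim0, ?_⟩⟩
    have : Set.range x = ∅ := Set.range_eq_empty x
    rw [this, Submodule.span_empty, Submodule.mem_bot] at hy
    simp [hy]
  | succ n ih =>
    intro x hx
    have hxs : x = Fin.snoc (Fin.init x) (x (Fin.last n)) := (Fin.snoc_init_self x).symm
    have hx0 := hx
    rw [hxs, linearIndependent_finSnoc] at hx0
    obtain ⟨hx', hy⟩ := hx0
    obtain ⟨z', hz'O, hz'span, hz'lat⟩ := ih (Fin.init x) hx'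
    set V := Submodule.span K (Set.range (Fin.init x)) with hV
    set y := x (Fin.last n) with hydef
    have hVfin : Module.Finite K V := Module.Finite.span_of_finite K (Set.finite_range _)
    obtain ⟨w, hw, c, hc, h, hne⟩ := hB V hVfin y hy
    set u : F := c • (y - w) with hu
    have hspan : Submodule.span K (Set.range (Fin.snoc z' u : Fin (n + 1) → F)) =
        Submodule.span K (Set.range x) := by
      rw [hxs, Fin.range_snoc, Fin.range_snoc, Submodule.span_insert, Submodule.span_insert,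
        hz'span]
      apply le_antisymm
      · apply sup_le
        · rw [Submodule.span_singleton_le_iff_mem]
          have h1 : u = c • y - c • w := smul_sub c y w
          rw [h1]
          refine Submodule.sub_mem _ ?_ ?_
          · exact Submodule.mem_sup_left
              (Submodule.smul_mem _ _ (Submodule.mem_span_singleton_self y))
          · exact Submodule.mem_sup_right (Submodule.smul_mem _ _ hw)
        · exact le_sup_right
      · apply sup_le
        · rw [Submodule.span_singleton_le_iff_mem]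
          have h1 : c⁻¹ • u + w = y := by
            rw [hu, smul_smul, inv_mul_cancel₀ hc, one_smul, sub_add_cancel]
          have h2 : c⁻¹ • u + w ∈ (Submodule.span K {u}) ⊔ V := by
            refine Submodule.add_mem _ ?_ ?_
            · exact Submodule.mem_sup_left
                (Submodule.smul_mem _ _ (Submodule.mem_span_singleton_self _))
            · exact Submodule.mem_sup_right hw
          rwa [h1] at h2
        · exact le_sup_right
    refine ⟨Fin.snoc z' u, ?_, hspan, ?_⟩
    · intro i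
      refine Fin.lastCases ?_ (fun j => ?_) i
      · rw [Fin.snoc_last]; exact h
      · rw [Fin.snoc_castSucc]; exact hz'O j
    · intro t ht htO
      rw [← hspan] at ht
      obtain ⟨b, hb⟩ := (Submodule.mem_span_range_iff_exists_fun K).mp ht
      rw [Fin.sum_univ_castSucc] at hb
      simp only [Fin.snoc_castSucc, Fin.snoc_last] at hb
      set v : F := ∑ j : Fin n, b (Fin.castSucc j) • z' j with hv
      set s : K := b (Fin.last n) with hs
      have hvV : v ∈ V := by
        rw [← hz'span]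
        exact Submodule.sum_mem _ fun j _ =>
          Submodule.smul_mem _ _ (Submodule.subset_span ⟨j, rfl⟩)
      by_cases hsA : s ∈ A
      · -- `v = t - s • u` is in `V ∩ O`
        have hvO : v ∈ B.O := by
          have : v = t - s • u := by rw [← hb]; abel
          rw [this]
          exact B.O.sub_mem htO (B.smul_mem hsA h)
        obtain ⟨a, haA, hva⟩ := hz'lat v hvV hvO
        refine ⟨Fin.snoc a s, fun i => ?_, ?_⟩
        · refine Fin.lastCases ?_ (fun j => ?_) i
          · rw [Fin.snoc_last]; exact hsA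
          · rw [Fin.snoc_castSucc]; exact haA j
        · rw [Fin.sum_univ_castSucc]
          simp only [Fin.snoc_castSucc, Fin.snoc_last]
          rw [← hva, ← hb]
      · -- impossible: `u - s⁻¹ • t ∈ V ∩ O` has the residue of `u`
        exfalso
        have hs0 : s ≠ 0 := fun h0 => hsA (h0 ▸ A.zero_mem)
        obtain ⟨hmem, hres⟩ := B.resF_smul_eq_zero_of_not_mem hsA htO
        set zz : F := u - s⁻¹ • t with hzz
        have hzzO : zz ∈ B.O := B.O.sub_mem h hmem
        have hzzV : zz ∈ V := by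
          have : zz = -(s⁻¹ • v) := by
            rw [hzz, ← hb, smul_add, smul_smul, inv_mul_cancel₀ hs0, one_smul]
            abel
          rw [this]
          exact V.neg_mem (V.smul_mem _ hvV)
        apply hne ⟨zz, hzzO⟩ hzzV
        rw [← B.resF_of_mem hzzO, ← B.resF_of_mem h, hzz, B.resF_sub h hmem, hres, sub_zero]

/-- **Lattice bases**, for a finite-dimensional subspace `W`: a `K`-basis `z` of `W` in `O` such
that `W ∩ O` is the `A`-span of `z`. -/
theorem exists_latticeBasis (hB : B.Approx) (W : Submodule K F) [FiniteDimensional K W] :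
    ∃ z : Fin (finrank K W) → F, LinearIndependent K z ∧ (∀ i, z i ∈ B.O) ∧
      Submodule.span K (Set.range z) = W ∧
      ∀ x ∈ W, x ∈ B.O ↔ ∃ a : Fin (finrank K W) → K, (∀ i, a i ∈ A) ∧ x = ∑ i, a i • z i := by
  set b := Module.finBasis K W with hb
  have hx : LinearIndependent K fun i => ((b i : W) : F) :=
    b.linearIndependent.map' W.subtype (Submodule.ker_subtype W)
  have hspan : Submodule.span K (Set.range fun i => ((b i : W) : F)) = W := by
    have h1 : (Set.range fun i => ((b i : W) : F)) = W.subtype '' Set.range b := by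
      rw [← Set.range_comp]; rfl
    rw [h1, Submodule.span_image, b.span_eq, Submodule.map_top, Submodule.range_subtype]
  obtain ⟨z, hzO, hzspan, hzlat⟩ :=
    exists_latticeBasis_of_linearIndependent hB _ (fun i => ((b i : W) : F)) hx
  rw [hspan] at hzspan hzlat
  refine ⟨z, ?_, hzO, hzspan, fun x hxW => ⟨hzlat x hxW, ?_⟩⟩
  · rw [linearIndependent_iff_card_eq_finrank_span, Set.finrank, hzspan, Fintype.card_fin]
  · rintro ⟨a, ha, rfl⟩
    exact B.O.sum_mem fun i _ => B.smul_mem (ha i) (hzO i)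

/-- A unit ball with best approximations has lattice bases. -/
theorem hasLatticeBases_of_approx (hB : B.Approx) : B.HasLatticeBases := by
  intro W hW
  have : FiniteDimensional K W := hW
  obtain ⟨z, -, -, hzspan, hzlat⟩ := exists_latticeBasis hB W
  exact ⟨finrank K W, z, hzspan, hzlat⟩

end LatticeBases

/-! ### The two-lattice lemma (port of `Red/TwoLattice.lean` and of the lattice part of
`Red/Ending.lean`) -/

section TwoLattice

variable {B} (hB : B.Approx)

include hB in
/-- Common denominator for the sum of two lattices. -/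
theorem exists_common_denominator_sup (W0 W1 : Submodule K F)
    [FiniteDimensional K W0] [FiniteDimensional K W1] :
    ∃ e : K, e ∈ A ∧ e ≠ 0 ∧ ∀ μ ∈ W0 ⊔ W1, μ ∈ B.O →
      ∃ y0 ∈ W0, ∃ y1 ∈ W1, y0 ∈ B.O ∧ y1 ∈ B.O ∧ e • μ = y0 + y1 := by
  classical
  obtain ⟨z, -, hzO, hzspan, hzlat⟩ := exists_latticeBasis hB (W0 ⊔ W1)
  have hzV : ∀ i, z i ∈ W0 ⊔ W1 := fun i => hzspan ▸ Submodule.subset_span ⟨i, rfl⟩
  have hdec : ∀ i, ∃ x0 ∈ W0, ∃ x1 ∈ W1, x0 + x1 = z i := fun i => Submodule.mem_sup.mp (hzV i)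
  choose x0 hx0 x1 hx1 hx using hdec
  choose c0 hc0A hc00 hc0 using fun i => exists_smul_mem_O hB (x0 i)
  choose c1 hc1A hc10 hc1 using fun i => exists_smul_mem_O hB (x1 i)
  set e : K := ∏ i, (c0 i * c1 i) with he
  set d : Fin (finrank K ↥(W0 ⊔ W1)) → K := fun i => ∏ j ∈ Finset.univ.erase i, (c0 j * c1 j)
    with hd
  have hdA : ∀ i, d i ∈ A := fun i =>
    prod_mem fun j _ => A.mul_mem _ _ (hc0A j) (hc1A j)
  have hed : ∀ i, e = (c0 i * c1 i) * d i := fun i =>
    (Finset.mul_prod_erase Finset.univ (fun j => c0 j * c1 j) (Finset.mem_univ i)).symm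
  refine ⟨e, prod_mem fun j _ => A.mul_mem _ _ (hc0A j) (hc1A j),
    Finset.prod_ne_zero_iff.mpr fun i _ => mul_ne_zero (hc00 i) (hc10 i), ?_⟩
  intro μ hμ hμO
  obtain ⟨a, haA, rfl⟩ := (hzlat μ hμ).mp hμO
  refine ⟨∑ i, (a i * d i * c1 i) • (c0 i • x0 i),
    W0.sum_mem fun i _ => W0.smul_mem _ (W0.smul_mem _ (hx0 i)),
    ∑ i, (a i * d i * c0 i) • (c1 i • x1 i),
    W1.sum_mem fun i _ => W1.smul_mem _ (W1.smul_mem _ (hx1 i)),
    B.O.sum_mem fun i _ =>
      B.smul_mem (A.mul_mem _ _ (A.mul_mem _ _ (haA i) (hdA i)) (hc1A i)) (hc0 i),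
    B.O.sum_mem fun i _ =>
      B.smul_mem (A.mul_mem _ _ (A.mul_mem _ _ (haA i) (hdA i)) (hc0A i)) (hc1 i), ?_⟩
  rw [Finset.smul_sum, ← Finset.sum_add_distrib]
  refine Finset.sum_congr rfl fun i _ => ?_
  rw [← hx i, smul_smul, smul_smul, smul_smul, hed i, smul_add]
  congr 1
  · congr 1; ring
  · congr 1; ring

include hB in
/-- **The two-lattice lemma** (form of `Red/TwoLattice.lean`). -/
theorem exists_ne_zero_mem_inf (W0 W1 : Submodule K F)
    [FiniteDimensional K W0] [FiniteDimensional K W1] {t : K} (ht : IsModulus A t)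
    (h : ∀ a : K, a ∈ A → a ≠ 0 → ∃ h0 ∈ W0, ∃ h1 ∈ W1, ∃ μ ∈ B.O,
      h0 ∈ B.O ∧ B.resF h0 ≠ 0 ∧ h0 - h1 = a • μ) :
    ∃ s, s ∈ W0 ∧ s ∈ W1 ∧ s ≠ 0 := by
  obtain ⟨e, heA, he0, he⟩ := exists_common_denominator_sup hB W0 W1
  have het0 : e * t ≠ 0 := mul_ne_zero he0 ht.ne_zero
  obtain ⟨h0, hh0, h1, hh1, μ, hμO, hh0O, hres, hdiff⟩ :=
    h (e * t) (A.mul_mem _ _ heA ht.mem) het0
  have hμV : μ ∈ W0 ⊔ W1 := by
    have hμ : μ = (e * t)⁻¹ • (h0 - h1) := by
      rw [hdiff, smul_smul, inv_mul_cancel₀ het0, one_smul]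
    rw [hμ]
    exact Submodule.smul_mem _ _
      (Submodule.sub_mem _ (Submodule.mem_sup_left hh0) (Submodule.mem_sup_right hh1))
  obtain ⟨y0, hy0, y1, hy1, hy0O, hy1O, hy⟩ := he μ hμV hμO
  have hkey : h0 - h1 = t • y0 + t • y1 := by
    rw [hdiff, ← smul_add, ← hy, smul_smul, mul_comm]
  refine ⟨h0 - t • y0, W0.sub_mem hh0 (W0.smul_mem _ hy0), ?_, ?_⟩
  · have h2 : h0 - t • y0 = h1 + t • y1 := by linear_combination hkey
    rw [h2]
    exact W1.add_mem hh1 (W1.smul_mem _ hy1)
  · apply B.ne_zero_of_resF_ne_zero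
    rw [B.resF_sub hh0O (B.smul_mem ht.mem hy0O), B.resF_smul ht.mem hy0O,
      B.pi_eq_zero_of_isModulus ht, zero_smul, sub_zero]
    exact hres

include hB in
/-- **Boundedness** of a linear map on a finite-dimensional subspace. -/
theorem exists_bound_linearMap (V : Submodule K F)
    [FiniteDimensional K V] (ψ : F →ₗ[K] F) :
    ∃ δ : K, δ ∈ A ∧ δ ≠ 0 ∧ ∀ y ∈ V, y ∈ B.O → δ • ψ y ∈ B.O := by
  classical
  obtain ⟨z, -, hzO, -, hzlat⟩ := exists_latticeBasis hB V
  choose c hcA hc0 hc using fun i => exists_smul_mem_O hB (ψ (z i))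
  obtain ⟨δ, hδ, hδ0, hδc⟩ := exists_common_denominator A
    (Finset.univ : Finset (Fin (finrank K V))) (fun i => (c i)⁻¹)
  refine ⟨δ, hδ, hδ0, fun y hyV hyO => ?_⟩
  obtain ⟨a, haA, rfl⟩ := (hzlat y hyV).mp hyO
  rw [map_sum, Finset.smul_sum]
  refine B.O.sum_mem fun i _ => ?_
  have : δ • ψ (a i • z i) = a i • ((δ * (c i)⁻¹) • (c i • ψ (z i))) := by
    rw [map_smul, smul_smul, smul_smul, smul_smul]
    congr 1
    have := hc0 i
    field_simp
  rw [this]
  exact B.smul_mem (haA i) (B.smul_mem (hδc i (Finset.mem_univ i)) (hc i))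

include hB in
/-- **The two-lattice lemma** (form of `Red/Ending.lean`). -/
theorem inf_ne_bot_of_forall_approx (W₀ W₁ : Submodule K F)
    [FiniteDimensional K W₀] [FiniteDimensional K W₁]
    {t : K} (ht : t ∈ A) (ht0 : t ≠ 0) (htu : t⁻¹ ∉ A)
    (h : ∀ a : K, a ∈ A → a ≠ 0 → a⁻¹ ∉ A → ∃ h₀ ∈ W₀, ∃ h₁ ∈ W₁, ∃ μ ∈ B.O,
      h₁ ∈ B.O ∧ B.resF h₁ ≠ 0 ∧ h₀ - h₁ = a • μ) :
    W₀ ⊓ W₁ ≠ ⊥ := by
  intro hbot
  -- the injective map `(w₀, w₁) ↦ w₀ - w₁`
  set T : (W₀ × W₁) →ₗ[K] F := W₀.subtype.coprod (-W₁.subtype) with hT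
  have hTapp : ∀ p : W₀ × W₁, T p = (p.1 : F) - (p.2 : F) := by
    intro p
    simp [hT, LinearMap.coprod_apply, sub_eq_add_neg]
  have hker : LinearMap.ker T = ⊥ := by
    rw [LinearMap.ker_eq_bot']
    rintro ⟨w₀, w₁⟩ hw
    rw [hTapp] at hw
    have heq : (w₀ : F) = (w₁ : F) := sub_eq_zero.mp hw
    have hmem : (w₀ : F) ∈ W₀ ⊓ W₁ := ⟨w₀.2, heq ▸ w₁.2⟩
    rw [hbot, Submodule.mem_bot] at hmem
    have h0 : w₀ = 0 := Subtype.ext hmem
    have h1 : w₁ = 0 := Subtype.ext (by rw [← heq, hmem]; rfl)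
    rw [h0, h1]
    rfl
  obtain ⟨G, hG⟩ := T.exists_leftInverse_of_injective hker
  set ψ : F →ₗ[K] F := W₁.subtype ∘ₗ LinearMap.snd K W₀ W₁ ∘ₗ G with hψ
  have hψT : ∀ (w₀ : F) (hw₀ : w₀ ∈ W₀) (w₁ : F) (hw₁ : w₁ ∈ W₁), ψ (w₀ - w₁) = w₁ := by
    intro w₀ hw₀ w₁ hw₁
    have h1 : T (⟨w₀, hw₀⟩, ⟨w₁, hw₁⟩) = w₀ - w₁ := hTapp _
    have h2 : G (T (⟨w₀, hw₀⟩, ⟨w₁, hw₁⟩)) = (⟨w₀, hw₀⟩, ⟨w₁, hw₁⟩) := by
      have := congrArg (fun f : (W₀ × W₁) →ₗ[K] (W₀ × W₁) => f (⟨w₀, hw₀⟩, ⟨w₁, hw₁⟩)) hG
      simpa using this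
    rw [← h1, hψ]
    simp only [LinearMap.coe_comp, Function.comp_apply]
    rw [h2]
    rfl
  obtain ⟨δ, hδ, hδ0, hbound⟩ := exists_bound_linearMap hB (W₀ ⊔ W₁) ψ
  have hδtu : (δ * t)⁻¹ ∉ A := by
    intro hinv
    apply htu
    have : t⁻¹ = δ * (δ * t)⁻¹ := by
      rw [mul_inv, ← mul_assoc, mul_inv_cancel₀ hδ0, one_mul]
    rw [this]
    exact A.mul_mem _ _ hδ hinv
  obtain ⟨h₀, hh₀, h₁, hh₁, μ, hμ, hh₁O, hres, hrel⟩ :=
    h (δ * t) (A.mul_mem _ _ hδ ht) (mul_ne_zero hδ0 ht0) hδtu
  have hμV : μ ∈ W₀ ⊔ W₁ := by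
    have : μ = (δ * t)⁻¹ • (h₀ - h₁) := by
      rw [hrel, smul_smul, inv_mul_cancel₀ (mul_ne_zero hδ0 ht0), one_smul]
    rw [this]
    exact Submodule.smul_mem _ _ (Submodule.sub_mem _ (Submodule.mem_sup_left hh₀)
      (Submodule.mem_sup_right hh₁))
  have hb := hbound μ hμV hμ
  have h1eq : h₁ = t • (δ • ψ μ) := by
    rw [← hψT h₀ hh₀ h₁ hh₁, hrel, map_smul, smul_smul, mul_comm]
  apply hres
  rw [h1eq, B.resF_smul ht hb, B.pi_eq_zero t ht htu, zero_smul]

end TwoLattice


end ResBall

end Fermat.Agent.BR
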