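import Mathlib

/-!
# Program B (BADRED), node B7.2': the blow-up chart of a node at an interior position

Abstract commutative algebra (architect note A1 to blueprint #604), no modular objects.

`O` is a local domain with fraction field `F`, `ϖ u v : O` with `u v = ϖ ^ e`,
`𝔫 = (ϖ, u, v)` (a node of thickness `e` over a base with uniformizer `ϖ`), `0 < a < e`.
Put `X := u / ϖ ^ a ∈ F` (so `X⁻¹ = v / ϖ ^ (e - a)`) and `C := O[X, X⁻¹] ⊆ F` (`chart`).

* `evX : O[T;T⁻¹] →+* F`, `T ↦ X`, with range `chart`;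
* `LaurentWitness` : a ring `S` with `Φ : O →+* S`, a unit `t`, `Φ u = ϖ ^ a t`,
  `Φ v = ϖ ^ (e - a) t⁻¹`, `ϖ` regular on `S`, Laurent monomials `t ^ i` independent modulo `ϖ`
  over the residue field (supplied by the universal property NODE-UP with
  `S = (W[T;T⁻¹])^`, see `BR/BlowUpWitness.lean`);
* `evX_mem_span_iff` : **(1)** `evX f ∈ ϖ C ↔` all coefficients of `f` lie in `𝔫`, i.e.
  `C / ϖ C = κ[X, X⁻¹]`, `κ = O / 𝔫`;
* `chartRed : chart →+* RatFunc κ` with kernel `ϖ C` (`chartRed_eq_zero_iff`), so `ϖ C` is prime.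
-/

set_option autoImplicit false
set_option linter.unusedSectionVars false

open IsLocalRing LaurentPolynomial

namespace Fermat.Agent.BR.BlowUp

variable {O : Type*} [CommRing O] [IsDomain O] [IsLocalRing O]

/-- A node `u v = ϖ ^ e` in a local domain with maximal ideal `(ϖ, u, v)`, and an interior
position `0 < a < e`. -/
structure ChartHyp (ϖ u v : O) (e a : ℕ) : Prop where
  hϖ0 : ϖ ≠ 0
  huv : u * v = ϖ ^ e
  max3 : maximalIdeal O = Ideal.span {ϖ} ⊔ Ideal.span {u} ⊔ Ideal.span {v}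
  ha : 0 < a
  hae : a < e

namespace ChartHyp

variable {ϖ u v : O} {e a : ℕ}

theorem u_ne_zero (h : ChartHyp ϖ u v e a) : u ≠ 0 := by
  intro h0
  have := h.huv
  rw [h0, zero_mul] at this
  exact pow_ne_zero e h.hϖ0 this.symm

theorem v_ne_zero (h : ChartHyp ϖ u v e a) : v ≠ 0 := by
  intro h0
  have := h.huv
  rw [h0, mul_zero] at this
  exact pow_ne_zero e h.hϖ0 this.symm

theorem ϖ_mem (h : ChartHyp ϖ u v e a) : ϖ ∈ maximalIdeal O := by
  rw [h.max3]; exact Ideal.mem_sup_left (Ideal.mem_sup_left (Ideal.subset_span rfl))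

theorem u_mem (h : ChartHyp ϖ u v e a) : u ∈ maximalIdeal O := by
  rw [h.max3]; exact Ideal.mem_sup_left (Ideal.mem_sup_right (Ideal.subset_span rfl))

theorem v_mem (h : ChartHyp ϖ u v e a) : v ∈ maximalIdeal O := by
  rw [h.max3]; exact Ideal.mem_sup_right (Ideal.subset_span rfl)

/-- every element of the maximal ideal is `ϖ o₁ + u o₂ + v o₃` -/
theorem exists_eq_of_mem (h : ChartHyp ϖ u v e a) {y : O} (hy : y ∈ maximalIdeal O) :
    ∃ o₁ o₂ o₃ : O, y = ϖ * o₁ + u * o₂ + v * o₃ := by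
  rw [h.max3] at hy
  obtain ⟨s, hs, t, ht, rfl⟩ := Submodule.mem_sup.mp hy
  obtain ⟨s₁, hs₁, s₂, hs₂, rfl⟩ := Submodule.mem_sup.mp hs
  obtain ⟨o₁, rfl⟩ := Ideal.mem_span_singleton'.mp hs₁
  obtain ⟨o₂, rfl⟩ := Ideal.mem_span_singleton'.mp hs₂
  obtain ⟨o₃, rfl⟩ := Ideal.mem_span_singleton'.mp ht
  exact ⟨o₁, o₂, o₃, by ring⟩

end ChartHyp

section Chart

variable (F : Type*) [Field F] [Algebra O F] [IsFractionRing O F]

/-- The coordinate `X = u / ϖ ^ a` of the blow-up chart. -/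
noncomputable def chartX (ϖ u : O) (a : ℕ) : F := algebraMap O F u / algebraMap O F ϖ ^ a

variable {F}

theorem chartX_ne_zero {ϖ u : O} (hϖ : ϖ ≠ 0) (hu : u ≠ 0) (a : ℕ) : chartX F ϖ u a ≠ 0 := by
  unfold chartX
  have h1 : algebraMap O F ϖ ≠ 0 := by
    rwa [Ne, IsFractionRing.to_map_eq_zero_iff]
  have h2 : algebraMap O F u ≠ 0 := by
    rwa [Ne, IsFractionRing.to_map_eq_zero_iff]
  exact div_ne_zero h2 (pow_ne_zero _ h1)

variable (F)

open Classical in
/-- `X` as a unit of `F` (junk value `1` in the degenerate cases). -/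
noncomputable def chartXu (ϖ u : O) (a : ℕ) : Fˣ :=
  if h : chartX F ϖ u a = 0 then 1 else Units.mk0 _ h

/-- Evaluation of Laurent polynomials at `X`. -/
noncomputable def evX (ϖ u : O) (a : ℕ) : O[T;T⁻¹] →+* F :=
  LaurentPolynomial.eval₂ (algebraMap O F) (chartXu F ϖ u a)

/-- The chart ring `C = O[X, X⁻¹] ⊆ F`. -/
noncomputable def chart (ϖ u : O) (a : ℕ) : Subring F := (evX F ϖ u a).range

end Chart

/-! ### Laurent polynomials as sums of monomials -/

section Laurent

variable {R S : Type*} [CommRing R] [CommRing S]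

theorem laurent_eq_sum (f : R[T;T⁻¹]) : f = ∑ i ∈ f.coeff.support, C (f.coeff i) * T i := by
  ext j
  rw [AddMonoidAlgebra.coeff_sum, Finsupp.finsetSum_apply]
  have : ∀ i ∈ f.coeff.support,
      (C (f.coeff i) * T i).coeff j = if i = j then f.coeff i else 0 := by
    intro i _
    rw [← single_eq_C_mul_T, AddMonoidAlgebra.coeff_single, Finsupp.single_apply]
  rw [Finset.sum_congr rfl this, Finset.sum_ite_eq' f.coeff.support j fun i => f.coeff i]
  split_ifs with h
  · rfl
  · exact Finsupp.notMem_support_iff.mp h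

theorem eval₂_eq_sum (φ : R →+* S) (x : Sˣ) (f : R[T;T⁻¹]) :
    LaurentPolynomial.eval₂ φ x f =
      ∑ i ∈ f.coeff.support, φ (f.coeff i) * ((x ^ i : Sˣ) : S) := by
  conv_lhs => rw [laurent_eq_sum f]
  rw [map_sum]
  refine Finset.sum_congr rfl fun i _ => ?_
  rw [eval₂_C_mul_T]

end Laurent

/-! ### The witness -/

/-- A Laurent witness for the position `a` of the node: a ring `S` receiving `O`, with a unit `t`
such that `u ↦ ϖ ^ a t`, `ϖ` is regular on `S`, and the Laurent monomials `t ^ i` are independent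
modulo `ϖ` over the residue field of `O`. -/
structure LaurentWitness (ϖ u : O) (a : ℕ) (S : Type*) [CommRing S] where
  /-- the homomorphism -/
  Φ : O →+* S
  /-- the image of the coordinate `X` -/
  t : Sˣ
  map_u : Φ u = Φ ϖ ^ a * t
  regular : ∀ s : S, Φ ϖ * s = 0 → s = 0
  indep : ∀ f : O[T;T⁻¹], (∃ s : S, LaurentPolynomial.eval₂ Φ t f = Φ ϖ * s) →
    ∀ i, f.coeff i ∈ maximalIdeal O

section Main

variable {F : Type*} [Field F] [Algebra O F] [IsFractionRing O F]
variable {ϖ u v : O} {e a : ℕ}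

theorem map_ϖ_ne_zero (h : ChartHyp ϖ u v e a) : algebraMap O F ϖ ≠ 0 := by
  rw [Ne, IsFractionRing.to_map_eq_zero_iff]
  exact h.hϖ0

theorem chartXu_val (h : ChartHyp ϖ u v e a) : (chartXu F ϖ u a : F) = chartX F ϖ u a := by
  unfold chartXu
  rw [dif_neg (chartX_ne_zero h.hϖ0 h.u_ne_zero a)]
  rfl

theorem pow_mul_chartX (h : ChartHyp ϖ u v e a) :
    algebraMap O F ϖ ^ a * chartX F ϖ u a = algebraMap O F u := by
  unfold chartX
  have := map_ϖ_ne_zero (F := F) h
  field_simp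

theorem pow_mul_chartX_inv (h : ChartHyp ϖ u v e a) :
    algebraMap O F ϖ ^ (e - a) * (chartX F ϖ u a)⁻¹ = algebraMap O F v := by
  unfold chartX
  have hϖ := map_ϖ_ne_zero (F := F) h
  have hu : algebraMap O F u ≠ 0 := by
    rw [Ne, IsFractionRing.to_map_eq_zero_iff]
    exact h.u_ne_zero
  have huv : algebraMap O F u * algebraMap O F v = algebraMap O F ϖ ^ e := by
    rw [← map_mul, h.huv, map_pow]
  have hsplit : algebraMap O F ϖ ^ e = algebraMap O F ϖ ^ (e - a) * algebraMap O F ϖ ^ a := by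
    rw [← pow_add, Nat.sub_add_cancel h.hae.le]
  rw [inv_div, ← mul_div_assoc, ← hsplit, ← huv, mul_div_cancel_left₀ _ hu]

theorem evX_C_mul_T (h : ChartHyp ϖ u v e a) (o : O) (i : ℤ) :
    evX F ϖ u a (C o * T i) = algebraMap O F o * chartX F ϖ u a ^ i := by
  unfold evX
  rw [eval₂_C_mul_T, Units.val_zpow_eq_zpow_val, chartXu_val h]

theorem evX_C (o : O) : evX F ϖ u a (C o) = algebraMap O F o := by
  unfold evX
  rw [eval₂_C]

theorem evX_T (h : ChartHyp ϖ u v e a) (i : ℤ) : evX F ϖ u a (T i) = chartX F ϖ u a ^ i := by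
  have := evX_C_mul_T (F := F) h 1 i
  rwa [map_one, one_mul, map_one, one_mul] at this

/-- monomial case of `evX_mem_of_coeff_mem` -/
theorem evX_monomial_mem (h : ChartHyp ϖ u v e a) {o : O} (ho : o ∈ maximalIdeal O) (i : ℤ) :
    ∃ g : O[T;T⁻¹], evX F ϖ u a (C o * T i) = algebraMap O F ϖ * evX F ϖ u a g := by
  obtain ⟨o₁, o₂, o₃, rfl⟩ := h.exists_eq_of_mem ho
  have hX := chartX_ne_zero (F := F) h.hϖ0 h.u_ne_zero a
  refine ⟨C o₁ * T i + C (ϖ ^ (a - 1) * o₂) * T (i + 1) + C (ϖ ^ (e - a - 1) * o₃) * T (i - 1), ?_⟩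
  have L : evX F ϖ u a (C (ϖ * o₁ + u * o₂ + v * o₃) * T i) =
      algebraMap O F (ϖ * o₁ + u * o₂ + v * o₃) * chartX F ϖ u a ^ i := evX_C_mul_T h _ _
  have R : evX F ϖ u a (C o₁ * T i + C (ϖ ^ (a - 1) * o₂) * T (i + 1) +
        C (ϖ ^ (e - a - 1) * o₃) * T (i - 1)) =
      algebraMap O F o₁ * chartX F ϖ u a ^ i
        + algebraMap O F (ϖ ^ (a - 1) * o₂) * (chartX F ϖ u a ^ i * chartX F ϖ u a)
        + algebraMap O F (ϖ ^ (e - a - 1) * o₃) * (chartX F ϖ u a ^ i * (chartX F ϖ u a)⁻¹) := by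
    rw [map_add, map_add, evX_C_mul_T h, evX_C_mul_T h, evX_C_mul_T h,
      zpow_add_one₀ hX, zpow_sub_one₀ hX]
  rw [L, R]
  have h1 : algebraMap O F ϖ * algebraMap O F (ϖ ^ (a - 1) * o₂) =
      algebraMap O F ϖ ^ a * algebraMap O F o₂ := by
    rw [map_mul, map_pow, ← mul_assoc, ← pow_succ', Nat.sub_add_cancel h.ha]
  have h2 : algebraMap O F ϖ * algebraMap O F (ϖ ^ (e - a - 1) * o₃) =
      algebraMap O F ϖ ^ (e - a) * algebraMap O F o₃ := by
    rw [map_mul, map_pow, ← mul_assoc, ← pow_succ', Nat.sub_add_cancel (Nat.sub_pos_of_lt h.hae)]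
  have e1 := pow_mul_chartX (F := F) h
  have e2 := pow_mul_chartX_inv (F := F) h
  calc algebraMap O F (ϖ * o₁ + u * o₂ + v * o₃) * chartX F ϖ u a ^ i
      = algebraMap O F ϖ * (algebraMap O F o₁ * chartX F ϖ u a ^ i)
        + (algebraMap O F ϖ ^ a * chartX F ϖ u a) * algebraMap O F o₂ * chartX F ϖ u a ^ i
        + (algebraMap O F ϖ ^ (e - a) * (chartX F ϖ u a)⁻¹) * algebraMap O F o₃ *
            chartX F ϖ u a ^ i := by
        rw [e1, e2]
        simp only [map_add, map_mul]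
        ring
    _ = algebraMap O F ϖ * (algebraMap O F o₁ * chartX F ϖ u a ^ i
        + algebraMap O F (ϖ ^ (a - 1) * o₂) * (chartX F ϖ u a ^ i * chartX F ϖ u a)
        + algebraMap O F (ϖ ^ (e - a - 1) * o₃) * (chartX F ϖ u a ^ i * (chartX F ϖ u a)⁻¹)) := by
        rw [mul_add, mul_add, ← mul_assoc (algebraMap O F ϖ) (algebraMap O F (ϖ ^ (a - 1) * o₂)), h1,
          ← mul_assoc (algebraMap O F ϖ) (algebraMap O F (ϖ ^ (e - a - 1) * o₃)), h2]
        ring

/-- **(1), easy half**: `𝔫 C ⊆ ϖ C`. -/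
theorem evX_mem_of_coeff_mem (h : ChartHyp ϖ u v e a) (f : O[T;T⁻¹])
    (hf : ∀ i, f.coeff i ∈ maximalIdeal O) :
    ∃ g : O[T;T⁻¹], evX F ϖ u a f = algebraMap O F ϖ * evX F ϖ u a g := by
  classical
  choose g hg using fun i : ℤ => evX_monomial_mem (F := F) h (hf i) i
  refine ⟨∑ i ∈ f.coeff.support, g i, ?_⟩
  conv_lhs => rw [laurent_eq_sum f]
  rw [map_sum, map_sum, Finset.mul_sum]
  exact Finset.sum_congr rfl fun i _ => hg i

/-! ### Relations satisfied by `X` are satisfied by `t` -/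

theorem LaurentWitness.regular_pow {S : Type*} [CommRing S] (w : LaurentWitness ϖ u a S) (n : ℕ)
    (s : S) (hs : w.Φ ϖ ^ n * s = 0) : s = 0 := by
  induction n with
  | zero => simpa using hs
  | succ n ih =>
    apply ih
    apply w.regular
    rw [← mul_assoc, ← pow_succ']
    exact hs

theorem eval₂_eq_zero_of_poly (h : ChartHyp ϖ u v e a) {S : Type*} [CommRing S]
    (w : LaurentWitness ϖ u a S) (p : Polynomial O)
    (hp : Polynomial.eval₂ (algebraMap O F) (chartX F ϖ u a) p = 0) :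
    Polynomial.eval₂ w.Φ (w.t : S) p = 0 := by
  set d := p.natDegree with hd
  -- the homogenised relation in `O`
  have hH : (∑ j ∈ Finset.range (d + 1), p.coeff j * ϖ ^ (a * (d - j)) * u ^ j : O) = 0 := by
    apply IsFractionRing.injective O F
    rw [map_zero, map_sum]
    have h1 : ∀ j ∈ Finset.range (d + 1),
        algebraMap O F (p.coeff j * ϖ ^ (a * (d - j)) * u ^ j) =
          algebraMap O F ϖ ^ (a * d) * (algebraMap O F (p.coeff j) * chartX F ϖ u a ^ j) := by
      intro j hj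
      have hjd : j ≤ d := Nat.lt_succ_iff.mp (Finset.mem_range.mp hj)
      have e1 : a * d = a * (d - j) + a * j := by
        rw [← Nat.mul_add, Nat.sub_add_cancel hjd]
      rw [map_mul, map_mul, map_pow, map_pow, ← pow_mul_chartX (F := F) h, e1, pow_add, mul_pow,
        ← pow_mul]
      ring
    rw [Finset.sum_congr rfl h1, ← Finset.mul_sum, ← Polynomial.eval₂_eq_sum_range, hp, mul_zero]
  have hΦ := congrArg w.Φ hH
  rw [map_zero, map_sum] at hΦ
  have h2 : ∀ j ∈ Finset.range (d + 1),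
      w.Φ (p.coeff j * ϖ ^ (a * (d - j)) * u ^ j) =
        w.Φ ϖ ^ (a * d) * (w.Φ (p.coeff j) * (w.t : S) ^ j) := by
    intro j hj
    have hjd : j ≤ d := Nat.lt_succ_iff.mp (Finset.mem_range.mp hj)
    have e1 : a * d = a * (d - j) + a * j := by
      rw [← Nat.mul_add, Nat.sub_add_cancel hjd]
    rw [map_mul, map_mul, map_pow, map_pow, w.map_u, e1, pow_add, mul_pow, ← pow_mul]
    ring
  rw [Finset.sum_congr rfl h2, ← Finset.mul_sum, ← Polynomial.eval₂_eq_sum_range] at hΦ
  exact w.regular_pow _ _ hΦ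

theorem eval₂_eq_zero_of_evX (h : ChartHyp ϖ u v e a) {S : Type*} [CommRing S]
    (w : LaurentWitness ϖ u a S) (f : O[T;T⁻¹]) (hf : evX F ϖ u a f = 0) :
    LaurentPolynomial.eval₂ w.Φ w.t f = 0 := by
  obtain ⟨n, f', hf'⟩ := f.exists_T_pow
  have h1 : Polynomial.eval₂ (algebraMap O F) (chartX F ϖ u a) f' = 0 := by
    have h2 : evX F ϖ u a (Polynomial.toLaurent f') = 0 := by
      rw [hf', map_mul, hf, zero_mul]
    unfold evX at h2
    rwa [eval₂_toLaurent, chartXu_val h] at h2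
  have h3 := eval₂_eq_zero_of_poly h w f' h1
  rw [← eval₂_toLaurent, hf', map_mul, eval₂_T] at h3
  exact (Units.mul_left_eq_zero (w.t ^ (n : ℤ))).mp h3

/-- **(1), hard half**: if `evX f ∈ ϖ C` then all coefficients of `f` lie in `𝔫`. -/
theorem coeff_mem_of_evX_eq (h : ChartHyp ϖ u v e a) {S : Type*} [CommRing S]
    (w : LaurentWitness ϖ u a S) (f g : O[T;T⁻¹])
    (hfg : evX F ϖ u a f = algebraMap O F ϖ * evX F ϖ u a g) (i : ℤ) :
    f.coeff i ∈ maximalIdeal O := by
  have h1 : evX F ϖ u a (f - C ϖ * g) = 0 := by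
    rw [map_sub, map_mul, evX_C, hfg, sub_self]
  have h2 := eval₂_eq_zero_of_evX h w _ h1
  rw [map_sub, map_mul, eval₂_C, sub_eq_zero] at h2
  exact w.indep f ⟨_, h2⟩ i

/-- **(1)**: `evX f ∈ ϖ C` iff all coefficients of `f` lie in `𝔫`: `C / ϖ C = κ[X, X⁻¹]`. -/
theorem evX_mem_span_iff (h : ChartHyp ϖ u v e a) {S : Type*} [CommRing S]
    (w : LaurentWitness ϖ u a S) (f : O[T;T⁻¹]) :
    (∃ g : O[T;T⁻¹], evX F ϖ u a f = algebraMap O F ϖ * evX F ϖ u a g) ↔
      ∀ i, f.coeff i ∈ maximalIdeal O :=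
  ⟨fun ⟨g, hg⟩ => coeff_mem_of_evX_eq h w f g hg, evX_mem_of_coeff_mem h f⟩

end Main

/-! ### The reduction of the chart ring -/

section Red

/-- `X` as a unit of `RatFunc κ`. -/
noncomputable def ratXu (κ : Type*) [Field κ] : (RatFunc κ)ˣ :=
  Units.mk0 RatFunc.X RatFunc.X_ne_zero

/-- Laurent polynomials over a field inside the rational function field, `T ↦ X`. -/
noncomputable def laurentToRatFunc (κ : Type*) [Field κ] : κ[T;T⁻¹] →+* RatFunc κ :=
  LaurentPolynomial.eval₂ (algebraMap κ (RatFunc κ)) (ratXu κ)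

theorem laurentToRatFunc_injective (κ : Type*) [Field κ] :
    Function.Injective (laurentToRatFunc κ) := by
  rw [injective_iff_map_eq_zero]
  intro p hp
  obtain ⟨n, p', hp'⟩ := p.exists_T_pow
  have h1 : laurentToRatFunc κ (Polynomial.toLaurent p') = 0 := by
    rw [hp', map_mul, hp, zero_mul]
  unfold laurentToRatFunc at h1
  rw [eval₂_toLaurent] at h1
  have h2 : Polynomial.eval₂ (algebraMap κ (RatFunc κ)) ((ratXu κ : (RatFunc κ)ˣ) : RatFunc κ) p' =
      algebraMap (Polynomial κ) (RatFunc κ) p' := by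
    rw [← RatFunc.aeval_X_left_eq_algebraMap]
    rfl
  rw [h2] at h1
  have h3 : p' = 0 := RatFunc.algebraMap_injective κ (by rw [h1, map_zero])
  rw [h3, map_zero] at hp'
  exact ((isUnit_T n).mul_left_eq_zero).mp hp'.symm

variable (O)

/-- Reduction of Laurent polynomials over `O`: coefficients modulo `𝔫`, `T ↦ X`. -/
noncomputable def redLaurent : O[T;T⁻¹] →+* RatFunc (ResidueField O) :=
  (laurentToRatFunc (ResidueField O)).comp (AddMonoidAlgebra.mapRingHom ℤ (residue O))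

theorem redLaurent_eq_zero_iff (f : O[T;T⁻¹]) :
    redLaurent O f = 0 ↔ ∀ i, f.coeff i ∈ maximalIdeal O := by
  unfold redLaurent
  rw [RingHom.comp_apply, map_eq_zero_iff _ (laurentToRatFunc_injective _)]
  constructor
  · intro h i
    have := congrArg (fun g : (ResidueField O)[T;T⁻¹] => g.coeff i) h
    simpa [AddMonoidAlgebra.coeff_mapRingHom, residue_eq_zero_iff] using this
  · intro h
    ext i
    rw [AddMonoidAlgebra.coeff_mapRingHom]
    simpa [residue_eq_zero_iff] using h i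

theorem redLaurent_C (o : O) :
    redLaurent O (C o) = algebraMap (ResidueField O) (RatFunc (ResidueField O)) (residue O o) := by
  unfold redLaurent laurentToRatFunc
  rw [RingHom.comp_apply, ← single_eq_C, AddMonoidAlgebra.mapRingHom_single, single_eq_C, eval₂_C]

theorem redLaurent_T (i : ℤ) :
    redLaurent O (T i) = (RatFunc.X : RatFunc (ResidueField O)) ^ i := by
  unfold redLaurent laurentToRatFunc
  rw [RingHom.comp_apply]
  have : AddMonoidAlgebra.mapRingHom ℤ (residue O) (T i) = T i := by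
    unfold T
    rw [AddMonoidAlgebra.mapRingHom_single, map_one]
  rw [this, eval₂_T, Units.val_zpow_eq_zpow_val]
  rfl

end Red

section ChartRed

variable {F : Type*} [Field F] [Algebra O F] [IsFractionRing O F]
variable {ϖ u v : O} {e a : ℕ}

theorem ker_rangeRestrict_le (h : ChartHyp ϖ u v e a) {S : Type*} [CommRing S]
    (w : LaurentWitness ϖ u a S) :
    RingHom.ker (evX F ϖ u a).rangeRestrict ≤ RingHom.ker (redLaurent O) := by
  intro f hf
  rw [RingHom.mem_ker] at hf ⊢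
  have h0 : evX F ϖ u a f = 0 := by
    have := congrArg Subtype.val hf
    simpa using this
  rw [redLaurent_eq_zero_iff]
  exact coeff_mem_of_evX_eq h w f 0 (by rw [h0, map_zero, mul_zero])

/-- **The reduction map of the chart ring**, `C → C / ϖ C = κ[X, X⁻¹] ⊆ κ(X)`. -/
noncomputable def chartRed (h : ChartHyp ϖ u v e a) {S : Type*} [CommRing S]
    (w : LaurentWitness ϖ u a S) : chart F ϖ u a →+* RatFunc (ResidueField O) :=
  (evX F ϖ u a).rangeRestrict.liftOfSurjective (evX F ϖ u a).rangeRestrict_surjective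
    ⟨redLaurent O, ker_rangeRestrict_le h w⟩

theorem chartRed_evX (h : ChartHyp ϖ u v e a) {S : Type*} [CommRing S]
    (w : LaurentWitness ϖ u a S) (f : O[T;T⁻¹]) :
    chartRed h w ⟨evX F ϖ u a f, f, rfl⟩ = redLaurent O f := by
  unfold chartRed
  exact RingHom.liftOfRightInverse_comp_apply _ _ _ _ f

/-- The kernel of the reduction map is `ϖ C`. -/
theorem chartRed_eq_zero_iff (h : ChartHyp ϖ u v e a) {S : Type*} [CommRing S]
    (w : LaurentWitness ϖ u a S) (y : chart F ϖ u a) :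
    chartRed h w y = 0 ↔ ∃ z : chart F ϖ u a, (y : F) = algebraMap O F ϖ * z := by
  obtain ⟨_, f, rfl⟩ := y
  rw [chartRed_evX, redLaurent_eq_zero_iff, ← evX_mem_span_iff (F := F) h w]
  constructor
  · rintro ⟨g, hg⟩
    exact ⟨⟨evX F ϖ u a g, g, rfl⟩, hg⟩
  · rintro ⟨⟨_, g, rfl⟩, hg⟩
    exact ⟨g, hg⟩

theorem algebraMap_mem_chart (o : O) : algebraMap O F o ∈ chart F ϖ u a := ⟨C o, evX_C o⟩

theorem chartX_zpow_mem_chart (h : ChartHyp ϖ u v e a) (i : ℤ) :
    chartX F ϖ u a ^ i ∈ chart F ϖ u a := ⟨T i, evX_T h i⟩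

theorem chartX_mem_chart (h : ChartHyp ϖ u v e a) : chartX F ϖ u a ∈ chart F ϖ u a := by
  simpa using chartX_zpow_mem_chart (F := F) h 1

theorem chartX_inv_mem_chart (h : ChartHyp ϖ u v e a) : (chartX F ϖ u a)⁻¹ ∈ chart F ϖ u a := by
  simpa using chartX_zpow_mem_chart (F := F) h (-1)

theorem chartRed_algebraMap (h : ChartHyp ϖ u v e a) {S : Type*} [CommRing S]
    (w : LaurentWitness ϖ u a S) (o : O) :
    chartRed h w ⟨algebraMap O F o, algebraMap_mem_chart o⟩ =
      algebraMap (ResidueField O) (RatFunc (ResidueField O)) (residue O o) := by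
  have e1 : (⟨algebraMap O F o, algebraMap_mem_chart o⟩ : chart F ϖ u a) =
      ⟨evX F ϖ u a (C o), C o, rfl⟩ := Subtype.ext (evX_C o).symm
  rw [e1, chartRed_evX, redLaurent_C]

theorem chartRed_chartX_zpow (h : ChartHyp ϖ u v e a) {S : Type*} [CommRing S]
    (w : LaurentWitness ϖ u a S) (i : ℤ) :
    chartRed h w ⟨chartX F ϖ u a ^ i, chartX_zpow_mem_chart h i⟩ =
      (RatFunc.X : RatFunc (ResidueField O)) ^ i := by
  have e1 : (⟨chartX F ϖ u a ^ i, chartX_zpow_mem_chart h i⟩ : chart F ϖ u a) =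
      ⟨evX F ϖ u a (T i), T i, rfl⟩ := Subtype.ext (evX_T h i).symm
  rw [e1, chartRed_evX, redLaurent_T]

/-- The reduction map is onto the Laurent polynomials: every `∑ c̄ᵢ Xⁱ` is a value. -/
theorem chartRed_range (h : ChartHyp ϖ u v e a) {S : Type*} [CommRing S]
    (w : LaurentWitness ϖ u a S) (p : (ResidueField O)[T;T⁻¹]) :
    ∃ y : chart F ϖ u a, chartRed h w y = laurentToRatFunc (ResidueField O) p := by
  have hsurj : Function.Surjective (AddMonoidAlgebra.mapRingHom ℤ (residue O)) := by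
    intro p
    induction p using LaurentPolynomial.induction_on' with
    | add p q hp hq =>
      obtain ⟨p', rfl⟩ := hp
      obtain ⟨q', rfl⟩ := hq
      exact ⟨p' + q', map_add _ _ _⟩
    | C_mul_T n c =>
      obtain ⟨o, rfl⟩ := residue_surjective c
      refine ⟨C o * T n, ?_⟩
      rw [← single_eq_C_mul_T, AddMonoidAlgebra.mapRingHom_single, single_eq_C_mul_T]
  obtain ⟨f, rfl⟩ := hsurj p
  exact ⟨⟨evX F ϖ u a f, f, rfl⟩, chartRed_evX h w f⟩

end ChartRed

end Fermat.Agent.BR.BlowUp
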