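import Fermat.Agent.BR.AnnulusRed

/-!
# Program B, node B7.3-PLACE / D8: the specialisation of a place on a ring of functions

`F / K` a function field, `A` a valuation subring of `K` with residue field `k`, `R` a subring of
`F` (a ring of functions of an integral model: the global ring `B`, the local ring `O_x` of a
closed point of the special fibre, a chart `O'[X, X⁻¹]` of a refined model, ...), `P` a place of
`F / K`.

* `IntegralAt A R P` : every function of `R` is regular at `P` with value in `A` (`P` lies in the
  tube of `Spec R`); `IntegralAt.closure` : it suffices to check generators;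
* `spHom A R P h : R →+* k` : the specialisation homomorphism `y ↦ residue of y(P)`;
* `centre A R P h := ker (spHom …)` : the centre of `P` on `Spec R`, a prime ideal;
* `IsValueAt.inv`, `IntegralAt.inv_mem` : passage to the localisation at the centre;
* equivariance under a semilinear automorphism `g` whose base automorphism preserves `A`:
  `integralAt_smul`, `evalAt_smul_mem`, and for `g` acting trivially on the residue field
  ("inertia-like", `InertiaLike A g`): `spHom_smul` : `sp_{gP}(g y) = sp_P(y)`;
  - `spHom_smul_of_fixed`, `centre_smul_of_fixed` : on a ring of `g`-fixed functions `g • P` and `P`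
    have the same specialisation and the same centre (**`Compat` with `α = 1`** on the original
    components);
  - `spHom_smul_of_smul_eq` : if `g • X = c • X` with `c` a unit of `A` then
    `sp_{gP}(X) = (residue c)⁻¹ sp_P(X)` (**rotation** on an exceptional component);
* `inertiaLike_arithmeticGalois` : the arithmetic Galois action of an inertia element is
  inertia-like.
-/

set_option autoImplicit false

open IsLocalRing AlgebraicCurve

open scoped Pointwise

namespace Fermat.Agent.BR.Centre

open Fermat.Agent.Red Fermat.Agent.BR.InertiaRed Fermat.Agent.BR.AnnulusRed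

variable {K F : Type*} [Field K] [Field F] [Algebra K F]

/-! ### values of inverses -/

/-- The value of `s⁻¹` is the inverse of the value of `s`, when the latter is nonzero. -/
theorem IsValueAt.inv {P : Place K F} {s : F} {c : K} (hc : IsValueAt P s c) (hc0 : c ≠ 0) :
    IsValueAt P s⁻¹ c⁻¹ := by
  have hs1 : P.adicValuation s = 1 := hc.adicValuation_eq_one hc0
  have hs0 : s ≠ 0 := by
    rintro rfl
    rw [map_zero] at hs1
    exact zero_ne_one hs1
  have hc1 : P.adicValuation (algebraMap K F c) = 1 := adicValuation_algebraMap_of_ne_zero P hc0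
  have hcF : algebraMap K F c ≠ 0 := (map_ne_zero _).mpr hc0
  have e : s⁻¹ - algebraMap K F c⁻¹ = -((s - algebraMap K F c) * (s⁻¹ * (algebraMap K F c)⁻¹)) := by
    rw [map_inv₀]
    field_simp
    ring
  unfold IsValueAt at hc ⊢
  rw [e, Valuation.map_neg, map_mul, map_mul, map_inv₀, map_inv₀, hs1, hc1, inv_one, mul_one,
    mul_one]
  exact hc

/-! ### integrality of a place on a ring of functions -/

/-- Every function of `R` is regular at `P` with value in `A`. -/
def IntegralAt (A : ValuationSubring K) (R : Subring F) (P : Place K F) : Prop :=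
  ∀ y ∈ R, ∃ c : K, c ∈ A ∧ IsValueAt P y c

section Basic

variable {A : ValuationSubring K} {R R' : Subring F} {P : Place K F}

theorem IntegralAt.mono (h : IntegralAt A R P) (hR : R' ≤ R) : IntegralAt A R' P :=
  fun y hy => h y (hR hy)

theorem IntegralAt.isValueAt_evalAt (h : IntegralAt A R P) {y : F} (hy : y ∈ R) :
    IsValueAt P y (evalAt P y) := by
  obtain ⟨c, _, hc⟩ := h y hy
  rwa [evalAt_eq_of_isValueAt hc]

theorem IntegralAt.evalAt_mem (h : IntegralAt A R P) {y : F} (hy : y ∈ R) : evalAt P y ∈ A := by
  obtain ⟨c, hcA, hc⟩ := h y hy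
  rwa [evalAt_eq_of_isValueAt hc]

/-- It suffices to check integrality on generators. -/
theorem IntegralAt.closure {S : Set F} (h : ∀ y ∈ S, ∃ c : K, c ∈ A ∧ IsValueAt P y c) :
    IntegralAt A (Subring.closure S) P := by
  intro y hy
  induction hy using Subring.closure_induction with
  | mem x hx => exact h x hx
  | zero => exact ⟨0, A.zero_mem, isValueAt_zero P⟩
  | one => exact ⟨1, A.one_mem, isValueAt_one P⟩
  | add x y _ _ hx hy =>
    obtain ⟨c, hcA, hc⟩ := hx
    obtain ⟨d, hdA, hd⟩ := hy
    exact ⟨c + d, A.add_mem _ _ hcA hdA, hc.add hd⟩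
  | neg x _ hx =>
    obtain ⟨c, hcA, hc⟩ := hx
    exact ⟨-c, A.neg_mem _ hcA, hc.neg⟩
  | mul x y _ _ hx hy =>
    obtain ⟨c, hcA, hc⟩ := hx
    obtain ⟨d, hdA, hd⟩ := hy
    exact ⟨c * d, A.mul_mem _ _ hcA hdA, hc.mul hd⟩

theorem integralAt_closure_iff {S : Set F} :
    IntegralAt A (Subring.closure S) P ↔ ∀ y ∈ S, ∃ c : K, c ∈ A ∧ IsValueAt P y c :=
  ⟨fun h y hy => h y (Subring.subset_closure hy), IntegralAt.closure⟩

/-- Integrality on two rings gives integrality on the ring they generate. -/
theorem IntegralAt.sup (h : IntegralAt A R P) (h' : IntegralAt A R' P) :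
    IntegralAt A (R ⊔ R') P := by
  have e : R ⊔ R' = Subring.closure ((R : Set F) ∪ (R' : Set F)) := by
    rw [Subring.closure_union, Subring.closure_eq, Subring.closure_eq]
  rw [e]
  apply IntegralAt.closure
  rintro y (hy | hy)
  · exact h y hy
  · exact h' y hy

end Basic

/-! ### the specialisation homomorphism -/

section SpHom

variable (A : ValuationSubring K) (R : Subring F) (P : Place K F)

/-- The specialisation of the place `P` on the ring `R`: `y ↦ residue of y(P)`. -/
noncomputable def spHom (h : IntegralAt A R P) : R →+* ResidueField A where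
  toFun y := resOf A (evalAt P (y : F))
  map_one' := by
    show resOf A (evalAt P (1 : F)) = 1
    rw [evalAt_eq_of_isValueAt (isValueAt_one P), resOf_one]
  map_mul' x y := by
    show resOf A (evalAt P ((x : F) * (y : F))) = _
    rw [evalAt_eq_of_isValueAt ((h.isValueAt_evalAt x.2).mul (h.isValueAt_evalAt y.2)),
      resOf_mul A (h.evalAt_mem x.2) (h.evalAt_mem y.2)]
  map_zero' := by
    show resOf A (evalAt P (0 : F)) = 0
    rw [evalAt_eq_of_isValueAt (isValueAt_zero P)]
    exact resOf_eq_zero A (by rw [map_zero]; exact zero_lt_one)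
  map_add' x y := by
    show resOf A (evalAt P ((x : F) + (y : F))) = _
    rw [evalAt_eq_of_isValueAt ((h.isValueAt_evalAt x.2).add (h.isValueAt_evalAt y.2)),
      resOf_add A (h.evalAt_mem x.2) (h.evalAt_mem y.2)]

variable {A R P}

theorem spHom_apply (h : IntegralAt A R P) (y : R) :
    spHom A R P h y = resOf A (evalAt P (y : F)) := rfl

theorem spHom_apply_of_isValueAt (h : IntegralAt A R P) {y : F} (hy : y ∈ R) {c : K}
    (hc : IsValueAt P y c) : spHom A R P h ⟨y, hy⟩ = resOf A c := by
  rw [spHom_apply, evalAt_eq_of_isValueAt hc]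

theorem spHom_eq_zero_iff (h : IntegralAt A R P) (y : R) :
    spHom A R P h y = 0 ↔ A.valuation (evalAt P (y : F)) < 1 := by
  rw [spHom_apply]
  constructor
  · intro h0
    by_contra hlt
    have h1 : A.valuation (evalAt P (y : F)) = 1 :=
      le_antisymm ((A.valuation_le_one_iff _).mpr (h.evalAt_mem y.2)) (not_lt.mp hlt)
    exact resOf_ne_zero A h1 h0
  · exact resOf_eq_zero A

/-- The specialisation of a constant. -/
theorem spHom_algebraMap (h : IntegralAt A R P) {c : K} (hcR : algebraMap K F c ∈ R) :
    spHom A R P h ⟨algebraMap K F c, hcR⟩ = resOf A c :=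
  spHom_apply_of_isValueAt h hcR (isValueAt_algebraMap P c)

/-- The centre of `P` on `Spec R`. -/
noncomputable def centre (h : IntegralAt A R P) : Ideal R := RingHom.ker (spHom A R P h)

theorem mem_centre_iff (h : IntegralAt A R P) (y : R) :
    y ∈ centre h ↔ A.valuation (evalAt P (y : F)) < 1 := by
  unfold centre
  rw [RingHom.mem_ker, spHom_eq_zero_iff]

instance centre_isPrime (h : IntegralAt A R P) : (centre h).IsPrime :=
  RingHom.ker_isPrime _

/-- A function of `R` outside the centre is invertible at `P`, with integral inverse value. -/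
theorem IntegralAt.inv_mem (h : IntegralAt A R P) {s : F} (hs : s ∈ R)
    (hs' : (⟨s, hs⟩ : R) ∉ centre h) : ∃ c : K, c ∈ A ∧ IsValueAt P s⁻¹ c := by
  rw [mem_centre_iff, not_lt] at hs'
  have h1 : A.valuation (evalAt P s) = 1 :=
    le_antisymm ((A.valuation_le_one_iff _).mpr (h.evalAt_mem hs)) hs'
  have h0 : evalAt P s ≠ 0 := by
    intro h0
    rw [h0, map_zero] at h1
    exact zero_ne_one h1
  refine ⟨(evalAt P s)⁻¹, ?_, IsValueAt.inv (h.isValueAt_evalAt hs) h0⟩
  rw [← A.valuation_le_one_iff, map_inv₀, h1, inv_one]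

/-- Integrality passes to the localisation of `R` at the centre of `P`. -/
theorem IntegralAt.localization (h : IntegralAt A R P) :
    IntegralAt A (Subring.closure ((R : Set F) ∪
      {t | ∃ (s : F) (hs : s ∈ R), (⟨s, hs⟩ : R) ∉ centre h ∧ t = s⁻¹})) P := by
  apply IntegralAt.closure
  rintro y (hy | ⟨s, hs, hs', rfl⟩)
  · exact h y hy
  · exact h.inv_mem hs hs'

end SpHom

/-! ### equivariance -/

section Equivariance

variable {A : ValuationSubring K} {R : Subring F} {P : Place K F}

/-- Integrality is transported by a semilinear automorphism whose base automorphism preserves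
`A`. -/
theorem integralAt_smul (g : SemilinearAut K F)
    (hA : ∀ c : K, c ∈ A → SemilinearAut.baseAut g c ∈ A) (h : IntegralAt A R P) :
    IntegralAt A (g • R) (g • P) := by
  intro y hy
  rw [Subring.mem_pointwise_smul_iff_inv_smul_mem] at hy
  obtain ⟨c, hcA, hc⟩ := h _ hy
  refine ⟨SemilinearAut.baseAut g c, hA c hcA, ?_⟩
  have := isValueAt_smul g hc
  rwa [smul_inv_smul] at this

/-- The value at `g • P` of a function of `g • R`. -/
theorem evalAt_smul_mem (g : SemilinearAut K F) (P : Place K F) (y : F) :
    evalAt (g • P) y = SemilinearAut.baseAut g (evalAt P (g⁻¹ • y)) := by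
  have := AnnulusRed.evalAt_smul g P (g⁻¹ • y)
  rwa [smul_inv_smul] at this

/-- `g` preserves `A` and acts trivially on its residue field. -/
structure InertiaLike (A : ValuationSubring K) (g : SemilinearAut K F) : Prop where
  mem_iff : ∀ c : K, SemilinearAut.baseAut g c ∈ A ↔ c ∈ A
  res : ∀ c : K, c ∈ A → resOf A (SemilinearAut.baseAut g c) = resOf A c

theorem InertiaLike.mem {g : SemilinearAut K F} (hg : InertiaLike A g) (c : K) (hc : c ∈ A) :
    SemilinearAut.baseAut g c ∈ A := (hg.mem_iff c).mpr hc

/-- The inverse of an inertia-like automorphism is inertia-like. -/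
theorem InertiaLike.inv {g : SemilinearAut K F} (hg : InertiaLike A g) : InertiaLike A g⁻¹ := by
  have key : ∀ c : K, SemilinearAut.baseAut g (SemilinearAut.baseAut g⁻¹ c) = c := by
    intro c
    rw [SemilinearAut.baseAut_inv]
    exact (SemilinearAut.baseAut g).apply_symm_apply c
  refine ⟨fun c => ?_, fun c hc => ?_⟩
  · rw [← hg.mem_iff (SemilinearAut.baseAut g⁻¹ c), key]
  · have hd : SemilinearAut.baseAut g⁻¹ c ∈ A := by
      rw [← hg.mem_iff (SemilinearAut.baseAut g⁻¹ c), key]
      exact hc
    have := hg.res _ hd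
    rw [key] at this
    exact this.symm

theorem InertiaLike.valuation_eq {g : SemilinearAut K F} (hg : InertiaLike A g) {c : K}
    (hc : A.valuation c = 1) : A.valuation (SemilinearAut.baseAut g c) = 1 := by
  have hcA : c ∈ A := mem_of_valuation_eq_one A hc
  have h1 := hg.res c hcA
  by_contra hne
  have hlt : A.valuation (SemilinearAut.baseAut g c) < 1 :=
    lt_of_le_of_ne ((A.valuation_le_one_iff _).mpr (hg.mem c hcA)) hne
  rw [resOf_eq_zero A hlt] at h1
  exact resOf_ne_zero A hc h1.symm

/-- **Equivariance of the specialisation** under an inertia-like automorphism: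
`sp_{g P}(g y) = sp_P(y)`. -/
theorem spHom_smul {g : SemilinearAut K F} (hg : InertiaLike A g) (h : IntegralAt A R P)
    {y : F} (hy : y ∈ R) :
    spHom A (g • R) (g • P) (integralAt_smul g hg.mem h)
      ⟨g • y, Subring.smul_mem_pointwise_smul g y R hy⟩ = spHom A R P h ⟨y, hy⟩ := by
  rw [spHom_apply, spHom_apply]
  show resOf A (evalAt (g • P) (g • y)) = resOf A (evalAt P y)
  rw [AnnulusRed.evalAt_smul, hg.res _ (h.evalAt_mem hy)]

/-- On a ring of `g`-fixed functions, `g • P` is integral iff `P` is. -/
theorem integralAt_smul_of_fixed {g : SemilinearAut K F}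
    (hA : ∀ c : K, c ∈ A → SemilinearAut.baseAut g c ∈ A) (hfix : ∀ y ∈ R, g • y = y)
    (h : IntegralAt A R P) : IntegralAt A R (g • P) := by
  intro y hy
  obtain ⟨c, hcA, hc⟩ := h y hy
  exact ⟨SemilinearAut.baseAut g c, hA c hcA, isValueAt_smul_of_fixed g (hfix y hy) hc⟩

/-- **`Compat` with `α = 1`**: on a ring of `g`-fixed functions the places `g • P` and `P` have
the same specialisation. -/
theorem spHom_smul_of_fixed {g : SemilinearAut K F} (hg : InertiaLike A g)
    (hfix : ∀ y ∈ R, g • y = y) (h : IntegralAt A R P) :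
    spHom A R (g • P) (integralAt_smul_of_fixed hg.mem hfix h) = spHom A R P h := by
  ext y
  rw [spHom_apply, spHom_apply, evalAt_smul_of_fixed g P (hfix y y.2), hg.res _ (h.evalAt_mem y.2)]

/-- On a ring of `g`-fixed functions the places `g • P` and `P` have the same centre. -/
theorem centre_smul_of_fixed {g : SemilinearAut K F} (hg : InertiaLike A g)
    (hfix : ∀ y ∈ R, g • y = y) (h : IntegralAt A R P) :
    centre (integralAt_smul_of_fixed hg.mem hfix h) = centre h := by
  unfold centre
  rw [spHom_smul_of_fixed hg hfix h]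

/-- **Rotation**: if `g • X = c • X` with `c` a unit of `A`, then the value of `X` at `g • P` is
`c⁻¹ g(X(P))`, and its residue is `(residue c)⁻¹ * residue (X(P))`. -/
theorem evalAt_smul_of_smul_eq (g : SemilinearAut K F) {X : F} {c : K} (hc0 : c ≠ 0)
    (hgX : g • X = algebraMap K F c * X) {x₀ : K} (hX : IsValueAt P X x₀) :
    IsValueAt (g • P) X (c⁻¹ * SemilinearAut.baseAut g x₀) := by
  have h1 := isValueAt_smul g hX
  rw [hgX] at h1
  have h2 := (isValueAt_algebraMap (g • P) c⁻¹).mul h1
  rwa [← mul_assoc, ← map_mul, inv_mul_cancel₀ hc0, map_one, one_mul] at h2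

theorem resOf_evalAt_smul_of_smul_eq {g : SemilinearAut K F} (hg : InertiaLike A g) {X : F}
    {c : K} (hc : A.valuation c = 1) (hgX : g • X = algebraMap K F c * X) {x₀ : K}
    (hX : IsValueAt P X x₀) (hx₀ : x₀ ∈ A) :
    resOf A (evalAt (g • P) X) = (resOf A c)⁻¹ * resOf A x₀ := by
  have hc0 : c ≠ 0 := by
    rintro rfl
    rw [map_zero] at hc
    exact zero_ne_one hc
  rw [evalAt_eq_of_isValueAt (evalAt_smul_of_smul_eq g hc0 hgX hX)]
  have hcA : c ∈ A := mem_of_valuation_eq_one A hc
  have hci : c⁻¹ ∈ A := by
    rw [← A.valuation_le_one_iff, map_inv₀, hc, inv_one]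
  rw [resOf_mul A hci (hg.mem _ hx₀), hg.res _ hx₀]
  congr 1
  have h1 : resOf A c⁻¹ * resOf A c = 1 := by
    rw [← resOf_mul A hci hcA, inv_mul_cancel₀ hc0, resOf_one]
  exact eq_inv_of_mul_eq_one_left h1

/-- **Rotation on the specialisation**: if `X ∈ R`, `g • X = c • X` with `c` a unit of `A`, then
`sp_{g P}(X) = (residue c)⁻¹ sp_P(X)`. -/
theorem spHom_smul_of_smul_eq {g : SemilinearAut K F} (hg : InertiaLike A g) {X : F}
    (hXR : X ∈ R) {c : K} (hc : A.valuation c = 1) (hgX : g • X = algebraMap K F c * X)
    (h : IntegralAt A R P) (h' : IntegralAt A R (g • P)) :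
    spHom A R (g • P) h' ⟨X, hXR⟩ = (resOf A c)⁻¹ * spHom A R P h ⟨X, hXR⟩ := by
  rw [spHom_apply, spHom_apply]
  exact resOf_evalAt_smul_of_smul_eq hg hc hgX (h.isValueAt_evalAt hXR) (h.evalAt_mem hXR)

/-- On a ring of `g`-fixed functions, `g • P` is integral iff `P` is. -/
theorem integralAt_smul_iff_of_fixed {g : SemilinearAut K F} (hg : InertiaLike A g)
    (hfix : ∀ y ∈ R, g • y = y) : IntegralAt A R (g • P) ↔ IntegralAt A R P := by
  refine ⟨fun h => ?_, integralAt_smul_of_fixed hg.mem hfix⟩
  have hfix' : ∀ y ∈ R, g⁻¹ • y = y := by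
    intro y hy
    conv_lhs => rw [← hfix y hy]
    exact inv_smul_smul g y
  have := integralAt_smul_of_fixed hg.inv.mem hfix' h
  rwa [inv_smul_smul] at this

/-- `P` is centred at the local ring `R`: integral on `R`, and the specialisation is local
(the non-units of `R` specialise to `0`). -/
def CentredAt (A : ValuationSubring K) (R : Subring F) (P : Place K F) : Prop :=
  ∃ h : IntegralAt A R P, ∀ y : R, ¬ IsUnit y → y ∈ centre h

theorem centredAt_smul_of_fixed {g : SemilinearAut K F} (hg : InertiaLike A g)
    (hfix : ∀ y ∈ R, g • y = y) (h : CentredAt A R P) : CentredAt A R (g • P) := by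
  obtain ⟨h1, h2⟩ := h
  refine ⟨integralAt_smul_of_fixed hg.mem hfix h1, fun y hy => ?_⟩
  rw [centre_smul_of_fixed hg hfix h1]
  exact h2 y hy

/-- **`Compat` with `α = 1`, centre form**: a place and its transform under an inertia-like
automorphism are centred at the same local rings of `g`-fixed functions. -/
theorem centredAt_smul_iff_of_fixed {g : SemilinearAut K F} (hg : InertiaLike A g)
    (hfix : ∀ y ∈ R, g • y = y) : CentredAt A R (g • P) ↔ CentredAt A R P := by
  refine ⟨fun h => ?_, centredAt_smul_of_fixed hg hfix⟩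
  have hfix' : ∀ y ∈ R, g⁻¹ • y = y := by
    intro y hy
    conv_lhs => rw [← hfix y hy]
    exact inv_smul_smul g y
  have := centredAt_smul_of_fixed hg.inv hfix' h
  rwa [inv_smul_smul] at this

/-- The specialisation of `X = u / a` is the angular reduction `ubar A u a P` of
`BR/AnnulusRed`. -/
theorem spHom_div_eq_ubar (h : IntegralAt A R P) {u : F} {a : K} (ha : a ≠ 0)
    (hX : u * (algebraMap K F a)⁻¹ ∈ R) :
    spHom A R P h ⟨u * (algebraMap K F a)⁻¹, hX⟩ = ubar A u a P := by
  have h1 := h.isValueAt_evalAt hX
  have haF : algebraMap K F a ≠ 0 := (map_ne_zero _).mpr ha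
  have h2 := (isValueAt_algebraMap P a).mul h1
  have e : algebraMap K F a * (u * (algebraMap K F a)⁻¹) = u := by
    field_simp
  rw [e] at h2
  rw [spHom_apply]
  unfold ubar angRes
  rw [evalAt_eq_of_isValueAt h2]
  congr 1
  field_simp

end Equivariance

/-! ### the arithmetic Galois action of an inertia element -/

section Qbar

open ModularCurve

local notation "Qb" => AlgebraicClosure ℚ

/-- The arithmetic Galois action of an element of the inertia group of `A` is inertia-like. -/
theorem inertiaLike_arithmeticGalois (A : ValuationSubring Qb) {σ : Qb ≃ₐ[ℚ] Qb}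
    (hσ : σ ∈ A.inertiaSubgroupIn ℚ) (F₀ : IntermediateField ℚ (LaurentSeries ℚ)) :
    InertiaLike A (arithmeticGalois F₀ σ) where
  mem_iff c := by
    show σ c ∈ A ↔ c ∈ A
    rw [← A.valuation_le_one_iff, Fermat.Agent.S05.valuation_apply_eq_of_mem_inertia A hσ c,
      A.valuation_le_one_iff]
  res c hc := by
    show resOf A (σ c) = resOf A c
    exact resOf_apply A hσ hc

end Qbar

end Fermat.Agent.BR.Centre
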