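import Mathlib
import Fermat.Agent.FF.RiemannPkg
import Fermat.Agent.FF.GenusStd

/-!
# Program B, node B3.P1: the projective line package

For an algebraically closed field `k` (any characteristic):

* `genusFF_eq_zero_of_finrank_eq_one` : in a coordinate context, `[F : k(x)] = 1 → genusFF k F = 0`;
* `riemannPkg_ratFunc : Red.RiemannPkg k (RatFunc k)`, `genusFF_ratFunc : genusFF k (RatFunc k) = 0`;
* for any field `L / k` generated by one transcendental element `u` (`k⟮u⟯ = ⊤`):
  `isSepVarS_of_adjoin_eq_top`, `riemannPkg_of_adjoin_eq_top : Red.RiemannPkg k L`,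
  `genusFF_of_adjoin_eq_top : genusFF k L = 0`;
* the same for any `L` with `e : RatFunc k ≃ₐ[k] L` (`riemannPkg_of_algEquiv`,
  `genusFF_of_algEquiv`).

These are the inputs of `SS.MainStatement` / of the nodal Riemann count on the exceptional
components (`P^1`'s) of a chain refinement.
-/

set_option autoImplicit false

open AlgebraicCurve Fermat.Agent.X0 Fermat.Agent.X0.RR Fermat.Agent.X0.RR7 Polynomial FunctionField
  Module IntermediateField

namespace Fermat.Agent.BR.POne

open Fermat.Agent.FF

attribute [local instance] addCommGroupRepartitions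

section Coord

variable {K F : Type*} [Field K] [Field F] [Algebra K F]
  [Algebra K[X] F] [Algebra (RatFunc K) F] [IsScalarTower K[X] (RatFunc K) F]
  [IsScalarTower K K[X] F] [IsScalarTower K (RatFunc K) F]
  [FunctionField K F] [Algebra.IsSeparable (RatFunc K) F]

/-- In a coordinate context of degree one the genus is zero. -/
theorem genusFF_eq_zero_of_finrank_eq_one [IsAlgClosed K]
    (hn : finrank (RatFunc K) F = 1) : genusFF K F = 0 := by
  classical
  obtain ⟨b, d, hb, hd, -⟩ := exists_std_basis_genus K F
  -- `h¹`
  have h1 : genusFF K F = ∑ i, (-d i - 1).toNat := by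
    rw [Adele.genusFF_eq_finrank_quotient K F, ← hb, ← hd]
    exact finrank_quotient_latF_sup_latInf b d
  -- `h⁰`
  have h0 : (1 : ℕ) = ∑ i, (d i + 1).toNat := by
    have hP := hasPrincipalDivisors_coord K F
    have hne : Nonempty (Place K F) := (infinite_place (isSepVarS_coordX K F)).nonempty
    rw [← finrank_riemannRochSpace_zero (K := K) (F := F) finite_residueField_coord,
      riemannRochSpace_zero_eq_inf K F, ← hb, ← hd]
    exact finrank_latF_inf_latInf b d
  -- a single index
  have hcard : Fintype.card (Fin (finrank (RatFunc K) F)) = 1 := by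
    rw [Fintype.card_fin, hn]
  obtain ⟨x, hx⟩ := Fintype.card_eq_one_iff.mp hcard
  have huniv : (Finset.univ : Finset (Fin (finrank (RatFunc K) F))) = {x} := by
    ext y
    simp [hx y]
  rw [huniv, Finset.sum_singleton] at h0 h1
  rw [h1]
  omega

end Coord

section RatFunc

variable (k : Type*) [Field k] [IsAlgClosed k]

/-- The Riemann package of the rational function field. -/
theorem riemannPkg_ratFunc : Red.RiemannPkg k (RatFunc k) :=
  riemannPkg (isSepVarS_coordX k (RatFunc k))

/-- The rational function field has genus zero. -/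
theorem genusFF_ratFunc : genusFF k (RatFunc k) = 0 :=
  genusFF_eq_zero_of_finrank_eq_one (Module.finrank_self _)

end RatFunc

section Simple

variable {k L : Type*} [Field k] [Field L] [Algebra k L]

theorem finrank_eq_one_of_eq_top (E : IntermediateField k L) (h : E = ⊤) : finrank E L = 1 := by
  subst h
  exact IntermediateField.finrank_top

theorem isSeparable_of_eq_top (E : IntermediateField k L) (h : E = ⊤) :
    Algebra.IsSeparable E L := by
  subst h
  refine ⟨fun x => ?_⟩
  have hx : x = algebraMap (⊤ : IntermediateField k L) L ⟨x, IntermediateField.mem_top⟩ := rfl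
  rw [hx]
  exact isSeparable_algebraMap _

/-- A generator of a purely transcendental extension of transcendence degree one is a separating
variable of degree one. -/
theorem isSepVarS_of_adjoin_eq_top {u : L} (hu : Transcendental k u) (htop : k⟮u⟯ = ⊤) :
    IsSepVarS k u 1 := by
  have h1 : finrank k⟮u⟯ L = 1 := finrank_eq_one_of_eq_top _ htop
  have hfin : FiniteDimensional k⟮u⟯ L := Module.finite_of_finrank_pos (by rw [h1]; exact one_pos)
  exact ⟨⟨hu, hfin, h1⟩, isSeparable_of_eq_top _ htop⟩

variable [IsAlgClosed k]

/-- The Riemann package of `k(u)`. -/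
theorem riemannPkg_of_adjoin_eq_top {u : L} (hu : Transcendental k u) (htop : k⟮u⟯ = ⊤) :
    Red.RiemannPkg k L :=
  riemannPkg (isSepVarS_of_adjoin_eq_top hu htop)

/-- `k(u)` has genus zero. -/
theorem genusFF_of_adjoin_eq_top {u : L} (hu : Transcendental k u) (htop : k⟮u⟯ = ⊤) :
    genusFF k L = 0 := by
  have hx := isSepVarS_of_adjoin_eq_top hu htop
  let _ := algPoly k u
  let _ := algRat hx.transcendental
  have := isScalarTower_poly_rat hx.transcendental
  have := isScalarTower_base_poly (K := k) u
  have := hx.finite
  have := hx.separable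
  have := functionField_of_finite hx.transcendental
  have := isSeparable_ratFunc_of hx.transcendental
  have := isScalarTower_base_rat (K := k) (F := L)
  refine genusFF_eq_zero_of_finrank_eq_one ?_
  rw [finrank_ratFunc_eq hx.transcendental]
  exact hx.finrank_eq

omit [IsAlgClosed k] in
/-- The image of `X` under an isomorphism `RatFunc k ≃ₐ[k] L` is a transcendental generator. -/
theorem transcendental_algEquiv_X (e : RatFunc k ≃ₐ[k] L) : Transcendental k (e RatFunc.X) := by
  intro hal
  exact RatFunc.transcendental_X (K := k)
    ((isAlgebraic_algHom_iff (e : RatFunc k →ₐ[k] L) e.injective).mp hal)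

omit [IsAlgClosed k] in
theorem adjoin_algEquiv_X (e : RatFunc k ≃ₐ[k] L) : k⟮e RatFunc.X⟯ = ⊤ := by
  have h1 : (k⟮(RatFunc.X : RatFunc k)⟯).map (e : RatFunc k →ₐ[k] L) = k⟮e RatFunc.X⟯ := by
    rw [IntermediateField.adjoin_map]
    simp
  rw [← h1, RatFunc.adjoin_X]
  ext x
  simp only [IntermediateField.mem_map, IntermediateField.mem_top, true_and, iff_true]
  exact ⟨e.symm x, by simp⟩

/-- The Riemann package of a field isomorphic to `RatFunc k`. -/
theorem riemannPkg_of_algEquiv (e : RatFunc k ≃ₐ[k] L) : Red.RiemannPkg k L :=
  riemannPkg_of_adjoin_eq_top (transcendental_algEquiv_X e) (adjoin_algEquiv_X e)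

/-- A field isomorphic to `RatFunc k` has genus zero. -/
theorem genusFF_of_algEquiv (e : RatFunc k ≃ₐ[k] L) : genusFF k L = 0 :=
  genusFF_of_adjoin_eq_top (transcendental_algEquiv_X e) (adjoin_algEquiv_X e)

end Simple

end Fermat.Agent.BR.POne
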