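import Mathlib
import Fermat.Agent.BR.BlowUpChart
import Fermat.Agent.BR.Circle.Defs

/-!
# Program B (BADRED), node B7.2', part 3: the blow-up chart inside the circle ring

Bridge between the blow-up chart `C' = O'[X, X⁻¹]` of a node over a discretely valued subfield
(`BR/BlowUpChart.lean`) and the `K`-level valuation ring `Circle.circleRing` of the circle of gauge
`ϖ_K ^ a` (`BR/Circle/Defs.lean`).

* `exists_eq_pow_mul` : (Krull intersection in the noetherian domain `C'`) every nonzero element of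
  `C'` is `ϖ ^ n` times an element of `C' ∖ ϖ C'`; `exists_zpow_mul_div` : every nonzero element of
  `F' = Frac O'` is `ϖ ^ n α / β` with `α, β ∈ C' ∖ ϖ C'` (`n : ℤ`): `C'_(ϖ)` is a discrete
  valuation ring of `F'` with uniformizer `ϖ`;
* `ChartBridge` : the local ring `O'` is centred on the tube (its elements have reductions on the
  circle which are the constants given by their residues), `u ↦ C.u`, `ϖ ↦ ϖ_K`;
* `isRed_evX` : every element `∑ oᵢ Xⁱ` of `C'` has the reduction `∑ ōᵢ Xⁱ` on the circle;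
* `exists_zpow_smul_isRed` : **(unr)** every nonzero `x ∈ F'` is `ϖ_K ^ n` times an element of the
  circle ring with nonzero reduction (the `unit` field of `ApproxAssembly.IsUnramForm`).
-/

set_option autoImplicit false
set_option linter.unusedSectionVars false

open IsLocalRing LaurentPolynomial AlgebraicCurve

namespace Fermat.Agent.BR.BlowUp

variable {O : Type*} [CommRing O] [IsDomain O] [IsLocalRing O]

/-! ### Krull intersection in the chart ring -/

section Krull

variable [IsNoetherianRing O]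
variable {F : Type*} [Field F] [Algebra O F] [IsFractionRing O F]
variable {ϖ u v : O} {e a : ℕ}

instance isNoetherianRing_laurent : IsNoetherianRing O[T;T⁻¹] :=
  IsLocalization.isNoetherianRing (Submonoid.powers (Polynomial.X : Polynomial O)) _ inferInstance

theorem isNoetherianRing_chart : IsNoetherianRing (chart F ϖ u a) :=
  isNoetherianRing_of_surjective O[T;T⁻¹] (chart F ϖ u a) (evX F ϖ u a).rangeRestrict
    (evX F ϖ u a).rangeRestrict_surjective

/-- Krull intersection for a principal ideal of a noetherian domain: every nonzero element is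
`π ^ n` times an element outside `(π)`. -/
theorem exists_eq_pow_mul_not_mem {R : Type*} [CommRing R] [IsDomain R] [IsNoetherianRing R]
    (π : R) (hπ : Ideal.span {π} ≠ (⊤ : Ideal R)) (y : R) (hy : y ≠ 0) :
    ∃ (n : ℕ) (y' : R), y' ∉ Ideal.span {π} ∧ y = π ^ n * y' := by
  classical
  have hkrull := Ideal.iInf_pow_eq_bot_of_isDomain (Ideal.span {π}) hπ
  have hex : ∃ n : ℕ, ¬ (π ^ n ∣ y) := by
    by_contra hcon
    push Not at hcon
    have : y ∈ ⨅ i, (Ideal.span {π} : Ideal R) ^ i := by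
      rw [Ideal.mem_iInf]
      intro i
      rw [Ideal.span_singleton_pow, Ideal.mem_span_singleton]
      exact hcon i
    rw [hkrull, Ideal.mem_bot] at this
    exact hy this
  have hn0 : Nat.find hex ≠ 0 := by
    intro h0
    have := Nat.find_spec hex
    rw [h0, pow_zero] at this
    exact this (one_dvd _)
  obtain ⟨m, hm⟩ := Nat.exists_eq_succ_of_ne_zero hn0
  have hdvd : π ^ m ∣ y := by
    by_contra hcon
    have := Nat.find_min' hex hcon
    rw [hm] at this
    exact Nat.not_succ_le_self m this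
  have hnot : ¬ (π ^ (m + 1) ∣ y) := by
    have := Nat.find_spec hex
    rwa [hm] at this
  obtain ⟨y', rfl⟩ := hdvd
  refine ⟨m, y', ?_, rfl⟩
  rw [Ideal.mem_span_singleton]
  rintro ⟨z, rfl⟩
  exact hnot ⟨z, by rw [pow_succ]; ring⟩

/-- Every nonzero element of the chart ring is `ϖ ^ n` times an element outside `ϖ C`. -/
theorem exists_eq_pow_mul (h : ChartHyp ϖ u v e a) {S : Type*} [CommRing S]
    (w : LaurentWitness ϖ u a S) (y : chart F ϖ u a) (hy : y ≠ 0) :
    ∃ (n : ℕ) (y' : chart F ϖ u a), chartRed h w y' ≠ 0 ∧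
      (y : F) = algebraMap O F ϖ ^ n * (y' : F) := by
  have hnoeth := isNoetherianRing_chart (F := F) (ϖ := ϖ) (u := u) (a := a)
  have hmemI : ∀ z : chart F ϖ u a,
      z ∈ Ideal.span {(⟨algebraMap O F ϖ, algebraMap_mem_chart ϖ⟩ : chart F ϖ u a)} ↔
        chartRed h w z = 0 := by
    intro z
    rw [chartRed_eq_zero_iff, Ideal.mem_span_singleton']
    constructor
    · rintro ⟨c, rfl⟩
      exact ⟨c, by rw [mul_comm]; rfl⟩
    · rintro ⟨c, hc⟩
      exact ⟨c, Subtype.ext (by rw [hc, mul_comm]; rfl)⟩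
  have hItop : Ideal.span {(⟨algebraMap O F ϖ, algebraMap_mem_chart ϖ⟩ : chart F ϖ u a)} ≠ ⊤ := by
    intro htop
    have h1 : (1 : chart F ϖ u a) ∈
        Ideal.span {(⟨algebraMap O F ϖ, algebraMap_mem_chart ϖ⟩ : chart F ϖ u a)} := by
      rw [htop]; exact Submodule.mem_top
    rw [hmemI, map_one] at h1
    exact one_ne_zero h1
  obtain ⟨n, y', hy', hyy'⟩ := exists_eq_pow_mul_not_mem _ hItop y hy
  refine ⟨n, y', ?_, ?_⟩
  · rwa [Ne, ← hmemI]
  · rw [hyy']
    rfl

/-- Every nonzero element of `F = Frac O` is `ϖ ^ n α / β` with `α, β ∈ C ∖ ϖ C`. -/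
theorem exists_zpow_mul_div (h : ChartHyp ϖ u v e a) {S : Type*} [CommRing S]
    (w : LaurentWitness ϖ u a S) (x : F) (hx : x ≠ 0) :
    ∃ (n : ℤ) (α β : chart F ϖ u a), chartRed h w α ≠ 0 ∧ chartRed h w β ≠ 0 ∧
      x = algebraMap O F ϖ ^ n * ((α : F) / (β : F)) := by
  obtain ⟨o₁, o₂, ho₂, rfl⟩ := IsFractionRing.div_surjective (A := O) x
  have ho₂0 : algebraMap O F o₂ ≠ 0 :=
    IsFractionRing.to_map_ne_zero_of_mem_nonZeroDivisors ho₂
  have ho₁0 : algebraMap O F o₁ ≠ 0 := by
    intro h0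
    rw [h0, zero_div] at hx
    exact hx rfl
  obtain ⟨n₁, α, hα, e₁⟩ := exists_eq_pow_mul h w ⟨algebraMap O F o₁, algebraMap_mem_chart o₁⟩
    (fun h0 => ho₁0 (congrArg Subtype.val h0))
  obtain ⟨n₂, β, hβ, e₂⟩ := exists_eq_pow_mul h w ⟨algebraMap O F o₂, algebraMap_mem_chart o₂⟩
    (fun h0 => ho₂0 (congrArg Subtype.val h0))
  refine ⟨(n₁ : ℤ) - n₂, α, β, hα, hβ, ?_⟩
  have hϖ := map_ϖ_ne_zero (F := F) h
  have hβ0 : (β : F) ≠ 0 := by
    intro h0
    apply hβ
    have : β = 0 := Subtype.ext h0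
    rw [this, map_zero]
  change algebraMap O F o₁ / algebraMap O F o₂ = _
  have e₁' : algebraMap O F o₁ = algebraMap O F ϖ ^ n₁ * (α : F) := e₁
  have e₂' : algebraMap O F o₂ = algebraMap O F ϖ ^ n₂ * (β : F) := e₂
  rw [e₁', e₂', zpow_sub₀ hϖ, zpow_natCast, zpow_natCast]
  field_simp

end Krull

/-! ### Reduction of Laurent polynomials into an arbitrary residue field -/

section RedTo

variable {k : Type*} [Field k]

/-- Reduction of Laurent polynomials over `O` along `χ : O →+* k`, `T ↦ X`. -/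
noncomputable def redLaurentTo (χ : O →+* k) : O[T;T⁻¹] →+* RatFunc k :=
  (laurentToRatFunc k).comp (AddMonoidAlgebra.mapRingHom ℤ χ)

theorem redLaurentTo_eq_zero_iff (χ : O →+* k) (f : O[T;T⁻¹]) :
    redLaurentTo χ f = 0 ↔ ∀ i, χ (f.coeff i) = 0 := by
  unfold redLaurentTo
  rw [RingHom.comp_apply, map_eq_zero_iff _ (laurentToRatFunc_injective _)]
  constructor
  · intro h i
    have := congrArg (fun g : k[T;T⁻¹] => g.coeff i) h
    simpa [AddMonoidAlgebra.coeff_mapRingHom] using this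
  · intro h
    ext i
    rw [AddMonoidAlgebra.coeff_mapRingHom]
    simpa using h i

theorem redLaurentTo_C_mul_T (χ : O →+* k) (o : O) (i : ℤ) :
    redLaurentTo χ (C o * T i) = algebraMap k (RatFunc k) (χ o) * (RatFunc.X : RatFunc k) ^ i := by
  unfold redLaurentTo laurentToRatFunc
  rw [RingHom.comp_apply, ← single_eq_C_mul_T, AddMonoidAlgebra.mapRingHom_single,
    single_eq_C_mul_T, eval₂_C_mul_T, Units.val_zpow_eq_zpow_val]
  rfl

theorem redLaurentTo_eq_sum (χ : O →+* k) (f : O[T;T⁻¹]) :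
    redLaurentTo χ f = ∑ i ∈ f.coeff.support,
      algebraMap k (RatFunc k) (χ (f.coeff i)) * (RatFunc.X : RatFunc k) ^ i := by
  conv_lhs => rw [laurent_eq_sum f]
  rw [map_sum]
  exact Finset.sum_congr rfl fun i _ => redLaurentTo_C_mul_T χ _ i

end RedTo

/-! ### The bridge to the circle ring -/

section Bridge

open Fermat.Agent.BR.Circle Fermat.Agent.Red

variable {K F : Type*} [Field K] [Field F] [Algebra K F]
  {A : ValuationSubring K} [IsAlgClosed (ResidueField A)] {T : Set (Place K F)}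
  (C : Circle.AnnulusCore A T)

theorem isRed_pow {g : K} {y : F} {yb : RatFunc (ResidueField A)} (h : Circle.IsRed C g y yb)
    (n : ℕ) : Circle.IsRed C g (y ^ n) (yb ^ n) := by
  induction n with
  | zero => simpa using (Circle.isRed_one (C := C) (a := g))
  | succ n ih => rw [pow_succ, pow_succ]; exact ih.mul h

theorem isRed_zpow {g : K} {y : F} {yb : RatFunc (ResidueField A)} (h : Circle.IsRed C g y yb)
    (hyb : yb ≠ 0) (n : ℤ) : Circle.IsRed C g (y ^ n) (yb ^ n) := by
  cases n with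
  | ofNat n => simpa using isRed_pow C h n
  | negSucc n =>
    rw [zpow_negSucc, zpow_negSucc]
    exact (isRed_pow C h (n + 1)).inv (pow_ne_zero _ hyb)

theorem isRed_sum {g : K} {ι : Type*} (s : Finset ι) (y : ι → F)
    (yb : ι → RatFunc (ResidueField A)) (h : ∀ i ∈ s, Circle.IsRed C g (y i) (yb i)) :
    Circle.IsRed C g (∑ i ∈ s, y i) (∑ i ∈ s, yb i) := by
  classical
  induction s using Finset.induction_on with
  | empty => simpa using (Circle.isRed_zero (C := C) (a := g))
  | insert i s hi ih =>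
    rw [Finset.sum_insert hi, Finset.sum_insert hi]
    exact (h i (Finset.mem_insert_self i s)).add
      (ih fun j hj => h j (Finset.mem_insert_of_mem hj))

variable {F' : Type*} [Field F'] [Algebra O F'] [IsFractionRing O F']

/-- The local ring `O` of the node (over a discretely valued subfield) is centred on the circle of
gauge `ϖ_K ^ a`: `ϖ ↦ ϖ_K`, `u ↦ C.u`, and every `o : O` reduces on the circle to the constant
`χ o`, where `χ : O →+* k` has kernel the maximal ideal. -/
structure ChartBridge (j : F' →+* F) (χ : O →+* ResidueField A) (ϖ u : O) (a : ℕ) (ϖK : K) :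
    Prop where
  map_ϖ : j (algebraMap O F' ϖ) = algebraMap K F ϖK
  map_u : j (algebraMap O F' u) = C.u
  ker_χ : ∀ o : O, χ o = 0 ↔ o ∈ maximalIdeal O
  centre : ∀ o : O, Circle.IsRed C (ϖK ^ a) (j (algebraMap O F' o))
    (algebraMap (ResidueField A) (RatFunc (ResidueField A)) (χ o))

variable {C} {ϖ u v : O} {e a : ℕ} {j : F' →+* F} {χ : O →+* ResidueField A} {ϖK : K}

theorem ChartBridge.ϖK_ne_zero (hb : ChartBridge C j χ ϖ u a ϖK) (h : ChartHyp ϖ u v e a) :
    ϖK ≠ 0 := by
  intro h0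
  have h1 := hb.map_ϖ
  rw [h0, map_zero, map_eq_zero] at h1
  exact map_ϖ_ne_zero (F := F') h h1

theorem ChartBridge.map_chartX (hb : ChartBridge C j χ ϖ u a ϖK) :
    j (chartX F' ϖ u a) = (ϖK ^ a)⁻¹ • C.u := by
  unfold chartX
  rw [map_div₀, map_pow, hb.map_ϖ, hb.map_u, Algebra.smul_def, map_inv₀, map_pow, div_eq_inv_mul]

/-- Every element `∑ oᵢ Xⁱ` of the chart ring reduces to `∑ χ(oᵢ) Xⁱ` on the circle. -/
theorem isRed_evX (hb : ChartBridge C j χ ϖ u a ϖK) (h : ChartHyp ϖ u v e a) (f : O[T;T⁻¹]) :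
    Circle.IsRed C (ϖK ^ a) (j (evX F' ϖ u a f)) (redLaurentTo χ f) := by
  have hg : ϖK ^ a ≠ 0 := pow_ne_zero _ (hb.ϖK_ne_zero h)
  have hX : Circle.IsRed C (ϖK ^ a) (j (chartX F' ϖ u a)) RatFunc.X := by
    rw [hb.map_chartX]
    exact Circle.isRed_coord hg
  have h1 : j (evX F' ϖ u a f) = ∑ i ∈ f.coeff.support,
      j (algebraMap O F' (f.coeff i)) * j (chartX F' ϖ u a) ^ i := by
    conv_lhs => rw [laurent_eq_sum f]
    rw [map_sum, map_sum]
    refine Finset.sum_congr rfl fun i _ => ?_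
    rw [evX_C_mul_T h, map_mul, map_zpow₀]
  rw [h1, redLaurentTo_eq_sum]
  refine isRed_sum C _ _ _ fun i _ => ?_
  exact (hb.centre _).mul (isRed_zpow C hX RatFunc.X_ne_zero i)

/-- **(unr)**: every nonzero `x ∈ F' = Frac O` is `ϖ_K ^ n` times an element of the circle ring
with nonzero reduction. -/
theorem exists_zpow_smul_isRed [IsNoetherianRing O] (hb : ChartBridge C j χ ϖ u a ϖK)
    (h : ChartHyp ϖ u v e a) {S : Type*} [CommRing S] (w : LaurentWitness ϖ u a S)
    (x : F') (hx : x ≠ 0) :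
    ∃ (n : ℤ) (yb : RatFunc (ResidueField A)), yb ≠ 0 ∧
      Circle.IsRed C (ϖK ^ a) (ϖK ^ n • j x) yb := by
  obtain ⟨n, ⟨_, fα, rfl⟩, ⟨_, fβ, rfl⟩, hα, hβ, rfl⟩ := exists_zpow_mul_div h w x hx
  have hne : ∀ f : O[T;T⁻¹], chartRed h w ⟨evX F' ϖ u a f, f, rfl⟩ ≠ 0 →
      redLaurentTo χ f ≠ 0 := by
    intro f hf h0
    apply hf
    rw [chartRed_evX, redLaurent_eq_zero_iff]
    intro i
    rw [← hb.ker_χ]
    exact (redLaurentTo_eq_zero_iff χ f).mp h0 i
  have hα' := hne fα hα
  have hβ' := hne fβ hβ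
  refine ⟨-n, redLaurentTo χ fα * (redLaurentTo χ fβ)⁻¹, mul_ne_zero hα' (inv_ne_zero hβ'), ?_⟩
  have hK := hb.ϖK_ne_zero h
  have hK' : algebraMap K F ϖK ≠ 0 := (_root_.map_ne_zero _).mpr hK
  have hj : j (algebraMap O F' ϖ ^ n) = algebraMap K F ϖK ^ n := by
    rw [map_zpow₀, hb.map_ϖ]
  have hk : algebraMap K F (ϖK ^ (-n)) = (algebraMap K F ϖK ^ n)⁻¹ := by
    rw [map_zpow₀, zpow_neg]
  have e1 : ϖK ^ (-n) • j (algebraMap O F' ϖ ^ n * (evX F' ϖ u a fα / evX F' ϖ u a fβ)) =
      j (evX F' ϖ u a fα) * (j (evX F' ϖ u a fβ))⁻¹ := by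
    rw [Algebra.smul_def, map_mul, hj, hk, inv_mul_cancel_left₀ (zpow_ne_zero _ hK'), map_div₀,
      div_eq_mul_inv]
  rw [e1]
  exact (isRed_evX hb h fα).mul ((isRed_evX hb h fβ).inv hβ')

end Bridge

end Fermat.Agent.BR.BlowUp
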