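import Mathlib

/-!
# Program B (BADRED), block B6, node B6.3a: lifting maps out of a local ring through a dense
presented subring

Abstract commutative algebra, no modular objects.

`φ : A₀ →+* O` is a ring homomorphism from a "model ring" `A₀` (with an ideal `m₀`) to a ring `O`
(with an ideal `n`), think of `A₀ = W[U,V]/(UV - q^e)` and `O` the local ring of a normal surface at
a node with `n = (q,u,v)`.

* `TopEmb φ m₀ n c` : `φ⁻¹ (n ^ (m (c+1))) ⊆ m₀ ^ m` for all `m` (the `m₀`-adic topology of `A₀` is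
  induced by the `n`-adic topology of `O`, with a linear shift).
* `topEmb_of_modq` : **Artin–Rees comparison.** If `O` is a noetherian domain, `q ∈ m₀`, `φ q ≠ 0`
  and `φ` is "levelwise injective modulo `q`" (`φ P ∈ n ^ k → P ∈ m₀ ^ k + (q)`), then `TopEmb` holds
  for some `c`.
* `exists_unique_lift` : if moreover `φ` has dense image (`O = φ A₀ + n ^ k` for all `k`), every ring
  homomorphism `ψ : A₀ →+* S` into a ring `S` complete for an ideal `J ⊇ ψ m₀` extends uniquely to a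
  ring homomorphism `Φ : O →+* S` with `Φ n ⊆ J`.
-/

set_option autoImplicit false

namespace Fermat.Agent.BR.CompleteLift

variable {A₀ O : Type*} [CommRing A₀] [CommRing O]

/-- The `m₀`-adic topology of `A₀` is induced from the `n`-adic topology of `O` along `φ`, with a
linear shift `c`. -/
def TopEmb (φ : A₀ →+* O) (m₀ : Ideal A₀) (n : Ideal O) (c : ℕ) : Prop :=
  ∀ (m : ℕ) (P : A₀), φ P ∈ n ^ (m * (c + 1)) → P ∈ m₀ ^ m

section ArtinRees

variable [IsNoetherianRing O] [IsDomain O]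

/-- Artin–Rees for a principal ideal of a noetherian domain, in cancelled form. -/
theorem exists_artinRees_principal (n : Ideal O) {a : O} (ha : a ≠ 0) :
    ∃ k : ℕ, ∀ (j : ℕ) (x : O), k ≤ j → a * x ∈ n ^ j → x ∈ n ^ (j - k) := by
  obtain ⟨k, hk⟩ := Ideal.exists_pow_inf_eq_pow_smul n (Ideal.span {a} : Submodule O O)
  refine ⟨k, fun j x hkj hx => ?_⟩
  have h1 : a * x ∈ (n ^ j • ⊤ ⊓ (Ideal.span {a} : Submodule O O) : Submodule O O) := by
    refine ⟨?_, ?_⟩
    · simpa using hx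
    · exact Ideal.mul_mem_right x _ (Ideal.subset_span rfl)
  rw [hk j hkj] at h1
  have h2 : (n ^ (j - k) • (n ^ k • ⊤ ⊓ (Ideal.span {a} : Submodule O O)) : Submodule O O) ≤
      n ^ (j - k) • (Ideal.span {a} : Submodule O O) :=
    Submodule.smul_mono le_rfl inf_le_right
  have h3 : a * x ∈ n ^ (j - k) * Ideal.span {a} := by
    have := h2 h1
    simpa [smul_eq_mul] using this
  rw [Ideal.mem_mul_span_singleton] at h3
  obtain ⟨z, hz, hzx⟩ := h3
  have : x = z := by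
    apply mul_left_cancel₀ ha
    rw [← hzx, mul_comm]
  rw [this]
  exact hz

variable (φ : A₀ →+* O) (m₀ : Ideal A₀) (n : Ideal O) (q : A₀)

/-- **Artin–Rees comparison.** Levelwise injectivity modulo `q` implies that the `m₀`-adic topology is
induced from the `n`-adic one. -/
theorem topEmb_of_modq (hq : q ∈ m₀) (hq0 : φ q ≠ 0) (hφ : m₀.map φ ≤ n)
    (H2 : ∀ (k : ℕ) (P : A₀), φ P ∈ n ^ k → P ∈ m₀ ^ k ⊔ Ideal.span {q}) :
    ∃ c : ℕ, TopEmb φ m₀ n c := by
  obtain ⟨k, hk⟩ := exists_artinRees_principal n hq0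
  have hφpow : ∀ (j : ℕ) (P : A₀), P ∈ m₀ ^ j → φ P ∈ n ^ j := by
    intro j P hP
    have h1 : φ P ∈ (m₀ ^ j).map φ := Ideal.mem_map_of_mem φ hP
    rw [Ideal.map_pow] at h1
    exact Ideal.pow_right_mono hφ j h1
  -- Claim B
  have claimB : ∀ (t j : ℕ) (P : A₀), t * k ≤ j → φ P ∈ n ^ j →
      P ∈ m₀ ^ (j - t * k) ⊔ Ideal.span {q ^ t} := by
    intro t
    induction t with
    | zero =>
      intro j P _ _
      simp
    | succ t ih =>
      intro j P htj hP
      have hkj : k ≤ j := le_trans (Nat.le_mul_of_pos_left k (Nat.succ_pos t)) htj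
      obtain ⟨P₀, hP₀, Q, hQ, hPQ⟩ := Submodule.mem_sup.mp (H2 j P hP)
      obtain ⟨P₁, rfl⟩ := Ideal.mem_span_singleton'.mp hQ
      -- φ q * φ P₁ ∈ n ^ j
      have h1 : φ q * φ P₁ ∈ n ^ j := by
        have : φ q * φ P₁ = φ P - φ P₀ := by
          rw [← hPQ, map_add, map_mul]; ring
        rw [this]
        exact Ideal.sub_mem _ hP (hφpow j P₀ hP₀)
      have h2 : φ P₁ ∈ n ^ (j - k) := hk j (φ P₁) hkj h1
      have h3 : t * k ≤ j - k := by
        have : (t + 1) * k = t * k + k := by ring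
        omega
      have h4 := ih (j - k) P₁ h3 h2
      have hexp : j - k - t * k = j - (t + 1) * k := by
        have : (t + 1) * k = t * k + k := by ring
        omega
      rw [hexp] at h4
      obtain ⟨R₀, hR₀, R₁, hR₁, hR⟩ := Submodule.mem_sup.mp h4
      obtain ⟨R₂, rfl⟩ := Ideal.mem_span_singleton'.mp hR₁
      rw [← hPQ, ← hR]
      have e1 : P₀ + (R₀ + R₂ * q ^ t) * q = (P₀ + R₀ * q) + R₂ * q ^ (t + 1) := by ring
      rw [e1]
      refine Submodule.add_mem_sup (Ideal.add_mem _ ?_ ?_) ?_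
      · exact Ideal.pow_le_pow_right (Nat.sub_le _ _) hP₀
      · exact Ideal.mul_mem_right _ _ hR₀
      · exact Ideal.mul_mem_left _ _ (Ideal.subset_span rfl)
  refine ⟨k, fun m P hP => ?_⟩
  have h := claimB m (m * (k + 1)) P (by nlinarith) hP
  have hexp : m * (k + 1) - m * k = m := by
    have : m * (k + 1) = m * k + m := by ring
    omega
  rw [hexp] at h
  refine (sup_le le_rfl ?_ : m₀ ^ m ⊔ Ideal.span {q ^ m} ≤ m₀ ^ m) h
  rw [Ideal.span_singleton_le_iff_mem]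
  exact Ideal.pow_mem_pow hq m

end ArtinRees

section Lift

variable (φ : A₀ →+* O) (m₀ : Ideal A₀) (n : Ideal O) (c : ℕ)
variable {S : Type*} [CommRing S] (J : Ideal S) (ψ : A₀ →+* S)

/-- `s : S` is an approximate value of `y : O`: it agrees modulo `J ^ m` with `ψ P` for every `P`
approximating `y` modulo `n ^ (m (c+1))`. -/
def Approx (y : O) (s : S) : Prop :=
  ∀ (m : ℕ) (P : A₀), y - φ P ∈ n ^ (m * (c + 1)) → s - ψ P ∈ J ^ m

variable {φ m₀ n c J ψ}

theorem map_pow_le (hψ : m₀.map ψ ≤ J) (m : ℕ) {P : A₀} (hP : P ∈ m₀ ^ m) : ψ P ∈ J ^ m := by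
  have h1 : ψ P ∈ (m₀ ^ m).map ψ := Ideal.mem_map_of_mem ψ hP
  rw [Ideal.map_pow] at h1
  exact Ideal.pow_right_mono hψ m h1

theorem approx_map (hemb : TopEmb φ m₀ n c) (hψ : m₀.map ψ ≤ J) (P₀ : A₀) :
    Approx φ n c J ψ (φ P₀) (ψ P₀) := by
  intro m P hP
  rw [← map_sub] at hP ⊢
  exact map_pow_le hψ m (hemb m _ hP)

theorem approx_unique [IsHausdorff J S]
    (hdense : ∀ (k : ℕ) (y : O), ∃ P : A₀, y - φ P ∈ n ^ k) {y : O} {s s' : S}
    (h : Approx φ n c J ψ y s) (h' : Approx φ n c J ψ y s') : s = s' := by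
  rw [IsHausdorff.eq_iff_smodEq (I := J)]
  intro m
  obtain ⟨P, hP⟩ := hdense (m * (c + 1)) y
  rw [SModEq.sub_mem]
  have e : s - s' = (s - ψ P) - (s' - ψ P) := by ring
  rw [e]
  have h1 := h m P hP
  have h2 := h' m P hP
  simpa using Ideal.sub_mem _ h1 h2

theorem approx_add (hemb : TopEmb φ m₀ n c) (hψ : m₀.map ψ ≤ J)
    (hdense : ∀ (k : ℕ) (y : O), ∃ P : A₀, y - φ P ∈ n ^ k) {y y' : O} {s s' : S}
    (h : Approx φ n c J ψ y s) (h' : Approx φ n c J ψ y' s') :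
    Approx φ n c J ψ (y + y') (s + s') := by
  intro m P hP
  obtain ⟨P₁, hP₁⟩ := hdense (m * (c + 1)) y
  obtain ⟨P₂, hP₂⟩ := hdense (m * (c + 1)) y'
  have h1 := h m P₁ hP₁
  have h2 := h' m P₂ hP₂
  have h3 : φ (P₁ + P₂ - P) ∈ n ^ (m * (c + 1)) := by
    have e : φ (P₁ + P₂ - P) = (y + y' - φ P) - (y - φ P₁) - (y' - φ P₂) := by
      simp only [map_sub, map_add]; ring
    rw [e]
    exact Ideal.sub_mem _ (Ideal.sub_mem _ hP hP₁) hP₂
  have h4 := map_pow_le hψ m (hemb m _ h3)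
  have e : s + s' - ψ P = (s - ψ P₁) + (s' - ψ P₂) + ψ (P₁ + P₂ - P) := by
    simp only [map_sub, map_add]; ring
  rw [e]
  exact Ideal.add_mem _ (Ideal.add_mem _ h1 h2) h4

theorem approx_mul (hemb : TopEmb φ m₀ n c) (hψ : m₀.map ψ ≤ J)
    (hdense : ∀ (k : ℕ) (y : O), ∃ P : A₀, y - φ P ∈ n ^ k) {y y' : O} {s s' : S}
    (h : Approx φ n c J ψ y s) (h' : Approx φ n c J ψ y' s') :
    Approx φ n c J ψ (y * y') (s * s') := by
  intro m P hP
  obtain ⟨P₁, hP₁⟩ := hdense (m * (c + 1)) y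
  obtain ⟨P₂, hP₂⟩ := hdense (m * (c + 1)) y'
  have h1 := h m P₁ hP₁
  have h2 := h' m P₂ hP₂
  have h3 : φ (P₁ * P₂ - P) ∈ n ^ (m * (c + 1)) := by
    have e : φ (P₁ * P₂ - P) =
        (y * y' - φ P) - (y - φ P₁) * y' - φ P₁ * (y' - φ P₂) := by
      simp only [map_sub, map_mul]; ring
    rw [e]
    exact Ideal.sub_mem _ (Ideal.sub_mem _ hP (Ideal.mul_mem_right _ _ hP₁))
      (Ideal.mul_mem_left _ _ hP₂)
  have h4 := map_pow_le hψ m (hemb m _ h3)
  have e : s * s' - ψ P = (s - ψ P₁) * s' + ψ P₁ * (s' - ψ P₂) + ψ (P₁ * P₂ - P) := by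
    simp only [map_sub, map_mul]; ring
  rw [e]
  exact Ideal.add_mem _ (Ideal.add_mem _ (Ideal.mul_mem_right _ _ h1)
    (Ideal.mul_mem_left _ _ h2)) h4

theorem exists_approx [IsPrecomplete J S] (hemb : TopEmb φ m₀ n c) (hψ : m₀.map ψ ≤ J)
    (hdense : ∀ (k : ℕ) (y : O), ∃ P : A₀, y - φ P ∈ n ^ k) (y : O) :
    ∃ s : S, Approx φ n c J ψ y s := by
  choose P hP using fun k => hdense k y
  -- the sequence ψ (P (m (c+1)))
  have hcauchy : ∀ {m m' : ℕ}, m ≤ m' →
      ψ (P (m * (c + 1))) ≡ ψ (P (m' * (c + 1))) [SMOD (J ^ m • ⊤ : Submodule S S)] := by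
    intro m m' hmm'
    rw [SModEq.sub_mem, ← map_sub]
    have h3 : φ (P (m * (c + 1)) - P (m' * (c + 1))) ∈ n ^ (m * (c + 1)) := by
      have e : φ (P (m * (c + 1)) - P (m' * (c + 1))) =
          (y - φ (P (m' * (c + 1)))) - (y - φ (P (m * (c + 1)))) := by
        simp only [map_sub]; ring
      rw [e]
      refine Ideal.sub_mem _ ?_ (hP _)
      exact Ideal.pow_le_pow_right (Nat.mul_le_mul_right _ hmm') (hP _)
    simpa using map_pow_le hψ m (hemb m _ h3)
  obtain ⟨L, hL⟩ := IsPrecomplete.prec ‹_› (f := fun m => ψ (P (m * (c + 1)))) hcauchy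
  refine ⟨L, fun m Q hQ => ?_⟩
  have h1 : ψ (P (m * (c + 1))) - L ∈ J ^ m := by
    have := hL m
    rw [SModEq.sub_mem] at this
    simpa using this
  have h3 : φ (P (m * (c + 1)) - Q) ∈ n ^ (m * (c + 1)) := by
    have e : φ (P (m * (c + 1)) - Q) = (y - φ Q) - (y - φ (P (m * (c + 1)))) := by
      simp only [map_sub]; ring
    rw [e]
    exact Ideal.sub_mem _ hQ (hP _)
  have h4 := map_pow_le hψ m (hemb m _ h3)
  have e : L - ψ Q = ψ (P (m * (c + 1)) - Q) - (ψ (P (m * (c + 1))) - L) := by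
    simp only [map_sub]; ring
  rw [e]
  exact Ideal.sub_mem _ h4 h1

/-- **Lifting through a dense presented subring.** -/
theorem exists_unique_lift [IsAdicComplete J S] (hemb : TopEmb φ m₀ n c)
    (hemb1 : ∀ P : A₀, φ P ∈ n → P ∈ m₀) (hψ : m₀.map ψ ≤ J)
    (hdense : ∀ (k : ℕ) (y : O), ∃ P : A₀, y - φ P ∈ n ^ k) :
    ∃! Φ : O →+* S, Φ.comp φ = ψ ∧ n.map Φ ≤ J := by
  choose Φ₀ hΦ₀ using fun y => exists_approx (J := J) hemb hψ hdense y
  have huniq : ∀ {y : O} {s : S}, Approx φ n c J ψ y s → Φ₀ y = s :=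
    fun h => approx_unique hdense (hΦ₀ _) h
  have hφψ : ∀ P₀ : A₀, Φ₀ (φ P₀) = ψ P₀ := fun P₀ => huniq (approx_map hemb hψ P₀)
  let Φ : O →+* S :=
    { toFun := Φ₀
      map_one' := by
        have := hφψ 1
        simpa using this
      map_mul' := fun y y' => huniq (approx_mul hemb hψ hdense (hΦ₀ y) (hΦ₀ y'))
      map_zero' := by
        have := hφψ 0
        simpa using this
      map_add' := fun y y' => huniq (approx_add hemb hψ hdense (hΦ₀ y) (hΦ₀ y')) }
  have hΦn : n.map Φ ≤ J := by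
    rw [Ideal.map_le_iff_le_comap]
    intro y hy
    rw [Ideal.mem_comap]
    obtain ⟨P, hP⟩ := hdense (1 * (c + 1)) y
    have hPn : φ P ∈ n := by
      have h1 : y - φ P ∈ n := Ideal.pow_le_self (by omega) hP
      have e : φ P = y - (y - φ P) := by ring
      rw [e]
      exact Ideal.sub_mem _ hy h1
    have h2 : ψ P ∈ J := by
      have := map_pow_le hψ 1 (by simpa using hemb1 P hPn)
      simpa using this
    have h3 : Φ₀ y - ψ P ∈ J := by
      have := hΦ₀ y 1 P hP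
      simpa using this
    have e : Φ y = (Φ₀ y - ψ P) + ψ P := by
      show Φ₀ y = _
      ring
    rw [e]
    exact Ideal.add_mem _ h3 h2
  refine ⟨Φ, ⟨RingHom.ext hφψ, hΦn⟩, ?_⟩
  rintro Φ' ⟨hΦ'φ, hΦ'n⟩
  ext y
  show Φ' y = Φ₀ y
  symm
  apply huniq
  intro m P hP
  have h1 : Φ' (y - φ P) ∈ J ^ m := by
    have h2 : Φ' (y - φ P) ∈ (n ^ (m * (c + 1))).map Φ' := Ideal.mem_map_of_mem Φ' hP
    rw [Ideal.map_pow] at h2
    have h3 : (n.map Φ') ^ (m * (c + 1)) ≤ J ^ m :=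
      (Ideal.pow_right_mono hΦ'n _).trans (Ideal.pow_le_pow_right (by nlinarith))
    exact h3 h2
  have e : Φ' y - ψ P = Φ' (y - φ P) := by
    rw [map_sub, ← hΦ'φ]; rfl
  rw [e]
  exact h1

end Lift

end Fermat.Agent.BR.CompleteLift
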