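import Mathlib
import Fermat.Agent.BR.CompleteLift

/-!
# Program B (BADRED), block B6, node B6.3b: universal property of a smooth point ("disc")

Abstract commutative algebra, no modular objects.

`O` is a noetherian local domain, an algebra over a ring `W` (think: a DVR with uniformizer `q`), with
maximal ideal `(q, t)`, such that `O/q` is a domain, `t ∉ (q)`, and `W → O/𝔫` is onto with kernel
`(q)`: the local ring of a smooth `W`-curve at a closed point of the special fibre, with local
parameter `t`.  Then `O` has the universal property of `W^[[T]]`: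

* `disc_UP` : for every `W`-algebra `S` complete for an ideal `J ∋ q` and every `t₀ ∈ J` there is a
  unique `W`-algebra homomorphism `Φ : O →ₐ[W] S` with `Φ t = t₀` and `Φ 𝔫 ⊆ J`.

(With `S` the ring of integers of a finite extension of `Frac W` this is the bijection
"points of the residue disc ↔ open unit disc", with `S` a ring of bounded power series it is the
Hensel embedding of the function field into functions on the disc.)

Shared lemmas for the node case (`BR/NodeUP.lean`): `ResidueHyp`, `sup_span_pow_le`,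
`dvd_of_mul_pow_mem`.
-/

set_option autoImplicit false

namespace Fermat.Agent.BR.DiscUP

open IsLocalRing Polynomial Fermat.Agent.BR.CompleteLift

variable {W O : Type*} [CommRing W] [CommRing O] [Algebra W O] [IsLocalRing O]

/-- `W → O/𝔫` is onto with kernel `(q)`. -/
structure ResidueHyp (W O : Type*) [CommRing W] [CommRing O] [Algebra W O] [IsLocalRing O]
    (q : W) : Prop where
  surj : ∀ y : O, ∃ w : W, y - algebraMap W O w ∈ maximalIdeal O
  ker : ∀ w : W, algebraMap W O w ∈ maximalIdeal O → q ∣ w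

omit [IsLocalRing O] in
theorem sup_span_pow_le (p : Ideal O) (v : O) (j : ℕ) :
    (p ⊔ Ideal.span {v}) ^ j ≤ p ⊔ Ideal.span {v ^ j} := by
  induction j with
  | zero => simp
  | succ j ih =>
    rw [pow_succ]
    refine (Ideal.mul_mono_left ih).trans ?_
    rw [Ideal.mul_le]
    intro r hr s hs
    obtain ⟨a, ha, y, hy, rfl⟩ := Submodule.mem_sup.mp hr
    obtain ⟨c, rfl⟩ := Ideal.mem_span_singleton'.mp hy
    obtain ⟨b, hb, z, hz, rfl⟩ := Submodule.mem_sup.mp hs
    obtain ⟨d, rfl⟩ := Ideal.mem_span_singleton'.mp hz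
    have e : (a + c * v ^ j) * (b + d * v) =
        (a * (b + d * v) + c * v ^ j * b) + (c * d) * v ^ (j + 1) := by ring
    rw [e]
    refine Submodule.add_mem_sup (Ideal.add_mem _ (Ideal.mul_mem_right _ _ ha)
      (Ideal.mul_mem_left _ _ hb)) (Ideal.mul_mem_left _ _ (Ideal.subset_span rfl))

/-- Independence of the pure monomial `v ^ k` modulo `𝔫 ^ (k+1) + p`. -/
theorem dvd_of_mul_pow_mem {q : W} (hres : ResidueHyp W O q) (p : Ideal O) [p.IsPrime] (v : O)
    (hv : v ∉ p) (hmax : maximalIdeal O = p ⊔ Ideal.span {v}) (k : ℕ) (w : W)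
    (h : algebraMap W O w * v ^ k ∈ (maximalIdeal O) ^ (k + 1) ⊔ p) : q ∣ w := by
  apply hres.ker
  have h1 : (maximalIdeal O) ^ (k + 1) ⊔ p ≤ p ⊔ Ideal.span {v ^ (k + 1)} := by
    rw [hmax]
    exact sup_le (sup_span_pow_le p v (k + 1)) le_sup_left
  obtain ⟨x, hx, y, hy, hxy⟩ := Submodule.mem_sup.mp (h1 h)
  obtain ⟨r, rfl⟩ := Ideal.mem_span_singleton'.mp hy
  have h2 : v ^ k * (algebraMap W O w - r * v) ∈ p := by
    have e : v ^ k * (algebraMap W O w - r * v) = x := by
      have : x = algebraMap W O w * v ^ k - r * v ^ (k + 1) := by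
        rw [← hxy]; ring
      rw [this]; ring
    rw [e]; exact hx
  have h3 : algebraMap W O w - r * v ∈ p := by
    rcases Ideal.IsPrime.mem_or_mem ‹p.IsPrime› h2 with h | h
    · exact absurd (Ideal.IsPrime.mem_of_pow_mem ‹p.IsPrime› k h) hv
    · exact h
  rw [hmax]
  have e : algebraMap W O w = (algebraMap W O w - r * v) + r * v := by ring
  rw [e]
  exact Submodule.add_mem_sup h3 (Ideal.mul_mem_left _ _ (Ideal.subset_span rfl))

section Disc

variable (q : W) (t : O)

/-- The ideal `(q, T)` of the model ring `W[T]`. -/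
noncomputable def discIdeal : Ideal W[X] := Ideal.span {C q} ⊔ Ideal.span {X}

omit [IsLocalRing O] in
theorem map_discIdeal_le (K : Ideal O) (hq : algebraMap W O q ∈ K) (ht : t ∈ K) :
    (discIdeal q).map ((aeval t : W[X] →ₐ[W] O) : W[X] →+* O) ≤ K := by
  rw [discIdeal, Ideal.map_sup, Ideal.map_span, Ideal.map_span]
  refine sup_le ?_ ?_
  · rw [Ideal.span_le]
    rintro _ ⟨x, hx, rfl⟩
    rw [Set.mem_singleton_iff.mp hx]
    simpa using hq
  · rw [Ideal.span_le]
    rintro _ ⟨x, hx, rfl⟩
    rw [Set.mem_singleton_iff.mp hx]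
    simpa using ht

variable {q t}

theorem disc_dense (hres : ResidueHyp W O q)
    (hmax : maximalIdeal O = Ideal.span {algebraMap W O q} ⊔ Ideal.span {t}) :
    ∀ (k : ℕ) (y : O), ∃ P : W[X], y - aeval t P ∈ maximalIdeal O ^ k := by
  intro k
  induction k with
  | zero => intro y; exact ⟨0, by simp⟩
  | succ k ih =>
    intro y
    obtain ⟨w, hw⟩ := hres.surj y
    rw [hmax] at hw
    obtain ⟨x1, hx1, x2, hx2, hx⟩ := Submodule.mem_sup.mp hw
    obtain ⟨α, rfl⟩ := Ideal.mem_span_singleton'.mp hx1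
    obtain ⟨β, rfl⟩ := Ideal.mem_span_singleton'.mp hx2
    obtain ⟨Pα, hPα⟩ := ih α
    obtain ⟨Pβ, hPβ⟩ := ih β
    refine ⟨C w + C q * Pα + X * Pβ, ?_⟩
    have e : y - aeval t (C w + C q * Pα + X * Pβ) =
        (α - aeval t Pα) * algebraMap W O q + (β - aeval t Pβ) * t := by
      have hy : y = algebraMap W O w + (α * algebraMap W O q + β * t) := by
        rw [hx]; ring
      simp only [map_add, map_mul, aeval_C, aeval_X]
      rw [hy]; ring
    rw [e, pow_succ]
    have hqm : algebraMap W O q ∈ maximalIdeal O := by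
      rw [hmax]; exact Ideal.mem_sup_left (Ideal.subset_span rfl)
    have htm : t ∈ maximalIdeal O := by
      rw [hmax]; exact Ideal.mem_sup_right (Ideal.subset_span rfl)
    exact Ideal.add_mem _ (Ideal.mul_mem_mul hPα hqm) (Ideal.mul_mem_mul hPβ htm)

theorem disc_H2 (hres : ResidueHyp W O q) [(Ideal.span {algebraMap W O q} : Ideal O).IsPrime]
    (ht : t ∉ (Ideal.span {algebraMap W O q} : Ideal O))
    (hmax : maximalIdeal O = Ideal.span {algebraMap W O q} ⊔ Ideal.span {t}) :
    ∀ (k : ℕ) (P : W[X]), aeval t P ∈ maximalIdeal O ^ k →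
      P ∈ (discIdeal q) ^ k ⊔ Ideal.span {C q} := by
  have hqm : algebraMap W O q ∈ maximalIdeal O := by
    rw [hmax]; exact Ideal.mem_sup_left (Ideal.subset_span rfl)
  have htm : t ∈ maximalIdeal O := by
    rw [hmax]; exact Ideal.mem_sup_right (Ideal.subset_span rfl)
  intro k
  induction k with
  | zero => intro P _; simp
  | succ k ih =>
    intro P hP
    have hP' : aeval t P ∈ maximalIdeal O ^ k := Ideal.pow_le_pow_right (Nat.le_succ k) hP
    have h1 := ih P hP'
    have h2 : (discIdeal q) ^ k ⊔ Ideal.span {C q} ≤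
        Ideal.span {(X : W[X]) ^ k} ⊔ Ideal.span {C q} := by
      refine sup_le ?_ le_sup_right
      rw [discIdeal]
      exact (sup_span_pow_le _ _ k).trans (by rw [sup_comm])
    obtain ⟨x1, hx1, x2, hx2, hx⟩ := Submodule.mem_sup.mp (h2 h1)
    obtain ⟨α, rfl⟩ := Ideal.mem_span_singleton'.mp hx1
    obtain ⟨β, rfl⟩ := Ideal.mem_span_singleton'.mp hx2
    -- α = C w + X * α'
    obtain ⟨w, α', hα⟩ : ∃ (w : W) (α' : W[X]), α = C w + X * α' :=
      ⟨α.coeff 0, α.divX, by
        conv_lhs => rw [← Polynomial.divX_mul_X_add α]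
        ring⟩
    have hmem : algebraMap W O w * t ^ k ∈
        (maximalIdeal O) ^ (k + 1) ⊔ (Ideal.span {algebraMap W O q} : Ideal O) := by
      have e : algebraMap W O w * t ^ k =
          (aeval t (α * X ^ k + β * C q) - t ^ (k + 1) * aeval t α')
            + (-(aeval t β)) * algebraMap W O q := by
        rw [hα]
        simp only [map_add, map_mul, aeval_C, aeval_X, map_pow]
        ring
      rw [e, hx]
      refine Submodule.add_mem_sup (Ideal.sub_mem _ hP ?_) ?_
      · exact Ideal.mul_mem_right _ _ (Ideal.pow_mem_pow htm _)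
      · exact Ideal.mul_mem_left _ _ (Ideal.subset_span rfl)
    obtain ⟨w', rfl⟩ := dvd_of_mul_pow_mem hres _ t ht hmax k w hmem
    rw [← hx, hα]
    have e : (C (q * w') + X * α') * X ^ k + β * C q =
        α' * X ^ (k + 1) + (C w' * X ^ k + β) * C q := by
      rw [C_mul]; ring
    rw [e]
    refine Submodule.add_mem_sup ?_ (Ideal.mul_mem_left _ _ (Ideal.subset_span rfl))
    refine Ideal.mul_mem_left _ _ (Ideal.pow_mem_pow ?_ _)
    exact Ideal.mem_sup_right (Ideal.subset_span rfl)

/-- **Universal property of a smooth point.** -/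
theorem disc_UP [IsNoetherianRing O] [IsDomain O] (hres : ResidueHyp W O q)
    [(Ideal.span {algebraMap W O q} : Ideal O).IsPrime] (hq0 : algebraMap W O q ≠ 0)
    (ht : t ∉ (Ideal.span {algebraMap W O q} : Ideal O))
    (hmax : maximalIdeal O = Ideal.span {algebraMap W O q} ⊔ Ideal.span {t})
    {S : Type*} [CommRing S] [Algebra W S] (J : Ideal S) [IsAdicComplete J S]
    (hqJ : algebraMap W S q ∈ J) (t₀ : S) (ht₀ : t₀ ∈ J) :
    ∃! Φ : O →ₐ[W] S, Φ t = t₀ ∧ (maximalIdeal O).map (Φ : O →+* S) ≤ J := by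
  have hqm : algebraMap W O q ∈ maximalIdeal O := by
    rw [hmax]; exact Ideal.mem_sup_left (Ideal.subset_span rfl)
  have htm : t ∈ maximalIdeal O := by
    rw [hmax]; exact Ideal.mem_sup_right (Ideal.subset_span rfl)
  set φ : W[X] →+* O := ((aeval t : W[X] →ₐ[W] O) : W[X] →+* O) with hφdef
  set ψ : W[X] →+* S := ((aeval t₀ : W[X] →ₐ[W] S) : W[X] →+* S) with hψdef
  have hφ : (discIdeal q).map φ ≤ maximalIdeal O := map_discIdeal_le q t _ hqm htm
  have hψ : (discIdeal q).map ψ ≤ J := map_discIdeal_le q t₀ _ hqJ ht₀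
  have hCq : (C q : W[X]) ∈ discIdeal q := Ideal.mem_sup_left (Ideal.subset_span rfl)
  have hφq : φ (C q) ≠ 0 := by
    simpa [hφdef] using hq0
  have H2 := disc_H2 hres ht hmax
  obtain ⟨c, hemb⟩ := topEmb_of_modq φ (discIdeal q) (maximalIdeal O) (C q) hCq hφq hφ H2
  have hemb1 : ∀ P : W[X], φ P ∈ maximalIdeal O → P ∈ discIdeal q := by
    intro P hP
    have h := H2 1 P (by rw [pow_one]; exact hP)
    rw [pow_one] at h
    exact (sup_le le_rfl ((Ideal.span_singleton_le_iff_mem _).mpr hCq)) h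
  obtain ⟨Φ, ⟨hΦφ, hΦn⟩, huniq⟩ :=
    exists_unique_lift (J := J) hemb hemb1 hψ (disc_dense hres hmax)
  have hcomm : ∀ w : W, Φ (algebraMap W O w) = algebraMap W S w := by
    intro w
    have := congrArg (fun f : W[X] →+* S => f (C w)) hΦφ
    simpa [hφdef, hψdef] using this
  refine ⟨{ Φ with commutes' := hcomm }, ⟨?_, hΦn⟩, ?_⟩
  · have := congrArg (fun f : W[X] →+* S => f X) hΦφ
    simpa [hφdef, hψdef] using this
  · rintro Φ' ⟨hΦ't, hΦ'n⟩
    have h1 : (Φ' : O →+* S).comp φ = ψ := by
      apply Polynomial.ringHom_ext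
      · intro w
        simp [hφdef, hψdef]
      · simp [hφdef, hψdef, hΦ't]
    have h2 := huniq (Φ' : O →+* S) ⟨h1, hΦ'n⟩
    ext y
    exact congrArg (fun f : O →+* S => f y) h2

end Disc

end Fermat.Agent.BR.DiscUP
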