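import Mathlib

/-!
# Program B (BADRED), node B6.1: the abstract NODE LEMMA

Pure commutative algebra (finding 'B6 UNIFORM NODE STRUCTURE (helper23)', sections 2-3).

`O` is a local ring, `q ∈ O`, `p1 p2` two ideals with `p1 ⊓ p2 = (q)`, `u ∈ p1`, `v ∈ p2` with
`𝔪 = p1 + (v) = p2 + (u)` (the two branches of a crossing point are transversal).  Then
`p1 = (u, q)`, `p2 = (v, q)`, `𝔪 = (q, u, v)`, `O/q` is the fibre product of `O/p1` and `O/p2`
over the residue field, `u v = q c`, and as long as `c` is not a unit the pair `(u, v)` can be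
improved modulo `q ^ n` so that `u' v' = q ^ (n+1) c'`.  If the exponent is bounded this stops at
`u' v' = q ^ e ε` with `ε` a unit: a node of thickness `e`.
-/

set_option autoImplicit false

namespace Fermat.Agent.BR.NodeLemma

open IsLocalRing

variable {O : Type*} [CommRing O] [IsLocalRing O]

/-- Transversal crossing data in a local ring: `p1 ⊓ p2 = (q)`, `u ∈ p1`, `v ∈ p2`,
`𝔪 = p1 + (v) = p2 + (u)`. -/
structure NodeData (q u v : O) (p1 p2 : Ideal O) : Prop where
  inter : p1 ⊓ p2 = Ideal.span {q}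
  hu : u ∈ p1
  hv : v ∈ p2
  max1 : maximalIdeal O = p1 ⊔ Ideal.span {v}
  max2 : maximalIdeal O = p2 ⊔ Ideal.span {u}

namespace NodeData

variable {q u v : O} {p1 p2 : Ideal O}

theorem q_mem_inf (h : NodeData q u v p1 p2) : q ∈ p1 ⊓ p2 := by
  rw [h.inter]; exact Ideal.mem_span_singleton_self q

theorem q_mem_p1 (h : NodeData q u v p1 p2) : q ∈ p1 := (Ideal.mem_inf.mp h.q_mem_inf).1

theorem q_mem_p2 (h : NodeData q u v p1 p2) : q ∈ p2 := (Ideal.mem_inf.mp h.q_mem_inf).2

theorem p1_le_maximalIdeal (h : NodeData q u v p1 p2) : p1 ≤ maximalIdeal O := by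
  rw [h.max1]; exact le_sup_left

theorem p2_le_maximalIdeal (h : NodeData q u v p1 p2) : p2 ≤ maximalIdeal O := by
  rw [h.max2]; exact le_sup_left

theorem q_mem_maximalIdeal (h : NodeData q u v p1 p2) : q ∈ maximalIdeal O :=
  h.p1_le_maximalIdeal h.q_mem_p1

theorem u_mem_maximalIdeal (h : NodeData q u v p1 p2) : u ∈ maximalIdeal O :=
  h.p1_le_maximalIdeal h.hu

theorem v_mem_maximalIdeal (h : NodeData q u v p1 p2) : v ∈ maximalIdeal O :=
  h.p2_le_maximalIdeal h.hv

/-- the data are symmetric in the two branches -/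
theorem symm (h : NodeData q u v p1 p2) : NodeData q v u p2 p1 where
  inter := by rw [inf_comm]; exact h.inter
  hu := h.hv
  hv := h.hu
  max1 := h.max2
  max2 := h.max1

/-- every element of `p1` is `b * q + a * u` -/
theorem exists_eq_of_mem_p1 (h : NodeData q u v p1 p2) {x : O} (hx : x ∈ p1) :
    ∃ a b : O, x = b * q + a * u := by
  have hx' : x ∈ p2 ⊔ Ideal.span {u} := by
    rw [← h.max2]; exact h.p1_le_maximalIdeal hx
  obtain ⟨p, hp, t, ht, rfl⟩ := Submodule.mem_sup.mp hx'
  obtain ⟨a, rfl⟩ := Ideal.mem_span_singleton'.mp ht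
  have hp1 : p ∈ p1 := by
    have : p = (p + a * u) - a * u := by ring
    rw [this]
    exact p1.sub_mem hx (p1.mul_mem_left a h.hu)
  have hpq : p ∈ Ideal.span {q} := by
    rw [← h.inter]; exact Ideal.mem_inf.mpr ⟨hp1, hp⟩
  obtain ⟨b, rfl⟩ := Ideal.mem_span_singleton'.mp hpq
  exact ⟨a, b, rfl⟩

theorem p1_eq (h : NodeData q u v p1 p2) : p1 = Ideal.span {u, q} := by
  apply le_antisymm
  · intro x hx
    obtain ⟨a, b, rfl⟩ := h.exists_eq_of_mem_p1 hx
    rw [Ideal.mem_span_pair]
    exact ⟨a, b, by ring⟩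
  · rw [Ideal.span_le]
    intro x hx
    rcases hx with rfl | hx
    · exact h.hu
    · rw [Set.mem_singleton_iff] at hx
      rw [hx]; exact h.q_mem_p1

theorem p2_eq (h : NodeData q u v p1 p2) : p2 = Ideal.span {v, q} := h.symm.p1_eq

theorem maximalIdeal_eq (h : NodeData q u v p1 p2) :
    maximalIdeal O = Ideal.span {q, u, v} := by
  apply le_antisymm
  · rw [h.max1, h.p1_eq, sup_le_iff]
    constructor
    · apply Ideal.span_mono
      intro x hx
      rcases hx with rfl | hx
      · exact Set.mem_insert_of_mem _ (Set.mem_insert _ _)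
      · rw [Set.mem_singleton_iff] at hx
        rw [hx]; exact Set.mem_insert _ _
    · apply Ideal.span_mono
      intro x hx
      rw [Set.mem_singleton_iff] at hx
      rw [hx]
      exact Set.mem_insert_of_mem _ (Set.mem_insert_of_mem _ rfl)
  · rw [Ideal.span_le]
    intro x hx
    rcases hx with rfl | rfl | hx
    · exact h.q_mem_maximalIdeal
    · exact h.u_mem_maximalIdeal
    · rw [Set.mem_singleton_iff] at hx
      rw [hx]; exact h.v_mem_maximalIdeal

/-- every element of the maximal ideal is `g * q + a * u + b * v` -/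
theorem exists_eq_of_mem_maximalIdeal (h : NodeData q u v p1 p2) {c : O}
    (hc : c ∈ maximalIdeal O) : ∃ g a b : O, c = g * q + a * u + b * v := by
  rw [h.max1] at hc
  obtain ⟨p, hp, t, ht, rfl⟩ := Submodule.mem_sup.mp hc
  obtain ⟨b, rfl⟩ := Ideal.mem_span_singleton'.mp ht
  obtain ⟨a, g, rfl⟩ := h.exists_eq_of_mem_p1 hp
  exact ⟨g, a, b, rfl⟩

/-- `O / q` is the fibre product of `O / p1` and `O / p2` over the residue field: existence. -/
theorem exists_glue (h : NodeData q u v p1 p2) (a b : O) (hab : a - b ∈ maximalIdeal O) :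
    ∃ y, y - a ∈ p1 ∧ y - b ∈ p2 := by
  rw [h.max1] at hab
  obtain ⟨s, hs, t, ht, hst⟩ := Submodule.mem_sup.mp hab
  obtain ⟨r, rfl⟩ := Ideal.mem_span_singleton'.mp ht
  refine ⟨a - s, ?_, ?_⟩
  · have : a - s - a = -s := by ring
    rw [this]; exact p1.neg_mem hs
  · have : a - s - b = r * v := by
      have h1 : a - b = s + r * v := hst.symm
      calc a - s - b = (a - b) - s := by ring
        _ = r * v := by rw [h1]; ring
    rw [this]; exact p2.mul_mem_left r h.hv

/-- `O / q` is the fibre product of `O / p1` and `O / p2` over the residue field: uniqueness. -/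
theorem glue_unique (h : NodeData q u v p1 p2) {a b y y' : O} (hy1 : y - a ∈ p1)
    (hy2 : y - b ∈ p2) (hy1' : y' - a ∈ p1) (hy2' : y' - b ∈ p2) :
    y - y' ∈ Ideal.span {q} := by
  rw [← h.inter, Ideal.mem_inf]
  constructor
  · have : y - y' = (y - a) - (y' - a) := by ring
    rw [this]; exact p1.sub_mem hy1 hy1'
  · have : y - y' = (y - b) - (y' - b) := by ring
    rw [this]; exact p2.sub_mem hy2 hy2'

/-- the two values of a glued element agree in the residue field -/
theorem sub_mem_maximalIdeal_of_glue (h : NodeData q u v p1 p2) {a b y : O} (hy1 : y - a ∈ p1)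
    (hy2 : y - b ∈ p2) : a - b ∈ maximalIdeal O := by
  have : a - b = (y - b) - (y - a) := by ring
  rw [this]
  exact (maximalIdeal O).sub_mem (h.p2_le_maximalIdeal hy2) (h.p1_le_maximalIdeal hy1)

theorem exists_mul_eq (h : NodeData q u v p1 p2) : ∃ c, u * v = q * c := by
  have h1 : u * v ∈ p1 ⊓ p2 :=
    Ideal.mem_inf.mpr ⟨p1.mul_mem_right v h.hu, p2.mul_mem_left u h.hv⟩
  rw [h.inter] at h1
  obtain ⟨c, hc⟩ := Ideal.mem_span_singleton'.mp h1
  exact ⟨c, by rw [← hc]; ring⟩

/-- changing `u` by an element of `p1 ⊓ p2`-multiples (here: a multiple of `q`) and `v` likewise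
keeps the node data -/
theorem of_sub_mem (h : NodeData q u v p1 p2) {u' v' : O} (hu' : u' - u ∈ Ideal.span {q})
    (hv' : v' - v ∈ Ideal.span {q}) : NodeData q u' v' p1 p2 := by
  obtain ⟨s, hs⟩ := Ideal.mem_span_singleton'.mp hu'
  obtain ⟨t, ht⟩ := Ideal.mem_span_singleton'.mp hv'
  have eu : u' = u + s * q := by rw [hs]; ring
  have ev : v' = v + t * q := by rw [ht]; ring
  have hu1 : u' ∈ p1 := by
    rw [eu]; exact p1.add_mem h.hu (p1.mul_mem_left s h.q_mem_p1)
  have hv2 : v' ∈ p2 := by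
    rw [ev]; exact p2.add_mem h.hv (p2.mul_mem_left t h.q_mem_p2)
  refine ⟨h.inter, hu1, hv2, ?_, ?_⟩
  · rw [h.max1]
    apply le_antisymm
    · rw [sup_le_iff]
      refine ⟨le_sup_left, ?_⟩
      rw [Ideal.span_singleton_le_iff_mem]
      have : v = v' - t * q := by rw [ev]; ring
      rw [this]
      exact Ideal.sub_mem _ (Ideal.mem_sup_right (Ideal.mem_span_singleton_self v'))
        (Ideal.mem_sup_left (p1.mul_mem_left t h.q_mem_p1))
    · rw [sup_le_iff]
      refine ⟨le_sup_left, ?_⟩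
      rw [Ideal.span_singleton_le_iff_mem, ev]
      exact Ideal.add_mem _ (Ideal.mem_sup_right (Ideal.mem_span_singleton_self v))
        (Ideal.mem_sup_left (p1.mul_mem_left t h.q_mem_p1))
  · rw [h.max2]
    apply le_antisymm
    · rw [sup_le_iff]
      refine ⟨le_sup_left, ?_⟩
      rw [Ideal.span_singleton_le_iff_mem]
      have : u = u' - s * q := by rw [eu]; ring
      rw [this]
      exact Ideal.sub_mem _ (Ideal.mem_sup_right (Ideal.mem_span_singleton_self u'))
        (Ideal.mem_sup_left (p2.mul_mem_left s h.q_mem_p2))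
    · rw [sup_le_iff]
      refine ⟨le_sup_left, ?_⟩
      rw [Ideal.span_singleton_le_iff_mem, eu]
      exact Ideal.add_mem _ (Ideal.mem_sup_right (Ideal.mem_span_singleton_self u))
        (Ideal.mem_sup_left (p2.mul_mem_left s h.q_mem_p2))

/-- **the improvement step of the node lemma** -/
theorem step (h : NodeData q u v p1 p2) {n : ℕ} (hn : 1 ≤ n) {c : O}
    (hc : u * v = q ^ n * c) (hcm : c ∈ maximalIdeal O) :
    ∃ u' v' c', NodeData q u' v' p1 p2 ∧ u' - u ∈ Ideal.span {q ^ n} ∧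
      v' - v ∈ Ideal.span {q ^ n} ∧ u' * v' = q ^ (n + 1) * c' := by
  obtain ⟨g, a, b, rfl⟩ := h.exists_eq_of_mem_maximalIdeal hcm
  obtain ⟨k, rfl⟩ := Nat.exists_eq_add_of_le hn
  have hu' : (u - q ^ (1 + k) * b) - u ∈ Ideal.span {q ^ (1 + k)} := by
    rw [Ideal.mem_span_singleton']
    exact ⟨-b, by ring⟩
  have hv' : (v - q ^ (1 + k) * a) - v ∈ Ideal.span {q ^ (1 + k)} := by
    rw [Ideal.mem_span_singleton']
    exact ⟨-a, by ring⟩
  have hle : Ideal.span {q ^ (1 + k)} ≤ Ideal.span {q} := by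
    rw [Ideal.span_singleton_le_iff_mem, Ideal.mem_span_singleton']
    exact ⟨q ^ k, by ring⟩
  refine ⟨u - q ^ (1 + k) * b, v - q ^ (1 + k) * a, g + q ^ k * a * b,
    h.of_sub_mem (hle hu') (hle hv'), hu', hv', ?_⟩
  have e1 : (u - q ^ (1 + k) * b) * (v - q ^ (1 + k) * a) =
      u * v - q ^ (1 + k) * (a * u + b * v) + q ^ (1 + k) * q ^ (1 + k) * (a * b) := by ring
  rw [e1, hc]
  ring

/-- **NODE LEMMA**: if the exponent `n` in `u' v' = q ^ n c` is bounded along all admissible
pairs, then some admissible pair `u' ≡ u`, `v' ≡ v (mod q)` satisfies `u' v' = q ^ e ε` with `ε` a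
unit and `1 ≤ e ≤ Bd`. -/
theorem exists_unit [IsDomain O] (h : NodeData q u v p1 p2) (_hq : q ≠ 0) (Bd : ℕ)
    (hbound : ∀ (n : ℕ) (u' v' c : O), NodeData q u' v' p1 p2 → u' * v' = q ^ n * c → n ≤ Bd) :
    ∃ (e : ℕ) (u' v' ε : O), 1 ≤ e ∧ e ≤ Bd ∧ NodeData q u' v' p1 p2 ∧
      u' - u ∈ Ideal.span {q} ∧ v' - v ∈ Ideal.span {q} ∧ IsUnit ε ∧ u' * v' = q ^ e * ε := by
  -- the invariant
  have key : ∀ (k n : ℕ), 1 ≤ n → Bd + 1 - n ≤ k → ∀ (u' v' c : O), NodeData q u' v' p1 p2 →
      u' - u ∈ Ideal.span {q} → v' - v ∈ Ideal.span {q} → u' * v' = q ^ n * c →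
      ∃ (e : ℕ) (u'' v'' ε : O), 1 ≤ e ∧ e ≤ Bd ∧ NodeData q u'' v'' p1 p2 ∧
        u'' - u ∈ Ideal.span {q} ∧ v'' - v ∈ Ideal.span {q} ∧ IsUnit ε ∧
        u'' * v'' = q ^ e * ε := by
    intro k
    induction k with
    | zero =>
      intro n hn hk u' v' c hN _ _ hc
      have := hbound n u' v' c hN hc
      omega
    | succ k ih =>
      intro n hn hk u' v' c hN hu' hv' hc
      by_cases hcu : IsUnit c
      · exact ⟨n, u', v', c, hn, hbound n u' v' c hN hc, hN, hu', hv', hcu, hc⟩
      · have hcm : c ∈ maximalIdeal O := (IsLocalRing.mem_maximalIdeal c).mpr hcu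
        obtain ⟨u'', v'', c', hN', hu'', hv'', hc'⟩ := hN.step hn hc hcm
        have hle : Ideal.span {q ^ n} ≤ Ideal.span {q} := by
          obtain ⟨j, rfl⟩ := Nat.exists_eq_add_of_le hn
          rw [Ideal.span_singleton_le_iff_mem, Ideal.mem_span_singleton']
          exact ⟨q ^ j, by ring⟩
        have hu3 : u'' - u ∈ Ideal.span {q} := by
          have : u'' - u = (u'' - u') + (u' - u) := by ring
          rw [this]; exact Ideal.add_mem _ (hle hu'') hu'
        have hv3 : v'' - v ∈ Ideal.span {q} := by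
          have : v'' - v = (v'' - v') + (v' - v) := by ring
          rw [this]; exact Ideal.add_mem _ (hle hv'') hv'
        have hnB : n ≤ Bd := hbound n u' v' c hN hc
        exact ih (n + 1) (by omega) (by omega) u'' v'' c' hN' hu3 hv3 hc'
  obtain ⟨c, hc⟩ := h.exists_mul_eq
  exact key (Bd + 1) 1 le_rfl (by omega) u v c h (by simp) (by simp) (by rw [hc, pow_one])

end NodeData

end Fermat.Agent.BR.NodeLemma
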