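import Mathlib
import Fermat.Agent.BR.CompleteLift
import Fermat.Agent.BR.DiscUP

/-!
# Program B (BADRED), block B6, node B6.3c: universal property of a node `u v = q ^ e`

Abstract commutative algebra, no modular objects.

`O` is a noetherian local domain, an algebra over a ring `W` (think: a DVR with uniformizer `q`), with
two primes `p1 ∋ u`, `p2 ∋ v` (the two branches), `q ∈ p1 ∩ p2`, `𝔫 = p1 + (v) = p2 + (u) = (q,u,v)`,
`v ∉ p1`, `u ∉ p2`, `u v = q ^ e` with `e ≥ 1`, and `W → O/𝔫` onto with kernel `(q)`: the local ring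
of a normal `W`-surface at an ordinary double point of thickness `e` of the special fibre (output of
the node lemma `BR/NodeLemma.lean`, after scaling `v` by the unit).  Then `O` has the universal
property of `W^[[U,V]]/(UV - q^e)`:

* `node_UP` : for every `W`-algebra `S` complete for an ideal `J ∋ q` and all `a b ∈ J` with
  `a b = q ^ e` there is a unique `W`-algebra homomorphism `Φ : O →ₐ[W] S` with `Φ u = a`, `Φ v = b`,
  `Φ 𝔫 ⊆ J`.

(With `S` the ring of integers of a finite extension `K'` of `Frac W`: points of the tube of the node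
↔ `{(a,b) : a b = q^e}` = the open annulus `0 < v(a) < e v(q)`.  With `S` the unit ball of the
completion of `K'(U)` for the Gauss norm of radius `λ`, `a = U`, `b = q^e/U`: the Hensel embedding of
the function field defining the intermediate valuation `w_λ`.)
-/

set_option autoImplicit false

namespace Fermat.Agent.BR.NodeUP

open IsLocalRing MvPolynomial Fermat.Agent.BR.CompleteLift Fermat.Agent.BR.DiscUP

variable {W : Type*} [CommRing W]

section Model

variable (q : W) (e : ℕ)

/-- The relation `UV - q^e`. -/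
noncomputable def nodeRel : MvPolynomial (Fin 2) W := X 0 * X 1 - C (q ^ e)

/-- The model ring `W[U,V]/(UV - q^e)`. -/
def NodeModel : Type _ := MvPolynomial (Fin 2) W ⧸ Ideal.span {nodeRel q e}

noncomputable instance : CommRing (NodeModel q e) :=
  inferInstanceAs (CommRing (MvPolynomial (Fin 2) W ⧸ Ideal.span {nodeRel q e}))

noncomputable instance : Algebra W (NodeModel q e) :=
  inferInstanceAs (Algebra W (MvPolynomial (Fin 2) W ⧸ Ideal.span {nodeRel q e}))

/-- The quotient map onto the model ring. -/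
noncomputable def nodeMk : MvPolynomial (Fin 2) W →ₐ[W] NodeModel q e :=
  Ideal.Quotient.mkₐ W (Ideal.span {nodeRel q e})

theorem nodeMk_surjective : Function.Surjective (nodeMk q e) :=
  Ideal.Quotient.mkₐ_surjective W _

theorem nodeMk_nodeRel : nodeMk q e (nodeRel q e) = 0 :=
  Ideal.Quotient.eq_zero_iff_mem.mpr (Ideal.subset_span rfl)

/-- `U` in the model ring. -/
noncomputable def mU : NodeModel q e := nodeMk q e (X 0)
/-- `V` in the model ring. -/
noncomputable def mV : NodeModel q e := nodeMk q e (X 1)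
/-- `q` in the model ring. -/
noncomputable def mQ : NodeModel q e := algebraMap W (NodeModel q e) q

theorem nodeMk_C (w : W) : nodeMk q e (C w) = algebraMap W (NodeModel q e) w := by
  rw [← MvPolynomial.algebraMap_eq, AlgHom.commutes]

theorem mU_mul_mV : mU q e * mV q e = mQ q e ^ e := by
  have h := nodeMk_nodeRel q e
  rw [nodeRel, map_sub, map_mul, nodeMk_C, map_pow, sub_eq_zero] at h
  exact h

/-- The ideal `(q, U, V)` of the model ring. -/
noncomputable def nodeIdeal : Ideal (NodeModel q e) :=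
  Ideal.span {mQ q e} ⊔ Ideal.span {mU q e} ⊔ Ideal.span {mV q e}

theorem mQ_mem : mQ q e ∈ nodeIdeal q e :=
  Ideal.mem_sup_left (Ideal.mem_sup_left (Ideal.subset_span rfl))
theorem mU_mem : mU q e ∈ nodeIdeal q e :=
  Ideal.mem_sup_left (Ideal.mem_sup_right (Ideal.subset_span rfl))
theorem mV_mem : mV q e ∈ nodeIdeal q e :=
  Ideal.mem_sup_right (Ideal.subset_span rfl)

/-- constant term: every element of the model ring is a constant modulo `(U, V)`. -/
theorem exists_const (α : NodeModel q e) :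
    ∃ w : W, α - algebraMap W (NodeModel q e) w ∈
      Ideal.span {mU q e} ⊔ Ideal.span {mV q e} := by
  obtain ⟨P, rfl⟩ := nodeMk_surjective q e α
  induction P using MvPolynomial.induction_on with
  | C a => exact ⟨a, by rw [nodeMk_C, sub_self]; exact Ideal.zero_mem _⟩
  | add P Q hP hQ =>
    obtain ⟨w₁, h₁⟩ := hP
    obtain ⟨w₂, h₂⟩ := hQ
    refine ⟨w₁ + w₂, ?_⟩
    have e1 : nodeMk q e (P + Q) - algebraMap W (NodeModel q e) (w₁ + w₂) =
        (nodeMk q e P - algebraMap W (NodeModel q e) w₁) +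
        (nodeMk q e Q - algebraMap W (NodeModel q e) w₂) := by
      simp only [map_add]; ring
    rw [e1]
    exact Ideal.add_mem _ h₁ h₂
  | mul_X P i _ =>
    refine ⟨0, ?_⟩
    simp only [map_zero, sub_zero, map_mul]
    fin_cases i
    · exact Ideal.mem_sup_left (Ideal.mul_mem_left _ _ (Ideal.subset_span rfl))
    · exact Ideal.mem_sup_right (Ideal.mul_mem_left _ _ (Ideal.subset_span rfl))

/-- The ideals `K_k = (U^k, V^k, q)`. -/
noncomputable def pureIdeal (k : ℕ) : Ideal (NodeModel q e) :=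
  Ideal.span {mU q e ^ k} ⊔ Ideal.span {mV q e ^ k} ⊔ Ideal.span {mQ q e}

theorem mem_pureIdeal {k : ℕ} {x : NodeModel q e} (hx : x ∈ pureIdeal q e k) :
    ∃ a b c : NodeModel q e, x = a * mU q e ^ k + b * mV q e ^ k + c * mQ q e := by
  obtain ⟨y, hy, z, hz, rfl⟩ := Submodule.mem_sup.mp hx
  obtain ⟨y1, hy1, y2, hy2, rfl⟩ := Submodule.mem_sup.mp hy
  obtain ⟨a, rfl⟩ := Ideal.mem_span_singleton'.mp hy1
  obtain ⟨b, rfl⟩ := Ideal.mem_span_singleton'.mp hy2
  obtain ⟨c, rfl⟩ := Ideal.mem_span_singleton'.mp hz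
  exact ⟨a, b, c, rfl⟩

theorem mem_nodeIdeal {x : NodeModel q e} (hx : x ∈ nodeIdeal q e) :
    ∃ a b c : NodeModel q e, x = a * mU q e + b * mV q e + c * mQ q e := by
  obtain ⟨y, hy, z, hz, rfl⟩ := Submodule.mem_sup.mp hx
  obtain ⟨y1, hy1, y2, hy2, rfl⟩ := Submodule.mem_sup.mp hy
  obtain ⟨c, rfl⟩ := Ideal.mem_span_singleton'.mp hy1
  obtain ⟨a, rfl⟩ := Ideal.mem_span_singleton'.mp hy2
  obtain ⟨b, rfl⟩ := Ideal.mem_span_singleton'.mp hz
  exact ⟨a, b, c, by ring⟩

theorem pureIdeal_mul_le (he : 1 ≤ e) {k : ℕ} (hk : 1 ≤ k) :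
    pureIdeal q e k * nodeIdeal q e ≤ pureIdeal q e (k + 1) := by
  obtain ⟨k', rfl⟩ := Nat.exists_eq_add_of_le' hk
  obtain ⟨e', rfl⟩ := Nat.exists_eq_add_of_le' he
  rw [Ideal.mul_le]
  intro r hr s hs
  obtain ⟨a, b, c, rfl⟩ := mem_pureIdeal q _ hr
  obtain ⟨f, g, d, rfl⟩ := mem_nodeIdeal q _ hs
  have hUV := mU_mul_mV q (e' + 1)
  have key : (a * mU q (e' + 1) ^ (k' + 1) + b * mV q (e' + 1) ^ (k' + 1) + c * mQ q (e' + 1)) *
      (f * mU q (e' + 1) + g * mV q (e' + 1) + d * mQ q (e' + 1)) =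
      (a * f) * mU q (e' + 1) ^ (k' + 1 + 1) + (b * g) * mV q (e' + 1) ^ (k' + 1 + 1) +
      (c * (f * mU q (e' + 1) + g * mV q (e' + 1) + d * mQ q (e' + 1)) +
        a * d * mU q (e' + 1) ^ (k' + 1) + b * d * mV q (e' + 1) ^ (k' + 1) +
        a * g * mU q (e' + 1) ^ k' * mQ q (e' + 1) ^ e' +
        b * f * mV q (e' + 1) ^ k' * mQ q (e' + 1) ^ e') * mQ q (e' + 1) := by
    have h1 : mU q (e' + 1) ^ (k' + 1) * mV q (e' + 1) =
        mU q (e' + 1) ^ k' * mQ q (e' + 1) ^ e' * mQ q (e' + 1) := by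
      rw [pow_succ, mul_assoc, hUV, pow_succ]; ring
    have h2 : mV q (e' + 1) ^ (k' + 1) * mU q (e' + 1) =
        mV q (e' + 1) ^ k' * mQ q (e' + 1) ^ e' * mQ q (e' + 1) := by
      rw [pow_succ, mul_assoc, mul_comm (mV q (e' + 1)) (mU q (e' + 1)), hUV, pow_succ]; ring
    calc _ = (a * f) * mU q (e' + 1) ^ (k' + 1 + 1) + (b * g) * mV q (e' + 1) ^ (k' + 1 + 1) +
        (c * (f * mU q (e' + 1) + g * mV q (e' + 1) + d * mQ q (e' + 1)) +
          a * d * mU q (e' + 1) ^ (k' + 1) + b * d * mV q (e' + 1) ^ (k' + 1)) * mQ q (e' + 1) +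
        a * g * (mU q (e' + 1) ^ (k' + 1) * mV q (e' + 1)) +
        b * f * (mV q (e' + 1) ^ (k' + 1) * mU q (e' + 1)) := by ring
      _ = _ := by rw [h1, h2]; ring
  rw [key]
  refine Submodule.add_mem_sup (Submodule.add_mem_sup ?_ ?_) ?_
  · exact Ideal.mul_mem_left _ _ (Ideal.subset_span rfl)
  · exact Ideal.mul_mem_left _ _ (Ideal.subset_span rfl)
  · exact Ideal.mul_mem_left _ _ (Ideal.subset_span rfl)

theorem nodeIdeal_pow_le (he : 1 ≤ e) {k : ℕ} (hk : 1 ≤ k) :
    nodeIdeal q e ^ k ≤ pureIdeal q e k := by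
  induction k, hk using Nat.le_induction with
  | base =>
    rw [pow_one, pureIdeal, pow_one, pow_one, nodeIdeal]
    refine sup_le (sup_le ?_ ?_) ?_
    · exact le_sup_right
    · exact le_sup_of_le_left le_sup_left
    · exact le_sup_of_le_left le_sup_right
  | succ k hk ih =>
    rw [pow_succ]
    exact (Ideal.mul_mono_left ih).trans (pureIdeal_mul_le q e he hk)

end Model

section Lift

variable {q : W} {e : ℕ} {R : Type*} [CommRing R] [Algebra W R]

/-- The map out of the model ring, `U ↦ a`, `V ↦ b` (for `a b = q ^ e`). -/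
noncomputable def nodeLift (a b : R) (hab : a * b = algebraMap W R q ^ e) :
    NodeModel q e →ₐ[W] R :=
  Ideal.Quotient.liftₐ (Ideal.span {nodeRel q e}) (MvPolynomial.aeval ![a, b]) (by
    intro x hx
    obtain ⟨y, rfl⟩ := Ideal.mem_span_singleton'.mp hx
    rw [map_mul]
    have : (MvPolynomial.aeval ![a, b]) (nodeRel q e) = 0 := by
      rw [nodeRel, map_sub, map_mul, aeval_X, aeval_X, aeval_C, map_pow]
      simp [hab]
    rw [this, mul_zero])

theorem nodeLift_nodeMk (a b : R) (hab : a * b = algebraMap W R q ^ e)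
    (P : MvPolynomial (Fin 2) W) :
    nodeLift a b hab (nodeMk q e P) = MvPolynomial.aeval ![a, b] P := by
  rfl

@[simp] theorem nodeLift_mU (a b : R) (hab : a * b = algebraMap W R q ^ e) :
    nodeLift a b hab (mU q e) = a := by
  rw [mU, nodeLift_nodeMk, aeval_X]; rfl

@[simp] theorem nodeLift_mV (a b : R) (hab : a * b = algebraMap W R q ^ e) :
    nodeLift a b hab (mV q e) = b := by
  rw [mV, nodeLift_nodeMk, aeval_X]; rfl

@[simp] theorem nodeLift_mQ (a b : R) (hab : a * b = algebraMap W R q ^ e) :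
    nodeLift a b hab (mQ q e) = algebraMap W R q := by
  rw [mQ, AlgHom.commutes]

theorem nodeModel_algHom_ext {f g : NodeModel q e →ₐ[W] R} (hU : f (mU q e) = g (mU q e))
    (hV : f (mV q e) = g (mV q e)) : f = g := by
  have h : f.comp (nodeMk q e) = g.comp (nodeMk q e) := by
    apply MvPolynomial.algHom_ext
    intro i
    fin_cases i
    · exact hU
    · exact hV
  ext x
  obtain ⟨P, rfl⟩ := nodeMk_surjective q e x
  exact congrArg (fun F : MvPolynomial (Fin 2) W →ₐ[W] R => F P) h

theorem map_nodeIdeal_le (a b : R) (hab : a * b = algebraMap W R q ^ e) (K : Ideal R)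
    (hq : algebraMap W R q ∈ K) (ha : a ∈ K) (hb : b ∈ K) :
    (nodeIdeal q e).map ((nodeLift a b hab : NodeModel q e →ₐ[W] R) : NodeModel q e →+* R) ≤ K := by
  rw [nodeIdeal, Ideal.map_sup, Ideal.map_sup, Ideal.map_span, Ideal.map_span, Ideal.map_span]
  refine sup_le (sup_le ?_ ?_) ?_
  · rw [Ideal.span_le]
    rintro _ ⟨x, hx, rfl⟩
    rw [Set.mem_singleton_iff.mp hx]
    simpa using hq
  · rw [Ideal.span_le]
    rintro _ ⟨x, hx, rfl⟩
    rw [Set.mem_singleton_iff.mp hx]
    simpa using ha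
  · rw [Ideal.span_le]
    rintro _ ⟨x, hx, rfl⟩
    rw [Set.mem_singleton_iff.mp hx]
    simpa using hb

end Lift

section Node

variable {O : Type*} [CommRing O] [Algebra W O] [IsLocalRing O]
variable {q : W} {e : ℕ} {u v : O}

theorem node_dense (hres : ResidueHyp W O q) (huv : u * v = algebraMap W O q ^ e)
    (hmax : maximalIdeal O =
      Ideal.span {algebraMap W O q} ⊔ Ideal.span {u} ⊔ Ideal.span {v}) :
    ∀ (k : ℕ) (y : O), ∃ P : NodeModel q e, y - nodeLift u v huv P ∈ maximalIdeal O ^ k := by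
  have hqm : algebraMap W O q ∈ maximalIdeal O := by
    rw [hmax]; exact Ideal.mem_sup_left (Ideal.mem_sup_left (Ideal.subset_span rfl))
  have hum : u ∈ maximalIdeal O := by
    rw [hmax]; exact Ideal.mem_sup_left (Ideal.mem_sup_right (Ideal.subset_span rfl))
  have hvm : v ∈ maximalIdeal O := by
    rw [hmax]; exact Ideal.mem_sup_right (Ideal.subset_span rfl)
  intro k
  induction k with
  | zero => intro y; exact ⟨0, by simp⟩
  | succ k ih =>
    intro y
    obtain ⟨w, hw⟩ := hres.surj y
    rw [hmax] at hw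
    obtain ⟨x12, hx12, x3, hx3, hx⟩ := Submodule.mem_sup.mp hw
    obtain ⟨x1, hx1, x2, hx2, rfl⟩ := Submodule.mem_sup.mp hx12
    obtain ⟨α, rfl⟩ := Ideal.mem_span_singleton'.mp hx1
    obtain ⟨β, rfl⟩ := Ideal.mem_span_singleton'.mp hx2
    obtain ⟨γ, rfl⟩ := Ideal.mem_span_singleton'.mp hx3
    obtain ⟨Pα, hPα⟩ := ih α
    obtain ⟨Pβ, hPβ⟩ := ih β
    obtain ⟨Pγ, hPγ⟩ := ih γ
    refine ⟨algebraMap W (NodeModel q e) w + mQ q e * Pα + mU q e * Pβ + mV q e * Pγ, ?_⟩
    have e1 : y - nodeLift u v huv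
        (algebraMap W (NodeModel q e) w + mQ q e * Pα + mU q e * Pβ + mV q e * Pγ) =
        (α - nodeLift u v huv Pα) * algebraMap W O q + (β - nodeLift u v huv Pβ) * u +
          (γ - nodeLift u v huv Pγ) * v := by
      have hy : y = algebraMap W O w + (α * algebraMap W O q + β * u + γ * v) := by
        rw [hx]; ring
      simp only [map_add, map_mul, AlgHom.commutes, nodeLift_mU, nodeLift_mV, nodeLift_mQ]
      rw [hy]; ring
    rw [e1, pow_succ]
    exact Ideal.add_mem _ (Ideal.add_mem _ (Ideal.mul_mem_mul hPα hqm) (Ideal.mul_mem_mul hPβ hum))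
      (Ideal.mul_mem_mul hPγ hvm)

/-- Hypotheses at a node (output of the node lemma, after scaling `v` by the unit). -/
structure NodeHyp (W : Type*) [CommRing W] {O : Type*} [CommRing O] [Algebra W O] [IsLocalRing O]
    (q : W) (e : ℕ) (u v : O) (p1 p2 : Ideal O) : Prop where
  res : ResidueHyp W O q
  prime1 : p1.IsPrime
  prime2 : p2.IsPrime
  hu : u ∈ p1
  hv : v ∈ p2
  hq1 : algebraMap W O q ∈ p1
  hq2 : algebraMap W O q ∈ p2
  hv1 : v ∉ p1
  hu2 : u ∉ p2
  max1 : maximalIdeal O = p1 ⊔ Ideal.span {v}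
  max2 : maximalIdeal O = p2 ⊔ Ideal.span {u}
  max3 : maximalIdeal O = Ideal.span {algebraMap W O q} ⊔ Ideal.span {u} ⊔ Ideal.span {v}
  he : 1 ≤ e
  huv : u * v = algebraMap W O q ^ e

variable {p1 p2 : Ideal O}

theorem NodeHyp.map_pow_mem (h : NodeHyp W q e u v p1 p2) (j : ℕ) {α : NodeModel q e}
    (hα : α ∈ nodeIdeal q e ^ j) : nodeLift u v h.huv α ∈ maximalIdeal O ^ j := by
  have hqm : algebraMap W O q ∈ maximalIdeal O := by
    rw [h.max3]; exact Ideal.mem_sup_left (Ideal.mem_sup_left (Ideal.subset_span rfl))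
  have hum : u ∈ maximalIdeal O := by
    rw [h.max3]; exact Ideal.mem_sup_left (Ideal.mem_sup_right (Ideal.subset_span rfl))
  have hvm : v ∈ maximalIdeal O := by
    rw [h.max3]; exact Ideal.mem_sup_right (Ideal.subset_span rfl)
  have h1 : ((nodeLift u v h.huv : NodeModel q e →ₐ[W] O) : NodeModel q e →+* O) α ∈
      (nodeIdeal q e ^ j).map
        ((nodeLift u v h.huv : NodeModel q e →ₐ[W] O) : NodeModel q e →+* O) :=
    Ideal.mem_map_of_mem _ hα
  rw [Ideal.map_pow] at h1
  exact Ideal.pow_right_mono (map_nodeIdeal_le u v h.huv _ hqm hum hvm) j h1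

/-- Levelwise injectivity modulo `q` at a node. -/
theorem NodeHyp.H2 (h : NodeHyp W q e u v p1 p2) :
    ∀ (k : ℕ) (α : NodeModel q e), nodeLift u v h.huv α ∈ maximalIdeal O ^ k →
      α ∈ nodeIdeal q e ^ k ⊔ Ideal.span {mQ q e} := by
  have := h.prime1
  have := h.prime2
  have hum : u ∈ maximalIdeal O := by
    rw [h.max3]; exact Ideal.mem_sup_left (Ideal.mem_sup_right (Ideal.subset_span rfl))
  have hvm : v ∈ maximalIdeal O := by
    rw [h.max3]; exact Ideal.mem_sup_right (Ideal.subset_span rfl)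
  have hUV_le : Ideal.span {mU q e} ⊔ Ideal.span {mV q e} ≤ nodeIdeal q e :=
    sup_le ((Ideal.span_singleton_le_iff_mem _).mpr (mU_mem q e))
      ((Ideal.span_singleton_le_iff_mem _).mpr (mV_mem q e))
  intro k
  induction k with
  | zero => intro α _; simp
  | succ k ih =>
    intro α hα
    rcases Nat.eq_zero_or_pos k with hk | hk
    · -- level one
      subst hk
      obtain ⟨w, hw⟩ := exists_const q e α
      have h1 : nodeLift u v h.huv (α - algebraMap W (NodeModel q e) w) ∈ maximalIdeal O := by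
        have := h.map_pow_mem 1 (by simpa using hUV_le hw)
        simpa using this
      have h2 : algebraMap W O w ∈ maximalIdeal O := by
        have e1 : algebraMap W O w = nodeLift u v h.huv α -
            nodeLift u v h.huv (α - algebraMap W (NodeModel q e) w) := by
          rw [map_sub, AlgHom.commutes]; ring
        rw [e1]
        exact Ideal.sub_mem _ (by simpa using hα) h1
      obtain ⟨w', rfl⟩ := h.res.ker w h2
      have e2 : α = (α - algebraMap W (NodeModel q e) (q * w')) +
          algebraMap W (NodeModel q e) w' * mQ q e := by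
        rw [mQ, map_mul]; ring
      rw [e2, zero_add, pow_one]
      exact Submodule.add_mem_sup (hUV_le hw) (Ideal.mul_mem_left _ _ (Ideal.subset_span rfl))
    · -- level k + 1, k ≥ 1
      have hα' : nodeLift u v h.huv α ∈ maximalIdeal O ^ k :=
        Ideal.pow_le_pow_right (Nat.le_succ k) hα
      have h1 : α ∈ pureIdeal q e k := by
        refine (sup_le (nodeIdeal_pow_le q e h.he hk) ?_) (ih α hα')
        exact le_sup_right
      obtain ⟨a, b, c, rfl⟩ := mem_pureIdeal q e h1
      obtain ⟨w₁, hw₁⟩ := exists_const q e a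
      obtain ⟨w₂, hw₂⟩ := exists_const q e b
      set a' := a - algebraMap W (NodeModel q e) w₁ with ha'
      set b' := b - algebraMap W (NodeModel q e) w₂ with hb'
      have ha'm : nodeLift u v h.huv a' ∈ maximalIdeal O := by
        have := h.map_pow_mem 1 (by simpa using hUV_le hw₁)
        simpa using this
      have hb'm : nodeLift u v h.huv b' ∈ maximalIdeal O := by
        have := h.map_pow_mem 1 (by simpa using hUV_le hw₂)
        simpa using this
      have hexp : nodeLift u v h.huv (a * mU q e ^ k + b * mV q e ^ k + c * mQ q e) =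
          (algebraMap W O w₁ + nodeLift u v h.huv a') * u ^ k +
          (algebraMap W O w₂ + nodeLift u v h.huv b') * v ^ k +
          nodeLift u v h.huv c * algebraMap W O q := by
        simp only [map_add, map_mul, map_pow, nodeLift_mU, nodeLift_mV, nodeLift_mQ, ha', hb',
          map_sub, AlgHom.commutes]
        ring
      rw [hexp] at hα
      have hupow : u ^ k ∈ p1 := Ideal.pow_mem_of_mem _ h.hu k hk
      have hvpow : v ^ k ∈ p2 := Ideal.pow_mem_of_mem _ h.hv k hk
      -- q ∣ w₂ via p1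
      have hw2 : algebraMap W O w₂ * v ^ k ∈ maximalIdeal O ^ (k + 1) ⊔ p1 := by
        have e1 : algebraMap W O w₂ * v ^ k =
            (((algebraMap W O w₁ + nodeLift u v h.huv a') * u ^ k +
              (algebraMap W O w₂ + nodeLift u v h.huv b') * v ^ k +
              nodeLift u v h.huv c * algebraMap W O q) - nodeLift u v h.huv b' * v ^ k) +
            (-((algebraMap W O w₁ + nodeLift u v h.huv a') * u ^ k) -
              nodeLift u v h.huv c * algebraMap W O q) := by ring
        rw [e1]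
        refine Submodule.add_mem_sup (Ideal.sub_mem _ hα ?_) (Ideal.sub_mem _ ?_ ?_)
        · rw [pow_succ']
          exact Ideal.mul_mem_mul hb'm (Ideal.pow_mem_pow hvm k)
        · exact (Ideal.neg_mem_iff _).mpr (Ideal.mul_mem_left _ _ hupow)
        · exact Ideal.mul_mem_left _ _ h.hq1
      have hw1 : algebraMap W O w₁ * u ^ k ∈ maximalIdeal O ^ (k + 1) ⊔ p2 := by
        have e1 : algebraMap W O w₁ * u ^ k =
            (((algebraMap W O w₁ + nodeLift u v h.huv a') * u ^ k +
              (algebraMap W O w₂ + nodeLift u v h.huv b') * v ^ k +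
              nodeLift u v h.huv c * algebraMap W O q) - nodeLift u v h.huv a' * u ^ k) +
            (-((algebraMap W O w₂ + nodeLift u v h.huv b') * v ^ k) -
              nodeLift u v h.huv c * algebraMap W O q) := by ring
        rw [e1]
        refine Submodule.add_mem_sup (Ideal.sub_mem _ hα ?_) (Ideal.sub_mem _ ?_ ?_)
        · rw [pow_succ']
          exact Ideal.mul_mem_mul ha'm (Ideal.pow_mem_pow hum k)
        · exact (Ideal.neg_mem_iff _).mpr (Ideal.mul_mem_left _ _ hvpow)
        · exact Ideal.mul_mem_left _ _ h.hq2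
      obtain ⟨w₂', hw₂'⟩ := dvd_of_mul_pow_mem h.res p1 v h.hv1 h.max1 k w₂ hw2
      obtain ⟨w₁', hw₁'⟩ := dvd_of_mul_pow_mem h.res p2 u h.hu2 h.max2 k w₁ hw1
      have e2 : a * mU q e ^ k + b * mV q e ^ k + c * mQ q e =
          (a' * mU q e ^ k + b' * mV q e ^ k) +
          (algebraMap W (NodeModel q e) w₁' * mU q e ^ k +
            algebraMap W (NodeModel q e) w₂' * mV q e ^ k + c) * mQ q e := by
        have ea : a = a' + algebraMap W (NodeModel q e) w₁' * mQ q e := by
          rw [ha', hw₁', mQ, map_mul]; ring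
        have eb : b = b' + algebraMap W (NodeModel q e) w₂' * mQ q e := by
          rw [hb', hw₂', mQ, map_mul]; ring
        rw [ea, eb]; ring
      rw [e2]
      refine Submodule.add_mem_sup (Ideal.add_mem _ ?_ ?_)
        (Ideal.mul_mem_left _ _ (Ideal.subset_span rfl))
      · rw [pow_succ']
        exact Ideal.mul_mem_mul (hUV_le hw₁) (Ideal.pow_mem_pow (mU_mem q e) k)
      · rw [pow_succ']
        exact Ideal.mul_mem_mul (hUV_le hw₂) (Ideal.pow_mem_pow (mV_mem q e) k)

/-- **Universal property of a node `u v = q ^ e`.** -/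
theorem node_UP [IsNoetherianRing O] [IsDomain O] (h : NodeHyp W q e u v p1 p2)
    (hq0 : algebraMap W O q ≠ 0)
    {S : Type*} [CommRing S] [Algebra W S] (J : Ideal S) [IsAdicComplete J S]
    (hqJ : algebraMap W S q ∈ J) (a b : S) (ha : a ∈ J) (hb : b ∈ J)
    (hab : a * b = algebraMap W S q ^ e) :
    ∃! Φ : O →ₐ[W] S, Φ u = a ∧ Φ v = b ∧ (maximalIdeal O).map (Φ : O →+* S) ≤ J := by
  have hqm : algebraMap W O q ∈ maximalIdeal O := by
    rw [h.max3]; exact Ideal.mem_sup_left (Ideal.mem_sup_left (Ideal.subset_span rfl))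
  have hum : u ∈ maximalIdeal O := by
    rw [h.max3]; exact Ideal.mem_sup_left (Ideal.mem_sup_right (Ideal.subset_span rfl))
  have hvm : v ∈ maximalIdeal O := by
    rw [h.max3]; exact Ideal.mem_sup_right (Ideal.subset_span rfl)
  set φ : NodeModel q e →+* O :=
    ((nodeLift u v h.huv : NodeModel q e →ₐ[W] O) : NodeModel q e →+* O) with hφdef
  set ψ : NodeModel q e →+* S :=
    ((nodeLift a b hab : NodeModel q e →ₐ[W] S) : NodeModel q e →+* S) with hψdef
  have hφ : (nodeIdeal q e).map φ ≤ maximalIdeal O := map_nodeIdeal_le u v h.huv _ hqm hum hvm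
  have hψ : (nodeIdeal q e).map ψ ≤ J := map_nodeIdeal_le a b hab _ hqJ ha hb
  have hφq : φ (mQ q e) ≠ 0 := by
    simpa [hφdef] using hq0
  have H2 := h.H2
  obtain ⟨c, hemb⟩ := topEmb_of_modq φ (nodeIdeal q e) (maximalIdeal O) (mQ q e) (mQ_mem q e)
    hφq hφ H2
  have hemb1 : ∀ P : NodeModel q e, φ P ∈ maximalIdeal O → P ∈ nodeIdeal q e := by
    intro P hP
    have h' := H2 1 P (by rw [pow_one]; exact hP)
    rw [pow_one] at h'
    exact (sup_le le_rfl ((Ideal.span_singleton_le_iff_mem _).mpr (mQ_mem q e))) h'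
  obtain ⟨Φ, ⟨hΦφ, hΦn⟩, huniq⟩ :=
    exists_unique_lift (J := J) hemb hemb1 hψ (node_dense h.res h.huv h.max3)
  have hcomm : ∀ w : W, Φ (algebraMap W O w) = algebraMap W S w := by
    intro w
    have := congrArg (fun f : NodeModel q e →+* S => f (algebraMap W (NodeModel q e) w)) hΦφ
    simpa [hφdef, hψdef] using this
  refine ⟨{ Φ with commutes' := hcomm }, ⟨?_, ?_, hΦn⟩, ?_⟩
  · have := congrArg (fun f : NodeModel q e →+* S => f (mU q e)) hΦφ
    simpa [hφdef, hψdef] using this
  · have := congrArg (fun f : NodeModel q e →+* S => f (mV q e)) hΦφ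
    simpa [hφdef, hψdef] using this
  · rintro Φ' ⟨hΦ'u, hΦ'v, hΦ'n⟩
    have h1 : Φ'.comp (nodeLift u v h.huv) = nodeLift a b hab :=
      nodeModel_algHom_ext (by simp [hΦ'u]) (by simp [hΦ'v])
    have h2 : (Φ' : O →+* S).comp φ = ψ := by
      ext x
      exact congrArg (fun F : NodeModel q e →ₐ[W] S => F x) h1
    have h3 := huniq (Φ' : O →+* S) ⟨h2, hΦ'n⟩
    ext y
    exact congrArg (fun f : O →+* S => f y) h3

end Node

end Fermat.Agent.BR.NodeUP
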