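import Mathlib
import Fermat.Agent.BR.NodeLemma
import Fermat.Agent.BR.DiscUP
import Fermat.Agent.BR.NodeUP

/-!
# Program B (BADRED), block B7, node B7.2'b: the local rings of a blow-up chart of a node

Abstract commutative algebra, no modular objects, no completion, no valuation
(architect note A1 (3)+(4) to blueprint #604).

`O` is a noetherian local ring, an algebra over `W`, with the hypotheses `NodeUP.NodeHyp` of a node
`u v = q ^ m` (`W`, `q` are the `W'`, `π'` of note A1).  For `0 < a < m` the chart of the blow-up at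
position `a` is `B = O[X]`, `q ^ a X = u` (so `X v = q ^ (m - a)`); here `B` is ANY domain
containing `O` and generated by `X` (`ChartHyp.gen`), e.g. `Algebra.adjoin O {u / q ^ a}` inside the
fraction field (`chartHyp_adjoin`).  The only input about the exceptional component is a ring
homomorphism `ρ : B →+* k'[T]`, `k'` the residue field of `O`, with `ρ o = C (residue o)` and
`ρ X = T` ("reduction to the exceptional component"); `exists_rho_of_transcendental` produces it from
any ring homomorphism to a `k'`-algebra which is the residue map on `O` and sends `X` to a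
transcendental element.

* `nodeHyp_symm`, `nodeHyp_p1_eq`, `nodeHyp_p2_eq` : symmetry of `NodeHyp`, `p1 = (q, u)` (Nakayama);
* `ChartHyp.X_mul_v`, `exists_aeval`, `rho_aeval`;
* `ChartHyp.rhoOne` (reduction to the old component, `X ↦ 0`), `ker_rhoOne = (q, X)`,
  `ker_rho = (q, v)`, `ker_inf : ker ρ ⊓ ker rhoOne = (q)` : the special fibre of the chart is the
  union of the old component `Spec O/p1` (`X = 0`) and the affine line `Spec k'[X]` (`v = 0`),
  reduced;
* `ChartHyp.crossIdeal_isMaximal`, `ptIdeal_isMaximal`, `eq_crossIdeal`, `eq_ptIdeal` : the closed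
  points `(q, X, v)` and `(q, X - b)`, `b` a unit of `W`, both with residue field `W / q`
  (`exists_sub_mem_crossIdeal`, `dvd_of_mem_crossIdeal`, `exists_sub_mem_ptIdeal`,
  `dvd_of_mem_ptIdeal`);
* `ChartHyp.node_chart`, `nodeData_chart`, `node_chart_UP`, `node_chart_symm` : every localisation
  `L` of `B` at `(q, X, v)` satisfies `NodeUP.NodeHyp` and `NodeLemma.NodeData` with thickness
  `m - a` (a noetherian local domain: `loc_isNoetherianRing`, `loc_isDomain`), hence the universal
  property `NodeUP.node_UP`; the other crossing point of the exceptional component is the same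
  statement for the swapped node and has thickness `a`; the construction can be iterated because
  `L` satisfies `NodeHyp` again;
* `ChartHyp.disc_residueHyp`, `disc_isPrime`, `disc_q_ne_zero`, `disc_notMem`,
  `disc_maximalIdeal_eq`, `disc_chart_UP` : every localisation of `B` at `(q, X - b)` satisfies the
  hypotheses of `DiscUP.disc_UP` verbatim (a smooth point with parameter `t = X - b`).
-/

set_option autoImplicit false
set_option linter.unusedSectionVars false

namespace Fermat.Agent.BR.BlowUpPoints

open IsLocalRing Polynomial Fermat.Agent.BR.DiscUP Fermat.Agent.BR.NodeUP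

/-! ### Consequences of `NodeHyp` -/

section NodeHypLemmas

variable {W O : Type*} [CommRing W] [CommRing O] [Algebra W O] [IsLocalRing O]
  {q : W} {e : ℕ} {u v : O} {p1 p2 : Ideal O}

/-- the hypotheses at a node are symmetric in the two branches -/
theorem nodeHyp_symm (h : NodeHyp W q e u v p1 p2) : NodeHyp W q e v u p2 p1 where
  res := h.res
  prime1 := h.prime2
  prime2 := h.prime1
  hu := h.hv
  hv := h.hu
  hq1 := h.hq2
  hq2 := h.hq1
  hv1 := h.hu2
  hu2 := h.hv1
  max1 := h.max2
  max2 := h.max1
  max3 := by rw [h.max3, sup_assoc, sup_assoc, sup_comm (Ideal.span {u})]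
  he := h.he
  huv := by rw [mul_comm]; exact h.huv

/-- `p1 = (q, u)` (Nakayama) -/
theorem nodeHyp_p1_eq [IsNoetherianRing O] (h : NodeHyp W q e u v p1 p2) :
    p1 = Ideal.span {algebraMap W O q} ⊔ Ideal.span {u} := by
  apply le_antisymm
  · -- p1 ≤ (q,u) ⊔ (v) • p1
    have hfg : (p1 : Submodule O O).FG := IsNoetherian.noetherian p1
    have hjac : (Ideal.span {v} : Ideal O) ≤ Ideal.jacobson ⊥ := by
      rw [IsLocalRing.jacobson_eq_maximalIdeal ⊥ bot_ne_top, h.max1]
      exact le_sup_right
    refine Submodule.le_of_le_smul_of_le_jacobson_bot hfg hjac ?_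
    intro y hy
    have hyn : y ∈ maximalIdeal O := by
      rw [h.max1]; exact Ideal.mem_sup_left hy
    rw [h.max3] at hyn
    obtain ⟨z, hz, w, hw, rfl⟩ := Submodule.mem_sup.mp hyn
    obtain ⟨c, rfl⟩ := Ideal.mem_span_singleton'.mp hw
    have hzp : z ∈ p1 := by
      have hle : Ideal.span {algebraMap W O q} ⊔ Ideal.span {u} ≤ p1 :=
        sup_le ((Ideal.span_singleton_le_iff_mem _).mpr h.hq1)
          ((Ideal.span_singleton_le_iff_mem _).mpr h.hu)
      exact hle hz
    have hcv : c * v ∈ p1 := by
      have : c * v = (z + c * v) - z := by ring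
      rw [this]; exact p1.sub_mem hy hzp
    have hc : c ∈ p1 := by
      rcases Ideal.IsPrime.mem_or_mem h.prime1 hcv with hc | hv
      · exact hc
      · exact absurd hv h.hv1
    refine Submodule.mem_sup.mpr ⟨z, hz, c * v, ?_, rfl⟩
    rw [mul_comm]
    exact Submodule.smul_mem_smul (Ideal.mem_span_singleton_self v) hc
  · exact sup_le ((Ideal.span_singleton_le_iff_mem _).mpr h.hq1)
      ((Ideal.span_singleton_le_iff_mem _).mpr h.hu)

theorem nodeHyp_p2_eq [IsNoetherianRing O] (h : NodeHyp W q e u v p1 p2) :
    p2 = Ideal.span {algebraMap W O q} ⊔ Ideal.span {v} :=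
  nodeHyp_p1_eq (nodeHyp_symm h)

end NodeHypLemmas

/-! ### Localisation at a maximal ideal with residue field `W / q` -/

section Loc

variable {W B L : Type*} [CommRing W] [CommRing B] [CommRing L] [Algebra W B] [Algebra B L]
  [Algebra W L] [IsScalarTower W B L] [IsLocalRing L]

/-- `ResidueHyp` passes to the localisation at a maximal ideal -/
theorem residueHyp_of_atPrime (M : Ideal B) [hM : M.IsMaximal] [IsLocalization.AtPrime L M]
    (q : W) (hsurj : ∀ y : B, ∃ w : W, y - algebraMap W B w ∈ M)
    (hker : ∀ w : W, algebraMap W B w ∈ M → q ∣ w) : ResidueHyp W L q where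
  surj := fun y => by
    obtain ⟨⟨b, s⟩, hs⟩ := IsLocalization.surj M.primeCompl y
    obtain ⟨s', i, hi, hsi⟩ := hM.exists_inv s.2
    obtain ⟨w, hw⟩ := hsurj (b * s')
    refine ⟨w, ?_⟩
    have hmem : b - algebraMap W B w * s ∈ M := by
      have e : b - algebraMap W B w * s = b * i + (b * s' - algebraMap W B w) * s := by
        have : b = b * (s' * s + i) := by rw [hsi, mul_one]
        conv_lhs => rw [this]
        ring
      rw [e]
      exact Ideal.add_mem _ (Ideal.mul_mem_left _ _ hi) (Ideal.mul_mem_right _ _ hw)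
    have h1 : (y - algebraMap W L w) * algebraMap B L s ∈ maximalIdeal L := by
      have e : (y - algebraMap W L w) * algebraMap B L s =
          algebraMap B L (b - algebraMap W B w * s) := by
        rw [sub_mul, hs, IsScalarTower.algebraMap_apply W B L, map_sub, map_mul]
      rw [e]
      exact (IsLocalization.AtPrime.to_map_mem_maximal_iff L M _).mpr hmem
    have hu : IsUnit (algebraMap B L s) := IsLocalization.map_units L s
    obtain ⟨c, hc⟩ := hu.exists_right_inv
    have : y - algebraMap W L w = (y - algebraMap W L w) * algebraMap B L s * c := by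
      rw [mul_assoc, hc, mul_one]
    rw [this]
    exact Ideal.mul_mem_right _ _ h1
  ker := fun w hw => by
    rw [IsScalarTower.algebraMap_apply W B L,
      IsLocalization.AtPrime.to_map_mem_maximal_iff L M] at hw
    exact hker w hw

end Loc

/-! ### The chart -/

section Chart

variable {W O B : Type*} [CommRing W] [CommRing O] [CommRing B] [Algebra W O] [IsLocalRing O]
  [Algebra O B] [Algebra W B] [IsScalarTower W O B]

/-- The chart `B = O[X]`, `q ^ a X = u`, of the blow-up of a node `u v = q ^ m` at position `a`,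
together with the reduction `ρ` to the exceptional component. -/
structure ChartHyp (q : W) (m : ℕ) (u v : O) (p1 p2 : Ideal O) (a : ℕ) (X : B)
    (ρ : B →+* (ResidueField O)[X]) : Prop where
  node : NodeHyp W q m u v p1 p2
  hq0 : algebraMap W O q ≠ 0
  inj : Function.Injective (algebraMap O B)
  pos : 0 < a
  lt : a < m
  hX : algebraMap W B q ^ a * X = algebraMap O B u
  gen : Algebra.adjoin O {X} = ⊤
  rho_alg : ∀ o : O, ρ (algebraMap O B o) = C (residue O o)
  rho_X : ρ X = Polynomial.X

namespace ChartHyp

variable {q : W} {m : ℕ} {u v : O} {p1 p2 : Ideal O} {a : ℕ} {X : B}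
  {ρ : B →+* (ResidueField O)[X]}

theorem algebraMap_q (_h : ChartHyp q m u v p1 p2 a X ρ) :
    algebraMap O B (algebraMap W O q) = algebraMap W B q :=
  (IsScalarTower.algebraMap_apply W O B q).symm

theorem q_ne_zero (h : ChartHyp q m u v p1 p2 a X ρ) : algebraMap W B q ≠ 0 := by
  rw [← h.algebraMap_q]
  intro h0
  exact h.hq0 (h.inj (by rw [h0, map_zero]))

/-- `X v = q ^ (m - a)` -/
theorem X_mul_v [IsDomain B] (h : ChartHyp q m u v p1 p2 a X ρ) :
    X * algebraMap O B v = algebraMap W B q ^ (m - a) := by
  have h1 : algebraMap W B q ^ a * (X * algebraMap O B v) =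
      algebraMap W B q ^ a * algebraMap W B q ^ (m - a) := by
    rw [← mul_assoc, h.hX, ← map_mul, h.node.huv, map_pow, h.algebraMap_q, ← pow_add,
      Nat.add_sub_cancel' h.lt.le]
  exact mul_left_cancel₀ (pow_ne_zero _ h.q_ne_zero) h1

/-- every element of `B` is a polynomial in `X` -/
theorem exists_aeval (h : ChartHyp q m u v p1 p2 a X ρ) (y : B) :
    ∃ P : O[X], y = aeval X P := by
  have hy : y ∈ Algebra.adjoin O {X} := by rw [h.gen]; exact Algebra.mem_top
  rw [Algebra.adjoin_singleton_eq_range_aeval] at hy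
  obtain ⟨P, hP⟩ := hy
  exact ⟨P, hP.symm⟩

theorem aeval_surjective (h : ChartHyp q m u v p1 p2 a X ρ) :
    Function.Surjective (aeval X : O[X] →ₐ[O] B) := fun y => by
  obtain ⟨P, hP⟩ := h.exists_aeval y
  exact ⟨P, hP.symm⟩

/-- `ρ (P(X)) = P̄` -/
theorem rho_aeval (h : ChartHyp q m u v p1 p2 a X ρ) (P : O[X]) :
    ρ (aeval X P) = P.map (residue O) := by
  induction P using Polynomial.induction_on' with
  | add p r hp hr => rw [map_add, map_add, hp, hr, Polynomial.map_add]
  | monomial n o =>
    rw [aeval_monomial, map_mul, map_pow, h.rho_alg, h.rho_X, Polynomial.map_monomial,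
      ← C_mul_X_pow_eq_monomial]

/-- a relation `P(X) = 0` has constant term in `p1` (multiply by `v ^ deg P`) -/
theorem coeff_zero_mem [IsDomain B] (h : ChartHyp q m u v p1 p2 a X ρ) {P : O[X]}
    (hP : aeval X P = 0) : P.coeff 0 ∈ p1 := by
  set N := P.natDegree with hN
  set qO : O := algebraMap W O q with hqO
  have hXv : X * algebraMap O B v = algebraMap O B (qO ^ (m - a)) := by
    rw [h.X_mul_v, map_pow, h.algebraMap_q]
  have key : algebraMap O B
      (∑ i ∈ Finset.range (N + 1), P.coeff i * (qO ^ ((m - a) * i) * v ^ (N - i))) = 0 := by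
    have h1 : (∑ i ∈ Finset.range (N + 1), P.coeff i • X ^ i) * algebraMap O B v ^ N = 0 := by
      rw [← aeval_eq_sum_range, hP, zero_mul]
    rw [Finset.sum_mul] at h1
    rw [map_sum, ← h1]
    refine Finset.sum_congr rfl fun i hi => ?_
    have hi' : i ≤ N := Nat.lt_succ_iff.mp (Finset.mem_range.mp hi)
    have e1 : X ^ i * algebraMap O B v ^ N =
        algebraMap O B (qO ^ ((m - a) * i) * v ^ (N - i)) := by
      have e2 : N = i + (N - i) := (Nat.add_sub_cancel' hi').symm
      conv_lhs => rw [e2, pow_add, ← mul_assoc, ← mul_pow, hXv]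
      rw [map_mul, map_pow, map_pow, map_pow, ← pow_mul]
    rw [Algebra.smul_def, mul_assoc, e1, ← map_mul]
  have h0 : ∑ i ∈ Finset.range (N + 1), P.coeff i * (qO ^ ((m - a) * i) * v ^ (N - i)) = 0 :=
    h.inj (key.trans (map_zero _).symm)
  rw [Finset.sum_range_succ'] at h0
  have hma : 1 ≤ m - a := Nat.sub_pos_of_lt h.lt
  have hsum : ∑ i ∈ Finset.range N,
      P.coeff (i + 1) * (qO ^ ((m - a) * (i + 1)) * v ^ (N - (i + 1))) ∈ p1 := by
    refine Ideal.sum_mem _ fun i _ => ?_
    refine Ideal.mul_mem_left _ _ (Ideal.mul_mem_right _ _ ?_)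
    have : (m - a) * (i + 1) = (m - a) * (i + 1) - 1 + 1 :=
      (Nat.sub_add_cancel (Nat.mul_pos hma (Nat.succ_pos i))).symm
    rw [this, pow_succ]
    exact Ideal.mul_mem_left _ _ h.node.hq1
  have h2 : P.coeff 0 * v ^ N ∈ p1 := by
    have e3 : P.coeff 0 * v ^ N = - ∑ i ∈ Finset.range N,
        P.coeff (i + 1) * (qO ^ ((m - a) * (i + 1)) * v ^ (N - (i + 1))) := by
      have := h0
      simp only [Nat.mul_zero, pow_zero, one_mul, Nat.sub_zero] at this
      exact eq_neg_of_add_eq_zero_right this
    rw [e3]
    exact p1.neg_mem hsum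
  have hp := h.node.prime1
  rcases hp.mem_or_mem h2 with h3 | h3
  · exact h3
  · exact absurd (hp.mem_of_pow_mem _ h3) h.node.hv1

/-- the reduction to the old component `Spec O/p1`: `X ↦ 0` -/
noncomputable def rhoOne [IsDomain B] (h : ChartHyp q m u v p1 p2 a X ρ) : B →+* O ⧸ p1 :=
  RingHom.liftOfSurjective ((aeval X : O[X] →ₐ[O] B) : O[X] →+* B) h.aeval_surjective
    ⟨(Ideal.Quotient.mk p1).comp (Polynomial.constantCoeff), fun P hP => by
      rw [RingHom.mem_ker] at hP ⊢
      rw [RingHom.comp_apply, Ideal.Quotient.eq_zero_iff_mem, Polynomial.constantCoeff_apply]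
      exact h.coeff_zero_mem hP⟩

theorem rhoOne_aeval [IsDomain B] (h : ChartHyp q m u v p1 p2 a X ρ) (P : O[X]) :
    h.rhoOne (aeval X P) = Ideal.Quotient.mk p1 (P.coeff 0) := by
  have := RingHom.liftOfRightInverse_comp_apply
    ((aeval X : O[X] →ₐ[O] B) : O[X] →+* B) _
    (Function.surjInv_eq h.aeval_surjective)
    ⟨(Ideal.Quotient.mk p1).comp (Polynomial.constantCoeff), fun P hP => by
      rw [RingHom.mem_ker] at hP ⊢
      rw [RingHom.comp_apply, Ideal.Quotient.eq_zero_iff_mem, Polynomial.constantCoeff_apply]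
      exact h.coeff_zero_mem hP⟩ P
  exact this

theorem rhoOne_algebraMap [IsDomain B] (h : ChartHyp q m u v p1 p2 a X ρ) (o : O) :
    h.rhoOne (algebraMap O B o) = Ideal.Quotient.mk p1 o := by
  have := h.rhoOne_aeval (C o)
  rwa [aeval_C, coeff_C_zero] at this

theorem rhoOne_X [IsDomain B] (h : ChartHyp q m u v p1 p2 a X ρ) : h.rhoOne X = 0 := by
  have := h.rhoOne_aeval (Polynomial.X)
  rwa [aeval_X, coeff_X_zero, map_zero] at this

/-! ### The special fibre of the chart -/

/-- `p1 B ⊆ q B` -/
theorem algebraMap_mem_of_mem_p1 [IsNoetherianRing O] (h : ChartHyp q m u v p1 p2 a X ρ) {o : O}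
    (ho : o ∈ p1) : algebraMap O B o ∈ Ideal.span {algebraMap W B q} := by
  rw [nodeHyp_p1_eq h.node] at ho
  obtain ⟨z, hz, w, hw, rfl⟩ := Submodule.mem_sup.mp ho
  obtain ⟨c, rfl⟩ := Ideal.mem_span_singleton'.mp hz
  obtain ⟨d, rfl⟩ := Ideal.mem_span_singleton'.mp hw
  rw [map_add, map_mul, map_mul, h.algebraMap_q, ← h.hX]
  have ha : a = a - 1 + 1 := (Nat.sub_add_cancel h.pos).symm
  refine Ideal.add_mem _ (Ideal.mul_mem_left _ _ (Ideal.mem_span_singleton_self _)) ?_
  rw [ha, pow_succ]
  refine Ideal.mul_mem_left _ _ (Ideal.mul_mem_right _ _ (Ideal.mul_mem_left _ _ ?_))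
  exact Ideal.mem_span_singleton_self _

/-- `n B ⊆ (q, v) B` -/
theorem algebraMap_mem_of_mem_maximalIdeal [IsNoetherianRing O]
    (h : ChartHyp q m u v p1 p2 a X ρ) {o : O} (ho : o ∈ maximalIdeal O) :
    algebraMap O B o ∈ Ideal.span {algebraMap W B q, algebraMap O B v} := by
  rw [h.node.max1] at ho
  obtain ⟨z, hz, w, hw, rfl⟩ := Submodule.mem_sup.mp ho
  obtain ⟨d, rfl⟩ := Ideal.mem_span_singleton'.mp hw
  rw [map_add, map_mul]
  refine Ideal.add_mem _ ?_ (Ideal.mul_mem_left _ _ (Ideal.subset_span (by simp)))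
  exact Ideal.span_mono (by simp) (h.algebraMap_mem_of_mem_p1 hz)

/-- `n X ⊆ q B` -/
theorem algebraMap_mul_X_mem [IsNoetherianRing O] [IsDomain B]
    (h : ChartHyp q m u v p1 p2 a X ρ) {o : O} (ho : o ∈ maximalIdeal O) :
    algebraMap O B o * X ∈ Ideal.span {algebraMap W B q} := by
  rw [h.node.max1] at ho
  obtain ⟨z, hz, w, hw, rfl⟩ := Submodule.mem_sup.mp ho
  obtain ⟨d, rfl⟩ := Ideal.mem_span_singleton'.mp hw
  rw [map_add, map_mul, add_mul]
  refine Ideal.add_mem _ (Ideal.mul_mem_right _ _ (h.algebraMap_mem_of_mem_p1 hz)) ?_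
  rw [mul_assoc, mul_comm (algebraMap O B v) X, h.X_mul_v]
  have hma : m - a = m - a - 1 + 1 := (Nat.sub_add_cancel (Nat.sub_pos_of_lt h.lt)).symm
  rw [hma, pow_succ]
  exact Ideal.mul_mem_left _ _ (Ideal.mul_mem_left _ _ (Ideal.mem_span_singleton_self _))

theorem rho_q (h : ChartHyp q m u v p1 p2 a X ρ) : ρ (algebraMap W B q) = 0 := by
  rw [← h.algebraMap_q, h.rho_alg]
  have : algebraMap W O q ∈ maximalIdeal O := by
    rw [h.node.max3]
    exact Ideal.mem_sup_left (Ideal.mem_sup_left (Ideal.mem_span_singleton_self _))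
  rw [(residue_eq_zero_iff _).mpr this, map_zero]

theorem rho_v (h : ChartHyp q m u v p1 p2 a X ρ) : ρ (algebraMap O B v) = 0 := by
  rw [h.rho_alg]
  have : v ∈ maximalIdeal O := by
    rw [h.node.max3]
    exact Ideal.mem_sup_right (Ideal.mem_span_singleton_self _)
  rw [(residue_eq_zero_iff _).mpr this, map_zero]

theorem rhoOne_q [IsDomain B] (h : ChartHyp q m u v p1 p2 a X ρ) :
    h.rhoOne (algebraMap W B q) = 0 := by
  rw [← h.algebraMap_q, h.rhoOne_algebraMap, Ideal.Quotient.eq_zero_iff_mem]
  exact h.node.hq1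

/-- the old component of the special fibre of the chart is `X = 0` -/
theorem ker_rhoOne [IsNoetherianRing O] [IsDomain B] (h : ChartHyp q m u v p1 p2 a X ρ) :
    RingHom.ker h.rhoOne = Ideal.span {algebraMap W B q, X} := by
  apply le_antisymm
  · intro y hy
    obtain ⟨P, rfl⟩ := h.exists_aeval y
    rw [RingHom.mem_ker, h.rhoOne_aeval, Ideal.Quotient.eq_zero_iff_mem] at hy
    have e : aeval X P = aeval X P.divX * X + algebraMap O B (P.coeff 0) := by
      conv_lhs => rw [← Polynomial.divX_mul_X_add P]
      rw [map_add, map_mul, aeval_X, aeval_C]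
    rw [e]
    refine Ideal.add_mem _ (Ideal.mul_mem_left _ _ (Ideal.subset_span (by simp))) ?_
    exact Ideal.span_mono (by simp) (h.algebraMap_mem_of_mem_p1 hy)
  · rw [Ideal.span_le]
    intro y hy
    rcases hy with rfl | rfl
    · exact h.rhoOne_q
    · exact h.rhoOne_X

/-- the exceptional component of the special fibre of the chart is `v = 0` -/
theorem ker_rho [IsNoetherianRing O] (h : ChartHyp q m u v p1 p2 a X ρ) :
    RingHom.ker ρ = Ideal.span {algebraMap W B q, algebraMap O B v} := by
  apply le_antisymm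
  · intro y hy
    obtain ⟨P, rfl⟩ := h.exists_aeval y
    rw [RingHom.mem_ker, h.rho_aeval] at hy
    rw [aeval_eq_sum_range]
    refine Ideal.sum_mem _ fun i _ => ?_
    rw [Algebra.smul_def]
    refine Ideal.mul_mem_right _ _ (h.algebraMap_mem_of_mem_maximalIdeal ?_)
    rw [← residue_eq_zero_iff]
    have := congrArg (fun R => Polynomial.coeff R i) hy
    simpa using this
  · rw [Ideal.span_le]
    intro y hy
    rcases hy with rfl | rfl
    · exact h.rho_q
    · exact h.rho_v

/-- the special fibre of the chart is reduced: the two components meet in `(q)` -/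
theorem ker_inf [IsNoetherianRing O] [IsDomain B] (h : ChartHyp q m u v p1 p2 a X ρ) :
    RingHom.ker ρ ⊓ RingHom.ker h.rhoOne = Ideal.span {algebraMap W B q} := by
  apply le_antisymm
  · intro y hy
    obtain ⟨hy1, hy2⟩ := Ideal.mem_inf.mp hy
    obtain ⟨P, rfl⟩ := h.exists_aeval y
    rw [RingHom.mem_ker, h.rho_aeval] at hy1
    rw [RingHom.mem_ker, h.rhoOne_aeval, Ideal.Quotient.eq_zero_iff_mem] at hy2
    have hcoeff : ∀ i, P.coeff i ∈ maximalIdeal O := fun i => by
      rw [← residue_eq_zero_iff]
      have := congrArg (fun R => Polynomial.coeff R i) hy1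
      simpa using this
    rw [aeval_eq_sum_range]
    refine Ideal.sum_mem _ fun i _ => ?_
    rw [Algebra.smul_def]
    rcases Nat.eq_zero_or_pos i with rfl | hi
    · rw [pow_zero, mul_one]
      exact h.algebraMap_mem_of_mem_p1 hy2
    · have : i = i - 1 + 1 := (Nat.sub_add_cancel hi).symm
      rw [this, pow_succ', ← mul_assoc]
      exact Ideal.mul_mem_right _ _ (h.algebraMap_mul_X_mem (hcoeff _))
  · rw [Ideal.span_singleton_le_iff_mem]
    exact Ideal.mem_inf.mpr ⟨h.rho_q, h.rhoOne_q⟩

/-! ### The closed points of the special fibre of the chart -/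

/-- the crossing point of the old component and the exceptional component -/
def crossIdeal (q : W) (v : O) (X : B) : Ideal B :=
  Ideal.span {algebraMap W B q, X, algebraMap O B v}

/-- the point `X = b` of the exceptional component -/
def ptIdeal (O : Type*) [CommRing O] [Algebra O B] (q : W) (X : B) (b : W) : Ideal B :=
  Ideal.span {algebraMap W B q, X - algebraMap W B b}

/-- evaluation at the crossing point -/
noncomputable def chiCross (ρ : B →+* (ResidueField O)[X]) : B →+* ResidueField O :=
  (Polynomial.evalRingHom 0).comp ρ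

/-- evaluation at the point `X = b` -/
noncomputable def chiPt (ρ : B →+* (ResidueField O)[X]) (b : W) : B →+* ResidueField O :=
  (Polynomial.evalRingHom (residue O (algebraMap W O b))).comp ρ

theorem chiCross_algebraMap (h : ChartHyp q m u v p1 p2 a X ρ) (o : O) :
    chiCross ρ (algebraMap O B o) = residue O o := by
  simp [chiCross, h.rho_alg]

theorem chiPt_algebraMap (h : ChartHyp q m u v p1 p2 a X ρ) (b : W) (o : O) :
    chiPt ρ b (algebraMap O B o) = residue O o := by
  simp [chiPt, h.rho_alg]

theorem chiCross_surjective (h : ChartHyp q m u v p1 p2 a X ρ) :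
    Function.Surjective (chiCross (B := B) ρ) := fun z => by
  obtain ⟨o, rfl⟩ := residue_surjective z
  exact ⟨algebraMap O B o, h.chiCross_algebraMap o⟩

theorem chiPt_surjective (h : ChartHyp q m u v p1 p2 a X ρ) (b : W) :
    Function.Surjective (chiPt (B := B) ρ b) := fun z => by
  obtain ⟨o, rfl⟩ := residue_surjective z
  exact ⟨algebraMap O B o, h.chiPt_algebraMap b o⟩

theorem chiCross_aeval (h : ChartHyp q m u v p1 p2 a X ρ) (P : O[X]) :
    chiCross ρ (aeval X P) = residue O (P.coeff 0) := by
  rw [chiCross, RingHom.comp_apply, h.rho_aeval, coe_evalRingHom, ← coeff_zero_eq_eval_zero,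
    coeff_map]

theorem chiPt_aeval (h : ChartHyp q m u v p1 p2 a X ρ) (b : W) (P : O[X]) :
    chiPt ρ b (aeval X P) = residue O (P.eval (algebraMap W O b)) := by
  rw [chiPt, RingHom.comp_apply, h.rho_aeval, coe_evalRingHom, eval_map, eval₂_at_apply]

theorem ker_chiCross [IsNoetherianRing O] (h : ChartHyp q m u v p1 p2 a X ρ) :
    RingHom.ker (chiCross (B := B) ρ) = crossIdeal q v X := by
  apply le_antisymm
  · intro y hy
    obtain ⟨P, rfl⟩ := h.exists_aeval y
    rw [RingHom.mem_ker, h.chiCross_aeval, residue_eq_zero_iff] at hy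
    have e : aeval X P = aeval X P.divX * X + algebraMap O B (P.coeff 0) := by
      conv_lhs => rw [← Polynomial.divX_mul_X_add P]
      rw [map_add, map_mul, aeval_X, aeval_C]
    rw [e]
    refine Ideal.add_mem _ (Ideal.mul_mem_left _ _ (Ideal.subset_span (by simp))) ?_
    exact Ideal.span_mono (by intro z hz; rcases hz with rfl | rfl <;> simp)
      (h.algebraMap_mem_of_mem_maximalIdeal hy)
  · rw [crossIdeal, Ideal.span_le]
    intro y hy
    rcases hy with rfl | rfl | rfl
    · simp [chiCross, h.rho_q]
    · simp [chiCross, h.rho_X]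
    · simp [chiCross, h.rho_v]

theorem crossIdeal_isMaximal [IsNoetherianRing O] (h : ChartHyp q m u v p1 p2 a X ρ) :
    (crossIdeal q v X : Ideal B).IsMaximal := by
  rw [← h.ker_chiCross]
  exact RingHom.ker_isMaximal_of_surjective _ h.chiCross_surjective

/-- `v ∈ (q, X - b)` for a unit `b` -/
theorem v_mem_ptIdeal [IsDomain B] (h : ChartHyp q m u v p1 p2 a X ρ) {b : W} (hb : IsUnit b) :
    algebraMap O B v ∈ ptIdeal O q X b := by
  have hbB : IsUnit (algebraMap W B b) := hb.map _
  have e : algebraMap W B b * algebraMap O B v =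
      algebraMap W B q ^ (m - a) - (X - algebraMap W B b) * algebraMap O B v := by
    rw [← h.X_mul_v]; ring
  have h1 : algebraMap W B b * algebraMap O B v ∈ ptIdeal O q X b := by
    rw [e]
    refine Ideal.sub_mem _ ?_ (Ideal.mul_mem_right _ _ (Ideal.subset_span (by simp)))
    have hma : m - a = m - a - 1 + 1 := (Nat.sub_add_cancel (Nat.sub_pos_of_lt h.lt)).symm
    rw [hma, pow_succ]
    exact Ideal.mul_mem_left _ _ (Ideal.subset_span (by simp))
  obtain ⟨c, hc⟩ := hbB.exists_left_inv
  have : algebraMap O B v = c * (algebraMap W B b * algebraMap O B v) := by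
    rw [← mul_assoc, hc, one_mul]
  rw [this]
  exact Ideal.mul_mem_left _ _ h1

theorem ker_chiPt [IsNoetherianRing O] [IsDomain B] (h : ChartHyp q m u v p1 p2 a X ρ) {b : W}
    (hb : IsUnit b) : RingHom.ker (chiPt (B := B) ρ b) = ptIdeal O q X b := by
  apply le_antisymm
  · intro y hy
    obtain ⟨P, rfl⟩ := h.exists_aeval y
    rw [RingHom.mem_ker, h.chiPt_aeval, residue_eq_zero_iff] at hy
    have h1 : aeval X P - aeval (algebraMap W B b) P ∈ ptIdeal O q X b := by
      have := Polynomial.sub_dvd_eval_sub X (algebraMap W B b) (P.map (algebraMap O B))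
      rw [eval_map_algebraMap, eval_map_algebraMap] at this
      obtain ⟨c, hc⟩ := this
      rw [hc]
      exact Ideal.mul_mem_right _ _ (Ideal.subset_span (by simp))
    have h2 : aeval (algebraMap W B b) P = algebraMap O B (P.eval (algebraMap W O b)) := by
      rw [IsScalarTower.algebraMap_apply W O B, aeval_algebraMap_apply, coe_aeval_eq_eval]
    have h3 : algebraMap O B (P.eval (algebraMap W O b)) ∈ ptIdeal O q X b := by
      have h4 := h.algebraMap_mem_of_mem_maximalIdeal hy
      have hle : Ideal.span {algebraMap W B q, algebraMap O B v} ≤ ptIdeal O q X b := by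
        rw [Ideal.span_le]
        intro z hz
        rcases hz with rfl | rfl
        · exact Ideal.subset_span (by simp)
        · exact h.v_mem_ptIdeal hb
      exact hle h4
    have : aeval X P = (aeval X P - aeval (algebraMap W B b) P) +
        algebraMap O B (P.eval (algebraMap W O b)) := by rw [h2]; ring
    rw [this]
    exact Ideal.add_mem _ h1 h3
  · rw [ptIdeal, Ideal.span_le]
    intro y hy
    rcases hy with rfl | rfl
    · simp [chiPt, h.rho_q]
    · have : ρ (algebraMap W B b) = C (residue O (algebraMap W O b)) := by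
        rw [IsScalarTower.algebraMap_apply W O B, h.rho_alg]
      simp [chiPt, h.rho_X, this]

theorem ptIdeal_isMaximal [IsNoetherianRing O] [IsDomain B] (h : ChartHyp q m u v p1 p2 a X ρ)
    {b : W} (hb : IsUnit b) : (ptIdeal O q X b : Ideal B).IsMaximal := by
  rw [← h.ker_chiPt hb]
  exact RingHom.ker_isMaximal_of_surjective _ (h.chiPt_surjective b)

/-- a proper ideal containing `q`, `X`, `v` is the crossing point -/
theorem eq_crossIdeal [IsNoetherianRing O] (h : ChartHyp q m u v p1 p2 a X ρ) {I : Ideal B}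
    (hI : I ≠ ⊤) (hq : algebraMap W B q ∈ I) (hX : X ∈ I) (hv : algebraMap O B v ∈ I) :
    I = crossIdeal q v X := by
  refine (h.crossIdeal_isMaximal.eq_of_le hI ?_).symm
  rw [crossIdeal, Ideal.span_le]
  intro z hz
  rcases hz with rfl | rfl | rfl
  · exact hq
  · exact hX
  · exact hv

/-- a proper ideal containing `q` and `X - b` is the point `X = b` -/
theorem eq_ptIdeal [IsNoetherianRing O] [IsDomain B] (h : ChartHyp q m u v p1 p2 a X ρ)
    {b : W} (hb : IsUnit b) {I : Ideal B}
    (hI : I ≠ ⊤) (hq : algebraMap W B q ∈ I) (hX : X - algebraMap W B b ∈ I) :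
    I = ptIdeal O q X b := by
  refine ((h.ptIdeal_isMaximal hb).eq_of_le hI ?_).symm
  rw [ptIdeal, Ideal.span_le]
  intro z hz
  rcases hz with rfl | rfl
  · exact hq
  · exact hX

/-- every element of `B` is congruent to a constant of `W` modulo the crossing point -/
theorem exists_sub_mem_crossIdeal [IsNoetherianRing O] (h : ChartHyp q m u v p1 p2 a X ρ)
    (y : B) : ∃ w : W, y - algebraMap W B w ∈ crossIdeal q v X := by
  obtain ⟨o, ho⟩ := residue_surjective (chiCross ρ y)
  obtain ⟨w, hw⟩ := h.node.res.surj o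
  refine ⟨w, ?_⟩
  rw [← h.ker_chiCross, RingHom.mem_ker, map_sub, IsScalarTower.algebraMap_apply W O B,
    h.chiCross_algebraMap, ← ho, ← map_sub, residue_eq_zero_iff]
  exact hw

theorem dvd_of_mem_crossIdeal [IsNoetherianRing O] (h : ChartHyp q m u v p1 p2 a X ρ) {w : W}
    (hw : algebraMap W B w ∈ crossIdeal q v X) : q ∣ w := by
  rw [← h.ker_chiCross, RingHom.mem_ker, IsScalarTower.algebraMap_apply W O B,
    h.chiCross_algebraMap, residue_eq_zero_iff] at hw
  exact h.node.res.ker w hw

/-- every element of `B` is congruent to a constant of `W` modulo the point `X = b` -/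
theorem exists_sub_mem_ptIdeal [IsNoetherianRing O] [IsDomain B]
    (h : ChartHyp q m u v p1 p2 a X ρ) {b : W} (hb : IsUnit b)
    (y : B) : ∃ w : W, y - algebraMap W B w ∈ ptIdeal O q X b := by
  obtain ⟨o, ho⟩ := residue_surjective (chiPt ρ b y)
  obtain ⟨w, hw⟩ := h.node.res.surj o
  refine ⟨w, ?_⟩
  rw [← h.ker_chiPt hb, RingHom.mem_ker, map_sub, IsScalarTower.algebraMap_apply W O B,
    h.chiPt_algebraMap, ← ho, ← map_sub, residue_eq_zero_iff]
  exact hw

theorem dvd_of_mem_ptIdeal [IsNoetherianRing O] [IsDomain B]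
    (h : ChartHyp q m u v p1 p2 a X ρ) {b : W} (hb : IsUnit b) {w : W}
    (hw : algebraMap W B w ∈ ptIdeal O q X b) : q ∣ w := by
  rw [← h.ker_chiPt hb, RingHom.mem_ker, IsScalarTower.algebraMap_apply W O B,
    h.chiPt_algebraMap, residue_eq_zero_iff] at hw
  exact h.node.res.ker w hw

theorem isNoetherianRing [IsNoetherianRing O] (h : ChartHyp q m u v p1 p2 a X ρ) :
    IsNoetherianRing B :=
  isNoetherianRing_of_surjective O[X] B ((aeval X : O[X] →ₐ[O] B) : O[X] →+* B)
    h.aeval_surjective

/-! ### The local rings of the chart -/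

section Localisations

variable {L : Type*} [CommRing L] [Algebra B L] [Algebra W L] [IsScalarTower W B L]

omit [IsLocalRing O] [Algebra O B] [Algebra W B] [Algebra W O] [IsScalarTower W O B]
  [Algebra W L] [IsScalarTower W B L] in
/-- contraction of the extension of a prime contained in the centre of the localisation -/
theorem mem_of_algebraMap_mem_map (M I : Ideal B) [M.IsPrime] [IsLocalization.AtPrime L M]
    (hI : I.IsPrime) (hle : I ≤ M) {x : B} (hx : algebraMap B L x ∈ I.map (algebraMap B L)) :
    x ∈ I := by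
  have hd : Disjoint (M.primeCompl : Set B) I :=
    Set.disjoint_left.mpr fun y hy hyI => hy (hle hyI)
  have := IsLocalization.under_map_of_isPrime_disjoint M.primeCompl L hI hd
  rw [← this]
  exact Ideal.mem_comap.mpr hx

omit [IsLocalRing O] [Algebra O B] [Algebra W B] [Algebra W O] [IsScalarTower W O B]
  [Algebra W L] [IsScalarTower W B L] in
theorem isPrime_map_of_le (M I : Ideal B) [M.IsPrime] [IsLocalization.AtPrime L M]
    (hI : I.IsPrime) (hle : I ≤ M) : (I.map (algebraMap B L)).IsPrime :=
  IsLocalization.isPrime_of_isPrime_disjoint M.primeCompl L I hI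
    (Set.disjoint_left.mpr fun _ hy hyI => hy (hle hyI))

theorem span_qX_isPrime [IsNoetherianRing O] [IsDomain B] (h : ChartHyp q m u v p1 p2 a X ρ) :
    (Ideal.span {algebraMap W B q, X} : Ideal B).IsPrime := by
  rw [← h.ker_rhoOne]
  have := h.node.prime1
  exact RingHom.ker_isPrime _

theorem span_qv_isPrime [IsNoetherianRing O] (h : ChartHyp q m u v p1 p2 a X ρ) :
    (Ideal.span {algebraMap W B q, algebraMap O B v} : Ideal B).IsPrime := by
  rw [← h.ker_rho]
  exact RingHom.ker_isPrime _

theorem span_qX_le_crossIdeal :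
    (Ideal.span {algebraMap W B q, X} : Ideal B) ≤ crossIdeal q v X := by
  rw [crossIdeal]
  exact Ideal.span_mono (by intro z hz; rcases hz with rfl | rfl <;> simp)

theorem span_qv_le_crossIdeal :
    (Ideal.span {algebraMap W B q, algebraMap O B v} : Ideal B) ≤ crossIdeal q v X := by
  rw [crossIdeal]
  exact Ideal.span_mono (by intro z hz; rcases hz with rfl | rfl <;> simp)

theorem crossIdeal_eq_sup_v :
    (crossIdeal q v X : Ideal B) =
      Ideal.span {algebraMap W B q, X} ⊔ Ideal.span {algebraMap O B v} := by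
  rw [crossIdeal, ← Ideal.span_union]
  congr 1
  ext z
  simp only [Set.mem_insert_iff, Set.mem_singleton_iff, Set.union_singleton]
  tauto

theorem crossIdeal_eq_sup_X :
    (crossIdeal q v X : Ideal B) =
      Ideal.span {algebraMap W B q, algebraMap O B v} ⊔ Ideal.span {X} := by
  rw [crossIdeal, ← Ideal.span_union]
  congr 1
  ext z
  simp only [Set.mem_insert_iff, Set.mem_singleton_iff, Set.union_singleton]
  tauto

theorem crossIdeal_eq_sup_sup :
    (crossIdeal q v X : Ideal B) = Ideal.span {algebraMap W B q} ⊔ Ideal.span {X} ⊔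
      Ideal.span {algebraMap O B v} := by
  rw [crossIdeal, ← Ideal.span_union, ← Ideal.span_union]
  congr 1
  ext z
  simp only [Set.mem_insert_iff, Set.mem_singleton_iff, Set.union_singleton]
  tauto

/-- **The new crossing point.**  The localisation of the chart at `(q, X, v)` is a node
`X v = q ^ (m - a)`: it satisfies the hypotheses of `NodeUP.node_UP`. -/
theorem node_chart [IsNoetherianRing O] [IsDomain B] [IsLocalRing L]
    (h : ChartHyp q m u v p1 p2 a X ρ) [(crossIdeal q v X : Ideal B).IsPrime]
    [IsLocalization.AtPrime L (crossIdeal q v X : Ideal B)] :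
    NodeHyp W q (m - a) (algebraMap B L X) (algebraMap B L (algebraMap O B v))
      ((Ideal.span {algebraMap W B q, X}).map (algebraMap B L))
      ((Ideal.span {algebraMap W B q, algebraMap O B v}).map (algebraMap B L)) := by
  have hmaxI := h.crossIdeal_isMaximal
  have hqL : algebraMap W L q = algebraMap B L (algebraMap W B q) :=
    IsScalarTower.algebraMap_apply W B L q
  have hmaxL : maximalIdeal L = (crossIdeal q v X : Ideal B).map (algebraMap B L) :=
    (IsLocalization.AtPrime.map_eq_maximalIdeal (crossIdeal q v X) L).symm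
  refine
    { res := residueHyp_of_atPrime (crossIdeal q v X) q h.exists_sub_mem_crossIdeal
        (fun w => h.dvd_of_mem_crossIdeal)
      prime1 := isPrime_map_of_le (crossIdeal q v X) _ h.span_qX_isPrime span_qX_le_crossIdeal
      prime2 := isPrime_map_of_le (crossIdeal q v X) _ h.span_qv_isPrime span_qv_le_crossIdeal
      hu := Ideal.mem_map_of_mem _ (Ideal.subset_span (by simp))
      hv := Ideal.mem_map_of_mem _ (Ideal.subset_span (by simp))
      hq1 := by rw [hqL]; exact Ideal.mem_map_of_mem _ (Ideal.subset_span (by simp))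
      hq2 := by rw [hqL]; exact Ideal.mem_map_of_mem _ (Ideal.subset_span (by simp))
      hv1 := ?_
      hu2 := ?_
      max1 := ?_
      max2 := ?_
      max3 := ?_
      he := Nat.sub_pos_of_lt h.lt
      huv := by rw [← map_mul, h.X_mul_v, map_pow, hqL] }
  · intro hv
    have := mem_of_algebraMap_mem_map (crossIdeal q v X) _ h.span_qX_isPrime
      span_qX_le_crossIdeal hv
    rw [← h.ker_rhoOne, RingHom.mem_ker, h.rhoOne_algebraMap,
      Ideal.Quotient.eq_zero_iff_mem] at this
    exact h.node.hv1 this
  · intro hX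
    have := mem_of_algebraMap_mem_map (crossIdeal q v X) _ h.span_qv_isPrime
      span_qv_le_crossIdeal hX
    rw [← h.ker_rho, RingHom.mem_ker, h.rho_X] at this
    exact Polynomial.X_ne_zero this
  · rw [hmaxL, crossIdeal_eq_sup_v, Ideal.map_sup,
      Ideal.map_span (algebraMap B L) {algebraMap O B v}, Set.image_singleton]
  · rw [hmaxL, crossIdeal_eq_sup_X, Ideal.map_sup, Ideal.map_span (algebraMap B L) {X},
      Set.image_singleton]
  · rw [hmaxL, crossIdeal_eq_sup_sup, Ideal.map_sup, Ideal.map_sup,
      Ideal.map_span (algebraMap B L) {algebraMap O B v},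
      Ideal.map_span (algebraMap B L) {X}, Ideal.map_span (algebraMap B L) {algebraMap W B q},
      Set.image_singleton, Set.image_singleton, Set.image_singleton, hqL]

/-- the new crossing point also satisfies `NodeLemma.NodeData` (reduced special fibre) -/
theorem nodeData_chart [IsNoetherianRing O] [IsDomain B] [IsLocalRing L]
    (h : ChartHyp q m u v p1 p2 a X ρ) [(crossIdeal q v X : Ideal B).IsPrime]
    [IsLocalization.AtPrime L (crossIdeal q v X : Ideal B)] :
    NodeLemma.NodeData (algebraMap W L q) (algebraMap B L X)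
      (algebraMap B L (algebraMap O B v))
      ((Ideal.span {algebraMap W B q, X}).map (algebraMap B L))
      ((Ideal.span {algebraMap W B q, algebraMap O B v}).map (algebraMap B L)) := by
  have hn := h.node_chart (L := L)
  refine ⟨?_, hn.hu, hn.hv, hn.max1, hn.max2⟩
  have hd1 : Disjoint ((crossIdeal q v X : Ideal B).primeCompl : Set B)
      (Ideal.span {algebraMap W B q, X} : Ideal B) :=
    Set.disjoint_left.mpr fun y hy hyI => hy (span_qX_le_crossIdeal hyI)
  have hd2 : Disjoint ((crossIdeal q v X : Ideal B).primeCompl : Set B)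
      (Ideal.span {algebraMap W B q, algebraMap O B v} : Ideal B) :=
    Set.disjoint_left.mpr fun y hy hyI => hy (span_qv_le_crossIdeal hyI)
  rw [← IsLocalization.map_under (crossIdeal q v X : Ideal B).primeCompl L
    (Ideal.map (algebraMap B L) (Ideal.span {algebraMap W B q, X}) ⊓
      Ideal.map (algebraMap B L) (Ideal.span {algebraMap W B q, algebraMap O B v})),
    Ideal.under_def, Ideal.comap_inf, ← Ideal.under_def, ← Ideal.under_def,
    IsLocalization.under_map_of_isPrime_disjoint _ L h.span_qX_isPrime hd1,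
    IsLocalization.under_map_of_isPrime_disjoint _ L h.span_qv_isPrime hd2,
    ← h.ker_rhoOne, ← h.ker_rho, inf_comm, h.ker_inf, Ideal.map_span, Set.image_singleton,
    IsScalarTower.algebraMap_apply W B L]

omit [Algebra W L] [IsScalarTower W B L] in
theorem loc_isNoetherianRing [IsNoetherianRing O] (h : ChartHyp q m u v p1 p2 a X ρ)
    (M : Ideal B) [M.IsPrime] [IsLocalization.AtPrime L M] : IsNoetherianRing L :=
  IsLocalization.isNoetherianRing M.primeCompl L h.isNoetherianRing

omit [IsLocalRing O] [Algebra O B] [Algebra W B] [Algebra W O] [IsScalarTower W O B]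
  [Algebra W L] [IsScalarTower W B L] in
theorem loc_isDomain [IsDomain B] (M : Ideal B) [M.IsPrime] [IsLocalization.AtPrime L M] :
    IsDomain L :=
  IsLocalization.isDomain_of_atPrime L M

omit [IsLocalRing O] [Algebra O B] [Algebra W B] [Algebra W O] [IsScalarTower W O B]
  [Algebra W L] [IsScalarTower W B L] in
theorem loc_injective [IsDomain B] (M : Ideal B) [M.IsPrime] [IsLocalization.AtPrime L M] :
    Function.Injective (algebraMap B L) :=
  IsLocalization.injective L M.primeCompl_le_nonZeroDivisors

/-- **Universal property of the new crossing point** (`NodeUP.node_UP` for the chart). -/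
theorem node_chart_UP [IsNoetherianRing O] [IsDomain B] [IsLocalRing L]
    (h : ChartHyp q m u v p1 p2 a X ρ) [(crossIdeal q v X : Ideal B).IsPrime]
    [IsLocalization.AtPrime L (crossIdeal q v X : Ideal B)]
    {S : Type*} [CommRing S] [Algebra W S] (J : Ideal S) [IsAdicComplete J S]
    (hqJ : algebraMap W S q ∈ J) (a' b' : S) (ha : a' ∈ J) (hb : b' ∈ J)
    (hab : a' * b' = algebraMap W S q ^ (m - a)) :
    ∃! Φ : L →ₐ[W] S, Φ (algebraMap B L X) = a' ∧ Φ (algebraMap B L (algebraMap O B v)) = b' ∧
      (maximalIdeal L).map (Φ : L →+* S) ≤ J := by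
  have := h.loc_isNoetherianRing (L := L) (crossIdeal q v X)
  have := loc_isDomain (L := L) (crossIdeal q v X : Ideal B)
  have hq0 : algebraMap W L q ≠ 0 := by
    rw [IsScalarTower.algebraMap_apply W B L]
    intro h0
    exact h.q_ne_zero (loc_injective (L := L) (crossIdeal q v X : Ideal B)
      (by rw [h0, map_zero]))
  exact node_UP (h.node_chart (L := L)) hq0 J hqJ a' b' ha hb hab

/-- **The other crossing point.**  For the chart `O[X']`, `q ^ (m - a) X' = v`, of the swapped node
(`nodeHyp_symm`) the crossing point `(q, X', u)` is a node `X' u = q ^ a` of thickness `a`. -/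
theorem node_chart_symm [IsNoetherianRing O] [IsDomain B] [IsLocalRing L]
    (h : ChartHyp q m v u p2 p1 (m - a) X ρ) (ha : a ≤ m)
    [(crossIdeal q u X : Ideal B).IsPrime]
    [IsLocalization.AtPrime L (crossIdeal q u X : Ideal B)] :
    NodeHyp W q a (algebraMap B L X) (algebraMap B L (algebraMap O B u))
      ((Ideal.span {algebraMap W B q, X}).map (algebraMap B L))
      ((Ideal.span {algebraMap W B q, algebraMap O B u}).map (algebraMap B L)) := by
  have := h.node_chart (L := L)
  rwa [Nat.sub_sub_self ha] at this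

/-! ### The points `X = b` of the exceptional component -/

theorem X_notMem_ptIdeal [IsNoetherianRing O] [IsDomain B] (h : ChartHyp q m u v p1 p2 a X ρ)
    {b : W} (hb : IsUnit b) : X ∉ ptIdeal O q X b := by
  intro hX
  have hbB : algebraMap W B b ∈ ptIdeal O q X b := by
    have : algebraMap W B b = X - (X - algebraMap W B b) := by ring
    rw [this]
    exact Ideal.sub_mem _ hX (Ideal.subset_span (by simp))
  exact (h.ptIdeal_isMaximal hb).ne_top
    (Ideal.eq_top_of_isUnit_mem _ hbB (hb.map (algebraMap W B)))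

theorem span_qv_le_ptIdeal [IsDomain B] (h : ChartHyp q m u v p1 p2 a X ρ)
    {b : W} (hb : IsUnit b) :
    (Ideal.span {algebraMap W B q, algebraMap O B v} : Ideal B) ≤ ptIdeal O q X b := by
  rw [Ideal.span_le]
  intro z hz
  rcases hz with rfl | rfl
  · exact Ideal.subset_span (by simp)
  · exact h.v_mem_ptIdeal hb

/-- in the local ring of the point `X = b` the ideal `(q)` is the exceptional component -/
theorem span_q_eq_map [IsNoetherianRing O] [IsDomain B] (h : ChartHyp q m u v p1 p2 a X ρ)
    {b : W} (hb : IsUnit b) [(ptIdeal O q X b : Ideal B).IsPrime]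
    [IsLocalization.AtPrime L (ptIdeal O q X b : Ideal B)] :
    (Ideal.span {algebraMap W L q} : Ideal L) =
      (Ideal.span {algebraMap W B q, algebraMap O B v}).map (algebraMap B L) := by
  have hqL : algebraMap W L q = algebraMap B L (algebraMap W B q) :=
    IsScalarTower.algebraMap_apply W B L q
  apply le_antisymm
  · rw [Ideal.span_singleton_le_iff_mem, hqL]
    exact Ideal.mem_map_of_mem _ (Ideal.subset_span (by simp))
  · rw [Ideal.map_span, Ideal.span_le]
    rintro _ ⟨z, hz, rfl⟩
    rcases hz with rfl | rfl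
    · rw [← hqL]; exact Ideal.mem_span_singleton_self _
    · have hu : IsUnit (algebraMap B L X) :=
        IsLocalization.map_units L
          (⟨X, h.X_notMem_ptIdeal hb⟩ : (ptIdeal O q X b : Ideal B).primeCompl)
      obtain ⟨c, hc⟩ := hu.exists_left_inv
      have e : algebraMap B L (algebraMap O B v) =
          c * algebraMap W L q ^ (m - a) := by
        rw [hqL, ← map_pow, ← h.X_mul_v, map_mul, ← mul_assoc, hc, one_mul]
      have hma : m - a = m - a - 1 + 1 := (Nat.sub_add_cancel (Nat.sub_pos_of_lt h.lt)).symm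
      rw [SetLike.mem_coe, e, hma, pow_succ]
      exact Ideal.mul_mem_left _ _ (Ideal.mul_mem_left _ _ (Ideal.mem_span_singleton_self _))

theorem disc_residueHyp [IsNoetherianRing O] [IsDomain B] [IsLocalRing L]
    (h : ChartHyp q m u v p1 p2 a X ρ)
    {b : W} (hb : IsUnit b) [(ptIdeal O q X b : Ideal B).IsPrime]
    [IsLocalization.AtPrime L (ptIdeal O q X b : Ideal B)] : ResidueHyp W L q := by
  have := h.ptIdeal_isMaximal hb
  exact residueHyp_of_atPrime (ptIdeal O q X b) q (h.exists_sub_mem_ptIdeal hb)
    (fun w => h.dvd_of_mem_ptIdeal hb)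

theorem disc_isPrime [IsNoetherianRing O] [IsDomain B]
    (h : ChartHyp q m u v p1 p2 a X ρ)
    {b : W} (hb : IsUnit b) [(ptIdeal O q X b : Ideal B).IsPrime]
    [IsLocalization.AtPrime L (ptIdeal O q X b : Ideal B)] :
    (Ideal.span {algebraMap W L q} : Ideal L).IsPrime := by
  rw [h.span_q_eq_map hb]
  exact isPrime_map_of_le (ptIdeal O q X b) _ h.span_qv_isPrime (h.span_qv_le_ptIdeal hb)

theorem disc_q_ne_zero [IsDomain B]
    (h : ChartHyp q m u v p1 p2 a X ρ)
    {b : W} [(ptIdeal O q X b : Ideal B).IsPrime]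
    [IsLocalization.AtPrime L (ptIdeal O q X b : Ideal B)] : algebraMap W L q ≠ 0 := by
  rw [IsScalarTower.algebraMap_apply W B L]
  intro h0
  exact h.q_ne_zero (loc_injective (L := L) (ptIdeal O q X b : Ideal B) (by rw [h0, map_zero]))

theorem disc_notMem [IsNoetherianRing O] [IsDomain B]
    (h : ChartHyp q m u v p1 p2 a X ρ)
    {b : W} (hb : IsUnit b) [(ptIdeal O q X b : Ideal B).IsPrime]
    [IsLocalization.AtPrime L (ptIdeal O q X b : Ideal B)] :
    algebraMap B L (X - algebraMap W B b) ∉ (Ideal.span {algebraMap W L q} : Ideal L) := by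
  rw [h.span_q_eq_map hb]
  intro ht
  have := mem_of_algebraMap_mem_map (ptIdeal O q X b) _ h.span_qv_isPrime
    (h.span_qv_le_ptIdeal hb) ht
  rw [← h.ker_rho, RingHom.mem_ker, map_sub, h.rho_X, IsScalarTower.algebraMap_apply W O B,
    h.rho_alg] at this
  exact Polynomial.X_sub_C_ne_zero _ this

theorem disc_maximalIdeal_eq [IsLocalRing L]
    {b : W} [(ptIdeal O q X b : Ideal B).IsPrime]
    [IsLocalization.AtPrime L (ptIdeal O q X b : Ideal B)] :
    maximalIdeal L = Ideal.span {algebraMap W L q} ⊔
      Ideal.span {algebraMap B L (X - algebraMap W B b)} := by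
  rw [← IsLocalization.AtPrime.map_eq_maximalIdeal (ptIdeal O q X b : Ideal B) L, ptIdeal,
    Ideal.span_insert, Ideal.map_sup, Ideal.map_span, Ideal.map_span, Set.image_singleton,
    Set.image_singleton, IsScalarTower.algebraMap_apply W B L]

/-- **Universal property of the point `X = b`** (`DiscUP.disc_UP` for the chart): the local ring
of the chart at `(q, X - b)` is a smooth point with parameter `t = X - b`. -/
theorem disc_chart_UP [IsNoetherianRing O] [IsDomain B] [IsLocalRing L]
    (h : ChartHyp q m u v p1 p2 a X ρ)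
    {b : W} (hb : IsUnit b) [(ptIdeal O q X b : Ideal B).IsPrime]
    [IsLocalization.AtPrime L (ptIdeal O q X b : Ideal B)]
    {S : Type*} [CommRing S] [Algebra W S] (J : Ideal S) [IsAdicComplete J S]
    (hqJ : algebraMap W S q ∈ J) (t₀ : S) (ht₀ : t₀ ∈ J) :
    ∃! Φ : L →ₐ[W] S, Φ (algebraMap B L (X - algebraMap W B b)) = t₀ ∧
      (maximalIdeal L).map (Φ : L →+* S) ≤ J := by
  have := h.loc_isNoetherianRing (L := L) (ptIdeal O q X b)
  have := loc_isDomain (L := L) (ptIdeal O q X b : Ideal B)
  have := h.disc_isPrime (L := L) hb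
  exact disc_UP (h.disc_residueHyp (L := L) hb) (h.disc_q_ne_zero (L := L) (b := b))
    (h.disc_notMem (L := L) hb) (disc_maximalIdeal_eq (L := L) (O := O) (q := q) (X := X) (b := b))
    J hqJ t₀ ht₀

end Localisations

end ChartHyp

/-! ### Producing the reduction `ρ` -/

/-- **Adapter.**  Any ring homomorphism `r` from the chart `B = O[X]` to a `k'`-algebra `D`
(`k'` the residue field of `O`) which is the residue map on `O` and sends `X` to a transcendental
element (e.g. the residue map of the valuation ring of the exceptional component, or the reduction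
`C' → C'/π'C' = k'[X, X⁻¹]` restricted to `O[X]`) factors through a reduction
`ρ : B →+* k'[T]` as required by `ChartHyp`. -/
theorem exists_rho_of_transcendental {X : B} (hgen : Algebra.adjoin O {X} = ⊤)
    {D : Type*} [CommRing D] [Algebra (ResidueField O) D] (r : B →+* D)
    (hr : ∀ o : O, r (algebraMap O B o) = algebraMap (ResidueField O) D (residue O o))
    (htr : Transcendental (ResidueField O) (r X)) :
    ∃ ρ : B →+* (ResidueField O)[X],
      (∀ o : O, ρ (algebraMap O B o) = C (residue O o)) ∧ ρ X = Polynomial.X ∧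
        ∀ y, r y = aeval (r X) (ρ y) := by
  have hsurj : Function.Surjective ((aeval X : O[X] →ₐ[O] B) : O[X] →+* B) := fun y => by
    have hy : y ∈ Algebra.adjoin O {X} := by rw [hgen]; exact Algebra.mem_top
    rw [Algebra.adjoin_singleton_eq_range_aeval] at hy
    exact hy
  have hcomp : ∀ P : O[X], r (aeval X P) = aeval (r X) (P.map (residue O)) := fun P => by
    induction P using Polynomial.induction_on' with
    | add p s hp hs => rw [map_add, map_add, hp, hs, Polynomial.map_add, map_add]
    | monomial n o =>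
      rw [aeval_monomial, map_mul, map_pow, hr, Polynomial.map_monomial, aeval_monomial]
  have hinj : Function.Injective (aeval (r X) : (ResidueField O)[X] →ₐ[ResidueField O] D) :=
    transcendental_iff_injective.mp htr
  have hker : RingHom.ker ((aeval X : O[X] →ₐ[O] B) : O[X] →+* B) ≤
      RingHom.ker (Polynomial.mapRingHom (residue O)) := fun P hP => by
    rw [RingHom.mem_ker] at hP ⊢
    have h1 : r (aeval X P) = 0 := by
      have : (aeval X : O[X] →ₐ[O] B) P = 0 := hP
      rw [this, map_zero]
    rw [hcomp] at h1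
    exact hinj (h1.trans (map_zero _).symm)
  set ρ : B →+* (ResidueField O)[X] :=
    RingHom.liftOfSurjective ((aeval X : O[X] →ₐ[O] B) : O[X] →+* B) hsurj
      ⟨Polynomial.mapRingHom (residue O), hker⟩ with hρ
  have hρa : ∀ P : O[X], ρ (aeval X P) = P.map (residue O) := fun P =>
    RingHom.liftOfRightInverse_comp_apply
      ((aeval X : O[X] →ₐ[O] B) : O[X] →+* B) _ (Function.surjInv_eq hsurj)
      ⟨Polynomial.mapRingHom (residue O), hker⟩ P
  refine ⟨ρ, fun o => ?_, ?_, fun y => ?_⟩
  · have := hρa (C o)
    rwa [aeval_C, Polynomial.map_C] at this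
  · have := hρa Polynomial.X
    rwa [aeval_X, Polynomial.map_X] at this
  · obtain ⟨P, rfl⟩ := hsurj y
    change r (aeval X P) = _
    rw [hcomp]
    congr 1
    exact (hρa P).symm

/-! ### The standard chart inside a field -/

section Standard

variable {F : Type*} [Field F] [Algebra O F] [Algebra W F] [IsScalarTower W O F]

/-- The chart `O[x] ⊆ F`, `x = u / q ^ a`, inside a field `F ⊇ O` satisfies `ChartHyp` as soon as
a reduction `ρ` is given. -/
theorem chartHyp_adjoin {q : W} {m : ℕ} {u v : O} {p1 p2 : Ideal O} {a : ℕ}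
    (hnode : NodeHyp W q m u v p1 p2) (hq0 : algebraMap W O q ≠ 0)
    (hinj : Function.Injective (algebraMap O F)) (pos : 0 < a) (lt : a < m) (x : F)
    (hx : algebraMap W F q ^ a * x = algebraMap O F u)
    (ρ : (Algebra.adjoin O {x} : Subalgebra O F) →+* (ResidueField O)[X])
    (rho_alg : ∀ o : O, ρ (algebraMap O (Algebra.adjoin O {x} : Subalgebra O F) o) =
      C (residue O o))
    (rho_X : ρ ⟨x, Algebra.self_mem_adjoin_singleton O x⟩ = Polynomial.X) :
    ChartHyp q m u v p1 p2 a
      (⟨x, Algebra.self_mem_adjoin_singleton O x⟩ : (Algebra.adjoin O {x} : Subalgebra O F)) ρ where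
  node := hnode
  hq0 := hq0
  inj := fun o₁ o₂ h12 => hinj (congrArg Subtype.val h12)
  pos := pos
  lt := lt
  hX := Subtype.ext hx
  gen := by
    have h1 := Algebra.adjoin_adjoin_coe_preimage (R := O) (s := ({x} : Set F))
    have h2 : ((↑) ⁻¹' ({x} : Set F) : Set (Algebra.adjoin O ({x} : Set F))) =
        {⟨x, Algebra.self_mem_adjoin_singleton O x⟩} := by
      ext z
      simp [Subtype.ext_iff]
    rwa [h2] at h1
  rho_alg := rho_alg
  rho_X := rho_X

end Standard

end Chart

end Fermat.Agent.BR.BlowUpPoints
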