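import Mathlib
import Fermat.Agent.BR.NodeUP
import Fermat.Agent.BR.BlowUpChart

/-!
# Program B (BADRED), node B7.2', part 2: the Laurent witness from NODE-UP

`W` a domain, `q : W`, `O` a noetherian local domain over `W` with `NodeUP.NodeHyp W q e u v p1 p2`
(a node `u v = q ^ e`).  For `0 < a < e` the universal property `NodeUP.node_UP`, applied to the
`q`-adic completion `S` of the Laurent polynomial ring `W[T;T⁻¹]` with `u ↦ q ^ a T`,
`v ↦ q ^ (e - a) T⁻¹`, gives a `BlowUp.LaurentWitness`, hence (by `BR/BlowUpChart.lean`)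
`C / q C = κ[X, X⁻¹]` for the chart ring `C = O[X, X⁻¹]`, `X = u / q ^ a`.

* `regular_adicCompletion` : a nonzero element `π` of a domain `R` is regular on the `(π)`-adic
  completion of `R`;
* `laurentWitness` : the witness;
* `chartHyp_of_nodeHyp` : `NodeHyp` gives `BlowUp.ChartHyp`.
-/

set_option autoImplicit false
set_option linter.unusedSectionVars false

open IsLocalRing LaurentPolynomial

namespace Fermat.Agent.BR.BlowUp

/-! ### Regularity on the completion -/

section Regular

variable {R : Type*} [CommRing R] [IsDomain R]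

theorem mem_span_pow_of_mul_mem {π : R} (hπ : π ≠ 0) (n : ℕ) {x : R}
    (hx : π * x ∈ (Ideal.span {π} : Ideal R) ^ (n + 1)) : x ∈ (Ideal.span {π} : Ideal R) ^ n := by
  rw [Ideal.span_singleton_pow, Ideal.mem_span_singleton'] at hx
  obtain ⟨y, hy⟩ := hx
  rw [Ideal.span_singleton_pow, Ideal.mem_span_singleton']
  refine ⟨y, ?_⟩
  apply mul_left_cancel₀ hπ
  rw [← hy, pow_succ]
  ring

theorem regular_adicCompletion {π : R} (hπ : π ≠ 0)
    (s : AdicCompletion (Ideal.span {π}) R)
    (hs : algebraMap R (AdicCompletion (Ideal.span {π}) R) π * s = 0) : s = 0 := by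
  induction s using AdicCompletion.induction_on with
  | h f =>
    have h1 : AdicCompletion.mk (Ideal.span {π}) R (π • f) = 0 := by
      rw [map_smul, Algebra.smul_def]
      exact hs
    have h2 : ∀ n, π * f.val n ∈ (Ideal.span {π} : Ideal R) ^ n := by
      intro n
      have := congrArg (AdicCompletion.evalₐ (Ideal.span {π}) n) h1
      rw [AdicCompletion.evalₐ_mk, map_zero, Ideal.Quotient.eq_zero_iff_mem] at this
      exact this
    have h3 : ∀ n, f.val n ∈ (Ideal.span {π} : Ideal R) ^ n := by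
      intro n
      have h4 : f.val (n + 1) ∈ (Ideal.span {π} : Ideal R) ^ n :=
        mem_span_pow_of_mul_mem hπ n (h2 (n + 1))
      have h5 := f.property (Nat.le_succ n)
      rw [SModEq.sub_mem] at h5
      have h6 : f.val n - f.val (n + 1) ∈ (Ideal.span {π} : Ideal R) ^ n := by
        simpa using h5
      have : f.val n = (f.val n - f.val (n + 1)) + f.val (n + 1) := by ring
      rw [this]
      exact Ideal.add_mem _ h6 h4
    apply AdicCompletion.ext_evalₐ
    intro n
    rw [AdicCompletion.evalₐ_mk, map_zero, Ideal.Quotient.eq_zero_iff_mem]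
    exact h3 n

end Regular

/-! ### Laurent polynomial helpers -/

section LaurentHelpers

variable {R : Type*} [CommRing R]

theorem coeff_C_mul' (q : R) (g : R[T;T⁻¹]) (j : ℤ) : (C q * g).coeff j = q * g.coeff j := by
  rw [← smul_eq_C_mul]
  simp

theorem coeff_sum_C_mul_T (s : Finset ℤ) (c : ℤ → R) (j : ℤ) :
    (∑ i ∈ s, C (c i) * T i : R[T;T⁻¹]).coeff j = if j ∈ s then c j else 0 := by
  rw [AddMonoidAlgebra.coeff_sum, Finsupp.finsetSum_apply]
  have : ∀ i ∈ s, (C (c i) * T i : R[T;T⁻¹]).coeff j = if i = j then c i else 0 := by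
    intro i _
    rw [← single_eq_C_mul_T, AddMonoidAlgebra.coeff_single, Finsupp.single_apply]
  rw [Finset.sum_congr rfl this, Finset.sum_ite_eq' s j c]

variable (R)

/-- `T` as a unit of the Laurent polynomial ring. -/
noncomputable def tL : (R[T;T⁻¹])ˣ :=
  ⟨T 1, T (-1), by rw [← T_add]; simp, by rw [← T_add]; simp⟩

variable {R}

theorem tL_zpow (i : ℤ) : ((tL R ^ i : (R[T;T⁻¹])ˣ) : R[T;T⁻¹]) = T i := by
  obtain ⟨n, rfl | rfl⟩ := Int.eq_nat_or_neg i
  · rw [zpow_natCast, Units.val_pow_eq_pow_val]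
    show (T 1 : R[T;T⁻¹]) ^ n = T n
    rw [T_pow, mul_one]
  · rw [zpow_neg, zpow_natCast, ← inv_pow, Units.val_pow_eq_pow_val]
    show (T (-1) : R[T;T⁻¹]) ^ n = T (-n)
    rw [T_pow, mul_neg, mul_one]

end LaurentHelpers

/-! ### The witness -/

section Witness

open Fermat.Agent.BR.NodeUP Fermat.Agent.BR.DiscUP

variable {W : Type*} [CommRing W] [IsDomain W] {O : Type*} [CommRing O] [IsDomain O]
  [IsLocalRing O] [IsNoetherianRing O] [Algebra W O]
variable {q : W} {e : ℕ} {u v : O} {p1 p2 : Ideal O}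

theorem chartHyp_of_nodeHyp (h : NodeHyp W q e u v p1 p2) (hq0 : algebraMap W O q ≠ 0) {a : ℕ}
    (ha : 0 < a) (hae : a < e) : ChartHyp (algebraMap W O q) u v e a :=
  ⟨hq0, h.huv, h.max3, ha, hae⟩

variable (q) in
/-- The completed Laurent ring `(W[T;T⁻¹])^`, completion for the `q`-adic topology. -/
abbrev LaurentCompletion : Type _ :=
  AdicCompletion (Ideal.span {(C q : W[T;T⁻¹])}) W[T;T⁻¹]

theorem algebraMap_laurentCompletion (w : W) :
    algebraMap W (LaurentCompletion q) w =
      algebraMap W[T;T⁻¹] (LaurentCompletion q) (C w) := by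
  rw [AdicCompletion.algebraMap_apply, AdicCompletion.algebraMap_apply]
  congr 1

theorem evalOne_algebraMap (x : W[T;T⁻¹]) :
    AdicCompletion.evalOneₐ (Ideal.span {(C q : W[T;T⁻¹])})
      (algebraMap W[T;T⁻¹] (LaurentCompletion q) x) = Ideal.Quotient.mk _ x :=
  (AdicCompletion.evalOneₐ (Ideal.span {(C q : W[T;T⁻¹])})).commutes x

/-- **The Laurent witness from NODE-UP.** -/
theorem exists_laurentWitness (h : NodeHyp W q e u v p1 p2) (hq0 : algebraMap W O q ≠ 0) {a : ℕ}
    (ha : 0 < a) (hae : a < e) :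
    Nonempty (LaurentWitness (algebraMap W O q) u a (LaurentCompletion q)) := by
  classical
  have hqW : q ≠ 0 := fun h0 => hq0 (by rw [h0, map_zero])
  have hCq : (C q : W[T;T⁻¹]) ≠ 0 := by
    intro h0
    have := congrArg (fun g : W[T;T⁻¹] => g.coeff 0) h0
    simp at this
    exact hqW this
  set I : Ideal W[T;T⁻¹] := Ideal.span {(C q : W[T;T⁻¹])} with hI
  have hfg : I.FG := ⟨{C q}, by simp [hI]⟩
  set ι : W[T;T⁻¹] →+* LaurentCompletion q := algebraMap W[T;T⁻¹] (LaurentCompletion q) with hι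
  set J : Ideal (LaurentCompletion q) := I.map ι with hJ
  have : IsAdicComplete J (LaurentCompletion q) := AdicCompletion.isAdicComplete_self I hfg
  have hqS : algebraMap W (LaurentCompletion q) q = ι (C q) := algebraMap_laurentCompletion q
  have hqJ : algebraMap W (LaurentCompletion q) q ∈ J := by
    rw [hqS]
    exact Ideal.mem_map_of_mem _ (Ideal.subset_span rfl)
  have hmemI : ∀ (n : ℕ) (x : W[T;T⁻¹]), 0 < n → C q ^ n * x ∈ I := by
    intro n x hn
    obtain ⟨m, rfl⟩ := Nat.exists_eq_succ_of_ne_zero hn.ne'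
    rw [pow_succ', mul_assoc]
    exact Ideal.mul_mem_right _ _ (Ideal.subset_span rfl)
  have haJ : ι (C q ^ a * T 1) ∈ J := Ideal.mem_map_of_mem _ (hmemI a _ ha)
  have hbJ : ι (C q ^ (e - a) * T (-1)) ∈ J :=
    Ideal.mem_map_of_mem _ (hmemI (e - a) _ (Nat.sub_pos_of_lt hae))
  have hab : ι (C q ^ a * T 1) * ι (C q ^ (e - a) * T (-1)) =
      algebraMap W (LaurentCompletion q) q ^ e := by
    have hT : (T 1 : W[T;T⁻¹]) * T (-1) = 1 := by rw [← T_add]; simp
    have hprod : (C q : W[T;T⁻¹]) ^ a * T 1 * (C q ^ (e - a) * T (-1)) = C q ^ e := by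
      calc (C q : W[T;T⁻¹]) ^ a * T 1 * (C q ^ (e - a) * T (-1))
          = C q ^ (a + (e - a)) * ((T 1 : W[T;T⁻¹]) * T (-1)) := by rw [pow_add]; ring
        _ = C q ^ e := by rw [hT, mul_one, Nat.add_sub_cancel' hae.le]
    calc ι (C q ^ a * T 1) * ι (C q ^ (e - a) * T (-1))
        = ι (C q ^ a * T 1 * (C q ^ (e - a) * T (-1))) := (map_mul _ _ _).symm
      _ = ι (C q ^ e) := by rw [hprod]
      _ = ι (C q) ^ e := map_pow _ _ _
      _ = algebraMap W (LaurentCompletion q) q ^ e := by rw [hqS]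
  obtain ⟨Φ, ⟨hΦu, -, hΦn⟩, -⟩ := node_UP h hq0 J hqJ _ _ haJ hbJ hab
  have hΦq : Φ (algebraMap W O q) = ι (C q) := by rw [Φ.commutes, hqS]
  set t : (LaurentCompletion q)ˣ := Units.map (ι : W[T;T⁻¹] →* LaurentCompletion q) (tL W) with ht
  have htz : ∀ i : ℤ, ((t ^ i : (LaurentCompletion q)ˣ) : LaurentCompletion q) = ι (T i) := by
    intro i
    rw [ht, ← map_zpow, Units.coe_map, tL_zpow]
    rfl
  have hker : ∀ y ∈ maximalIdeal O,
      AdicCompletion.evalOneₐ I (Φ y) = 0 := by
    intro y hy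
    have h1 : (Φ : O →+* LaurentCompletion q) y ∈ J := hΦn (Ideal.mem_map_of_mem _ hy)
    rw [hJ, ← AdicCompletion.ker_evalOneₐ_eq_map I hfg] at h1
    exact h1
  refine ⟨{ Φ := (Φ : O →+* LaurentCompletion q), t := t, map_u := ?_, regular := ?_, indep := ?_ }⟩
  · show Φ u = Φ (algebraMap W O q) ^ a * (t : LaurentCompletion q)
    rw [hΦu, hΦq, map_mul, map_pow]
    rfl
  · intro s hs
    have hs' : ι (C q) * s = 0 := by
      have : (Φ : O →+* LaurentCompletion q) (algebraMap W O q) = ι (C q) := hΦq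
      rw [← this]
      exact hs
    exact regular_adicCompletion hCq s hs'
  · rintro f ⟨s, hs⟩ i
    by_cases hi : i ∈ f.coeff.support
    swap
    · rw [Finsupp.notMem_support_iff.mp hi]
      exact zero_mem _
    -- representatives of the coefficients
    choose wt hwt using h.res.surj
    have hcoef : ∀ o : O, AdicCompletion.evalOneₐ I (Φ o) = Ideal.Quotient.mk I (C (wt o)) := by
      intro o
      have h1 : Φ o = algebraMap W (LaurentCompletion q) (wt o) + Φ (o - algebraMap W O (wt o)) := by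
        rw [map_sub, Φ.commutes]
        ring
      rw [h1, map_add, hker _ (hwt o), add_zero, algebraMap_laurentCompletion]
      exact evalOne_algebraMap _
    have hsum : Ideal.Quotient.mk I (∑ j ∈ f.coeff.support, C (wt (f.coeff j)) * T j) = 0 := by
      have h2 := congrArg (AdicCompletion.evalOneₐ I) hs
      rw [eval₂_eq_sum, map_sum] at h2
      have h3 : AdicCompletion.evalOneₐ I
          ((Φ : O →+* LaurentCompletion q) (algebraMap W O q) * s) = 0 := by
        have : (Φ : O →+* LaurentCompletion q) (algebraMap W O q) = ι (C q) := hΦq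
        have hz : Ideal.Quotient.mk I (C q) = 0 :=
          Ideal.Quotient.eq_zero_iff_mem.mpr (Ideal.subset_span rfl)
        rw [this, map_mul, hι, evalOne_algebraMap]
        exact (congrArg (· * _) hz).trans (zero_mul _)
      rw [h3] at h2
      rw [map_sum, ← h2]
      refine Finset.sum_congr rfl fun j _ => ?_
      rw [map_mul, map_mul, htz j]
      have : AdicCompletion.evalOneₐ I ((Φ : O →+* LaurentCompletion q) (f.coeff j)) =
          Ideal.Quotient.mk I (C (wt (f.coeff j))) := hcoef _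
      rw [this, hι, evalOne_algebraMap]
    rw [Ideal.Quotient.eq_zero_iff_mem, hI, Ideal.mem_span_singleton'] at hsum
    obtain ⟨g, hg⟩ := hsum
    have h4 : (g * C q).coeff i =
        (∑ j ∈ f.coeff.support, C (wt (f.coeff j)) * T j : W[T;T⁻¹]).coeff i :=
      congrArg (fun p : W[T;T⁻¹] => p.coeff i) hg
    rw [mul_comm, coeff_C_mul', coeff_sum_C_mul_T, if_pos hi] at h4
    -- `wt (f i) = q * g i`, so `f i ∈ 𝔫`
    have hqm : algebraMap W O q ∈ maximalIdeal O := by
      rw [h.max3]; exact Ideal.mem_sup_left (Ideal.mem_sup_left (Ideal.subset_span rfl))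
    have h5 : algebraMap W O (wt (f.coeff i)) ∈ maximalIdeal O := by
      rw [← h4, map_mul]
      exact Ideal.mul_mem_right _ _ hqm
    have : f.coeff i = (f.coeff i - algebraMap W O (wt (f.coeff i))) +
        algebraMap W O (wt (f.coeff i)) := by ring
    rw [this]
    exact Ideal.add_mem _ (hwt _) h5

/-- A chosen Laurent witness at a `NodeHyp` node. -/
noncomputable def laurentWitness (h : NodeHyp W q e u v p1 p2) (hq0 : algebraMap W O q ≠ 0)
    {a : ℕ} (ha : 0 < a) (hae : a < e) :
    LaurentWitness (algebraMap W O q) u a (LaurentCompletion q) :=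
  Classical.choice (exists_laurentWitness h hq0 ha hae)

variable {F : Type*} [Field F] [Algebra O F] [IsFractionRing O F]

/-- **(1) at a node**: `C / q C = κ[X, X⁻¹]` for the chart `C = O[X, X⁻¹]`, `X = u / q ^ a`. -/
theorem evX_mem_span_iff_of_nodeHyp (h : NodeHyp W q e u v p1 p2)
    (hq0 : algebraMap W O q ≠ 0) {a : ℕ} (ha : 0 < a) (hae : a < e) (f : O[T;T⁻¹]) :
    (∃ g : O[T;T⁻¹], evX F (algebraMap W O q) u a f =
        algebraMap O F (algebraMap W O q) * evX F (algebraMap W O q) u a g) ↔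
      ∀ i, f.coeff i ∈ maximalIdeal O :=
  evX_mem_span_iff (chartHyp_of_nodeHyp h hq0 ha hae) (laurentWitness h hq0 ha hae) f

/-- The reduction map of the chart ring at a `NodeHyp` node. -/
noncomputable def nodeChartRed (h : NodeHyp W q e u v p1 p2) (hq0 : algebraMap W O q ≠ 0)
    {a : ℕ} (ha : 0 < a) (hae : a < e) :
    chart F (algebraMap W O q) u a →+* RatFunc (ResidueField O) :=
  chartRed (chartHyp_of_nodeHyp h hq0 ha hae) (laurentWitness h hq0 ha hae)

end Witness

end Fermat.Agent.BR.BlowUp
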