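/-
Program B (bad reduction), block B7, node B7.3-BC (helper20): the abstract base change `W → W'`.
No tensor products in the statements: the base change `O' = O_n ⊗_W W'` enters only through the
properties it is used for.

§1 Normality.  `mem_range_of_isIntegral_away`: a ring `R` with a non-zero-divisor `π` and reduced
  `R / π` is integrally closed in `R[1/π]`; `isIntegrallyClosed_of_away`: if moreover `R` is a domain
  and `R[1/π]` is integrally closed then `R` is integrally closed (reduced special fibre + normal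
  generic fibre ⟹ normal).
§2 Ramified base change of the local data.  `RamifiedExt f q π' e`: `f : O → O'` local rings,
  `f q = π'^e · unit`, `π'` a non-unit and `O / q → O' / π'` bijective.  Then
  `RamifiedExt.nodeData`: helper5's `NodeData q u v p1 p2` goes to
  `NodeData π' (f u) (f v) (p1 O' + π') (p2 O' + π')`; `mul_eq`: `u v = q^m ε` goes to
  `f u f v = π'^(e m) ε'` (thickness multiplied by `e`); `regular`: `𝔪 = (q, t)` goes to
  `𝔪' = (π', f t)`; `maximalIdeal_eq`, `map_mem_sup_iff`, `comap_sup`, `quotientEquiv`,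
  `isPrime_sup`: ideals containing `q` and their quotients are preserved;
  `residueHyp`, `nodeHyp`: transfer of helper23's `ResidueHyp`, `NodeHyp` (`BR/DiscUP`, `BR/NodeUP`).
§3 `ramifiedExt_of_powerBasis`: Eisenstein criterion (`O'` free over `O` on `1, π', …, π'^(e-1)`,
  `π'` a root of an Eisenstein polynomial at `q`).
-/
import Mathlib
import Fermat.Agent.BR.NodeLemma
import Fermat.Agent.BR.NodeUP

set_option autoImplicit false
set_option linter.unusedSectionVars false

namespace Fermat.Agent.BR.CentreBC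

open Polynomial IsLocalRing Fermat.Agent.BR.NodeLemma Fermat.Agent.BR.DiscUP Fermat.Agent.BR.NodeUP

/-! ### §1 normality of a ring with reduced special fibre -/

section Normality

variable {R S : Type*} [CommRing R] [CommRing S] [Algebra R S]

/-- a root `c` of a monic polynomial whose lower coefficients are all divisible by `π` has a power
divisible by `π` -/
theorem pow_mem_span_of_eval_scaleRoots {p : R[X]} (hp : p.Monic) (π s c : R) (hs : π ∣ s)
    (h : (scaleRoots p s).eval c = 0) : c ^ p.natDegree ∈ Ideal.span {π} := by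
  rw [eval_eq_sum_range, natDegree_scaleRoots, Finset.sum_range_succ, coeff_scaleRoots_natDegree,
    hp.leadingCoeff, one_mul] at h
  have h1 : c ^ p.natDegree = -∑ i ∈ Finset.range p.natDegree, (scaleRoots p s).coeff i * c ^ i :=
    eq_neg_of_add_eq_zero_right h
  rw [h1]
  apply Submodule.neg_mem
  apply Ideal.sum_mem
  intro i hi
  rw [Finset.mem_range] at hi
  rw [coeff_scaleRoots]
  have : π ∣ s ^ (p.natDegree - i) := dvd_trans hs (dvd_pow_self s (by omega))
  exact Ideal.mul_mem_right _ _ (Ideal.mul_mem_left _ _ (Ideal.mem_span_singleton.mpr this))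

/-- **A ring with reduced special fibre is integrally closed in its generic fibre**: if `π` is a
non-zero-divisor of `R` and `R / π` is reduced, every element of `R[1/π]` integral over `R` lies
in `R`. -/
theorem mem_range_of_isIntegral_away (π : R) [IsLocalization.Away π S]
    (hπ : π ∈ nonZeroDivisors R) (hred : IsReduced (R ⧸ Ideal.span {π})) {y : S}
    (hy : IsIntegral R y) : y ∈ (algebraMap R S).range := by
  classical
  have hinj : Function.Injective (algebraMap R S) :=
    IsLocalization.injective S (Submonoid.powers_le.mpr hπ)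
  -- denominators
  have hex : ∃ n : ℕ, ∃ c : R, y * algebraMap R S (π ^ n) = algebraMap R S c := by
    obtain ⟨⟨a, ⟨s, n, rfl⟩⟩, h⟩ := IsLocalization.surj (Submonoid.powers π) y
    exact ⟨n, a, h⟩
  obtain ⟨c, hc⟩ := Nat.find_spec hex
  set n := Nat.find hex with hn
  rcases Nat.eq_zero_or_pos n with h0 | hpos
  · rw [h0, pow_zero, map_one, mul_one] at hc
    exact ⟨c, hc.symm⟩
  exfalso
  obtain ⟨p, hp, hpy⟩ := hy
  have hroot : eval₂ (algebraMap R S) (algebraMap R S c) (scaleRoots p (π ^ n)) = 0 := by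
    have := scaleRoots_eval₂_eq_zero (algebraMap R S) (s := π ^ n) hpy
    rwa [mul_comm, hc] at this
  rw [eval₂_at_apply] at hroot
  have hroot' : (scaleRoots p (π ^ n)).eval c = 0 := hinj (by rw [hroot, map_zero])
  have hmem := pow_mem_span_of_eval_scaleRoots hp π (π ^ n) c (dvd_pow_self π (by omega)) hroot'
  have hcmem : c ∈ Ideal.span {π} := by
    rw [← Ideal.Quotient.eq_zero_iff_mem] at hmem ⊢
    rw [map_pow] at hmem
    exact IsReduced.eq_zero _ ⟨_, hmem⟩
  obtain ⟨c', rfl⟩ := Ideal.mem_span_singleton'.mp hcmem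
  apply Nat.find_min hex (m := n - 1) (by omega)
  refine ⟨c', ?_⟩
  have hunit : IsUnit (algebraMap R S π) :=
    IsLocalization.map_units S (⟨π, Submonoid.mem_powers π⟩ : Submonoid.powers π)
  apply hunit.mul_right_cancel
  have e : π ^ n = π ^ (n - 1) * π := by
    rw [← pow_succ]; congr 1; omega
  rw [mul_assoc, ← map_mul, ← e, hc, map_mul]

/-- **Reduced special fibre and normal generic fibre imply normal.** -/
theorem isIntegrallyClosed_of_away [IsDomain R] (π : R) [IsLocalization.Away π S]
    (hπ : π ≠ 0) (hred : IsReduced (R ⧸ Ideal.span {π})) [IsIntegrallyClosed S] :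
    IsIntegrallyClosed R := by
  have hπ' : π ∈ nonZeroDivisors R := mem_nonZeroDivisors_of_ne_zero hπ
  have hle : Submonoid.powers π ≤ nonZeroDivisors R := Submonoid.powers_le.mpr hπ'
  have hg : ∀ y : Submonoid.powers π, IsUnit (algebraMap R (FractionRing R) y) := fun y =>
    IsLocalization.map_units (FractionRing R) (⟨y, hle y.2⟩ : nonZeroDivisors R)
  let φ : S →+* FractionRing R := IsLocalization.lift hg
  let _ : Algebra S (FractionRing R) := φ.toAlgebra
  have _ : IsScalarTower R S (FractionRing R) :=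
    IsScalarTower.of_algebraMap_eq fun x => (IsLocalization.lift_eq hg x).symm
  have _ : IsDomain S := IsLocalization.isDomain_of_le_nonZeroDivisors S hle
  have _ : IsFractionRing S (FractionRing R) :=
    IsFractionRing.isFractionRing_of_isDomain_of_isLocalization (Submonoid.powers π) S
      (FractionRing R)
  refine (isIntegrallyClosed_iff (FractionRing R)).mpr ?_
  intro x hx
  have hxS : IsIntegral S x := hx.tower_top
  obtain ⟨y, rfl⟩ := (isIntegrallyClosed_iff (FractionRing R)).mp ‹IsIntegrallyClosed S› hxS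
  have hinjS : Function.Injective (algebraMap S (FractionRing R)) :=
    IsFractionRing.injective S (FractionRing R)
  have hyR : IsIntegral R y := (isIntegral_algebraMap_iff hinjS).mp hx
  obtain ⟨r, rfl⟩ := mem_range_of_isIntegral_away π hπ' hred hyR
  exact ⟨r, (IsScalarTower.algebraMap_apply R S (FractionRing R) r)⟩

end Normality

/-! ### §2 ramified base change of local data -/

section Ramified

variable {O O' : Type*} [CommRing O] [CommRing O'] [IsLocalRing O] [IsLocalRing O']

/-- `O → O'` behaves like a totally ramified base change of degree `e`: `q = π'^e · unit` and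
`O / q → O' / π'` is bijective. -/
structure RamifiedExt (f : O →+* O') (q : O) (π' : O') (e : ℕ) : Prop where
  he : 1 ≤ e
  assoc : ∃ ε : O'ˣ, f q = π' ^ e * ε
  nonunit : π' ∈ maximalIdeal O'
  surj : ∀ y : O', ∃ x : O, y - f x ∈ Ideal.span {π'}
  inj : ∀ x : O, f x ∈ Ideal.span {π'} → x ∈ Ideal.span {q}

namespace RamifiedExt

variable {f : O →+* O'} {q : O} {π' : O'} {e : ℕ}

theorem map_q_mem (h : RamifiedExt f q π' e) : f q ∈ Ideal.span {π'} := by
  obtain ⟨ε, hε⟩ := h.assoc
  obtain ⟨k, rfl⟩ := Nat.exists_eq_add_of_le h.he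
  rw [hε, Ideal.mem_span_singleton']
  exact ⟨π' ^ k * ε, by ring⟩

theorem span_map_q_le (h : RamifiedExt f q π' e) : Ideal.span {f q} ≤ Ideal.span {π'} := by
  rw [Ideal.span_singleton_le_iff_mem]
  exact h.map_q_mem

theorem span_le_maximalIdeal (h : RamifiedExt f q π' e) :
    Ideal.span {π'} ≤ maximalIdeal O' := by
  rw [Ideal.span_singleton_le_iff_mem]
  exact h.nonunit

theorem q_mem_maximalIdeal (h : RamifiedExt f q π' e) : q ∈ maximalIdeal O := by
  rw [mem_maximalIdeal, mem_nonunits_iff]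
  intro hu
  have h1 : IsUnit (f q) := hu.map f
  have h2 : f q ∈ maximalIdeal O' := h.span_le_maximalIdeal h.map_q_mem
  exact (mem_maximalIdeal _).mp h2 h1

theorem span_q_le_maximalIdeal (h : RamifiedExt f q π' e) :
    Ideal.span {q} ≤ maximalIdeal O := by
  rw [Ideal.span_singleton_le_iff_mem]
  exact h.q_mem_maximalIdeal

/-- `f` is a local homomorphism -/
theorem map_mem_maximalIdeal (h : RamifiedExt f q π' e) {x : O} (hx : x ∈ maximalIdeal O) :
    f x ∈ maximalIdeal O' := by
  rw [mem_maximalIdeal, mem_nonunits_iff]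
  intro hu
  obtain ⟨y, hy⟩ := hu.exists_right_inv
  obtain ⟨x', hx'⟩ := h.surj y
  have h1 : f (x * x' - 1) ∈ Ideal.span {π'} := by
    have e1 : f (x * x' - 1) = -(f x * (y - f x')) := by
      rw [map_sub, map_mul, map_one, mul_sub, hy]; ring
    rw [e1]
    exact Submodule.neg_mem _ (Ideal.mul_mem_left _ _ hx')
  have h2 : x * x' - 1 ∈ maximalIdeal O := h.span_q_le_maximalIdeal (h.inj _ h1)
  have h3 : x * x' ∈ maximalIdeal O := Ideal.mul_mem_right _ _ hx
  have h4 : (1 : O) ∈ maximalIdeal O := by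
    have : (1 : O) = x * x' - (x * x' - 1) := by ring
    rw [this]
    exact Ideal.sub_mem _ h3 h2
  exact (Ideal.ne_top_iff_one _).mp (maximalIdeal.isMaximal O).ne_top h4

theorem mem_maximalIdeal_of_map_mem (_h : RamifiedExt f q π' e) {x : O}
    (hx : f x ∈ maximalIdeal O') : x ∈ maximalIdeal O := by
  rw [mem_maximalIdeal, mem_nonunits_iff]
  intro hu
  exact (mem_maximalIdeal _).mp hx (hu.map f)

theorem maximalIdeal_eq (h : RamifiedExt f q π' e) :
    maximalIdeal O' = (maximalIdeal O).map f ⊔ Ideal.span {π'} := by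
  apply le_antisymm
  · intro y hy
    obtain ⟨x, hx⟩ := h.surj y
    have hfx : f x ∈ maximalIdeal O' := by
      have : f x = y - (y - f x) := by ring
      rw [this]
      exact Ideal.sub_mem _ hy (h.span_le_maximalIdeal hx)
    have hxm := h.mem_maximalIdeal_of_map_mem hfx
    have : y = f x + (y - f x) := by ring
    rw [this]
    exact Submodule.add_mem_sup (Ideal.mem_map_of_mem f hxm) hx
  · rw [sup_le_iff]
    refine ⟨?_, h.span_le_maximalIdeal⟩
    rw [Ideal.map_le_iff_le_comap]
    intro x hx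
    exact h.map_mem_maximalIdeal hx

/-- every element of `p O' + π' O'` is `f p₀ + π' z` with `p₀ ∈ p` -/
theorem exists_of_mem_sup (h : RamifiedExt f q π' e) (p : Ideal O) {y : O'}
    (hy : y ∈ p.map f ⊔ Ideal.span {π'}) : ∃ p₀ ∈ p, y - f p₀ ∈ Ideal.span {π'} := by
  obtain ⟨a, ha, b, hb, rfl⟩ := Submodule.mem_sup.mp hy
  suffices hs : ∃ p₀ ∈ p, a - f p₀ ∈ Ideal.span {π'} by
    obtain ⟨p₀, hp₀, h1⟩ := hs
    refine ⟨p₀, hp₀, ?_⟩
    have : a + b - f p₀ = (a - f p₀) + b := by ring
    rw [this]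
    exact Ideal.add_mem _ h1 hb
  refine Submodule.span_induction (p := fun a _ => ∃ p₀ ∈ p, a - f p₀ ∈ Ideal.span {π'})
    ?_ ?_ ?_ ?_ ha
  · rintro _ ⟨x, hx, rfl⟩
    exact ⟨x, hx, by simp⟩
  · exact ⟨0, p.zero_mem, by simp⟩
  · rintro a b _ _ ⟨pa, hpa, ha⟩ ⟨pb, hpb, hb⟩
    refine ⟨pa + pb, p.add_mem hpa hpb, ?_⟩
    have : a + b - f (pa + pb) = (a - f pa) + (b - f pb) := by rw [map_add]; ring
    rw [this]
    exact Ideal.add_mem _ ha hb
  · rintro c a _ ⟨pa, hpa, ha⟩
    obtain ⟨x, hx⟩ := h.surj c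
    refine ⟨x * pa, p.mul_mem_left x hpa, ?_⟩
    have : c • a - f (x * pa) = c * (a - f pa) + (c - f x) * f pa := by
      rw [map_mul, smul_eq_mul]; ring
    rw [this]
    exact Ideal.add_mem _ (Ideal.mul_mem_left _ _ ha) (Ideal.mul_mem_right _ _ hx)

/-- `p O' + π' O'` contracts to `p` when `q ∈ p` -/
theorem map_mem_sup_iff (h : RamifiedExt f q π' e) {p : Ideal O} (hq : q ∈ p) {x : O} :
    f x ∈ p.map f ⊔ Ideal.span {π'} ↔ x ∈ p := by
  constructor
  · intro hx
    obtain ⟨p₀, hp₀, h1⟩ := h.exists_of_mem_sup p hx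
    rw [← map_sub] at h1
    have h2 : x - p₀ ∈ p := by
      have := h.inj _ h1
      exact (Ideal.span_singleton_le_iff_mem (I := p)).mpr hq this
    have : x = (x - p₀) + p₀ := by ring
    rw [this]
    exact p.add_mem h2 hp₀
  · intro hx
    exact Ideal.mem_sup_left (Ideal.mem_map_of_mem f hx)

theorem comap_sup (h : RamifiedExt f q π' e) {p : Ideal O} (hq : q ∈ p) :
    (p.map f ⊔ Ideal.span {π'}).comap f = p := by
  ext x
  rw [Ideal.mem_comap]
  exact h.map_mem_sup_iff hq

/-- the quotients by corresponding ideals are isomorphic -/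
noncomputable def quotientEquiv (h : RamifiedExt f q π' e) {p : Ideal O} (hq : q ∈ p) :
    O ⧸ p ≃+* O' ⧸ (p.map f ⊔ Ideal.span {π'}) := by
  let g : O →+* O' ⧸ (p.map f ⊔ Ideal.span {π'}) := (Ideal.Quotient.mk _).comp f
  have hg : Function.Surjective g := by
    intro z
    obtain ⟨y, rfl⟩ := Ideal.Quotient.mk_surjective z
    obtain ⟨x, hx⟩ := h.surj y
    refine ⟨x, ?_⟩
    change Ideal.Quotient.mk _ (f x) = Ideal.Quotient.mk _ y
    rw [Ideal.Quotient.eq]
    have : f x - y = -(y - f x) := by ring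
    rw [this]
    exact Submodule.neg_mem _ (Ideal.mem_sup_right hx)
  have hker : RingHom.ker g = p := by
    ext x
    rw [RingHom.mem_ker]
    change Ideal.Quotient.mk _ (f x) = 0 ↔ _
    rw [Ideal.Quotient.eq_zero_iff_mem]
    exact h.map_mem_sup_iff hq
  exact (Ideal.quotEquivOfEq hker.symm).trans (RingHom.quotientKerEquivOfSurjective hg)

theorem isPrime_sup (h : RamifiedExt f q π' e) {p : Ideal O} (hp : p.IsPrime) (hq : q ∈ p) :
    (p.map f ⊔ Ideal.span {π'}).IsPrime := by
  rw [← Ideal.Quotient.isDomain_iff_prime]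
  have : IsDomain (O ⧸ p) := (Ideal.Quotient.isDomain_iff_prime p).mpr hp
  exact (h.quotientEquiv hq).symm.toMulEquiv.isDomain

/-- **Base change of the node data**: the thickness is multiplied by `e` (see `mul_eq`). -/
theorem nodeData (h : RamifiedExt f q π' e) {u v : O} {p1 p2 : Ideal O}
    (hN : NodeData q u v p1 p2) :
    NodeData π' (f u) (f v) (p1.map f ⊔ Ideal.span {π'}) (p2.map f ⊔ Ideal.span {π'}) where
  inter := by
    apply le_antisymm
    · intro y hy
      obtain ⟨hy1, hy2⟩ := Ideal.mem_inf.mp hy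
      obtain ⟨x, hx⟩ := h.surj y
      have hfx : ∀ p : Ideal O, y ∈ p.map f ⊔ Ideal.span {π'} →
          f x ∈ p.map f ⊔ Ideal.span {π'} := by
        intro p hyp
        have : f x = y - (y - f x) := by ring
        rw [this]
        exact Ideal.sub_mem _ hyp (Ideal.mem_sup_right hx)
      have hx1 : x ∈ p1 := (h.map_mem_sup_iff hN.q_mem_p1).mp (hfx p1 hy1)
      have hx2 : x ∈ p2 := (h.map_mem_sup_iff hN.q_mem_p2).mp (hfx p2 hy2)
      have hxq : x ∈ Ideal.span {q} := by
        rw [← hN.inter]; exact Ideal.mem_inf.mpr ⟨hx1, hx2⟩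
      obtain ⟨c, rfl⟩ := Ideal.mem_span_singleton'.mp hxq
      have hfxπ : f (c * q) ∈ Ideal.span {π'} := by
        rw [map_mul]; exact Ideal.mul_mem_left _ _ h.map_q_mem
      have : y = (y - f (c * q)) + f (c * q) := by ring
      rw [this]
      exact Ideal.add_mem _ hx hfxπ
    · rw [le_inf_iff]
      exact ⟨le_sup_right, le_sup_right⟩
  hu := Ideal.mem_sup_left (Ideal.mem_map_of_mem f hN.hu)
  hv := Ideal.mem_sup_left (Ideal.mem_map_of_mem f hN.hv)
  max1 := by
    rw [h.maximalIdeal_eq, hN.max1, Ideal.map_sup, Ideal.map_span, Set.image_singleton]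
    rw [sup_assoc, sup_assoc, sup_comm (Ideal.span {f v})]
  max2 := by
    rw [h.maximalIdeal_eq, hN.max2, Ideal.map_sup, Ideal.map_span, Set.image_singleton]
    rw [sup_assoc, sup_assoc, sup_comm (Ideal.span {f u})]

/-- the thickness is multiplied by `e` -/
theorem mul_eq (h : RamifiedExt f q π' e) {u v ε₀ : O} {m : ℕ} (huv : u * v = q ^ m * ε₀)
    (hε₀ : IsUnit ε₀) : ∃ ε' : O'ˣ, f u * f v = π' ^ (e * m) * ε' := by
  obtain ⟨ε, hε⟩ := h.assoc
  refine ⟨ε ^ m * (hε₀.map f).unit, ?_⟩
  rw [← map_mul, huv, map_mul, map_pow, hε, mul_pow, ← pow_mul]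
  simp only [Units.val_mul, Units.val_pow_eq_pow_val, IsUnit.unit_spec]
  ring

/-- **Base change of a regular point**: `𝔪 = (q, t)` goes to `𝔪' = (π', f t)`. -/
theorem regular (h : RamifiedExt f q π' e) {t : O}
    (hmax : maximalIdeal O = Ideal.span {q} ⊔ Ideal.span {t}) :
    maximalIdeal O' = Ideal.span {π'} ⊔ Ideal.span {f t} := by
  rw [h.maximalIdeal_eq, hmax, Ideal.map_sup, Ideal.map_span, Ideal.map_span, Set.image_singleton,
    Set.image_singleton]
  apply le_antisymm
  · rw [sup_le_iff, sup_le_iff]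
    exact ⟨⟨h.span_map_q_le.trans le_sup_left, le_sup_right⟩, le_sup_left⟩
  · rw [sup_le_iff]
    exact ⟨le_sup_right, le_sup_left.trans' le_sup_right |>.trans le_rfl⟩

end RamifiedExt

end Ramified

section Transfer

variable {O O' : Type*} [CommRing O] [CommRing O'] [IsLocalRing O] [IsLocalRing O']
  {f : O →+* O'} {q : O} {π' : O'} {e : ℕ}

namespace RamifiedExt

theorem map_max (h : RamifiedExt f q π' e) {p : Ideal O} {v : O}
    (hmax : maximalIdeal O = p ⊔ Ideal.span {v}) :
    maximalIdeal O' = (p.map f ⊔ Ideal.span {π'}) ⊔ Ideal.span {f v} := by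
  rw [h.maximalIdeal_eq, hmax, Ideal.map_sup, Ideal.map_span, Set.image_singleton]
  rw [sup_assoc, sup_assoc, sup_comm (Ideal.span {f v})]

theorem map_max3 (h : RamifiedExt f q π' e) {u v : O}
    (hmax : maximalIdeal O = Ideal.span {q} ⊔ Ideal.span {u} ⊔ Ideal.span {v}) :
    maximalIdeal O' = Ideal.span {π'} ⊔ Ideal.span {f u} ⊔ Ideal.span {f v} := by
  rw [h.maximalIdeal_eq, hmax, Ideal.map_sup, Ideal.map_sup, Ideal.map_span, Ideal.map_span,
    Ideal.map_span, Set.image_singleton, Set.image_singleton, Set.image_singleton]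
  apply le_antisymm
  · refine sup_le (sup_le (sup_le ?_ ?_) ?_) ?_
    · exact h.span_map_q_le.trans (le_sup_left.trans le_sup_left)
    · exact le_sup_right.trans le_sup_left
    · exact le_sup_right
    · exact le_sup_left.trans le_sup_left
  · refine sup_le (sup_le ?_ ?_) ?_
    · exact le_sup_right
    · exact (le_sup_right.trans le_sup_left).trans le_sup_left
    · exact le_sup_right.trans le_sup_left

variable {W W' : Type*} [CommRing W] [CommRing W'] [Algebra W O] [Algebra W' O']

/-- transfer of the residue hypothesis of `BR/DiscUP.lean` along `W → W'` -/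
theorem residueHyp (h : RamifiedExt f q π' e) (g : W →+* W')
    (hcomp : ∀ w, algebraMap W' O' (g w) = f (algebraMap W O w)) {qW : W} {πW : W'}
    (hπ : algebraMap W' O' πW = π')
    (hW : ∀ w' : W', ∃ w : W, w' - g w ∈ Ideal.span {πW}) (hgq : g qW ∈ Ideal.span {πW})
    (hres : ResidueHyp W O qW) : ResidueHyp W' O' πW where
  surj := by
    intro y
    obtain ⟨x, hx⟩ := h.surj y
    obtain ⟨w, hw⟩ := hres.surj x
    refine ⟨g w, ?_⟩
    have e1 : y - algebraMap W' O' (g w) = (y - f x) + f (x - algebraMap W O w) := by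
      rw [hcomp, map_sub]; ring
    rw [e1]
    exact Ideal.add_mem _ (h.span_le_maximalIdeal hx) (h.map_mem_maximalIdeal hw)
  ker := by
    intro w' hw'
    obtain ⟨w, hw⟩ := hW w'
    obtain ⟨z, hz⟩ := Ideal.mem_span_singleton'.mp hw
    have e1 : w' = g w + z * πW := by rw [hz]; ring
    have h1 : f (algebraMap W O w) ∈ maximalIdeal O' := by
      have e2 : f (algebraMap W O w) = algebraMap W' O' w' - algebraMap W' O' z * π' := by
        rw [← hcomp, ← hπ, ← map_mul, ← map_sub, e1]; congr 1; ring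
      rw [e2]
      exact Ideal.sub_mem _ hw' (Ideal.mul_mem_left _ _ h.nonunit)
    have h2 := hres.ker w (h.mem_maximalIdeal_of_map_mem h1)
    obtain ⟨d, rfl⟩ := h2
    obtain ⟨c, hc⟩ := Ideal.mem_span_singleton'.mp hgq
    rw [e1, map_mul, ← hc]
    exact ⟨c * g d + z, by ring⟩

/-- transfer of the node hypothesis of `BR/NodeUP.lean` along `W → W'`: thickness `e * m` -/
theorem nodeHyp (h : RamifiedExt f q π' e) (g : W →+* W')
    (hcomp : ∀ w, algebraMap W' O' (g w) = f (algebraMap W O w)) {qW : W} {πW : W'}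
    (hq : algebraMap W O qW = q) (hπ : algebraMap W' O' πW = π')
    (hW : ∀ w' : W', ∃ w : W, w' - g w ∈ Ideal.span {πW}) (hgq : g qW ∈ Ideal.span {πW})
    {m : ℕ} {u v : O} {p1 p2 : Ideal O} (hN : NodeHyp W qW m u v p1 p2) :
    ∃ ε' : O'ˣ, NodeHyp W' πW (e * m) (f u) (f v * ↑ε'⁻¹)
      (p1.map f ⊔ Ideal.span {π'}) (p2.map f ⊔ Ideal.span {π'}) := by
  have hq1 : q ∈ p1 := hq ▸ hN.hq1
  have hq2 : q ∈ p2 := hq ▸ hN.hq2
  have huv : u * v = q ^ m * 1 := by rw [mul_one, ← hq]; exact hN.huv
  obtain ⟨ε', hε'⟩ := h.mul_eq huv isUnit_one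
  have hspan : Ideal.span {f v * ↑ε'⁻¹} = Ideal.span {f v} :=
    Ideal.span_singleton_mul_right_unit ε'⁻¹.isUnit _
  refine ⟨ε', ?_⟩
  refine
    { res := h.residueHyp g hcomp hπ hW hgq hN.res
      prime1 := h.isPrime_sup hN.prime1 hq1
      prime2 := h.isPrime_sup hN.prime2 hq2
      hu := Ideal.mem_sup_left (Ideal.mem_map_of_mem f hN.hu)
      hv := Ideal.mul_mem_right _ _ (Ideal.mem_sup_left (Ideal.mem_map_of_mem f hN.hv))
      hq1 := by rw [hπ]; exact Ideal.mem_sup_right (Ideal.subset_span rfl)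
      hq2 := by rw [hπ]; exact Ideal.mem_sup_right (Ideal.subset_span rfl)
      hv1 := ?_
      hu2 := fun hu => hN.hu2 ((h.map_mem_sup_iff hq2).mp hu)
      max1 := by rw [hspan]; exact h.map_max hN.max1
      max2 := h.map_max hN.max2
      max3 := by
        rw [hπ, hspan]
        exact h.map_max3 (by rw [← hq]; exact hN.max3)
      he := Nat.one_le_iff_ne_zero.mpr
        (Nat.mul_ne_zero (Nat.one_le_iff_ne_zero.mp h.he) (Nat.one_le_iff_ne_zero.mp hN.he))
      huv := ?_ }
  · intro hv
    have h1 : f v * ↑ε'⁻¹ * ↑ε' ∈ p1.map f ⊔ Ideal.span {π'} := Ideal.mul_mem_right _ _ hv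
    rw [mul_assoc, Units.inv_mul, mul_one] at h1
    exact hN.hv1 ((h.map_mem_sup_iff hq1).mp h1)
  · rw [hπ, ← mul_assoc, hε', mul_assoc, Units.mul_inv, mul_one]

end RamifiedExt

end Transfer

/-! ### §3 Eisenstein criterion -/

section Eisenstein

variable {O O' : Type*} [CommRing O] [CommRing O'] [IsLocalRing O] [IsLocalRing O']

/-- **Eisenstein criterion for `RamifiedExt`**: if `O'` is free over `O` on `1, π', …, π'^(n)`
(`e = n + 1`) and `π'` is a root of an Eisenstein polynomial
`T^e - ∑_{i<e} c_i T^i`, `c_i ∈ q O`, `c_0 = q · unit`, then `O → O'` is a `RamifiedExt`. -/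
theorem ramifiedExt_of_powerBasis (f : O →+* O') (q : O) (π' : O') (n : ℕ)
    (hgen : ∀ y : O', ∃ a : ℕ → O, y = ∑ i ∈ Finset.range (n + 1), f (a i) * π' ^ i)
    (hind : ∀ a : ℕ → O, ∑ i ∈ Finset.range (n + 1), f (a i) * π' ^ i = 0 →
      ∀ i < n + 1, a i = 0)
    (c : ℕ → O) (hc : ∀ i, c i ∈ Ideal.span {q}) (hc0 : ∃ ε : Oˣ, c 0 = q * ε)
    (heis : π' ^ (n + 1) = ∑ i ∈ Finset.range (n + 1), f (c i) * π' ^ i)
    (hπ' : π' ∈ maximalIdeal O') : RamifiedExt f q π' (n + 1) where
  he := by omega
  assoc := by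
    obtain ⟨ε₀, hε₀⟩ := hc0
    choose d hd using fun i => Ideal.mem_span_singleton'.mp (hc i)
    -- `π'^e = f q * w` with `w` a unit
    set w : O' := f ε₀ + π' * ∑ i ∈ Finset.range n, f (d (i + 1)) * π' ^ i with hw
    have hwu : IsUnit w := by
      by_contra hnu
      have h1 : w ∈ maximalIdeal O' := (mem_maximalIdeal _).mpr hnu
      have h2 : f ε₀ ∈ maximalIdeal O' := by
        have : f (ε₀ : O) = w - π' * ∑ i ∈ Finset.range n, f (d (i + 1)) * π' ^ i := by
          rw [hw]; ring
        rw [this]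
        exact Ideal.sub_mem _ h1 (Ideal.mul_mem_right _ _ hπ')
      exact (mem_maximalIdeal _).mp h2 (ε₀.isUnit.map f)
    have hpow : π' ^ (n + 1) = f q * w := by
      rw [heis, Finset.sum_range_succ', hw, pow_zero, mul_one, hε₀, map_mul, mul_add,
        Finset.mul_sum, Finset.mul_sum, add_comm]
      congr 1
      apply Finset.sum_congr rfl
      intro i _
      rw [← hd (i + 1), map_mul, pow_succ]
      ring
    refine ⟨hwu.unit⁻¹, ?_⟩
    rw [hpow, mul_assoc, IsUnit.mul_val_inv, mul_one]
  nonunit := hπ'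
  surj := by
    intro y
    obtain ⟨a, rfl⟩ := hgen y
    refine ⟨a 0, ?_⟩
    rw [Finset.sum_range_succ', pow_zero, mul_one, add_sub_cancel_right,
      Ideal.mem_span_singleton']
    refine ⟨∑ i ∈ Finset.range n, f (a (i + 1)) * π' ^ i, ?_⟩
    rw [Finset.sum_mul]
    apply Finset.sum_congr rfl
    intro i _
    rw [pow_succ]; ring
  inj := by
    intro x hx
    obtain ⟨y, hy⟩ := Ideal.mem_span_singleton'.mp hx
    obtain ⟨b, rfl⟩ := hgen y
    -- coefficients of `π' * y`
    let coef : ℕ → O := fun j => if j = 0 then b n * c 0 else b (j - 1) + b n * c j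
    have hsum : (∑ i ∈ Finset.range (n + 1), f (b i) * π' ^ i) * π' =
        ∑ j ∈ Finset.range (n + 1), f (coef j) * π' ^ j := by
      rw [Finset.sum_mul, Finset.sum_range_succ, Finset.sum_range_succ' (fun j => f (coef j) * π' ^ j)]
      have e1 : f (b n) * π' ^ n * π' = f (b n) * π' ^ (n + 1) := by rw [pow_succ]; ring
      rw [e1, heis, Finset.sum_range_succ' (fun i => f (c i) * π' ^ i), mul_add, Finset.mul_sum,
        ← add_assoc, ← Finset.sum_add_distrib]
      congr 1
      · apply Finset.sum_congr rfl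
        intro i _
        simp only [coef, Nat.add_one_ne_zero, if_false, Nat.add_sub_cancel, map_add, map_mul]
        rw [pow_succ]; ring
      · simp only [coef, if_true, map_mul, pow_zero, mul_one]
    -- uniqueness of the coordinates
    let a : ℕ → O := fun j => if j = 0 then x - coef 0 else -coef j
    have hzero : ∑ j ∈ Finset.range (n + 1), f (a j) * π' ^ j = 0 := by
      have e2 : ∑ j ∈ Finset.range (n + 1), f (a j) * π' ^ j =
          f x - ∑ j ∈ Finset.range (n + 1), f (coef j) * π' ^ j := by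
        rw [Finset.sum_range_succ' (fun j => f (a j) * π' ^ j),
          Finset.sum_range_succ' (fun j => f (coef j) * π' ^ j)]
        simp only [a, Nat.add_one_ne_zero, if_false, if_true, map_neg, map_sub, neg_mul,
          Finset.sum_neg_distrib, pow_zero, mul_one]
        ring
      rw [e2, ← hsum, hy, sub_self]
    have h0 := hind a hzero 0 (by omega)
    simp only [a, if_true, coef] at h0
    have hx0 : x = b n * c 0 := sub_eq_zero.mp h0
    rw [hx0]
    exact Ideal.mul_mem_left _ _ (hc 0)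

end Eisenstein

end Fermat.Agent.BR.CentreBC
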