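/-
Program B (bad reduction), block B7, node B7.3-BC, complement (helper20): UNRAMIFIED base change
of the local data (the residue field may grow).  `BR/CentreBaseChange.lean` (`RamifiedExt`) covers
the base changes `O → O'` with `O / q ≅ O' / π'` (totally ramified, or algebraically closed
residue field); here `f : O → O'` is a local homomorphism of local rings with
`𝔪' = 𝔪 O'` (unramified) and `p1 O' ∩ p2 O' = (p1 ∩ p2) O'` (automatic when `f` is flat), e.g. the
localisation of `O ⊗_W W'` at a maximal ideal, `W'/W` finite unramified.
* `nodeData_map` : `NodeData q u v p1 p2 → NodeData (f q) (f u) (f v) (p1 O') (p2 O')`;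
* `regular_map` : `𝔪 = (q, t) → 𝔪' = (f q, f t)`;
* `mul_eq_map` : `u v = q^m ε → f u f v = (f q)^m f ε` (same thickness).
Mathlib + `BR/NodeLemma`.
-/
import Mathlib
import Fermat.Agent.BR.NodeLemma

set_option autoImplicit false

namespace Fermat.Agent.BR.CentreBCUnram

open IsLocalRing Fermat.Agent.BR.NodeLemma

variable {O O' : Type*} [CommRing O] [CommRing O'] [IsLocalRing O] [IsLocalRing O']

/-- **Unramified base change of the node data.** -/
theorem nodeData_map (f : O →+* O') (hmax : maximalIdeal O' = (maximalIdeal O).map f)
    {q u v : O} {p1 p2 : Ideal O} (hinter : p1.map f ⊓ p2.map f = (p1 ⊓ p2).map f)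
    (hN : NodeData q u v p1 p2) : NodeData (f q) (f u) (f v) (p1.map f) (p2.map f) where
  inter := by rw [hinter, hN.inter, Ideal.map_span, Set.image_singleton]
  hu := Ideal.mem_map_of_mem f hN.hu
  hv := Ideal.mem_map_of_mem f hN.hv
  max1 := by rw [hmax, hN.max1, Ideal.map_sup, Ideal.map_span, Set.image_singleton]
  max2 := by rw [hmax, hN.max2, Ideal.map_sup, Ideal.map_span, Set.image_singleton]

/-- **Unramified base change of a regular point.** -/
theorem regular_map (f : O →+* O') (hmax : maximalIdeal O' = (maximalIdeal O).map f) {q t : O}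
    (h : maximalIdeal O = Ideal.span {q} ⊔ Ideal.span {t}) :
    maximalIdeal O' = Ideal.span {f q} ⊔ Ideal.span {f t} := by
  rw [hmax, h, Ideal.map_sup, Ideal.map_span, Ideal.map_span, Set.image_singleton,
    Set.image_singleton]

omit [IsLocalRing O] [IsLocalRing O'] in
/-- the thickness does not change -/
theorem mul_eq_map (f : O →+* O') {q u v ε : O} {m : ℕ} (huv : u * v = q ^ m * ε) :
    f u * f v = f q ^ m * f ε := by
  rw [← map_mul, huv, map_mul, map_pow]

end Fermat.Agent.BR.CentreBCUnram
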