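import Fermat.Agent.BR.CentreRed

/-!
# Program B, node B7.3 (K-level bridge): a place of `F / K` and the subfields of finite level

`F / K` a function field (`K = ℚ̄`), `P` a place, `F' ⊆ F` a subfield (the function field
`F_{K'}` over a finite level `K'`), `O ⊆ F'` a ring of functions (the local ring `O_{n,W'}` of the
normal model at the centre of `P`).

* `restrictVS P F'` : the valuation ring `O_P ∩ F'` of `F'` (`mem_restrictVS_iff`);
  `IntegralAt.le_restrictVS` : it contains `O` when `P` is integral on `O`;
  `restrictVS_ne_top` : it is not `F'` as soon as `F'` contains a function with a zero at `P`;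
* `horizPrime A O P h := ker (evHom A O P h)` : the horizontal prime of `O` defined by `P`
  (`mem_horizPrime_iff` : `y(P) = 0`; `horizPrime_le_centre`; `algebraMap_not_mem_horizPrime`);
  `inv_mem_restrictVS_of_not_mem_horizPrime` : the localisation of `O` at it lies in `O_P ∩ F'`;
* `eq_or_eq_top_of_le` : a valuation ring of `F'` containing a discrete valuation ring `V` is `V`
  or `F'`; hence `restrictVS_eq_of_le` : `V ≤ O_P ∩ F' ⇒ V = O_P ∩ F'`;
* **`ord_eq_one_of_generator`** (no ramification in the constant field extension): if `F'` contains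
  a uniformiser of `P` and `t` generates the maximal ideal of the discrete valuation ring
  `V = O_P ∩ F'`, then `P.ord t = 1`; `ord_eq_of_eq_zpow_mul` : `P.ord y = m` for
  `y = t ^ m * w`, `w` a unit of `V`.
-/

set_option autoImplicit false

open IsLocalRing AlgebraicCurve

namespace Fermat.Agent.BR.Centre

open Fermat.Agent.Red Fermat.Agent.X0

variable {K F : Type*} [Field K] [Field F] [Algebra K F]

/-! ### restriction of a place to a subfield -/

/-- The valuation ring `O_P ∩ F'` of the subfield `F'`. -/
def restrictVS (P : Place K F) (F' : Subfield F) : ValuationSubring F' :=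
  P.toValuationSubring.comap F'.subtype

theorem mem_restrictVS_iff {P : Place K F} {F' : Subfield F} {z : F'} :
    z ∈ restrictVS P F' ↔ 0 ≤ P.ord (z : F) := by
  unfold restrictVS
  rw [ValuationSubring.mem_comap]
  exact Place.mem_iff_ord_nonneg P

theorem restrictVS_ne_top {P : Place K F} {F' : Subfield F} {z : F'} (hz : P.ord (z : F) < 0) :
    restrictVS P F' ≠ ⊤ := by
  intro h
  have : z ∈ restrictVS P F' := by rw [h]; exact ValuationSubring.mem_top z
  rw [mem_restrictVS_iff] at this
  omega

theorem IntegralAt.le_restrictVS {A : ValuationSubring K} {O : Subring F} {P : Place K F}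
    {F' : Subfield F} (h : IntegralAt A O P) {z : F'} (hz : (z : F) ∈ O) :
    z ∈ restrictVS P F' :=
  mem_restrictVS_iff.mpr (h.ord_nonneg hz)

/-! ### the horizontal prime of a place -/

section HorizPrime

variable {A : ValuationSubring K} {O : Subring F} {P : Place K F}

/-- The horizontal prime of `O` defined by the place `P`: the functions of `O` vanishing at `P`. -/
noncomputable def horizPrime (h : IntegralAt A O P) : Ideal O := RingHom.ker (evHom A O P h)

theorem mem_horizPrime_iff (h : IntegralAt A O P) (y : O) :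
    y ∈ horizPrime h ↔ evalAt P (y : F) = 0 := by
  unfold horizPrime
  rw [RingHom.mem_ker]
  constructor
  · intro h0
    have := congrArg (fun a : A => (a : K)) h0
    simpa [coe_evHom] using this
  · intro h0
    exact Subtype.ext (by rw [coe_evHom, h0]; rfl)

instance horizPrime_isPrime (h : IntegralAt A O P) : (horizPrime h).IsPrime :=
  RingHom.ker_isPrime _

/-- The functions of the horizontal prime are the functions of `O` which are zero or have a zero
at `P`. -/
theorem mem_horizPrime_iff_ord (h : IntegralAt A O P) (y : O) :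
    y ∈ horizPrime h ↔ (y : F) = 0 ∨ 0 < P.ord (y : F) := by
  rw [mem_horizPrime_iff]
  constructor
  · intro h0
    have h1 := h.isValueAt_evalAt y.2
    rw [h0, isValueAt_zero_iff, adicValuation_lt_one_iff] at h1
    exact h1
  · intro h0
    apply evalAt_eq_of_isValueAt
    rw [isValueAt_zero_iff, adicValuation_lt_one_iff]
    exact h0

theorem horizPrime_le_centre (h : IntegralAt A O P) : horizPrime h ≤ centre h := by
  intro y hy
  rw [mem_horizPrime_iff] at hy
  rw [mem_centre_iff, hy, map_zero]
  exact zero_lt_one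

/-- Nonzero constants do not lie in the horizontal prime. -/
theorem algebraMap_not_mem_horizPrime (h : IntegralAt A O P) {c : K} (hc : c ≠ 0)
    (hcO : algebraMap K F c ∈ O) : (⟨algebraMap K F c, hcO⟩ : O) ∉ horizPrime h := by
  rw [mem_horizPrime_iff]
  show evalAt P (algebraMap K F c) ≠ 0
  rw [evalAt_algebraMap]
  exact hc

/-- The inverse of a function of `O` outside the horizontal prime is regular at `P`. -/
theorem inv_mem_restrictVS_of_not_mem_horizPrime (h : IntegralAt A O P) {F' : Subfield F}
    {z : F'} (hzO : (z : F) ∈ O) (hz : (⟨(z : F), hzO⟩ : O) ∉ horizPrime h) :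
    z⁻¹ ∈ restrictVS P F' := by
  rw [mem_restrictVS_iff]
  have h0 : evalAt P (z : F) ≠ 0 := fun h0 => hz ((mem_horizPrime_iff h _).mpr h0)
  have h1 : P.ord (z : F) = 0 := (h.isValueAt_evalAt hzO).ord_eq_zero h0
  show 0 ≤ P.ord ((z : F)⁻¹)
  rw [P.ord_inv, h1, neg_zero]

end HorizPrime

/-! ### valuation rings containing a discrete valuation ring -/

/-- A valuation ring containing a discrete valuation ring `V` of the same field is `V` or the whole
field. -/
theorem eq_or_eq_top_of_le {L : Type*} [Field L] (V S : ValuationSubring L)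
    [IsDiscreteValuationRing V] (hVS : V ≤ S) : S = V ∨ S = ⊤ := by
  have h1 := ValuationSubring.ofPrime_idealOfLE V S hVS
  by_cases hbot : V.idealOfLE S hVS = ⊥
  · right
    rw [← h1]
    have : ValuationSubring.ofPrime V (V.idealOfLE S hVS) = ValuationSubring.ofPrime V ⊥ := by
      congr 1
    rw [this, ValuationSubring.ofPrime_bot]
  · left
    have hmax : V.idealOfLE S hVS = maximalIdeal V := by
      have hprime : (V.idealOfLE S hVS).IsPrime := inferInstance
      have hM : (V.idealOfLE S hVS).IsMaximal := hprime.isMaximal hbot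
      exact IsLocalRing.eq_maximalIdeal hM
    rw [← h1]
    have : ValuationSubring.ofPrime V (V.idealOfLE S hVS) =
        ValuationSubring.ofPrime V (maximalIdeal V) := by
      congr 1
    rw [this, ValuationSubring.ofPrime_top]

/-- A discrete valuation ring of `F'` contained in `O_P ∩ F'` is equal to it (when the latter is
not the whole of `F'`). -/
theorem restrictVS_eq_of_le {P : Place K F} {F' : Subfield F} (V : ValuationSubring F')
    [IsDiscreteValuationRing V] (hV : V ≤ restrictVS P F') (hne : restrictVS P F' ≠ ⊤) :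
    restrictVS P F' = V :=
  (eq_or_eq_top_of_le V _ hV).resolve_right hne

/-! ### no ramification in the constant field extension -/

/-- **A generator of the maximal ideal of `O_P ∩ F'` is a uniformiser at `P`**, as soon as `F'`
contains some uniformiser of `P`.  (`t` generates: every `z ∈ F'` with a zero at `P` is `t * w`
with `w ∈ F'` regular at `P`.) -/
theorem ord_eq_one_of_generator {P : Place K F} {F' : Subfield F} {t : F'}
    (htpos : 0 < P.ord (t : F))
    (hgen : ∀ z : F', 0 < P.ord (z : F) → ∃ w : F', 0 ≤ P.ord (w : F) ∧ z = t * w)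
    (hunif : ∃ ϖ : F', P.ord (ϖ : F) = 1) : P.ord (t : F) = 1 := by
  obtain ⟨ϖ, hϖ⟩ := hunif
  obtain ⟨w, hw, hϖw⟩ := hgen ϖ (by omega)
  have ht0 : (t : F) ≠ 0 := by
    intro h0
    rw [h0] at htpos
    simp at htpos
  have hw0 : (w : F) ≠ 0 := by
    intro h0
    have : (ϖ : F) = 0 := by
      rw [hϖw]
      push_cast
      rw [h0, mul_zero]
    rw [this] at hϖ
    simp at hϖ
  have h1 : P.ord (ϖ : F) = P.ord (t : F) + P.ord (w : F) := by
    rw [hϖw]
    push_cast
    exact P.ord_mul ht0 hw0
  omega

/-- The same with the discrete valuation ring `V = O_P ∩ F'` given abstractly: `V ≤ O_P ∩ F'`,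
`t ∈ V` generates the maximal ideal of `V` (every `z ∈ V` with `z⁻¹ ∉ V` is `t * w`, `w ∈ V`). -/
theorem ord_eq_one_of_dvr {P : Place K F} {F' : Subfield F} (V : ValuationSubring F')
    [IsDiscreteValuationRing V] (hV : V ≤ restrictVS P F') (hne : restrictVS P F' ≠ ⊤)
    {t : F'} (htV : t ∈ V) (ht : t⁻¹ ∉ V)
    (hgen : ∀ z : F', z ∈ V → z⁻¹ ∉ V → ∃ w : F', w ∈ V ∧ z = t * w)
    (hunif : ∃ ϖ : F', P.ord (ϖ : F) = 1) : P.ord (t : F) = 1 := by
  have hVeq : restrictVS P F' = V := restrictVS_eq_of_le V hV hne
  have key : ∀ z : F', z ∈ V ↔ 0 ≤ P.ord (z : F) := by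
    intro z
    rw [← hVeq]
    exact mem_restrictVS_iff
  have ht1 : 0 ≤ P.ord (t : F) := (key t).mp htV
  have ht2 : ¬ 0 ≤ P.ord ((t⁻¹ : F') : F) := fun h => ht ((key _).mpr h)
  have ht3 : P.ord ((t⁻¹ : F') : F) = -P.ord (t : F) := by
    push_cast
    exact P.ord_inv _
  apply ord_eq_one_of_generator (by omega) _ hunif
  intro z hz
  have hzV : z ∈ V := (key z).mpr hz.le
  have hz' : z⁻¹ ∉ V := by
    intro h
    have h1 := (key _).mp h
    have h2 : P.ord ((z⁻¹ : F') : F) = -P.ord (z : F) := by
      push_cast
      exact P.ord_inv _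
    omega
  obtain ⟨w, hwV, hzw⟩ := hgen z hzV hz'
  exact ⟨w, (key w).mp hwV, hzw⟩

/-- `P.ord (t ^ m * w) = m * P.ord t` for `w` a unit at `P`. -/
theorem ord_eq_of_eq_zpow_mul {P : Place K F} {t w y : F} (ht : P.ord t = 1) (hw0 : w ≠ 0)
    (hw : P.ord w = 0) {m : ℤ} (hy : y = t ^ m * w) : P.ord y = m := by
  have ht0 : t ≠ 0 := by
    intro h0
    rw [h0] at ht
    simp at ht
  rw [hy, P.ord_mul (zpow_ne_zero m ht0) hw0, P.ord_zpow, ht, hw, mul_one, add_zero]

end Fermat.Agent.BR.Centre
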