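import Fermat.Agent.BR.Centre
import Fermat.Agent.X0.Alg.PlaceBasic

/-!
# Program B, node B7.3-PLACE / D8 (complement): orders of functions at a place integral on a ring

Complement to `BR/Centre.lean` (requested by the architect for B7.5 / B6.6, to turn centres into
the field `r` of `SS.SemistableSetup`): for a place `P` integral on the ring `R`,

* `IntegralAt.mem_toValuationSubring`, `IntegralAt.ord_nonneg` : functions of `R` are regular at
  `P`;
* `IntegralAt.ord_eq_zero` : a function of `R` outside the centre of `P` has order `0` at `P`;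
* `IntegralAt.mem_centre_of_ord_pos` : a function of `R` vanishing at `P` lies in the centre;
* `IntegralAt.le_toValuationSubring` : `R ≤ O_P`;
* `IntegralAt.isUnit_spHom_of_isUnit` : units of `R` do not lie in the centre;
* `CentredAt.mem_centre_iff_not_isUnit` : for `P` centred at the local ring `R`, the centre is
  exactly the set of non-units.
-/

set_option autoImplicit false

open IsLocalRing AlgebraicCurve

namespace Fermat.Agent.BR.Centre

open Fermat.Agent.Red Fermat.Agent.BR.InertiaRed Fermat.Agent.X0

variable {K F : Type*} [Field K] [Field F] [Algebra K F]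
variable {A : ValuationSubring K} {R : Subring F} {P : Place K F}

theorem IntegralAt.mem_toValuationSubring (h : IntegralAt A R P) {y : F} (hy : y ∈ R) :
    y ∈ P.toValuationSubring :=
  (h.isValueAt_evalAt hy).mem

theorem IntegralAt.le_toValuationSubring (h : IntegralAt A R P) :
    R ≤ P.toValuationSubring.toSubring :=
  fun _ hy => h.mem_toValuationSubring hy

/-- Functions of `R` are regular at `P`. -/
theorem IntegralAt.ord_nonneg (h : IntegralAt A R P) {y : F} (hy : y ∈ R) : 0 ≤ P.ord y :=
  Place.ord_nonneg_of_mem P (h.mem_toValuationSubring hy)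

/-- A function of `R` outside the centre of `P` has order `0` at `P`. -/
theorem IntegralAt.ord_eq_zero (h : IntegralAt A R P) {y : F} (hy : y ∈ R)
    (hsp : spHom A R P h ⟨y, hy⟩ ≠ 0) : P.ord y = 0 := by
  have h0 : evalAt P y ≠ 0 := by
    intro h0
    apply hsp
    rw [spHom_eq_zero_iff]
    show A.valuation (evalAt P y) < 1
    rw [h0, map_zero]
    exact zero_lt_one
  exact (h.isValueAt_evalAt hy).ord_eq_zero h0

/-- A function of `R` vanishing at `P` lies in the centre of `P`. -/
theorem IntegralAt.mem_centre_of_ord_pos (h : IntegralAt A R P) {y : F} (hy : y ∈ R)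
    (hpos : 0 < P.ord y) : (⟨y, hy⟩ : R) ∈ centre h := by
  by_contra hn
  have h1 : spHom A R P h ⟨y, hy⟩ ≠ 0 := fun h0 => hn (RingHom.mem_ker.mpr h0)
  have := h.ord_eq_zero hy h1
  omega

/-- Units of `R` do not lie in the centre. -/
theorem IntegralAt.not_mem_centre_of_isUnit (h : IntegralAt A R P) {y : R} (hy : IsUnit y) :
    y ∉ centre h := by
  intro hmem
  have h1 : spHom A R P h y = 0 := RingHom.mem_ker.mp hmem
  have h2 := hy.map (spHom A R P h)
  rw [h1] at h2
  exact not_isUnit_zero h2

/-- For a place centred at the local ring `R`, the centre is the set of non-units. -/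
theorem CentredAt.mem_centre_iff_not_isUnit (h : CentredAt A R P) (y : R) :
    y ∈ centre h.choose ↔ ¬ IsUnit y :=
  ⟨fun hy hu => h.choose.not_mem_centre_of_isUnit hu hy, h.choose_spec y⟩

/-- For a place centred at the local ring `R`: units of `R` have order `0` at `P`. -/
theorem IntegralAt.ord_eq_zero_of_isUnit (h : IntegralAt A R P) {y : R} (hy : IsUnit y) :
    P.ord (y : F) = 0 := by
  apply h.ord_eq_zero y.2
  intro h0
  exact h.not_mem_centre_of_isUnit hy (RingHom.mem_ker.mpr h0)

/-- For a place centred at the local ring `R`: non-units of `R` take values of valuation `< 1`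
at `P`. -/
theorem CentredAt.valuation_evalAt_lt_one (h : CentredAt A R P) {y : R} (hy : ¬ IsUnit y) :
    A.valuation (evalAt P (y : F)) < 1 := by
  obtain ⟨h1, h2⟩ := h
  exact (mem_centre_iff h1 y).mp (h2 y hy)

end Fermat.Agent.BR.Centre
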