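import Fermat.Agent.BR.CentreOrd

/-!
# Program B, node B6.6 (centre side): evaluation homomorphism, integral closure, and the relational
reduction of a place on a component

Continuation of `BR/Centre.lean`.

* `evHom A R P h : R →+* A` : the evaluation `y ↦ y(P)` of the functions of `R` at a place `P`
  integral on `R`; `spHom = residue ∘ evHom`;
* `evalHom P hdeg : O_P →+* K` : evaluation at a place of degree one;
* `IntegralAt.of_isIntegral`, `IntegralAt.integralClosure` : a place integral on `R` is integral on
  the integral closure of `R` in `F` (so that integrality on the integral closure `B` of `W[j]` is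
  checked on the single function `j`);
* `IsRedOf A R O res hRO P Q` : **the place `Q` of the residue function field `Ft` of the component
  `(O, res)` is the reduction of `P`**, tested on the ring of functions `R ≤ O`: the value of
  `res y` at `Q` is `π (y(P))`, for all `y ∈ R` (`π : A →+* k` as in `SS.SemistableSetup`);
* `isRedOf_smul_iff_of_fixed` : **`Compat` with `α = 1`**: for an inertia-like `g` fixing `R`
  pointwise, `Q` is the reduction of `g • P` iff it is the reduction of `P`;
* `IsRedOf.unique` : uniqueness of `Q` when the residues of `R` separate the places of `Ft`.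
-/

set_option autoImplicit false

open IsLocalRing AlgebraicCurve Polynomial

namespace Fermat.Agent.BR.Centre

open Fermat.Agent.Red Fermat.Agent.BR.InertiaRed Fermat.Agent.X0

variable {K F : Type*} [Field K] [Field F] [Algebra K F]

/-! ### the evaluation homomorphisms -/

section EvHom

variable (A : ValuationSubring K) (R : Subring F) (P : Place K F)

/-- The evaluation `y ↦ y(P)` on a ring of functions on which `P` is integral. -/
noncomputable def evHom (h : IntegralAt A R P) : R →+* A where
  toFun y := ⟨evalAt P (y : F), h.evalAt_mem y.2⟩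
  map_one' := Subtype.ext (evalAt_eq_of_isValueAt (isValueAt_one P))
  map_mul' x y := Subtype.ext
    (evalAt_eq_of_isValueAt ((h.isValueAt_evalAt x.2).mul (h.isValueAt_evalAt y.2)))
  map_zero' := Subtype.ext (evalAt_eq_of_isValueAt (isValueAt_zero P))
  map_add' x y := Subtype.ext
    (evalAt_eq_of_isValueAt ((h.isValueAt_evalAt x.2).add (h.isValueAt_evalAt y.2)))

variable {A R P}

theorem coe_evHom (h : IntegralAt A R P) (y : R) : (evHom A R P h y : K) = evalAt P (y : F) := rfl

theorem spHom_eq_residue_evHom (h : IntegralAt A R P) (y : R) :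
    spHom A R P h y = residue A (evHom A R P h y) := by
  rw [spHom_apply]
  exact resOf_of_mem A (h.evalAt_mem y.2)

end EvHom

/-- Evaluation at a place of degree one, as a ring homomorphism on the valuation ring. -/
noncomputable def evalHom (P : Place K F) (hdeg : P.deg = 1) : P.toValuationSubring →+* K where
  toFun y := evalAt P (y : F)
  map_one' := evalAt_eq_of_isValueAt (isValueAt_one P)
  map_mul' x y := evalAt_mul P hdeg x.2 y.2
  map_zero' := evalAt_eq_of_isValueAt (isValueAt_zero P)
  map_add' x y := evalAt_add P hdeg x.2 y.2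

theorem evalHom_apply (P : Place K F) (hdeg : P.deg = 1) (y : P.toValuationSubring) :
    evalHom P hdeg y = evalAt P (y : F) := rfl

/-! ### integral closure -/

section IntegralClosure

variable {A : ValuationSubring K} {R : Subring F} {P : Place K F}

/-- An element of `F` integral over `R` is regular at every place integral on `R`. -/
theorem IntegralAt.mem_of_isIntegral (h : IntegralAt A R P) {y : F} (hy : IsIntegral R y) :
    y ∈ P.toValuationSubring := by
  have h1 : IsIntegral P.toValuationSubring y := by
    obtain ⟨p, hp, hpy⟩ := hy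
    refine ⟨p.map (Subring.inclusion h.le_toValuationSubring), hp.map _, ?_⟩
    rw [eval₂_map]
    exact hpy
  obtain ⟨z, hz⟩ := (IsIntegrallyClosed.isIntegral_iff (R := P.toValuationSubring) (K := F)).mp h1
  rw [← hz]
  exact z.2

/-- **The value of an integral element is integral**: a place of degree one integral on `R` takes
an integral value on every element of `F` integral over `R`. -/
theorem IntegralAt.of_isIntegral (hdeg : P.deg = 1) (h : IntegralAt A R P) {y : F}
    (hy : IsIntegral R y) : ∃ c : K, c ∈ A ∧ IsValueAt P y c := by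
  have hyP : y ∈ P.toValuationSubring := h.mem_of_isIntegral hy
  refine ⟨evalAt P y, ?_, Fermat.Agent.Red.isValueAt_evalAt P hdeg hyP⟩
  obtain ⟨p, hp, hpy⟩ := hy
  -- the image of `p` in `A[X]` is monic and kills `evalAt P y`
  have hint : IsIntegral A (evalAt P y) := by
    refine ⟨p.map (evHom A R P h), hp.map _, ?_⟩
    rw [eval₂_map]
    have hcomp : (algebraMap A K).comp (evHom A R P h) =
        (evalHom P hdeg).comp (Subring.inclusion h.le_toValuationSubring) := by
      ext z
      rfl
    rw [hcomp]
    have h2 := Polynomial.hom_eval₂ p (Subring.inclusion h.le_toValuationSubring)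
      (evalHom P hdeg) (⟨y, hyP⟩ : P.toValuationSubring)
    have h3 : eval₂ (Subring.inclusion h.le_toValuationSubring)
        (⟨y, hyP⟩ : P.toValuationSubring) p = 0 := by
      apply Subtype.ext
      have h4 := Polynomial.hom_eval₂ p (Subring.inclusion h.le_toValuationSubring)
        (P.toValuationSubring.subtype) (⟨y, hyP⟩ : P.toValuationSubring)
      rw [ZeroMemClass.coe_zero]
      refine Eq.trans h4 ?_
      exact hpy
    rw [h3, map_zero] at h2
    exact h2.symm
  obtain ⟨z, hz⟩ := (IsIntegrallyClosed.isIntegral_iff (R := A) (K := K)).mp hint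
  rw [← hz]
  exact z.2

/-- A place of degree one integral on `R` is integral on the integral closure of `R` in `F`. -/
theorem IntegralAt.integralClosure (hdeg : P.deg = 1) (h : IntegralAt A R P) :
    IntegralAt A (integralClosure R F).toSubring P :=
  fun _ hy => h.of_isIntegral hdeg hy

end IntegralClosure

/-! ### the relational reduction of a place on a component -/

section IsRedOf

variable {k Ft : Type*} [Field k] [Field Ft] [Algebra k Ft]

/-- The place `Q` of the residue function field of the component `(O, res)` is the reduction of the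
place `P`, tested on the ring of functions `R ≤ O`: `P` is integral on `R` and the value of `res y`
at `Q` is the reduction `π (y(P))` of the value of `y` at `P`, for every `y ∈ R`.
(`π : A →+* k` is the residue map of the base, as in `SS.SemistableSetup`.) -/
def IsRedOf (A : ValuationSubring K) (π : A →+* k) (R : Subring F)
    (O : ValuationSubring F) (res : O →+* Ft) (hRO : R ≤ O.toSubring) (P : Place K F)
    (Q : Place k Ft) : Prop :=
  ∃ h : IntegralAt A R P, ∀ (y : F) (hy : y ∈ R),
    IsValueAt Q (res ⟨y, hRO hy⟩) (π (evHom A R P h ⟨y, hy⟩))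

variable {A : ValuationSubring K} {π : A →+* k} {R : Subring F}
  {O : ValuationSubring F} {res : O →+* Ft} {hRO : R ≤ O.toSubring} {P : Place K F}
  {Q Q' : Place k Ft}

theorem IsRedOf.integralAt (h : IsRedOf A π R O res hRO P Q) : IntegralAt A R P := h.choose

theorem IsRedOf.isValueAt (h : IsRedOf A π R O res hRO P Q) {y : F} (hy : y ∈ R) :
    IsValueAt Q (res ⟨y, hRO hy⟩) (π (evHom A R P h.integralAt ⟨y, hy⟩)) :=
  h.choose_spec y hy

/-- The residues of the functions of `R` are regular at the reduction. -/
theorem IsRedOf.ord_nonneg (h : IsRedOf A π R O res hRO P Q) {y : F} (hy : y ∈ R) :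
    0 ≤ Q.ord (res ⟨y, hRO hy⟩) :=
  Place.ord_nonneg_of_mem Q (h.isValueAt hy).mem

/-- A function of `R` whose residue does not vanish at the reduction `Q` of `P` does not vanish at
`P` (it lies outside the centre). -/
theorem IsRedOf.ord_eq_zero_of_ord_eq_zero (hπ : ∀ c : A, A.valuation (c : K) < 1 → π c = 0)
    (h : IsRedOf A π R O res hRO P Q) {y : F} (hy : y ∈ R)
    (h0 : res ⟨y, hRO hy⟩ ≠ 0) (hord : Q.ord (res ⟨y, hRO hy⟩) = 0) : P.ord y = 0 := by
  apply h.integralAt.ord_eq_zero hy
  intro hsp
  have hlt : A.valuation (evalAt P y) < 1 := (spHom_eq_zero_iff h.integralAt ⟨y, hy⟩).mp hsp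
  have h1 := h.isValueAt hy
  rw [hπ _ hlt, isValueAt_zero_iff, adicValuation_lt_one_iff] at h1
  rcases h1 with h1 | h1
  · exact h0 h1
  · omega

/-- **`Compat` with `α = 1`**: for a semilinear automorphism `g` fixing `R` pointwise whose base
automorphism preserves `A` and commutes with `π`, the reduction of `g • P` is the reduction of
`P`. -/
theorem isRedOf_smul_of_fixed (g : SemilinearAut K F)
    (hmem : ∀ c : K, c ∈ A → SemilinearAut.baseAut g c ∈ A)
    (hπ : ∀ (c : K) (hc : c ∈ A), π ⟨SemilinearAut.baseAut g c, hmem c hc⟩ = π ⟨c, hc⟩)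
    (hfix : ∀ y ∈ R, g • y = y) (h : IsRedOf A π R O res hRO P Q) :
    IsRedOf A π R O res hRO (g • P) Q := by
  refine ⟨integralAt_smul_of_fixed hmem hfix h.integralAt, fun y hy => ?_⟩
  have e : evHom A R (g • P) (integralAt_smul_of_fixed hmem hfix h.integralAt) ⟨y, hy⟩ =
      ⟨SemilinearAut.baseAut g (evalAt P y), hmem _ (h.integralAt.evalAt_mem hy)⟩ :=
    Subtype.ext (AnnulusRed.evalAt_smul_of_fixed g P (hfix y hy))
  rw [e, hπ]
  exact h.isValueAt hy

theorem isRedOf_smul_iff_of_fixed (g : SemilinearAut K F)
    (hmem : ∀ c : K, SemilinearAut.baseAut g c ∈ A ↔ c ∈ A)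
    (hπ : ∀ (c : K) (hc : c ∈ A), π ⟨SemilinearAut.baseAut g c, (hmem c).mpr hc⟩ = π ⟨c, hc⟩)
    (hfix : ∀ y ∈ R, g • y = y) :
    IsRedOf A π R O res hRO (g • P) Q ↔ IsRedOf A π R O res hRO P Q := by
  refine ⟨fun h => ?_, isRedOf_smul_of_fixed g (fun c hc => (hmem c).mpr hc) hπ hfix⟩
  have key : ∀ c : K, SemilinearAut.baseAut g (SemilinearAut.baseAut g⁻¹ c) = c := by
    intro c
    rw [SemilinearAut.baseAut_inv]
    exact (SemilinearAut.baseAut g).apply_symm_apply c
  have hmem' : ∀ c : K, c ∈ A → SemilinearAut.baseAut g⁻¹ c ∈ A := by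
    intro c hc
    rw [← hmem (SemilinearAut.baseAut g⁻¹ c), key]
    exact hc
  have hπ' : ∀ (c : K) (hc : c ∈ A), π ⟨SemilinearAut.baseAut g⁻¹ c, hmem' c hc⟩ = π ⟨c, hc⟩ := by
    intro c hc
    have h1 := hπ (SemilinearAut.baseAut g⁻¹ c) (hmem' c hc)
    rw [← h1]
    congr 1
    exact Subtype.ext (key c)
  have hfix' : ∀ y ∈ R, g⁻¹ • y = y := by
    intro y hy
    conv_lhs => rw [← hfix y hy]
    exact inv_smul_smul g y
  have := isRedOf_smul_of_fixed g⁻¹ hmem' hπ' hfix' h
  rwa [inv_smul_smul] at this

/-- **`Compat` with `α = 1`, inertia form** (`π` the residue map of `A`). -/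
theorem isRedOf_residue_smul_iff_of_fixed {R : Subring F} {O : ValuationSubring F}
    {Ft : Type*} [Field Ft] [Algebra (ResidueField A) Ft] {res : O →+* Ft}
    {hRO : R ≤ O.toSubring} {Q : Place (ResidueField A) Ft}
    {g : SemilinearAut K F} (hg : InertiaLike A g) (hfix : ∀ y ∈ R, g • y = y) :
    IsRedOf A (residue A) R O res hRO (g • P) Q ↔ IsRedOf A (residue A) R O res hRO P Q := by
  apply isRedOf_smul_iff_of_fixed g hg.mem_iff _ hfix
  intro c hc
  have h1 := hg.res c hc
  rw [resOf_of_mem A hc, resOf_of_mem A (hg.mem c hc)] at h1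
  exact h1

/-- Uniqueness of the reduction when the residues of `R` separate the places of `Ft`. -/
theorem IsRedOf.unique
    (hsep : ∀ Q₁ Q₂ : Place k Ft, Q₁ ≠ Q₂ → ∃ (y : F) (hy : y ∈ R) (c : k),
      IsValueAt Q₁ (res ⟨y, hRO hy⟩) c ∧ ¬ IsValueAt Q₂ (res ⟨y, hRO hy⟩) c)
    (h : IsRedOf A π R O res hRO P Q) (h' : IsRedOf A π R O res hRO P Q') : Q = Q' := by
  by_contra hne
  obtain ⟨y, hy, c, h1, h2⟩ := hsep Q Q' hne
  have e : c = π (evHom A R P h.integralAt ⟨y, hy⟩) := h1.unique (h.isValueAt hy)
  apply h2
  rw [e]
  exact h'.isValueAt hy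

end IsRedOf

end Fermat.Agent.BR.Centre
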