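import Mathlib
import Fermat.Agent.Good.IgusaExtract

/-!
# Program B, node B6.5(b): the chart algebras are noetherian normal domains — at EVERY level

`B := chartAlgFin N ℓ` is the integral closure of `ℤ_(ℓ)[j]` in `F_N = modularFunctionFieldFull N`
(`B∞ := chartAlgInf N ℓ` : the same with `1/j`).  Nothing below assumes `ℓ ∤ N`: in Program B it is
used with `N = q M`, `ℓ = q`.

Already on main for all `(N, ℓ)` (`Good/IgusaExtract`, namespace `Fermat.Agent.Good.S28X`):
`finite_chartAlgFin/Inf` (module-finite over `ℤ_(ℓ)[j^{±1}]`), `finite_poly_chartAlgFin`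
(module-finite over `ℤ_(ℓ)[X]`), `isFractionRing_chartAlgFin/Inf`, `isIntegrallyClosed_chartAlgFin/Inf`.

New here: `isNoetherianRing_chartAlgFin/Inf`, and the bundles `chartAlgFin_normal`,
`chartAlgInf_normal` (domain + noetherian + integrally closed + fraction field `F_N`), i.e. the
hypotheses of `BR/KrullNormal` and `BR/SpecialFibre`.
-/

set_option autoImplicit false

open ModularCurve ModularCurve.IgusaScheme

namespace Fermat.Agent.BR.ChartAlgNoeth

open Fermat.Agent.Good.S28X Fermat.Agent.Igusa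

variable (N : ℕ) [NeZero N] (ℓ : ℕ) [Fact ℓ.Prime]

set_option quotPrecheck false in
local notation "ℤℓ" => ↥(GaloisRep.ratLocalizedAt ℓ)

set_option quotPrecheck false in
local notation "F" => ↥(modularFunctionFieldFull N)

attribute [local instance] chartBaseAlgebra
attribute [local instance 2000] chartBaseSMul
attribute [local instance 2000] chartBaseModule

/-- The finite chart algebra is a noetherian ring (no hypothesis on `ℓ ∣ N`). -/
theorem isNoetherianRing_chartAlgFin : IsNoetherianRing ↥(chartAlgFin N ℓ) := by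
  have h1 : IsNoetherianRing ↥(Algebra.adjoin ℤℓ ({jFull N} : Set F)) :=
    ChartBaseAux.isNoetherianRing_adjFin N ℓ
  have h2 := finite_chartAlgFin N ℓ
  exact IsNoetherianRing.of_finite ↥(Algebra.adjoin ℤℓ ({jFull N} : Set F)) _

/-- The chart algebra at infinity is a noetherian ring (no hypothesis on `ℓ ∣ N`). -/
theorem isNoetherianRing_chartAlgInf : IsNoetherianRing ↥(chartAlgInf N ℓ) := by
  have h1 : IsNoetherianRing ↥(Algebra.adjoin ℤℓ ({(jFull N)⁻¹} : Set F)) :=
    ChartBaseAux.isNoetherianRing_adjInf N ℓ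
  have h2 := finite_chartAlgInf N ℓ
  exact IsNoetherianRing.of_finite ↥(Algebra.adjoin ℤℓ ({(jFull N)⁻¹} : Set F)) _

/-- **B6.5(b)**: the finite chart is a noetherian integrally closed domain with fraction field
`F_N`, at every level `N` and every prime `ℓ` (`ℓ ∣ N` allowed). -/
theorem chartAlgFin_normal :
    IsDomain ↥(chartAlgFin N ℓ) ∧ IsNoetherianRing ↥(chartAlgFin N ℓ) ∧
      IsIntegrallyClosed ↥(chartAlgFin N ℓ) ∧ IsFractionRing ↥(chartAlgFin N ℓ) F :=
  ⟨inferInstance, isNoetherianRing_chartAlgFin N ℓ, isIntegrallyClosed_chartAlgFin N ℓ,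
    isFractionRing_chartAlgFin N ℓ⟩

/-- The same for the chart at infinity. -/
theorem chartAlgInf_normal :
    IsDomain ↥(chartAlgInf N ℓ) ∧ IsNoetherianRing ↥(chartAlgInf N ℓ) ∧
      IsIntegrallyClosed ↥(chartAlgInf N ℓ) ∧ IsFractionRing ↥(chartAlgInf N ℓ) F :=
  ⟨inferInstance, isNoetherianRing_chartAlgInf N ℓ, isIntegrallyClosed_chartAlgInf N ℓ,
    isFractionRing_chartAlgInf N ℓ⟩

end Fermat.Agent.BR.ChartAlgNoeth
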