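import Mathlib
import Fermat.Agent.BR.BallLattice

/-!
# Program B (BADRED), node B7.AP: best approximation for a component from DVR data

Architect note A1 (5): for the Gauss valuation `w_{n,λ}` of an exceptional component (and for any
component whose valuation ring restricts to *unramified* discrete valuation rings on the
subfields of definition), the best-approximation axiom `approx` of `SS.SemistableSetup` follows
from pure lattice algebra over a discrete valuation ring.

Setting: `B : ResBall A π` (helper6's abstract unit ball `O ⊆ F` over the valuation subring `A` of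
`K`, residue map `res : O →+* R`).  `K'` a subfield of `K` such that `A ∩ K'` is a discrete
valuation ring with uniformizer `ϖ` (`IsDVRSubfield A K' ϖ`, elementary form).  For a family
`w : Fin n → F` let `V' = {comb w c | c ∈ K'ⁿ}` be its `K'`-form.

* **Layer 1** `exists_valid_reduced`: if `ϖ` scales every `w i` into `O` (abs) and `V' ∩ O` is
  bounded in coordinates (bdd), then `V' ∩ O` has a `K'`-basis (rows of an invertible matrix `C`
  over `K'`) which is independent modulo `ϖ`.  Proof: start with a diagonal matrix of powers of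
  `ϖ`; while the rows are dependent modulo `ϖ`, replace a row by `ϖ⁻¹ •` the offending combination;
  this multiplies the determinant by a unit times `ϖ⁻¹`, and the determinant is bounded and
  discretely valued.
* **Layer 2** `exists_latticeBasis_of_form`: if moreover elements of `V' ∩ O` with zero residue
  are divisible by `ϖ` (unr) and residues independent over the residue field of `A ∩ K'` stay
  independent over `k` (indep), the reduced basis has `k`-independent residues, hence is a lattice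
  basis of `(K-span of w) ∩ O` over `A` (helper6's `mem_of_sum_smul_mem`).
* `hasLatticeBases_of_forms`, `approx_of_forms`: `ResBall.HasLatticeBases` / `ResBall.Approx`
  when every finite-dimensional subspace has such a form.
* `bdd_of_eval`: (bdd) from `n` integral `K'`-rational evaluation functionals (maximum
  principle at `n` rational points).
* `IsDVRForm`, `approx_of_fields`: the same with the hypotheses stated on a subfield `F'` of `F`.
-/

set_option autoImplicit false

namespace Fermat.Agent.BR.DVRLattice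

open Fermat.Agent.Red Fermat.Agent.BR

variable {K F k R : Type*} [Field K] [Field F] [Algebra K F] [Field k] [CommRing R]
  [Algebra k R] {A : ValuationSubring K} {π : A →+* k}

/-- `(K', ϖ)` is a discretely valued subfield of `(K, A)`: `ϖ ∈ K'` is a nonzero non-unit of `A`
and every nonzero element of `A ∩ K'` is a power of `ϖ` times a unit of `A`. -/
structure IsDVRSubfield (A : ValuationSubring K) (K' : Subfield K) (ϖ : K) : Prop where
  mem : ϖ ∈ K'
  isModulus : IsModulus A ϖ
  factor : ∀ c ∈ K', c ∈ A → c ≠ 0 → ∃ m : ℕ, ∃ e : K, e ∈ A ∧ e⁻¹ ∈ A ∧ c = ϖ ^ m * e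

namespace IsDVRSubfield

variable {K' : Subfield K} {ϖ : K} (h : IsDVRSubfield A K' ϖ)

include h

theorem pow_mem_A (N : ℕ) : ϖ ^ N ∈ A := pow_mem h.isModulus.mem N

theorem pow_mem_K' (N : ℕ) : ϖ ^ N ∈ K' := pow_mem h.mem N

theorem pow_ne_zero' (N : ℕ) : ϖ ^ N ≠ 0 := pow_ne_zero N h.isModulus.ne_zero

/-- Every element of `K'` is scaled into `A` by a power of the uniformizer. -/
theorem exists_pow_mul_mem {d : K} (hd : d ∈ K') : ∃ N : ℕ, ϖ ^ N * d ∈ A := by
  by_cases hd0 : d = 0
  · exact ⟨0, by simp [hd0, A.zero_mem]⟩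
  rcases A.mem_or_inv_mem d with hdA | hdA
  · exact ⟨0, by simpa using hdA⟩
  · obtain ⟨m, e, -, he', hde⟩ := h.factor d⁻¹ (inv_mem hd) hdA (inv_ne_zero hd0)
    refine ⟨m, ?_⟩
    have hϖ := h.pow_ne_zero' m
    have he0 : e ≠ 0 := by
      rintro rfl
      rw [mul_zero] at hde
      exact inv_ne_zero hd0 hde
    have : ϖ ^ m * d = e⁻¹ := by
      have h1 : d = (ϖ ^ m * e)⁻¹ := by rw [← hde, inv_inv]
      rw [h1, mul_inv, ← mul_assoc, mul_inv_cancel₀ hϖ, one_mul]
    rw [this]
    exact he'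

theorem pow_mul_mem_of_le {d : K} {N M : ℕ} (hNM : N ≤ M) (hd : ϖ ^ N * d ∈ A) :
    ϖ ^ M * d ∈ A := by
  obtain ⟨j, rfl⟩ := Nat.exists_eq_add_of_le hNM
  rw [pow_add, mul_comm (ϖ ^ N), mul_assoc]
  exact A.mul_mem _ _ (h.pow_mem_A j) hd

/-- A finite family of elements of `K'` has a common denominator `ϖ ^ N`. -/
theorem exists_pow_mul_mem_family {ι : Type*} [Finite ι] (d : ι → K) (hd : ∀ i, d i ∈ K') :
    ∃ N : ℕ, ∀ i, ϖ ^ N * d i ∈ A := by
  classical
  cases nonempty_fintype ι
  choose N hN using fun i => h.exists_pow_mul_mem (hd i)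
  exact ⟨Finset.univ.sup N, fun i =>
    h.pow_mul_mem_of_le (Finset.le_sup (Finset.mem_univ i)) (hN i)⟩

/-- An element of `A ∩ K'` which is not divisible by `ϖ` is a unit of `A`. -/
theorem inv_mem_of_not_mem {a : K} (haK : a ∈ K') (haA : a ∈ A) (hna : ϖ⁻¹ * a ∉ A) :
    a ≠ 0 ∧ a⁻¹ ∈ A := by
  have ha0 : a ≠ 0 := by
    rintro rfl
    exact hna (by simp [A.zero_mem])
  refine ⟨ha0, ?_⟩
  obtain ⟨m, e, he, he', hae⟩ := h.factor a haK haA ha0
  rcases Nat.eq_zero_or_pos m with rfl | hm
  · rw [pow_zero, one_mul] at hae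
    rw [hae]
    exact he'
  · exfalso
    apply hna
    obtain ⟨j, rfl⟩ := Nat.exists_eq_succ_of_ne_zero hm.ne'
    have h1 : ϖ⁻¹ * a = ϖ ^ j * e := by
      rw [hae, pow_succ]
      field_simp [h.isModulus.ne_zero]
    rw [h1]
    exact A.mul_mem _ _ (h.pow_mem_A j) he

end IsDVRSubfield

/-- The determinant of a matrix with entries in a subring lies in the subring. -/
theorem det_mem_of_entries {n : ℕ} (S : Subring K) (M : Matrix (Fin n) (Fin n) K)
    (hM : ∀ i j, M i j ∈ S) : M.det ∈ S := by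
  have hM' : M = S.subtype.mapMatrix (Matrix.of fun i j => (⟨M i j, hM i j⟩ : S)) := by
    ext i j
    simp
  rw [hM', ← RingHom.map_det]
  exact Subtype.property _

/-- The `K`-linear combination of the family `w` with coefficient vector `c`. -/
def comb {n : ℕ} (w : Fin n → F) (c : Fin n → K) : F := ∑ i, c i • w i

theorem comb_add {n : ℕ} (w : Fin n → F) (c d : Fin n → K) :
    comb w (c + d) = comb w c + comb w d := by
  simp [comb, add_smul, Finset.sum_add_distrib]

theorem comb_smul {n : ℕ} (w : Fin n → F) (t : K) (c : Fin n → K) :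
    comb w (t • c) = t • comb w c := by
  simp [comb, mul_smul, Finset.smul_sum]

theorem comb_sum {n : ℕ} {ι : Type*} (w : Fin n → F) (s : Finset ι) (c : ι → Fin n → K) :
    comb w (∑ j ∈ s, c j) = ∑ j ∈ s, comb w (c j) := by
  classical
  induction s using Finset.induction_on with
  | empty => simp [comb]
  | insert a s ha ih => rw [Finset.sum_insert ha, Finset.sum_insert ha, comb_add, ih]

/-! ### Layer 1: a bounded `K'`-rational lattice over a discretely valued subfield has a reduced
basis -/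

section Layer1

variable (B : ResBall (F := F) (R := R) A π) {K' : Subfield K} {ϖ : K}

/-- `x` lies in the `K'`-form spanned by `w`. -/
def InForm (K' : Subfield K) {n : ℕ} (w : Fin n → F) (x : F) : Prop :=
  ∃ c : Fin n → K, (∀ i, c i ∈ K') ∧ x = comb w c

/-- The rows of `C` are `K'`-rational coefficient vectors of elements of the unit ball, and `C`
is invertible. -/
structure Valid (K' : Subfield K) {n : ℕ} (w : Fin n → F) (C : Matrix (Fin n) (Fin n) K) :
    Prop where
  rat : ∀ j i, C j i ∈ K'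
  mem : ∀ j, comb w (C j) ∈ B.O
  det_ne : C.det ≠ 0

/-- The rows of `C` are independent modulo `ϖ`. -/
def Reduced (K' : Subfield K) (ϖ : K) {n : ℕ} (w : Fin n → F) (C : Matrix (Fin n) (Fin n) K) :
    Prop :=
  ∀ a : Fin n → K, (∀ j, a j ∈ K') → (∀ j, a j ∈ A) →
    ∀ z ∈ B.O, ∑ j, a j • comb w (C j) = ϖ • z → ∀ j, ϖ⁻¹ * a j ∈ A

variable {B}

theorem Valid.det_mem {n : ℕ} {w : Fin n → F} {C : Matrix (Fin n) (Fin n) K}
    (hC : Valid B K' w C) : C.det ∈ K' :=
  det_mem_of_entries K'.toSubring C hC.rat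

/-- The determinant of a valid matrix is bounded. -/
theorem Valid.pow_mul_det_mem {n : ℕ} {w : Fin n → F} {N : ℕ}
    (hbdd : ∀ c : Fin n → K, (∀ i, c i ∈ K') → comb w c ∈ B.O → ∀ i, ϖ ^ N * c i ∈ A)
    {C : Matrix (Fin n) (Fin n) K} (hC : Valid B K' w C) : ϖ ^ (n * N) * C.det ∈ A := by
  have h1 : (ϖ ^ N • C).det = ϖ ^ (n * N) * C.det := by
    rw [Matrix.det_smul, Fintype.card_fin, ← pow_mul, mul_comm N n]
  rw [← h1]
  refine det_mem_of_entries A.toSubring _ fun j i => ?_
  rw [Matrix.smul_apply, smul_eq_mul]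
  exact hbdd (C j) (hC.rat j) (hC.mem j) i

/-- The starting matrix: a diagonal matrix of powers of the uniformizer. -/
theorem exists_valid (h : IsDVRSubfield A K' ϖ) {n : ℕ} (w : Fin n → F)
    (habs : ∀ i, ∃ N : ℕ, ϖ ^ N • w i ∈ B.O) : ∃ C, Valid B K' w C := by
  classical
  choose N hN using habs
  refine ⟨Matrix.diagonal fun i => ϖ ^ N i, ?_, ?_, ?_⟩
  · intro j i
    by_cases hij : j = i
    · subst hij
      rw [Matrix.diagonal_apply_eq]
      exact h.pow_mem_K' _
    · rw [Matrix.diagonal_apply_ne _ hij]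
      exact K'.zero_mem
  · intro j
    have : comb w ((Matrix.diagonal fun i => ϖ ^ N i) j) = ϖ ^ N j • w j := by
      unfold comb
      rw [Finset.sum_eq_single j]
      · rw [Matrix.diagonal_apply_eq]
      · intro i _ hij
        rw [Matrix.diagonal_apply_ne _ (Ne.symm hij), zero_smul]
      · intro hj
        exact absurd (Finset.mem_univ j) hj
    rw [this]
    exact hN j
  · rw [Matrix.det_diagonal]
    exact Finset.prod_ne_zero_iff.mpr fun i _ => h.pow_ne_zero' _

/-- The reduction step: a valid matrix which is not reduced can be replaced by a valid matrix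
whose determinant is larger by the factor `ϖ⁻¹` (up to a unit). -/
theorem exists_step (h : IsDVRSubfield A K' ϖ) {n : ℕ} {w : Fin n → F}
    {C : Matrix (Fin n) (Fin n) K} (hC : Valid B K' w C) (hred : ¬ Reduced B K' ϖ w C) :
    ∃ C', Valid B K' w C' ∧ ∃ e : K, e ∈ A ∧ e⁻¹ ∈ A ∧ C'.det = ϖ⁻¹ * e * C.det := by
  classical
  unfold Reduced at hred
  push Not at hred
  obtain ⟨a, haK, haA, z, hz, hsum, j₀, hj₀⟩ := hred
  obtain ⟨ha0, hainv⟩ := h.inv_mem_of_not_mem (haK j₀) (haA j₀) hj₀
  have hϖ0 : ϖ ≠ 0 := h.isModulus.ne_zero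
  set r : Fin n → K := ϖ⁻¹ • ∑ j, a j • C j with hr
  refine ⟨C.updateRow j₀ r, ⟨?_, ?_, ?_⟩, a j₀, haA j₀, hainv, ?_⟩
  · intro j i
    by_cases hj : j = j₀
    · subst hj
      rw [Matrix.updateRow_self, hr, Pi.smul_apply, Finset.sum_apply, smul_eq_mul]
      refine K'.mul_mem (K'.inv_mem h.mem) (K'.sum_mem fun l _ => ?_)
      rw [Pi.smul_apply, smul_eq_mul]
      exact K'.mul_mem (haK l) (hC.rat l i)
    · rw [Matrix.updateRow_ne hj]
      exact hC.rat j i
  · intro j
    by_cases hj : j = j₀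
    · subst hj
      rw [Matrix.updateRow_self, hr, comb_smul, comb_sum]
      have : ∑ l, comb w (a l • C l) = ϖ • z := by
        rw [← hsum]
        exact Finset.sum_congr rfl fun l _ => comb_smul w (a l) (C l)
      rw [this, smul_smul, inv_mul_cancel₀ hϖ0, one_smul]
      exact hz
    · rw [Matrix.updateRow_ne hj]
      exact hC.mem j
  · rw [hr, Matrix.det_updateRow_smul, Matrix.det_updateRow_sum, smul_eq_mul]
    exact mul_ne_zero (inv_ne_zero hϖ0) (mul_ne_zero ha0 hC.det_ne)
  · rw [hr, Matrix.det_updateRow_smul, Matrix.det_updateRow_sum, smul_eq_mul, mul_assoc]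

/-- **Layer 1.**  A bounded `K'`-rational lattice has a reduced basis. -/
theorem exists_valid_reduced (h : IsDVRSubfield A K' ϖ) {n : ℕ} (w : Fin n → F)
    (habs : ∀ i, ∃ N : ℕ, ϖ ^ N • w i ∈ B.O)
    (hbdd : ∃ N : ℕ, ∀ c : Fin n → K, (∀ i, c i ∈ K') → comb w c ∈ B.O → ∀ i, ϖ ^ N * c i ∈ A) :
    ∃ C, Valid B K' w C ∧ Reduced B K' ϖ w C := by
  obtain ⟨N, hbdd⟩ := hbdd
  have halg : ∀ (P D e e₁ : K) (d : ℕ), e₁ ≠ 0 → ϖ ^ d = P * D * e →
      P * (ϖ⁻¹ * e₁ * D) * (e * e₁⁻¹) = ϖ⁻¹ * ϖ ^ d := by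
    intro P D e e₁ d he₁ hd
    rw [hd]
    field_simp
  have key : ∀ d : ℕ, ∀ C, Valid B K' w C →
      (∃ e, e ∈ A ∧ ϖ ^ d = ϖ ^ (n * N) * C.det * e) →
      ∃ C', Valid B K' w C' ∧ Reduced B K' ϖ w C' := by
    intro d
    induction d with
    | zero =>
      rintro C hC ⟨e, he, hde⟩
      by_contra hcon
      have hred : ¬ Reduced B K' ϖ w C := fun hr => hcon ⟨C, hC, hr⟩
      obtain ⟨C', hC', e₁, -, he₁', hdet⟩ := exists_step h hC hred
      have hb := hC'.pow_mul_det_mem hbdd
      have he₁0 : e₁ ≠ 0 := by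
        rintro rfl
        apply hC'.det_ne
        rw [hdet, mul_zero, zero_mul]
      apply h.isModulus.inv_not_mem
      have h1 := halg (ϖ ^ (n * N)) C.det e e₁ 0 he₁0 hde
      rw [pow_zero, mul_one, ← hdet] at h1
      rw [← h1]
      exact A.mul_mem _ _ hb (A.mul_mem _ _ he he₁')
    | succ d ih =>
      rintro C hC ⟨e, he, hde⟩
      by_cases hred : Reduced B K' ϖ w C
      · exact ⟨C, hC, hred⟩
      obtain ⟨C', hC', e₁, -, he₁', hdet⟩ := exists_step h hC hred
      have he₁0 : e₁ ≠ 0 := by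
        rintro rfl
        apply hC'.det_ne
        rw [hdet, mul_zero, zero_mul]
      refine ih C' hC' ⟨e * e₁⁻¹, A.mul_mem _ _ he he₁', ?_⟩
      have h1 := halg (ϖ ^ (n * N)) C.det e e₁ (d + 1) he₁0 hde
      rw [← hdet] at h1
      rw [h1, pow_succ, mul_comm (ϖ ^ d), ← mul_assoc, inv_mul_cancel₀ h.isModulus.ne_zero,
        one_mul]
  obtain ⟨C₀, hC₀⟩ := exists_valid (B := B) h w habs
  have hx₀A := hC₀.pow_mul_det_mem hbdd
  have hx₀K : ϖ ^ (n * N) * C₀.det ∈ K' := K'.mul_mem (h.pow_mem_K' _) hC₀.det_mem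
  have hx₀0 : ϖ ^ (n * N) * C₀.det ≠ 0 := mul_ne_zero (h.pow_ne_zero' _) hC₀.det_ne
  obtain ⟨m, e₀, -, he₀', hx₀⟩ := h.factor _ hx₀K hx₀A hx₀0
  have he₀0 : e₀ ≠ 0 := by
    rintro rfl
    rw [mul_zero] at hx₀
    exact hx₀0 hx₀
  refine key m C₀ hC₀ ⟨e₀⁻¹, he₀', ?_⟩
  rw [hx₀, mul_assoc, mul_inv_cancel₀ he₀0, mul_one]

end Layer1

/-! ### Layer 2: the reduced basis is a lattice basis over `A` -/

section Layer2

variable (B : ResBall (F := F) (R := R) A π) {K' : Subfield K} {ϖ : K}

/-- **(unr)** for the `K'`-form spanned by `w`: an element of the form with zero residue is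
divisible by `ϖ` in the unit ball. -/
def Unramified (K' : Subfield K) (ϖ : K) {n : ℕ} (w : Fin n → F) : Prop :=
  ∀ x, InForm K' w x → x ∈ B.O → B.resF x = 0 → ∃ z ∈ B.O, x = ϖ • z

/-- **(indep)** for the `K'`-form spanned by `w`: families of `n` elements of the form whose
residues are independent over the residue field of `A ∩ K'` have `k`-independent residues. -/
def ResidueDisjoint (K' : Subfield K) {n : ℕ} (w : Fin n → F) : Prop :=
  ∀ u : Fin n → F, (∀ j, InForm K' w (u j)) → (∀ j, u j ∈ B.O) →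
    (∀ (a : Fin n → K) (ha : ∀ j, a j ∈ A), (∀ j, a j ∈ K') →
      ∑ j, π ⟨a j, ha j⟩ • B.resF (u j) = 0 → ∀ j, π ⟨a j, ha j⟩ = 0) →
    LinearIndependent k fun j => B.resF (u j)

variable {B}

/-- **Layer 2.**  Lattice basis of `W ∩ O` over `A` from a `K'`-form of `W` over a discretely
valued subfield `K'`. -/
theorem exists_latticeBasis_of_form (h : IsDVRSubfield A K' ϖ) {n : ℕ} (w : Fin n → F)
    (habs : ∀ i, ∃ N : ℕ, ϖ ^ N • w i ∈ B.O)
    (hbdd : ∃ N : ℕ, ∀ c : Fin n → K, (∀ i, c i ∈ K') → comb w c ∈ B.O → ∀ i, ϖ ^ N * c i ∈ A)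
    (hunr : Unramified B K' ϖ w) (hind : ResidueDisjoint B K' w) :
    ∃ u : Fin n → F, (∀ j, InForm K' w (u j)) ∧ (∀ j, u j ∈ B.O) ∧
      (LinearIndependent k fun j => B.resF (u j)) ∧
      Submodule.span K (Set.range u) = Submodule.span K (Set.range w) ∧
      ∀ x ∈ Submodule.span K (Set.range w),
        x ∈ B.O ↔ ∃ a : Fin n → K, (∀ i, a i ∈ A) ∧ x = ∑ i, a i • u i := by
  classical
  obtain ⟨C, hC, hred⟩ := exists_valid_reduced (B := B) h w habs hbdd
  set u : Fin n → F := fun j => comb w (C j) with hu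
  have huO : ∀ j, u j ∈ B.O := hC.mem
  have huF : ∀ j, InForm K' w (u j) := fun j => ⟨C j, hC.rat j, rfl⟩
  have hk' : ∀ (a : Fin n → K) (ha : ∀ j, a j ∈ A), (∀ j, a j ∈ K') →
      ∑ j, π ⟨a j, ha j⟩ • B.resF (u j) = 0 → ∀ j, π ⟨a j, ha j⟩ = 0 := by
    intro a ha haK hsum j
    obtain ⟨hmem, hres⟩ := B.resF_sum_smul u huO a ha
    rw [hsum] at hres
    have hform : InForm K' w (∑ j, a j • u j) := by
      refine ⟨∑ j, a j • C j, fun i => ?_, ?_⟩
      · rw [Finset.sum_apply]
        refine K'.sum_mem fun l _ => ?_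
        rw [Pi.smul_apply, smul_eq_mul]
        exact K'.mul_mem (haK l) (hC.rat l i)
      · rw [comb_sum]
        exact Finset.sum_congr rfl fun l _ => (comb_smul w (a l) (C l)).symm
    obtain ⟨z, hz, hxz⟩ := hunr _ hform hmem hres
    have hdiv := hred a haK ha z hz hxz j
    have hprod : (⟨a j, ha j⟩ : A) = ⟨ϖ, h.isModulus.mem⟩ * ⟨ϖ⁻¹ * a j, hdiv⟩ := by
      ext
      simp [mul_inv_cancel_left₀ h.isModulus.ne_zero]
    rw [hprod, map_mul, B.pi_eq_zero_of_isModulus h.isModulus, zero_mul]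
  have hindk := hind u huF huO hk'
  have hspan : Submodule.span K (Set.range u) = Submodule.span K (Set.range w) := by
    apply le_antisymm
    · rw [Submodule.span_le]
      rintro _ ⟨j, rfl⟩
      exact Submodule.sum_mem _ fun i _ =>
        Submodule.smul_mem _ _ (Submodule.subset_span ⟨i, rfl⟩)
    · rw [Submodule.span_le]
      rintro _ ⟨i, rfl⟩
      have hinv : C⁻¹ * C = 1 := Matrix.nonsing_inv_mul C (isUnit_iff_ne_zero.mpr hC.det_ne)
      have hrow : ∑ j, C⁻¹ i j • C j = (1 : Matrix (Fin n) (Fin n) K) i := by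
        rw [← hinv]
        funext l
        simp [Matrix.mul_apply]
      have hwi : w i = ∑ j, C⁻¹ i j • u j := by
        have h1 : ∑ j, C⁻¹ i j • u j = comb w (∑ j, C⁻¹ i j • C j) := by
          rw [comb_sum]
          exact Finset.sum_congr rfl fun l _ => (comb_smul w _ (C l)).symm
        rw [h1, hrow]
        unfold comb
        rw [Finset.sum_eq_single i]
        · rw [Matrix.one_apply_eq, one_smul]
        · intro l _ hl
          rw [Matrix.one_apply_ne (Ne.symm hl), zero_smul]
        · intro hi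
          exact absurd (Finset.mem_univ i) hi
      rw [SetLike.mem_coe, hwi]
      exact Submodule.sum_mem _ fun j _ =>
        Submodule.smul_mem _ _ (Submodule.subset_span ⟨j, rfl⟩)
  refine ⟨u, huF, huO, hindk, hspan, ?_⟩
  intro x hx
  rw [← hspan] at hx
  constructor
  · intro hxO
    obtain ⟨a, rfl⟩ := (Submodule.mem_span_range_iff_exists_fun K).mp hx
    exact ⟨a, B.mem_of_sum_smul_mem u huO hindk a hxO, rfl⟩
  · rintro ⟨a, ha, rfl⟩
    exact (B.resF_sum_smul u huO a ha).1

/-- The hypothesis of `hasLatticeBases_of_forms` for one subspace. -/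
def HasDVRForm (B : ResBall (F := F) (R := R) A π) (W : Submodule K F) : Prop :=
  ∃ (K' : Subfield K) (ϖ : K) (n : ℕ) (w : Fin n → F),
    IsDVRSubfield A K' ϖ ∧ Submodule.span K (Set.range w) = W ∧
    (∀ i, ∃ N : ℕ, ϖ ^ N • w i ∈ B.O) ∧
    (∃ N : ℕ, ∀ c : Fin n → K, (∀ i, c i ∈ K') → comb w c ∈ B.O → ∀ i, ϖ ^ N * c i ∈ A) ∧
    Unramified B K' ϖ w ∧ ResidueDisjoint B K' w

theorem hasLatticeBases_of_forms (hform : ∀ W : Submodule K F, Module.Finite K W → HasDVRForm B W) :
    B.HasLatticeBases := by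
  intro W hW
  obtain ⟨K', ϖ, n, w, h, hspan, habs, hbdd, hunr, hind⟩ := hform W hW
  obtain ⟨u, -, -, -, hu, hlat⟩ := exists_latticeBasis_of_form h w habs hbdd hunr hind
  refine ⟨n, u, hu.trans hspan, fun x hx => ?_⟩
  rw [← hspan] at hx
  exact hlat x hx

/-- **B7.AP.**  Best approximation for a saturated unit ball all of whose finite-dimensional
subspaces have bounded unramified forms over discretely valued subfields. -/
theorem approx_of_forms (hsat : B.Saturated)
    (hform : ∀ W : Submodule K F, Module.Finite K W → HasDVRForm B W) : B.Approx :=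
  ResBall.approx_of_latticeBases hsat (hasLatticeBases_of_forms hform)

/-- **(bdd) from evaluations.**  If `n` `K'`-rational functionals (matrix `E`, `E j i` = value of
`w i` at the `j`-th point) separate the form and are integral on the unit ball (maximum
principle), then the unit ball of the form is bounded in coordinates. -/
theorem bdd_of_eval (h : IsDVRSubfield A K' ϖ) {n : ℕ} (w : Fin n → F)
    (E : Matrix (Fin n) (Fin n) K) (hE : ∀ j i, E j i ∈ K') (hdet : E.det ≠ 0)
    (hev : ∀ c : Fin n → K, (∀ i, c i ∈ K') → comb w c ∈ B.O → ∀ j, ∑ i, E j i * c i ∈ A) :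
    ∃ N : ℕ, ∀ c : Fin n → K, (∀ i, c i ∈ K') → comb w c ∈ B.O → ∀ i, ϖ ^ N * c i ∈ A := by
  classical
  have hinvK : ∀ i j, E⁻¹ i j ∈ K' := by
    intro i j
    rw [Matrix.inv_def, Matrix.smul_apply, smul_eq_mul, Ring.inverse_eq_inv']
    refine K'.mul_mem (K'.inv_mem (det_mem_of_entries K'.toSubring E hE)) ?_
    rw [Matrix.adjugate_apply]
    refine det_mem_of_entries K'.toSubring _ fun a b => ?_
    by_cases ha : a = j
    · subst ha
      rw [Matrix.updateRow_self]
      by_cases hb : b = i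
      · subst hb
        rw [Pi.single_eq_same]
        exact K'.one_mem
      · rw [Pi.single_eq_of_ne hb]
        exact K'.zero_mem
    · rw [Matrix.updateRow_ne ha]
      exact hE a b
  obtain ⟨N, hN⟩ := h.exists_pow_mul_mem_family (fun p : Fin n × Fin n => E⁻¹ p.1 p.2)
    (fun p => hinvK p.1 p.2)
  refine ⟨N, fun c hc hO i => ?_⟩
  have hci : c i = ∑ j, E⁻¹ i j * ∑ l, E j l * c l := by
    have h1 : E⁻¹.mulVec (E.mulVec c) = c := by
      rw [Matrix.mulVec_mulVec, Matrix.nonsing_inv_mul _ (isUnit_iff_ne_zero.mpr hdet),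
        Matrix.one_mulVec]
    have h2 := congrFun h1 i
    rw [← h2]
    rfl
  rw [hci, Finset.mul_sum]
  refine sum_mem fun j _ => ?_
  rw [← mul_assoc]
  exact A.mul_mem _ _ (hN (i, j)) (hev c hc hO j)

end Layer2

/-! ### The field form: hypotheses on a subfield `F'` of `F` -/

section FieldForm

variable (B : ResBall (F := F) (R := R) A π)

/-- `(K', F', ϖ)`: a discretely valued subfield `K'` of `K` with uniformizer `ϖ` and a subfield
`F'` of `F` containing `K'` on which the unit ball is *unramified* over `A ∩ K'` — `ϖ` scales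
every element of `F'` into `O` (abs), elements of `O ∩ F'` with zero residue are divisible by `ϖ`
(unr) — and whose residues are linearly disjoint from `k` over the residue field of `A ∩ K'`
(indep). -/
structure IsDVRForm (K' : Subfield K) (F' : Subfield F) (ϖ : K) : Prop where
  dvr : IsDVRSubfield A K' ϖ
  algebraMap_mem : ∀ c ∈ K', algebraMap K F c ∈ F'
  abs : ∀ x ∈ F', ∃ N : ℕ, ϖ ^ N • x ∈ B.O
  unr : ∀ x ∈ F', x ∈ B.O → B.resF x = 0 → ∃ z ∈ B.O, x = ϖ • z
  indep : ∀ {m : ℕ} (u : Fin m → F), (∀ j, u j ∈ F') → (∀ j, u j ∈ B.O) →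
    (∀ (a : Fin m → K) (ha : ∀ j, a j ∈ A), (∀ j, a j ∈ K') →
      ∑ j, π ⟨a j, ha j⟩ • B.resF (u j) = 0 → ∀ j, π ⟨a j, ha j⟩ = 0) →
    LinearIndependent k fun j => B.resF (u j)

variable {B} {K' : Subfield K} {F' : Subfield F} {ϖ : K}

theorem IsDVRForm.mem_of_inForm (hF : IsDVRForm B K' F' ϖ) {n : ℕ} {w : Fin n → F}
    (hw : ∀ i, w i ∈ F') {x : F} (hx : InForm K' w x) : x ∈ F' := by
  obtain ⟨c, hc, rfl⟩ := hx
  refine F'.sum_mem fun i _ => ?_
  rw [Algebra.smul_def]
  exact F'.mul_mem (hF.algebraMap_mem _ (hc i)) (hw i)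

/-- A family in `F'` which is bounded in coordinates gives the hypothesis of
`hasLatticeBases_of_forms` for its span. -/
theorem IsDVRForm.hasDVRForm (hF : IsDVRForm B K' F' ϖ) {n : ℕ} (w : Fin n → F)
    (hw : ∀ i, w i ∈ F')
    (hbdd : ∃ N : ℕ, ∀ c : Fin n → K, (∀ i, c i ∈ K') → comb w c ∈ B.O → ∀ i, ϖ ^ N * c i ∈ A) :
    HasDVRForm B (Submodule.span K (Set.range w)) :=
  ⟨K', ϖ, n, w, hF.dvr, rfl, fun i => hF.abs _ (hw i), hbdd,
    fun x hx => hF.unr x (hF.mem_of_inForm hw hx),
    fun u hu => hF.indep u fun j => hF.mem_of_inForm hw (hu j)⟩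

/-- **B7.AP, field form.**  If every finite `K`-independent family of `F` lies in a subfield `F'`
as in `IsDVRForm` and is bounded in `K'`-coordinates, then the unit ball has best
approximations. -/
theorem approx_of_fields
    (hcov : ∀ {n : ℕ} (w : Fin n → F), LinearIndependent K w →
      ∃ (K' : Subfield K) (F' : Subfield F) (ϖ : K), IsDVRForm B K' F' ϖ ∧ (∀ i, w i ∈ F') ∧
        ∃ N : ℕ, ∀ c : Fin n → K, (∀ i, c i ∈ K') → comb w c ∈ B.O → ∀ i, ϖ ^ N * c i ∈ A) :
    B.Approx := by
  classical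
  refine approx_of_forms ?_ ?_
  · intro x hxO hx0 hres
    have hli : LinearIndependent K (fun _ : Fin 1 => x) :=
      LinearIndependent.of_subsingleton (0 : Fin 1) hx0
    obtain ⟨K', F', ϖ, hF, hw, -⟩ := hcov _ hli
    obtain ⟨z, hz, hxz⟩ := hF.unr x (hw 0) hxO hres
    exact ⟨ϖ, hF.dvr.isModulus.mem, hF.dvr.isModulus.inv_not_mem, z, hz, hxz⟩
  · intro W hW
    have : Module.Finite K W := hW
    let b := Module.finBasis K W
    set w : Fin (Module.finrank K W) → F := fun i => (b i : F) with hwdef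
    have hli : LinearIndependent K w := by
      have := b.linearIndependent
      exact this.map' W.subtype (Submodule.ker_subtype W)
    have hspan : Submodule.span K (Set.range w) = W := by
      have h1 : Set.range w = W.subtype '' Set.range b := by
        rw [← Set.range_comp]
        rfl
      rw [h1, Submodule.span_image, b.span_eq, Submodule.map_top, Submodule.range_subtype]
    obtain ⟨K', F', ϖ, hF, hw, hbdd⟩ := hcov w hli
    rw [← hspan]
    exact hF.hasDVRForm w hw hbdd

end FieldForm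

end Fermat.Agent.BR.DVRLattice
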