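import Mathlib
import Fermat.Agent.BR.P1Places
import Fermat.Agent.BR.POneSecondDiff

/-!
# Program B (bad reduction), node B4.2 P1ROT: the rotation on the standard model `RatFunc k`

On helper14's places `P1.placeAt k c` (`X = c`), `P1.placeInfty k` (`X = ∞`) of `RatFunc k`,
`k` algebraically closed:

* `rotChi χ hχ : SemilinearAut k (RatFunc k)` : the `k`-linear automorphism acting on the places by
  `X = c ↦ X = χ c` (`rotChi_smul_placeAt`; on functions it is `X ↦ χ⁻¹ X`), fixing `placeInfty`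
  and `placeAt 0` — the `α` of `AnnulusRed.redExc_smul` with `χ = chi A σ a`;
* `exists_secondDiff_rotChi` : the second difference `α² B - 2 α B + B` of every divisor `B` supported
  off `placeAt 0`, `placeInfty` is the divisor of a function which is `≡ 1` at these two places
  (`Nodal.NodalRed.SecondDiffOK` on an exceptional component with `Ft v = RatFunc k` and
  `nodePts v = {placeAt 0, placeInfty}`).
-/

set_option autoImplicit false

open AlgebraicCurve WithZero

namespace Fermat.Agent.BR.POne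

open Fermat.Agent.BR.P1

variable {k : Type*} [Field k]

theorem val_eq_one_iff_ord {L : Type*} [Field L] [Algebra k L] (Q : Place k L) {f : L}
    (hf : f ≠ 0) : Q.adicValuation f = 1 ↔ Q.ord f = 0 := by
  rw [Q.adicValuation_eq_exp_neg_ord hf, ← exp_zero, exp_inj]
  omega

/-- The rotation of `RatFunc k` acting on the places by `X = c ↦ X = χ c`. -/
noncomputable def rotChi (χ : k) (hχ : χ ≠ 0) : SemilinearAut k (RatFunc k) :=
  SemilinearAut.ofAlgAut (rotRatFunc χ⁻¹ (inv_ne_zero hχ))

section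

variable (χ : k) (hχ : χ ≠ 0)

theorem rotChi_smul_X :
    rotChi χ hχ • (RatFunc.X : RatFunc k) = algebraMap k (RatFunc k) χ⁻¹ * RatFunc.X := by
  unfold rotChi
  rw [SemilinearAut.ofAlgAut_smul, rotRatFunc_X]

theorem rotChi_smul_const (c : k) :
    rotChi χ hχ • algebraMap k (RatFunc k) c = algebraMap k (RatFunc k) c := by
  unfold rotChi
  rw [SemilinearAut.ofAlgAut_smul, AlgEquiv.commutes]

theorem rotChi_smul_lin (c : k) :
    rotChi χ hχ • (algebraMap k (RatFunc k) χ * ((RatFunc.X : RatFunc k) - RatFunc.C c)) =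
      (RatFunc.X : RatFunc k) - RatFunc.C (χ * c) := by
  rw [smul_mul', smul_sub, rotChi_smul_const, rotChi_smul_X, ← RatFunc.algebraMap_eq_C,
    rotChi_smul_const, map_mul, map_inv₀]
  have h : algebraMap k (RatFunc k) χ ≠ 0 := (_root_.map_ne_zero _).mpr hχ
  field_simp

variable [IsAlgClosed k]

theorem rotChi_smul_placeAt (c : k) :
    rotChi χ hχ • placeAt k c = placeAt k (χ * c) := by
  apply eq_placeAt_of_ord_pos
  rw [← rotChi_smul_lin χ hχ c, SemilinearAut.ord_smul,
    (placeAt k c).ord_mul ((_root_.map_ne_zero _).mpr hχ), ord_const, zero_add,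
    ord_placeAt_X_sub]
  · exact one_pos
  · intro h
    have := ord_placeAt_X_sub c
    rw [h, Place.ord_zero] at this
    exact zero_ne_one this

theorem rotChi_smul_placeInfty : rotChi χ hχ • placeInfty k = placeInfty k := by
  apply eq_placeInfty
  have h1 : rotChi χ hχ • (algebraMap k (RatFunc k) χ * (RatFunc.X : RatFunc k)) =
      (RatFunc.X : RatFunc k) := by
    rw [smul_mul', rotChi_smul_const, rotChi_smul_X, map_inv₀]
    have h : algebraMap k (RatFunc k) χ ≠ 0 := (_root_.map_ne_zero _).mpr hχ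
    field_simp
  rw [← h1, SemilinearAut.ord_smul,
    (placeInfty k).ord_mul ((_root_.map_ne_zero _).mpr hχ) RatFunc.X_ne_zero, ord_const, zero_add,
    ord_placeInfty_X]
  norm_num

end

section

variable [IsAlgClosed k]

theorem ord_X_placeAt_zero : (placeAt k 0).ord (RatFunc.X : RatFunc k) = 1 := by
  have h := ord_placeAt_X_sub (0 : k)
  rwa [map_zero, sub_zero] at h

theorem val_X_placeAt_zero : (placeAt k 0).adicValuation (RatFunc.X : RatFunc k) ≠ 1 := by
  rw [Ne, val_eq_one_iff_ord _ RatFunc.X_ne_zero, ord_X_placeAt_zero]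
  exact one_ne_zero

theorem val_X_placeInfty : (placeInfty k).adicValuation (RatFunc.X : RatFunc k) ≠ 1 := by
  rw [Ne, val_eq_one_iff_ord _ RatFunc.X_ne_zero, ord_placeInfty_X]
  norm_num

theorem val_X_eq_one_of_ne {Q : Place k (RatFunc k)} (h0 : Q ≠ placeAt k 0)
    (hinf : Q ≠ placeInfty k) : Q.adicValuation (RatFunc.X : RatFunc k) = 1 := by
  rcases eq_placeAt_or_eq_placeInfty Q with ⟨a, rfl⟩ | rfl
  · have ha : a ≠ 0 := fun h => h0 (by rw [h])
    rw [val_eq_one_iff_ord _ RatFunc.X_ne_zero]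
    have h := ord_placeAt_X_sub_of_ne (k := k) (a := a) (b := 0) ha
    rwa [map_zero, sub_zero] at h
  · exact absurd rfl hinf

theorem val_X_eq_one_iff (Q : Place k (RatFunc k)) :
    Q.adicValuation (RatFunc.X : RatFunc k) = 1 ↔ Q ≠ placeAt k 0 ∧ Q ≠ placeInfty k := by
  constructor
  · intro h
    constructor
    · rintro rfl
      exact val_X_placeAt_zero h
    · rintro rfl
      exact val_X_placeInfty h
  · rintro ⟨h0, hinf⟩
    exact val_X_eq_one_of_ne h0 hinf

/-- **The rotation identity on `RatFunc k` in terms of `placeAt 0`, `placeInfty`.** -/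
theorem exists_secondDiff_rotChi {χ : k} (hχ : χ ≠ 0) (B : Divisor k (RatFunc k))
    (hB : ∀ Q ∈ B.support, Q ≠ placeAt k 0 ∧ Q ≠ placeInfty k) :
    ∃ ρ : RatFunc k, ρ ≠ 0 ∧
      (∀ Q : Place k (RatFunc k),
        (rotChi χ hχ • rotChi χ hχ • B - (2 : ℤ) • rotChi χ hχ • B + B) Q = Q.ord ρ) ∧
      (placeAt k 0).adicValuation (ρ - 1) < 1 ∧ (placeInfty k).adicValuation (ρ - 1) < 1 := by
  obtain ⟨ρ, hρ0, hdiv, hnode⟩ := generates_ratFunc.exists_secondDiff (rotChi χ hχ)
    (rotChi_smul_const χ hχ) (inv_ne_zero hχ) (rotChi_smul_X χ hχ) B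
    fun Q hQ => (val_X_eq_one_iff Q).mpr (hB Q hQ)
  exact ⟨ρ, hρ0, hdiv, hnode _ val_X_placeAt_zero, hnode _ val_X_placeInfty⟩

end

end Fermat.Agent.BR.POne
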