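/-
Program B (bad reduction), block B3, node B3.GLUE-G (helper19): the glued special fibre of a
semistable model with an **arbitrary finite family of components**.

The components have function fields `Ft v` (`v : V`) over `k`; a node `e : E` is a pair of branches
`b e`, `b' e`, points of the disjoint union `Pt k Ft = Σ v, Place k (Ft v)` (so the two ends of an
edge are the first projections, no casts), all of degree one and pairwise distinct.

* `GraphNodes k Ft E`, `Match`, `Survives`, `gluedRegularG` : functions on an open part of the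
  glued fibre = families `φ v ∈ Ft v`, regular outside `Y v`, matching at the surviving nodes.
* `IsConnectedOn` : connectedness of a set of edges, in functional form.
* `exists_const_of_gluedRegularG_disjoint` : **`H⁰(O) = k`** on a connected glued fibre.
-/
import Mathlib
import Fermat.Agent.Red.Values
import Fermat.Agent.Red.ConstLemma

set_option autoImplicit false

namespace Fermat.Agent.BR.GlueG

open AlgebraicCurve Fermat.Agent.Red

variable {k : Type*} [Field k] {V : Type*} (Ft : V → Type*) [∀ v, Field (Ft v)]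
  [∀ v, Algebra k (Ft v)]

/-- points of the disjoint union of the components -/
abbrev Pt (k : Type*) [Field k] {V : Type*} (Ft : V → Type*) [∀ v, Field (Ft v)]
    [∀ v, Algebra k (Ft v)] := Σ v, Place k (Ft v)

/-- The nodes of a glued fibre: pairs of distinct points of degree one on the components. -/
structure GraphNodes (k : Type*) [Field k] {V : Type*} (Ft : V → Type*) [∀ v, Field (Ft v)]
    [∀ v, Algebra k (Ft v)] (E : Type*) where
  /-- the first branch of the node -/
  b : E → Pt k Ft
  /-- the second branch of the node -/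
  b' : E → Pt k Ft
  deg_b : ∀ e, (b e).2.deg = 1
  deg_b' : ∀ e, (b' e).2.deg = 1
  /-- all branches are pairwise distinct -/
  branch_inj : Function.Injective (Sum.elim b b')

variable {Ft} {E : Type*}

namespace GraphNodes

/-- the component carrying the first branch -/
def src (n : GraphNodes k Ft E) (e : E) : V := (n.b e).1

/-- the component carrying the second branch -/
def tgt (n : GraphNodes k Ft E) (e : E) : V := (n.b' e).1

/-- the node `e` lies in the open set "complement of `Y`" -/
def Survives (n : GraphNodes k Ft E) (Y : ∀ v, Set (Place k (Ft v))) (e : E) : Prop :=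
  (n.b e).2 ∉ Y (n.b e).1 ∧ (n.b' e).2 ∉ Y (n.b' e).1

/-- Connectedness of the graph with edge set `s`, in functional form: every set of vertices
closed under the edges of `s` (in both directions) that contains a vertex contains all. -/
def IsConnectedOn (n : GraphNodes k Ft E) (s : Set E) : Prop :=
  ∀ S : Set V, (∀ e ∈ s, n.src e ∈ S ↔ n.tgt e ∈ S) → ∀ v w, v ∈ S → w ∈ S

theorem IsConnectedOn.eq_of_forall_edge {n : GraphNodes k Ft E} {s : Set E}
    (h : n.IsConnectedOn s) {α : Type*} (c : V → α)
    (hc : ∀ e ∈ s, c (n.src e) = c (n.tgt e)) (v w : V) : c v = c w := by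
  have := h {u | c u = c v} (fun e he => by
    show c (n.src e) = c v ↔ c (n.tgt e) = c v
    rw [hc e he]) v w rfl
  exact this.symm

theorem isConnectedOn_of_eqvGen (n : GraphNodes k Ft E) (s : Set E)
    (h : ∀ v w, Relation.EqvGen (fun a b => ∃ e ∈ s, n.src e = a ∧ n.tgt e = b) v w) :
    n.IsConnectedOn s := by
  intro S hS v w hv
  have key : ∀ a b, Relation.EqvGen (fun a b => ∃ e ∈ s, n.src e = a ∧ n.tgt e = b) a b →
      (a ∈ S ↔ b ∈ S) := by
    intro a b hab
    induction hab with
    | rel x y hxy =>
      obtain ⟨e, he, rfl, rfl⟩ := hxy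
      exact hS e he
    | refl x => exact Iff.rfl
    | symm x y _ ih => exact ih.symm
    | trans x y z _ _ ih1 ih2 => exact ih1.trans ih2
  exact (key v w (h v w)).mp hv

theorem IsConnectedOn.mono {n : GraphNodes k Ft E} {s t : Set E} (h : n.IsConnectedOn s)
    (hst : s ⊆ t) : n.IsConnectedOn t :=
  fun S hS v w hv => h S (fun e he => hS e (hst he)) v w hv

/-- The connectedness hypothesis in the form used by `BR.SS.SemistableSetup.connected`. -/
theorem isConnectedOn_univ_of_forall (n : GraphNodes k Ft E)
    (h : ∀ T : Set V, T.Nonempty → (∀ e, n.src e ∈ T ↔ n.tgt e ∈ T) → T = Set.univ) :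
    n.IsConnectedOn Set.univ := by
  intro S hS v w hv
  rw [h S ⟨v, hv⟩ fun e => hS e (Set.mem_univ e)]
  exact Set.mem_univ w

end GraphNodes

/-- the matching condition at all nodes -/
def Match (n : GraphNodes k Ft E) (φ : ∀ v, Ft v) : Prop :=
  ∀ e, evalAt (n.b e).2 (φ (n.b e).1) = evalAt (n.b' e).2 (φ (n.b' e).1)

/-- Families of functions regular outside `Y v` on each component, matching at every surviving
node: the functions on the open part "complement of `Y`" of the glued fibre. -/
def gluedRegularG (n : GraphNodes k Ft E) (Y : ∀ v, Set (Place k (Ft v))) :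
    Subalgebra k (∀ v, Ft v) where
  carrier := {φ | (∀ v, φ v ∈ regularRing (Y v)) ∧
    ∀ e, n.Survives Y e → evalAt (n.b e).2 (φ (n.b e).1) = evalAt (n.b' e).2 (φ (n.b' e).1)}
  zero_mem' := by
    refine ⟨fun v => Subalgebra.zero_mem _, fun e _ => ?_⟩
    show evalAt (n.b e).2 (0 : Ft (n.b e).1) = evalAt (n.b' e).2 (0 : Ft (n.b' e).1)
    rw [evalAt_eq_of_isValueAt (isValueAt_zero _), evalAt_eq_of_isValueAt (isValueAt_zero _)]
  one_mem' := by
    refine ⟨fun v => Subalgebra.one_mem _, fun e _ => ?_⟩
    show evalAt (n.b e).2 (1 : Ft (n.b e).1) = evalAt (n.b' e).2 (1 : Ft (n.b' e).1)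
    rw [evalAt_eq_of_isValueAt (isValueAt_one _), evalAt_eq_of_isValueAt (isValueAt_one _)]
  add_mem' := by
    rintro s t ⟨hs, hse⟩ ⟨ht, hte⟩
    refine ⟨fun v => Subalgebra.add_mem _ (hs v) (ht v), fun e he => ?_⟩
    show evalAt (n.b e).2 (s (n.b e).1 + t (n.b e).1) =
      evalAt (n.b' e).2 (s (n.b' e).1 + t (n.b' e).1)
    rw [evalAt_add _ (n.deg_b e) (mem_toValuationSubring_of_mem_regularRing (hs _) he.1)
        (mem_toValuationSubring_of_mem_regularRing (ht _) he.1),
      evalAt_add _ (n.deg_b' e) (mem_toValuationSubring_of_mem_regularRing (hs _) he.2)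
        (mem_toValuationSubring_of_mem_regularRing (ht _) he.2), hse e he, hte e he]
  mul_mem' := by
    rintro s t ⟨hs, hse⟩ ⟨ht, hte⟩
    refine ⟨fun v => Subalgebra.mul_mem _ (hs v) (ht v), fun e he => ?_⟩
    show evalAt (n.b e).2 (s (n.b e).1 * t (n.b e).1) =
      evalAt (n.b' e).2 (s (n.b' e).1 * t (n.b' e).1)
    rw [evalAt_mul _ (n.deg_b e) (mem_toValuationSubring_of_mem_regularRing (hs _) he.1)
        (mem_toValuationSubring_of_mem_regularRing (ht _) he.1),
      evalAt_mul _ (n.deg_b' e) (mem_toValuationSubring_of_mem_regularRing (hs _) he.2)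
        (mem_toValuationSubring_of_mem_regularRing (ht _) he.2), hse e he, hte e he]
  algebraMap_mem' := by
    intro c
    refine ⟨fun v => Subalgebra.algebraMap_mem _ c, fun e _ => ?_⟩
    show evalAt (n.b e).2 (algebraMap k (Ft (n.b e).1) c) =
      evalAt (n.b' e).2 (algebraMap k (Ft (n.b' e).1) c)
    rw [evalAt_algebraMap, evalAt_algebraMap]

theorem mem_gluedRegularG_iff {n : GraphNodes k Ft E} {Y : ∀ v, Set (Place k (Ft v))}
    {φ : ∀ v, Ft v} :
    φ ∈ gluedRegularG n Y ↔ (∀ v, φ v ∈ regularRing (Y v)) ∧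
      ∀ e, n.Survives Y e → evalAt (n.b e).2 (φ (n.b e).1) = evalAt (n.b' e).2 (φ (n.b' e).1) :=
  Iff.rfl

/-- Shrinking the open set (enlarging `Y`). -/
theorem gluedRegularG_mono (n : GraphNodes k Ft E) {Y Y' : ∀ v, Set (Place k (Ft v))}
    (h : ∀ v, Y v ⊆ Y' v) : gluedRegularG n Y ≤ gluedRegularG n Y' := by
  rintro φ ⟨hφ, hφe⟩
  refine ⟨fun v P hP => hφ v P fun hh => hP (h v hh), fun e he => hφe e ⟨?_, ?_⟩⟩
  · exact fun hh => he.1 (h _ hh)
  · exact fun hh => he.2 (h _ hh)

/-- Everything regular on the whole glued fibre matches at all nodes. -/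
theorem match_of_mem_gluedRegularG_empty {n : GraphNodes k Ft E} {φ : ∀ v, Ft v}
    (h : φ ∈ gluedRegularG n (fun _ => ∅)) : Match n φ :=
  fun e => h.2 e ⟨Set.notMem_empty _, Set.notMem_empty _⟩

/-- **`H⁰(O) = k` on a connected glued fibre.** A family of functions regular on two opens of the
glued fibre which cover it (`Y v ∩ Y' v = ∅`) is a family of constants; the constants coincide if
the graph of the nodes surviving in one of the two opens is connected. -/
theorem exists_const_of_gluedRegularG_disjoint (hFt : ∀ v, RiemannPkg k (Ft v))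
    (n : GraphNodes k Ft E) {Y Y' : ∀ v, Set (Place k (Ft v))}
    (hd : ∀ v, Disjoint (Y v) (Y' v))
    (hconn : n.IsConnectedOn {e | n.Survives Y e ∨ n.Survives Y' e})
    {φ : ∀ v, Ft v} (h : φ ∈ gluedRegularG n Y) (h' : φ ∈ gluedRegularG n Y') :
    ∃ c : k, φ = algebraMap k (∀ v, Ft v) c := by
  obtain ⟨hφ, hφe⟩ := h
  obtain ⟨hφ', hφe'⟩ := h'
  have hconst : ∀ v, ∃ c : k, φ v = algebraMap k (Ft v) c := fun v =>
    RedSetup.exists_const_of_regular_disjoint (hFt v) (hd v) (hφ v) (hφ' v)
  choose c hc using hconst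
  have hedge : ∀ e ∈ {e | n.Survives Y e ∨ n.Survives Y' e}, c (n.src e) = c (n.tgt e) := by
    intro e he
    rcases he with he | he
    · have := hφe e he
      rwa [hc, hc, evalAt_algebraMap, evalAt_algebraMap] at this
    · have := hφe' e he
      rwa [hc, hc, evalAt_algebraMap, evalAt_algebraMap] at this
  by_cases hV : Nonempty V
  · obtain ⟨v₀⟩ := hV
    refine ⟨c v₀, funext fun v => ?_⟩
    rw [hc v, hconn.eq_of_forall_edge c hedge v v₀]
    rfl
  · refine ⟨0, funext fun v => ?_⟩
    exact absurd ⟨v⟩ hV

end Fermat.Agent.BR.GlueG
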