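/-
Program B (bad reduction), block B3, node B3.GLUE-G, second part (helper19): the **nodal Riemann
count**.

* `evalFinset Q D` : evaluation of `L(D)` at a finite set `Q` of places of degree one off the
  support of `D`, a linear map `L(D) → k^Q`; its kernel is `L(D - ΣQ)`.
* `exists_bound_evalFinset_surjective` : in large degree (`c + |Q| ≤ deg D`) it is surjective.
* `gluedRR n D` : the Riemann–Roch space of the glued fibre: families `φ v ∈ L(D v)` matching at
  all nodes.
* `finrank_gluedRR` : `dim gluedRR n D = Σ deg D_v + |V| - Σ g_v - |E| = Σ deg + 1 - p_a`,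
  `p_a = Σ g_v + |E| - |V| + 1`, when all `deg D_v` are large and the `D_v` avoid the branches.
-/
import Mathlib
import Fermat.Agent.BR.GluedGraph
import Fermat.Agent.Red.FFLemmas

set_option autoImplicit false

namespace Fermat.Agent.BR.GlueG

open AlgebraicCurve Fermat.Agent.Red Fermat.Agent.X0

section Single

variable {k F : Type*} [Field k] [Field F] [Algebra k F]

/-- elements of `L(D)` are regular at the places off the support of `D` -/
theorem mem_toValuationSubring_of_mem_riemannRochSpace {D : Divisor k F} {f : F}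
    (hf : f ∈ riemannRochSpace D) {P : Place k F} (hP : D P = 0) :
    f ∈ P.toValuationSubring := by
  have h := hf P
  rw [hP, WithZero.exp_zero, P.adicValuation_le_one_iff] at h
  rcases h with rfl | h
  · exact zero_mem _
  · exact Place.mem_of_ord_nonneg P h

/-- the divisor `Σ_{P ∈ Q} P` -/
noncomputable def sumDiv (Q : Finset (Place k F)) : Divisor k F :=
  ∑ P ∈ Q, Finsupp.single P (1 : ℤ)

theorem sumDiv_apply (Q : Finset (Place k F)) (P : Place k F) [Decidable (P ∈ Q)] :
    sumDiv Q P = if P ∈ Q then 1 else 0 := by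
  classical
  unfold sumDiv
  rw [Finsupp.finsetSum_apply]
  simp only [Finsupp.single_apply]
  rw [Finset.sum_ite_eq']
  congr

theorem sumDiv_apply_of_mem {Q : Finset (Place k F)} {P : Place k F} (hP : P ∈ Q) :
    sumDiv Q P = 1 := by
  classical
  rw [sumDiv_apply, if_pos hP]

theorem sumDiv_apply_of_notMem {Q : Finset (Place k F)} {P : Place k F} (hP : P ∉ Q) :
    sumDiv Q P = 0 := by
  classical
  rw [sumDiv_apply, if_neg hP]

theorem degree_sumDiv (hF : RiemannPkg k F) (Q : Finset (Place k F)) :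
    Divisor.degree (sumDiv Q) = Q.card := by
  unfold sumDiv
  rw [map_sum]
  simp only [degree_single_of_pkg hF]
  simp

theorem sub_sumDiv_le (D : Divisor k F) (Q : Finset (Place k F)) : D - sumDiv Q ≤ D := by
  classical
  intro P
  rw [Finsupp.sub_apply, sumDiv_apply]
  split_ifs <;> simp

/-- Evaluation of `L(D)` at a finite set of places of degree one off the support of `D`. -/
noncomputable def evalFinset (Q : Finset (Place k F)) (D : Divisor k F)
    (hdeg : ∀ P ∈ Q, P.deg = 1) (hQ : ∀ P ∈ Q, D P = 0) :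
    ↥(riemannRochSpace D) →ₗ[k] (↥Q → k) where
  toFun f := fun P => evalAt (P : Place k F) (f : F)
  map_add' f g := by
    funext P
    show evalAt (P : Place k F) ((f : F) + (g : F)) = _
    rw [evalAt_add _ (hdeg P P.2)
      (mem_toValuationSubring_of_mem_riemannRochSpace f.2 (hQ P P.2))
      (mem_toValuationSubring_of_mem_riemannRochSpace g.2 (hQ P P.2))]
    rfl
  map_smul' a f := by
    funext P
    show evalAt (P : Place k F) (a • (f : F)) = _
    rw [evalAt_smul _ (hdeg P P.2) a
      (mem_toValuationSubring_of_mem_riemannRochSpace f.2 (hQ P P.2))]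
    rfl

@[simp] theorem evalFinset_apply (Q : Finset (Place k F)) (D : Divisor k F)
    (hdeg : ∀ P ∈ Q, P.deg = 1) (hQ : ∀ P ∈ Q, D P = 0) (f : riemannRochSpace D) (P : Q) :
    evalFinset Q D hdeg hQ f P = evalAt (P : Place k F) (f : F) := rfl

/-- the kernel of the evaluation at `Q` is `L(D - ΣQ)` -/
theorem mem_ker_evalFinset_iff (Q : Finset (Place k F)) (D : Divisor k F)
    (hdeg : ∀ P ∈ Q, P.deg = 1) (hQ : ∀ P ∈ Q, D P = 0) (f : riemannRochSpace D) :
    f ∈ LinearMap.ker (evalFinset Q D hdeg hQ) ↔ (f : F) ∈ riemannRochSpace (D - sumDiv Q) := by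
  classical
  rw [LinearMap.mem_ker]
  constructor
  · intro h
    rw [mem_riemannRochSpace_iff]
    intro P
    by_cases hP : P ∈ Q
    · -- `f` vanishes at `P`
      have hreg := mem_toValuationSubring_of_mem_riemannRochSpace f.2 (hQ P hP)
      have hval := isValueAt_evalAt P (hdeg P hP) hreg
      have h0 : evalAt P (f : F) = 0 := by
        have := congrFun h ⟨P, hP⟩
        simpa using this
      rw [h0, IsValueAt, map_zero, sub_zero, adicValuation_lt_one_iff] at hval
      rcases hval with h1 | h1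
      · exact Or.inl h1
      · right
        rw [Finsupp.sub_apply, sumDiv_apply_of_mem hP, hQ P hP]
        omega
    · have := (mem_riemannRochSpace_iff.mp f.2) P
      rw [Finsupp.sub_apply, sumDiv_apply_of_notMem hP, sub_zero]
      exact this
  · intro h
    funext P
    rw [evalFinset_apply, Pi.zero_apply]
    have h1 := (mem_riemannRochSpace_iff.mp h) P.1
    rw [Finsupp.sub_apply, sumDiv_apply_of_mem P.2, hQ P.1 P.2] at h1
    apply evalAt_eq_of_isValueAt
    rw [IsValueAt, map_zero, sub_zero, adicValuation_lt_one_iff]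
    rcases h1 with h1 | h1
    · exact Or.inl h1
    · right
      omega

/-- **Evaluation at finitely many places is surjective in large degree.** -/
theorem exists_bound_evalFinset_surjective (hF : RiemannPkg k F) :
    ∃ c : ℤ, ∀ (Q : Finset (Place k F)) (D : Divisor k F) (hQ : ∀ P ∈ Q, D P = 0),
      c + Q.card ≤ Divisor.degree D →
        Function.Surjective (evalFinset Q D (fun P _ => hF.deg_one P) hQ) := by
  obtain ⟨c, hc⟩ := hF.riemann_eq
  refine ⟨c, fun Q D hQ hdeg => ?_⟩
  have := hF.finite_L D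
  have := hF.finite_L (D - sumDiv Q)
  set ev := evalFinset Q D (fun P _ => hF.deg_one P) hQ with hev
  -- the kernel is `L(D - ΣQ)`
  have hle : riemannRochSpace (D - sumDiv Q) ≤ riemannRochSpace D :=
    riemannRochSpace_mono (sub_sumDiv_le D Q)
  have hker : LinearMap.ker ev =
      Submodule.comap (riemannRochSpace D).subtype (riemannRochSpace (D - sumDiv Q)) := by
    ext f
    rw [hev, mem_ker_evalFinset_iff]
    rfl
  have hkerrank : Module.finrank k (LinearMap.ker ev) =
      Module.finrank k (riemannRochSpace (D - sumDiv Q)) := by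
    rw [hker]
    exact (Submodule.comapSubtypeEquivOfLe hle).finrank_eq
  have h1 : (Module.finrank k (riemannRochSpace D) : ℤ) =
      Divisor.degree D + 1 - (genusFF k F : ℤ) := hc D (by linarith [Int.natCast_nonneg Q.card])
  have hdeg2 : Divisor.degree (D - sumDiv Q) = Divisor.degree D - Q.card := by
    rw [map_sub, degree_sumDiv hF]
  have h2 : (Module.finrank k (riemannRochSpace (D - sumDiv Q)) : ℤ) =
      Divisor.degree D - Q.card + 1 - (genusFF k F : ℤ) := by
    rw [hc _ (by rw [hdeg2]; linarith), hdeg2]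
  have hrn := LinearMap.finrank_range_add_finrank_ker ev
  have hrange : Module.finrank k (LinearMap.range ev) = Q.card := by
    have : (Module.finrank k (LinearMap.range ev) : ℤ) = Q.card := by
      have h3 : (Module.finrank k (LinearMap.range ev) : ℤ) +
          Module.finrank k (LinearMap.ker ev) = Module.finrank k (riemannRochSpace D) := by
        exact_mod_cast hrn
      rw [hkerrank, h1, h2] at h3
      linarith
    exact_mod_cast this
  have htop : LinearMap.range ev = ⊤ := by
    apply Submodule.eq_top_of_finrank_eq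
    rw [hrange, Module.finrank_fintype_fun_eq_card, Fintype.card_coe]
  exact LinearMap.range_eq_top.mp htop

end Single

section Graph

variable {k : Type*} [Field k] {V : Type*} {Ft : V → Type*} [∀ v, Field (Ft v)]
  [∀ v, Algebra k (Ft v)] {E : Type*}

/-- The Riemann–Roch space of the glued fibre: families `φ v ∈ L(D v)` matching at all nodes. -/
def gluedRR (n : GraphNodes k Ft E) (D : ∀ v, Divisor k (Ft v)) : Submodule k (∀ v, Ft v) where
  carrier := {φ | (∀ v, φ v ∈ riemannRochSpace (D v)) ∧ Match n φ ∧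
    ∀ e, φ (n.b e).1 ∈ (n.b e).2.toValuationSubring ∧ φ (n.b' e).1 ∈ (n.b' e).2.toValuationSubring}
  zero_mem' := by
    refine ⟨fun v => Submodule.zero_mem _, fun e => ?_, fun e => ⟨zero_mem _, zero_mem _⟩⟩
    show evalAt (n.b e).2 (0 : Ft (n.b e).1) = evalAt (n.b' e).2 (0 : Ft (n.b' e).1)
    rw [evalAt_eq_of_isValueAt (isValueAt_zero _), evalAt_eq_of_isValueAt (isValueAt_zero _)]
  add_mem' := by
    rintro s t ⟨hs, hsm, hsr⟩ ⟨ht, htm, htr⟩
    refine ⟨fun v => Submodule.add_mem _ (hs v) (ht v), fun e => ?_,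
      fun e => ⟨add_mem (hsr e).1 (htr e).1, add_mem (hsr e).2 (htr e).2⟩⟩
    show evalAt (n.b e).2 (s (n.b e).1 + t (n.b e).1) =
      evalAt (n.b' e).2 (s (n.b' e).1 + t (n.b' e).1)
    rw [evalAt_add _ (n.deg_b e) (hsr e).1 (htr e).1, evalAt_add _ (n.deg_b' e) (hsr e).2 (htr e).2,
      hsm e, htm e]
  smul_mem' := by
    rintro a s ⟨hs, hsm, hsr⟩
    refine ⟨fun v => Submodule.smul_mem _ a (hs v), fun e => ?_, fun e => ⟨?_, ?_⟩⟩
    · show evalAt (n.b e).2 (a • s (n.b e).1) = evalAt (n.b' e).2 (a • s (n.b' e).1)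
      rw [evalAt_smul _ (n.deg_b e) a (hsr e).1, evalAt_smul _ (n.deg_b' e) a (hsr e).2, hsm e]
    · show a • s (n.b e).1 ∈ (n.b e).2.toValuationSubring
      rw [Algebra.smul_def]
      exact mul_mem ((n.b e).2.algebraMap_mem' a) (hsr e).1
    · show a • s (n.b' e).1 ∈ (n.b' e).2.toValuationSubring
      rw [Algebra.smul_def]
      exact mul_mem ((n.b' e).2.algebraMap_mem' a) (hsr e).2

/-- If the divisors avoid the branches, the regularity clause of `gluedRR` is automatic. -/
theorem mem_gluedRR_iff {n : GraphNodes k Ft E} {D : ∀ v, Divisor k (Ft v)}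
    (hD : ∀ e, D (n.b e).1 (n.b e).2 = 0 ∧ D (n.b' e).1 (n.b' e).2 = 0) {φ : ∀ v, Ft v} :
    φ ∈ gluedRR n D ↔ (∀ v, φ v ∈ riemannRochSpace (D v)) ∧ Match n φ := by
  constructor
  · rintro ⟨h1, h2, -⟩
    exact ⟨h1, h2⟩
  · rintro ⟨h1, h2⟩
    exact ⟨h1, h2, fun e => ⟨mem_toValuationSubring_of_mem_riemannRochSpace (h1 _) (hD e).1,
      mem_toValuationSubring_of_mem_riemannRochSpace (h1 _) (hD e).2⟩⟩

theorem finite_branchesOn (n : GraphNodes k Ft E) [Finite E] (v : V) :
    {P : Place k (Ft v) | (∃ e, n.b e = ⟨v, P⟩) ∨ (∃ e, n.b' e = ⟨v, P⟩)}.Finite := by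
  have h : (Set.range n.b ∪ Set.range n.b').Finite :=
    (Set.finite_range _).union (Set.finite_range _)
  have hinj : Set.InjOn (fun P : Place k (Ft v) => (⟨v, P⟩ : Pt k Ft))
      ((fun P : Place k (Ft v) => (⟨v, P⟩ : Pt k Ft)) ⁻¹' (Set.range n.b ∪ Set.range n.b')) :=
    fun _ _ _ _ h => eq_of_heq (Sigma.mk.inj h).2
  exact h.preimage hinj

/-- the branches lying on the component `v` -/
noncomputable def branchesOn (n : GraphNodes k Ft E) [Finite E] (v : V) :
    Finset (Place k (Ft v)) :=
  (finite_branchesOn n v).toFinset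

theorem mem_branchesOn {n : GraphNodes k Ft E} [Finite E] {v : V} {P : Place k (Ft v)} :
    P ∈ branchesOn n v ↔ (∃ e, n.b e = ⟨v, P⟩) ∨ (∃ e, n.b' e = ⟨v, P⟩) := by
  unfold branchesOn
  rw [Set.Finite.mem_toFinset]
  rfl

theorem b_mem_branchesOn (n : GraphNodes k Ft E) [Finite E] (e : E) :
    (n.b e).2 ∈ branchesOn n (n.b e).1 :=
  mem_branchesOn.mpr (Or.inl ⟨e, rfl⟩)

theorem b'_mem_branchesOn (n : GraphNodes k Ft E) [Finite E] (e : E) :
    (n.b' e).2 ∈ branchesOn n (n.b' e).1 :=
  mem_branchesOn.mpr (Or.inr ⟨e, rfl⟩)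

theorem GraphNodes.b_injective (n : GraphNodes k Ft E) : Function.Injective n.b := by
  intro e e' h
  have := n.branch_inj (a₁ := Sum.inl e) (a₂ := Sum.inl e') (by simpa using h)
  exact Sum.inl_injective this

theorem GraphNodes.b_ne_b' (n : GraphNodes k Ft E) (e e' : E) : n.b e ≠ n.b' e' := by
  intro h
  have := n.branch_inj (a₁ := Sum.inl e) (a₂ := Sum.inr e') (by simpa using h)
  exact Sum.inl_ne_inr this

/-- the difference of the values at the two branches of every node, on `∏ L(D v)` -/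
noncomputable def deltaRR (n : GraphNodes k Ft E) (D : ∀ v, Divisor k (Ft v))
    (hD : ∀ e, D (n.b e).1 (n.b e).2 = 0 ∧ D (n.b' e).1 (n.b' e).2 = 0) :
    (∀ v, ↥(riemannRochSpace (D v))) →ₗ[k] (E → k) where
  toFun φ := fun e => evalAt (n.b e).2 ((φ (n.b e).1 : Ft (n.b e).1)) -
    evalAt (n.b' e).2 ((φ (n.b' e).1 : Ft (n.b' e).1))
  map_add' φ ψ := by
    funext e
    show evalAt (n.b e).2 (((φ (n.b e).1 : Ft (n.b e).1)) + (ψ (n.b e).1 : Ft (n.b e).1)) -
      evalAt (n.b' e).2 (((φ (n.b' e).1 : Ft (n.b' e).1)) + (ψ (n.b' e).1 : Ft (n.b' e).1)) = _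
    rw [evalAt_add _ (n.deg_b e)
        (mem_toValuationSubring_of_mem_riemannRochSpace (φ _).2 (hD e).1)
        (mem_toValuationSubring_of_mem_riemannRochSpace (ψ _).2 (hD e).1),
      evalAt_add _ (n.deg_b' e)
        (mem_toValuationSubring_of_mem_riemannRochSpace (φ _).2 (hD e).2)
        (mem_toValuationSubring_of_mem_riemannRochSpace (ψ _).2 (hD e).2)]
    simp only [Pi.add_apply]
    ring
  map_smul' a φ := by
    funext e
    show evalAt (n.b e).2 (a • (φ (n.b e).1 : Ft (n.b e).1)) -
      evalAt (n.b' e).2 (a • (φ (n.b' e).1 : Ft (n.b' e).1)) = _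
    rw [evalAt_smul _ (n.deg_b e) a
        (mem_toValuationSubring_of_mem_riemannRochSpace (φ _).2 (hD e).1),
      evalAt_smul _ (n.deg_b' e) a
        (mem_toValuationSubring_of_mem_riemannRochSpace (φ _).2 (hD e).2)]
    simp only [Pi.smul_apply, RingHom.id_apply, smul_eq_mul]
    ring

/-- `gluedRR` is the kernel of `deltaRR` -/
noncomputable def gluedRREquivKer (n : GraphNodes k Ft E) (D : ∀ v, Divisor k (Ft v))
    (hD : ∀ e, D (n.b e).1 (n.b e).2 = 0 ∧ D (n.b' e).1 (n.b' e).2 = 0) :
    ↥(gluedRR n D) ≃ₗ[k] ↥(LinearMap.ker (deltaRR n D hD)) where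
  toFun φ := ⟨fun v => ⟨(φ : ∀ v, Ft v) v, φ.2.1 v⟩, by
    rw [LinearMap.mem_ker]
    funext e
    show evalAt (n.b e).2 ((φ : ∀ v, Ft v) (n.b e).1) -
      evalAt (n.b' e).2 ((φ : ∀ v, Ft v) (n.b' e).1) = 0
    rw [φ.2.2.1 e, sub_self]⟩
  invFun ψ := ⟨fun v => ((ψ : ∀ v, ↥(riemannRochSpace (D v))) v : Ft v), by
    rw [mem_gluedRR_iff hD]
    refine ⟨fun v => ((ψ : ∀ v, ↥(riemannRochSpace (D v))) v).2, fun e => ?_⟩
    have := congrFun (LinearMap.mem_ker.mp ψ.2) e
    exact sub_eq_zero.mp this⟩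
  map_add' φ ψ := rfl
  map_smul' a φ := rfl
  left_inv φ := rfl
  right_inv ψ := rfl

/-- `deltaRR` is surjective as soon as on every component the evaluation at the branches is. -/
theorem deltaRR_surjective [Fintype E] (n : GraphNodes k Ft E) (D : ∀ v, Divisor k (Ft v))
    (hD : ∀ e, D (n.b e).1 (n.b e).2 = 0 ∧ D (n.b' e).1 (n.b' e).2 = 0)
    (hdeg : ∀ v, ∀ P ∈ branchesOn n v, P.deg = 1)
    (hQ : ∀ v, ∀ P ∈ branchesOn n v, D v P = 0)
    (hsurj : ∀ v, Function.Surjective (evalFinset (branchesOn n v) (D v) (hdeg v) (hQ v))) :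
    Function.Surjective (deltaRR n D hD) := by
  classical
  intro a
  -- prescribed values at the branches on `v`: `a e` at first branches, `0` at second branches
  let t : ∀ v, ↥(branchesOn n v) → k := fun v P =>
    if h : ∃ e, n.b e = ⟨v, P.1⟩ then a h.choose else 0
  choose f hf using fun v => hsurj v (t v)
  refine ⟨f, ?_⟩
  funext e
  show evalAt (n.b e).2 ((f (n.b e).1 : Ft (n.b e).1)) -
    evalAt (n.b' e).2 ((f (n.b' e).1 : Ft (n.b' e).1)) = a e
  have h1 : evalAt (n.b e).2 ((f (n.b e).1 : Ft (n.b e).1)) = a e := by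
    have := congrFun (hf (n.b e).1) ⟨(n.b e).2, b_mem_branchesOn n e⟩
    rw [evalFinset_apply] at this
    rw [this]
    have hex : ∃ e', n.b e' = ⟨(n.b e).1, (n.b e).2⟩ := ⟨e, rfl⟩
    show (if h : ∃ e', n.b e' = ⟨(n.b e).1, (n.b e).2⟩ then a h.choose else 0) = a e
    rw [dif_pos hex]
    congr 1
    exact n.b_injective hex.choose_spec
  have h2 : evalAt (n.b' e).2 ((f (n.b' e).1 : Ft (n.b' e).1)) = 0 := by
    have := congrFun (hf (n.b' e).1) ⟨(n.b' e).2, b'_mem_branchesOn n e⟩
    rw [evalFinset_apply] at this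
    rw [this]
    have hex : ¬ ∃ e', n.b e' = ⟨(n.b' e).1, (n.b' e).2⟩ := by
      rintro ⟨e', he'⟩
      exact n.b_ne_b' e' e he'
    show (if h : ∃ e', n.b e' = ⟨(n.b' e).1, (n.b' e).2⟩ then a h.choose else 0) = 0
    rw [dif_neg hex]
  rw [h1, h2, sub_zero]

/-- **Nodal Riemann count.** For divisors `D v` avoiding the branches, of large degree on every
component, `dim gluedRR n D = Σ_v deg D_v + |V| - Σ_v g_v - |E|`
(`= Σ deg + 1 - p_a`, `p_a = Σ g_v + |E| - |V| + 1`). -/
theorem finrank_gluedRR [Fintype V] [Fintype E] (hFt : ∀ v, RiemannPkg k (Ft v))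
    (n : GraphNodes k Ft E) :
    ∃ c : V → ℤ, ∀ D : ∀ v, Divisor k (Ft v),
      (∀ e, D (n.b e).1 (n.b e).2 = 0 ∧ D (n.b' e).1 (n.b' e).2 = 0) →
      (∀ v, c v ≤ Divisor.degree (D v)) →
      (Module.finrank k (gluedRR n D) : ℤ) =
        (∑ v, Divisor.degree (D v)) + Fintype.card V - (∑ v, (genusFF k (Ft v) : ℤ)) -
          Fintype.card E := by
  classical
  choose c₀ hc₀ using fun v => exists_bound_evalFinset_surjective (hFt v)
  choose c₁ hc₁ using fun v => (hFt v).riemann_eq
  refine ⟨fun v => max (c₀ v + (branchesOn n v).card) (c₁ v), fun D hD hdeg => ?_⟩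
  have hQ : ∀ v, ∀ P ∈ branchesOn n v, D v P = 0 := by
    intro v P hP
    rcases mem_branchesOn.mp hP with ⟨e, he⟩ | ⟨e, he⟩
    · have := (hD e).1
      rw [he] at this
      exact this
    · have := (hD e).2
      rw [he] at this
      exact this
  have hsurj : Function.Surjective (deltaRR n D hD) :=
    deltaRR_surjective n D hD (fun v P _ => (hFt v).deg_one P) hQ
      (fun v => hc₀ v (branchesOn n v) (D v) (hQ v) ((le_max_left _ _).trans (hdeg v)))
  have hfin : ∀ v, Module.Finite k ↥(riemannRochSpace (D v)) := fun v => (hFt v).finite_L (D v)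
  have hrn := LinearMap.finrank_range_add_finrank_ker (deltaRR n D hD)
  rw [LinearMap.range_eq_top.mpr hsurj, finrank_top, Module.finrank_fintype_fun_eq_card,
    Module.finrank_pi_fintype] at hrn
  rw [(gluedRREquivKer n D hD).finrank_eq]
  have hsum : ((∑ v, Module.finrank k ↥(riemannRochSpace (D v)) : ℕ) : ℤ) =
      ∑ v, (Divisor.degree (D v) + 1 - (genusFF k (Ft v) : ℤ)) := by
    push_cast
    refine Finset.sum_congr rfl fun v _ => ?_
    exact hc₁ v (D v) ((le_max_right _ _).trans (hdeg v))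
  have h3 : (Fintype.card E : ℤ) + Module.finrank k ↥(LinearMap.ker (deltaRR n D hD)) =
      ∑ v, (Divisor.degree (D v) + 1 - (genusFF k (Ft v) : ℤ)) := by
    rw [← hsum]
    exact_mod_cast hrn
  rw [Finset.sum_sub_distrib, Finset.sum_add_distrib] at h3
  simp only [Finset.sum_const, Finset.card_univ, nsmul_eq_mul, mul_one] at h3
  linarith

end Graph

end Fermat.Agent.BR.GlueG
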