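/-
Program B (bad reduction), block B7, node B7.BDD, file 1 (helper20): bounding the coordinates of
the elements of a unit ball by evaluation at points.  Mathlib only.

* `exists_det_ne_zero` : if `m i : Fin n → K` (`i` in an infinite set `S`) are the values at the
  point `i` of `n` functions such that every nonzero combination has finitely many zeros in `S`,
  there are `n` points of `S` with nonzero determinant;
* `exists_bound_of_det_ne_zero` : if `det E ≠ 0` there is `C ≠ 0` with
  `(∀ k, |(E c)_k| ≤ 1) → ∀ j, |c j| ≤ |C|`;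
* `exists_bound_of_eval` : the combination — if the elements of `O ∩ span(w)` have integral values
  at the points of `S` (maximum principle), their coordinates are bounded;
* `exists_pow_mul_mem_of_eval` : the same in the shape `∃ N, ∀ c, … → ∀ j, |ϖ^N * c j| ≤ 1`.
-/
import Mathlib

set_option autoImplicit false

namespace Fermat.Agent.BR.EvalBound

open Matrix

section LA

variable {K : Type*} [Field K] {I : Type*}

/-- **`n` points with nonzero determinant.** -/
theorem exists_det_ne_zero (S : Set I) (hS : S.Infinite) :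
    ∀ {n : ℕ} (m : I → Fin n → K),
      (∀ c : Fin n → K, c ≠ 0 → {i | i ∈ S ∧ ∑ j, c j * m i j = 0}.Finite) →
      ∃ p : Fin n → I, (∀ k, p k ∈ S) ∧ (Matrix.of fun k j => m (p k) j).det ≠ 0 := by
  intro n
  induction n with
  | zero =>
    intro m _
    exact ⟨Fin.elim0, fun k => k.elim0, by simp⟩
  | succ n ih =>
    intro m hm
    -- the first `n` functions
    have hm' : ∀ c' : Fin n → K, c' ≠ 0 →
        {i | i ∈ S ∧ ∑ j, c' j * (fun i j => m i (Fin.castSucc j)) i j = 0}.Finite := by
      intro c' hc'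
      have hc : (Fin.snoc c' 0 : Fin (n + 1) → K) ≠ 0 := by
        intro h
        apply hc'
        funext j
        have := congrFun h (Fin.castSucc j)
        simpa using this
      refine (hm _ hc).subset ?_
      rintro i ⟨hi, hsum⟩
      refine ⟨hi, ?_⟩
      rw [Fin.sum_univ_castSucc]
      simpa using hsum
    obtain ⟨p', hp'S, hdet'⟩ := ih (fun i j => m i (Fin.castSucc j)) hm'
    -- cofactors along the last row
    set c : Fin (n + 1) → K := fun j =>
      (-1) ^ (n + (j : ℕ)) * (Matrix.of fun k l => m (p' k) (j.succAbove l)).det with hc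
    have hc0 : c ≠ 0 := by
      intro h
      have h1 := congrFun h (Fin.last n)
      simp only [hc, Fin.val_last, Pi.zero_apply, Fin.succAbove_last] at h1
      rcases mul_eq_zero.mp h1 with h2 | h2
      · exact absurd h2 (pow_ne_zero _ (by norm_num))
      · exact hdet' h2
    have hfin := hm c hc0
    obtain ⟨i, hiS, hi⟩ : ∃ i ∈ S, ∑ j, c j * m i j ≠ 0 := by
      by_contra hcon
      apply hS
      refine hfin.subset ?_
      intro i hi
      refine ⟨hi, ?_⟩
      by_contra h
      exact hcon ⟨i, hi, h⟩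
    refine ⟨Fin.lastCases i p', ?_, ?_⟩
    · intro k
      refine Fin.lastCases ?_ (fun k' => ?_) k
      · simpa using hiS
      · simpa using hp'S k'
    · rw [Matrix.det_succ_row _ (Fin.last n)]
      have e : ∀ j : Fin (n + 1),
          (-1 : K) ^ ((Fin.last n : ℕ) + (j : ℕ)) *
            (Matrix.of fun k j => m ((Fin.lastCases i p' : Fin (n + 1) → I) k) j) (Fin.last n) j *
            ((Matrix.of fun k j => m ((Fin.lastCases i p' : Fin (n + 1) → I) k) j).submatrix
              (Fin.last n).succAbove j.succAbove).det = c j * m i j := by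
        intro j
        have e1 : ((Matrix.of fun k j => m ((Fin.lastCases i p' : Fin (n + 1) → I) k) j).submatrix
              (Fin.last n).succAbove j.succAbove) = Matrix.of fun k l => m (p' k) (j.succAbove l) := by
          ext k l
          simp [Fin.succAbove_last]
        rw [e1]
        simp only [hc, Matrix.of_apply, Fin.lastCases_last, Fin.val_last]
        ring
      rw [Finset.sum_congr rfl fun j _ => e j]
      exact hi

end LA

section BD

variable {K : Type*} [Field K] {Γ₀ : Type*} [LinearOrderedCommGroupWithZero Γ₀]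
  (v : Valuation K Γ₀)

/-- **Bound of the coordinates from integral values.** -/
theorem exists_bound_of_det_ne_zero {n : ℕ} (E : Matrix (Fin n) (Fin n) K) (hdet : E.det ≠ 0) :
    ∃ C : K, C ≠ 0 ∧ ∀ c : Fin n → K, (∀ k, v (∑ j, E k j * c j) ≤ 1) → ∀ j, v (c j) ≤ v C := by
  classical
  -- a common bound for the entries of the inverse
  let T : Finset K := insert 1 (Finset.univ.image fun x : Fin n × Fin n => E⁻¹ x.1 x.2)
  obtain ⟨C, hCT, hC⟩ := Finset.exists_max_image T v ⟨1, Finset.mem_insert_self _ _⟩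
  have hC1 : 1 ≤ v C := by
    have := hC 1 (Finset.mem_insert_self _ _)
    rwa [map_one] at this
  have hC0 : C ≠ 0 := by
    rintro rfl
    rw [map_zero] at hC1
    exact absurd hC1 (not_le.mpr zero_lt_one)
  refine ⟨C, hC0, fun c hc j => ?_⟩
  have hinv : E⁻¹ * E = 1 := Matrix.nonsing_inv_mul E (isUnit_iff_ne_zero.mpr hdet)
  have hcj : c j = ∑ k, E⁻¹ j k * ∑ l, E k l * c l := by
    have h1 : (E⁻¹ * E).mulVec c = c := by rw [hinv, Matrix.one_mulVec]
    have h2 := congrFun h1 j
    rw [← Matrix.mulVec_mulVec] at h2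
    rw [← h2]
    rfl
  rw [hcj]
  apply v.map_sum_le
  intro k _
  rw [map_mul]
  have hE : v (E⁻¹ j k) ≤ v C :=
    hC _ (Finset.mem_insert_of_mem (Finset.mem_image.mpr ⟨(j, k), Finset.mem_univ _, rfl⟩))
  calc v (E⁻¹ j k) * v (∑ l, E k l * c l) ≤ v C * 1 := mul_le_mul' hE (hc k)
    _ = v C := mul_one _

/-- **Boundedness from a maximum principle at the points of an infinite set.** `m i j` is the
value of `w j` at the point `i`. -/
theorem exists_bound_of_eval {I V : Type*} [AddCommGroup V] [Module K V] (O : Set V) {n : ℕ}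
    (w : Fin n → V) (S : Set I) (hS : S.Infinite) (m : I → Fin n → K)
    (hm : ∀ c : Fin n → K, c ≠ 0 → {i | i ∈ S ∧ ∑ j, c j * m i j = 0}.Finite)
    (hmax : ∀ i ∈ S, ∀ c : Fin n → K, (∑ j, c j • w j) ∈ O → v (∑ j, c j * m i j) ≤ 1) :
    ∃ C : K, C ≠ 0 ∧ ∀ c : Fin n → K, (∑ j, c j • w j) ∈ O → ∀ j, v (c j) ≤ v C := by
  obtain ⟨p, hpS, hdet⟩ := exists_det_ne_zero S hS m hm
  obtain ⟨C, hC0, hC⟩ := exists_bound_of_det_ne_zero v _ hdet
  refine ⟨C, hC0, fun c hc j => hC c (fun k => ?_) j⟩
  have := hmax (p k) (hpS k) c hc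
  simpa [mul_comm] using this

/-- the same with a modulus `ϖ` (`|ϖ|^N → 0`) -/
theorem exists_pow_mul_le_of_eval {I V : Type*} [AddCommGroup V] [Module K V] (O : Set V) {n : ℕ}
    (w : Fin n → V) (S : Set I) (hS : S.Infinite) (m : I → Fin n → K)
    (hm : ∀ c : Fin n → K, c ≠ 0 → {i | i ∈ S ∧ ∑ j, c j * m i j = 0}.Finite)
    (hmax : ∀ i ∈ S, ∀ c : Fin n → K, (∑ j, c j • w j) ∈ O → v (∑ j, c j * m i j) ≤ 1)
    (ϖ : K) (hϖ : ∀ C : K, ∃ N : ℕ, v (ϖ ^ N * C) ≤ 1) :
    ∃ N : ℕ, ∀ c : Fin n → K, (∑ j, c j • w j) ∈ O → ∀ j, v (ϖ ^ N * c j) ≤ 1 := by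
  obtain ⟨C, _, hC⟩ := exists_bound_of_eval v O w S hS m hm hmax
  obtain ⟨N, hN⟩ := hϖ C
  refine ⟨N, fun c hc j => ?_⟩
  rw [map_mul] at hN ⊢
  exact le_trans (mul_le_mul' le_rfl (hC c hc j)) hN

end BD

end Fermat.Agent.BR.EvalBound
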