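/-
Program B (BADRED), block B6, node B6.2 (helper21): a noetherian integrally closed domain is the
intersection of its localisations at height-one primes (Mathlib only).

For `x` in the fraction field `K` of `R`, `den x` is the ideal of denominators of `x`.  If `x ∉ R`
there is `z ∉ R` with `den x ≤ den z` and `den z` prime (a maximal denominator ideal); for `R`
noetherian and integrally closed such a prime has height one.  Consequences:
`mem_range_of_forall_height_one`, `dvd_of_forall_height_one` (unmixedness of principal ideals).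
-/
import Mathlib

set_option autoImplicit false

namespace Fermat.Agent.BR.KrullNormal

variable {R : Type*} [CommRing R] {K : Type*} [Field K] [Algebra R K]

/-- The ideal of denominators of `x : K`. -/
def den (x : K) : Ideal R where
  carrier := {r | ∃ a : R, algebraMap R K a = algebraMap R K r * x}
  add_mem' := by
    rintro r s ⟨a, ha⟩ ⟨b, hb⟩
    exact ⟨a + b, by rw [map_add, map_add, ha, hb]; ring⟩
  zero_mem' := ⟨0, by simp⟩
  smul_mem' := by
    rintro c r ⟨a, ha⟩
    exact ⟨c * a, by rw [smul_eq_mul, map_mul, map_mul, ha]; ring⟩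

theorem mem_den {x : K} {r : R} :
    r ∈ den (R := R) x ↔ ∃ a : R, algebraMap R K a = algebraMap R K r * x := Iff.rfl

theorem den_eq_top_iff {x : K} : den (R := R) x = ⊤ ↔ x ∈ (algebraMap R K).range := by
  rw [Ideal.eq_top_iff_one, mem_den]
  constructor
  · rintro ⟨a, ha⟩
    exact ⟨a, by rw [ha, map_one, one_mul]⟩
  · rintro ⟨a, ha⟩
    exact ⟨a, by rw [ha, map_one, one_mul]⟩

/-- `x` is regular at the prime `p`: it has a denominator outside `p`. -/
def RegularAt (p : Ideal R) (x : K) : Prop :=
  ∃ a b : R, b ∉ p ∧ x * algebraMap R K b = algebraMap R K a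

theorem regularAt_iff {p : Ideal R} {x : K} : RegularAt p x ↔ ¬ den (R := R) x ≤ p := by
  constructor
  · rintro ⟨a, b, hb, h⟩ hle
    exact hb (hle ⟨a, by rw [← h]; ring⟩)
  · intro h
    obtain ⟨b, hb, hbp⟩ := Set.not_subset.mp h
    obtain ⟨a, ha⟩ := hb
    exact ⟨a, b, hbp, by rw [ha]; ring⟩

theorem den_le_den_smul (x : K) (a : R) : den (R := R) x ≤ den (R := R) (algebraMap R K a * x) := by
  rintro r ⟨c, hc⟩
  exact ⟨a * c, by rw [map_mul, hc]; ring⟩

section Noetherian

variable [IsNoetherianRing R]

/-- A maximal denominator ideal is prime. -/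
theorem exists_prime_den (x : K) (hx : x ∉ (algebraMap R K).range) :
    ∃ z : K, z ∉ (algebraMap R K).range ∧ den (R := R) x ≤ den (R := R) z ∧
      (den (R := R) z).IsPrime := by
  obtain ⟨P, ⟨hle, hne, z, rfl⟩, hmax⟩ :=
    set_has_maximal_iff_noetherian.mpr (inferInstance : IsNoetherianRing R)
      { P : Ideal R | den (R := R) x ≤ P ∧ P ≠ ⊤ ∧ ∃ z : K, P = den (R := R) z }
      ⟨_, le_rfl, by rwa [Ne, den_eq_top_iff], x, rfl⟩
  refine ⟨z, by rwa [Ne, den_eq_top_iff] at hne, hle, ⟨hne, ?_⟩⟩
  intro a b hab
  rw [or_iff_not_imp_left]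
  intro ha
  -- `a ∉ den z`, so `a z ∉ R`
  have hne' : den (R := R) (algebraMap R K a * z) ≠ ⊤ := by
    rw [Ne, den_eq_top_iff]
    rintro ⟨c, hc⟩
    exact ha ⟨c, hc⟩
  have hle' := den_le_den_smul (R := R) z a
  have heq : den (R := R) z = den (R := R) (algebraMap R K a * z) :=
    hle'.eq_of_not_lt (hmax _ ⟨hle.trans hle', hne', _, rfl⟩)
  rw [heq]
  obtain ⟨c, hc⟩ := hab
  exact ⟨c, by rw [hc, map_mul]; ring⟩

end Noetherian

section Normal

variable [IsDomain R] [IsFractionRing R K]

theorem den_ne_bot (z : K) : den (R := R) z ≠ ⊥ := by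
  obtain ⟨a, b, hb, h⟩ := IsFractionRing.div_surjective (A := R) z
  have hb0 : algebraMap R K b ≠ 0 :=
    IsFractionRing.to_map_ne_zero_of_mem_nonZeroDivisors hb
  intro hbot
  have hmem : b ∈ den (R := R) z := ⟨a, by rw [← h]; field_simp⟩
  rw [hbot, Ideal.mem_bot] at hmem
  exact hb0 (by rw [hmem, map_zero])

/-- The elements `r` of `R` with `r z ∈ P`. -/
def denInto (P : Ideal R) (z : K) : Ideal R where
  carrier := {r | ∃ c ∈ P, algebraMap R K c = algebraMap R K r * z}
  add_mem' := by
    rintro r s ⟨a, haP, ha⟩ ⟨b, hbP, hb⟩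
    exact ⟨a + b, P.add_mem haP hbP, by rw [map_add, map_add, ha, hb]; ring⟩
  zero_mem' := ⟨0, P.zero_mem, by simp⟩
  smul_mem' := by
    rintro c r ⟨a, haP, ha⟩
    exact ⟨c * a, P.mul_mem_left c haP, by rw [smul_eq_mul, map_mul, map_mul, ha]; ring⟩

variable [IsNoetherianRing R] [IsIntegrallyClosed R]

/-- Integrality criterion: an element stabilising a nonzero f.g. `R`-submodule of `K` lies in `R`. -/
theorem mem_range_of_mul_mem (z : K) (N : Submodule R K) (hN : N ≠ ⊥) (hfg : N.FG)
    (h : ∀ n ∈ N, z * n ∈ N) : z ∈ (algebraMap R K).range := by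
  have hint : IsIntegral R z :=
    isIntegral_of_smul_mem_submodule (R := R) (A := K) (M := K) N hN hfg z
      (fun n hn => by simpa using h n hn)
  obtain ⟨y, hy⟩ := IsIntegrallyClosed.isIntegral_iff.mp hint
  exact ⟨y, hy⟩

theorem not_le_denInto (z : K) (hz : z ∉ (algebraMap R K).range) :
    ¬ den (R := R) z ≤ denInto (den (R := R) z) z := by
  intro hle
  apply hz
  set P : Ideal R := den (R := R) z with hP
  refine mem_range_of_mul_mem z (Submodule.map (Algebra.linearMap R K) P) ?_ ?_ ?_
  · intro hbot
    obtain ⟨r, hrP, hr0⟩ := Submodule.exists_mem_ne_zero_of_ne_bot (den_ne_bot (R := R) z)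
    have hmem : algebraMap R K r ∈ Submodule.map (Algebra.linearMap R K) P :=
      ⟨r, hrP, rfl⟩
    rw [hbot, Submodule.mem_bot] at hmem
    exact hr0 (IsFractionRing.injective R K (by rw [hmem, map_zero]))
  · exact Submodule.FG.map _ (IsNoetherian.noetherian P)
  · rintro n ⟨r, hr, rfl⟩
    obtain ⟨c, hcP, hc⟩ := hle hr
    refine ⟨c, hcP, ?_⟩
    simp only [Algebra.linearMap_apply]
    rw [hc]; ring

/-- A prime strictly below a prime denominator ideal is zero. -/
theorem eq_bot_of_lt_den (z : K) (hz : z ∉ (algebraMap R K).range)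
    (P' : Ideal R) (hP' : P'.IsPrime)
    (hlt : P' < den (R := R) z) : P' = ⊥ := by
  set P : Ideal R := den (R := R) z with hP
  have hinj : Function.Injective (algebraMap R K) := IsFractionRing.injective R K
  -- prime avoidance
  have havoid : ¬ ((P : Set R) ⊆ (denInto P z : Set R) ∪ (P' : Set R)) := by
    rw [Ideal.subset_union]
    rintro (h | h)
    · exact not_le_denInto z hz h
    · exact (not_le_of_gt hlt) h
  obtain ⟨π₀, hπP, hπ⟩ := Set.not_subset.mp havoid
  have hπ1 : π₀ ∉ denInto P z := fun h => hπ (Or.inl h)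
  have hπ2 : π₀ ∉ P' := fun h => hπ (Or.inr h)
  obtain ⟨c₀, hc₀⟩ := hπP
  rw [eq_bot_iff]
  intro r hr
  rw [Ideal.mem_bot]
  by_contra hr0
  -- all `r z^n` lie in `P'`
  have hpow : ∀ n : ℕ, ∃ rn ∈ P', algebraMap R K rn = algebraMap R K r * z ^ n := by
    intro n
    induction n with
    | zero => exact ⟨r, hr, by simp⟩
    | succ n ih =>
      obtain ⟨rn, hrn, hrn'⟩ := ih
      obtain ⟨s, hs⟩ : rn ∈ P := hlt.le hrn
      have hmul : π₀ * s = rn * c₀ := by
        apply hinj
        rw [map_mul, map_mul, hs, hc₀]; ring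
      have hsP' : s ∈ P' := by
        have : π₀ * s ∈ P' := by rw [hmul]; exact P'.mul_mem_right _ hrn
        exact (hP'.mem_or_mem this).resolve_left hπ2
      exact ⟨s, hsP', by rw [hs, hrn', pow_succ]; ring⟩
  apply hz
  have hr0' : algebraMap R K r ≠ 0 := fun h => hr0 (hinj (by rw [h, map_zero]))
  refine mem_range_of_mul_mem z (Submodule.span R (Set.range fun n : ℕ => z ^ n)) ?_ ?_ ?_
  · intro hbot
    have h1 : (1 : K) ∈ Submodule.span R (Set.range fun n : ℕ => z ^ n) :=
      Submodule.subset_span ⟨0, by simp⟩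
    rw [hbot, Submodule.mem_bot] at h1
    exact one_ne_zero h1
  · refine Submodule.FG.of_le (Submodule.fg_span_singleton ((algebraMap R K r)⁻¹)) ?_
    rw [Submodule.span_le]
    rintro _ ⟨n, rfl⟩
    obtain ⟨rn, -, hrn⟩ := hpow n
    rw [SetLike.mem_coe, Submodule.mem_span_singleton]
    refine ⟨rn, ?_⟩
    rw [Algebra.smul_def, hrn]
    field_simp
  · intro n hn
    induction hn using Submodule.span_induction with
    | mem x hx =>
      obtain ⟨k, rfl⟩ := hx
      exact Submodule.subset_span ⟨k + 1, by simp only [pow_succ]; ring⟩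
    | zero => simp
    | add x y _ _ hx hy => rw [mul_add]; exact Submodule.add_mem _ hx hy
    | smul a x _ hx =>
      rw [mul_smul_comm]; exact Submodule.smul_mem _ a hx

/-- **A prime denominator ideal of a non-integral element has height one.** -/
theorem height_den_eq_one (z : K) (hz : z ∉ (algebraMap R K).range)
    (hprime : (den (R := R) z).IsPrime) : (den (R := R) z).height = 1 := by
  apply le_antisymm
  · have h := (Ideal.height_le_iff (p := den (R := R) z) (n := 1)).mpr (by
      intro q hq hlt
      rw [eq_bot_of_lt_den z hz q hq hlt, Ideal.height_bot]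
      exact_mod_cast Nat.zero_lt_one)
    exact_mod_cast h
  · rw [Order.one_le_iff_ne_zero, Ne, Ideal.height_eq_zero_iff_eq_bot]
    exact den_ne_bot (R := R) z

/-- **Krull**: an element of the fraction field of a noetherian integrally closed domain which is
regular at every height-one prime lies in the ring. -/
theorem mem_range_of_forall_height_one (x : K)
    (h : ∀ p : Ideal R, p.IsPrime → p.height = 1 → RegularAt p x) :
    x ∈ (algebraMap R K).range := by
  by_contra hx
  obtain ⟨z, hz, hle, hprime⟩ := exists_prime_den (R := R) x hx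
  have hreg := h _ hprime (height_den_eq_one z hz hprime)
  rw [regularAt_iff] at hreg
  exact hreg hle

/-- **Unmixedness of principal ideals**: divisibility can be tested at height-one primes. -/
theorem dvd_of_forall_height_one {a y : R} (ha : a ≠ 0)
    (h : ∀ p : Ideal R, p.IsPrime → p.height = 1 → a ∈ p → ∃ s, s ∉ p ∧ a ∣ s * y) : a ∣ y := by
  have hinj : Function.Injective (algebraMap R (FractionRing R)) :=
    IsFractionRing.injective R (FractionRing R)
  have ha' : algebraMap R (FractionRing R) a ≠ 0 := fun h0 => ha (hinj (by rw [h0, map_zero]))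
  have hx : algebraMap R (FractionRing R) y * (algebraMap R (FractionRing R) a)⁻¹ ∈
      (algebraMap R (FractionRing R)).range := by
    apply mem_range_of_forall_height_one
    intro p hp hht
    by_cases hap : a ∈ p
    · obtain ⟨s, hs, c, hc⟩ := h p hp hht hap
      refine ⟨c, s, hs, ?_⟩
      have : algebraMap R (FractionRing R) s * algebraMap R (FractionRing R) y =
          algebraMap R (FractionRing R) a * algebraMap R (FractionRing R) c := by
        rw [← map_mul, ← map_mul, hc]
      calc algebraMap R (FractionRing R) y * (algebraMap R (FractionRing R) a)⁻¹ *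
            algebraMap R (FractionRing R) s
          = (algebraMap R (FractionRing R) s * algebraMap R (FractionRing R) y) *
            (algebraMap R (FractionRing R) a)⁻¹ := by ring
        _ = algebraMap R (FractionRing R) c := by
            rw [this, mul_comm (algebraMap R (FractionRing R) a), mul_assoc,
              mul_inv_cancel₀ ha', mul_one]
    · refine ⟨y, a, hap, ?_⟩
      rw [mul_assoc, inv_mul_cancel₀ ha', mul_one]
  obtain ⟨c, hc⟩ := hx
  refine ⟨c, hinj ?_⟩
  rw [map_mul, hc, mul_comm (algebraMap R (FractionRing R) y), ← mul_assoc,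
    mul_inv_cancel₀ ha', one_mul]

end Normal

/-! ### The local version -/

section Local

variable [IsDomain R] [IsFractionRing R K]

/-- Denominators up to a multiplicative set `S`. -/
def denS (S : Submonoid R) (x : K) : Ideal R where
  carrier := {r | ∃ s ∈ S, ∃ a : R, algebraMap R K a = algebraMap R K (s * r) * x}
  add_mem' := by
    rintro r r' ⟨s, hs, a, ha⟩ ⟨s', hs', a', ha'⟩
    refine ⟨s * s', S.mul_mem hs hs', s' * a + s * a', ?_⟩
    simp only [map_add, map_mul] at ha ha' ⊢
    rw [ha, ha']; ring
  zero_mem' := ⟨1, S.one_mem, 0, by simp⟩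
  smul_mem' := by
    rintro c r ⟨s, hs, a, ha⟩
    refine ⟨s, hs, c * a, ?_⟩
    simp only [smul_eq_mul, map_mul] at ha ⊢
    rw [ha]; ring

theorem den_le_denS (S : Submonoid R) (x : K) : den (R := R) x ≤ denS S x := by
  rintro r ⟨a, ha⟩
  exact ⟨1, S.one_mem, a, by rw [one_mul, ha]⟩

theorem denS_le_of_den_le (n : Ideal R) [n.IsPrime] (x : K) (h : den (R := R) x ≤ n) :
    denS n.primeCompl x ≤ n := by
  rintro r ⟨s, hs, a, ha⟩
  have : s * r ∈ n := h ⟨a, ha⟩
  exact (Ideal.IsPrime.mem_or_mem inferInstance this).resolve_left hs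

variable [IsNoetherianRing R]

/-- A maximal proper `S`-denominator ideal is prime, and is an honest denominator ideal. -/
theorem exists_prime_denS (n : Ideal R) [n.IsPrime] (x : K) (hx : den (R := R) x ≤ n) :
    ∃ z : K, z ∉ (algebraMap R K).range ∧ den (R := R) x ≤ den (R := R) z ∧
      den (R := R) z ≤ n ∧ (den (R := R) z).IsPrime := by
  set S := n.primeCompl with hS
  obtain ⟨P, ⟨hle, hne, z, rfl⟩, hmax⟩ :=
    set_has_maximal_iff_noetherian.mpr (inferInstance : IsNoetherianRing R)
      { P : Ideal R | denS S x ≤ P ∧ P ≠ ⊤ ∧ ∃ z : K, P = denS S z }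
      ⟨_, le_rfl, fun h => (Ideal.IsPrime.ne_top inferInstance)
        (top_le_iff.mp (h ▸ denS_le_of_den_le n x hx)), x, rfl⟩
  -- `denS S z` is prime
  have hprime : (denS S z).IsPrime := by
    refine ⟨hne, ?_⟩
    intro a b hab
    rw [or_iff_not_imp_left]
    intro ha
    have hne' : denS S (algebraMap R K a * z) ≠ ⊤ := by
      rw [Ne, Ideal.eq_top_iff_one]
      rintro ⟨s, hs, c, hc⟩
      exact ha ⟨s, hs, c, by rw [hc, mul_one, map_mul]; ring⟩
    have hle' : denS S z ≤ denS S (algebraMap R K a * z) := by
      rintro r ⟨s, hs, c, hc⟩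
      exact ⟨s, hs, a * c, by rw [map_mul, hc]; ring⟩
    have heq : denS S z = denS S (algebraMap R K a * z) :=
      hle'.eq_of_not_lt (hmax _ ⟨hle.trans hle', hne', _, rfl⟩)
    rw [heq]
    obtain ⟨s, hs, c, hc⟩ := hab
    exact ⟨s, hs, c, by rw [hc]; simp only [map_mul]; ring⟩
  -- it is contained in `n`
  have hPn : denS S z ≤ n := by
    intro r hr
    by_contra hrn
    apply hne
    rw [Ideal.eq_top_iff_one]
    obtain ⟨s, hs, c, hc⟩ := hr
    exact ⟨s * r, S.mul_mem hs hrn, c, by rw [mul_one, hc]⟩
  -- a common `S`-multiplier for a finite generating set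
  have hfg : (denS S z).FG := IsNoetherian.noetherian _
  obtain ⟨T, hT⟩ := hfg
  have hmult : ∃ s ∈ S, ∀ r ∈ T, ∃ c : R, algebraMap R K c = algebraMap R K (s * r) * z := by
    classical
    have hsub : ∀ r ∈ T, r ∈ denS S z := fun r hr => hT ▸ Ideal.subset_span hr
    clear hT
    induction T using Finset.induction_on with
    | empty => exact ⟨1, S.one_mem, by simp⟩
    | insert r₀ T hr₀ ih =>
      obtain ⟨s, hs, hsT⟩ := ih (fun r hr => hsub r (Finset.mem_insert_of_mem hr))
      obtain ⟨s₀, hs₀, c₀, hc₀⟩ := hsub r₀ (Finset.mem_insert_self _ _)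
      refine ⟨s * s₀, S.mul_mem hs hs₀, ?_⟩
      intro r hr
      rcases Finset.mem_insert.mp hr with rfl | hr
      · exact ⟨s * c₀, by simp only [map_mul] at hc₀ ⊢; rw [hc₀]; ring⟩
      · obtain ⟨c, hc⟩ := hsT r hr
        exact ⟨s₀ * c, by simp only [map_mul] at hc ⊢; rw [hc]; ring⟩
  obtain ⟨s, hs, hsT⟩ := hmult
  set z' : K := algebraMap R K s * z with hz'
  have hden : den (R := R) z' = denS S z := by
    apply le_antisymm
    · rintro r ⟨c, hc⟩
      exact ⟨s, hs, c, by rw [hc, hz', map_mul]; ring⟩
    · rw [← hT, Ideal.span_le]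
      intro r hr
      obtain ⟨c, hc⟩ := hsT r hr
      exact ⟨c, by rw [hc, hz', map_mul]; ring⟩
  refine ⟨z', ?_, ?_, ?_, ?_⟩
  · rw [← den_eq_top_iff (R := R), hden]; exact hne
  · rw [hden]; exact (den_le_denS S x).trans hle
  · rw [hden]; exact hPn
  · rw [hden]; exact hprime

variable [IsIntegrallyClosed R]

/-- **Krull, local form**: regularity at a prime `n` can be tested at the height-one primes
contained in `n`. -/
theorem regularAt_of_forall_height_one (n : Ideal R) [n.IsPrime] (x : K)
    (h : ∀ p : Ideal R, p.IsPrime → p ≤ n → p.height = 1 → RegularAt p x) : RegularAt n x := by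
  rw [regularAt_iff]
  intro hx
  obtain ⟨z, hz, hle, hzn, hprime⟩ := exists_prime_denS n x hx
  have hreg := h _ hprime hzn (height_den_eq_one z hz hprime)
  rw [regularAt_iff] at hreg
  exact hreg hle

end Local

/-! ### Height-one primes are discrete valuation rings -/

section DVR

variable (R) in
/-- The localisation of a noetherian integrally closed domain at a height-one prime is a discrete
valuation ring. -/
theorem isDiscreteValuationRing_of_height_one [IsDomain R] [IsNoetherianRing R]
    [IsIntegrallyClosed R] (p : Ideal R) [p.IsPrime] (hp : p.height = 1) :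
    IsDiscreteValuationRing (Localization.AtPrime p) := by
  set S := Localization.AtPrime p with hS
  have hint : IsIntegrallyClosed S :=
    isIntegrallyClosed_of_isLocalization S p.primeCompl p.primeCompl_le_nonZeroDivisors
  have hpbot : p ≠ ⊥ := Ideal.ne_bot_of_height_eq_one hp
  have hmax : IsLocalRing.maximalIdeal S ≠ ⊥ := by
    rw [← IsLocalization.AtPrime.map_eq_maximalIdeal p S]
    intro h
    apply hpbot
    rw [eq_bot_iff]
    intro r hr
    have : algebraMap R S r ∈ Ideal.map (algebraMap R S) p := Ideal.mem_map_of_mem _ hr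
    rw [h, Ideal.mem_bot] at this
    rw [Ideal.mem_bot]
    exact IsLocalization.injective S p.primeCompl_le_nonZeroDivisors (by rw [this, map_zero])
  have hunique : ∀ P : Ideal S, P ≠ ⊥ → P.IsPrime → P = IsLocalRing.maximalIdeal S := by
    intro P hP hPprime
    have hP0prime : (P.under R).IsPrime := Ideal.IsPrime.under R P
    have hP0le : P.under R ≤ p := by
      have h1 : P.under R ≤ (IsLocalRing.maximalIdeal S).under R :=
        Ideal.comap_mono (IsLocalRing.le_maximalIdeal hPprime.ne_top)
      have h2 : (IsLocalRing.maximalIdeal S).under R = p :=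
        IsLocalization.AtPrime.under_maximalIdeal S p
      exact le_of_le_of_eq h1 h2
    have hP0 : P.under R = p := by
      by_contra hne
      have hlt : P.under R < p := lt_of_le_of_ne hP0le hne
      have h1 := (Ideal.height_le_iff (p := p) (n := 1)).mp (by rw [hp]; exact le_rfl)
        (P.under R) hP0prime hlt
      have h0 : (P.under R).height = 0 := by
        have : (P.under R).height < 1 := by exact_mod_cast h1
        exact Order.lt_one_iff.mp this
      rw [Ideal.height_eq_zero_iff_eq_bot] at h0
      apply hP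
      rw [← IsLocalization.map_under p.primeCompl S P, h0, Ideal.map_bot]
    rw [← IsLocalization.map_under p.primeCompl S P, hP0,
      IsLocalization.AtPrime.map_eq_maximalIdeal p S]
  have htfae := (tfae_of_isNoetherianRing_of_isLocalRing_of_isDomain S).out 3 0
  have hpid : IsPrincipalIdealRing S := htfae.mp ⟨hint, hunique⟩
  exact { hpid with not_a_field' := hmax }

end DVR

end Fermat.Agent.BR.KrullNormal
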