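import Mathlib
import Fermat.Agent.BR.KrullNormal
import Fermat.Agent.BR.NodeLemma

/-!
# Program B (BADRED), node B7.3a: horizontal primes ↔ discrete valuation rings ("places")

The noetherian half of the dictionary (R1) (Mathlib + `BR/KrullNormal` + `BR/NodeLemma`).

`O` is a noetherian integrally closed domain with fraction field `F` (in the application: the
local ring `O_{n,W'}` of the normal model over `W'` at a closed point of the special fibre, `F =
F'` the function field over `K' = Frac W'`).

* `primeVal p hp : ValuationSubring F` : the discrete valuation ring `O_p ⊆ F` of a height-one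
  prime; `mem_primeVal_iff`, `algebraMap_mem_nonunits_iff` (its centre on `O` is `p`),
  `primeVal_ne_top`, instance `IsDiscreteValuationRing (primeVal p hp)`;
* `centre V hOV : Ideal O` : the centre of a valuation ring `V ⊇ O` (prime; `≠ ⊥` iff `V ≠ ⊤`);
  `eq_primeVal_of_height_one` : `V = O_p` as soon as its centre `p` has height one
  (`eq_or_eq_top_of_le` : a DVR is a maximal proper valuation subring);
* `height_eq_one_of_notMem` : in a local domain of dimension `≤ 2` every nonzero prime not
  containing `π ∈ 𝔪` (a HORIZONTAL prime) has height one; `height_maximalIdeal_le_two` (`𝔪`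
  generated by two elements);
* `IsLocalGen p g` (`g` generates `p O_p`), `exists_isLocalGen`, `IsLocalGen.irreducible`
  (`g` is a uniformizer of `O_p`), `IsLocalGen.exists_zpow_mul` (`y = g ^ k * unit of O_p`);
* RATIONAL POINTS (`O` local noetherian, `φ : O →ₐ[W] W`): `mem_of_forall_mem_sup_pow` (ideals are
  closed), `ker_eq_of_maximalIdeal_eq_sup`, `ker_eq_span_of_maximalIdeal_eq`,
  `ker_eq_span_sub` (**(S1)** smooth point: `ker φ = (t - c)`), `map_mem_nonunits`,
  `node_ker_eq` (**(N1')(i)** node: `ker φ = (u - c, v - c')`; `(u - c)` itself is NOT prime, it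
  lies in `p1`), `node_point_dvd` (**(N1')(ii)**: `u - c` generates `ker φ` locally at `ker φ`);
* `finite_height_one_of_mem` : a nonzero element lies in finitely many height-one primes.
-/

set_option autoImplicit false

namespace Fermat.Agent.BR.HorizPrimes

open IsLocalRing Fermat.Agent.BR.KrullNormal Fermat.Agent.BR.NodeLemma

section Part1

variable {O : Type*} [CommRing O] {F : Type*} [Field F] [Algebra O F]

/-! ### the ring of functions regular at a prime -/

theorem regularAt_algebraMap (p : Ideal O) [hp : p.IsPrime] (a : O) :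
    RegularAt p (algebraMap O F a) :=
  ⟨a, 1, fun h => hp.ne_top ((Ideal.eq_top_iff_one p).mpr h), by rw [map_one, mul_one]⟩

theorem RegularAt.add {p : Ideal O} [hp : p.IsPrime] {x y : F} (hx : RegularAt p x)
    (hy : RegularAt p y) : RegularAt p (x + y) := by
  obtain ⟨a, b, hb, hab⟩ := hx
  obtain ⟨c, d, hd, hcd⟩ := hy
  refine ⟨a * d + c * b, b * d, fun h => (hp.mem_or_mem h).elim hb hd, ?_⟩
  simp only [map_add, map_mul]
  rw [← hab, ← hcd]; ring

theorem RegularAt.mul {p : Ideal O} [hp : p.IsPrime] {x y : F} (hx : RegularAt p x)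
    (hy : RegularAt p y) : RegularAt p (x * y) := by
  obtain ⟨a, b, hb, hab⟩ := hx
  obtain ⟨c, d, hd, hcd⟩ := hy
  refine ⟨a * c, b * d, fun h => (hp.mem_or_mem h).elim hb hd, ?_⟩
  simp only [map_mul]
  rw [← hab, ← hcd]; ring

theorem RegularAt.neg {p : Ideal O} {x : F} (hx : RegularAt p x) : RegularAt p (-x) := by
  obtain ⟨a, b, hb, hab⟩ := hx
  exact ⟨-a, b, hb, by rw [map_neg, ← hab]; ring⟩

variable [IsDomain O] [IsFractionRing O F]

/-- at a height-one prime of a noetherian normal domain, `x` or `x⁻¹` is regular -/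
theorem regularAt_or_inv [IsNoetherianRing O] [IsIntegrallyClosed O] (p : Ideal O) [p.IsPrime]
    (hp : p.height = 1) (x : F) : RegularAt p x ∨ RegularAt p x⁻¹ := by
  have hdvr := isDiscreteValuationRing_of_height_one O p hp
  set L := Localization.AtPrime p with hL
  have hinjL : Function.Injective (algebraMap O L) :=
    IsLocalization.injective L p.primeCompl_le_nonZeroDivisors
  have hinjF : Function.Injective (algebraMap O F) := IsFractionRing.injective O F
  obtain ⟨α, β, hβ, rfl⟩ := IsFractionRing.div_surjective (A := O) x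
  have hβ0 : β ≠ 0 := nonZeroDivisors.ne_zero hβ
  have hβF : algebraMap O F β ≠ 0 := fun h => hβ0 (hinjF (by rw [h, map_zero]))
  have key : ∀ a b : O, algebraMap O F b ≠ 0 → algebraMap O L b ∣ algebraMap O L a →
      RegularAt p (algebraMap O F a / algebraMap O F b) := by
    intro a b hb ⟨z, hz⟩
    obtain ⟨c, s, rfl⟩ := IsLocalization.exists_mk'_eq p.primeCompl z
    have h1 : algebraMap O L a * algebraMap O L s = algebraMap O L b * algebraMap O L c := by
      rw [hz, mul_assoc, IsLocalization.mk'_spec]
    have h2 : a * s = b * c := hinjL (by rw [map_mul, map_mul, h1])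
    refine ⟨c, s, s.2, ?_⟩
    have h3 : algebraMap O F a * algebraMap O F s = algebraMap O F b * algebraMap O F c := by
      rw [← map_mul, ← map_mul, h2]
    field_simp
    rw [h3]
  rcases ValuationRing.dvd_total (algebraMap O L β) (algebraMap O L α) with h | h
  · exact Or.inl (key α β hβF h)
  · by_cases hα : α = 0
    · left
      rw [hα, map_zero, zero_div]
      exact ⟨0, 1, fun h1 => (inferInstance : p.IsPrime).ne_top ((Ideal.eq_top_iff_one p).mpr h1),
        by simp⟩
    · right
      have hαF : algebraMap O F α ≠ 0 := fun h0 => hα (hinjF (by rw [h0, map_zero]))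
      rw [inv_div]
      exact key β α hαF h

end Part1

section Part2

variable {O : Type*} [CommRing O] [IsDomain O] [IsNoetherianRing O] [IsIntegrallyClosed O]
  {F : Type*} [Field F] [Algebra O F] [IsFractionRing O F]

/-- The discrete valuation ring `O_p ⊆ F` of a height-one prime `p` of the noetherian normal
domain `O`. -/
def primeVal (p : Ideal O) [p.IsPrime] (hp : p.height = 1) : ValuationSubring F where
  carrier := {x | RegularAt p x}
  mul_mem' hx hy := RegularAt.mul hx hy
  one_mem' := by simpa using regularAt_algebraMap (F := F) p (1 : O)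
  add_mem' hx hy := RegularAt.add hx hy
  zero_mem' := by simpa using regularAt_algebraMap (F := F) p (0 : O)
  neg_mem' hx := RegularAt.neg hx
  mem_or_inv_mem' x := regularAt_or_inv p hp x

variable (p : Ideal O) [p.IsPrime] (hp : p.height = 1)

theorem mem_primeVal_iff {x : F} :
    x ∈ primeVal (F := F) p hp ↔ ∃ a b : O, b ∉ p ∧ x * algebraMap O F b = algebraMap O F a :=
  Iff.rfl

theorem algebraMap_mem_primeVal (a : O) : algebraMap O F a ∈ primeVal (F := F) p hp :=
  regularAt_algebraMap p a

/-- elements outside `p` are units of `O_p` -/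
theorem inv_algebraMap_mem_primeVal {b : O} (hb : b ∉ p) :
    (algebraMap O F b)⁻¹ ∈ primeVal (F := F) p hp := by
  have hb0 : algebraMap O F b ≠ 0 := by
    intro h0
    have : b = 0 := IsFractionRing.injective O F (by rw [h0, map_zero])
    exact hb (this ▸ p.zero_mem)
  exact ⟨1, b, hb, by rw [inv_mul_cancel₀ hb0, map_one]⟩

/-- the centre of `O_p` on `O` is `p` -/
theorem algebraMap_mem_nonunits_iff (a : O) :
    algebraMap O F a ∈ (primeVal (F := F) p hp).nonunits ↔ a ∈ p := by
  have hinj : Function.Injective (algebraMap O F) := IsFractionRing.injective O F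
  constructor
  · intro h
    by_contra ha
    have hinv := inv_algebraMap_mem_primeVal (F := F) p hp ha
    rw [ValuationSubring.mem_nonunits_iff_exists_mem_maximalIdeal] at h
    obtain ⟨hmem, hmax⟩ := h
    rw [IsLocalRing.mem_maximalIdeal, mem_nonunits_iff] at hmax
    apply hmax
    have ha0 : algebraMap O F a ≠ 0 := fun h0 => ha ((hinj (by rw [h0, map_zero]) : a = 0) ▸ p.zero_mem)
    exact ⟨⟨⟨_, hmem⟩, ⟨_, hinv⟩, Subtype.ext (mul_inv_cancel₀ ha0),
      Subtype.ext (inv_mul_cancel₀ ha0)⟩, rfl⟩
  · intro ha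
    rw [ValuationSubring.mem_nonunits_iff_exists_mem_maximalIdeal]
    refine ⟨algebraMap_mem_primeVal p hp a, ?_⟩
    rw [IsLocalRing.mem_maximalIdeal, mem_nonunits_iff]
    intro hu
    obtain ⟨⟨w, hw⟩, hw1⟩ := hu.exists_right_inv
    have hw1' : algebraMap O F a * w = 1 := congrArg Subtype.val hw1
    obtain ⟨c, d, hd, hcd⟩ := hw
    -- `a * c = d`
    have : algebraMap O F (a * c) = algebraMap O F d := by
      rw [map_mul, ← hcd, ← mul_assoc, hw1', one_mul]
    have hacd : a * c = d := hinj this
    exact hd (hacd ▸ p.mul_mem_right c ha)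

theorem primeVal_ne_top : primeVal (F := F) p hp ≠ ⊤ := by
  intro htop
  have hinj : Function.Injective (algebraMap O F) := IsFractionRing.injective O F
  have hpbot : p ≠ ⊥ := Ideal.ne_bot_of_height_eq_one hp
  obtain ⟨a, hap, ha0⟩ := Submodule.exists_mem_ne_zero_of_ne_bot hpbot
  have ha0' : algebraMap O F a ≠ 0 := fun h0 => ha0 (hinj (by rw [h0, map_zero]))
  have hmem : (algebraMap O F a)⁻¹ ∈ primeVal (F := F) p hp := by
    rw [htop]; exact ValuationSubring.mem_top _
  obtain ⟨c, b, hb, hcb⟩ := hmem
  apply hb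
  have : algebraMap O F b = algebraMap O F (a * c) := by
    rw [map_mul, ← hcb]; field_simp
  rw [hinj this]
  exact p.mul_mem_right c hap

end Part2

section Part3

variable {O : Type*} [CommRing O] [IsDomain O] [IsNoetherianRing O] [IsIntegrallyClosed O]
  {F : Type*} [Field F] [Algebra O F] [IsFractionRing O F]

variable (p : Ideal O) [p.IsPrime] (hp : p.height = 1)

omit [IsDomain O] [IsNoetherianRing O] [IsIntegrallyClosed O] in
theorem isUnit_algebraMap_primeCompl (y : p.primeCompl) : IsUnit (algebraMap O F (y : O)) := by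
  apply IsUnit.mk0
  intro h0
  have : (y : O) = 0 := IsFractionRing.injective O F (by rw [h0, map_zero])
  exact y.2 (this ▸ p.zero_mem)

/-- the canonical surjection `Localization.AtPrime p → O_p ⊆ F` -/
noncomputable def toPrimeVal : Localization.AtPrime p →+* primeVal (F := F) p hp :=
  RingHom.codRestrict
    (IsLocalization.lift (M := p.primeCompl) (g := algebraMap O F) (isUnit_algebraMap_primeCompl p))
    (primeVal (F := F) p hp).toSubring (by
      intro z
      obtain ⟨a, s, rfl⟩ := IsLocalization.exists_mk'_eq p.primeCompl z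
      refine ⟨a, s, s.2, ?_⟩
      have := (IsLocalization.lift_mk'_spec (M := p.primeCompl) (S := Localization.AtPrime p)
        (g := algebraMap O F) (hg := isUnit_algebraMap_primeCompl p) a _ s).mp rfl
      rw [this]; ring)

theorem toPrimeVal_surjective : Function.Surjective (toPrimeVal (F := F) p hp) := by
  rintro ⟨x, a, b, hb, hab⟩
  refine ⟨IsLocalization.mk' _ a (⟨b, hb⟩ : p.primeCompl), Subtype.ext ?_⟩
  show IsLocalization.lift (M := p.primeCompl) (g := algebraMap O F)
    (isUnit_algebraMap_primeCompl p) (IsLocalization.mk' _ a (⟨b, hb⟩ : p.primeCompl)) = x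
  rw [IsLocalization.lift_mk'_spec]
  rw [← hab]; ring

instance isDiscreteValuationRing_primeVal :
    IsDiscreteValuationRing (primeVal (F := F) p hp) := by
  have hdvr := isDiscreteValuationRing_of_height_one O p hp
  have hpid : IsPrincipalIdealRing (primeVal (F := F) p hp) :=
    IsPrincipalIdealRing.of_surjective (toPrimeVal (F := F) p hp) (toPrimeVal_surjective p hp)
  refine { hpid with not_a_field' := ?_ }
  intro hbot
  have hinj : Function.Injective (algebraMap O F) := IsFractionRing.injective O F
  have hpbot : p ≠ ⊥ := Ideal.ne_bot_of_height_eq_one hp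
  obtain ⟨a, hap, ha0⟩ := Submodule.exists_mem_ne_zero_of_ne_bot hpbot
  have h1 := (algebraMap_mem_nonunits_iff (F := F) p hp a).mpr hap
  rw [ValuationSubring.mem_nonunits_iff_exists_mem_maximalIdeal] at h1
  obtain ⟨hmem, hmax⟩ := h1
  rw [hbot, Ideal.mem_bot] at hmax
  have : algebraMap O F a = 0 := congrArg Subtype.val hmax
  exact ha0 (hinj (by rw [this, map_zero]))

end Part3

section Part4

/-- a discrete valuation ring is a maximal proper subring of its field among valuation rings -/
theorem eq_or_eq_top_of_le {F : Type*} [Field F] {A V : ValuationSubring F}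
    [IsDiscreteValuationRing A] (h : A ≤ V) : V = A ∨ V = ⊤ := by
  have hP : (A.idealOfLE V h).IsPrime := inferInstance
  by_cases h0 : A.idealOfLE V h = ⊥
  · right
    have := A.ofPrime_idealOfLE V h
    rw [← this]
    simp only [h0]
    exact A.ofPrime_bot
  · left
    have hmax : (A.idealOfLE V h).IsMaximal := Ideal.IsPrime.isMaximal hP h0
    have heq : A.idealOfLE V h = maximalIdeal A := IsLocalRing.eq_maximalIdeal hmax
    have := A.ofPrime_idealOfLE V h
    rw [← this]
    simp only [heq]
    exact A.ofPrime_top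

variable {O : Type*} [CommRing O] {F : Type*} [Field F] [Algebra O F]

/-- the centre on `O` of a valuation ring `V ⊇ O` of `F` -/
def centre (V : ValuationSubring F) (hOV : ∀ a : O, algebraMap O F a ∈ V) : Ideal O where
  carrier := {a | V.valuation (algebraMap O F a) < 1}
  add_mem' {a b} ha hb := by
    show V.valuation (algebraMap O F (a + b)) < 1
    rw [map_add]
    exact lt_of_le_of_lt (V.valuation.map_add _ _) (max_lt ha hb)
  zero_mem' := by
    show V.valuation (algebraMap O F 0) < 1
    rw [map_zero, map_zero]; exact zero_lt_one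
  smul_mem' c a ha := by
    show V.valuation (algebraMap O F (c • a)) < 1
    rw [smul_eq_mul, map_mul, map_mul]
    have hc : V.valuation (algebraMap O F c) ≤ 1 := (V.valuation_le_one_iff _).mpr (hOV c)
    calc V.valuation (algebraMap O F c) * V.valuation (algebraMap O F a)
        ≤ 1 * V.valuation (algebraMap O F a) := mul_le_mul_left hc _
      _ < 1 := by rw [one_mul]; exact ha

theorem mem_centre_iff {V : ValuationSubring F} {hOV : ∀ a : O, algebraMap O F a ∈ V} {a : O} :
    a ∈ centre V hOV ↔ V.valuation (algebraMap O F a) < 1 := Iff.rfl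

theorem mem_centre_iff_nonunits {V : ValuationSubring F} {hOV : ∀ a : O, algebraMap O F a ∈ V}
    {a : O} : a ∈ centre V hOV ↔ algebraMap O F a ∈ V.nonunits := by
  rw [mem_centre_iff, ValuationSubring.mem_nonunits_iff]

instance centre_isPrime (V : ValuationSubring F) (hOV : ∀ a : O, algebraMap O F a ∈ V) :
    (centre V hOV).IsPrime where
  ne_top' := by
    rw [Ideal.ne_top_iff_one, mem_centre_iff, map_one, map_one]
    exact lt_irrefl _
  mem_or_mem' {a b} hab := by
    rw [mem_centre_iff, map_mul, map_mul] at hab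
    by_contra hcon
    rw [not_or, mem_centre_iff, mem_centre_iff, not_lt, not_lt] at hcon
    have ha : V.valuation (algebraMap O F a) = 1 :=
      le_antisymm ((V.valuation_le_one_iff _).mpr (hOV a)) hcon.1
    have hb : V.valuation (algebraMap O F b) = 1 :=
      le_antisymm ((V.valuation_le_one_iff _).mpr (hOV b)) hcon.2
    rw [ha, hb, one_mul] at hab
    exact lt_irrefl _ hab

variable [IsDomain O] [IsFractionRing O F]

theorem centre_ne_bot {V : ValuationSubring F} (hOV : ∀ a : O, algebraMap O F a ∈ V)
    (hV : V ≠ ⊤) : centre V hOV ≠ ⊥ := by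
  intro hbot
  apply hV
  rw [eq_top_iff]
  intro x _
  obtain ⟨a, b, hb, rfl⟩ := IsFractionRing.div_surjective (A := O) x
  have hb0 : b ≠ 0 := nonZeroDivisors.ne_zero hb
  have hbc : b ∉ centre V hOV := by rw [hbot, Ideal.mem_bot]; exact hb0
  rw [mem_centre_iff, not_lt] at hbc
  have hb1 : V.valuation (algebraMap O F b) = 1 :=
    le_antisymm ((V.valuation_le_one_iff _).mpr (hOV b)) hbc
  rw [← ValuationSubring.valuation_le_one_iff, map_div₀, hb1, div_one]
  exact (V.valuation_le_one_iff _).mpr (hOV a)

variable [IsNoetherianRing O] [IsIntegrallyClosed O]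

theorem centre_primeVal (p : Ideal O) [p.IsPrime] (hp : p.height = 1) :
    centre (primeVal (F := F) p hp) (algebraMap_mem_primeVal p hp) = p := by
  ext a
  rw [mem_centre_iff_nonunits, algebraMap_mem_nonunits_iff]

/-- **a valuation ring of `F` containing `O` whose centre has height one is `O_p`** -/
theorem eq_primeVal_of_height_one {V : ValuationSubring F} (hOV : ∀ a : O, algebraMap O F a ∈ V)
    (hV : V ≠ ⊤) (hh : (centre V hOV).height = 1) : V = primeVal (centre V hOV) hh := by
  have hle : primeVal (F := F) (centre V hOV) hh ≤ V := by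
    rintro x ⟨a, b, hb, hab⟩
    rw [mem_centre_iff, not_lt] at hb
    have hb1 : V.valuation (algebraMap O F b) = 1 :=
      le_antisymm ((V.valuation_le_one_iff _).mpr (hOV b)) hb
    rw [← ValuationSubring.valuation_le_one_iff]
    have : V.valuation x = V.valuation (algebraMap O F a) := by
      rw [← hab, map_mul, hb1, mul_one]
    rw [this]
    exact (V.valuation_le_one_iff _).mpr (hOV a)
  exact (eq_or_eq_top_of_le hle).resolve_right hV

end Part4

section Part5

section Height

variable {O : Type*} [CommRing O] [IsDomain O] [IsLocalRing O]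

/-- in a local domain of dimension `≤ 2`, a nonzero non-maximal prime has height one -/
theorem height_eq_one_of_ne (hdim : (maximalIdeal O).height ≤ 2) (p : Ideal O) [hp : p.IsPrime]
    (hp0 : p ≠ ⊥) (hpm : p ≠ maximalIdeal O) : p.height = 1 := by
  have hlt : p < maximalIdeal O := lt_of_le_of_ne (IsLocalRing.le_maximalIdeal hp.ne_top) hpm
  have h1 : p.height + 1 ≤ (maximalIdeal O).height := Ideal.height_add_one_le_of_lt_of_isPrime hlt
  have h2 : p.height + 1 ≤ 1 + 1 := by
    have : (2 : ℕ∞) = 1 + 1 := by norm_num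
    rw [← this]; exact le_trans h1 hdim
  have h3 : p.height ≤ 1 := (ENat.add_le_add_iff_right (by simp)).mp h2
  have h4 : p.height ≠ 0 := by
    rw [Ne, Ideal.height_eq_zero_iff_eq_bot]; exact hp0
  exact le_antisymm h3 (Order.one_le_iff_pos.mpr (pos_iff_ne_zero.mpr h4))

/-- horizontal primes: a nonzero prime not containing `π ∈ 𝔪` has height one -/
theorem height_eq_one_of_notMem (hdim : (maximalIdeal O).height ≤ 2) {π : O}
    (hπ : π ∈ maximalIdeal O) (p : Ideal O) [p.IsPrime] (hp0 : p ≠ ⊥) (hπp : π ∉ p) :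
    p.height = 1 :=
  height_eq_one_of_ne hdim p hp0 (fun h => hπp (h ▸ hπ))

omit [IsDomain O] in
/-- a local ring whose maximal ideal is generated by two elements has dimension `≤ 2` -/
theorem height_maximalIdeal_le_two [IsNoetherianRing O] {a b : O}
    (hmax : maximalIdeal O = Ideal.span {a} ⊔ Ideal.span {b}) : (maximalIdeal O).height ≤ 2 := by
  have h1 : maximalIdeal O = Ideal.span ({a, b} : Set O) := by
    rw [hmax, ← Ideal.span_union, Set.singleton_union]
  have hfin : ({a, b} : Set O).Finite := Set.toFinite _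
  have hmin : maximalIdeal O ∈ (Ideal.span ({a, b} : Set O)).minimalPrimes := by
    rw [← h1]
    exact ⟨⟨inferInstance, le_rfl⟩, fun q hq _ => hq.2⟩
  have h2 := Ideal.height_le_card_of_mem_minimalPrimes_span hfin hmin
  refine le_trans h2 ?_
  have h3 : ({a, b} : Set O).ncard ≤ 2 := by
    classical
    calc ({a, b} : Set O).ncard ≤ ({b} : Set O).ncard + 1 := Set.ncard_insert_le a {b}
      _ = 2 := by rw [Set.ncard_singleton]
  exact_mod_cast h3

end Height

end Part5

section Part6

section Uniformizer

variable {O : Type*} [CommRing O] [IsDomain O] [IsNoetherianRing O] [IsIntegrallyClosed O]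
  {F : Type*} [Field F] [Algebra O F] [IsFractionRing O F]

variable (p : Ideal O) [p.IsPrime] (hp : p.height = 1)

/-- `g ∈ p` generates `p` locally at `p` -/
def IsLocalGen (p : Ideal O) (g : O) : Prop := g ∈ p ∧ ∀ x ∈ p, ∃ s, s ∉ p ∧ g ∣ s * x

include hp in
/-- a height-one prime of a noetherian normal domain is locally principal -/
theorem exists_isLocalGen : ∃ g, IsLocalGen p g := by
  have hdvr := isDiscreteValuationRing_of_height_one O p hp
  set L := Localization.AtPrime p with hL
  have hinjL : Function.Injective (algebraMap O L) :=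
    IsLocalization.injective L p.primeCompl_le_nonZeroDivisors
  obtain ⟨ϖ, hϖ⟩ := IsDiscreteValuationRing.exists_irreducible L
  obtain ⟨g, s, rfl⟩ := IsLocalization.exists_mk'_eq p.primeCompl ϖ
  have hmax : maximalIdeal L = Ideal.span {IsLocalization.mk' L g s} := hϖ.maximalIdeal_eq
  have hsunit : IsUnit (algebraMap O L (s : O)) := IsLocalization.map_units L s
  have hgmem : algebraMap O L g ∈ maximalIdeal L := by
    have : algebraMap O L g = IsLocalization.mk' L g s * algebraMap O L (s : O) := by
      rw [IsLocalization.mk'_spec]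
    rw [this, hmax]
    exact Ideal.mul_mem_right _ _ (Ideal.mem_span_singleton_self _)
  refine ⟨g, (IsLocalization.AtPrime.to_map_mem_maximal_iff L p g).mp hgmem, ?_⟩
  intro x hx
  have hxmem : algebraMap O L x ∈ maximalIdeal L :=
    (IsLocalization.AtPrime.to_map_mem_maximal_iff L p x).mpr hx
  rw [hmax, Ideal.mem_span_singleton] at hxmem
  obtain ⟨z, hz⟩ := hxmem
  obtain ⟨c, s', rfl⟩ := IsLocalization.exists_mk'_eq p.primeCompl z
  refine ⟨(s : O) * (s' : O), (s * s').2, ⟨c, ?_⟩⟩
  apply hinjL
  have h1 : IsLocalization.mk' L g s * algebraMap O L (s : O) = algebraMap O L g :=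
    IsLocalization.mk'_spec _ _ _
  have h2 : IsLocalization.mk' L c s' * algebraMap O L (s' : O) = algebraMap O L c :=
    IsLocalization.mk'_spec _ _ _
  simp only [map_mul]
  rw [hz, ← h1, ← h2]; ring

variable {p}

/-- a local generator is a uniformizer of `O_p`: every `x ∈ O_p` which is not a unit is divisible
by `g` in `O_p` -/
theorem IsLocalGen.div_mem {g : O} (hg : IsLocalGen p g) {x : F}
    (hx : x ∈ (primeVal (F := F) p hp).nonunits) :
    x / algebraMap O F g ∈ primeVal (F := F) p hp := by
  have hinj : Function.Injective (algebraMap O F) := IsFractionRing.injective O F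
  rw [ValuationSubring.mem_nonunits_iff_exists_mem_maximalIdeal] at hx
  obtain ⟨hxmem, hxmax⟩ := hx
  obtain ⟨a, b, hb, hab⟩ := hxmem
  have hb0 : algebraMap O F b ≠ 0 := by
    intro h0
    exact hb ((hinj (by rw [h0, map_zero]) : b = 0) ▸ p.zero_mem)
  -- `a ∈ p`
  have hap : a ∈ p := by
    rw [← algebraMap_mem_nonunits_iff (F := F) p hp a,
      ValuationSubring.mem_nonunits_iff_exists_mem_maximalIdeal]
    refine ⟨algebraMap_mem_primeVal p hp a, ?_⟩
    have : (⟨algebraMap O F a, algebraMap_mem_primeVal p hp a⟩ : primeVal (F := F) p hp) =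
        ⟨x, ⟨a, b, hb, hab⟩⟩ * ⟨algebraMap O F b, algebraMap_mem_primeVal p hp b⟩ :=
      Subtype.ext hab.symm
    rw [this]
    exact Ideal.mul_mem_right _ _ hxmax
  obtain ⟨s, hs, c, hc⟩ := hg.2 a hap
  have hs0 : algebraMap O F s ≠ 0 := by
    intro h0
    exact hs ((hinj (by rw [h0, map_zero]) : s = 0) ▸ p.zero_mem)
  by_cases hg0 : algebraMap O F g = 0
  · rw [hg0, div_zero]; exact (primeVal (F := F) p hp).zero_mem
  refine ⟨c, s * b, fun h => ((inferInstance : p.IsPrime).mem_or_mem h).elim hs hb, ?_⟩
  have h1 : algebraMap O F s * algebraMap O F a = algebraMap O F g * algebraMap O F c := by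
    rw [← map_mul, ← map_mul, hc]
  rw [map_mul]
  have : x / algebraMap O F g * (algebraMap O F s * algebraMap O F b) =
      algebraMap O F s * (x * algebraMap O F b) / algebraMap O F g := by ring
  rw [this, hab, h1]
  field_simp

/-- a local generator is a uniformizer of the discrete valuation ring `O_p` -/
theorem IsLocalGen.irreducible {g : O} (hg : IsLocalGen p g) :
    Irreducible (⟨algebraMap O F g, algebraMap_mem_primeVal p hp g⟩ : primeVal (F := F) p hp) := by
  rw [IsDiscreteValuationRing.irreducible_iff_uniformizer]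
  apply le_antisymm
  · intro x hx
    rw [Ideal.mem_span_singleton]
    have hx' : (x : F) ∈ (primeVal (F := F) p hp).nonunits := by
      rw [ValuationSubring.mem_nonunits_iff_exists_mem_maximalIdeal]
      exact ⟨x.2, hx⟩
    have hdiv := hg.div_mem hp hx'
    by_cases hg0 : algebraMap O F g = 0
    · -- then `x = 0`?  `g = 0` is impossible for a local generator of a nonzero prime
      exfalso
      have hinj : Function.Injective (algebraMap O F) := IsFractionRing.injective O F
      have hg0' : g = 0 := hinj (by rw [hg0, map_zero])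
      have hpbot : p ≠ ⊥ := Ideal.ne_bot_of_height_eq_one hp
      obtain ⟨a, hap, ha0⟩ := Submodule.exists_mem_ne_zero_of_ne_bot hpbot
      obtain ⟨s, hs, c, hc⟩ := hg.2 a hap
      rw [hg0', zero_mul] at hc
      rcases mul_eq_zero.mp hc with h1 | h1
      · exact hs (h1 ▸ p.zero_mem)
      · exact ha0 h1
    · refine ⟨⟨(x : F) / algebraMap O F g, hdiv⟩, Subtype.ext ?_⟩
      show (x : F) = algebraMap O F g * ((x : F) / algebraMap O F g)
      field_simp
  · rw [Ideal.span_singleton_le_iff_mem]
    have := (algebraMap_mem_nonunits_iff (F := F) p hp g).mpr hg.1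
    rw [ValuationSubring.mem_nonunits_iff_exists_mem_maximalIdeal] at this
    exact this.2

/-- **factorisation at a height-one prime**: every `y ∈ Fˣ` is `g ^ k * w` with `w` a unit of
`O_p`. -/
theorem IsLocalGen.exists_zpow_mul {g : O} (hg : IsLocalGen p g) {y : F} (hy : y ≠ 0) :
    ∃ (k : ℤ) (w : F), w ∈ primeVal (F := F) p hp ∧ w⁻¹ ∈ primeVal (F := F) p hp ∧
      y = algebraMap O F g ^ k * w := by
  obtain ⟨n, u, hu⟩ :=
    IsDiscreteValuationRing.exists_units_eq_smul_zpow_of_irreducible (K := F) (hg.irreducible (F := F) hp) hy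
  rw [Units.smul_def, Algebra.smul_def] at hu
  refine ⟨n, ((u : primeVal (F := F) p hp) : F), (u : primeVal (F := F) p hp).2, ?_, ?_⟩
  · have : (((u⁻¹ : (primeVal (F := F) p hp)ˣ) : primeVal (F := F) p hp) : F) =
        (((u : primeVal (F := F) p hp) : F))⁻¹ := by
      have h1 : ((u : primeVal (F := F) p hp) : F) *
          (((u⁻¹ : (primeVal (F := F) p hp)ˣ) : primeVal (F := F) p hp) : F) = 1 := by
        have h2 : (u : primeVal (F := F) p hp) * ((u⁻¹ : (primeVal (F := F) p hp)ˣ) :
            primeVal (F := F) p hp) = 1 := Units.mul_inv u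
        have h3 := congrArg (Subtype.val) h2
        rw [MulMemClass.coe_mul] at h3
        exact h3
      exact (eq_inv_of_mul_eq_one_right h1)
    rw [← this]
    exact ((u⁻¹ : (primeVal (F := F) p hp)ˣ) : primeVal (F := F) p hp).2
  · rw [hu, mul_comm]; rfl

end Uniformizer

end Part6

section Part7

section Rational

variable {O : Type*} [CommRing O] [IsLocalRing O] [IsNoetherianRing O]

/-- ideals of a noetherian local ring are closed for the `𝔪`-adic topology -/
theorem mem_of_forall_mem_sup_pow {J : Ideal O} {x : O}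
    (h : ∀ k : ℕ, x ∈ J ⊔ maximalIdeal O ^ k) : x ∈ J := by
  have hkrull := Ideal.iInf_pow_smul_eq_bot_of_isLocalRing (R := O) (M := O ⧸ J)
    (maximalIdeal O) (IsLocalRing.maximalIdeal.isMaximal O).ne_top
  have hx : (Ideal.Quotient.mk J x : O ⧸ J) ∈
      (⨅ i : ℕ, maximalIdeal O ^ i • ⊤ : Submodule O (O ⧸ J)) := by
    rw [Submodule.mem_iInf]
    intro k
    obtain ⟨j, hj, m, hm, rfl⟩ := Submodule.mem_sup.mp (h k)
    have h1 : (Ideal.Quotient.mk J (j + m) : O ⧸ J) = m • (1 : O ⧸ J) := by
      rw [map_add, Ideal.Quotient.eq_zero_iff_mem.mpr hj, zero_add, Algebra.smul_def, mul_one]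
      rfl
    rw [h1]
    exact Submodule.smul_mem_smul hm Submodule.mem_top
  rw [hkrull, Submodule.mem_bot] at hx
  exact Ideal.Quotient.eq_zero_iff_mem.mp hx

variable {W : Type*} [CommRing W] [IsDomain W]

/-- **(S1) the kernel of a rational point of a smooth tube**: if `𝔪 = (π) + (g)`, `φ π ≠ 0` and
`φ g = 0` then `ker φ = (g)`.  (Smooth point: `g = t - c`.) -/
theorem ker_eq_span_of_maximalIdeal_eq (φ : O →+* W) {π g : O} (hπ : φ π ≠ 0) (hg : φ g = 0)
    (hmax : maximalIdeal O = Ideal.span {π} ⊔ Ideal.span {g}) :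
    RingHom.ker φ = Ideal.span {g} := by
  apply le_antisymm
  · intro x hx
    have hπm : π ∈ maximalIdeal O := by
      rw [hmax]; exact Ideal.mem_sup_left (Ideal.mem_span_singleton_self π)
    have hker_le : RingHom.ker φ ≤ maximalIdeal O :=
      IsLocalRing.le_maximalIdeal (RingHom.ker_ne_top φ)
    have key : ∀ k : ℕ, ∃ a y : O, y ∈ RingHom.ker φ ∧ x = a * g + π ^ k * y := by
      intro k
      induction k with
      | zero => exact ⟨0, x, hx, by ring⟩
      | succ k ih =>
        obtain ⟨a, y, hy, hxy⟩ := ih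
        have hym : y ∈ Ideal.span {π} ⊔ Ideal.span {g} := by rw [← hmax]; exact hker_le hy
        obtain ⟨y1, hy1, y2, hy2, rfl⟩ := Submodule.mem_sup.mp hym
        obtain ⟨y', rfl⟩ := Ideal.mem_span_singleton'.mp hy1
        obtain ⟨b, rfl⟩ := Ideal.mem_span_singleton'.mp hy2
        refine ⟨a + π ^ k * b, y', ?_, ?_⟩
        · rw [RingHom.mem_ker] at hy ⊢
          rw [map_add, map_mul, map_mul, hg, mul_zero, add_zero] at hy
          exact (mul_eq_zero.mp hy).resolve_right hπ
        · rw [hxy]; ring
    apply mem_of_forall_mem_sup_pow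
    intro k
    obtain ⟨a, y, _, hxy⟩ := key k
    rw [hxy]
    refine Submodule.add_mem_sup (Ideal.mul_mem_left _ a (Ideal.mem_span_singleton_self g)) ?_
    exact Ideal.mul_mem_right _ _ (Ideal.pow_mem_pow hπm k)
  · rw [Ideal.span_singleton_le_iff_mem, RingHom.mem_ker]
    exact hg

end Rational

end Part7

section Part8

section Rational2

variable {O : Type*} [CommRing O] [IsLocalRing O] [IsNoetherianRing O]
variable {W : Type*} [CommRing W] [IsDomain W]

/-- general form of `ker_eq_span_of_maximalIdeal_eq`: `J ≤ ker φ`, `𝔪 = (π) + J`, `φ π ≠ 0`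
⟹ `ker φ = J`. -/
theorem ker_eq_of_maximalIdeal_eq_sup (φ : O →+* W) {π : O} {J : Ideal O} (hπ : φ π ≠ 0)
    (hJ : J ≤ RingHom.ker φ) (hmax : maximalIdeal O = Ideal.span {π} ⊔ J) :
    RingHom.ker φ = J := by
  apply le_antisymm _ hJ
  intro x hx
  have hπm : π ∈ maximalIdeal O := by
    rw [hmax]; exact Ideal.mem_sup_left (Ideal.mem_span_singleton_self π)
  have hker_le : RingHom.ker φ ≤ maximalIdeal O :=
    IsLocalRing.le_maximalIdeal (RingHom.ker_ne_top φ)
  have key : ∀ k : ℕ, ∃ j y : O, j ∈ J ∧ y ∈ RingHom.ker φ ∧ x = j + π ^ k * y := by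
    intro k
    induction k with
    | zero => exact ⟨0, x, J.zero_mem, hx, by ring⟩
    | succ k ih =>
      obtain ⟨j, y, hj, hy, hxy⟩ := ih
      have hym : y ∈ Ideal.span {π} ⊔ J := by rw [← hmax]; exact hker_le hy
      obtain ⟨y1, hy1, y2, hy2, rfl⟩ := Submodule.mem_sup.mp hym
      obtain ⟨y', rfl⟩ := Ideal.mem_span_singleton'.mp hy1
      refine ⟨j + π ^ k * y2, y', J.add_mem hj (J.mul_mem_left _ hy2), ?_, ?_⟩
      · have hy2' : φ y2 = 0 := hJ hy2
        rw [RingHom.mem_ker] at hy ⊢
        rw [map_add, map_mul, hy2', add_zero] at hy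
        exact (mul_eq_zero.mp hy).resolve_right hπ
      · rw [hxy]; ring
  apply mem_of_forall_mem_sup_pow
  intro k
  obtain ⟨j, y, hj, _, hxy⟩ := key k
  rw [hxy]
  exact Submodule.add_mem_sup hj (Ideal.mul_mem_right _ _ (Ideal.pow_mem_pow hπm k))

variable [Algebra W O]

omit [IsNoetherianRing O] [IsDomain W] in
/-- a `W`-point of a local `W`-algebra maps the maximal ideal into the non-units -/
theorem map_mem_nonunits [Nontrivial W] (φ : O →ₐ[W] W) {x : O} (hx : x ∈ maximalIdeal O) :
    φ x ∈ nonunits W := by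
  intro hu
  have h1 : φ (x - algebraMap W O (φ x)) = 0 := by
    rw [map_sub, AlgHom.commutes, Algebra.algebraMap_self_apply, sub_self]
  have h2 : IsUnit (algebraMap W O (φ x)) := hu.map (algebraMap W O)
  have h3 : IsUnit (x - algebraMap W O (φ x)) := by
    by_contra hnu
    have h4 : x - algebraMap W O (φ x) ∈ maximalIdeal O := (IsLocalRing.mem_maximalIdeal _).mpr hnu
    have h5 : algebraMap W O (φ x) ∈ maximalIdeal O := by
      have : algebraMap W O (φ x) = x - (x - algebraMap W O (φ x)) := by ring
      rw [this]; exact (maximalIdeal O).sub_mem hx h4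
    exact (IsLocalRing.mem_maximalIdeal _).mp h5 h2
  have h6 := h3.map φ
  rw [h1] at h6
  exact not_isUnit_zero h6

/-- **(S1)** smooth point: the kernel of the `W`-point `t ↦ c` is `(t - c)`. -/
theorem ker_eq_span_sub (φ : O →ₐ[W] W) {ϖ : W} (hϖ : ϖ ≠ 0) {t : O}
    (hmax : maximalIdeal O = Ideal.span {algebraMap W O ϖ} ⊔ Ideal.span {t}) (hct : ϖ ∣ φ t) :
    RingHom.ker (φ : O →+* W) = Ideal.span {t - algebraMap W O (φ t)} := by
  have hφϖ : (φ : O →+* W) (algebraMap W O ϖ) ≠ 0 := by
    simpa using hϖ
  have hg : (φ : O →+* W) (t - algebraMap W O (φ t)) = 0 := by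
    simp
  refine ker_eq_span_of_maximalIdeal_eq (φ : O →+* W) hφϖ hg ?_
  rw [hmax]
  obtain ⟨w, hw⟩ := hct
  have hc : algebraMap W O (φ t) ∈ Ideal.span {algebraMap W O ϖ} := by
    rw [hw, map_mul]; exact Ideal.mul_mem_right _ _ (Ideal.mem_span_singleton_self _)
  apply le_antisymm
  · refine sup_le le_sup_left ?_
    rw [Ideal.span_singleton_le_iff_mem]
    have h1 : algebraMap W O (φ t) + (t - algebraMap W O (φ t)) ∈
        Ideal.span {algebraMap W O ϖ} ⊔ Ideal.span {t - algebraMap W O (φ t)} :=
      Submodule.add_mem_sup hc (Ideal.mem_span_singleton_self _)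
    rwa [add_sub_cancel] at h1
  · refine sup_le le_sup_left ?_
    rw [Ideal.span_singleton_le_iff_mem]
    have h1 : -algebraMap W O (φ t) + t ∈
        Ideal.span {algebraMap W O ϖ} ⊔ Ideal.span {t} :=
      Submodule.add_mem_sup ((Ideal.neg_mem_iff _).mpr hc) (Ideal.mem_span_singleton_self _)
    rwa [neg_add_eq_sub] at h1

end Rational2

end Part8

section Part9

section Node

variable {O : Type*} [CommRing O] [IsLocalRing O] [IsNoetherianRing O]
variable {W : Type*} [CommRing W] [IsDomain W] [Algebra W O]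

/-- **(N1')(i)** node: the kernel of the `W`-point `u ↦ c`, `v ↦ c'` is `(u - c, v - c')` (in
general NOT principal, and `(u - c)` is NOT prime: it is contained in `p1`). -/
theorem node_ker_eq (φ : O →ₐ[W] W) {ϖ : W} (hϖ : ϖ ≠ 0) {u v : O} {p1 p2 : Ideal O}
    (hN : NodeData (algebraMap W O ϖ) u v p1 p2) (hcu : ϖ ∣ φ u) (hcv : ϖ ∣ φ v) :
    RingHom.ker (φ : O →+* W) =
      Ideal.span {u - algebraMap W O (φ u), v - algebraMap W O (φ v)} := by
  have hφϖ : (φ : O →+* W) (algebraMap W O ϖ) ≠ 0 := by simpa using hϖ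
  set q := algebraMap W O ϖ with hq
  set cu := algebraMap W O (φ u) with hcu'
  set cv := algebraMap W O (φ v) with hcv'
  have hcuq : cu ∈ Ideal.span {q} := by
    obtain ⟨w, hw⟩ := hcu
    rw [hcu', hw, map_mul]; exact Ideal.mul_mem_right _ _ (Ideal.mem_span_singleton_self _)
  have hcvq : cv ∈ Ideal.span {q} := by
    obtain ⟨w, hw⟩ := hcv
    rw [hcv', hw, map_mul]; exact Ideal.mul_mem_right _ _ (Ideal.mem_span_singleton_self _)
  refine ker_eq_of_maximalIdeal_eq_sup (φ : O →+* W) hφϖ ?_ ?_
  · rw [Ideal.span_le]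
    rintro x (rfl | hx)
    · simp [hcu']
    · rw [Set.mem_singleton_iff] at hx
      rw [hx]; simp [hcv']
  · rw [hN.maximalIdeal_eq]
    apply le_antisymm
    · rw [Ideal.span_le]
      rintro x (rfl | rfl | hx)
      · exact Ideal.mem_sup_left (Ideal.mem_span_singleton_self _)
      · have h1 : cu + (x - cu) ∈ Ideal.span {q} ⊔ Ideal.span {x - cu, v - cv} :=
          Submodule.add_mem_sup hcuq (Ideal.subset_span (Set.mem_insert _ _))
        rwa [add_sub_cancel] at h1
      · rw [Set.mem_singleton_iff] at hx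
        subst hx
        have h1 : cv + (x - cv) ∈ Ideal.span {q} ⊔ Ideal.span {u - cu, x - cv} :=
          Submodule.add_mem_sup hcvq (Ideal.subset_span (Set.mem_insert_of_mem _ rfl))
        rwa [add_sub_cancel] at h1
    · refine sup_le ?_ ?_
      · rw [Ideal.span_singleton_le_iff_mem]
        exact Ideal.subset_span (Set.mem_insert _ _)
      · rw [Ideal.span_le]
        rintro x (rfl | hx)
        · refine Ideal.sub_mem _ (Ideal.subset_span (Set.mem_insert_of_mem _ (Set.mem_insert _ _))) ?_
          exact Ideal.span_mono (by simp) hcuq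
        · rw [Set.mem_singleton_iff] at hx
          rw [hx]
          refine Ideal.sub_mem _ (Ideal.subset_span
            (Set.mem_insert_of_mem _ (Set.mem_insert_of_mem _ rfl))) ?_
          exact Ideal.span_mono (by simp) hcvq

/-- **(N1')(ii)** node: `u - c` generates the kernel `P_c` of the point `u ↦ c` LOCALLY AT `P_c`
(it is a uniformizer of the discrete valuation ring `O_{P_c}`), although `(u - c)` is not prime. -/
theorem node_point_dvd (φ : O →ₐ[W] W) {ϖ : W} (hϖ : ϖ ≠ 0) {u v ε : O}
    {p1 p2 : Ideal O} (hN : NodeData (algebraMap W O ϖ) u v p1 p2) {e : ℕ} (hε : IsUnit ε)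
    (huv : u * v = algebraMap W O ϖ ^ e * ε) (hcu : ϖ ∣ φ u) (hcv : ϖ ∣ φ v) :
    ∀ x ∈ RingHom.ker (φ : O →+* W), ∃ s, s ∉ RingHom.ker (φ : O →+* W) ∧
      (u - algebraMap W O (φ u)) ∣ s * x := by
  have hker := node_ker_eq φ hϖ hN hcu hcv
  set q := algebraMap W O ϖ with hq
  set cu := algebraMap W O (φ u) with hcu'
  set cv := algebraMap W O (φ v) with hcv'
  set ε0 := algebraMap W O (φ ε) with hε0
  have hφq : φ q = ϖ := by rw [hq, AlgHom.commutes]; rfl
  -- `ε - ε0 ∈ ker φ = (u - cu, v - cv)`
  have hεker : ε - ε0 ∈ RingHom.ker (φ : O →+* W) := by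
    rw [RingHom.mem_ker]; simp [hε0]
  rw [hker, Ideal.mem_span_pair] at hεker
  obtain ⟨α, β, hαβ⟩ := hεker
  -- `cu * cv = q ^ e * ε0`
  have hcc : cu * cv = q ^ e * ε0 := by
    rw [hcu', hcv', hε0, ← map_mul, ← map_mul φ, huv, map_mul φ, map_pow φ, hφq, map_mul, map_pow]
  -- the key identity
  have hkey : (u - q ^ e * β) * (v - cv) = (q ^ e * α - cv) * (u - cu) := by
    have h1 : ε = ε0 + (α * (u - cu) + β * (v - cv)) := by rw [hαβ]; ring
    have h2 : u * v = q ^ e * (ε0 + (α * (u - cu) + β * (v - cv))) := by rw [← h1]; exact huv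
    linear_combination h2 - hcc
  -- `s := u - q ^ e β ∉ ker φ`
  have hs : u - q ^ e * β ∉ RingHom.ker (φ : O →+* W) := by
    rw [RingHom.mem_ker]
    intro h0
    have h1 : φ u = ϖ ^ e * φ β := by
      have : φ (u - q ^ e * β) = φ u - ϖ ^ e * φ β := by
        rw [map_sub, map_mul, map_pow, hφq]
      have h0' : φ (u - q ^ e * β) = 0 := h0
      rw [this] at h0'
      exact sub_eq_zero.mp h0'
    -- then `φ β * φ v = φ ε`, a unit, so `φ v` is a unit
    have h2 : φ u * φ v = ϖ ^ e * φ ε := by
      rw [← map_mul, huv, map_mul, map_pow, hφq]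
    rw [h1, mul_assoc] at h2
    have h3 : φ β * φ v = φ ε := mul_left_cancel₀ (pow_ne_zero e hϖ) h2
    have h4 : IsUnit (φ v) := by
      have : IsUnit (φ β * φ v) := by rw [h3]; exact hε.map φ
      exact isUnit_of_mul_isUnit_right this
    exact map_mem_nonunits φ hN.v_mem_maximalIdeal h4
  intro x hx
  rw [hker, Ideal.mem_span_pair] at hx
  obtain ⟨a, b, rfl⟩ := hx
  refine ⟨u - q ^ e * β, hs, ⟨(u - q ^ e * β) * a + b * (q ^ e * α - cv), ?_⟩⟩
  linear_combination b * hkey

end Node

section Finite

variable {O : Type*} [CommRing O] [IsDomain O] [IsNoetherianRing O]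

/-- a nonzero element lies in only finitely many height-one primes -/
theorem finite_height_one_of_mem {y : O} (hy : y ≠ 0) :
    {p : Ideal O | p.IsPrime ∧ p.height = 1 ∧ y ∈ p}.Finite := by
  refine Set.Finite.subset (Ideal.finite_minimalPrimes_of_isNoetherianRing O (Ideal.span {y})) ?_
  rintro p ⟨hp, hh, hyp⟩
  have hle : Ideal.span {y} ≤ p := (Ideal.span_singleton_le_iff_mem p).mpr hyp
  have : p.FiniteHeight := ⟨Or.inr (by rw [hh]; exact ENat.one_ne_top)⟩
  refine Ideal.mem_minimalPrimes_of_height_le hle ?_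
  rw [hh]
  exact Ideal.one_le_height_span_singleton_of_mem_nonZeroDivisors
    (mem_nonZeroDivisors_of_ne_zero hy)

end Finite

end Part9

end Fermat.Agent.BR.HorizPrimes
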