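import Mathlib

/-!
# Program B (BADRED), block B7, node B7.1c: filtration reflection, injectivity and descent of
divisibility along a completion-like map

Abstract commutative algebra, no modular objects; complements `BR/CompleteLift.lean`,
`BR/DiscUP.lean`, `BR/NodeUP.lean`.

Setting: `φ : A₀ →+* O` a "dense presented subring" of a ring `O` with an ideal `n`
(`O = φ A₀ + n ^ k` for all `k`), `Φ : O →+* S` a ring homomorphism with `Φ n ⊆ J` (the map given
by the universal property of a smooth point or of a node), `ψ = Φ ∘ φ`.  If `ψ` *reflects* the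
filtrations (`ψ P ∈ J ^ m → P ∈ m₀ ^ m`; this is an explicit statement about the model ring, e.g.
`W[T] → W^[[T]]` or `W[U,V]/(UV - q^e) → W^[[U,V]]/(UV - q^e)`), then

* `mem_pow_of_map_mem_pow` : `Φ` reflects the filtrations: `Φ y ∈ J ^ m → y ∈ n ^ m`;
* `injective_of_reflects` : `Φ` is injective (`O` noetherian local, `n` its maximal ideal);
* `dvd_of_map_dvd` : **descent of divisibility** (`O^ ∩ Frac O = O`): if `ψ` has dense image in `S`
  and `Φ g ∣ Φ f` in `S`, then `g ∣ f` in `O`.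

Used for: the root/place dictionary of the disc engine (`y / (t - t₀) ^ m` lies in `O`), the
node_match argument at the refined nodes (architect note A1'), injectivity of the Hensel embedding.
-/

set_option autoImplicit false

namespace Fermat.Agent.BR.CompleteInter

variable {A₀ O S : Type*} [CommRing A₀] [CommRing O] [CommRing S]

/-- `ψ` reflects the filtrations `m₀ ^ m`, `J ^ m`. -/
def Reflects (ψ : A₀ →+* S) (m₀ : Ideal A₀) (J : Ideal S) : Prop :=
  ∀ (m : ℕ) (P : A₀), ψ P ∈ J ^ m → P ∈ m₀ ^ m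

variable {φ : A₀ →+* O} {Φ : O →+* S} {m₀ : Ideal A₀} {n : Ideal O} {J : Ideal S}

theorem map_mem_pow (hΦ : n.map Φ ≤ J) (m : ℕ) {y : O} (hy : y ∈ n ^ m) : Φ y ∈ J ^ m := by
  have h1 : Φ y ∈ (n ^ m).map Φ := Ideal.mem_map_of_mem Φ hy
  rw [Ideal.map_pow] at h1
  exact Ideal.pow_right_mono hΦ m h1

/-- `Φ` reflects the filtrations as soon as `Φ ∘ φ` does. -/
theorem mem_pow_of_map_mem_pow (hφ : m₀.map φ ≤ n) (hΦ : n.map Φ ≤ J)
    (hdense : ∀ (k : ℕ) (y : O), ∃ P : A₀, y - φ P ∈ n ^ k)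
    (hrefl : Reflects (Φ.comp φ) m₀ J) (m : ℕ) {y : O} (hy : Φ y ∈ J ^ m) : y ∈ n ^ m := by
  obtain ⟨P, hP⟩ := hdense m y
  have h1 : Φ (y - φ P) ∈ J ^ m := map_mem_pow hΦ m hP
  have h2 : (Φ.comp φ) P ∈ J ^ m := by
    have : (Φ.comp φ) P = Φ y - Φ (y - φ P) := by
      simp [map_sub]
    rw [this]
    exact (J ^ m).sub_mem hy h1
  have h3 : P ∈ m₀ ^ m := hrefl m P h2
  have h4 : φ P ∈ n ^ m := by
    have h5 : φ P ∈ (m₀ ^ m).map φ := Ideal.mem_map_of_mem φ h3
    rw [Ideal.map_pow] at h5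
    exact Ideal.pow_right_mono hφ m h5
  have : y = (y - φ P) + φ P := by ring
  rw [this]
  exact (n ^ m).add_mem hP h4

section Local

variable [IsNoetherianRing O] [IsLocalRing O]

/-- Krull's intersection theorem for an ideal `I` of a noetherian local ring:
`⋂ₖ (I + 𝔫 ^ k) = I`. -/
theorem mem_of_forall_mem_sup_pow (I : Ideal O)
    {f : O} (hf : ∀ k : ℕ, f ∈ I ⊔ IsLocalRing.maximalIdeal O ^ k) : f ∈ I := by
  by_cases hI : I = ⊤
  · rw [hI]; trivial
  have : Nontrivial (O ⧸ I) := Ideal.Quotient.nontrivial_iff.mpr hI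
  have : IsLocalRing (O ⧸ I) :=
    IsLocalRing.of_surjective' (Ideal.Quotient.mk I) Ideal.Quotient.mk_surjective
  have hlocal : IsLocalHom (Ideal.Quotient.mk I) :=
    IsLocalHom.of_surjective _ Ideal.Quotient.mk_surjective
  have hmap : (IsLocalRing.maximalIdeal O).map (Ideal.Quotient.mk I) ≤
      IsLocalRing.maximalIdeal (O ⧸ I) := by
    rw [Ideal.map_le_iff_le_comap]
    intro x hx
    rw [Ideal.mem_comap, IsLocalRing.mem_maximalIdeal, mem_nonunits_iff]
    intro hu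
    exact hx ((isUnit_map_iff (Ideal.Quotient.mk I) x).mp hu)
  have h0 : Ideal.Quotient.mk I f ∈
      (⨅ k : ℕ, IsLocalRing.maximalIdeal (O ⧸ I) ^ k : Ideal (O ⧸ I)) := by
    rw [Ideal.mem_iInf]
    intro k
    obtain ⟨a, ha, b, hb, rfl⟩ := Submodule.mem_sup.mp (hf k)
    rw [map_add, Ideal.Quotient.eq_zero_iff_mem.mpr ha, zero_add]
    have h1 : Ideal.Quotient.mk I b ∈ (IsLocalRing.maximalIdeal O ^ k).map (Ideal.Quotient.mk I) :=
      Ideal.mem_map_of_mem _ hb
    rw [Ideal.map_pow] at h1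
    exact Ideal.pow_right_mono hmap k h1
  rw [Ideal.iInf_pow_eq_bot_of_isLocalRing _ (IsLocalRing.maximalIdeal.isMaximal _).ne_top] at h0
  exact Ideal.Quotient.eq_zero_iff_mem.mp ((Ideal.mem_bot).mp h0)

/-- `Φ` is injective. -/
theorem injective_of_reflects (hφ : m₀.map φ ≤ IsLocalRing.maximalIdeal O)
    (hΦ : (IsLocalRing.maximalIdeal O).map Φ ≤ J)
    (hdense : ∀ (k : ℕ) (y : O), ∃ P : A₀, y - φ P ∈ IsLocalRing.maximalIdeal O ^ k)
    (hrefl : Reflects (Φ.comp φ) m₀ J) : Function.Injective Φ := by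
  rw [injective_iff_map_eq_zero]
  intro y hy
  have h : ∀ k : ℕ, y ∈ (⊥ : Ideal O) ⊔ IsLocalRing.maximalIdeal O ^ k := by
    intro k
    rw [bot_sup_eq]
    exact mem_pow_of_map_mem_pow hφ hΦ hdense hrefl k (by rw [hy]; exact (J ^ k).zero_mem)
  exact (Ideal.mem_bot).mp (mem_of_forall_mem_sup_pow ⊥ h)

/-- **Descent of divisibility** along a completion-like map (`O^ ∩ Frac O = O`). -/
theorem dvd_of_map_dvd (hφ : m₀.map φ ≤ IsLocalRing.maximalIdeal O)
    (hΦ : (IsLocalRing.maximalIdeal O).map Φ ≤ J)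
    (hdense : ∀ (k : ℕ) (y : O), ∃ P : A₀, y - φ P ∈ IsLocalRing.maximalIdeal O ^ k)
    (hrefl : Reflects (Φ.comp φ) m₀ J)
    (hdenseS : ∀ (k : ℕ) (s : S), ∃ P : A₀, s - (Φ.comp φ) P ∈ J ^ k)
    {f g : O} (h : Φ g ∣ Φ f) : g ∣ f := by
  obtain ⟨s, hs⟩ := h
  rw [← Ideal.mem_span_singleton]
  refine mem_of_forall_mem_sup_pow _ fun k => ?_
  obtain ⟨P, hP⟩ := hdenseS k s
  have h1 : Φ (f - g * φ P) ∈ J ^ k := by
    have : Φ (f - g * φ P) = Φ g * (s - (Φ.comp φ) P) := by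
      simp only [map_sub, map_mul, hs, RingHom.comp_apply]
      ring
    rw [this]
    exact Ideal.mul_mem_left _ _ hP
  have h2 : f - g * φ P ∈ IsLocalRing.maximalIdeal O ^ k :=
    mem_pow_of_map_mem_pow hφ hΦ hdense hrefl k h1
  have : f = g * φ P + (f - g * φ P) := by ring
  rw [this]
  exact Submodule.add_mem_sup (Ideal.mul_mem_right _ _ (Ideal.subset_span rfl)) h2

end Local

end Fermat.Agent.BR.CompleteInter
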