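import Fermat.Agent.BR.ValTwo
import Fermat.Agent.BR.ApproxDense
import Fermat.Agent.Val.GaussGaloisBar

/-!
# Program B, block B1: the constant reductions `w₁`, `w₂` of `F̄_{Mq}` as `Val.ConstRed`

Deliverable of B1 for `SS.SemistableSetup` (fields `O`, `res`, `res_surjective`,
`res_eq_zero_iff`, `algebraMap_mem_iff`, `res_algebraMap`, `approx` of the two big components).

Inputs (hypotheses of this file, discharged in `BR/ConstRedTwoFinal.lean`):
* `Dense`   : `α(F̄_M)` is dense in `(F̄_{Mq}, w₁)` (from `BR/TwoValDense` + helper15's `Full`);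
* `Compare` : Gauss unit balls of finite-dimensional subspaces are bounded in coordinates
  (`BR/GaussCompare`, helper13).

Outputs: `constRedOne`, `constRedTwo : Val.ConstRed (F := Fb (M * q))
(Ft := modularFunctionFieldFullC k M) B (residue B)` with `.O = valOne`, `valTwo`.
-/

set_option autoImplicit false
set_option linter.unusedSectionVars false
set_option linter.style.haveILetI false

noncomputable section

namespace Fermat.Agent.BR.ConstRedTwo

open ModularCurve AlgebraicCurve HahnSeries Fermat.Agent.X0 Fermat.Agent.Val Fermat.Agent.Hecke.AL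
open Fermat.Agent.BR.ValTwo

set_option synthInstance.maxHeartbeats 400000

section Scale

variable {q : ℕ} [NeZero q] (hq : q.Prime) (B : ValuationSubring Kb) (hB : B.LiesOverPrime q)

theorem coe_smul_Fb (N : ℕ) (d : Kb) (f : Fb N) :
    ((d • f : Fb N) : LaurentSeries Kb) = HahnSeries.C d * (f : LaurentSeries Kb) := by
  rw [Algebra.smul_def]
  show algebraMap Kb (LaurentSeries Kb) d * (f : LaurentSeries Kb) = _
  rw [algebraMap_laurentSeries_eq_single, ← HahnSeries.C_apply]

include hq hB in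
/-- every nonzero element of `F̄_N` is a constant multiple of a Gauss unit -/
theorem exists_smul_unit (N : ℕ) [NeZero N] {f : Fb N} (hf : f ≠ 0) :
    ∃ d : Kb, d ≠ 0 ∧ ∃ h : d • f ∈ gaussValQbar B N hq.ne_zero hB,
      gaussResQbar B N hq.ne_zero hB ⟨d • f, h⟩ ≠ 0 := by
  obtain ⟨c, hc⟩ := exists_hasContent hq B hB N hf
  have hc0 : c ≠ 0 := hc.content_ne_zero
  have hπ := residue_eq_zero_of_mem_maximalIdeal B
  have h1 : HasContent B (IsLocalRing.residue B) (HahnSeries.C c⁻¹ * (f : LaurentSeries Kb))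
      (c⁻¹ * c) := hc.C_mul (inv_ne_zero hc0)
  rw [inv_mul_cancel₀ hc0] at h1
  have hmem' : HahnSeries.C c⁻¹ * (f : LaurentSeries Kb) ∈
      gaussRingA B (IsLocalRing.residue B) := h1.mem_gaussRingA_of_mem B.one_mem
  have hmem : c⁻¹ • f ∈ gaussValQbar B N hq.ne_zero hB := by
    show ((c⁻¹ • f : Fb N) : LaurentSeries Kb) ∈ gaussRingA B (IsLocalRing.residue B)
    rw [coe_smul_Fb]
    exact hmem'
  refine ⟨c⁻¹, inv_ne_zero hc0, hmem, ?_⟩
  have h2 : gaussResA B (IsLocalRing.residue B)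
      ⟨HahnSeries.C c⁻¹ * (f : LaurentSeries Kb), hmem'⟩ ≠ 0 :=
    (h1.gaussResA_ne_zero_iff hπ hmem').2 (map_one _)
  have h3 : gaussResQbar B N hq.ne_zero hB ⟨c⁻¹ • f, hmem⟩ =
      gaussResA B (IsLocalRing.residue B)
        ⟨HahnSeries.C c⁻¹ * (f : LaurentSeries Kb), hmem'⟩ :=
    gaussResA_congr B _ (coe_smul_Fb N c⁻¹ f) _ _
  rw [h3]
  exact h2

end Scale

section One

variable {M q : ℕ} [NeZero M] [NeZero q] (hq : q.Prime) (hcop : Nat.Coprime q M)
variable (B : ValuationSubring Kb) (hB : B.LiesOverPrime q)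

/-- **Input 1**: `α(F̄_M)` is dense in `(F̄_{Mq}, w₁)`, in the weak form delivered by
`BR/TwoValDense` (elements of `valOne`, moduli in `𝔪_B`). -/
def Dense : Prop :=
  ∀ z ∈ valOne M hq B hB, ∀ c : Kb, c ≠ 0 → c ∈ B.nonunits →
    ∃ a ∈ valM M hq B hB,
      (z - heckeAlphaBar Kb M q a) * (algebraMap Kb (Fb (M * q)) c)⁻¹ ∈ valOne M hq B hB

/-- **Input 2**: Gauss unit balls of finite-dimensional subspaces are bounded in coordinates. -/
def Compare : Prop :=
  ∀ (m : ℕ) (v : Fin m → Fb (M * q)), LinearIndependent Kb v →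
    ∃ c : Kb, c ≠ 0 ∧ ∀ a : Fin m → Kb, ∑ i, a i • v i ∈ valOne M hq B hB → ∀ i, c * a i ∈ B

variable {hq B hB}

include hq hB in
theorem natCast_mem_nonunits : (q : Kb) ∈ B.nonunits := hB

/-- density in the general form: arbitrary elements, arbitrary nonzero moduli -/
theorem Dense.general (hd : Dense (M := M) hq B hB) (z : Fb (M * q)) (ε : Kb) (hε : ε ≠ 0) :
    ∃ g : Fb M, (z - heckeAlphaBar Kb M q g) * (algebraMap Kb (Fb (M * q)) ε)⁻¹ ∈
      valOne M hq B hB := by
  by_cases hz : z = 0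
  · refine ⟨0, ?_⟩
    rw [hz, map_zero, sub_zero, zero_mul]
    exact (valOne M hq B hB).zero_mem
  obtain ⟨d, hd0, hmem, -⟩ := exists_smul_unit hq B hB (M * q) hz
  have hq0 : (q : Kb) ≠ 0 := Nat.cast_ne_zero.2 hq.ne_zero
  have hqB : (q : Kb) ∈ B.nonunits := hB
  have hqmem : (q : Kb) ∈ B := (B.valuation_le_one_iff _).1 ((B.mem_nonunits_iff).1 hqB).le
  -- the modulus `c ∈ 𝔪_B` with `c / (d ε) ∈ B`
  obtain ⟨c, hc0, hcB, hcdiv⟩ : ∃ c : Kb, c ≠ 0 ∧ c ∈ B.nonunits ∧ c * (d * ε)⁻¹ ∈ B := by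
    by_cases hde : d * ε ∈ B
    · refine ⟨d * ε * q, mul_ne_zero (mul_ne_zero hd0 hε) hq0, ?_, ?_⟩
      · rw [B.mem_nonunits_iff, map_mul]
        calc B.valuation (d * ε) * B.valuation (q : Kb) ≤ 1 * B.valuation (q : Kb) :=
              mul_le_mul_left ((B.valuation_le_one_iff _).2 hde) _
          _ = B.valuation (q : Kb) := one_mul _
          _ < 1 := (B.mem_nonunits_iff).1 hqB
      · have h1 : d * ε * q * (d * ε)⁻¹ = q := by
          field_simp
        rw [h1]
        exact hqmem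
    · refine ⟨q, hq0, hqB, ?_⟩
      have h1 : (d * ε)⁻¹ ∈ B := by
        rcases B.mem_or_inv_mem (d * ε) with h | h
        · exact absurd h hde
        · exact h
      exact B.mul_mem _ _ hqmem h1
  obtain ⟨a, -, ha⟩ := hd (d • z) hmem c hc0 hcB
  refine ⟨d⁻¹ • a, ?_⟩
  have hcF : algebraMap Kb (Fb (M * q)) (c * (d * ε)⁻¹) ∈ valOne M hq B hB :=
    (algebraMap_mem_valOne_iff hq B hB _).2 hcdiv
  have hkey : (z - heckeAlphaBar Kb M q (d⁻¹ • a)) * (algebraMap Kb (Fb (M * q)) ε)⁻¹ =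
      ((d • z - heckeAlphaBar Kb M q a) * (algebraMap Kb (Fb (M * q)) c)⁻¹) *
        algebraMap Kb (Fb (M * q)) (c * (d * ε)⁻¹) := by
    have hdF : algebraMap Kb (Fb (M * q)) d ≠ 0 := (map_ne_zero _).2 hd0
    have hεF : algebraMap Kb (Fb (M * q)) ε ≠ 0 := (map_ne_zero _).2 hε
    have hcF0 : algebraMap Kb (Fb (M * q)) c ≠ 0 := (map_ne_zero _).2 hc0
    have e1 : heckeAlphaBar Kb M q (d⁻¹ • a) =
        (algebraMap Kb (Fb (M * q)) d)⁻¹ * heckeAlphaBar Kb M q a := by
      rw [Algebra.smul_def, map_mul, AlgHom.commutes, map_inv₀]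
    have e2 : d • z = algebraMap Kb (Fb (M * q)) d * z := Algebra.smul_def _ _
    have e3 : algebraMap Kb (Fb (M * q)) (c * (d * ε)⁻¹) =
        algebraMap Kb (Fb (M * q)) c *
          (algebraMap Kb (Fb (M * q)) d * algebraMap Kb (Fb (M * q)) ε)⁻¹ := by
      rw [map_mul, map_inv₀, map_mul]
    rw [e1, e2, e3]
    field_simp
  rw [hkey]
  exact (valOne M hq B hB).mul_mem _ _ ha hcF

variable [hqF : Fact q.Prime] (hqM : ¬ q ∣ M)

include hqM in
/-- best approximations at level `M` (from `Val.constRedBar`), in the `valM / resM` form -/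
theorem approx_valM (V₀ : Submodule Kb (Fb M)) (hV₀ : Module.Finite Kb V₀) (y₀ : Fb M)
    (hy₀ : y₀ ∉ V₀) :
    ∃ w ∈ V₀, ∃ c : Kb, c ≠ 0 ∧ ∃ h : c • (y₀ - w) ∈ valM M hq B hB,
      ∀ z : valM M hq B hB, (z : Fb M) ∈ V₀ →
        resM M hq B hB z ≠ resM M hq B hB ⟨c • (y₀ - w), h⟩ := by
  obtain ⟨w, hw, c, hc, h, hne⟩ := (constRedBar M hqM B hB).approx V₀ hV₀ y₀ hy₀
  refine ⟨w, hw, c, hc, h, fun z hz heq => hne z hz (Subtype.ext ?_)⟩
  exact heq

include hqM in
/-- **Best approximations for `w₁`** (per-component `approx`). -/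
theorem approx_valOne (hd : Dense (M := M) hq B hB) (hc : Compare (M := M) hq B hB)
    (V : Submodule Kb (Fb (M * q))) (hV : Module.Finite Kb V) (y : Fb (M * q)) (hy : y ∉ V) :
    ∃ w ∈ V, ∃ c : Kb, c ≠ 0 ∧ ∃ h : c • (y - w) ∈ valOne M hq B hB,
      ∀ z : valOne M hq B hB, (z : Fb (M * q)) ∈ V →
        resOne M hq B hB z ≠ resOne M hq B hB ⟨c • (y - w), h⟩ := by
  refine ApproxDense.approx_of_dense B (valOne M hq B hB) (resOne M hq B hB) (valM M hq B hB)
    (resM M hq B hB) (heckeAlphaBar Kb M q) (RingHom.id _) Function.injective_id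
    (alpha_mem_valOne_iff hq B hB) (fun x hx hx' => resOne_alpha hq B hB ⟨x, hx⟩) ?_
    (algebraMap_mem_valOne_iff hq B hB)
    (fun f hf => exists_smul_unit hq B hB (M * q) hf)
    ⟨(q : Kb), Nat.cast_ne_zero.2 hq.ne_zero, hB⟩
    (approx_valM hqM) hd.general hc V hV y hy
  intro x
  rw [isUnit_iff_resOne_ne_zero hq B hB x, not_not]

include hqM in
/-- the residue field of `w₁` is `F̃_M`: residues of `valOne` lie in `modularFunctionFieldFullC k M` -/
theorem resOne_mem_fullC (hd : Dense (M := M) hq B hB) (z : valOne M hq B hB) :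
    resOne M hq B hB z ∈ modularFunctionFieldFullC (kB B) M := by
  have hq0 : (q : Kb) ≠ 0 := Nat.cast_ne_zero.2 hq.ne_zero
  obtain ⟨a, ha, h⟩ := hd z z.2 (q : Kb) hq0 hB
  have hqF : algebraMap Kb (Fb (M * q)) (q : Kb) ∈ (valOne M hq B hB).nonunits := by
    have h1 : algebraMap Kb (Fb (M * q)) (q : Kb) ∈ valOne M hq B hB :=
      (algebraMap_mem_valOne_iff hq B hB _).2
        ((B.valuation_le_one_iff _).1 ((B.mem_nonunits_iff).1 hB).le)
    rw [ValuationSubring.mem_nonunits_iff_exists_mem_maximalIdeal]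
    refine ⟨h1, ?_⟩
    rw [← resOne_eq_zero_iff hq B hB]
    have h2 := resOne_algebraMap (M := M) hq B hB
      ⟨(q : Kb), (B.valuation_le_one_iff _).1 ((B.mem_nonunits_iff).1 hB).le⟩
    rw [h2]
    have h3 : IsLocalRing.residue B
        ⟨(q : Kb), (B.valuation_le_one_iff _).1 ((B.mem_nonunits_iff).1 hB).le⟩ = 0 := by
      rw [IsLocalRing.residue_eq_zero_iff, ← ValuationSubring.coe_mem_nonunits_iff]
      exact hB
    rw [h3, map_zero]
  have hqF0 : algebraMap Kb (Fb (M * q)) (q : Kb) ≠ 0 := (map_ne_zero _).2 hq0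
  have hdiff : (z : Fb (M * q)) - heckeAlphaBar Kb M q a ∈ (valOne M hq B hB).nonunits := by
    have h1 : (z : Fb (M * q)) - heckeAlphaBar Kb M q a =
        algebraMap Kb (Fb (M * q)) (q : Kb) * (((z : Fb (M * q)) - heckeAlphaBar Kb M q a) *
          (algebraMap Kb (Fb (M * q)) (q : Kb))⁻¹) := by
      field_simp
    rw [h1]
    exact ApproxDense.mul_mem_nonunits_left _ hqF h
  have hαmem : heckeAlphaBar Kb M q a ∈ valOne M hq B hB := (alpha_mem_valOne_iff hq B hB a).2 ha
  have hdmem : (z : Fb (M * q)) - heckeAlphaBar Kb M q a ∈ valOne M hq B hB :=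
    ApproxDense.mem_of_mem_nonunits' _ hdiff
  have h0 : resOne M hq B hB ⟨(z : Fb (M * q)) - heckeAlphaBar Kb M q a, hdmem⟩ = 0 := by
    rw [resOne_eq_zero_iff, ← ValuationSubring.coe_mem_nonunits_iff]
    exact hdiff
  have h1 : (⟨(z : Fb (M * q)) - heckeAlphaBar Kb M q a, hdmem⟩ : valOne M hq B hB) =
      z - ⟨heckeAlphaBar Kb M q a, hαmem⟩ := Subtype.ext rfl
  rw [h1, map_sub, sub_eq_zero] at h0
  rw [h0, resOne_alpha hq B hB ⟨a, ha⟩]
  exact ((constRedBar M hqM B hB).res ⟨a, ha⟩).2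

/-- **The constant reduction `w₁` of `F̄_{Mq}`**, with residue field `F̃_M`. -/
def constRedOne (hd : Dense (M := M) hq B hB) (hc : Compare (M := M) hq B hB) :
    ConstRed (F := Fb (M * q)) (Ft := modularFunctionFieldFullC (kB B) M) B
      (IsLocalRing.residue B) where
  O := valOne M hq B hB
  res := (resOne M hq B hB).codRestrict (modularFunctionFieldFullC (kB B) M)
    (resOne_mem_fullC hqM hd)
  res_surjective := by
    intro t
    obtain ⟨a, ha⟩ := (constRedBar M hqM B hB).res_surjective t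
    refine ⟨⟨heckeAlphaBar Kb M q (a : Fb M), (alpha_mem_valOne_iff hq B hB _).2 a.2⟩, ?_⟩
    apply Subtype.ext
    show resOne M hq B hB _ = _
    rw [resOne_alpha hq B hB ⟨(a : Fb M), a.2⟩, ← ha]
    rfl
  res_eq_zero_iff := by
    intro x
    rw [isUnit_iff_resOne_ne_zero hq B hB x, not_not]
    constructor
    · intro h
      exact congrArg Subtype.val h
    · intro h
      exact Subtype.ext h
  algebraMap_mem_iff := algebraMap_mem_valOne_iff hq B hB
  res_algebraMap := by
    intro a ha ha'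
    apply Subtype.ext
    show resOne M hq B hB _ = algebraMap (kB B) (LaurentSeries (kB B)) _
    rw [algebraMap_laurentSeries_eq_single, ← HahnSeries.C_apply]
    exact resOne_algebraMap (M := M) hq B hB ⟨a, ha⟩
  approx := by
    intro V hV y hy
    obtain ⟨w, hw, c, hc0, h, hne⟩ := approx_valOne hqM hd hc V hV y hy
    exact ⟨w, hw, c, hc0, h, fun z hz heq => hne z hz (congrArg Subtype.val heq)⟩

@[simp]
theorem constRedOne_O (hd : Dense (M := M) hq B hB) (hc : Compare (M := M) hq B hB) :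
    (constRedOne hqM hd hc).O = valOne M hq B hB := rfl

theorem coe_constRedOne_res (hd : Dense (M := M) hq B hB) (hc : Compare (M := M) hq B hB)
    (x : valOne M hq B hB) :
    (((constRedOne hqM hd hc).res x : modularFunctionFieldFullC (kB B) M) :
      LaurentSeries (kB B)) = resOne M hq B hB x := rfl

include hqM in
/-- **Best approximations for `w₂`**, transported from `w₁` by `W_q`. -/
theorem approx_valTwo (hd : Dense (M := M) hq B hB) (hc : Compare (M := M) hq B hB)
    (V : Submodule Kb (Fb (M * q))) (hV : Module.Finite Kb V) (y : Fb (M * q)) (hy : y ∉ V) :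
    ∃ w ∈ V, ∃ c : Kb, c ≠ 0 ∧ ∃ h : c • (y - w) ∈ valTwo hq hcop B hB,
      ∀ z : valTwo hq hcop B hB, (z : Fb (M * q)) ∈ V →
        resTwo hq hcop B hB z ≠ resTwo hq hcop B hB ⟨c • (y - w), h⟩ := by
  set W : Fb (M * q) ≃ₗ[Kb] Fb (M * q) := (atkinLehner hq hcop).toLinearEquiv with hW
  have hWapp : ∀ x, W x = atkinLehner hq hcop x := fun x => rfl
  have hV' : Module.Finite Kb (V.map (W : Fb (M * q) →ₗ[Kb] Fb (M * q))) :=
    Module.Finite.map V _
  have hy' : W y ∉ V.map (W : Fb (M * q) →ₗ[Kb] Fb (M * q)) := by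
    rintro ⟨x, hx, hxy⟩
    have : x = y := W.injective hxy
    exact hy (this ▸ hx)
  obtain ⟨w', hw', c, hc0, h, hne⟩ := approx_valOne hqM hd hc _ hV' (W y) hy'
  obtain ⟨w, hw, rfl⟩ := hw'
  have hkey : atkinLehner hq hcop (c • (y - w)) =
      c • (W y - (W : Fb (M * q) →ₗ[Kb] Fb (M * q)) w) := by
    show W (c • (y - w)) = c • (W y - W w)
    rw [LinearEquiv.map_smul, map_sub]
  have hmem : c • (y - w) ∈ valTwo hq hcop B hB := by
    rw [mem_valTwo_iff, hkey]
    exact h
  refine ⟨w, hw, c, hc0, hmem, fun z hz heq => ?_⟩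
  have hz' : atkinLehner hq hcop (z : Fb (M * q)) ∈
      V.map (W : Fb (M * q) →ₗ[Kb] Fb (M * q)) := ⟨z, hz, rfl⟩
  apply hne ⟨atkinLehner hq hcop (z : Fb (M * q)), z.2⟩ hz'
  rw [resTwo_apply, resTwo_apply] at heq
  rw [heq]
  exact congrArg (resOne M hq B hB) (Subtype.ext hkey)

/-- **The constant reduction `w₂ = w₁ ∘ W_q` of `F̄_{Mq}`**, with residue field `F̃_M`
(residue map `x ↦ res₁ (W_q x)`). -/
def constRedTwo (hd : Dense (M := M) hq B hB) (hc : Compare (M := M) hq B hB) :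
    ConstRed (F := Fb (M * q)) (Ft := modularFunctionFieldFullC (kB B) M) B
      (IsLocalRing.residue B) where
  O := valTwo hq hcop B hB
  res := ((constRedOne hqM hd hc).res).comp (wqRestrict hq hcop B hB)
  res_surjective := by
    intro t
    obtain ⟨x, hx⟩ := (constRedOne hqM hd hc).res_surjective t
    refine ⟨wqRestrictInv hq hcop B hB x, ?_⟩
    have h1 : wqRestrict hq hcop B hB (wqRestrictInv hq hcop B hB x) = x :=
      wqRestrict_wqRestrictInv hq hcop B hB x
    exact (congrArg (constRedOne hqM hd hc).res h1).trans hx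
  res_eq_zero_iff := by
    intro x
    rw [RingHom.comp_apply, (constRedOne hqM hd hc).res_eq_zero_iff]
    exact not_congr (isUnit_map_iff (wqEquiv hq hcop B hB) x)
  algebraMap_mem_iff := algebraMap_mem_valTwo_iff hq hcop B hB
  res_algebraMap := by
    intro a ha ha'
    rw [RingHom.comp_apply]
    have h1 : wqRestrict hq hcop B hB ⟨algebraMap Kb (Fb (M * q)) a, ha'⟩ =
        ⟨algebraMap Kb (Fb (M * q)) a, (algebraMap_mem_valOne_iff hq B hB a).2 ha⟩ :=
      Subtype.ext (AlgEquiv.commutes _ _)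
    exact (congrArg (constRedOne hqM hd hc).res h1).trans
      ((constRedOne hqM hd hc).res_algebraMap a ha _)
  approx := by
    intro V hV y hy
    obtain ⟨w, hw, c, hc0, h, hne⟩ := approx_valTwo hcop hqM hd hc V hV y hy
    refine ⟨w, hw, c, hc0, h, fun z hz heq => hne z hz ?_⟩
    exact congrArg Subtype.val heq

@[simp]
theorem constRedTwo_O (hd : Dense (M := M) hq B hB) (hc : Compare (M := M) hq B hB) :
    (constRedTwo hcop hqM hd hc).O = valTwo hq hcop B hB := rfl

theorem coe_constRedTwo_res (hd : Dense (M := M) hq B hB) (hc : Compare (M := M) hq B hB)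
    (x : valTwo hq hcop B hB) :
    (((constRedTwo hcop hqM hd hc).res x : modularFunctionFieldFullC (kB B) M) :
      LaurentSeries (kB B)) = resTwo hq hcop B hB x := rfl

end One

end Fermat.Agent.BR.ConstRedTwo
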