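import Fermat.Agent.BR.TwoVal

/-!
# Program B, block B1: density of the base field for the valuation of residue degree one

On top of the generic two-valuation package `BR/TwoVal.lean`.  In the full situation
(`f₁ + f₂ = [E : F]`, residue-independent families `x` for `O₁`, `y` for `O₂`), for every nonzero
`c ∈ 𝔪₀` and every `z ∈ O₁` there are `a i ∈ O₀` with `z ≡ ∑ a i • x i mod c O₁`
(`Full.exists_sub_smul_mem`).  For `f₁ = 1`, `x = 1`: the base field `F` is dense in `(E, O₁)`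
(`Full.exists_sub_algebraMap_mem`).

Proof: strong approximation gives families `x'`, `y'` adapted modulo `c` (`x' ≡ x mod c O₁`,
`x' ≡ 0 mod c O₂`, `y' ≡ 0 mod c O₁`, `y' ≡ y mod c O₂`); they form an `O₀`-basis of `O₁ ∩ O₂`
by the core lemma `Setup.coeff_mem_nonunits`; expand `z' ≡ z mod c O₁`, `z' ≡ 0 mod c O₂`.
-/

set_option autoImplicit false

namespace Fermat.Agent.BR.TwoValDense

open Fermat.Agent.Val Fermat.Agent.BR.TwoVal

variable {F E : Type*} [Field F] [Field E] [Algebra F E]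
variable {O₀ : ValuationSubring F} {O₁ O₂ : ValuationSubring E}
variable {ι κ : Type*} [Fintype ι] [Fintype κ]

/-- `u ≡ v mod c O` with `c ∈ 𝔪` implies `u - v ∈ 𝔪`. -/
theorem sub_mem_nonunits_of_mul_inv_mem (O : ValuationSubring E) {c u v : E}
    (hc : c ∈ O.nonunits) (hc0 : c ≠ 0) (h : (u - v) * c⁻¹ ∈ O) : u - v ∈ O.nonunits := by
  have h1 : u - v = ((u - v) * c⁻¹) * c := by
    rw [mul_assoc, inv_mul_cancel₀ hc0, mul_one]
  rw [h1]
  exact mul_mem_nonunits_of_mem O h hc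

/-- **Density modulo `c`.** -/
theorem Full.exists_sub_smul_mem [FiniteDimensional F E] (D : Full O₀ O₁ O₂ ι κ) {c : F}
    (hc : c ∈ O₀.nonunits) (hc0 : c ≠ 0) {z : E} (hz : z ∈ O₁) :
    ∃ a : ι → F, (∀ i, a i ∈ O₀) ∧
      (z - ∑ i, a i • D.x i) * (algebraMap F E c)⁻¹ ∈ O₁ := by
  classical
  have S := D.setup
  set cE : E := algebraMap F E c with hcE
  have hcE0 : cE ≠ 0 := by
    rw [hcE]
    exact (map_ne_zero (algebraMap F E)).2 hc0
  have hcE₁ : cE ∈ O₁.nonunits := by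
    have h := S.nonunit_smul_mem_nonunits₁ hc O₁.one_mem
    rwa [Algebra.smul_def, mul_one] at h
  have hcE₂ : cE ∈ O₂.nonunits := by
    have h := S.nonunit_smul_mem_nonunits₂ hc O₂.one_mem
    rwa [Algebra.smul_def, mul_one] at h
  -- recover membership from a congruence modulo `c`
  have mem₁ : ∀ {u v : E}, v ∈ O₁ → (u - v) * cE⁻¹ ∈ O₁ → u ∈ O₁ := by
    intro u v hv h
    have h1 : u = v + (u - v) := by ring
    rw [h1]
    exact O₁.add_mem _ _ hv
      (mem_of_mem_nonunits O₁ (sub_mem_nonunits_of_mul_inv_mem O₁ hcE₁ hcE0 h))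
  have mem₂ : ∀ {u v : E}, v ∈ O₂ → (u - v) * cE⁻¹ ∈ O₂ → u ∈ O₂ := by
    intro u v hv h
    have h1 : u = v + (u - v) := by ring
    rw [h1]
    exact O₂.add_mem _ _ hv
      (mem_of_mem_nonunits O₂ (sub_mem_nonunits_of_mul_inv_mem O₂ hcE₂ hcE0 h))
  -- the adapted families modulo `c`
  choose x' hx'₁ hx'₂ using fun i => S.exists_approx cE (D.x i) 0
  choose y' hy'₁ hy'₂ using fun j => S.exists_approx cE 0 (D.y j)
  obtain ⟨z', hz'₁, hz'₂⟩ := S.exists_approx cE z 0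
  have hx' : ∀ i, x' i ∈ O₁ ∧ x' i - D.x i ∈ O₁.nonunits ∧ x' i ∈ O₂.nonunits := by
    intro i
    refine ⟨mem₁ (D.hx.1 i) (hx'₁ i), sub_mem_nonunits_of_mul_inv_mem O₁ hcE₁ hcE0 (hx'₁ i), ?_⟩
    have h := sub_mem_nonunits_of_mul_inv_mem O₂ hcE₂ hcE0 (hx'₂ i)
    rwa [sub_zero] at h
  have hy' : ∀ j, y' j ∈ O₂ ∧ y' j - D.y j ∈ O₂.nonunits ∧ y' j ∈ O₁.nonunits := by
    intro j
    refine ⟨mem₂ (D.hy.1 j) (hy'₂ j), sub_mem_nonunits_of_mul_inv_mem O₂ hcE₂ hcE0 (hy'₂ j), ?_⟩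
    have h := sub_mem_nonunits_of_mul_inv_mem O₁ hcE₁ hcE0 (hy'₁ j)
    rwa [sub_zero] at h
  have hz'O₁ : z' ∈ O₁ := mem₁ hz hz'₁
  have hz'O₂ : z' ∈ O₂ := by
    have h := sub_mem_nonunits_of_mul_inv_mem O₂ hcE₂ hcE0 hz'₂
    rw [sub_zero] at h
    exact mem_of_mem_nonunits O₂ h
  -- linear independence of the adapted family
  have hli : LinearIndependent F (Sum.elim x' y') := by
    rw [Fintype.linearIndependent_iff]
    intro g hg
    by_contra hne
    push Not at hne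
    obtain ⟨t₀, ht₀, hpiv⟩ := exists_pivot O₀ g hne
    have hsum : ∑ t, (g t / g t₀) • Sum.elim x' y' t = 0 := by
      have h1 : ∑ t, (g t / g t₀) • Sum.elim x' y' t =
          (g t₀)⁻¹ • ∑ t, g t • Sum.elim x' y' t := by
        rw [Finset.smul_sum]
        refine Finset.sum_congr rfl fun t _ => ?_
        rw [smul_smul, div_eq_inv_mul]
      rw [h1, hg, smul_zero]
    have h := S.coeff_mem_nonunits D.hx D.hy hx' hy' (fun t => g t / g t₀) hpiv
      (hsum ▸ zero_mem_nonunits O₁) (hsum ▸ zero_mem_nonunits O₂) t₀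
    rw [div_self ht₀] at h
    rw [O₀.mem_nonunits_iff, map_one] at h
    exact lt_irrefl _ h
  have hcard : Fintype.card (ι ⊕ κ) = Module.finrank F E := by
    rw [Fintype.card_sum]
    exact D.card_eq
  have : Nonempty (ι ⊕ κ) := Fintype.card_pos_iff.1 (hcard ▸ Module.finrank_pos)
  set b := basisOfLinearIndependentOfCardEqFinrank hli hcard with hb
  have hbz : ∀ t, b t = Sum.elim x' y' t := fun t => by
    rw [hb, coe_basisOfLinearIndependentOfCardEqFinrank]
  have hrepr : ∑ t, b.repr z' t • Sum.elim x' y' t = z' := by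
    conv_rhs => rw [← b.sum_repr z']
    exact Finset.sum_congr rfl fun t _ => by rw [hbz]
  -- the coordinates of `z'` are integral
  have hcoord : ∀ t, b.repr z' t ∈ O₀ := by
    by_contra hne
    push Not at hne
    obtain ⟨t₁, ht₁⟩ := hne
    have hex : ∃ t, b.repr z' t ≠ 0 := ⟨t₁, fun h => ht₁ (h ▸ O₀.zero_mem)⟩
    obtain ⟨t₀, ht₀, hpiv⟩ := exists_pivot O₀ (fun t => b.repr z' t) hex
    have ht₀' : b.repr z' t₀ ∉ O₀ := by
      intro h
      apply ht₁
      have h1 : b.repr z' t₁ = (b.repr z' t₁ / b.repr z' t₀) * b.repr z' t₀ := by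
        rw [div_mul_cancel₀ _ ht₀]
      rw [h1]
      exact O₀.mul_mem _ _ (hpiv t₁) h
    have hinv : (b.repr z' t₀)⁻¹ ∈ O₀.nonunits := by
      rw [mem_nonunits_iff_inv_notMem O₀ (inv_ne_zero ht₀), inv_inv]
      exact ht₀'
    have hsum : ∑ t, (b.repr z' t / b.repr z' t₀) • Sum.elim x' y' t =
        (b.repr z' t₀)⁻¹ • z' := by
      have h1 : ∑ t, (b.repr z' t / b.repr z' t₀) • Sum.elim x' y' t =
          (b.repr z' t₀)⁻¹ • ∑ t, b.repr z' t • Sum.elim x' y' t := by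
        rw [Finset.smul_sum]
        refine Finset.sum_congr rfl fun t _ => ?_
        rw [smul_smul, div_eq_inv_mul]
      rw [h1, hrepr]
    have h := S.coeff_mem_nonunits D.hx D.hy hx' hy' (fun t => b.repr z' t / b.repr z' t₀) hpiv
      (hsum ▸ S.nonunit_smul_mem_nonunits₁ hinv hz'O₁)
      (hsum ▸ S.nonunit_smul_mem_nonunits₂ hinv hz'O₂) t₀
    rw [div_self ht₀] at h
    rw [O₀.mem_nonunits_iff, map_one] at h
    exact lt_irrefl _ h
  -- conclusion
  refine ⟨fun i => b.repr z' (Sum.inl i), fun i => hcoord _, ?_⟩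
  have hsplit : z' = ∑ i, b.repr z' (Sum.inl i) • x' i + ∑ j, b.repr z' (Sum.inr j) • y' j := by
    conv_lhs => rw [← hrepr, Fintype.sum_sum_type]
    simp only [Sum.elim_inl, Sum.elim_inr]
  have hkey : (z - ∑ i, b.repr z' (Sum.inl i) • D.x i) * cE⁻¹ =
      -((z' - z) * cE⁻¹) + ∑ i, b.repr z' (Sum.inl i) • ((x' i - D.x i) * cE⁻¹) +
        ∑ j, b.repr z' (Sum.inr j) • ((y' j - 0) * cE⁻¹) := by
    have e1 : ∑ i, b.repr z' (Sum.inl i) • ((x' i - D.x i) * cE⁻¹) =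
        (∑ i, b.repr z' (Sum.inl i) • x' i - ∑ i, b.repr z' (Sum.inl i) • D.x i) * cE⁻¹ := by
      rw [← Finset.sum_sub_distrib, Finset.sum_mul]
      refine Finset.sum_congr rfl fun i _ => ?_
      rw [← smul_sub, smul_mul_assoc]
    have e2 : ∑ j, b.repr z' (Sum.inr j) • ((y' j - 0) * cE⁻¹) =
        (∑ j, b.repr z' (Sum.inr j) • y' j) * cE⁻¹ := by
      rw [Finset.sum_mul]
      refine Finset.sum_congr rfl fun j _ => ?_
      rw [sub_zero, smul_mul_assoc]
    rw [e1, e2]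
    have e3 : ∑ j, b.repr z' (Sum.inr j) • y' j =
        z' - ∑ i, b.repr z' (Sum.inl i) • x' i := by
      rw [eq_sub_iff_add_eq, add_comm]
      exact hsplit.symm
    rw [e3]
    ring
  rw [hkey]
  refine O₁.add_mem _ _ (O₁.add_mem _ _ (O₁.neg_mem _ hz'₁) ?_) ?_
  · exact sum_mem fun i _ => S.smul_mem₁ (hcoord _) (hx'₁ i)
  · exact sum_mem fun j _ => S.smul_mem₁ (hcoord _) (hy'₁ j)

/-- **Density of the base field** for the valuation of residue degree one (`x = 1`). -/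
theorem Full.exists_sub_algebraMap_mem [FiniteDimensional F E] (D : Full O₀ O₁ O₂ Unit κ)
    (hx : D.x = fun _ => 1) {c : F} (hc : c ∈ O₀.nonunits) (hc0 : c ≠ 0) {z : E} (hz : z ∈ O₁) :
    ∃ a : F, a ∈ O₀ ∧ (z - algebraMap F E a) * (algebraMap F E c)⁻¹ ∈ O₁ := by
  obtain ⟨a, ha, h⟩ := Full.exists_sub_smul_mem D hc hc0 hz
  refine ⟨a (), ha (), ?_⟩
  have h1 : ∑ i, a i • D.x i = algebraMap F E (a ()) := by
    rw [Fintype.sum_unique, hx, Algebra.smul_def, mul_one]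
  rwa [h1] at h

end Fermat.Agent.BR.TwoValDense
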