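import Fermat.Agent.BR.TwoVal
import Fermat.Agent.Val.GaussBar
import Fermat.Agent.Val.RankOne

/-!
# Program B, block B1, node B1.W12 (auxiliary part): inputs of the two-valuation package for
Gauss valuations

* `arch_comap` : the archimedean property is preserved by pulling back along a ring automorphism;
* `arch_gaussValSubring` : the Gauss valuation subring of a subfield of `L((q))` with contents
  is archimedean when the valuation ring `A` of `L` has rank one (`Red.IsRankOne`);
* `order_qExpand` : `ord (f(q^N)) = N · ord f`;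
* `eq_zero_of_sum_qExpand_mul_pow` : if `u` has order `-1` then `1, u, …, u^{N-1}` are linearly
  independent over the image of `f ↦ f(q^N)`.
-/

set_option autoImplicit false

namespace Fermat.Agent.BR.TwoVal

open Fermat.Agent.Val ModularCurve

section Comap

variable {E : Type*} [Field E]

theorem arch_comap {O : ValuationSubring E} (hO : Arch O) (σ : E ≃+* E) :
    Arch (O.comap (σ : E →+* E)) := by
  intro x u hu hu0
  have hσu : σ u ∈ O.nonunits := (Full.mem_nonunits_comap_iff σ O u).1 hu
  have hσu0 : σ u ≠ 0 := fun h => hu0 ((map_eq_zero_iff σ σ.injective).1 h)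
  obtain ⟨n, hn⟩ := hO (σ x) (σ u) hσu hσu0
  refine ⟨n, ?_⟩
  rw [ValuationSubring.mem_comap]
  show σ (x * u ^ n) ∈ O
  rw [map_mul, map_pow]
  exact hn

end Comap

section Gauss

variable {L : Type*} [Field L] (A : ValuationSubring L) {k : Type*} [Field k] (π : A →+* k)

variable {A π} in
theorem hasContent_pow {x : LaurentSeries L} {c : L} (h : HasContent A π x c) (n : ℕ) :
    HasContent A π (x ^ n) (c ^ n) := by
  induction n with
  | zero =>
    rw [pow_zero, pow_zero]
    have h1 := hasContent_C A π (one_ne_zero : (1 : L) ≠ 0)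
    rwa [map_one] at h1
  | succ n ih =>
    rw [pow_succ, pow_succ]
    exact HasContent.mul ih h

variable {S : Type*} [SetLike S (LaurentSeries L)] [SubfieldClass S (LaurentSeries L)] (E : S)
  (hE : ∀ x ∈ E, x ≠ 0 → ∃ c, HasContent A π x c)

/-- The Gauss valuation subring is archimedean when `A` has rank one. -/
theorem arch_gaussValSubring (hπ : ∀ a : A, a ∈ IsLocalRing.maximalIdeal A → π a = 0)
    (hA : Red.IsRankOne A) : Arch (gaussValSubring A π E hE) := by
  intro x u hu hu0
  by_cases hx0 : x = 0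
  · exact ⟨0, by rw [hx0, zero_mul]; exact zero_mem _⟩
  have hx0' : (x : LaurentSeries L) ≠ 0 := fun h => hx0 (Subtype.ext h)
  have hu0' : (u : LaurentSeries L) ≠ 0 := fun h => hu0 (Subtype.ext h)
  obtain ⟨c, hc⟩ := hE x x.2 hx0'
  obtain ⟨d, hd⟩ := hE u u.2 hu0'
  -- `d` is a nonzero nonunit of `A`
  have hdA : d ∈ A := by
    rw [← A.valuation_le_one_iff, ← mem_gaussValSubring_iff_content A π E hE hπ hd]
    exact mem_of_mem_nonunits _ hu
  have hdinv : d⁻¹ ∉ A := by
    intro h
    have hinv : (u⁻¹ : E) ∈ gaussValSubring A π E hE := by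
      have hd' : HasContent A π ((u⁻¹ : E) : LaurentSeries L) d⁻¹ := HasContent.inv hd
      rw [mem_gaussValSubring_iff_content A π E hE hπ hd', A.valuation_le_one_iff]
      exact h
    exact (mem_nonunits_iff_inv_notMem _ hu0).1 hu hinv
  have hdnu : ¬ IsUnit (⟨d, hdA⟩ : A) := by
    intro h
    obtain ⟨v, hv⟩ := h
    apply hdinv
    have h1 : d⁻¹ = ((v⁻¹ : Aˣ) : A) := by
      have h2 : ((v : A) : L) * (((v⁻¹ : Aˣ) : A) : L) = 1 := by
        rw [← MulMemClass.coe_mul, Units.mul_inv]
        rfl
      rw [hv] at h2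
      exact (eq_inv_of_mul_eq_one_right h2).symm ▸ rfl
    rw [h1]
    exact Subtype.mem _
  -- find `n` with `c * d ^ n ∈ A`
  obtain ⟨n, hn⟩ : ∃ n : ℕ, c * d ^ n ∈ A := by
    by_cases hcA : c ∈ A
    · exact ⟨0, by rw [pow_zero, mul_one]; exact hcA⟩
    · have hcinv : c⁻¹ ∈ A := (A.mem_or_inv_mem c).resolve_left hcA
      have hc0 : (⟨c⁻¹, hcinv⟩ : A) ≠ 0 := fun h =>
        inv_ne_zero (HasContent.content_ne_zero hc) (congrArg Subtype.val h)
      obtain ⟨n, b, hb⟩ := hA ⟨d, hdA⟩ hdnu ⟨c⁻¹, hcinv⟩ hc0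
      refine ⟨n, ?_⟩
      have h1 : d ^ n = c⁻¹ * (b : L) := by
        have := congrArg Subtype.val hb
        simpa using this
      rw [h1, ← mul_assoc, mul_inv_cancel₀ (HasContent.content_ne_zero hc), one_mul]
      exact b.2
  refine ⟨n, ?_⟩
  have hcont : HasContent A π ((x * u ^ n : E) : LaurentSeries L) (c * d ^ n) :=
    HasContent.mul hc (hasContent_pow hd n)
  rw [mem_gaussValSubring_iff_content A π E hE hπ hcont, A.valuation_le_one_iff]
  exact hn

end Gauss

section Laurent

variable (k : Type*) [Field k] (N : ℕ) [NeZero N]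

/-- `ord (f(q^N)) = N · ord f`. -/
theorem order_qExpand {f : LaurentSeries k} (hf : f ≠ 0) :
    (qExpand k N f).order = (N : ℤ) * f.order := by
  have hne : qExpand k N f ≠ 0 := fun h => hf (qExpand_injective N (h.trans (map_zero _).symm))
  apply le_antisymm
  · apply HahnSeries.order_le_of_coeff_ne_zero
    rw [qExpand_coeff_mul]
    exact (fun h0 => hf (HahnSeries.coeff_order_eq_zero.1 h0))
  · have h1 : (qExpand k N f).coeff (qExpand k N f).order ≠ 0 :=
      fun h0 => hne (HahnSeries.coeff_order_eq_zero.1 h0)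
    by_cases hdvd : (N : ℤ) ∣ (qExpand k N f).order
    · obtain ⟨m, hm⟩ := hdvd
      rw [hm, qExpand_coeff_mul] at h1
      rw [hm]
      have hN : (0 : ℤ) < N := by exact_mod_cast Nat.pos_of_ne_zero (NeZero.ne N)
      exact mul_le_mul_of_nonneg_left (HahnSeries.order_le_of_coeff_ne_zero h1) hN.le
    · exact absurd (qExpand_coeff_of_not_dvd N f hdvd) h1

/-- If `u` has order `-1` then `1, u, …, u^{N-1}` are linearly independent over the image of
`f ↦ f(q^N)` in `k((q))`. -/
theorem eq_zero_of_sum_qExpand_mul_pow {u : LaurentSeries k} (hu : u.order = -1)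
    (a : Fin N → LaurentSeries k)
    (h : ∑ i, qExpand k N (a i) * u ^ (i : ℕ) = 0) : ∀ i, a i = 0 := by
  classical
  have hu0 : u ≠ 0 := by
    rintro rfl
    rw [HahnSeries.order_zero] at hu
    exact absurd hu (by norm_num)
  by_contra hne
  push Not at hne
  -- the order of the `i`-th term
  set T : Fin N → LaurentSeries k := fun i => qExpand k N (a i) * u ^ (i : ℕ) with hT
  have hTne : ∀ i, a i ≠ 0 → T i ≠ 0 := fun i hi =>
    mul_ne_zero (fun h => hi (qExpand_injective N (h.trans (map_zero _).symm)))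
      (pow_ne_zero _ hu0)
  have hTord : ∀ i, a i ≠ 0 → (T i).order = (N : ℤ) * (a i).order - (i : ℕ) := fun i hi => by
    rw [hT]
    simp only
    rw [HahnSeries.order_mul
      (fun h => hi (qExpand_injective N (h.trans (map_zero _).symm))) (pow_ne_zero _ hu0),
      order_qExpand k N hi, HahnSeries.order_pow, hu]
    simp only [nsmul_eq_mul, mul_neg, mul_one]
    ring
  set s : Finset (Fin N) := Finset.univ.filter fun i => a i ≠ 0 with hs
  have hsne : s.Nonempty := by
    obtain ⟨i, hi⟩ := hne
    exact ⟨i, by rw [hs, Finset.mem_filter]; exact ⟨Finset.mem_univ i, hi⟩⟩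
  obtain ⟨i₀, hi₀s, hmin⟩ := Finset.exists_min_image s (fun i => (T i).order) hsne
  have hi₀ : a i₀ ≠ 0 := by
    rw [hs, Finset.mem_filter] at hi₀s
    exact hi₀s.2
  -- the coefficient of the sum at `ord (T i₀)`
  have hcoeff : (∑ i, T i).coeff (T i₀).order = (T i₀).coeff (T i₀).order := by
    rw [HahnSeries.coeff_sum]
    refine Finset.sum_eq_single i₀ (fun i _ hii₀ => ?_) (fun h => absurd (Finset.mem_univ i₀) h)
    by_cases hi : a i = 0
    · simp only [hT, hi, map_zero, zero_mul, HahnSeries.coeff_zero]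
    · have his : i ∈ s := by rw [hs, Finset.mem_filter]; exact ⟨Finset.mem_univ i, hi⟩
      have hle := hmin i his
      have hneq : (T i₀).order ≠ (T i).order := by
        intro heq
        rw [hTord i hi, hTord i₀ hi₀] at heq
        -- reduce mod `N`
        have hdvd : (N : ℤ) ∣ ((i : ℕ) : ℤ) - ((i₀ : ℕ) : ℤ) := by
          refine ⟨(a i).order - (a i₀).order, ?_⟩
          linarith
        have hlt : |((i : ℕ) : ℤ) - ((i₀ : ℕ) : ℤ)| < (N : ℤ) := by
          have h1 : ((i : ℕ) : ℤ) < N := by exact_mod_cast i.2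
          have h2 : ((i₀ : ℕ) : ℤ) < N := by exact_mod_cast i₀.2
          have h3 : (0 : ℤ) ≤ ((i : ℕ) : ℤ) := Int.natCast_nonneg _
          have h4 : (0 : ℤ) ≤ ((i₀ : ℕ) : ℤ) := Int.natCast_nonneg _
          rw [abs_lt]
          constructor <;> linarith
        have hzero := Int.eq_zero_of_abs_lt_dvd hdvd hlt
        apply hii₀
        apply Fin.ext
        have : ((i : ℕ) : ℤ) = ((i₀ : ℕ) : ℤ) := by linarith
        exact_mod_cast this
      exact HahnSeries.coeff_eq_zero_of_lt_order (lt_of_le_of_ne hle hneq)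
  have h1 : (∑ i, T i).coeff (T i₀).order = 0 := by
    rw [h]
    exact HahnSeries.coeff_zero
  rw [hcoeff] at h1
  exact hTne i₀ hi₀ (HahnSeries.coeff_order_eq_zero.1 h1)

end Laurent

end Fermat.Agent.BR.TwoVal
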