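import Fermat.Agent.BR.ResGen
import Fermat.Agent.BR.TwoValAux
import Fermat.Agent.Hecke.HeckeDegrees
import Fermat.Agent.Hecke.HeckeInputs

/-!
# Program B, block B1, node B1.W12: `w₁`, `w₂` are ALL the valuations of `F̄_{Mq}` over the
level-`M` Gauss valuation

Instantiation of the generic two-valuation package `BR/TwoVal.lean` for
`E = Fb (M * q)` over `F = Fb M` (along `α = heckeAlphaBar Kb M q`), `O₀ = O_M`, `O₁ = w₁`,
`O₂ = w₂ = w₁ ∘ W_q`, `f₁ = 1` (family `1`), `f₂ = q` (family `j_q^i`, `i < q`).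

* `tKron = j_q - j^q` : nonunit of `O₁`, unit of `O₂`; `sKron = W_q tKron` : the mirror;
* `twoValFull` : the `TwoVal.Full` structure;
* `eq_O1_or_eq_O2` : EXHAUSTION;
* `isIntegralElem_iff_mem_R12` : `R12 = O₁ ∩ O₂` is the integral closure of `O_M`;
* `exists_approx12` : strong approximation;
* `exists_alpha_sub_mem_nonunits` : the residue field of `w₁` is that of `O_M`
  (for `x ∈ O₁` there is `c ∈ O_M` with `x - α c ∈ 𝔪₁`), and the mirror for `w₂` along `β`.
-/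

set_option autoImplicit false
set_option linter.style.haveILetI false

noncomputable section

namespace Fermat.Agent.BR.TwoValInst

open ModularCurve AlgebraicCurve Fermat.Agent.X0 Fermat.Agent.Val Fermat.Agent.BR.TwoVal
  Fermat.Agent.BR.ResGen

variable {M q : ℕ} [NeZero M] [hq : Fact q.Prime]
variable (B : ValuationSubring (AlgebraicClosure ℚ)) (hB : B.LiesOverPrime q)

local notation "kB" => IsLocalRing.ResidueField B

/-! ### Nonunits and residues -/

theorem mem_nonunits_O1_iff {x : Fb (M * q)} (hx : x ∈ O1 M B hB) :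
    x ∈ (O1 M B hB).nonunits ↔ res1 M B hB ⟨x, hx⟩ = 0 := by
  have := algebraIsAlgebraic_rat_algebraicClosure
  have h1 : res1 M B hB ⟨x, hx⟩ = 0 ↔
      (⟨x, hx⟩ : O1 M B hB) ∈ IsLocalRing.maximalIdeal (O1 M B hB) :=
    gaussResBar_eq_zero_iff B (IsLocalRing.residue B) (M * q) hq.out.ne_zero hB ⟨x, hx⟩
  rw [h1, ← ValuationSubring.coe_mem_nonunits_iff]

variable (hqM : ¬ q ∣ M)

theorem mem_nonunits_O2_iff_Wq {x : Fb (M * q)} :
    x ∈ (O2 B hB hqM).nonunits ↔ Wq hqM x ∈ (O1 M B hB).nonunits := by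
  rw [ValuationSubring.mem_nonunits_iff_or, ValuationSubring.mem_nonunits_iff_or, mem_O2_iff,
    map_inv₀, map_eq_zero_iff _ (Wq hqM).injective]

theorem mem_nonunits_O1_iff_Wq {x : Fb (M * q)} :
    x ∈ (O1 M B hB).nonunits ↔ Wq hqM x ∈ (O2 B hB hqM).nonunits := by
  rw [mem_nonunits_O2_iff_Wq, Wq_Wq]

theorem mem_nonunits_O2_iff {x : Fb (M * q)} (hx : x ∈ O2 B hB hqM) :
    x ∈ (O2 B hB hqM).nonunits ↔ res2 B hB hqM ⟨x, hx⟩ = 0 := by
  rw [mem_nonunits_O2_iff_Wq, mem_nonunits_O1_iff B hB ((mem_O2_iff B hB hqM).1 hx)]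
  rfl

/-! ### The Kronecker elements `t = j_q - j^q`, `s = W_q t = j - j_q^q` -/

variable (M q) in
/-- `j ∈ Fb (M q)` (as `jBarD (M q) 1`). -/
def jOne : Fb (M * q) := jBarD (M * q) 1 (Dvd.dvd.mul_right (one_dvd M) q)

variable (M q) in
/-- `j_q ∈ Fb (M q)` (as `jBarD (M q) (1 * q)`). -/
def jQ : Fb (M * q) := jBarD (M * q) (1 * q) (Nat.mul_dvd_mul_right (one_dvd M) q)

variable (M q) in
/-- `t = j_q - j^q`. -/
def tKron : Fb (M * q) := jQ M q - jOne M q ^ q

variable (M q) in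
/-- `s = j - j_q^q = W_q t`. -/
def sKron : Fb (M * q) := jOne M q - jQ M q ^ q

theorem Wq_jOne : Wq hqM (jOne M q) = jQ M q := Wq_jBarD hqM 1 (one_dvd M)

theorem Wq_jQ : Wq hqM (jQ M q) = jOne M q := Wq_jBarD_mul hqM 1 (one_dvd M)

theorem Wq_tKron : Wq hqM (tKron M q) = sKron M q := by
  rw [tKron, sKron, map_sub, map_pow, Wq_jOne, Wq_jQ]

theorem Wq_sKron : Wq hqM (sKron M q) = tKron M q := by
  rw [← Wq_tKron hqM, Wq_Wq]

theorem jOne_mem_O1 : jOne M q ∈ O1 M B hB := jBarD_mem_O1 B hB 1 (one_dvd M)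

theorem jQ_mem_O1 : jQ M q ∈ O1 M B hB := jBarD_mul_mem_O1 B hB 1 (one_dvd M)

theorem jOne_mem_O2 : jOne M q ∈ O2 B hB hqM := jBarD_mem_O2 B hB hqM 1 (one_dvd M)

theorem jQ_mem_O2 : jQ M q ∈ O2 B hB hqM := jBarD_mul_mem_O2 B hB hqM 1 (one_dvd M)

theorem res1_jOne : res1 M B hB ⟨jOne M q, jOne_mem_O1 B hB⟩ = jqModC kB := by
  rw [← jqNModC_one]
  exact res1_jBarD B hB 1 (one_dvd M)

theorem res1_jQ : res1 M B hB ⟨jQ M q, jQ_mem_O1 B hB⟩ = jqModC kB ^ q := by
  rw [← jqNModC_one]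
  exact res1_jBarD_mul B hB 1 (one_dvd M)

theorem res2_jOne : res2 B hB hqM ⟨jOne M q, jOne_mem_O2 B hB hqM⟩ = jqModC kB ^ q := by
  rw [← jqNModC_one]
  exact res2_jBarD B hB hqM 1 (one_dvd M)

theorem res2_jQ : res2 B hB hqM ⟨jQ M q, jQ_mem_O2 B hB hqM⟩ = jqModC kB := by
  rw [← jqNModC_one]
  exact res2_jBarD_mul B hB hqM 1 (one_dvd M)

theorem tKron_mem_O1 : tKron M q ∈ O1 M B hB :=
  sub_mem (jQ_mem_O1 B hB) (pow_mem (jOne_mem_O1 B hB) q)

theorem tKron_mem_O2 : tKron M q ∈ O2 B hB hqM :=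
  sub_mem (jQ_mem_O2 B hB hqM) (pow_mem (jOne_mem_O2 B hB hqM) q)

/-- `res₁ t = 0`. -/
theorem res1_tKron : res1 M B hB ⟨tKron M q, tKron_mem_O1 B hB⟩ = 0 := by
  have h : (⟨tKron M q, tKron_mem_O1 B hB⟩ : O1 M B hB) =
      ⟨jQ M q, jQ_mem_O1 B hB⟩ - ⟨jOne M q, jOne_mem_O1 B hB⟩ ^ q := rfl
  rw [h, map_sub, map_pow, res1_jOne, res1_jQ, sub_self]

/-- the order of `j̃` is `-1` -/
theorem order_jqModC : (jqModC kB).order = -1 := by
  have hne : jqModC kB ≠ 0 := jqModC_ne_zero_of_nontrivial kB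
  apply le_antisymm
  · apply HahnSeries.order_le_of_coeff_ne_zero
    rw [coeff_jqModC_neg_one]
    exact one_ne_zero
  · by_contra hlt
    push Not at hlt
    exact hne (HahnSeries.coeff_order_eq_zero.1 (coeff_jqModC_of_lt kB hlt))

/-- `res₂ t = j̃ - j̃^(q²) ≠ 0`. -/
theorem res2_tKron_ne_zero : res2 B hB hqM ⟨tKron M q, tKron_mem_O2 B hB hqM⟩ ≠ 0 := by
  have h : (⟨tKron M q, tKron_mem_O2 B hB hqM⟩ : O2 B hB hqM) =
      ⟨jQ M q, jQ_mem_O2 B hB hqM⟩ - ⟨jOne M q, jOne_mem_O2 B hB hqM⟩ ^ q := rfl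
  rw [h, map_sub, map_pow, res2_jOne, res2_jQ, ← pow_mul]
  intro h0
  have heq : jqModC kB = jqModC kB ^ (q * q) := sub_eq_zero.1 h0
  have hord := congrArg HahnSeries.order heq
  rw [HahnSeries.order_pow, order_jqModC] at hord
  have hq2 : 2 ≤ q := hq.out.two_le
  have h4 : (4 : ℤ) ≤ ((q * q : ℕ) : ℤ) := by
    have : 4 ≤ q * q := by nlinarith
    exact_mod_cast this
  simp only [nsmul_eq_mul, mul_neg, mul_one] at hord
  omega

theorem tKron_mem_nonunits_O1 : tKron M q ∈ (O1 M B hB).nonunits :=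
  (mem_nonunits_O1_iff B hB (tKron_mem_O1 B hB)).2 (res1_tKron B hB)

theorem tKron_notMem_nonunits_O2 : tKron M q ∉ (O2 B hB hqM).nonunits := fun h =>
  res2_tKron_ne_zero B hB hqM ((mem_nonunits_O2_iff B hB hqM (tKron_mem_O2 B hB hqM)).1 h)

theorem sKron_mem_nonunits_O2 : sKron M q ∈ (O2 B hB hqM).nonunits := by
  rw [mem_nonunits_O2_iff_Wq, Wq_sKron]
  exact tKron_mem_nonunits_O1 B hB

include hqM in
theorem sKron_notMem_nonunits_O1 : sKron M q ∉ (O1 M B hB).nonunits := by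
  rw [mem_nonunits_O1_iff_Wq B hB hqM, Wq_sKron]
  exact tKron_notMem_nonunits_O2 B hB hqM

include B hB hqM in
theorem tKron_ne_zero : tKron M q ≠ 0 := fun h =>
  tKron_notMem_nonunits_O2 B hB hqM (h ▸ zero_mem_nonunits _)

include B hB hqM in
theorem sKron_ne_zero : sKron M q ≠ 0 := fun h =>
  sKron_notMem_nonunits_O1 B hB hqM (h ▸ zero_mem_nonunits _)

/-- `O₁ ⊄ O₂`. -/
theorem not_O1_le_O2 : ¬ O1 M B hB ≤ O2 B hB hqM := fun hle =>
  (mem_nonunits_iff_inv_notMem _ (sKron_ne_zero B hB hqM)).1 (sKron_mem_nonunits_O2 B hB hqM)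
    (hle (inv_mem_of_notMem_nonunits _ (sKron_notMem_nonunits_O1 B hB hqM)))

/-- `O₂ ⊄ O₁`. -/
theorem not_O2_le_O1 : ¬ O2 B hB hqM ≤ O1 M B hB := fun hle =>
  (mem_nonunits_iff_inv_notMem _ (tKron_ne_zero B hB hqM)).1 (tKron_mem_nonunits_O1 B hB)
    (hle (inv_mem_of_notMem_nonunits _ (tKron_notMem_nonunits_O2 B hB hqM)))

theorem O1_ne_O2 : O1 M B hB ≠ O2 B hB hqM := fun h =>
  not_O1_le_O2 B hB hqM (le_of_eq h)

/-! ### The `TwoVal.Full` structure -/

theorem arch_O1 : Arch (O1 M B hB) := by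
  have := algebraIsAlgebraic_rat_algebraicClosure
  exact arch_gaussValSubring B (IsLocalRing.residue B)
    (laurentBaseChange Kb (modularFunctionFieldFull (M * q)))
    (fun _ hx hx0 => hasContent_of_mem_bar B (IsLocalRing.residue B) (M * q) hq.out.ne_zero hB
      hx hx0)
    (residue_eq_zero_of_mem_maximalIdeal B) (isRankOne B hB)

theorem arch_O2 : Arch (O2 B hB hqM) := by
  intro x u hu hu0
  have hu' := (mem_nonunits_O2_iff_Wq B hB hqM).1 hu
  have hu0' : Wq hqM u ≠ 0 := fun h => hu0 ((map_eq_zero_iff _ (Wq hqM).injective).1 h)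
  obtain ⟨n, hn⟩ := arch_O1 B hB (Wq hqM x) (Wq hqM u) hu' hu0'
  refine ⟨n, ?_⟩
  rw [mem_O2_iff, map_mul, map_pow]
  exact hn

/-- nonunits of the level-`M` Gauss valuation subring -/
theorem mem_nonunits_OM_iff {x : Fb M} (hx : x ∈ OM M B hB) :
    x ∈ (OM M B hB).nonunits ↔ resM M B hB ⟨x, hx⟩ = 0 := by
  have := algebraIsAlgebraic_rat_algebraicClosure
  have h1 : resM M B hB ⟨x, hx⟩ = 0 ↔
      (⟨x, hx⟩ : OM M B hB) ∈ IsLocalRing.maximalIdeal (OM M B hB) :=
    gaussResBar_eq_zero_iff B (IsLocalRing.residue B) M hq.out.ne_zero hB ⟨x, hx⟩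
  rw [h1, ← ValuationSubring.coe_mem_nonunits_iff]

/-- `algebraMap = α` for the algebra structure along `α` -/
theorem algebraMap_along_apply (x : Fb M) :
    letI := algebraAlong (heckeAlphaBar Kb M q)
    algebraMap (Fb M) (Fb (M * q)) x = heckeAlphaBar Kb M q x := rfl

theorem comap_algebraMap_O1 :
    letI := algebraAlong (heckeAlphaBar Kb M q)
    (O1 M B hB).comap (algebraMap (Fb M) (Fb (M * q))) = OM M B hB := by
  letI := algebraAlong (heckeAlphaBar Kb M q)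
  ext x
  rw [ValuationSubring.mem_comap, algebraMap_along_apply]
  exact alpha_mem_O1_iff B hB x

theorem comap_algebraMap_O2 :
    letI := algebraAlong (heckeAlphaBar Kb M q)
    (O2 B hB hqM).comap (algebraMap (Fb M) (Fb (M * q))) = OM M B hB := by
  letI := algebraAlong (heckeAlphaBar Kb M q)
  ext x
  rw [ValuationSubring.mem_comap, algebraMap_along_apply]
  exact alpha_mem_O2_iff B hB hqM x

/-- the `TwoVal.Setup` for `F̄_{Mq}` over `α(F̄_M)` -/
theorem twoValSetup :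
    letI := algebraAlong (heckeAlphaBar Kb M q)
    Setup (OM M B hB) (O1 M B hB) (O2 B hB hqM) := by
  letI := algebraAlong (heckeAlphaBar Kb M q)
  exact
    { lies₁ := comap_algebraMap_O1 B hB
      lies₂ := comap_algebraMap_O2 B hB hqM
      arch₁ := arch_O1 B hB
      arch₂ := arch_O2 B hB hqM
      sep := exists_sep_of_not_le (not_O1_le_O2 B hB hqM) (not_O2_le_O1 B hB hqM) }

/-- `f₁ ≥ 1`: the family `1`. -/
theorem resIndep_one :
    letI := algebraAlong (heckeAlphaBar Kb M q)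
    ResIndep (OM M B hB) (O1 M B hB) (fun _ : Unit => (1 : Fb (M * q))) := by
  letI := algebraAlong (heckeAlphaBar Kb M q)
  refine ⟨fun _ => (O1 M B hB).one_mem, fun c _ h i => ?_⟩
  have h1 : ∑ i : Unit, c i • (1 : Fb (M * q)) = heckeAlphaBar Kb M q (c default) := by
    rw [Fintype.sum_unique, Algebra.smul_def, mul_one, algebraMap_along_apply]
  rw [h1] at h
  cases i
  have h2 := (algebraMap_mem_nonunits_iff (comap_algebraMap_O1 B hB) (c default)).1
  exact h2 h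

/-- `f₂ ≥ q`: the family `j_q^i`, `i < q`. -/
theorem resIndep_jQ_pow :
    letI := algebraAlong (heckeAlphaBar Kb M q)
    ResIndep (OM M B hB) (O2 B hB hqM) (fun i : Fin q => jQ M q ^ (i : ℕ)) := by
  letI := algebraAlong (heckeAlphaBar Kb M q)
  have : NeZero q := ⟨hq.out.ne_zero⟩
  refine ⟨fun i => pow_mem (jQ_mem_O2 B hB hqM) _, fun c hc h i => ?_⟩
  -- the combination as an element of the subring `O₂`
  have hα : ∀ i, heckeAlphaBar Kb M q (c i) ∈ O2 B hB hqM := fun i =>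
    (alpha_mem_O2_iff B hB hqM (c i)).2 (hc i)
  set W : O2 B hB hqM := ∑ i : Fin q, (⟨heckeAlphaBar Kb M q (c i), hα i⟩ : O2 B hB hqM) *
    (⟨jQ M q, jQ_mem_O2 B hB hqM⟩ : O2 B hB hqM) ^ (i : ℕ) with hW
  have hWcoe : ((W : O2 B hB hqM) : Fb (M * q)) = ∑ i : Fin q, c i • jQ M q ^ (i : ℕ) := by
    have h1 : ((W : O2 B hB hqM) : Fb (M * q)) = (O2 B hB hqM).subtype W := rfl
    rw [h1, hW, map_sum]
    refine Finset.sum_congr rfl fun i _ => ?_
    rw [map_mul, map_pow, Algebra.smul_def]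
    rfl
  have hres : res2 B hB hqM W = 0 := by
    have h2 : ((W : O2 B hB hqM) : Fb (M * q)) ∈ (O2 B hB hqM).nonunits := by
      rw [hWcoe]
      exact h
    exact (mem_nonunits_O2_iff B hB hqM W.2).1 h2
  rw [hW, map_sum] at hres
  have hres' : ∑ i : Fin q, qExpand kB q (resM M B hB ⟨c i, hc i⟩) * jqModC kB ^ (i : ℕ) = 0 := by
    rw [← hres]
    refine Finset.sum_congr rfl fun i _ => ?_
    rw [map_mul, map_pow, res2_jQ, res2_alpha B hB hqM (c i) (hc i)]
  have hzero := eq_zero_of_sum_qExpand_mul_pow kB q (order_jqModC B)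
    (fun i => resM M B hB ⟨c i, hc i⟩) hres' i
  exact (mem_nonunits_OM_iff B hB (hc i)).2 hzero

/-- **The full two-valuation structure** of `F̄_{Mq}` over `α(F̄_M)`: `f₁ = 1`, `f₂ = q`,
`f₁ + f₂ = q + 1 = [F̄_{Mq} : α F̄_M]`. -/
def twoValFull :
    letI := algebraAlong (heckeAlphaBar Kb M q)
    Full (OM M B hB) (O1 M B hB) (O2 B hB hqM) Unit (Fin q) :=
  letI := algebraAlong (heckeAlphaBar Kb M q)
  { setup := twoValSetup B hB hqM
    x := fun _ => 1
    y := fun i => jQ M q ^ (i : ℕ)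
    hx := resIndep_one B hB
    hy := resIndep_jQ_pow B hB hqM
    card_eq := by
      rw [Fintype.card_unit, Fintype.card_fin, add_comm]
      exact (Fermat.Agent.Hecke.Deg.finrankAlong_heckeAlphaBar M q hq.out hqM).symm }

/-! ### Generic: residue degree one means equal residue fields -/

section GenericOne

variable {F E : Type*} [Field F] [Field E] [Algebra F E] [FiniteDimensional F E]
variable {O₀ : ValuationSubring F} {O₁ O₂ : ValuationSubring E} {ι κ : Type*} [Fintype ι]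
  [Fintype κ]

/-- If `f₁ = 1` then every element of `O₁` is congruent mod `𝔪₁` to an element of `O₀`. -/
theorem exists_sub_mem_nonunits_of_card_eq_one (D : Full O₀ O₁ O₂ ι κ)
    (hι : Fintype.card ι = 1) {x : E} (hx : x ∈ O₁) :
    ∃ c ∈ O₀, x - algebraMap F E c ∈ O₁.nonunits := by
  have S := D.setup
  by_contra hcon
  push Not at hcon
  have hind : ResIndep O₀ O₁ (![1, x] : Fin 2 → E) := by
    refine ⟨fun i => ?_, fun c hc h => ?_⟩
    · fin_cases i
      · exact O₁.one_mem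
      · exact hx
    · rw [Fin.sum_univ_two] at h
      simp only [Matrix.cons_val_zero, Matrix.cons_val_one] at h
      -- `c 1` is a nonunit, else `x ≡ - c 0 / c 1`
      have h1 : c 1 ∈ O₀.nonunits := by
        by_contra h1
        have hinv : (c 1)⁻¹ ∈ O₀ := inv_mem_of_notMem_nonunits O₀ h1
        have hc10 : c 1 ≠ 0 := fun h0 => h1 (h0 ▸ zero_mem_nonunits O₀)
        apply hcon (-(c 0 * (c 1)⁻¹)) (O₀.neg_mem _ (O₀.mul_mem _ _ (hc 0) hinv))
        have h2 := S.smul_mem_nonunits₁ hinv h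
        have h3 : (c 1)⁻¹ • (c 0 • (1 : E) + c 1 • x) =
            x - algebraMap F E (-(c 0 * (c 1)⁻¹)) := by
          rw [smul_add, smul_smul, smul_smul, inv_mul_cancel₀ hc10, one_smul, map_neg,
            sub_neg_eq_add, Algebra.smul_def, mul_one, mul_comm (c 1)⁻¹ (c 0), add_comm]
        rwa [h3] at h2
      have h0 : c 0 ∈ O₀.nonunits := by
        have h2 : c 1 • x ∈ O₁.nonunits := S.nonunit_smul_mem_nonunits₁ h1 hx
        have h3 : c 0 • (1 : E) ∈ O₁.nonunits := by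
          have := sub_mem_nonunits O₁ h h2
          rwa [add_sub_cancel_right] at this
        rw [Algebra.smul_def, mul_one] at h3
        exact (algebraMap_mem_nonunits_iff S.lies₁ (c 0)).1 h3
      intro i
      fin_cases i
      · exact h0
      · exact h1
  have := D.card_le₁ hind
  rw [Fintype.card_fin, hι] at this
  omega

end GenericOne

/-! ### Consequences for `F̄_{Mq}` -/

/-- **EXHAUSTION**: `w₁` and `w₂` are the only valuation subrings of `F̄_{Mq}` lying over the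
level-`M` Gauss valuation subring (along `α`). -/
theorem eq_O1_or_eq_O2 (O₃ : ValuationSubring (Fb (M * q)))
    (h₃ : O₃.comap (heckeAlphaBar Kb M q : Fb M →+* Fb (M * q)) = OM M B hB) :
    O₃ = O1 M B hB ∨ O₃ = O2 B hB hqM := by
  letI := algebraAlong (heckeAlphaBar Kb M q)
  haveI : FiniteDimensional (Fb M) (Fb (M * q)) := Fermat.Agent.Hecke.finiteAlong_heckeAlphaBar M q
  refine (twoValFull B hB hqM).eq_or_eq_of_comap_eq O₃ ?_
  rw [← h₃]
  rfl

/-- **`R12 = O₁ ∩ O₂` is the integral closure of `O_M`** in `F̄_{Mq}` (along `α`). -/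
theorem isIntegralElem_iff_mem_R12 (w : Fb (M * q)) :
    ((heckeAlphaBar Kb M q : Fb M →+* Fb (M * q)).comp (OM M B hB).subtype).IsIntegralElem w ↔
      w ∈ R12 B hB hqM := by
  letI := algebraAlong (heckeAlphaBar Kb M q)
  haveI : FiniteDimensional (Fb M) (Fb (M * q)) := Fermat.Agent.Hecke.finiteAlong_heckeAlphaBar M q
  exact (twoValFull B hB hqM).isIntegralElem_iff w

/-- **Strong approximation** for `w₁, w₂`. -/
theorem exists_approx12 (c u v : Fb (M * q)) :
    ∃ z : Fb (M * q), (z - u) * c⁻¹ ∈ O1 M B hB ∧ (z - v) * c⁻¹ ∈ O2 B hB hqM := by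
  letI := algebraAlong (heckeAlphaBar Kb M q)
  exact (twoValSetup B hB hqM).exists_approx c u v

include hqM in
/-- **The residue field of `w₁` is that of `O_M`** (along `α`). -/
theorem exists_alpha_sub_mem_nonunits {x : Fb (M * q)} (hx : x ∈ O1 M B hB) :
    ∃ c ∈ OM M B hB, x - heckeAlphaBar Kb M q c ∈ (O1 M B hB).nonunits := by
  letI := algebraAlong (heckeAlphaBar Kb M q)
  haveI : FiniteDimensional (Fb M) (Fb (M * q)) := Fermat.Agent.Hecke.finiteAlong_heckeAlphaBar M q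
  exact exists_sub_mem_nonunits_of_card_eq_one (twoValFull B hB hqM) Fintype.card_unit hx

/-- **The residue field of `w₂` is that of `O_M`** (along `β`). -/
theorem exists_beta_sub_mem_nonunits {x : Fb (M * q)} (hx : x ∈ O2 B hB hqM) :
    ∃ c ∈ OM M B hB, x - heckeBetaBar Kb M q c ∈ (O2 B hB hqM).nonunits := by
  obtain ⟨c, hc, h⟩ := exists_alpha_sub_mem_nonunits B hB hqM ((mem_O2_iff B hB hqM).1 hx)
  refine ⟨c, hc, ?_⟩
  rw [mem_nonunits_O2_iff_Wq, map_sub, Wq_beta]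
  exact h

include hqM in
/-- residue form: `res₁(O₁) = res_M(O_M)`. -/
theorem exists_resM_eq_res1 (x : O1 M B hB) : ∃ c : OM M B hB, res1 M B hB x = resM M B hB c := by
  obtain ⟨c, hc, h⟩ := exists_alpha_sub_mem_nonunits B hB hqM x.2
  refine ⟨⟨c, hc⟩, ?_⟩
  have hα : heckeAlphaBar Kb M q c ∈ O1 M B hB := (alpha_mem_O1_iff B hB c).2 hc
  have h1 := (mem_nonunits_O1_iff B hB (sub_mem x.2 hα)).1 h
  have h2 : (⟨(x : Fb (M * q)) - heckeAlphaBar Kb M q c, sub_mem x.2 hα⟩ : O1 M B hB) =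
      x - ⟨heckeAlphaBar Kb M q c, hα⟩ := rfl
  rw [h2, map_sub, sub_eq_zero, res1_alpha B hB c hc] at h1
  exact h1

/-- residue form: `res₂(O₂) = res_M(O_M)`. -/
theorem exists_resM_eq_res2 (x : O2 B hB hqM) :
    ∃ c : OM M B hB, res2 B hB hqM x = resM M B hB c :=
  exists_resM_eq_res1 B hB hqM (WqO B hB hqM x)

/-- **Equivariance**: a ring automorphism `σ` of `F̄_{Mq}` lying over an automorphism `σ₀` of
`F̄_M` (along `α`) which preserves `O_M`, and such that `σ t ∈ 𝔪₁` (`t = j_q - j^q`), preserves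
both `w₁` and `w₂`. -/
theorem comap_eq_of_map_tKron (σ : Fb (M * q) ≃+* Fb (M * q)) (σ₀ : Fb M ≃+* Fb M)
    (hσ : ∀ a, σ (heckeAlphaBar Kb M q a) = heckeAlphaBar Kb M q (σ₀ a))
    (hσ₀ : ∀ a, σ₀ a ∈ OM M B hB ↔ a ∈ OM M B hB)
    (hσt : σ (tKron M q) ∈ (O1 M B hB).nonunits) :
    (O1 M B hB).comap (σ : Fb (M * q) →+* Fb (M * q)) = O1 M B hB ∧
      (O2 B hB hqM).comap (σ : Fb (M * q) →+* Fb (M * q)) = O2 B hB hqM := by
  letI := algebraAlong (heckeAlphaBar Kb M q)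
  haveI : FiniteDimensional (Fb M) (Fb (M * q)) := Fermat.Agent.Hecke.finiteAlong_heckeAlphaBar M q
  exact (twoValFull B hB hqM).comap_eq_of_mem σ σ₀ hσ hσ₀ (tKron_notMem_nonunits_O2 B hB hqM) hσt

end Fermat.Agent.BR.TwoValInst
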