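import Fermat.Agent.BR.ConstRedTwo
import Fermat.Agent.BR.TwoValDense
import Fermat.Agent.BR.TwoValInst

/-!
# Program B, block B1: the input `Dense` of `BR/ConstRedTwo.lean`

`α(F̄_M)` is dense in `(F̄_{Mq}, w₁)`: from helper15's `TwoValInst.twoValFull` (the `TwoVal.Full`
structure of `F̄_{Mq}` over `α F̄_M`, `f₁ = 1`) and `TwoValDense.Full.exists_sub_algebraMap_mem`.
-/

set_option autoImplicit false
set_option linter.unusedSectionVars false
set_option linter.style.haveILetI false

noncomputable section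

namespace Fermat.Agent.BR.ConstRedTwo

open ModularCurve AlgebraicCurve Fermat.Agent.X0 Fermat.Agent.Val Fermat.Agent.Hecke.AL
open Fermat.Agent.BR.ValTwo Fermat.Agent.BR.TwoVal

set_option synthInstance.maxHeartbeats 400000

variable {M q : ℕ} [NeZero M] [NeZero q] [hqF : Fact q.Prime]
variable (B : ValuationSubring Kb) (hB : B.LiesOverPrime q) (hqM : ¬ q ∣ M)

include hqM in
/-- **`Dense`**: `α(F̄_M)` is dense in `(F̄_{Mq}, w₁)`. -/
theorem dense : Dense (M := M) hqF.out B hB := by
  intro z hz c hc0 hc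
  letI := algebraAlong (heckeAlphaBar Kb M q)
  haveI : FiniteDimensional (Fb M) (Fb (M * q)) :=
    Fermat.Agent.Hecke.finiteAlong_heckeAlphaBar M q
  have hcomap : (valM M hqF.out B hB).comap (algebraMap Kb (Fb M)) = B := by
    ext a
    exact algebraMap_mem_gauss_iff hqF.out B hB M a
  have hcM : algebraMap Kb (Fb M) c ∈ (valM M hqF.out B hB).nonunits :=
    (algebraMap_mem_nonunits_iff hcomap c).2 hc
  have hcM0 : algebraMap Kb (Fb M) c ≠ 0 := (map_ne_zero _).2 hc0
  obtain ⟨a, ha, h⟩ := TwoValDense.Full.exists_sub_algebraMap_mem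
    (TwoValInst.twoValFull B hB hqM) rfl hcM hcM0 hz
  refine ⟨a, ha, ?_⟩
  have h1 : algebraMap (Fb M) (Fb (M * q)) (algebraMap Kb (Fb M) c) =
      algebraMap Kb (Fb (M * q)) c := (heckeAlphaBar Kb M q).commutes c
  rw [h1] at h
  exact h

end Fermat.Agent.BR.ConstRedTwo
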