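import Fermat.Agent.Val.GaussBar

/-!
# Program B, node B1.COMPARE: the Gauss unit ball of a finite-dimensional subspace of `F̄_N` is
bounded in coordinates

For a `ℚ̄`-linearly independent family `v : Fin m → Fb N` and a valuation subring `B ⊂ ℚ̄` over a
prime, there is `c ≠ 0` with `c * a i ∈ B` for all coordinates of every Gauss-integral element
`∑ a i • v i` (`compare`; generic form `compare_bar`).  Any level `N`, any `ℓ ≠ 0`.

Ingredients (reusable):
* `coord_bound` **(LA)** : for a separating family of linear functionals `ψ n : W → L` and an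
  independent family `w`, the coordinate vectors of the elements whose `ψ`-values all lie in `A`
  are bounded (finitely many `ψ n` already separate the span; left inverse; finitely many matrix
  entries are scaled into `A`);
* `coeff_mem_of_mem_gaussRingA` **(BS)** : a finite `L`-combination of series over (the image
  of) a Noetherian ring which is Gauss integral has all its coefficients in `A` (by Noetherianity
  the supremum of the coefficient norms is attained, hence the series has content);
* assembly: descent of the `v i` to a number field `K`, common denominator over the discrete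
  valuation ring `locK A K`.
-/

set_option autoImplicit false
set_option linter.style.haveILetI false

noncomputable section

namespace Fermat.Agent.BR.GaussCompare

open Fermat.Agent.Val ModularCurve

section LA

variable {L : Type*} [Field L] (A : ValuationSubring L)

/-- Finitely many elements of `L` can be scaled into `A` by one nonzero element of `A`. -/
theorem exists_scale_mem {ι : Type*} (s : Finset ι) (x : ι → L) :
    ∃ d : L, d ≠ 0 ∧ d ∈ A ∧ ∀ i ∈ s, d * x i ∈ A := by
  classical
  induction s using Finset.induction_on with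
  | empty => exact ⟨1, one_ne_zero, A.one_mem, by simp⟩
  | insert i s _ ih =>
    obtain ⟨d, hd0, hdA, hd⟩ := ih
    by_cases hxi : x i ∈ A
    · refine ⟨d, hd0, hdA, fun j hj => ?_⟩
      rcases Finset.mem_insert.1 hj with rfl | hj
      · exact A.mul_mem _ _ hdA hxi
      · exact hd j hj
    · have hinv : (x i)⁻¹ ∈ A := (A.mem_or_inv_mem (x i)).resolve_left hxi
      have hx0 : x i ≠ 0 := fun h => hxi (h ▸ A.zero_mem)
      refine ⟨d * (x i)⁻¹, mul_ne_zero hd0 (inv_ne_zero hx0), A.mul_mem _ _ hdA hinv,
        fun j hj => ?_⟩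
      rcases Finset.mem_insert.1 hj with rfl | hj
      · rw [mul_assoc, inv_mul_cancel₀ hx0, mul_one]
        exact hdA
      · rw [mul_right_comm]
        exact A.mul_mem _ _ (hd j hj) hinv

variable {W : Type*} [AddCommGroup W] [Module L W] {ι : Type*} (ψ : ι → W →ₗ[L] L)

/-- The functional `ψ n` in coordinates. -/
def coordFun {m : ℕ} (w : Fin m → W) (n : ι) : (Fin m → L) →ₗ[L] L :=
  (ψ n).comp (Fintype.linearCombination L w)

theorem coordFun_apply {m : ℕ} (w : Fin m → W) (n : ι) (a : Fin m → L) :
    coordFun ψ w n a = ψ n (∑ i, a i • w i) := by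
  rw [coordFun, LinearMap.comp_apply, Fintype.linearCombination_apply]

/-- the common kernel of finitely many of the functionals -/
def kerOn {m : ℕ} (w : Fin m → W) (J : Finset ι) : Submodule L (Fin m → L) :=
  ⨅ j ∈ J, LinearMap.ker (coordFun ψ w j)

theorem mem_kerOn {m : ℕ} (w : Fin m → W) (J : Finset ι) (a : Fin m → L) :
    a ∈ kerOn ψ w J ↔ ∀ j ∈ J, coordFun ψ w j a = 0 := by
  simp [kerOn, Submodule.mem_iInf, LinearMap.mem_ker]

/-- Finitely many functionals of a separating family separate the coordinates of an independent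
family. -/
theorem exists_kerOn_eq_bot (hsep : ∀ f : W, (∀ n, ψ n f = 0) → f = 0) {m : ℕ} (w : Fin m → W)
    (hw : LinearIndependent L w) : ∃ J : Finset ι, kerOn ψ w J = ⊥ := by
  classical
  obtain ⟨J, hJ⟩ : ∃ J : Finset ι, ∀ J' : Finset ι,
      Module.finrank L (kerOn ψ w J) ≤ Module.finrank L (kerOn ψ w J') := by
    have hne : (Set.range fun J : Finset ι => Module.finrank L (kerOn ψ w J)).Nonempty :=
      ⟨_, ⟨∅, rfl⟩⟩
    obtain ⟨J, hJ⟩ := Nat.sInf_mem hne
    refine ⟨J, fun J' => ?_⟩
    show (fun J : Finset ι => Module.finrank L (kerOn ψ w J)) J ≤ _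
    rw [hJ]
    exact Nat.sInf_le ⟨J', rfl⟩
  refine ⟨J, ?_⟩
  by_contra hne
  obtain ⟨a, haJ, ha0⟩ := Submodule.exists_mem_ne_zero_of_ne_bot hne
  have hinj := hw.fintypeLinearCombination_injective
  have hTa : (∑ i, a i • w i) ≠ 0 := by
    intro h
    apply ha0
    apply hinj
    rw [Fintype.linearCombination_apply, h, map_zero]
  obtain ⟨n, hn⟩ : ∃ n, ψ n (∑ i, a i • w i) ≠ 0 := by
    by_contra h
    push Not at h
    exact hTa (hsep _ h)
  have hlt : kerOn ψ w (insert n J) < kerOn ψ w J := by
    refine lt_of_le_of_ne ?_ ?_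
    · intro b hb
      rw [mem_kerOn] at hb ⊢
      exact fun j hj => hb j (Finset.mem_insert_of_mem hj)
    · intro h
      have : a ∈ kerOn ψ w (insert n J) := h ▸ haJ
      rw [mem_kerOn] at this
      have h1 := this n (Finset.mem_insert_self n J)
      rw [coordFun_apply] at h1
      exact hn h1
  have := Submodule.finrank_lt_finrank_of_lt hlt
  exact absurd (hJ (insert n J)) (not_le.2 this)

/-- **(LA)** Let `ψ n : W → L` be a separating family of linear functionals on an `L`-vector
space and `w` a finite independent family. The coordinate vectors `a` of the elements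
`∑ a i • w i` all of whose `ψ`-values lie in `A` form a bounded set. -/
theorem coord_bound (hsep : ∀ f : W, (∀ n, ψ n f = 0) → f = 0) {m : ℕ} (w : Fin m → W)
    (hw : LinearIndependent L w) :
    ∃ c : L, c ≠ 0 ∧ ∀ a : Fin m → L, (∀ n, ψ n (∑ i, a i • w i) ∈ A) →
      ∀ i, c * a i ∈ A := by
  classical
  obtain ⟨J, hJ⟩ := exists_kerOn_eq_bot ψ hsep w hw
  let Φ : (Fin m → L) →ₗ[L] (J → L) := LinearMap.pi fun j => coordFun ψ w (j : ι)
  have hΦ : LinearMap.ker Φ = ⊥ := by
    rw [eq_bot_iff]
    intro a ha
    rw [← hJ, mem_kerOn]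
    intro j hj
    have := congrFun (LinearMap.mem_ker.1 ha) ⟨j, hj⟩
    exact this
  obtain ⟨G, hG⟩ := Φ.exists_leftInverse_of_injective hΦ
  obtain ⟨c, hc0, hcA, hc⟩ := exists_scale_mem A (Finset.univ : Finset (J × Fin m))
    (fun p => G (Pi.single p.1 1) p.2)
  refine ⟨c, hc0, fun a ha i => ?_⟩
  have h1 : a = G (Φ a) := by
    have := congrArg (fun f => f a) hG
    exact this.symm
  have h2 : Φ a = ∑ j : J, (Φ a j) • (Pi.single j (1 : L) : J → L) := by
    funext j'
    simp [Finset.sum_apply, Pi.single_apply]
  have h3 : a i = ∑ j : J, Φ a j * G (Pi.single j 1) i := by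
    conv_lhs => rw [h1, h2, map_sum]
    simp [Finset.sum_apply, map_smul]
  rw [h3, Finset.mul_sum]
  refine A.sum_mem fun j _ => ?_
  have h4 : c * (Φ a j * G (Pi.single j 1) i) = Φ a j * (c * G (Pi.single j 1) i) := by ring
  rw [h4]
  have h5 : Φ a j = ψ (j : ι) (∑ i, a i • w i) := coordFun_apply ψ w j a
  rw [h5]
  exact A.mul_mem _ _ (ha (j : ι)) (hc (j, i) (Finset.mem_univ _))

end LA

section BS

variable {L : Type*} [Field L] (A : ValuationSubring L) {k : Type*} [Field k] (π : A →+* k)
variable {O : Type*} [CommRing O] [IsNoetherianRing O] (φ : O →+* A)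

/-- **(BS)** A finite `L`-combination of series with coefficients in (the image of) a Noetherian
ring which is Gauss integral has all its coefficients in `A`: by Noetherianity the supremum of
the coefficient norms is attained, so the series has content. -/
theorem coeff_mem_of_mem_gaussRingA
    (hπ : ∀ a : A, a ∈ IsLocalRing.maximalIdeal A → π a = 0) {m : ℕ}
    (σ : Fin m → LaurentSeries O) (a : Fin m → L)
    (hg : (∑ i, HahnSeries.C (a i) * oIota A φ (σ i)) ∈ gaussRingA A π) (n : ℤ) :
    (∑ i, HahnSeries.C (a i) * oIota A φ (σ i)).coeff n ∈ A := by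
  classical
  set g : LaurentSeries L := ∑ i, HahnSeries.C (a i) * oIota A φ (σ i) with hgdef
  -- the semilinear functional
  let Λ : (Fin m → O) → L := fun x => ∑ i, a i * ((φ (x i) : A) : L)
  have hΛadd : ∀ x y, Λ (x + y) = Λ x + Λ y := by
    intro x y
    show (∑ i, a i * ((φ ((x + y) i) : A) : L)) = _
    rw [← Finset.sum_add_distrib]
    refine Finset.sum_congr rfl fun i _ => ?_
    rw [Pi.add_apply, map_add]
    push_cast
    ring
  have hΛsmul : ∀ (o : O) x, Λ (o • x) = ((φ o : A) : L) * Λ x := by
    intro o x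
    show (∑ i, a i * ((φ ((o • x) i) : A) : L)) = _
    rw [Finset.mul_sum]
    refine Finset.sum_congr rfl fun i _ => ?_
    rw [Pi.smul_apply, smul_eq_mul, map_mul]
    push_cast
    ring
  have hΛzero : Λ 0 = 0 := by
    show (∑ i, a i * ((φ ((0 : Fin m → O) i) : A) : L)) = 0
    simp
  let s : ℤ → (Fin m → O) := fun n i => (σ i).coeff n
  have hcoeff : ∀ n, g.coeff n = Λ (s n) := by
    intro n
    rw [hgdef, HahnSeries.coeff_sum]
    refine Finset.sum_congr rfl fun i _ => ?_
    rw [HahnSeries.C_mul_eq_smul, HahnSeries.coeff_smul, oIota_coeff, smul_eq_mul]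
  -- finite generation
  have hfg : (Submodule.span O (Set.range s)).FG := IsNoetherian.noetherian _
  obtain ⟨S', hS'sub, hS'span⟩ := (Submodule.fg_span_iff_fg_span_finset_subset _).1 hfg
  rcases S'.eq_empty_or_nonempty with hempty | hne
  · -- everything vanishes
    have h0 : s n = 0 := by
      have h1 : s n ∈ Submodule.span O (Set.range s) := Submodule.subset_span ⟨n, rfl⟩
      rw [hS'span, hempty, Finset.coe_empty, Submodule.span_empty] at h1
      exact (Submodule.mem_bot O).1 h1
    rw [hcoeff, h0, hΛzero]
    exact A.zero_mem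
  obtain ⟨x₀, hx₀S, hmax⟩ := Finset.exists_max_image S' (fun x => A.valuation (Λ x)) hne
  have hle : ∀ x ∈ Submodule.span O (Set.range s),
      A.valuation (Λ x) ≤ A.valuation (Λ x₀) := by
    intro x hx
    rw [hS'span] at hx
    induction hx using Submodule.span_induction with
    | mem x hx => exact hmax x hx
    | zero => rw [hΛzero, map_zero]; exact zero_le
    | add x y _ _ hx hy =>
      rw [hΛadd]
      exact (A.valuation.map_add _ _).trans (max_le hx hy)
    | smul o x _ hx =>
      rw [hΛsmul, map_mul]
      calc A.valuation ((φ o : A) : L) * A.valuation (Λ x)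
          ≤ 1 * A.valuation (Λ x) :=
            mul_le_mul' ((A.valuation_le_one_iff _).2 (φ o).2) le_rfl
        _ = A.valuation (Λ x) := one_mul _
        _ ≤ _ := hx
  obtain ⟨n₀, hn₀⟩ : x₀ ∈ Set.range s := hS'sub hx₀S
  set c : L := Λ x₀ with hc
  have hlen : ∀ n, A.valuation (g.coeff n) ≤ A.valuation c := fun n => by
    rw [hcoeff]
    exact hle _ (Submodule.subset_span ⟨n, rfl⟩)
  by_cases hc0 : c = 0
  · have h1 := hlen n
    rw [hc0, map_zero] at h1
    have h2 : g.coeff n = 0 := (Valuation.zero_iff _).1 (le_antisymm h1 zero_le)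
    rw [h2]
    exact A.zero_mem
  have hr : ∀ n, g.coeff n / c ∈ A := by
    intro n
    rw [← A.valuation_le_one_iff, map_div₀]
    exact div_le_one_of_le₀ (hlen n) zero_le
  let g₀ : LaurentSeries A := hahnOfFunA g (fun n => (⟨g.coeff n / c, hr n⟩ : A))
    (fun n hn => Subtype.ext (by show g.coeff n / c = 0; rw [hn, zero_div]))
  have hgg₀ : g = HahnSeries.C c * aIota A g₀ := by
    apply HahnSeries.ext
    funext n
    rw [HahnSeries.C_mul_eq_smul, HahnSeries.coeff_smul, aIota_coeff, smul_eq_mul]
    show g.coeff n = c * (g.coeff n / c)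
    field_simp
  have hred : aRed π g₀ ≠ 0 := by
    intro h
    have h1 := congrArg (fun x => x.coeff n₀) h
    simp only [aRed_coeff, HahnSeries.coeff_zero] at h1
    have h2 : g₀.coeff n₀ = 1 := by
      apply Subtype.ext
      show g.coeff n₀ / c = 1
      rw [hcoeff, hn₀]
      exact div_self hc0
    rw [h2, map_one] at h1
    exact one_ne_zero h1
  have hcont : HasContent A π g (c * 1) := by
    rw [hgg₀]
    exact (hasContent_aIota A π hred).C_mul hc0
  have hcA : c * 1 ∈ A := (hcont.mem_gaussRingA_iff hπ).1 hg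
  rw [mul_one] at hcA
  have h3 : g.coeff n = (g.coeff n / c) * c := by field_simp
  rw [h3]
  exact A.mul_mem _ _ (hr n) hcA

end BS

section Bar

variable {L : Type*} [Field L] [Algebra ℚ L] (A : ValuationSubring L)
variable [Algebra.IsAlgebraic ℚ L] {k : Type*} [Field k] (π : A →+* k)

/-- **B1.COMPARE, generic form.** The Gauss unit ball of a finite-dimensional `L`-subspace of
`F̄_N` is bounded in coordinates. -/
theorem compare_bar (hπ : ∀ a : A, a ∈ IsLocalRing.maximalIdeal A → π a = 0)
    (N : ℕ) [NeZero N] {ℓ : ℕ} (hℓ : ℓ ≠ 0) (hA : A.LiesOverPrime ℓ) {m : ℕ}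
    (v : Fin m → laurentBaseChange L (modularFunctionFieldFull N))
    (hv : LinearIndependent L v) :
    ∃ c : L, c ≠ 0 ∧ ∀ a : Fin m → L,
      (∑ i, a i • v i) ∈ gaussValBar A π N hℓ hA → ∀ i, c * a i ∈ A := by
  classical
  have hex := fun i =>
    exists_finiteDimensional_mem_barOver (modularFunctionFieldFull N) (v i).2
  choose K hK hvK using hex
  haveI := hK
  let K' : IntermediateField ℚ L := ⨆ i, K i
  haveI : FiniteDimensional ℚ K' := IntermediateField.finiteDimensional_iSup_of_finite
  haveI := locK_isDVR A K' hℓ hA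
  have hle : barOver (modularFunctionFieldFull N) K' ≤ fracFieldOver A (locKToA A K') := by
    rw [barOver, Subfield.closure_le]
    rintro y (⟨c, hc, rfl⟩ | ⟨z, hz, rfl⟩)
    · exact C_mem_fracFieldOver_locK A K' ⟨c, hc⟩
    · exact coeffEmb_mem_fracFieldOver A (locKToA A K') N hz
  have hfrac : ∀ i, ((v i : laurentBaseChange L (modularFunctionFieldFull N)) : LaurentSeries L) ∈
      fracFieldOver A (locKToA A K') := fun i =>
    hle (barOver_mono _ (le_iSup K i) (hvK i))
  choose s t hst using fun i => (mem_fracFieldOver_iff A _).1 (hfrac i)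
  have hv0 : ∀ i, ((v i : laurentBaseChange L (modularFunctionFieldFull N)) : LaurentSeries L) ≠ 0 :=
    fun i h => hv.ne_zero i (Subtype.ext h)
  have ht0 : ∀ i, oIota A (locKToA A K') (t i) ≠ 0 := by
    intro i h
    have := hst i
    rw [h, div_zero] at this
    exact hv0 i this.symm
  let T : LaurentSeries (locK A K') := ∏ i, t i
  let σ : Fin m → LaurentSeries (locK A K') := fun i => s i * ∏ j ∈ Finset.univ.erase i, t j
  have hT0 : oIota A (locKToA A K') T ≠ 0 := by
    show oIota A (locKToA A K') (∏ i, t i) ≠ 0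
    rw [map_prod]
    exact Finset.prod_ne_zero_iff.2 fun i _ => ht0 i
  have hσ : ∀ i, ((v i : laurentBaseChange L (modularFunctionFieldFull N)) : LaurentSeries L) *
      oIota A (locKToA A K') T = oIota A (locKToA A K') (σ i) := by
    intro i
    show _ * oIota A (locKToA A K') (∏ i, t i) =
      oIota A (locKToA A K') (s i * ∏ j ∈ Finset.univ.erase i, t j)
    rw [← hst i, ← Finset.mul_prod_erase Finset.univ t (Finset.mem_univ i), map_mul, map_mul]
    have := ht0 i
    field_simp
  haveI : IsPrincipalIdealRing (locK A K') := IsDiscreteValuationRing.toIsPrincipalIdealRing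
  haveI : IsNoetherianRing (locK A K') := PrincipalIdealRing.isNoetherianRing
  -- the separating functionals on `F̄_N`: coefficients after multiplication by the denominator
  let ψ : ℤ → laurentBaseChange L (modularFunctionFieldFull N) →ₗ[L] L := fun n =>
    { toFun := fun f => ((f : LaurentSeries L) * oIota A (locKToA A K') T).coeff n
      map_add' := fun f g => by
        rw [IntermediateField.coe_add, add_mul, HahnSeries.coeff_add]
      map_smul' := fun c f => by
        rw [IntermediateField.coe_smul, Algebra.smul_def, algebraMap_laurentSeries_eq_single,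
          ← HahnSeries.C_apply, mul_assoc, HahnSeries.C_mul_eq_smul, HahnSeries.coeff_smul,
          RingHom.id_apply] }
  have hψ : ∀ n f, ψ n f = ((f : LaurentSeries L) * oIota A (locKToA A K') T).coeff n :=
    fun _ _ => rfl
  have hsep : ∀ f : laurentBaseChange L (modularFunctionFieldFull N),
      (∀ n, ψ n f = 0) → f = 0 := by
    intro f hf
    have h1 : (f : LaurentSeries L) * oIota A (locKToA A K') T = 0 :=
      HahnSeries.ext (funext fun n => hf n)
    exact Subtype.ext ((mul_eq_zero.1 h1).resolve_right hT0)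
  obtain ⟨c, hc0, hc⟩ := coord_bound A ψ hsep v hv
  refine ⟨c, hc0, fun a ha => hc a fun n => ?_⟩
  have hser : ((∑ i, a i • v i : laurentBaseChange L (modularFunctionFieldFull N)) :
      LaurentSeries L) * oIota A (locKToA A K') T =
      ∑ i, HahnSeries.C (a i) * oIota A (locKToA A K') (σ i) := by
    rw [IntermediateField.coe_sum, Finset.sum_mul]
    refine Finset.sum_congr rfl fun i _ => ?_
    rw [IntermediateField.coe_smul, Algebra.smul_def, algebraMap_laurentSeries_eq_single,
      ← HahnSeries.C_apply, mul_assoc, hσ i]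
  have hmem : (∑ i, HahnSeries.C (a i) * oIota A (locKToA A K') (σ i)) ∈ gaussRingA A π := by
    rw [← hser]
    exact (gaussRingA A π).mul_mem ha (aIota_mem_gaussRingA A π _)
  rw [hψ, hser]
  exact coeff_mem_of_mem_gaussRingA A π (locKToA A K') hπ σ a hmem n

end Bar

section Qbar

/-- **B1.COMPARE.** For a `ℚ̄`-linearly independent family `v` in `F̄_N = Fb N` there is a
constant `c ≠ 0` such that `c · a i ∈ B` for all coordinates of every Gauss-integral element
`∑ a i • v i` (any level `N`, any `ℓ ≠ 0`, in particular `ℓ ∣ N` is allowed). -/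
theorem compare (N : ℕ) [NeZero N] {ℓ : ℕ} (hℓ : ℓ ≠ 0)
    (B : ValuationSubring (AlgebraicClosure ℚ)) (hB : B.LiesOverPrime ℓ) {m : ℕ}
    (v : Fin m → ↥(modularFunctionFieldBar N))
    (hv : LinearIndependent (AlgebraicClosure ℚ) v) :
    ∃ c : AlgebraicClosure ℚ, c ≠ 0 ∧ ∀ a : Fin m → AlgebraicClosure ℚ,
      (∑ i, a i • v i) ∈ gaussValQbar B N hℓ hB → ∀ i, c * a i ∈ B :=
  haveI := algebraIsAlgebraic_rat_algebraicClosure
  compare_bar B (IsLocalRing.residue B) (residue_eq_zero_of_mem_maximalIdeal B) N hℓ hB v hv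

end Qbar

end Fermat.Agent.BR.GaussCompare
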