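import Fermat.Agent.BR.ConstRedTwoDense
import Fermat.Agent.BR.GaussCompare

/-!
# Program B, block B1: THE DELIVERABLE — the two constant reductions of `F̄_{Mq}` at `q`

For a prime `q ∤ M` and a valuation subring `B ⊂ ℚ̄` over `q`, with `k` the residue field of `B`:

* `constRedW1 B hB hqM`, `constRedW2 B hB hqM :
  Val.ConstRed (F := Fb (M * q)) (Ft := modularFunctionFieldFullC k M) B (residue B)`
  — unconditional (`Dense` from `BR/ConstRedTwoDense`, `Compare` from `BR/GaussCompare`);
* `.O = O1 M B hB` (Gauss valuation at `∞`) resp. `O2 B hB hqM = O1.comap W_q`, residue maps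
  `res1`, `res2 = res1 ∘ W_q` with values in `F̃_M = modularFunctionFieldFullC k M` (surjective),
  constants, and the per-component best approximation property `approx`.

These are the two "big" components of the `SS.SemistableSetup` of `X₀(Mq)` at `q`.
-/

set_option autoImplicit false
set_option linter.unusedSectionVars false
set_option linter.style.haveILetI false

noncomputable section

namespace Fermat.Agent.BR.ConstRedTwo

open ModularCurve AlgebraicCurve Fermat.Agent.X0 Fermat.Agent.Val Fermat.Agent.Hecke.AL
open Fermat.Agent.BR.ValTwo Fermat.Agent.BR.TwoVal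

set_option synthInstance.maxHeartbeats 400000

variable {M q : ℕ} [NeZero M] [hqF : Fact q.Prime]
variable (B : ValuationSubring Kb) (hB : B.LiesOverPrime q) (hqM : ¬ q ∣ M)

/-- **`Compare`** for `w₁` (helper13's `GaussCompare.compare` at level `M * q`). -/
theorem compareOne : haveI : NeZero q := ⟨hqF.out.ne_zero⟩
    Compare (M := M) hqF.out B hB := by
  haveI : NeZero q := ⟨hqF.out.ne_zero⟩
  intro m v hv
  exact GaussCompare.compare (M * q) hqF.out.ne_zero B hB v hv

/-- **The constant reduction `w₁` of `F̄_{Mq}` at `q`** (Gauss valuation of the `q`-expansion at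
`∞`), residue field `F̃_M`. -/
def constRedW1 : ConstRed (F := Fb (M * q))
    (Ft := modularFunctionFieldFullC (IsLocalRing.ResidueField B) M) B (IsLocalRing.residue B) :=
  haveI : NeZero q := ⟨hqF.out.ne_zero⟩
  constRedOne hqM (dense B hB hqM) (compareOne B hB)

/-- **The constant reduction `w₂ = w₁ ∘ W_q` of `F̄_{Mq}` at `q`**, residue field `F̃_M`. -/
def constRedW2 : ConstRed (F := Fb (M * q))
    (Ft := modularFunctionFieldFullC (IsLocalRing.ResidueField B) M) B (IsLocalRing.residue B) :=
  haveI : NeZero q := ⟨hqF.out.ne_zero⟩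
  constRedTwo (coprime_of_not_dvd hqM) hqM (dense B hB hqM) (compareOne B hB)

theorem constRedW1_O : (constRedW1 B hB hqM).O = O1 M B hB := rfl

theorem constRedW2_O : (constRedW2 B hB hqM).O = O2 B hB hqM := rfl

theorem coe_constRedW1_res (x : O1 M B hB) :
    (((constRedW1 B hB hqM).res x : modularFunctionFieldFullC (IsLocalRing.ResidueField B) M) :
      LaurentSeries (IsLocalRing.ResidueField B)) = res1 M B hB x := rfl

theorem coe_constRedW2_res (x : O2 B hB hqM) :
    (((constRedW2 B hB hqM).res x : modularFunctionFieldFullC (IsLocalRing.ResidueField B) M) :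
      LaurentSeries (IsLocalRing.ResidueField B)) = res2 B hB hqM x := rfl

/-- the two valuation rings are different -/
theorem constRedW1_O_ne : (constRedW1 B hB hqM).O ≠ (constRedW2 B hB hqM).O :=
  TwoValInst.O1_ne_O2 B hB hqM

end Fermat.Agent.BR.ConstRedTwo
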