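import Mathlib
import Fermat.Agent.BR.NodeLemma

/-!
# Program B (BADRED), node B2.THICK: crossing points and EXACT thickness from a modular unit

Pure commutative algebra (Mathlib + `BR/NodeLemma` only); findings 'B6 UNIFORM NODE STRUCTURE
(helper23)' section 3 and 'B2 LOCAL NORMAL FORM (helper11)' section 1, additions A and B.

`O` is a local domain (in the application: the local ring `B_n` of the normal model of `X0(qM)` at
a maximal ideal `n` over `q`).  Normality enters ONLY through the predicate `DetectsDvd Ps`: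
divisibility in `O` can be tested at the members of a family `Ps` of prime ideals (for a noetherian
integrally closed domain: `Ps` = the height-one primes, `BR/KrullNormal`).  The members of `Ps`
containing `q` are the VERTICAL ones (`p1`, `p2`), the others are HORIZONTAL (points of the generic
fibre in the tube of `n`).

`T` plays the role of the modular unit `Δ / V(Δ)`: it lies in no horizontal prime (its divisor in
characteristic `0` is cuspidal), `T ∉ p1` (`w₁(T) = 0`), and `T = q ^ m * unit` in `O_{p2}`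
(`w₂(T) = m v(q)`, `m = 12`), encoded as `s * T = t * q ^ m` with `s t ∉ p2`.

* `isUnit_of_forall_not_mem`, `isUnit_of_noncrossing`, `exists_vertical_ne_of_mem_maximalIdeal`
  (ADDITION A): if `p1` is the only vertical prime through `n` then `T` is a unit; so a zero of
  `T̄₁` is a crossing point.
* `UnitData.pow_dvd_pow`: `u v = q ^ n c`  ⟹  `T ^ n ∣ v ^ m`.
* `UnitData.le_of_mul_eq`: hence `n ≤ m` when `T ∈ 𝔪`: the termination bound of the node lemma.
* `UnitData.exists_node`: node lemma with this bound: `u' v' = q ^ e ε`, `1 ≤ e ≤ m`.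
* `UnitData.associated_pow` (ADDITION B): `u v = q ^ e ε`, `ε` a unit  ⟹  `T ^ e ~ v ^ m`.
* `UnitData.addVal_eq`: in the discrete valuation ring `O / p1` (any surjection `π : O → D` with
  kernel `p1`): `e * ord(π T) = m`, i.e. `e_z * ord_z(T̄₁) = 12`.
-/

set_option autoImplicit false

namespace Fermat.Agent.BR.NodeThickness

open IsLocalRing Fermat.Agent.BR.NodeLemma

variable {O : Type*} [CommRing O]

/-- The family `Ps` of ideals DETECTS DIVISIBILITY in `O`: `b ∣ a` as soon as, for every `p ∈ Ps`,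
`b ∣ s * a` for some `s ∉ p` (i.e. `a ∈ b O_p`).  For a noetherian integrally closed domain this
holds with `Ps` = the set of height-one primes. -/
def DetectsDvd (Ps : Set (Ideal O)) : Prop :=
  ∀ a b : O, b ≠ 0 → (∀ p ∈ Ps, ∃ s, s ∉ p ∧ b ∣ s * a) → b ∣ a

/-- an element lying in no member of a divisibility-detecting family is a unit -/
theorem isUnit_of_forall_not_mem {Ps : Set (Ideal O)} (hPs : DetectsDvd Ps) {T : O} (hT0 : T ≠ 0)
    (hT : ∀ p ∈ Ps, T ∉ p) : IsUnit T := by
  have h1 : T ∣ 1 := hPs 1 T hT0 (fun p hp => ⟨T, hT p hp, by simp⟩)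
  exact isUnit_of_dvd_one h1

/-- **ADDITION A** (non-crossing points): if `p1` is the only vertical member of `Ps`, `T ∉ p1` and
`T` lies in no horizontal member, then `T` is a unit of `O`. -/
theorem isUnit_of_noncrossing {Ps : Set (Ideal O)} (hPs : DetectsDvd Ps) {q T : O} {p1 : Ideal O}
    (hvert : ∀ p ∈ Ps, q ∈ p → p = p1) (hT1 : T ∉ p1) (hThor : ∀ p ∈ Ps, q ∉ p → T ∉ p) :
    IsUnit T := by
  have hT0 : T ≠ 0 := fun h => hT1 (h ▸ p1.zero_mem)
  refine isUnit_of_forall_not_mem hPs hT0 (fun p hp => ?_)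
  by_cases hq : q ∈ p
  · rw [hvert p hp hq]; exact hT1
  · exact hThor p hp hq

/-- **ADDITION A** (contrapositive): if `T` is not a unit, a second vertical component passes
through the point: a zero of the reduction of `T` on the first component is a crossing point. -/
theorem exists_vertical_ne_of_not_isUnit {Ps : Set (Ideal O)} (hPs : DetectsDvd Ps) {q T : O}
    {p1 : Ideal O} (hT1 : T ∉ p1) (hThor : ∀ p ∈ Ps, q ∉ p → T ∉ p) (hT : ¬ IsUnit T) :
    ∃ p ∈ Ps, q ∈ p ∧ p ≠ p1 := by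
  by_contra hcon
  refine hT (isUnit_of_noncrossing hPs (fun p hp hq => ?_) hT1 hThor)
  by_contra hne
  exact hcon ⟨p, hp, hq, hne⟩

theorem exists_vertical_ne_of_mem_maximalIdeal [IsLocalRing O] {Ps : Set (Ideal O)}
    (hPs : DetectsDvd Ps) {q T : O} {p1 : Ideal O} (hT1 : T ∉ p1)
    (hThor : ∀ p ∈ Ps, q ∉ p → T ∉ p) (hT : T ∈ maximalIdeal O) :
    ∃ p ∈ Ps, q ∈ p ∧ p ≠ p1 :=
  exists_vertical_ne_of_not_isUnit hPs hT1 hThor ((IsLocalRing.mem_maximalIdeal T).mp hT)

variable [IsLocalRing O]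

/-- in transversal crossing data with `p1` not maximal, `v ∉ p1` -/
theorem not_mem_p1_of_nodeData {q u v : O} {p1 p2 : Ideal O} (h : NodeData q u v p1 p2)
    (hp1m : p1 ≠ maximalIdeal O) : v ∉ p1 := by
  intro hv
  apply hp1m
  rw [h.max1]
  exact (sup_eq_left.mpr ((Ideal.span_singleton_le_iff_mem p1).mpr hv)).symm

/-- in transversal crossing data with `p2` not maximal, `u ∉ p2` -/
theorem not_mem_p2_of_nodeData {q u v : O} {p1 p2 : Ideal O} (h : NodeData q u v p1 p2)
    (hp2m : p2 ≠ maximalIdeal O) : u ∉ p2 :=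
  not_mem_p1_of_nodeData h.symm hp2m

/-- The modular-unit data at a crossing point: `Ps` detects divisibility, its vertical members are
`p1`, `p2` (prime, not maximal), and `T` has `w₁(T) = 0`, no horizontal zero, `w₂(T) = m v(q)`. -/
structure UnitData (Ps : Set (Ideal O)) (q T : O) (p1 p2 : Ideal O) (m : ℕ) : Prop where
  detects : DetectsDvd Ps
  prime_of_mem : ∀ p ∈ Ps, p.IsPrime
  vertical : ∀ p ∈ Ps, q ∈ p → p = p1 ∨ p = p2
  hp1 : p1.IsPrime
  hp2 : p2.IsPrime
  hp1m : p1 ≠ maximalIdeal O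
  hp2m : p2 ≠ maximalIdeal O
  not_mem_p1 : T ∉ p1
  horizontal : ∀ p ∈ Ps, q ∉ p → T ∉ p
  at_p2 : ∃ s t : O, s ∉ p2 ∧ t ∉ p2 ∧ s * T = t * q ^ m

namespace UnitData

variable [IsDomain O] {Ps : Set (Ideal O)} {q T u v : O} {p1 p2 : Ideal O} {m : ℕ}

omit [IsDomain O] in
theorem T_ne_zero (D : UnitData Ps q T p1 p2 m) : T ≠ 0 :=
  fun h => D.not_mem_p1 (h ▸ p1.zero_mem)

/-- `u v = q ^ n c`  ⟹  `T ^ n ∣ v ^ m` (the quotient `v ^ m / T ^ n` has `w₁ = 0`, `w₂ ≥ 0` and
no horizontal pole, so it lies in `O` by normality). -/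
theorem pow_dvd_pow (D : UnitData Ps q T p1 p2 m) (h : NodeData q u v p1 p2) {n : ℕ} {c : O}
    (huv : u * v = q ^ n * c) : T ^ n ∣ v ^ m := by
  have hp1 := D.hp1
  have hp2 := D.hp2
  refine D.detects (v ^ m) (T ^ n) (pow_ne_zero n D.T_ne_zero) (fun p hp => ?_)
  have hpp : p.IsPrime := D.prime_of_mem p hp
  by_cases hq : q ∈ p
  · rcases D.vertical p hp hq with rfl | rfl
    · exact ⟨T ^ n, fun hmem => D.not_mem_p1 (hp1.mem_of_pow_mem n hmem), dvd_mul_right _ _⟩
    · obtain ⟨s, t, _, ht, hsT⟩ := D.at_p2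
      have hu : u ∉ p := not_mem_p2_of_nodeData h D.hp2m
      refine ⟨t ^ n * u ^ m, ?_, ⟨s ^ n * c ^ m, ?_⟩⟩
      · intro hmem
        rcases hp2.mem_or_mem hmem with h1 | h1
        · exact ht (hp2.mem_of_pow_mem n h1)
        · exact hu (hp2.mem_of_pow_mem m h1)
      · calc t ^ n * u ^ m * v ^ m = t ^ n * (u * v) ^ m := by ring
          _ = t ^ n * (q ^ n * c) ^ m := by rw [huv]
          _ = (t * q ^ m) ^ n * c ^ m := by ring
          _ = (s * T) ^ n * c ^ m := by rw [hsT]
          _ = T ^ n * (s ^ n * c ^ m) := by ring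
  · exact ⟨T ^ n, fun hmem => D.horizontal p hp hq (hpp.mem_of_pow_mem n hmem), dvd_mul_right _ _⟩

/-- **the termination bound of the node lemma**: if `T` vanishes at the point (`T ∈ 𝔪`) then
`u v = q ^ n c` forces `n ≤ m`. -/
theorem le_of_mul_eq (D : UnitData Ps q T p1 p2 m) (hT : T ∈ maximalIdeal O)
    (h : NodeData q u v p1 p2) {n : ℕ} {c : O} (huv : u * v = q ^ n * c) : n ≤ m := by
  by_contra hnm
  obtain ⟨d, rfl⟩ := Nat.exists_eq_add_of_lt (Nat.lt_of_not_le hnm)
  obtain ⟨k, hk⟩ := D.pow_dvd_pow h huv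
  have hp1 := D.hp1
  have hv1 : v ∉ p1 := not_mem_p1_of_nodeData h D.hp1m
  -- `T = p + a v` with `p ∈ p1`
  have hT' : T ∈ p1 ⊔ Ideal.span {v} := by rw [← h.max1]; exact hT
  obtain ⟨p, hpp, w, hw, hpw⟩ := Submodule.mem_sup.mp hT'
  obtain ⟨a, rfl⟩ := Ideal.mem_span_singleton'.mp hw
  -- `T ^ n - (a v) ^ n ∈ p1`
  have hsub : T ^ (m + d + 1) - (a * v) ^ (m + d + 1) ∈ p1 := by
    have hdiv : T - a * v ∣ T ^ (m + d + 1) - (a * v) ^ (m + d + 1) := sub_dvd_pow_sub_pow _ _ _
    have hmem : T - a * v ∈ p1 := by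
      have : T - a * v = p := by rw [← hpw]; ring
      rw [this]; exact hpp
    exact Ideal.mem_of_dvd p1 hdiv hmem
  -- hence `v ^ m * (1 - a ^ n v ^ (d+1) k) ∈ p1`
  have hmem : v ^ m * (1 - a ^ (m + d + 1) * v ^ (d + 1) * k) ∈ p1 := by
    have e1 : v ^ m * (1 - a ^ (m + d + 1) * v ^ (d + 1) * k) =
        (T ^ (m + d + 1) - (a * v) ^ (m + d + 1)) * k := by
      have : v ^ m * (1 - a ^ (m + d + 1) * v ^ (d + 1) * k) =
          v ^ m - (a * v) ^ (m + d + 1) * k := by ring
      rw [this, hk]; ring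
    rw [e1]; exact p1.mul_mem_right k hsub
  have h1 : 1 - a ^ (m + d + 1) * v ^ (d + 1) * k ∈ p1 := by
    rcases hp1.mem_or_mem hmem with h2 | h2
    · exact absurd (hp1.mem_of_pow_mem m h2) hv1
    · exact h2
  have h2 : a ^ (m + d + 1) * v ^ (d + 1) * k ∈ maximalIdeal O := by
    have hvm : v ^ (d + 1) ∈ maximalIdeal O := by
      rw [pow_succ]; exact (maximalIdeal O).mul_mem_left _ h.v_mem_maximalIdeal
    exact (maximalIdeal O).mul_mem_right k ((maximalIdeal O).mul_mem_left _ hvm)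
  have h3 : (1 : O) ∈ maximalIdeal O := by
    have : (1 : O) = (1 - a ^ (m + d + 1) * v ^ (d + 1) * k) + a ^ (m + d + 1) * v ^ (d + 1) * k := by
      ring
    rw [this]
    exact (maximalIdeal O).add_mem (h.p1_le_maximalIdeal h1) h2
  exact (Ideal.ne_top_iff_one _).mp (IsLocalRing.maximalIdeal.isMaximal O).ne_top h3

/-- **NODE LEMMA with the modular-unit bound**: at a crossing point where `T` vanishes there are
`u' ≡ u`, `v' ≡ v (mod q)` with `u' v' = q ^ e ε`, `ε` a unit, `1 ≤ e ≤ m`. -/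
theorem exists_node (D : UnitData Ps q T p1 p2 m) (hT : T ∈ maximalIdeal O)
    (h : NodeData q u v p1 p2) (hq : q ≠ 0) :
    ∃ (e : ℕ) (u' v' ε : O), 1 ≤ e ∧ e ≤ m ∧ NodeData q u' v' p1 p2 ∧
      u' - u ∈ Ideal.span {q} ∧ v' - v ∈ Ideal.span {q} ∧ IsUnit ε ∧ u' * v' = q ^ e * ε :=
  h.exists_unit hq m (fun _ _ _ _ hN hc => D.le_of_mul_eq hT hN hc)

/-- **ADDITION B** (exact thickness): `u v = q ^ e ε` with `ε` a unit  ⟹  `T ^ e` and `v ^ m`
are associated in `O`. -/
theorem associated_pow (D : UnitData Ps q T p1 p2 m) (h : NodeData q u v p1 p2) {e : ℕ} {ε : O}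
    (hε : IsUnit ε) (huv : u * v = q ^ e * ε) : Associated (T ^ e) (v ^ m) := by
  have hp1 := D.hp1
  have hp2 := D.hp2
  have hv1 : v ∉ p1 := not_mem_p1_of_nodeData h D.hp1m
  have hv0 : v ≠ 0 := fun h0 => hv1 (h0 ▸ p1.zero_mem)
  refine associated_of_dvd_dvd (D.pow_dvd_pow h huv) ?_
  refine D.detects (T ^ e) (v ^ m) (pow_ne_zero m hv0) (fun p hp => ?_)
  have hpp : p.IsPrime := D.prime_of_mem p hp
  by_cases hq : q ∈ p
  · rcases D.vertical p hp hq with rfl | rfl
    · exact ⟨v ^ m, fun hmem => hv1 (hp1.mem_of_pow_mem m hmem), dvd_mul_right _ _⟩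
    · obtain ⟨s, t, hs, _, hsT⟩ := D.at_p2
      obtain ⟨ε', hε'⟩ := hε.exists_right_inv
      refine ⟨s ^ e, fun hmem => hs (hp2.mem_of_pow_mem e hmem), ⟨t ^ e * u ^ m * ε' ^ m, ?_⟩⟩
      calc s ^ e * T ^ e = (s * T) ^ e := by ring
        _ = (t * q ^ m) ^ e := by rw [hsT]
        _ = t ^ e * (q ^ e * (ε * ε')) ^ m := by rw [hε']; ring
        _ = t ^ e * (q ^ e * ε) ^ m * ε' ^ m := by ring
        _ = t ^ e * (u * v) ^ m * ε' ^ m := by rw [huv]
        _ = v ^ m * (t ^ e * u ^ m * ε' ^ m) := by ring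
  · refine ⟨v ^ m, fun hmem => ?_, dvd_mul_right _ _⟩
    have hvp : v ∈ p := hpp.mem_of_pow_mem m hmem
    have h1 : q ^ e * ε ∈ p := by rw [← huv]; exact p.mul_mem_left u hvp
    rcases hpp.mem_or_mem h1 with h2 | h2
    · exact hq (hpp.mem_of_pow_mem e h2)
    · exact hpp.ne_top (Ideal.eq_top_of_isUnit_mem p h2 hε)

omit [IsDomain O] in
/-- the image of `v` under a surjection `π : O → D` with kernel `p1` generates the maximal ideal
of `D`; for a discrete valuation ring `D` it is a uniformizer. -/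
theorem irreducible_map {D' : Type*} [CommRing D'] [IsDomain D'] [IsDiscreteValuationRing D']
    (h : NodeData q u v p1 p2) (π : O →+* D') (hπ : Function.Surjective π)
    (hker : RingHom.ker π = p1) : Irreducible (π v) := by
  rw [IsDiscreteValuationRing.irreducible_iff_uniformizer]
  apply le_antisymm
  · intro x hx
    obtain ⟨y, rfl⟩ := hπ x
    have hy : y ∈ maximalIdeal O := by
      rw [IsLocalRing.mem_maximalIdeal] at hx ⊢
      exact fun hu => hx (hu.map π)
    rw [h.max1] at hy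
    obtain ⟨p, hp, w, hw, rfl⟩ := Submodule.mem_sup.mp hy
    obtain ⟨a, rfl⟩ := Ideal.mem_span_singleton'.mp hw
    have hp0 : π p = 0 := by rw [← RingHom.mem_ker, hker]; exact hp
    rw [map_add, hp0, zero_add, map_mul]
    exact Ideal.mul_mem_left _ _ (Ideal.mem_span_singleton_self _)
  · rw [Ideal.span_singleton_le_iff_mem, IsLocalRing.mem_maximalIdeal]
    intro hu
    obtain ⟨w, hw⟩ := hπ (↑(hu.unit⁻¹) : D')
    have h1 : π (v * w - 1) = 0 := by
      rw [map_sub, map_mul, hw, map_one, IsUnit.mul_val_inv, sub_self]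
    have h2 : v * w - 1 ∈ p1 := by rw [← hker]; exact h1
    have h3 : (1 : O) ∈ maximalIdeal O := by
      have : (1 : O) = v * w - (v * w - 1) := by ring
      rw [this]
      exact (maximalIdeal O).sub_mem ((maximalIdeal O).mul_mem_right w h.v_mem_maximalIdeal)
        (h.p1_le_maximalIdeal h2)
    exact (Ideal.ne_top_iff_one _).mp (IsLocalRing.maximalIdeal.isMaximal O).ne_top h3

/-- **ADDITION B, valuation form**: `e_z * ord_z(T̄₁) = m` in the discrete valuation ring
`D' = O / p1`. -/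
theorem addVal_eq {D' : Type*} [CommRing D'] [IsDomain D'] [IsDiscreteValuationRing D']
    (D : UnitData Ps q T p1 p2 m) (h : NodeData q u v p1 p2) {e : ℕ} {ε : O}
    (hε : IsUnit ε) (huv : u * v = q ^ e * ε) (π : O →+* D') (hπ : Function.Surjective π)
    (hker : RingHom.ker π = p1) :
    (e : ℕ∞) * IsDiscreteValuationRing.addVal D' (π T) = m := by
  have hirr : Irreducible (π v) := irreducible_map h π hπ hker
  have hass : Associated (π T ^ e) (π v ^ m) := by
    have := (D.associated_pow h hε huv).map π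
    simpa [map_pow] using this
  have h1 : IsDiscreteValuationRing.addVal D' (π T ^ e) =
      IsDiscreteValuationRing.addVal D' (π v ^ m) :=
    le_antisymm (IsDiscreteValuationRing.addVal_le_iff_dvd.mpr hass.dvd)
      (IsDiscreteValuationRing.addVal_le_iff_dvd.mpr hass.symm.dvd)
  rw [AddValuation.map_pow, AddValuation.map_pow,
    IsDiscreteValuationRing.addVal_uniformizer hirr] at h1
  simpa using h1

/-- **ADDITION B, integer form**: `ord_z(T̄₁) = k` is finite and `e * k = m`. -/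
theorem exists_ord_eq {D' : Type*} [CommRing D'] [IsDomain D'] [IsDiscreteValuationRing D']
    (D : UnitData Ps q T p1 p2 m) (h : NodeData q u v p1 p2) {e : ℕ} (he : 1 ≤ e) {ε : O}
    (hε : IsUnit ε) (huv : u * v = q ^ e * ε) (π : O →+* D') (hπ : Function.Surjective π)
    (hker : RingHom.ker π = p1) :
    ∃ k : ℕ, IsDiscreteValuationRing.addVal D' (π T) = k ∧ e * k = m := by
  have h1 := D.addVal_eq h hε huv π hπ hker
  cases hx : IsDiscreteValuationRing.addVal D' (π T) with
  | top =>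
    rw [hx] at h1
    have he0 : (e : ℕ∞) ≠ 0 := by
      simp only [ne_eq, Nat.cast_eq_zero]; omega
    rw [ENat.mul_top he0] at h1
    exact absurd h1 (ENat.top_ne_natCast m)
  | coe k =>
    rw [hx] at h1
    refine ⟨k, rfl, ?_⟩
    exact_mod_cast h1

end UnitData

end Fermat.Agent.BR.NodeThickness
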