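import Mathlib
import Fermat.Agent.BR.KrullNormal
import Fermat.Agent.BR.NodeLemma
import Fermat.Agent.BR.NodeThickness

/-!
# Program B (BADRED), block B6, node B6.5a: the abstract two-component special fibre

Pure commutative algebra (Mathlib + `BR/KrullNormal` + `BR/NodeLemma` + `BR/NodeThickness`);
finding 'B6 UNIFORM NODE STRUCTURE (helper23)', sections 1(a),(b),(d), 2-CONSEQUENCE, 3(i)-(ii):
everything that does not mention modular curves.

`B` is a noetherian integrally closed domain (the normal model: the integral closure of `W[j]` in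
the function field of `X₀(qM)`), `q ∈ B`, and `p1 p2` are the height-one primes over `q`
(the centres of the two extensions `w₁ w₂` of the Gauss valuation), `q` being a uniformizer at
both (`e = 1`): this is the structure `TwoComponents q p1 p2`.

* global: `inf_eq : p1 ⊓ p2 = (q)`; `le_or_le`: a prime containing `q` contains `p1` or `p2`;
  `height_p1`; `regularAt_of_components` (an element of `Frac B` which is regular at `p1`, `p2`
  and at the horizontal height-one primes through `n` lies in `B_n`); `le_of_mem` (ADDITION A: a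
  zero of the modular unit `T` on the first component is a crossing point).
* local, in `O = B_n` (any `IsLocalization.AtPrime O n`): `map_inf_eq`; at a SMOOTH point
  (`¬ p2 ≤ n`) `smooth_point`: `q O` is prime and `𝔪 = (q, t)`, in the form consumed by
  `DiscUP.disc_UP`; at a CROSSING point `nodeData`: helper5's `NodeData` from transversal
  `u ∈ p1`, `v ∈ p2`; `unitData`: helper11's `UnitData` from `T T' = q ^ m`, `T ∉ p1`, `T' ∉ p2`;
  `exists_node`: `u' v' = q ^ e ε`, `1 ≤ e ≤ m`.
* Dedekind components: `transversal_of_notMem_sq`, `exists_transversal`, `exists_smooth_point`.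
* `detectsDvd_height_one`: the bridge `KrullNormal` ⟹ `NodeThickness.DetectsDvd`.
* `surjective_of_isIntegral_of_fraction` ((1b): `B_M/q → B/p_i` is onto).
-/

set_option autoImplicit false

namespace Fermat.Agent.BR.SpecialFibre

open IsLocalRing Fermat.Agent.BR.NodeLemma Fermat.Agent.BR.NodeThickness

/-- height-one primes of a noetherian normal domain detect divisibility -/
theorem detectsDvd_height_one (O : Type*) [CommRing O] [IsDomain O] [IsNoetherianRing O]
    [IsIntegrallyClosed O] : DetectsDvd {p : Ideal O | p.IsPrime ∧ p.height = 1} := by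
  intro a b hb h
  exact KrullNormal.dvd_of_forall_height_one hb (fun p hp hp1 _ => h p ⟨hp, hp1⟩)

/-! ### Dedekind domains: local generators -/

/-- in a Dedekind domain, an element of `m ∖ m²` generates `m` locally at `m` -/
theorem local_generator_of_notMem_sq {D : Type*} [CommRing D] [IsDedekindDomain D] (m : Ideal D)
    {t : D} (htm : t ∈ m) (ht2 : t ∉ m ^ 2) : ∀ x ∈ m, ∃ s, s ∉ m ∧ t ∣ s * x := by
  have hle : Ideal.span {t} ≤ m := (Ideal.span_singleton_le_iff_mem m).mpr htm
  obtain ⟨I, hI⟩ := Ideal.dvd_iff_le.mpr hle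
  have hInm : ¬ I ≤ m := by
    intro hIm
    apply ht2
    have : Ideal.span {t} ≤ m ^ 2 := by
      rw [hI, pow_two]; exact Ideal.mul_mono_right hIm
    exact this (Ideal.mem_span_singleton_self t)
  obtain ⟨s, hsI, hsm⟩ := Set.not_subset.mp hInm
  intro x hx
  refine ⟨s, hsm, ?_⟩
  have : s * x ∈ Ideal.span {t} := by
    rw [hI, mul_comm s x]; exact Ideal.mul_mem_mul hx hsI
  exact Ideal.mem_span_singleton.mp this

/-- in a Dedekind domain a nonzero prime is locally principal -/
theorem exists_local_generator {D : Type*} [CommRing D] [IsDedekindDomain D] (m : Ideal D)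
    [m.IsPrime] (hm : m ≠ ⊥) : ∃ t ∈ m, ∀ x ∈ m, ∃ s, s ∉ m ∧ t ∣ s * x := by
  have hlt : m ^ 2 < m := by
    have := Ideal.pow_succ_lt_pow hm 1
    simpa using this
  obtain ⟨t, htm, ht2⟩ := Set.exists_of_ssubset hlt
  exact ⟨t, htm, local_generator_of_notMem_sq m htm ht2⟩

section Quotient

variable {B : Type*} [CommRing B]

/-- transversality from the quotient: if `B ⧸ p1` is Dedekind, `v ∈ n` and `v ∉ p1 + n²`, then `v`
generates `n` modulo `p1`, locally at `n`. -/
theorem transversal_of_notMem_sq (p1 n : Ideal B) [IsDedekindDomain (B ⧸ p1)]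
    {v : B} (hv : v ∈ n) (hv2 : v ∉ p1 ⊔ n ^ 2) :
    ∀ x ∈ n, ∃ s, s ∉ n ∧ s * x ∈ p1 ⊔ Ideal.span {v} := by
  classical
  set π := Ideal.Quotient.mk p1 with hπ
  have hsurj : Function.Surjective π := Ideal.Quotient.mk_surjective
  set m : Ideal (B ⧸ p1) := n.map π with hm
  have hvm : π v ∈ m := Ideal.mem_map_of_mem π hv
  have hv2' : π v ∉ m ^ 2 := by
    intro hmem
    rw [hm, ← Ideal.map_pow] at hmem
    obtain ⟨y, hy, hyv⟩ := (Ideal.mem_map_iff_of_surjective π hsurj).mp hmem
    apply hv2
    have h1 : v - y ∈ p1 := by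
      rw [← Ideal.Quotient.eq_zero_iff_mem, map_sub, hyv, sub_self]
    have : v = (v - y) + y := by ring
    rw [this]
    exact Submodule.add_mem_sup h1 hy
  have hgen := local_generator_of_notMem_sq m hvm hv2'
  intro x hx
  obtain ⟨sbar, hsbar, c, hc⟩ := hgen (π x) (Ideal.mem_map_of_mem π hx)
  obtain ⟨s, rfl⟩ := hsurj sbar
  obtain ⟨c, rfl⟩ := hsurj c
  refine ⟨s, fun hs => hsbar (Ideal.mem_map_of_mem π hs), ?_⟩
  have h1 : s * x - v * c ∈ p1 := by
    rw [← Ideal.Quotient.eq_zero_iff_mem, map_sub, map_mul, map_mul, hc, sub_self]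
  have : s * x = (s * x - v * c) + c * v := by ring
  rw [this]
  exact Submodule.add_mem_sup h1 (Ideal.mul_mem_left _ c (Ideal.mem_span_singleton_self v))

/-- existence of a local parameter at a point of a Dedekind component -/
theorem exists_transversal (p1 n : Ideal B) [n.IsPrime] [IsDedekindDomain (B ⧸ p1)]
    (hp1 : p1 ≤ n) (hne : p1 ≠ n) :
    ∃ t ∈ n, ∀ x ∈ n, ∃ s, s ∉ n ∧ s * x ∈ p1 ⊔ Ideal.span {t} := by
  classical
  set π := Ideal.Quotient.mk p1 with hπ
  have hsurj : Function.Surjective π := Ideal.Quotient.mk_surjective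
  have hker : RingHom.ker π ≤ n := by rw [Ideal.mk_ker]; exact hp1
  have hmprime : (n.map π).IsPrime := Ideal.map_isPrime_of_surjective hsurj hker
  have hmbot : n.map π ≠ ⊥ := by
    intro hbot
    apply hne
    apply le_antisymm hp1
    intro x hx
    have : π x ∈ n.map π := Ideal.mem_map_of_mem π hx
    rw [hbot, Ideal.mem_bot, Ideal.Quotient.eq_zero_iff_mem] at this
    exact this
  have hlt : (n.map π) ^ 2 < n.map π := by
    have := Ideal.pow_succ_lt_pow hmbot 1
    simpa using this
  obtain ⟨tbar, htm, ht2⟩ := Set.exists_of_ssubset hlt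
  obtain ⟨t, htn, rfl⟩ := (Ideal.mem_map_iff_of_surjective π hsurj).mp htm
  refine ⟨t, htn, transversal_of_notMem_sq p1 n htn ?_⟩
  intro hmem
  apply ht2
  obtain ⟨a, ha, b, hb, rfl⟩ := Submodule.mem_sup.mp hmem
  have : π (a + b) = π b := by
    rw [map_add, Ideal.Quotient.eq_zero_iff_mem.mpr ha, zero_add]
  rw [SetLike.mem_coe, this, ← Ideal.map_pow]
  exact Ideal.mem_map_of_mem π hb

end Quotient

/-- (1b): an integral extension of a normal domain inside its fraction field is trivial -/
theorem surjective_of_isIntegral_of_fraction {C D : Type*} [CommRing C] [IsDomain C]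
    [IsIntegrallyClosed C] [CommRing D] [IsDomain D] (f : C →+* D) (hf : Function.Injective f)
    (hint : f.IsIntegral) (hfrac : ∀ d : D, ∃ a b : C, b ≠ 0 ∧ f b * d = f a) :
    Function.Surjective f := by
  intro d
  obtain ⟨a, b, hb, hab⟩ := hfrac d
  obtain ⟨P, hPmonic, hPd⟩ := hint d
  set K := FractionRing C with hK
  set L := FractionRing D with hL
  have hinjC : Function.Injective (algebraMap C K) := IsFractionRing.injective C K
  have hinjD : Function.Injective (algebraMap D L) := IsFractionRing.injective D L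
  let g : K →+* L := IsFractionRing.lift (A := C) (K := K) (g := (algebraMap D L).comp f)
    (hinjD.comp hf)
  have hg : ∀ c : C, g (algebraMap C K c) = algebraMap D L (f c) := by
    intro c
    simp [g, IsFractionRing.lift_algebraMap]
  have hfb : algebraMap D L (f b) ≠ 0 := by
    intro h0
    have : f b = 0 := hinjD (by rw [h0, map_zero])
    exact hb (hf (by rw [this, map_zero]))
  have hgx : g (algebraMap C K a / algebraMap C K b) = algebraMap D L d := by
    rw [map_div₀, hg, hg, ← hab, map_mul, mul_div_assoc, mul_div_cancel₀ _ hfb]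
  have hintx : IsIntegral C (algebraMap C K a / algebraMap C K b) := by
    refine ⟨P, hPmonic, ?_⟩
    apply g.injective
    have hcomp : g.comp (algebraMap C K) = (algebraMap D L).comp f := by
      ext c; exact hg c
    rw [map_zero, Polynomial.hom_eval₂, hgx, hcomp, ← Polynomial.hom_eval₂, hPd, map_zero]
  obtain ⟨c, hc⟩ := IsIntegrallyClosed.isIntegral_iff.mp hintx
  refine ⟨c, ?_⟩
  apply hinjD
  rw [← hg, hc, hgx]

/-! ### Localisation at a prime: generalities -/

section LocalGeneral

variable {B : Type*} [CommRing B] (n : Ideal B) [n.IsPrime] (O : Type*) [CommRing O] [Algebra B O]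
  [IsLocalization.AtPrime O n]

theorem isUnit_algebraMap_of_notMem {s : B} (hs : s ∉ n) : IsUnit (algebraMap B O s) :=
  IsLocalization.map_units O (⟨s, hs⟩ : n.primeCompl)

/-- `I ≤ n` and `n = I + (t)` locally at `n`  ⟹  `𝔪_O = I O + (t)` -/
theorem maximalIdeal_eq_map_sup_span [IsLocalRing O] {I : Ideal B} {t : B} (hI : I ≤ n)
    (htn : t ∈ n) (ht : ∀ x ∈ n, ∃ s, s ∉ n ∧ s * x ∈ I ⊔ Ideal.span {t}) :
    maximalIdeal O = I.map (algebraMap B O) ⊔ Ideal.span {algebraMap B O t} := by
  rw [← IsLocalization.AtPrime.map_eq_maximalIdeal n O]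
  have hspan : Ideal.span {algebraMap B O t} = (Ideal.span {t}).map (algebraMap B O) := by
    rw [Ideal.map_span, Set.image_singleton]
  rw [hspan, ← Ideal.map_sup]
  apply le_antisymm
  · rw [Ideal.map_le_iff_le_comap]
    intro x hx
    obtain ⟨s, hs, hsx⟩ := ht x hx
    rw [Ideal.mem_comap]
    have h1 : algebraMap B O (s * x) ∈ (I ⊔ Ideal.span {t}).map (algebraMap B O) :=
      Ideal.mem_map_of_mem _ hsx
    rw [map_mul] at h1
    exact (Ideal.unit_mul_mem_iff_mem _ (isUnit_algebraMap_of_notMem n O hs)).mp h1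
  · apply Ideal.map_mono
    exact sup_le hI ((Ideal.span_singleton_le_iff_mem n).mpr htn)

theorem algebraMap_notMem_map {I : Ideal B} [hI : I.IsPrime] (hIn : I ≤ n) {x : B} (hx : x ∉ I) :
    algebraMap B O x ∉ I.map (algebraMap B O) := by
  rw [IsLocalization.algebraMap_mem_map_algebraMap_iff n.primeCompl O]
  rintro ⟨s, hs, hsx⟩
  rcases hI.mem_or_mem hsx with h1 | h1
  · exact hs (hIn h1)
  · exact hx h1

theorem disjoint_primeCompl_of_le {I : Ideal B} (hIn : I ≤ n) :
    Disjoint (n.primeCompl : Set B) (I : Set B) :=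
  Set.disjoint_left.mpr fun _ hx hxI => hx (hIn hxI)

theorem isPrime_map_of_le {I : Ideal B} (hI : I.IsPrime) (hIn : I ≤ n) :
    (I.map (algebraMap B O)).IsPrime :=
  IsLocalization.isPrime_of_isPrime_disjoint n.primeCompl O I hI (disjoint_primeCompl_of_le n hIn)

theorem map_ne_maximalIdeal_of_ne [IsLocalRing O] {I : Ideal B} (hI : I.IsPrime) (hIn : I ≤ n)
    (hne : I ≠ n) : I.map (algebraMap B O) ≠ maximalIdeal O := by
  intro heq
  apply hne
  have h1 := IsLocalization.under_map_of_isPrime_disjoint n.primeCompl O hI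
    (disjoint_primeCompl_of_le n hIn)
  rw [heq, IsLocalization.AtPrime.under_maximalIdeal O n] at h1
  exact h1.symm

end LocalGeneral

/-! ### The two-component structure -/

variable {B : Type*} [CommRing B]

/-- The special fibre `q = 0` of the normal model `B` has exactly two components `p1`, `p2`, both
of multiplicity one. -/
structure TwoComponents (q : B) (p1 p2 : Ideal B) : Prop where
  q_ne_zero : q ≠ 0
  prime1 : p1.IsPrime
  prime2 : p2.IsPrime
  q_mem1 : q ∈ p1
  q_mem2 : q ∈ p2
  vertical : ∀ p : Ideal B, p.IsPrime → p.height = 1 → q ∈ p → p = p1 ∨ p = p2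
  unif1 : ∀ x ∈ p1, ∃ s, s ∉ p1 ∧ q ∣ s * x
  unif2 : ∀ x ∈ p2, ∃ s, s ∉ p2 ∧ q ∣ s * x

namespace TwoComponents

variable {q : B} {p1 p2 : Ideal B}

theorem symm (h : TwoComponents q p1 p2) : TwoComponents q p2 p1 where
  q_ne_zero := h.q_ne_zero
  prime1 := h.prime2
  prime2 := h.prime1
  q_mem1 := h.q_mem2
  q_mem2 := h.q_mem1
  vertical := fun p hp hp1 hq => (h.vertical p hp hp1 hq).symm
  unif1 := h.unif2
  unif2 := h.unif1

/-- `p1` is a minimal prime over `(q)` -/
theorem p1_mem_minimalPrimes (h : TwoComponents q p1 p2) :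
    p1 ∈ (Ideal.span {q}).minimalPrimes := by
  refine ⟨⟨h.prime1, (Ideal.span_singleton_le_iff_mem p1).mpr h.q_mem1⟩, ?_⟩
  rintro P ⟨hP, hqP⟩ hPle x hx
  obtain ⟨s, hs, hdvd⟩ := h.unif1 x hx
  have hsx : s * x ∈ P := by
    have : s * x ∈ Ideal.span {q} := Ideal.mem_span_singleton.mpr hdvd
    exact hqP this
  rcases hP.mem_or_mem hsx with h1 | h1
  · exact absurd (hPle h1) hs
  · exact h1

/-- if `T T' = q ^ m` with `m ≠ 0` and `T' ∉ p2` then `T ∈ p2` -/
theorem mem_p2_of_mul_eq (h : TwoComponents q p1 p2) {T T' : B} {m : ℕ} (hm : m ≠ 0)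
    (hTT' : T * T' = q ^ m) (hT2 : T' ∉ p2) : T ∈ p2 := by
  have hmem : T * T' ∈ p2 := by
    rw [hTT']; exact Ideal.pow_mem_of_mem p2 h.q_mem2 m (Nat.pos_of_ne_zero hm)
  exact (h.prime2.mem_or_mem hmem).resolve_right hT2

variable [IsDomain B] [IsNoetherianRing B] [IsIntegrallyClosed B]

/-- **the special fibre is reduced**: `p1 ∩ p2 = (q)`. -/
theorem inf_eq (h : TwoComponents q p1 p2) : p1 ⊓ p2 = Ideal.span {q} := by
  apply le_antisymm
  · intro x hx
    rw [Ideal.mem_span_singleton]
    refine KrullNormal.dvd_of_forall_height_one h.q_ne_zero (fun p hp hp1 hq => ?_)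
    rcases h.vertical p hp hp1 hq with rfl | rfl
    · exact h.unif1 x hx.1
    · exact h.unif2 x hx.2
  · rw [Ideal.span_singleton_le_iff_mem]
    exact ⟨h.q_mem1, h.q_mem2⟩

/-- a point of the special fibre lies on one of the two components -/
theorem le_or_le (h : TwoComponents q p1 p2) (n : Ideal B) [hn : n.IsPrime] (hq : q ∈ n) :
    p1 ≤ n ∨ p2 ≤ n := by
  have hmul : p1 * p2 ≤ n := by
    refine le_trans Ideal.mul_le_inf ?_
    rw [h.inf_eq, Ideal.span_singleton_le_iff_mem]
    exact hq
  exact (Ideal.IsPrime.mul_le hn).mp hmul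

omit [IsIntegrallyClosed B] in
theorem height_p1 (h : TwoComponents q p1 p2) : p1.height = 1 := by
  have := h.prime1
  apply le_antisymm
  · exact Ideal.height_le_one_of_isPrincipal_of_mem_minimalPrimes _ _ h.p1_mem_minimalPrimes
  · have hne : p1.height ≠ 0 := by
      rw [Ne, Ideal.height_eq_zero_iff_eq_bot]
      intro hbot
      exact h.q_ne_zero (by simpa [hbot] using h.q_mem1)
    exact Order.one_le_iff_pos.mpr (pos_iff_ne_zero.mpr hne)

omit [IsIntegrallyClosed B] in
theorem height_p2 (h : TwoComponents q p1 p2) : p2.height = 1 := h.symm.height_p1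

/-- **Krull-normality at a point** in terms of the components and the horizontal primes: an
element of `Frac B` which is regular at the components through `n` (`w_i ≥ 0`) and at every
horizontal height-one prime through `n` (no pole in the tube of `n`) lies in `B_n`. -/
theorem regularAt_of_components (h : TwoComponents q p1 p2) (n : Ideal B) [n.IsPrime]
    (x : FractionRing B)
    (h1 : p1 ≤ n → KrullNormal.RegularAt p1 x) (h2 : p2 ≤ n → KrullNormal.RegularAt p2 x)
    (hhor : ∀ p : Ideal B, p.IsPrime → p ≤ n → p.height = 1 → q ∉ p → KrullNormal.RegularAt p x) :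
    KrullNormal.RegularAt n x := by
  refine KrullNormal.regularAt_of_forall_height_one n x (fun p hp hpn hp1 => ?_)
  by_cases hq : q ∈ p
  · rcases h.vertical p hp hp1 hq with rfl | rfl
    · exact h1 hpn
    · exact h2 hpn
  · exact hhor p hp hpn hp1 hq

/-- **ADDITION A, global form**: a zero of `T` (`T T' = q ^ m`, `T ∉ p1`) is a point of the
second component; on the first component: a zero of `T̄₁` is a crossing point. -/
theorem le_of_mem (h : TwoComponents q p1 p2) (n : Ideal B) [hn : n.IsPrime]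
    {T T' : B} {m : ℕ} (hTT' : T * T' = q ^ m) (hT1 : T ∉ p1) (hTn : T ∈ n) : p2 ≤ n := by
  by_contra h2
  have hT0 : T ≠ 0 := fun h0 => hT1 (h0 ▸ p1.zero_mem)
  have hinj : Function.Injective (algebraMap B (FractionRing B)) :=
    IsFractionRing.injective B (FractionRing B)
  have hT0' : algebraMap B (FractionRing B) T ≠ 0 := fun h0 => hT0 (hinj (by rw [h0, map_zero]))
  have hreg : ∀ p : Ideal B, T ∉ p →
      KrullNormal.RegularAt p ((algebraMap B (FractionRing B) T)⁻¹) := by
    intro p hTp
    exact ⟨1, T, hTp, by rw [inv_mul_cancel₀ hT0', map_one]⟩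
  have hmain : KrullNormal.RegularAt n ((algebraMap B (FractionRing B) T)⁻¹) := by
    refine h.regularAt_of_components n _ (fun _ => hreg p1 hT1) (fun h2' => absurd h2' h2) ?_
    intro p hp _ _ hq
    apply hreg
    intro hTp
    have : q ^ m ∈ p := by rw [← hTT']; exact p.mul_mem_right T' hTp
    exact hq (hp.mem_of_pow_mem m this)
  obtain ⟨a, b, hb, hab⟩ := hmain
  apply hb
  have : b = a * T := by
    apply hinj
    rw [map_mul, ← hab]
    field_simp
  rw [this]
  exact n.mul_mem_left a hTn

/-! ### The local ring at a point of the special fibre -/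

section Local

variable (n : Ideal B) [n.IsPrime] (O : Type*) [CommRing O] [Algebra B O]
  [IsLocalization.AtPrime O n]

include n in
theorem map_inf_eq (h : TwoComponents q p1 p2) :
    p1.map (algebraMap B O) ⊓ p2.map (algebraMap B O) = Ideal.span {algebraMap B O q} := by
  rw [← IsLocalization.map_inf n.primeCompl O, h.inf_eq, Ideal.map_span, Set.image_singleton]

/-- at a point off the second component, `q O_n = p1 O_n` is prime -/
theorem map_eq_span_of_not_le (h : TwoComponents q p1 p2) (h2 : ¬ p2 ≤ n) :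
    p1.map (algebraMap B O) = Ideal.span {algebraMap B O q} := by
  have htop : p2.map (algebraMap B O) = ⊤ := by
    apply IsLocalization.map_eq_top_of_not_subset (M := n.primeCompl)
    intro hsub
    apply h2
    intro x hx
    have := hsub hx
    simpa [Ideal.primeCompl] using this
  rw [← h.map_inf_eq n O, htop, inf_top_eq]

variable [IsLocalRing O]

/-- **smooth point** of the first component: `q O_n` is prime and `𝔪 = (q, t)`, in the form
consumed by `DiscUP.disc_UP`. -/
theorem smooth_point (h : TwoComponents q p1 p2) (hp1 : p1 ≤ n) (hne : p1 ≠ n) (h2 : ¬ p2 ≤ n)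
    {t : B} (htn : t ∈ n) (ht : ∀ x ∈ n, ∃ s, s ∉ n ∧ s * x ∈ p1 ⊔ Ideal.span {t}) :
    (Ideal.span {algebraMap B O q} : Ideal O).IsPrime ∧
      algebraMap B O t ∉ (Ideal.span {algebraMap B O q} : Ideal O) ∧
      maximalIdeal O = Ideal.span {algebraMap B O q} ⊔ Ideal.span {algebraMap B O t} := by
  have hmap := h.map_eq_span_of_not_le n O h2
  have hmax := maximalIdeal_eq_map_sup_span n O hp1 htn ht
  rw [← hmap]
  refine ⟨isPrime_map_of_le n O h.prime1 hp1, ?_, hmax⟩
  intro htmem
  apply map_ne_maximalIdeal_of_ne n O h.prime1 hp1 hne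
  rw [hmax]
  exact (sup_eq_left.mpr ((Ideal.span_singleton_le_iff_mem _).mpr htmem)).symm

theorem maximalIdeal_eq_of_smooth (h : TwoComponents q p1 p2) (hp1 : p1 ≤ n) (h2 : ¬ p2 ≤ n)
    {t : B} (htn : t ∈ n) (ht : ∀ x ∈ n, ∃ s, s ∉ n ∧ s * x ∈ p1 ⊔ Ideal.span {t}) :
    maximalIdeal O = Ideal.span {algebraMap B O q, algebraMap B O t} := by
  rw [maximalIdeal_eq_map_sup_span n O hp1 htn ht, h.map_eq_span_of_not_le n O h2,
    ← Ideal.span_union, Set.singleton_union]

/-- smooth points of a Dedekind component: regular parameters `(q, t)` exist -/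
theorem exists_smooth_point (h : TwoComponents q p1 p2) [IsDedekindDomain (B ⧸ p1)]
    (hp1 : p1 ≤ n) (hne : p1 ≠ n) (h2 : ¬ p2 ≤ n) :
    ∃ t ∈ n, (Ideal.span {algebraMap B O q} : Ideal O).IsPrime ∧
      algebraMap B O t ∉ (Ideal.span {algebraMap B O q} : Ideal O) ∧
      maximalIdeal O = Ideal.span {algebraMap B O q} ⊔ Ideal.span {algebraMap B O t} := by
  obtain ⟨t, htn, ht⟩ := exists_transversal p1 n hp1 hne
  exact ⟨t, htn, h.smooth_point n O hp1 hne h2 htn ht⟩

/-- **crossing point**: transversal `u ∈ p1`, `v ∈ p2` give `NodeData` in `O = B_n`. -/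
theorem nodeData (h : TwoComponents q p1 p2) (hp1 : p1 ≤ n) (hp2 : p2 ≤ n) {u v : B}
    (hu : u ∈ p1) (hv : v ∈ p2)
    (hv1 : ∀ x ∈ n, ∃ s, s ∉ n ∧ s * x ∈ p1 ⊔ Ideal.span {v})
    (hu2 : ∀ x ∈ n, ∃ s, s ∉ n ∧ s * x ∈ p2 ⊔ Ideal.span {u}) :
    NodeData (algebraMap B O q) (algebraMap B O u) (algebraMap B O v)
      (p1.map (algebraMap B O)) (p2.map (algebraMap B O)) where
  inter := h.map_inf_eq n O
  hu := Ideal.mem_map_of_mem _ hu
  hv := Ideal.mem_map_of_mem _ hv
  max1 := maximalIdeal_eq_map_sup_span n O hp1 (hp2 hv) hv1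
  max2 := maximalIdeal_eq_map_sup_span n O hp2 (hp1 hu) hu2

/-- the modular-unit data in `O = B_n` from global data `T T' = q ^ m`, `T ∉ p1`, `T' ∉ p2`. -/
theorem unitData (h : TwoComponents q p1 p2) (hp1 : p1 ≤ n) (hp2 : p2 ≤ n) (hp1n : p1 ≠ n)
    (hp2n : p2 ≠ n) {T T' : B} {m : ℕ} (hTT' : T * T' = q ^ m) (hT1 : T ∉ p1) (hT2 : T' ∉ p2) :
    UnitData {p : Ideal O | p.IsPrime ∧ p.height = 1} (algebraMap B O q) (algebraMap B O T)
      (p1.map (algebraMap B O)) (p2.map (algebraMap B O)) m := by
  have : IsDomain O :=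
    IsLocalization.isDomain_of_le_nonZeroDivisors O n.primeCompl_le_nonZeroDivisors
  have : IsNoetherianRing O := IsLocalization.isNoetherianRing n.primeCompl O inferInstance
  have : IsIntegrallyClosed O :=
    isIntegrallyClosed_of_isLocalization O n.primeCompl n.primeCompl_le_nonZeroDivisors
  have hP2 : (p2.map (algebraMap B O)).IsPrime := isPrime_map_of_le n O h.prime2 hp2
  have hTT'O : algebraMap B O T * algebraMap B O T' = algebraMap B O q ^ m := by
    rw [← map_mul, hTT', map_pow]
  refine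
    { detects := detectsDvd_height_one O
      prime_of_mem := fun p hp => hp.1
      vertical := ?_
      hp1 := isPrime_map_of_le n O h.prime1 hp1
      hp2 := hP2
      hp1m := map_ne_maximalIdeal_of_ne n O h.prime1 hp1 hp1n
      hp2m := map_ne_maximalIdeal_of_ne n O h.prime2 hp2 hp2n
      not_mem_p1 := by
        have := h.prime1
        exact algebraMap_notMem_map n O hp1 hT1
      horizontal := ?_
      at_p2 := ?_ }
  · rintro p' ⟨hp', hht⟩ hq
    have hunder : (p'.under B).IsPrime := Ideal.IsPrime.under B p'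
    have hh : (p'.under B).height = 1 := by
      rw [IsLocalization.height_under n.primeCompl p', hht]
    have hqu : q ∈ p'.under B := hq
    have hmap : (p'.under B).map (algebraMap B O) = p' := IsLocalization.map_under n.primeCompl O p'
    rcases h.vertical _ hunder hh hqu with h1 | h1
    · left; rw [← hmap, h1]
    · right; rw [← hmap, h1]
  · rintro p' ⟨hp', _⟩ hq hT
    apply hq
    have : algebraMap B O q ^ m ∈ p' := by
      rw [← hTT'O]; exact p'.mul_mem_right _ hT
    exact hp'.mem_of_pow_mem m this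
  · refine ⟨algebraMap B O T', 1, ?_, ?_, ?_⟩
    · have := h.prime2
      exact algebraMap_notMem_map n O hp2 hT2
    · exact fun h1 => hP2.ne_top ((Ideal.eq_top_iff_one _).mpr h1)
    · rw [one_mul, mul_comm]; exact hTT'O

/-- **NODE LEMMA on the normal model**: at a crossing point `n` with transversal `u ∈ p1`,
`v ∈ p2`, and a modular unit `T T' = q ^ m` (`m ≠ 0`, `T ∉ p1`, `T' ∉ p2`), there are
`u' ≡ u`, `v' ≡ v (mod q)` in `O = B_n` with `u' v' = q ^ e ε`, `ε` a unit, `1 ≤ e ≤ m`. -/
theorem exists_node (h : TwoComponents q p1 p2) (hp1 : p1 ≤ n) (hp2 : p2 ≤ n) (hp1n : p1 ≠ n)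
    (hp2n : p2 ≠ n) {u v : B} (hu : u ∈ p1) (hv : v ∈ p2)
    (hv1 : ∀ x ∈ n, ∃ s, s ∉ n ∧ s * x ∈ p1 ⊔ Ideal.span {v})
    (hu2 : ∀ x ∈ n, ∃ s, s ∉ n ∧ s * x ∈ p2 ⊔ Ideal.span {u})
    {T T' : B} {m : ℕ} (hm : m ≠ 0) (hTT' : T * T' = q ^ m) (hT1 : T ∉ p1) (hT2 : T' ∉ p2) :
    ∃ (e : ℕ) (u' v' ε : O), 1 ≤ e ∧ e ≤ m ∧
      NodeData (algebraMap B O q) u' v' (p1.map (algebraMap B O)) (p2.map (algebraMap B O)) ∧
      u' - algebraMap B O u ∈ Ideal.span {algebraMap B O q} ∧
      v' - algebraMap B O v ∈ Ideal.span {algebraMap B O q} ∧ IsUnit ε ∧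
      u' * v' = algebraMap B O q ^ e * ε := by
  have : IsDomain O :=
    IsLocalization.isDomain_of_le_nonZeroDivisors O n.primeCompl_le_nonZeroDivisors
  have hD := h.unitData n O hp1 hp2 hp1n hp2n hTT' hT1 hT2
  have hN := h.nodeData n O hp1 hp2 hu hv hv1 hu2
  have hTn : algebraMap B O T ∈ maximalIdeal O := by
    rw [IsLocalization.AtPrime.to_map_mem_maximal_iff O n]
    exact hp2 (h.mem_p2_of_mul_eq hm hTT' hT2)
  have hq0 : algebraMap B O q ≠ 0 := by
    intro h0
    apply h.q_ne_zero
    exact IsLocalization.injective O n.primeCompl_le_nonZeroDivisors (by rw [h0, map_zero])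
  exact hD.exists_node hTn hN hq0

end Local

end TwoComponents

end Fermat.Agent.BR.SpecialFibre
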