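import Mathlib
import Fermat.Agent.BR.SpecialFibre

/-!
# Program B (BADRED), node B6.5(e), abstract part: transversality at the crossing points

Pure commutative algebra behind section 2 of the finding 'B6 UNIFORM NODE STRUCTURE (helper23)',
over a base with residue field `𝔽_q` (so that the Frobenius twist is trivial on closed points).

`B` a ring (the normal model at level `qM`), `BM` a ring (level `M`), `α β : BM →+* B` the two
degeneracy maps, `p1 p2` the two vertical primes, `n` a prime containing both (a crossing point).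

Hypotheses:
* `(S1)`, `(S2)` : `BM → B ⧸ p1` (via `α`) and `BM → B ⧸ p2` (via `β`) are onto;
* `(K1)`, `(K2)` : Kronecker's congruences `β g ≡ (α g)^q mod p1`, `α g ≡ (β g)^q mod p2`;
* `(G)` : `f ∈ BM` is a local generator modulo `q` of the point `z = α⁻¹ n` of level `M`.

Conclusion (`crossing_transversal`): `u := β f - (α f)^q ∈ p1`, `v := α f - (β f)^q ∈ p2` and
`n = p1 + (v) = p2 + (u)` locally at `n`, in the exact shape of the hypotheses `hu hv hv1 hu2` of
`SpecialFibre.TwoComponents.nodeData`.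

`exists_isLocalGenerator` produces `(G)` from `BM ⧸ (q)` Dedekind; `crossing_nodeData` is the
resulting `NodeData` in `O = B_n` for a `TwoComponents` structure on `B`.
-/

set_option autoImplicit false

namespace Fermat.Agent.BR.CrossingLemma

variable {B BM : Type*} [CommRing B] [CommRing BM] (α β : BM →+* B)
variable (p1 p2 n : Ideal B) (q : ℕ)

/-- `f` is a *local generator modulo `q`* of the prime `α⁻¹ n` of `BM`: every `g` with `α g ∈ n`
satisfies `s * g = a * q + b * f` for some `s` with `α s ∉ n`. -/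
def IsLocalGenerator (f : BM) : Prop :=
  ∀ g : BM, α g ∈ n → ∃ s a b : BM, α s ∉ n ∧ s * g = a * (q : BM) + b * f

section OneSide

variable {α β p1 p2 n q}

/-- `β g ∈ n ↔ α g ∈ n` under Kronecker's congruence on the first component. -/
theorem beta_mem_iff [n.IsPrime] (hp1 : p1 ≤ n) (hq : q ≠ 0)
    (K1 : ∀ g : BM, β g - (α g) ^ q ∈ p1) (g : BM) : β g ∈ n ↔ α g ∈ n := by
  have h := hp1 (K1 g)
  constructor
  · intro hb
    have h2 : (α g) ^ q ∈ n := by
      have : (α g) ^ q = β g - (β g - (α g) ^ q) := by ring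
      rw [this]; exact n.sub_mem hb h
    exact Ideal.IsPrime.mem_of_pow_mem inferInstance q h2
  · intro ha
    have h2 : (α g) ^ q ∈ n := Ideal.pow_mem_of_mem n ha q (Nat.pos_of_ne_zero hq)
    have : β g = (β g - (α g) ^ q) + (α g) ^ q := by ring
    rw [this]; exact n.add_mem h h2

/-- **One half of the transversality**: `n = p1 + (v)` locally at `n`, `v := α f - (β f)^q`. -/
theorem transversal_one [n.IsPrime] (hp1 : p1 ≤ n) (hq2 : 2 ≤ q) (hqp1 : (q : B) ∈ p1)
    (S1 : ∀ x : B, ∃ g : BM, x - α g ∈ p1)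
    (K1 : ∀ g : BM, β g - (α g) ^ q ∈ p1)
    {f : BM} (hf : α f ∈ n) (G : IsLocalGenerator α n q f) :
    ∀ x ∈ n, ∃ s, s ∉ n ∧ s * x ∈ p1 ⊔ Ideal.span {α f - (β f) ^ q} := by
  have hq0 : q ≠ 0 := by omega
  set v := α f - (β f) ^ q with hv
  have hvmem : v ∈ p1 ⊔ Ideal.span {v} :=
    Ideal.mem_sup_right (Ideal.mem_span_singleton_self v)
  have hβf : β f ∈ n := (beta_mem_iff hp1 hq0 K1 f).mpr hf
  -- first step: every `x ∈ n` satisfies `s x ≡ c v + c (β f)^q mod p1`
  have step : ∀ x ∈ n, ∃ s c : B, s ∉ n ∧ s * x - c * (v + (β f) ^ q) ∈ p1 := by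
    intro x hx
    obtain ⟨g, hg⟩ := S1 x
    have hαg : α g ∈ n := by
      have : α g = x - (x - α g) := by ring
      rw [this]; exact n.sub_mem hx (hp1 hg)
    obtain ⟨s, a, b, hs, hsg⟩ := G g hαg
    refine ⟨α s, α b, hs, ?_⟩
    have h1 : α s * α g = α a * (q : B) + α b * α f := by
      rw [← map_mul, hsg, map_add, map_mul, map_mul, map_natCast]
    have h2 : α s * x - α b * (v + (β f) ^ q) = α s * (x - α g) + α a * (q : B) := by
      rw [hv]
      linear_combination h1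
    rw [h2]
    exact p1.add_mem (p1.mul_mem_left _ hg) (p1.mul_mem_left _ hqp1)
  -- second step: `s₂ (β f) ∈ p1 + (v)` for some `s₂ ∉ n`
  obtain ⟨s₁, c₁, hs₁, h₁⟩ := step (β f) hβf
  have hpow : (β f) ^ (q - 1) ∈ n :=
    Ideal.pow_mem_of_mem n hβf (q - 1) (by omega)
  have hs₂ : s₁ - c₁ * (β f) ^ (q - 1) ∉ n := by
    intro h
    apply hs₁
    have : s₁ = (s₁ - c₁ * (β f) ^ (q - 1)) + c₁ * (β f) ^ (q - 1) := by ring
    rw [this]; exact n.add_mem h (n.mul_mem_left _ hpow)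
  have hqq : (β f) ^ q = β f * (β f) ^ (q - 1) := by
    rw [← pow_succ']; congr 1; omega
  have h₂ : (s₁ - c₁ * (β f) ^ (q - 1)) * β f ∈ p1 ⊔ Ideal.span {v} := by
    have : (s₁ - c₁ * (β f) ^ (q - 1)) * β f =
        (s₁ * β f - c₁ * (v + (β f) ^ q)) + c₁ * v := by
      rw [hqq]; ring
    rw [this]
    exact (p1 ⊔ Ideal.span {v}).add_mem (Ideal.mem_sup_left h₁)
      (Ideal.mul_mem_left _ _ hvmem)
  -- conclusion
  intro x hx
  obtain ⟨s, c, hs, h⟩ := step x hx
  refine ⟨(s₁ - c₁ * (β f) ^ (q - 1)) * s, ?_, ?_⟩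
  · intro hmem
    rcases Ideal.IsPrime.mem_or_mem inferInstance hmem with h' | h'
    · exact hs₂ h'
    · exact hs h'
  · have : (s₁ - c₁ * (β f) ^ (q - 1)) * s * x =
        (s₁ - c₁ * (β f) ^ (q - 1)) * (s * x - c * (v + (β f) ^ q)) +
          (s₁ - c₁ * (β f) ^ (q - 1)) * c * v +
          c * (β f) ^ (q - 1) * ((s₁ - c₁ * (β f) ^ (q - 1)) * β f) := by
      rw [hqq]; ring
    rw [this]
    refine (p1 ⊔ Ideal.span {v}).add_mem ((p1 ⊔ Ideal.span {v}).add_mem ?_ ?_) ?_
    · exact Ideal.mem_sup_left (p1.mul_mem_left _ h)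
    · exact Ideal.mul_mem_left _ _ hvmem
    · exact Ideal.mul_mem_left _ _ h₂

end OneSide

section Both

variable {α β p1 p2 n q}

/-- a local generator for `α⁻¹ n` is a local generator for `β⁻¹ n` (the two points of level `M`
under a crossing point coincide over `𝔽_q`) -/
theorem IsLocalGenerator.swap [n.IsPrime] (hp1 : p1 ≤ n) (hq : q ≠ 0)
    (K1 : ∀ g : BM, β g - (α g) ^ q ∈ p1) {f : BM} (G : IsLocalGenerator α n q f) :
    IsLocalGenerator β n q f := by
  intro g hg
  obtain ⟨s, a, b, hs, h⟩ := G g ((beta_mem_iff hp1 hq K1 g).mp hg)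
  exact ⟨s, a, b, fun h' => hs ((beta_mem_iff hp1 hq K1 s).mp h'), h⟩

/-- **Transversality at a crossing point** (`#583`, section 2, over a base with residue field
`𝔽_q`): with `u := β f - (α f)^q` and `v := α f - (β f)^q`, `f` a local generator modulo `q` of
the point of level `M` under `n`:  `u ∈ p1`, `v ∈ p2`, `n = p1 + (v) = p2 + (u)` locally at `n`. -/
theorem crossing_transversal [n.IsPrime] (hp1 : p1 ≤ n) (hp2 : p2 ≤ n) (hq2 : 2 ≤ q)
    (hqp1 : (q : B) ∈ p1) (hqp2 : (q : B) ∈ p2)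
    (S1 : ∀ x : B, ∃ g : BM, x - α g ∈ p1) (S2 : ∀ x : B, ∃ g : BM, x - β g ∈ p2)
    (K1 : ∀ g : BM, β g - (α g) ^ q ∈ p1) (K2 : ∀ g : BM, α g - (β g) ^ q ∈ p2)
    {f : BM} (hf : α f ∈ n) (G : IsLocalGenerator α n q f) :
    β f - (α f) ^ q ∈ p1 ∧ α f - (β f) ^ q ∈ p2 ∧
      (∀ x ∈ n, ∃ s, s ∉ n ∧ s * x ∈ p1 ⊔ Ideal.span {α f - (β f) ^ q}) ∧
      (∀ x ∈ n, ∃ s, s ∉ n ∧ s * x ∈ p2 ⊔ Ideal.span {β f - (α f) ^ q}) := by
  have hq0 : q ≠ 0 := by omega
  refine ⟨K1 f, K2 f, transversal_one hp1 hq2 hqp1 S1 K1 hf G, ?_⟩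
  exact transversal_one (α := β) (β := α) hp2 hq2 hqp2 S2 K2
    ((beta_mem_iff hp1 hq0 K1 f).mpr hf) (G.swap hp1 hq0 K1)

end Both

/-! ### Existence of local generators -/

section Dedekind

variable {α n q}

/-- **Existence of `(G)`**: if `BM ⧸ (q)` is a Dedekind domain and `α⁻¹ n` is not `(q)`, there is
a local generator modulo `q` of `α⁻¹ n`. -/
theorem exists_isLocalGenerator [n.IsPrime]
    [IsDedekindDomain (BM ⧸ (Ideal.span {(q : BM)}))]
    (hz : ∃ g : BM, α g ∈ n ∧ g ∉ Ideal.span {(q : BM)}) (hqn : (q : B) ∈ n) :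
    ∃ f : BM, α f ∈ n ∧ IsLocalGenerator α n q f := by
  classical
  set I : Ideal BM := Ideal.span {(q : BM)} with hI
  set π := Ideal.Quotient.mk I with hπ
  have hsurj : Function.Surjective π := Ideal.Quotient.mk_surjective
  set z : Ideal BM := n.comap α with hzdef
  have hIz : I ≤ z := by
    rw [hI, Ideal.span_singleton_le_iff_mem, hzdef, Ideal.mem_comap, map_natCast]
    exact hqn
  have hker : RingHom.ker π ≤ z := by rw [Ideal.mk_ker]; exact hIz
  have hzprime : z.IsPrime := Ideal.comap_isPrime α n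
  have hmprime : (z.map π).IsPrime := Ideal.map_isPrime_of_surjective hsurj hker
  have hmem_iff : ∀ g : BM, π g ∈ z.map π ↔ g ∈ z := by
    intro g
    constructor
    · intro h
      obtain ⟨y, hy, hyg⟩ := (Ideal.mem_map_iff_of_surjective π hsurj).mp h
      have h1 : g - y ∈ I := by
        rw [← Ideal.Quotient.eq_zero_iff_mem, map_sub, hyg, sub_self]
      have : g = (g - y) + y := by ring
      rw [this]; exact z.add_mem (hIz h1) hy
    · exact fun h => Ideal.mem_map_of_mem π h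
  have hmbot : z.map π ≠ ⊥ := by
    obtain ⟨g, hg, hgI⟩ := hz
    intro hbot
    apply hgI
    have : π g ∈ z.map π := Ideal.mem_map_of_mem π hg
    rwa [hbot, Ideal.mem_bot, Ideal.Quotient.eq_zero_iff_mem] at this
  obtain ⟨tbar, htm, ht⟩ := SpecialFibre.exists_local_generator (z.map π) hmbot
  obtain ⟨f, rfl⟩ := hsurj tbar
  refine ⟨f, (hmem_iff f).mp htm, ?_⟩
  intro g hg
  obtain ⟨sbar, hsbar, c, hc⟩ := ht (π g) (Ideal.mem_map_of_mem π hg)
  obtain ⟨s, rfl⟩ := hsurj sbar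
  obtain ⟨b, rfl⟩ := hsurj c
  have h1 : s * g - b * f ∈ I := by
    rw [← Ideal.Quotient.eq_zero_iff_mem, map_sub, map_mul, map_mul, hc]; ring
  obtain ⟨a, ha⟩ := Ideal.mem_span_singleton'.mp h1
  refine ⟨s, a, b, fun hs => hsbar ((hmem_iff s).mpr hs), ?_⟩
  rw [ha]; ring

end Dedekind

/-! ### The resulting `NodeData` -/

section Node

open Fermat.Agent.BR.SpecialFibre Fermat.Agent.BR.NodeLemma

variable {α β p1 p2 q}

/-- **`NodeData` at a crossing point** of a two-component normal model. -/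
theorem crossing_nodeData [IsDomain B] [IsNoetherianRing B] [IsIntegrallyClosed B]
    [n.IsPrime] (O : Type*) [CommRing O] [Algebra B O] [IsLocalization.AtPrime O n]
    [IsLocalRing O] (h : TwoComponents (q : B) p1 p2) (hp1 : p1 ≤ n) (hp2 : p2 ≤ n)
    (hq2 : 2 ≤ q)
    (S1 : ∀ x : B, ∃ g : BM, x - α g ∈ p1) (S2 : ∀ x : B, ∃ g : BM, x - β g ∈ p2)
    (K1 : ∀ g : BM, β g - (α g) ^ q ∈ p1) (K2 : ∀ g : BM, α g - (β g) ^ q ∈ p2)
    {f : BM} (hf : α f ∈ n) (G : IsLocalGenerator α n q f) :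
    NodeData (algebraMap B O (q : B)) (algebraMap B O (β f - (α f) ^ q))
      (algebraMap B O (α f - (β f) ^ q)) (p1.map (algebraMap B O)) (p2.map (algebraMap B O)) := by
  obtain ⟨hu, hv, hv1, hu2⟩ :=
    crossing_transversal hp1 hp2 hq2 h.q_mem1 h.q_mem2 S1 S2 K1 K2 hf G
  exact h.nodeData n O hp1 hp2 hu hv hv1 hu2

end Node

end Fermat.Agent.BR.CrossingLemma
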