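import Mathlib
import Fermat.Agent.BR.SpecialFibre

/-!
# Program B (BADRED), node B6.5(e), abstract part, QUOTIENT form

Variant of `BR/CrossingTwisted.lean` which needs NO uniformizer and NO structure of the level-`M`
model modulo `ϖ`: the only geometric inputs are that the two components `B ⧸ p1`, `B ⧸ p2` of
the special fibre are Dedekind (node B6.5(d)) and that `α`, `β : BM → B` induce surjections
`BM → B ⧸ p1`, `BM → B ⧸ p2` (`(S1)`, `(S2)`), plus the twisted Kronecker congruences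
`(K1')`, `(K2')`.

* `transversal_sub_pow` : if `t ∈ n` generates `n` modulo `p` locally at `n` and `w ∈ n`, `q ≥ 2`,
  then `t - w ^ q` generates `n` modulo `p` locally at `n`;
* `transversal_congr` : local generation modulo `p` only depends on `t` modulo `p`;
* `crossing_transversal_quot` : there are `u ∈ p1`, `v ∈ p2` with `n = p1 + (v) = p2 + (u)`
  locally at `n`;
* `crossing_nodeData_quot` : `NodeData` in `B_n` at every crossing point `n ⊇ p1 + p2`.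
-/

set_option autoImplicit false

namespace Fermat.Agent.BR.CrossingQuot

variable {B BM : Type*} [CommRing B] [CommRing BM]

variable {p n : Ideal B} {q : ℕ}

/-- local generation modulo `p` only depends on the generator modulo `p` -/
theorem transversal_congr {t t' : B} (h : t - t' ∈ p)
    (G : ∀ x ∈ n, ∃ s, s ∉ n ∧ s * x ∈ p ⊔ Ideal.span {t}) :
    ∀ x ∈ n, ∃ s, s ∉ n ∧ s * x ∈ p ⊔ Ideal.span {t'} := by
  have hle : p ⊔ Ideal.span {t} ≤ p ⊔ Ideal.span {t'} := by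
    refine sup_le le_sup_left ?_
    rw [Ideal.span_singleton_le_iff_mem]
    have : t = (t - t') + t' := by ring
    rw [this]
    exact (p ⊔ Ideal.span {t'}).add_mem (Ideal.mem_sup_left h)
      (Ideal.mem_sup_right (Ideal.mem_span_singleton_self t'))
  intro x hx
  obtain ⟨s, hs, hsx⟩ := G x hx
  exact ⟨s, hs, hle hsx⟩

/-- **Stability of local generators**: if `t` generates `n` modulo `p` locally at `n` and `w ∈ n`,
then `t - w ^ q` (`q ≥ 2`) generates `n` modulo `p` locally at `n` (`t - w^q ≡ t` modulo `n²`;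
elementary, no Nakayama). -/
theorem transversal_sub_pow [n.IsPrime] (hq2 : 2 ≤ q) {t w : B} (hw : w ∈ n)
    (G : ∀ x ∈ n, ∃ s, s ∉ n ∧ s * x ∈ p ⊔ Ideal.span {t}) :
    ∀ x ∈ n, ∃ s, s ∉ n ∧ s * x ∈ p ⊔ Ideal.span {t - w ^ q} := by
  set v := t - w ^ q with hv
  set J : Ideal B := p ⊔ Ideal.span {v} with hJ
  have hvmem : v ∈ J := Ideal.mem_sup_right (Ideal.mem_span_singleton_self v)
  have step : ∀ x ∈ n, ∃ s c : B, s ∉ n ∧ s * x - c * (v + w ^ q) ∈ p := by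
    intro x hx
    obtain ⟨s, hs, hsx⟩ := G x hx
    obtain ⟨a, ha, b, hb, hab⟩ := Submodule.mem_sup.mp hsx
    obtain ⟨c, rfl⟩ := Ideal.mem_span_singleton'.mp hb
    refine ⟨s, c, hs, ?_⟩
    have : s * x - c * (v + w ^ q) = a := by
      rw [hv, ← hab]; ring
    rw [this]; exact ha
  obtain ⟨s₁, c₁, hs₁, h₁⟩ := step w hw
  have hpow : w ^ (q - 1) ∈ n := Ideal.pow_mem_of_mem n hw (q - 1) (by omega)
  have hs₂ : s₁ - c₁ * w ^ (q - 1) ∉ n := by
    intro h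
    apply hs₁
    have : s₁ = (s₁ - c₁ * w ^ (q - 1)) + c₁ * w ^ (q - 1) := by ring
    rw [this]; exact n.add_mem h (n.mul_mem_left _ hpow)
  have hqq : w ^ q = w * w ^ (q - 1) := by
    rw [← pow_succ']; congr 1; omega
  have h₂ : (s₁ - c₁ * w ^ (q - 1)) * w ∈ J := by
    have : (s₁ - c₁ * w ^ (q - 1)) * w = (s₁ * w - c₁ * (v + w ^ q)) + c₁ * v := by
      rw [hqq]; ring
    rw [this]
    exact J.add_mem (Ideal.mem_sup_left h₁) (Ideal.mul_mem_left _ _ hvmem)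
  intro x hx
  obtain ⟨s, c, hs, h⟩ := step x hx
  refine ⟨(s₁ - c₁ * w ^ (q - 1)) * s, ?_, ?_⟩
  · intro hmem
    rcases Ideal.IsPrime.mem_or_mem inferInstance hmem with h' | h'
    · exact hs₂ h'
    · exact hs h'
  · have : (s₁ - c₁ * w ^ (q - 1)) * s * x =
        (s₁ - c₁ * w ^ (q - 1)) * (s * x - c * (v + w ^ q)) +
          (s₁ - c₁ * w ^ (q - 1)) * c * v +
          c * w ^ (q - 1) * ((s₁ - c₁ * w ^ (q - 1)) * w) := by
      rw [hqq]; ring
    rw [this]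
    refine J.add_mem (J.add_mem ?_ ?_) ?_
    · exact Ideal.mem_sup_left (p.mul_mem_left _ h)
    · exact Ideal.mul_mem_left _ _ hvmem
    · exact Ideal.mul_mem_left _ _ h₂

/-- if `x - w^q ∈ n` with `x ∈ n` then `w ∈ n` -/
theorem mem_of_sub_pow_mem [n.IsPrime] {x w : B} (hx : x ∈ n) (h : x - w ^ q ∈ n) : w ∈ n := by
  have h2 : w ^ q ∈ n := by
    have : w ^ q = x - (x - w ^ q) := by ring
    rw [this]; exact n.sub_mem hx h
  exact Ideal.IsPrime.mem_of_pow_mem inferInstance q h2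

section Both

open Fermat.Agent.BR.SpecialFibre

variable {α β : BM →+* B} {p1 p2 : Ideal B}

/-- one half of the crossing lemma: a local generator `v ∈ p2` of `n` modulo `p1` -/
theorem exists_transversal_mem [n.IsPrime] [IsDedekindDomain (B ⧸ p1)]
    (hp1 : p1 ≤ n) (hp2 : p2 ≤ n) (hne1 : p1 ≠ n) (hq2 : 2 ≤ q)
    (S1 : ∀ x : B, ∃ g : BM, x - α g ∈ p1)
    (K2 : ∀ g : BM, ∃ g' : BM, α g - (β g') ^ q ∈ p2) :
    ∃ v ∈ p2, ∀ x ∈ n, ∃ s, s ∉ n ∧ s * x ∈ p1 ⊔ Ideal.span {v} := by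
  obtain ⟨t, htn, ht⟩ := exists_transversal p1 n hp1 hne1
  obtain ⟨f, hf⟩ := S1 t
  have hαf : α f ∈ n := by
    have : α f = t - (t - α f) := by ring
    rw [this]; exact n.sub_mem htn (hp1 hf)
  obtain ⟨f', hf'⟩ := K2 f
  have hβf' : β f' ∈ n := mem_of_sub_pow_mem hαf (hp2 hf')
  exact ⟨_, hf', transversal_sub_pow hq2 hβf' (transversal_congr hf ht)⟩

/-- **Transversality at a crossing point, quotient form**: `u ∈ p1`, `v ∈ p2` with
`n = p1 + (v) = p2 + (u)` locally at `n`. -/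
theorem crossing_transversal_quot [n.IsPrime] [IsDedekindDomain (B ⧸ p1)]
    [IsDedekindDomain (B ⧸ p2)] (hp1 : p1 ≤ n) (hp2 : p2 ≤ n) (hne1 : p1 ≠ n) (hne2 : p2 ≠ n)
    (hq2 : 2 ≤ q)
    (S1 : ∀ x : B, ∃ g : BM, x - α g ∈ p1) (S2 : ∀ x : B, ∃ g : BM, x - β g ∈ p2)
    (K1 : ∀ g : BM, ∃ g' : BM, β g - (α g') ^ q ∈ p1)
    (K2 : ∀ g : BM, ∃ g' : BM, α g - (β g') ^ q ∈ p2) :
    ∃ u v : B, u ∈ p1 ∧ v ∈ p2 ∧
      (∀ x ∈ n, ∃ s, s ∉ n ∧ s * x ∈ p1 ⊔ Ideal.span {v}) ∧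
      (∀ x ∈ n, ∃ s, s ∉ n ∧ s * x ∈ p2 ⊔ Ideal.span {u}) := by
  obtain ⟨v, hv, hv1⟩ := exists_transversal_mem hp1 hp2 hne1 hq2 S1 K2
  obtain ⟨u, hu, hu2⟩ := exists_transversal_mem hp2 hp1 hne2 hq2 S2 K1
  exact ⟨u, v, hu, hv, hv1, hu2⟩

open Fermat.Agent.BR.NodeLemma in
/-- **`NodeData` at a crossing point** of a two-component normal model, quotient form. -/
theorem crossing_nodeData_quot [IsDomain B] [IsNoetherianRing B] [IsIntegrallyClosed B]
    [n.IsPrime] [IsDedekindDomain (B ⧸ p1)] [IsDedekindDomain (B ⧸ p2)]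
    (O : Type*) [CommRing O] [Algebra B O] [IsLocalization.AtPrime O n]
    [IsLocalRing O] {ϖB : B} (h : TwoComponents ϖB p1 p2)
    (hp1 : p1 ≤ n) (hp2 : p2 ≤ n) (hne1 : p1 ≠ n) (hne2 : p2 ≠ n) (hq2 : 2 ≤ q)
    (S1 : ∀ x : B, ∃ g : BM, x - α g ∈ p1) (S2 : ∀ x : B, ∃ g : BM, x - β g ∈ p2)
    (K1 : ∀ g : BM, ∃ g' : BM, β g - (α g') ^ q ∈ p1)
    (K2 : ∀ g : BM, ∃ g' : BM, α g - (β g') ^ q ∈ p2) :
    ∃ u v : B, u ∈ p1 ∧ v ∈ p2 ∧
      NodeData (algebraMap B O ϖB) (algebraMap B O u) (algebraMap B O v)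
        (p1.map (algebraMap B O)) (p2.map (algebraMap B O)) := by
  obtain ⟨u, v, hu, hv, hv1, hu2⟩ :=
    crossing_transversal_quot hp1 hp2 hne1 hne2 hq2 S1 S2 K1 K2
  exact ⟨u, v, hu, hv, h.nodeData n O hp1 hp2 hu hv hv1 hu2⟩

end Both

end Fermat.Agent.BR.CrossingQuot
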