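import Mathlib
import Fermat.Agent.BR.SpecialFibre

/-!
# Program B (BADRED), node B6.5(e), abstract part, TWISTED form (general coefficient field)

Generalisation of `BR/CrossingLemma.lean` to the FRAME of B6.5 (coefficient field `K' ⊆ ℚ̄` with
uniformizer `π'` and residue field `k`): the Kronecker congruences only hold up to the Frobenius
twist of the coefficients, `β g ≡ (α g')^q mod p1`, `α g ≡ (β g')^q mod p2`, where `g'` is a lift
of the coefficientwise Frobenius untwist of the reduction of `g`.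

`B`, `BM` rings, `α β : BM →+* B`, `p1 p2 n` ideals of `B`, `n` prime containing `p1` and `p2`,
`ϖ : BM` (the uniformizer `π'`), `q ≥ 2`.

* `IsLocalGen α n ϖ f` : `f` generates `α⁻¹ n` modulo `ϖ`, locally;
* `transversal_of_mem` : if `f` is a local generator, `w ∈ n`, then `v := α f - w^q` generates `n`
  modulo `p1`, locally (`v ≡ α f mod n²`; elementary, no Nakayama);
* `crossing_transversal_twisted` : with `(S1)`, `(S2)`, twisted `(K1')`, `(K2')`, local generators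
  `f` (for `α⁻¹ n`) and `h` (for `β⁻¹ n`): there are `f' h'` with
  `u := β h - (α h')^q ∈ p1`, `v := α f - (β f')^q ∈ p2` and `n = p1 + (v) = p2 + (u)` locally;
* `exists_isLocalGen` from `BM ⧸ (ϖ)` Dedekind; `crossing_nodeData_twisted` : `NodeData` in `B_n`.
-/

set_option autoImplicit false

namespace Fermat.Agent.BR.CrossingTwisted

variable {B BM : Type*} [CommRing B] [CommRing BM]

/-- `f` is a *local generator modulo `ϖ`* of the prime `γ⁻¹ n` of `BM`. -/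
def IsLocalGen (γ : BM →+* B) (n : Ideal B) (ϖ f : BM) : Prop :=
  ∀ g : BM, γ g ∈ n → ∃ s a b : BM, γ s ∉ n ∧ s * g = a * ϖ + b * f

variable {γ : BM →+* B} {p n : Ideal B} {ϖ : BM} {q : ℕ}

/-- **Local generation modulo `p`**: if `BM → B ⧸ p` (via `γ`) is onto, `γ ϖ ∈ p`, `f` is a local
generator modulo `ϖ` of `γ⁻¹ n` and `w ∈ n`, then `γ f - w^q` generates `n` modulo `p` locally at
`n` (`q ≥ 2`). -/
theorem transversal_of_mem [n.IsPrime] (hp : p ≤ n) (hq2 : 2 ≤ q) (hϖ : γ ϖ ∈ p)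
    (S : ∀ x : B, ∃ g : BM, x - γ g ∈ p) {f : BM} (G : IsLocalGen γ n ϖ f)
    {w : B} (hw : w ∈ n) :
    ∀ x ∈ n, ∃ s, s ∉ n ∧ s * x ∈ p ⊔ Ideal.span {γ f - w ^ q} := by
  set v := γ f - w ^ q with hv
  have hvmem : v ∈ p ⊔ Ideal.span {v} :=
    Ideal.mem_sup_right (Ideal.mem_span_singleton_self v)
  have step : ∀ x ∈ n, ∃ s c : B, s ∉ n ∧ s * x - c * (v + w ^ q) ∈ p := by
    intro x hx
    obtain ⟨g, hg⟩ := S x
    have hγg : γ g ∈ n := by
      have : γ g = x - (x - γ g) := by ring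
      rw [this]; exact n.sub_mem hx (hp hg)
    obtain ⟨s, a, b, hs, hsg⟩ := G g hγg
    refine ⟨γ s, γ b, hs, ?_⟩
    have h1 : γ s * γ g = γ a * γ ϖ + γ b * γ f := by
      rw [← map_mul, hsg, map_add, map_mul, map_mul]
    have h2 : γ s * x - γ b * (v + w ^ q) = γ s * (x - γ g) + γ a * γ ϖ := by
      rw [hv]
      linear_combination h1
    rw [h2]
    exact p.add_mem (p.mul_mem_left _ hg) (p.mul_mem_left _ hϖ)
  obtain ⟨s₁, c₁, hs₁, h₁⟩ := step w hw
  have hpow : w ^ (q - 1) ∈ n := Ideal.pow_mem_of_mem n hw (q - 1) (by omega)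
  have hs₂ : s₁ - c₁ * w ^ (q - 1) ∉ n := by
    intro h
    apply hs₁
    have : s₁ = (s₁ - c₁ * w ^ (q - 1)) + c₁ * w ^ (q - 1) := by ring
    rw [this]; exact n.add_mem h (n.mul_mem_left _ hpow)
  have hqq : w ^ q = w * w ^ (q - 1) := by
    rw [← pow_succ']; congr 1; omega
  have h₂ : (s₁ - c₁ * w ^ (q - 1)) * w ∈ p ⊔ Ideal.span {v} := by
    have : (s₁ - c₁ * w ^ (q - 1)) * w = (s₁ * w - c₁ * (v + w ^ q)) + c₁ * v := by
      rw [hqq]; ring
    rw [this]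
    exact (p ⊔ Ideal.span {v}).add_mem (Ideal.mem_sup_left h₁) (Ideal.mul_mem_left _ _ hvmem)
  intro x hx
  obtain ⟨s, c, hs, h⟩ := step x hx
  refine ⟨(s₁ - c₁ * w ^ (q - 1)) * s, ?_, ?_⟩
  · intro hmem
    rcases Ideal.IsPrime.mem_or_mem inferInstance hmem with h' | h'
    · exact hs₂ h'
    · exact hs h'
  · have : (s₁ - c₁ * w ^ (q - 1)) * s * x =
        (s₁ - c₁ * w ^ (q - 1)) * (s * x - c * (v + w ^ q)) +
          (s₁ - c₁ * w ^ (q - 1)) * c * v +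
          c * w ^ (q - 1) * ((s₁ - c₁ * w ^ (q - 1)) * w) := by
      rw [hqq]; ring
    rw [this]
    refine (p ⊔ Ideal.span {v}).add_mem ((p ⊔ Ideal.span {v}).add_mem ?_ ?_) ?_
    · exact Ideal.mem_sup_left (p.mul_mem_left _ h)
    · exact Ideal.mul_mem_left _ _ hvmem
    · exact Ideal.mul_mem_left _ _ h₂

/-- if `x - w^q ∈ n` with `x ∈ n` then `w ∈ n` -/
theorem mem_of_sub_pow_mem [n.IsPrime] {x w : B} (hx : x ∈ n) (h : x - w ^ q ∈ n) : w ∈ n := by
  have h2 : w ^ q ∈ n := by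
    have : w ^ q = x - (x - w ^ q) := by ring
    rw [this]; exact n.sub_mem hx h
  exact Ideal.IsPrime.mem_of_pow_mem inferInstance q h2

section Both

variable {α β : BM →+* B} {p1 p2 : Ideal B}

/-- **Transversality at a crossing point, twisted form** (`#583`, section 2): `f` a local generator
of `α⁻¹ n`, `h` a local generator of `β⁻¹ n`; `f'`, `h'` Frobenius untwists provided by the twisted
Kronecker congruences `(K1')`, `(K2')`. -/
theorem crossing_transversal_twisted [n.IsPrime] (hp1 : p1 ≤ n) (hp2 : p2 ≤ n) (hq2 : 2 ≤ q)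
    (hϖ1 : α ϖ ∈ p1) (hϖ2 : β ϖ ∈ p2)
    (S1 : ∀ x : B, ∃ g : BM, x - α g ∈ p1) (S2 : ∀ x : B, ∃ g : BM, x - β g ∈ p2)
    (K1 : ∀ g : BM, ∃ g' : BM, β g - (α g') ^ q ∈ p1)
    (K2 : ∀ g : BM, ∃ g' : BM, α g - (β g') ^ q ∈ p2)
    {f : BM} (hf : α f ∈ n) (Gf : IsLocalGen α n ϖ f)
    {h : BM} (hh : β h ∈ n) (Gh : IsLocalGen β n ϖ h) :
    ∃ f' h' : BM, β h - (α h') ^ q ∈ p1 ∧ α f - (β f') ^ q ∈ p2 ∧
      (∀ x ∈ n, ∃ s, s ∉ n ∧ s * x ∈ p1 ⊔ Ideal.span {α f - (β f') ^ q}) ∧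
      (∀ x ∈ n, ∃ s, s ∉ n ∧ s * x ∈ p2 ⊔ Ideal.span {β h - (α h') ^ q}) := by
  obtain ⟨f', hf'⟩ := K2 f
  obtain ⟨h', hh'⟩ := K1 h
  have hβf' : β f' ∈ n := mem_of_sub_pow_mem hf (hp2 hf')
  have hαh' : α h' ∈ n := mem_of_sub_pow_mem hh (hp1 hh')
  exact ⟨f', h', hh', hf', transversal_of_mem hp1 hq2 hϖ1 S1 Gf hβf',
    transversal_of_mem hp2 hq2 hϖ2 S2 Gh hαh'⟩

end Both

/-! ### Existence of local generators -/

/-- **Existence of local generators**: if `BM ⧸ (ϖ)` is a Dedekind domain and `γ⁻¹ n` is not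
`(ϖ)`, there is a local generator modulo `ϖ` of `γ⁻¹ n`. -/
theorem exists_isLocalGen [n.IsPrime] [IsDedekindDomain (BM ⧸ (Ideal.span {ϖ}))]
    (hz : ∃ g : BM, γ g ∈ n ∧ g ∉ Ideal.span {ϖ}) (hϖn : γ ϖ ∈ n) :
    ∃ f : BM, γ f ∈ n ∧ IsLocalGen γ n ϖ f := by
  classical
  set I : Ideal BM := Ideal.span {ϖ} with hI
  set π := Ideal.Quotient.mk I with hπ
  have hsurj : Function.Surjective π := Ideal.Quotient.mk_surjective
  set z : Ideal BM := n.comap γ with hzdef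
  have hIz : I ≤ z := by
    rw [hI, Ideal.span_singleton_le_iff_mem, hzdef, Ideal.mem_comap]
    exact hϖn
  have hker : RingHom.ker π ≤ z := by rw [Ideal.mk_ker]; exact hIz
  have hzprime : z.IsPrime := Ideal.comap_isPrime γ n
  have hmprime : (z.map π).IsPrime := Ideal.map_isPrime_of_surjective hsurj hker
  have hmem_iff : ∀ g : BM, π g ∈ z.map π ↔ g ∈ z := by
    intro g
    constructor
    · intro h
      obtain ⟨y, hy, hyg⟩ := (Ideal.mem_map_iff_of_surjective π hsurj).mp h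
      have h1 : g - y ∈ I := by
        rw [← Ideal.Quotient.eq_zero_iff_mem, map_sub, hyg, sub_self]
      have : g = (g - y) + y := by ring
      rw [this]; exact z.add_mem (hIz h1) hy
    · exact fun h => Ideal.mem_map_of_mem π h
  have hmbot : z.map π ≠ ⊥ := by
    obtain ⟨g, hg, hgI⟩ := hz
    intro hbot
    apply hgI
    have : π g ∈ z.map π := Ideal.mem_map_of_mem π hg
    rwa [hbot, Ideal.mem_bot, Ideal.Quotient.eq_zero_iff_mem] at this
  obtain ⟨tbar, htm, ht⟩ := SpecialFibre.exists_local_generator (z.map π) hmbot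
  obtain ⟨f, rfl⟩ := hsurj tbar
  refine ⟨f, (hmem_iff f).mp htm, ?_⟩
  intro g hg
  obtain ⟨sbar, hsbar, c, hc⟩ := ht (π g) (Ideal.mem_map_of_mem π hg)
  obtain ⟨s, rfl⟩ := hsurj sbar
  obtain ⟨b, rfl⟩ := hsurj c
  have h1 : s * g - b * f ∈ I := by
    rw [← Ideal.Quotient.eq_zero_iff_mem, map_sub, map_mul, map_mul, hc]; ring
  obtain ⟨a, ha⟩ := Ideal.mem_span_singleton'.mp h1
  refine ⟨s, a, b, fun hs => hsbar ((hmem_iff s).mpr hs), ?_⟩
  rw [ha]; ring

/-- a point of a component which is not its generic point has `γ⁻¹ n ≠ (ϖ)` -/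
theorem exists_mem_notMem_span (hpn : p ≤ n) (hne : p ≠ n) (S : ∀ x : B, ∃ g : BM, x - γ g ∈ p)
    (hϖ : γ ϖ ∈ p) :
    ∃ g : BM, γ g ∈ n ∧ g ∉ Ideal.span {ϖ} := by
  have hlt : p < n := lt_of_le_of_ne hpn hne
  obtain ⟨x, hxn, hxp⟩ := Set.exists_of_ssubset hlt
  obtain ⟨g, hg⟩ := S x
  refine ⟨g, ?_, ?_⟩
  · have : γ g = x - (x - γ g) := by ring
    rw [this]; exact n.sub_mem hxn (hpn hg)
  · intro hgI
    apply hxp
    obtain ⟨a, rfl⟩ := Ideal.mem_span_singleton'.mp hgI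
    have h1 : γ (a * ϖ) ∈ p := by rw [map_mul]; exact p.mul_mem_left _ hϖ
    have : x = (x - γ (a * ϖ)) + γ (a * ϖ) := by ring
    rw [SetLike.mem_coe, this]; exact p.add_mem hg h1

/-! ### The resulting `NodeData` -/

section Node

open Fermat.Agent.BR.SpecialFibre Fermat.Agent.BR.NodeLemma

variable {α β : BM →+* B} {p1 p2 : Ideal B}

/-- **`NodeData` at a crossing point** of a two-component normal model, twisted form. -/
theorem crossing_nodeData_twisted [IsDomain B] [IsNoetherianRing B] [IsIntegrallyClosed B]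
    [n.IsPrime] (O : Type*) [CommRing O] [Algebra B O] [IsLocalization.AtPrime O n]
    [IsLocalRing O] {ϖB : B} (h : TwoComponents ϖB p1 p2) (hα : α ϖ = ϖB) (hβ : β ϖ = ϖB)
    (hp1 : p1 ≤ n) (hp2 : p2 ≤ n) (hq2 : 2 ≤ q)
    (S1 : ∀ x : B, ∃ g : BM, x - α g ∈ p1) (S2 : ∀ x : B, ∃ g : BM, x - β g ∈ p2)
    (K1 : ∀ g : BM, ∃ g' : BM, β g - (α g') ^ q ∈ p1)
    (K2 : ∀ g : BM, ∃ g' : BM, α g - (β g') ^ q ∈ p2)
    {f : BM} (hf : α f ∈ n) (Gf : IsLocalGen α n ϖ f)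
    {g : BM} (hg : β g ∈ n) (Gg : IsLocalGen β n ϖ g) :
    ∃ u v : B, NodeData (algebraMap B O ϖB) (algebraMap B O u) (algebraMap B O v)
      (p1.map (algebraMap B O)) (p2.map (algebraMap B O)) := by
  obtain ⟨f', g', hu, hv, hv1, hu2⟩ :=
    crossing_transversal_twisted hp1 hp2 hq2 (hα ▸ h.q_mem1) (hβ ▸ h.q_mem2) S1 S2 K1 K2
      hf Gf hg Gg
  exact ⟨_, _, h.nodeData n O hp1 hp2 hu hv hv1 hu2⟩

end Node

end Fermat.Agent.BR.CrossingTwisted
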