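import Mathlib

/-!
# Program B (BADRED), cusp chart (risk R2): abstract separator lemmas (Mathlib only)

* `not_both_le_of_separator` : in a ring `B'` with two ideals `p1`, `p2` (the two vertical
  components) and an element `x` (`= 1/j`), an element `h` with `h - 1 ∈ p1` and
  `h ^ a - c * x ^ b ∈ p2` (`a b > 0`) shows that no prime `n ∋ x` contains both `p1` and `p2`:
  the points at infinity are never crossing points.  (For `h = j_q / j^q`: `res₁ h = 1`,
  `(res₂ h)^q = (res₂ (1/j))^(q²-1)`, see `BR/CuspSepVal.lean`.)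
* `isIntegral_mul_inv_pow` : if `Φ(X, Y)` (outer variable `X`, inner `Y`) is monic in `X` of degree
  `n` with `deg_Y (coeff_b Φ) ≤ m (n - b)` and `Φ(y, x) = 0`, `x ≠ 0`, then `y / x^m` is integral
  over `R[1/x]`.  (For the modular polynomial `Φ_q`, `m = q`: `j_q / j^q` is integral over
  `ℤ[1/j]`, i.e. lies in the chart at infinity.)
-/

set_option autoImplicit false

namespace Fermat.Agent.BR.CuspSep

open Polynomial

/-- **no crossing at infinity** -/
theorem not_both_le_of_separator {B : Type*} [CommRing B] {p1 p2 n : Ideal B} [hn : n.IsPrime]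
    {h x c : B} {a b : ℕ} (hb : 0 < b) (h1 : h - 1 ∈ p1) (h2 : h ^ a - c * x ^ b ∈ p2)
    (hx : x ∈ n) : ¬ (p1 ≤ n ∧ p2 ≤ n) := by
  rintro ⟨hp1, hp2⟩
  have hxb : c * x ^ b ∈ n := by
    obtain ⟨k, rfl⟩ := Nat.exists_eq_succ_of_ne_zero hb.ne'
    rw [pow_succ]
    exact n.mul_mem_left _ (n.mul_mem_left _ hx)
  have hha : h ^ a ∈ n := by
    have : h ^ a = (h ^ a - c * x ^ b) + c * x ^ b := by ring
    rw [this]
    exact n.add_mem (hp2 h2) hxb
  have hh : h ∈ n := hn.mem_of_pow_mem a hha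
  have h1n : (1 : B) ∈ n := by
    have : (1 : B) = h - (h - 1) := by ring
    rw [this]
    exact n.sub_mem hh (hp1 h1)
  exact hn.ne_top ((Ideal.eq_top_iff_one n).mpr h1n)

/-- `c(x) * (1/x)^N` is a polynomial in `1/x` when `deg c ≤ N`. -/
theorem aeval_mul_inv_pow_mem_adjoin {R F : Type*} [CommRing R] [Field F] [Algebra R F]
    {x : F} (hx : x ≠ 0) (c : R[X]) {N : ℕ} (hc : c.natDegree ≤ N) :
    aeval x c * (x⁻¹) ^ N ∈ Algebra.adjoin R {x⁻¹} := by
  let _ : Invertible x := invertibleOfNonzero hx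
  have h1 := eval₂_reflect_mul_pow (algebraMap R F) x N c hc
  have h2 : aeval x c * (x⁻¹) ^ N = aeval (x⁻¹) (reflect N c) := by
    rw [aeval_def, aeval_def, ← h1, invOf_eq_inv, mul_assoc, ← mul_pow, mul_inv_cancel₀ hx, one_pow,
      mul_one]
  rw [h2, Algebra.adjoin_singleton_eq_range_aeval]
  exact ⟨_, rfl⟩

/-- **integrality of `y / x^m` over `R[1/x]`** from a two-variable relation with a degree bound. -/
theorem isIntegral_mul_inv_pow {R F : Type*} [CommRing R] [Field F] [Algebra R F]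
    {Φ : R[X][X]} (hΦ : Φ.Monic) (m : ℕ)
    (hdeg : ∀ b, (Φ.coeff b).natDegree ≤ m * (Φ.natDegree - b)) {x y : F} (hx : x ≠ 0)
    (hroot : (Φ.map ((aeval x : R[X] →ₐ[R] F) : R[X] →+* F)).eval y = 0) :
    IsIntegral (Algebra.adjoin R {x⁻¹}) (y * (x⁻¹) ^ m) := by
  set p : F[X] := Φ.map ((aeval x : R[X] →ₐ[R] F) : R[X] →+* F) with hp
  have hpm : p.Monic := hΦ.map _
  have hpn : p.natDegree = Φ.natDegree := hΦ.natDegree_map _
  set g : F[X] := p.scaleRoots ((x⁻¹) ^ m) with hg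
  have hgm : g.Monic := (monic_scaleRoots_iff _).mpr hpm
  have hgroot : g.eval ((x⁻¹) ^ m * y) = 0 := by
    rw [hg, scaleRoots_eval_mul, hroot, mul_zero]
  have hcoeff : ∀ i, g.coeff i ∈ Algebra.adjoin R {x⁻¹} := by
    intro i
    rw [hg, coeff_scaleRoots, hpn, hp, coeff_map, ← pow_mul]
    exact aeval_mul_inv_pow_mem_adjoin hx (Φ.coeff i) (hdeg i)
  have hlifts : g ∈ Polynomial.lifts (algebraMap (Algebra.adjoin R {x⁻¹}) F) :=
    (Polynomial.lifts_iff_coeff_lifts g).mpr fun i => ⟨⟨g.coeff i, hcoeff i⟩, rfl⟩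
  obtain ⟨g', hg'g, -, hg'm⟩ := Polynomial.lifts_and_natDegree_eq_and_monic hlifts hgm
  refine ⟨g', hg'm, ?_⟩
  rw [Polynomial.eval₂_eq_eval_map, hg'g, mul_comm, hgroot]

end Fermat.Agent.BR.CuspSep
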