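/-
Program B, node B2.KRON (file 1 of 3): characteristic polynomial of a circulant matrix.

* `circCharpoly_eq_prod` : over a domain containing a primitive `n`-th root of unity `ζ`,
  `charpoly (circulant v) = ∏_{b < n} (X - ∑_r ζ^{b r} v_r)` (Vandermonde diagonalisation);
* `circCharpoly_char` : over a domain of prime characteristic `q`, for `v : Fin q → S`,
  `charpoly (circulant v) = X^q - (∑_r v_r)^q` (Frobenius on commuting matrices).

Mathlib only.
-/
import Mathlib

set_option autoImplicit false

namespace Fermat.Agent.BR.Kron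

open Polynomial Matrix

section Vandermonde

variable {S : Type*} [CommRing S]

/-- The `b`-th eigenvalue `∑_r ζ^{b r} v_r` of the circulant matrix of `v`. -/
def circEig {n : ℕ} (ζ : S) (v : Fin n → S) (b : ℕ) : S :=
  ∑ r : Fin n, ζ ^ (b * (r : ℕ)) * v r

theorem vandermonde_mul_circulant {n : ℕ} [NeZero n] {ζ : S} (hζ : ζ ^ n = 1) (v : Fin n → S) :
    Matrix.vandermonde (fun b : Fin n => ζ ^ (b : ℕ)) * Matrix.circulant v =
      Matrix.diagonal (fun b : Fin n => circEig ζ v b) *
        Matrix.vandermonde (fun b : Fin n => ζ ^ (b : ℕ)) := by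
  ext b j
  rw [Matrix.mul_apply, Matrix.diagonal_mul]
  simp only [Matrix.vandermonde_apply, Matrix.circulant_apply]
  rw [circEig, Finset.sum_mul]
  refine Fintype.sum_equiv (Equiv.subRight j) _ _ ?_
  intro i
  simp only [Equiv.subRight_apply]
  have h1 : (ζ ^ (b : ℕ)) ^ n = 1 := by rw [← pow_mul, mul_comm, pow_mul, hζ, one_pow]
  have h2 : (ζ ^ (b : ℕ)) ^ (i : ℕ) = (ζ ^ (b : ℕ)) ^ (((i - j : Fin n) : ℕ) + (j : ℕ)) := by
    rw [pow_eq_pow_mod _ h1, pow_eq_pow_mod (((i - j : Fin n) : ℕ) + (j : ℕ)) h1]
    congr 1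
    have := Fin.val_add (i - j) j
    rw [sub_add_cancel] at this
    rw [← this, Nat.mod_eq_of_lt i.isLt]
  rw [h2, pow_add, ← pow_mul]
  ring

theorem circCharpoly_eq_prod_fin [IsDomain S] {n : ℕ} [NeZero n] {ζ : S}
    (hζ : IsPrimitiveRoot ζ n) (v : Fin n → S) :
    (Matrix.circulant v).charpoly = ∏ b : Fin n, (X - C (circEig ζ v b)) := by
  classical
  set V : Matrix (Fin n) (Fin n) S := Matrix.vandermonde (fun b : Fin n => ζ ^ (b : ℕ)) with hV
  have hVdet : V.det ≠ 0 := by
    rw [hV, Matrix.det_vandermonde_ne_zero_iff]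
    intro a b hab
    exact Fin.ext (hζ.pow_inj a.isLt b.isLt hab)
  have hVC : ((C : S →+* S[X]).mapMatrix V).det ≠ 0 := by
    rw [← RingHom.map_det]
    exact fun h => hVdet (C_eq_zero.mp h)
  have hcomm := vandermonde_mul_circulant hζ.pow_eq_one v
  rw [← hV] at hcomm
  have key : (C : S →+* S[X]).mapMatrix V * Matrix.charmatrix (Matrix.circulant v) =
      Matrix.diagonal (fun b : Fin n => (X - C (circEig ζ v b) : S[X])) *
        (C : S →+* S[X]).mapMatrix V := by
    have h1 : (C : S →+* S[X]).mapMatrix V * (C : S →+* S[X]).mapMatrix (Matrix.circulant v) =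
        (C : S →+* S[X]).mapMatrix (Matrix.diagonal (fun b : Fin n => circEig ζ v b)) *
          (C : S →+* S[X]).mapMatrix V := by
      rw [← map_mul, ← map_mul, hcomm]
    have h2 : (Matrix.diagonal (fun b : Fin n => (X - C (circEig ζ v b) : S[X]))) =
        Matrix.scalar (Fin n) (X : S[X]) -
          (C : S →+* S[X]).mapMatrix (Matrix.diagonal (fun b : Fin n => circEig ζ v b)) := by
      ext i j
      by_cases hij : i = j
      · subst hij
        simp
      · simp [hij]
    rw [Matrix.charmatrix, h2, mul_sub, sub_mul, h1]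
    congr 1
    exact ((Matrix.scalar_commute (X : S[X]) (fun r' => Commute.all _ _) _).eq).symm
  have hdet := congrArg Matrix.det key
  rw [Matrix.det_mul, Matrix.det_mul, Matrix.det_diagonal, mul_comm] at hdet
  exact mul_right_cancel₀ hVC hdet

theorem circCharpoly_eq_prod [IsDomain S] {n : ℕ} [NeZero n] {ζ : S}
    (hζ : IsPrimitiveRoot ζ n) (v : Fin n → S) :
    (Matrix.circulant v).charpoly = ∏ b ∈ Finset.range n, (X - C (circEig ζ v b)) := by
  rw [circCharpoly_eq_prod_fin hζ v]
  exact Fin.prod_univ_eq_prod_range (fun b => (X - C (circEig ζ v b) : S[X])) n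

end Vandermonde

section CharQ

variable {S : Type*} [CommRing S]

theorem circulant_single_one_pow {n : ℕ} [NeZero n] (k : ℕ) :
    (Matrix.circulant (Pi.single (Fin.ofNat n 1) (1 : S))) ^ k =
      Matrix.circulant (Pi.single (Fin.ofNat n k) (1 : S)) := by
  classical
  induction k with
  | zero =>
    rw [pow_zero]
    exact (Matrix.circulant_single_one S (Fin n)).symm
  | succ k ih =>
    rw [pow_succ, ih, Matrix.circulant_mul]
    congr 1
    funext i
    simp only [Matrix.mulVec, dotProduct, Matrix.circulant_apply]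
    rw [Finset.sum_eq_single (Fin.ofNat n 1)]
    · simp only [Pi.single_eq_same, mul_one, Pi.single_apply]
      congr 1
      apply propext
      rw [sub_eq_iff_eq_add]
      constructor
      · rintro rfl
        apply Fin.ext
        simp [Fin.val_add]
      · rintro rfl
        apply Fin.ext
        simp [Fin.val_add]
    · intro j _ hj
      rw [Pi.single_eq_of_ne hj, mul_zero]
    · intro h
      exact absurd (Finset.mem_univ _) h

theorem circulant_eq_sum_smul {n : ℕ} [NeZero n] (v : Fin n → S) :
    Matrix.circulant v = ∑ r : Fin n, v r • Matrix.circulant (Pi.single r (1 : S)) := by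
  classical
  ext i j
  simp only [Matrix.sum_apply, Matrix.smul_apply, Matrix.circulant_apply, Pi.single_apply,
    smul_eq_mul, mul_ite, mul_one, mul_zero]
  rw [Finset.sum_ite_eq]
  simp

theorem circulant_pow_char {q : ℕ} [Fact q.Prime] [CharP S q] (v : Fin q → S) :
    (Matrix.circulant v) ^ q = Matrix.scalar (Fin q) ((∑ r, v r) ^ q) := by
  classical
  have : NeZero q := ⟨(Fact.out : q.Prime).ne_zero⟩
  set P : Matrix (Fin q) (Fin q) S := Matrix.circulant (Pi.single (Fin.ofNat q 1) (1 : S)) with hP
  set p : S[X] := ∑ r : Fin q, C (v r) * X ^ (r : ℕ) with hp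
  have h1 : Polynomial.aeval P p = Matrix.circulant v := by
    rw [hp, map_sum, circulant_eq_sum_smul v]
    refine Finset.sum_congr rfl fun r _ => ?_
    rw [map_mul, Polynomial.aeval_C, Polynomial.aeval_X_pow, hP, circulant_single_one_pow,
      Algebra.algebraMap_eq_smul_one, smul_mul_assoc, one_mul]
    congr 3
    apply Fin.ext
    simp
  have h2 : p ^ q = ∑ r : Fin q, C (v r ^ q) * X ^ ((r : ℕ) * q) := by
    rw [hp, sum_pow_char q]
    refine Finset.sum_congr rfl fun r _ => ?_
    rw [mul_pow, ← C_pow, ← pow_mul]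
  have h3 : Polynomial.aeval P (p ^ q) = Matrix.scalar (Fin q) (∑ r, v r ^ q) := by
    rw [h2, map_sum, map_sum]
    refine Finset.sum_congr rfl fun r _ => ?_
    rw [map_mul, Polynomial.aeval_C, Polynomial.aeval_X_pow, hP, circulant_single_one_pow]
    have h0 : Fin.ofNat q ((r : ℕ) * q) = 0 := by
      apply Fin.ext
      simp
    rw [h0, Matrix.circulant_single_one, mul_one]
    rfl
  rw [← h1, ← map_pow, h3, sum_pow_char q]

theorem circCharpoly_char [IsDomain S] {q : ℕ} [Fact q.Prime] [CharP S q] (v : Fin q → S) :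
    (Matrix.circulant v).charpoly = X ^ q - C ((∑ r, v r) ^ q) := by
  classical
  have hne : NeZero q := ⟨(Fact.out : q.Prime).ne_zero⟩
  have : Nonempty (Fin q) := ⟨Fin.ofNat q 0⟩
  set A := Matrix.circulant v with hAdef
  set σ := ∑ r, v r with hσ
  have hA : A ^ q = Matrix.scalar (Fin q) (σ ^ q) := circulant_pow_char v
  have hcomm : Commute (Matrix.scalar (Fin q) (X : S[X])) ((C : S →+* S[X]).mapMatrix A) :=
    Matrix.scalar_commute _ (fun _ => Commute.all _ _) _
  have h1 : (Matrix.charmatrix A) ^ q = Matrix.scalar (Fin q) ((X - C σ : S[X]) ^ q) := by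
    rw [Matrix.charmatrix, sub_pow_char_of_commute q hcomm, ← map_pow, ← map_pow, hA,
      sub_pow_char, ← C_pow, map_sub]
    congr 1
    ext i j
    by_cases hij : i = j
    · subst hij
      simp
    · simp [hij]
  have h2 : (A.charpoly) ^ q = ((X - C σ : S[X]) ^ q) ^ q := by
    rw [Matrix.charpoly, ← Matrix.det_pow, h1]
    simp
  have h3 := frobenius_inj S[X] q h2
  rw [h3, sub_pow_char, C_pow]

end CharQ

end Fermat.Agent.BR.Kron
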