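/-
Program B, node B2.KRON (file 2 of 3): the norm polynomial of a Laurent series.

For `f ∈ C((s))` and `n ≥ 1`, `resPart n r f` is the part of `f` supported on the exponents
`≡ r mod n`, and `normPoly n f ∈ C((s))[X]` is the characteristic polynomial of the circulant matrix
`(resPart n (i - j) f)_{i, j : Fin n}`.  It is defined over every coefficient ring and commutes with
`coeffMap`; over a domain containing a primitive `n`-th root of unity it equals
`∏_{b<n} (X - f(ζ^b s))`, and in prime characteristic `q` we have `normPoly q f = X^q - f^q`.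
-/
import Mathlib
import Fermat.Agent.Igusa.Subst
import Fermat.Agent.BR.KronCirc

set_option autoImplicit false

noncomputable section

namespace Fermat.Agent.BR.Kron

open Polynomial HahnSeries ModularCurve Fermat.Agent.Igusa

variable {C : Type*} [CommRing C]

/-- The part of a Laurent series supported on the exponents `≡ r mod n`. -/
def resPart (n r : ℕ) (f : LaurentSeries C) : LaurentSeries C where
  coeff k := if k % (n : ℤ) = (r : ℤ) then f.coeff k else 0
  isPWO_support' := f.isPWO_support.mono fun k hk => by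
    rw [Function.mem_support] at hk
    rw [HahnSeries.mem_support]
    intro h
    exact hk (by rw [h, ite_self])

@[simp]
theorem resPart_coeff (n r : ℕ) (f : LaurentSeries C) (k : ℤ) :
    (resPart n r f).coeff k = if k % (n : ℤ) = (r : ℤ) then f.coeff k else 0 := rfl

theorem coeffMap_resPart {D : Type*} [CommRing D] (φ : C →+* D) (n r : ℕ) (f : LaurentSeries C) :
    coeffMap φ (resPart n r f) = resPart n r (coeffMap φ f) := by
  ext k
  simp only [coeffMap_coeff, resPart_coeff]
  split_ifs
  · rfl
  · exact map_zero φ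

theorem sum_ite_emod {M : Type*} [AddCommMonoid M] (n : ℕ) [NeZero n] (k : ℤ) (g : Fin n → M) :
    ∑ r : Fin n, (if k % (n : ℤ) = ((r : ℕ) : ℤ) then g r else 0) =
      g ⟨(k % (n : ℤ)).toNat, by
        have hn : (0 : ℤ) < (n : ℤ) := by exact_mod_cast Nat.pos_of_ne_zero (NeZero.ne n)
        have h1 := Int.emod_nonneg k hn.ne'
        have h2 := Int.emod_lt_of_pos k hn
        omega⟩ := by
  have hn : (0 : ℤ) < (n : ℤ) := by exact_mod_cast Nat.pos_of_ne_zero (NeZero.ne n)
  have h1 := Int.emod_nonneg k hn.ne'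
  rw [Finset.sum_eq_single_of_mem _ (Finset.mem_univ _)]
  · rw [if_pos]
    simp only
    omega
  · intro r _ hr
    rw [if_neg]
    intro h
    apply hr
    apply Fin.ext
    simp only
    omega

theorem sum_resPart (n : ℕ) [NeZero n] (f : LaurentSeries C) :
    ∑ r : Fin n, resPart n r f = f := by
  ext k
  rw [HahnSeries.coeff_sum]
  simp only [resPart_coeff]
  rw [sum_ite_emod n k (fun _ => f.coeff k)]

/-- `f(ζ^b s) = ∑_r ζ^{b r} f_r(s)` for `ζ^n = 1`. -/
theorem scale_eq_sum_resPart (n : ℕ) [NeZero n] {ζ : Cˣ} (hζ : ζ ^ n = 1) (b : ℕ)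
    (f : LaurentSeries C) :
    scale (ζ ^ b) f =
      ∑ r : Fin n, HahnSeries.C ((ζ : C) ^ (b * (r : ℕ))) * resPart n r f := by
  ext k
  rw [HahnSeries.coeff_sum, scale_coeff]
  simp only [HahnSeries.C_mul_eq_smul, HahnSeries.coeff_smul, resPart_coeff, smul_eq_mul,
    mul_ite, mul_zero]
  rw [sum_ite_emod n k (fun r => (ζ : C) ^ (b * (r : ℕ)) * f.coeff k)]
  simp only
  congr 1
  have hn : (0 : ℤ) < (n : ℤ) := by exact_mod_cast Nat.pos_of_ne_zero (NeZero.ne n)
  have h1 := Int.emod_nonneg k hn.ne'
  have hk : k = (n : ℤ) * (k / n) + ((k % (n : ℤ)).toNat : ℤ) := by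
    rw [Int.toNat_of_nonneg h1]
    exact (Int.mul_ediv_add_emod k n).symm
  have hz : (ζ ^ b) ^ k = (ζ ^ b) ^ ((k % (n : ℤ)).toNat) := by
    conv_lhs => rw [hk]
    rw [zpow_add, zpow_mul, zpow_natCast, zpow_natCast, ← pow_mul, mul_comm b n, pow_mul, hζ,
      one_pow, one_zpow, one_mul]
  rw [hz, ← pow_mul, Units.val_pow_eq_pow_val]

/-- The norm polynomial of `f` with respect to `s ↦ s^n`: the characteristic polynomial of the
circulant matrix of the residue-class parts of `f`. -/
def normPoly (n : ℕ) (f : LaurentSeries C) : (LaurentSeries C)[X] :=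
  (Matrix.circulant fun r : Fin n => resPart n r f).charpoly

theorem normPoly_monic (n : ℕ) (f : LaurentSeries C) [Nontrivial C] : (normPoly n f).Monic :=
  Matrix.charpoly_monic _

theorem normPoly_natDegree (n : ℕ) (f : LaurentSeries C) [Nontrivial C] :
    (normPoly n f).natDegree = n := by
  rw [normPoly, Matrix.charpoly_natDegree_eq_dim, Fintype.card_fin]

theorem normPoly_map {D : Type*} [CommRing D] (φ : C →+* D) (n : ℕ) (f : LaurentSeries C) :
    (normPoly n f).map (coeffMap φ) = normPoly n (coeffMap φ f) := by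
  rw [normPoly, normPoly, ← Matrix.charpoly_map, Matrix.map_circulant]
  simp only [coeffMap_resPart]

theorem normPoly_eq_prod [IsDomain C] (n : ℕ) [NeZero n] {ζ : Cˣ} (hζ : IsPrimitiveRoot ζ n)
    (f : LaurentSeries C) :
    normPoly n f = ∏ b ∈ Finset.range n, (X - Polynomial.C (scale (ζ ^ b) f)) := by
  have hζ' : IsPrimitiveRoot (HahnSeries.C (ζ : C) : LaurentSeries C) n := by
    have h1 : IsPrimitiveRoot (ζ : C) n := IsPrimitiveRoot.coe_units_iff.mpr hζ
    exact h1.map_of_injective (f := (HahnSeries.C : C →+* LaurentSeries C)) HahnSeries.C_injective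
  rw [normPoly, circCharpoly_eq_prod hζ']
  refine Finset.prod_congr rfl fun b _ => ?_
  rw [circEig, scale_eq_sum_resPart n hζ.pow_eq_one b f]
  simp only [map_pow]

theorem normPoly_char [IsDomain C] (q : ℕ) [Fact q.Prime] [CharP C q] (f : LaurentSeries C) :
    normPoly q f = X ^ q - Polynomial.C (f ^ q) := by
  have : NeZero q := ⟨(Fact.out : q.Prime).ne_zero⟩
  have : CharP (LaurentSeries C) q :=
    charP_of_injective_ringHom (f := (HahnSeries.C : C →+* LaurentSeries C))
      HahnSeries.C_injective q
  rw [normPoly, circCharpoly_char, sum_resPart]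

end Fermat.Agent.BR.Kron
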