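/-
Program B, node B2.KRON (file 3 of 3): the integral modular polynomial `PhiZ q ∈ ℤ[Y][X]` of prime
level `q` and Kronecker's congruence in polynomial form.

Conventions as in `Igusa.ModEqData`: outer variable `X`, inner variable `Y = j`;
`Polynomial.evalEval a b Φ = Φ(outer = b, inner = a)`.

* `PhiZ q : ℤ[X][X]`, monic of degree `q + 1`, with
  `Φ(X, j(s^q)) = (X - j(s^{q²})) · normPoly q j` over `ℤ((s))` (`evY_PhiZ`);
* `phi_eq_map_PhiZ` : every `d : ModEqData C q ζ pinv` over a field of characteristic `0`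
  has `d.Phi = (PhiZ q).map _`;

Kronecker's congruence `Φ_q = (X^q - Y)(X - Y^q) + q Ψ_q`, the root identity and the node form are in
`BR/KronCong.lean`.
-/
import Mathlib
import Fermat.Agent.Igusa.ModEqData
import Fermat.Agent.Igusa.ModEqCoeff
import Fermat.Agent.Igusa.Tower
import Fermat.Agent.ES.LaurentFrob
import Fermat.Agent.ES.ProductFormulaC
import Fermat.Agent.BR.KronNorm

set_option autoImplicit false

noncomputable section

namespace Fermat.Agent.BR.Kron

open Polynomial HahnSeries ModularCurve Fermat.Agent.Igusa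

/-! ### The right-hand side of the modular equation over `ℤ` -/

/-- `(X - j(s^{q²})) · normPoly q j ∈ ℤ((s))[X]`. -/
def rhsZ (q : ℕ) [NeZero q] : (LaurentSeries ℤ)[X] :=
  (X - Polynomial.C (J (1 : ℤˣ) (q * q))) * normPoly q (jqModC ℤ)

theorem coeffMap_jqModC {C D : Type*} [CommRing C] [CommRing D] (φ : C →+* D) :
    coeffMap φ (jqModC C) = jqModC D := map_jqModC φ

theorem rhsZ_map (q : ℕ) [NeZero q] (C : Type*) [CommRing C] :
    (rhsZ q).map (coeffMap (Int.castRingHom C)) =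
      (X - Polynomial.C (J (1 : Cˣ) (q * q))) * normPoly q (jqModC C) := by
  rw [rhsZ, Polynomial.map_mul, Polynomial.map_sub, Polynomial.map_X, Polynomial.map_C,
    coeffMap_J, map_one, normPoly_map, coeffMap_jqModC]

theorem scale_jqModC {C : Type*} [CommRing C] (c : Cˣ) : scale c (jqModC C) = J c 1 := by
  rw [J_def, subst_one_nat]

/-- Over a domain with a primitive `q`-th root of unity, `rhsZ` is the right-hand side of (ME1). -/
theorem rhsZ_map_eq_prod (q : ℕ) [NeZero q] {C : Type*} [CommRing C] [IsDomain C] {ζ : Cˣ}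
    (hζ : IsPrimitiveRoot ζ q) :
    (rhsZ q).map (coeffMap (Int.castRingHom C)) =
      (X - Polynomial.C (J (1 : Cˣ) (q * q))) *
        ∏ b ∈ Finset.range q, (X - Polynomial.C (J (ζ ^ b) 1)) := by
  rw [rhsZ_map, normPoly_eq_prod q hζ]
  simp only [scale_jqModC]

theorem coeffMap_J_one_int (q : ℕ) [NeZero q] (C : Type*) [CommRing C] :
    coeffMap (Int.castRingHom C) (J (1 : ℤˣ) q) = J (1 : Cˣ) q := by
  rw [coeffMap_J, map_one]

/-- (ME1) for modular equation data over a domain, with the right-hand side coming from `ℤ`. -/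
theorem evY_Phi_eq_rhsZ_map (q : ℕ) [NeZero q] {C : Type*} [CommRing C] [IsDomain C] {ζ : Cˣ}
    (hζ : IsPrimitiveRoot ζ q) {pinv : C} (d : ModEqData C q ζ pinv) :
    evY (coeffMap (Int.castRingHom C) (J (1 : ℤˣ) q)) d.Phi =
      (rhsZ q).map (coeffMap (Int.castRingHom C)) := by
  rw [coeffMap_J_one_int, d.me1, rhsZ_map_eq_prod q hζ]

/-! ### Existence over `ℤ` -/

theorem exists_PhiZ (q : ℕ) [NeZero q] (hq : q.Prime) :
    ∃ Φ : ℤ[X][X], Φ.Monic ∧ Φ.natDegree = q + 1 ∧ evY (J (1 : ℤˣ) q) Φ = rhsZ q := by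
  obtain ⟨ζ, pinv, hζ, ⟨d⟩⟩ := Fermat.Agent.ES.Gen.hasModEqData_complex q hq
  have hqpos : 0 < q := hq.pos
  have h := evY_Phi_eq_rhsZ_map q hζ d
  have hord : (coeffMap (Int.castRingHom ℂ) (J (1 : ℤˣ) q)).order = -(q : ℤ) := by
    rw [coeffMap_J_one_int, order_J]
  have hlead : (coeffMap (Int.castRingHom ℂ) (J (1 : ℤˣ) q)).leadingCoeff = 1 := by
    rw [coeffMap_J_one_int, leadingCoeff_J]
    simp
  obtain ⟨Φ', h1, h2, h3⟩ := exists_map_eq_of_evY_eq (Int.castRingHom ℂ) (J (1 : ℤˣ) q) hqpos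
    hord hlead d.Phi (rhsZ q) h
  have hmonic : Φ'.Monic := h3 d.Phi_monic
  refine ⟨Φ', hmonic, ?_, ?_⟩
  · rw [← d.Phi_natDegree]
    exact Polynomial.natDegree_eq_of_degree_eq h2
  · exact evY_eq_of_map_eq (Int.castRingHom ℂ) Int.cast_injective (J (1 : ℤˣ) q) d.Phi (rhsZ q) h
      Φ' h1

open Classical in
/-- The modular polynomial `Φ_q(X, Y) ∈ ℤ[Y][X]` of prime level `q` (outer variable `X`, inner
variable `Y`); junk value `1` if `q` is not prime. -/
def PhiZ (q : ℕ) [NeZero q] : ℤ[X][X] :=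
  if h : ∃ Φ : ℤ[X][X], Φ.Monic ∧ Φ.natDegree = q + 1 ∧ evY (J (1 : ℤˣ) q) Φ = rhsZ q then
    Classical.choose h else 1

theorem PhiZ_spec (q : ℕ) [NeZero q] (hq : q.Prime) :
    (PhiZ q).Monic ∧ (PhiZ q).natDegree = q + 1 ∧ evY (J (1 : ℤˣ) q) (PhiZ q) = rhsZ q := by
  have h := exists_PhiZ q hq
  rw [PhiZ, dif_pos h]
  exact Classical.choose_spec h

theorem PhiZ_monic (q : ℕ) [NeZero q] (hq : q.Prime) : (PhiZ q).Monic := (PhiZ_spec q hq).1

theorem PhiZ_natDegree (q : ℕ) [NeZero q] (hq : q.Prime) : (PhiZ q).natDegree = q + 1 :=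
  (PhiZ_spec q hq).2.1

/-- `Φ_q(X, j(s^q)) = (X - j(s^{q²})) · normPoly q j` in `ℤ((s))[X]`. -/
theorem evY_PhiZ (q : ℕ) [NeZero q] (hq : q.Prime) :
    evY (J (1 : ℤˣ) q) (PhiZ q) =
      (X - Polynomial.C (J (1 : ℤˣ) (q * q))) * normPoly q (jqModC ℤ) :=
  (PhiZ_spec q hq).2.2

/-- The modular polynomial with coefficients in an arbitrary commutative ring. -/
def phiK (q : ℕ) [NeZero q] (K : Type*) [CommRing K] : K[X][X] :=
  (PhiZ q).map (Polynomial.mapRingHom (Int.castRingHom K))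

theorem phiK_monic (q : ℕ) [NeZero q] (hq : q.Prime) (K : Type*) [CommRing K] :
    (phiK q K).Monic := (PhiZ_monic q hq).map _

theorem phiK_natDegree (q : ℕ) [NeZero q] (hq : q.Prime) (K : Type*) [CommRing K] [Nontrivial K] :
    (phiK q K).natDegree = q + 1 := by
  rw [phiK, (PhiZ_monic q hq).natDegree_map, PhiZ_natDegree q hq]

/-- `Φ_q(X, j(s^q)) = (X - j(s^{q²})) · normPoly q j` over every coefficient ring. -/
theorem evY_phiK (q : ℕ) [NeZero q] (hq : q.Prime) (K : Type*) [CommRing K] :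
    evY (J (1 : Kˣ) q) (phiK q K) =
      (X - Polynomial.C (J (1 : Kˣ) (q * q))) * normPoly q (jqModC K) := by
  rw [phiK, ← coeffMap_J_one_int q K, evY_map, evY_PhiZ q hq, ← rhsZ, rhsZ_map]

/-! ### Uniqueness: every `ModEqData` has `Phi = PhiZ` -/

theorem evY_J_injective {F : Type*} [Field F] (N : ℕ) [NeZero N] :
    Function.Injective (evY (J (1 : Fˣ) N)) := by
  have h0 := (transcendental_iff_injective.mp (transcendental_J_one (F := F) N))
  have h1 : Function.Injective
      (Polynomial.eval₂RingHom (HahnSeries.C : F →+* LaurentSeries F) (J (1 : Fˣ) N)) := by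
    intro a b hab
    apply h0
    rw [Polynomial.aeval_def, Polynomial.aeval_def]
    have hC : algebraMap F (LaurentSeries F) = (HahnSeries.C : F →+* LaurentSeries F) :=
      RingHom.ext baseCase_algebraMap_eq_hahnC
    rw [hC]
    exact hab
  exact Polynomial.map_injective _ h1

/-- **Base change / uniqueness.** Modular equation data over a field of characteristic zero have
`Phi = PhiZ`. -/
theorem phi_eq_phiK (q : ℕ) [NeZero q] (hq : q.Prime) {C : Type*} [Field C] {ζ : Cˣ}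
    (hζ : IsPrimitiveRoot ζ q) {pinv : C} (d : ModEqData C q ζ pinv) :
    d.Phi = phiK q C := by
  apply evY_J_injective (F := C) q
  rw [evY_phiK q hq, d.me1, normPoly_eq_prod q hζ]
  simp only [scale_jqModC]

theorem phi_eq_map_PhiZ (q : ℕ) [NeZero q] (hq : q.Prime) {C : Type*} [Field C] {ζ : Cˣ}
    (hζ : IsPrimitiveRoot ζ q) {pinv : C} (d : ModEqData C q ζ pinv) :
    d.Phi = (PhiZ q).map (Polynomial.mapRingHom (Int.castRingHom C)) :=
  phi_eq_phiK q hq hζ d

end Fermat.Agent.BR.Kron
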