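/-
Program B, node B2.KRON (file 4): Kronecker's congruence for the integral modular polynomial
`PhiZ q` of `BR/KronPoly.lean`, in polynomial form.

Conventions: outer variable `X`, inner variable `Y = j` (written `C X`);
`Polynomial.evalEval a b Φ = Φ(outer = b, inner = a)`.

* `phiK_zmod` : over `ZMod q`, `Φ_q = (X^q - Y) (X - Y^q)`;
* `PsiZ q`, `kronecker` : `PhiZ q = (X^q - Y) (X - Y^q) + q · PsiZ q` in `ℤ[Y][X]`;
* `phiK_evalEval` : `Φ_q(x, y) = (x^q - y)(x - y^q) + q Ψ_q(x, y)` over every commutative ring;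
* `phiK_evalEval_jq` : `Φ_q(X = j(s^q), Y = j(s)) = 0` in `C((s))` for every coefficient ring `C`;
* `exists_nodeForm` : local equation `(x^q - y)(x - y^q) + q R(x, y)` at a point `(a, b)` with
  `a^q - b = q A`, `a - b^q = q B`; `R(0,0) = Ψ_q(a, b) + q A B`.
-/
import Mathlib
import Fermat.Agent.BR.KronPoly

set_option autoImplicit false

noncomputable section

namespace Fermat.Agent.BR.Kron

open Polynomial HahnSeries ModularCurve Fermat.Agent.Igusa

/-! ### Kronecker's congruence over `ZMod q` -/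

section ModQ

variable (q : ℕ) [NeZero q] [hq : Fact q.Prime]

theorem J_pow_char_zmod (m : ℕ) [NeZero m] :
    (J (1 : (ZMod q)ˣ) m) ^ q = J (1 : (ZMod q)ˣ) (q * m) := by
  rw [Fermat.Agent.ES.pow_char_eq_qExpand_coeffMap_frobenius q, ZMod.frobenius_zmod,
    ModularCurve.coeffMap_id, qExpand_J]

theorem jqModC_pow_char_zmod : (jqModC (ZMod q)) ^ q = J (1 : (ZMod q)ˣ) q := by
  rw [Fermat.Agent.ES.pow_char_eq_qExpand_coeffMap_frobenius q, ZMod.frobenius_zmod,
    ModularCurve.coeffMap_id, J_one_unit]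

/-- **Kronecker's congruence**, polynomial form over `𝔽_q`. -/
theorem phiK_zmod : phiK q (ZMod q) = (X ^ q - Polynomial.C X) * (X - Polynomial.C (X ^ q)) := by
  apply evY_J_injective (F := ZMod q) q
  rw [evY_phiK q hq.out, normPoly_char, jqModC_pow_char_zmod, ← J_pow_char_zmod q q]
  have hX : evY (J (1 : (ZMod q)ˣ) q) (X : (ZMod q)[X][X]) = X := by
    rw [evY_apply, Polynomial.map_X]
  have hCX : evY (J (1 : (ZMod q)ˣ) q) (Polynomial.C X : (ZMod q)[X][X]) =
      Polynomial.C (J (1 : (ZMod q)ˣ) q) := by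
    rw [evY_apply, Polynomial.map_C, Polynomial.coe_eval₂RingHom, Polynomial.eval₂_X]
  simp only [map_mul, map_sub, map_pow, hX, hCX]
  ring

end ModQ

/-! ### Kronecker's congruence over `ℤ` -/

section OverZ

variable (q : ℕ) [NeZero q]

omit [NeZero q] in
theorem exists_eq_C_C_mul_of_map_zmod_eq_zero (P : ℤ[X][X])
    (h : P.map (Polynomial.mapRingHom (Int.castRingHom (ZMod q))) = 0) :
    ∃ R : ℤ[X][X], P = Polynomial.C (Polynomial.C (q : ℤ)) * R := by
  have hdvd : Polynomial.C (Polynomial.C (q : ℤ)) ∣ P := by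
    rw [Polynomial.C_dvd_iff_dvd_coeff]
    intro i
    rw [Polynomial.C_dvd_iff_dvd_coeff]
    intro j
    have h1 := congrArg (fun T : (ZMod q)[X][X] => (T.coeff i).coeff j) h
    simp only [Polynomial.coeff_map, Polynomial.coe_mapRingHom, Polynomial.coeff_zero,
      eq_intCast] at h1
    exact (ZMod.intCast_zmod_eq_zero_iff_dvd _ q).mp h1
  exact hdvd

theorem exists_PsiZ (hq : q.Prime) :
    ∃ R : ℤ[X][X], PhiZ q = (X ^ q - Polynomial.C X) * (X - Polynomial.C (X ^ q)) +
      Polynomial.C (Polynomial.C (q : ℤ)) * R := by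
  have : Fact q.Prime := ⟨hq⟩
  have h := phiK_zmod q
  obtain ⟨R, hR⟩ := exists_eq_C_C_mul_of_map_zmod_eq_zero q
    (PhiZ q - (X ^ q - Polynomial.C X) * (X - Polynomial.C (X ^ q))) (by
      rw [Polynomial.map_sub, ← phiK, h]
      simp)
  exact ⟨R, by rw [← hR]; ring⟩

open Classical in
/-- The polynomial `Ψ_q = (Φ_q - (X^q - Y)(X - Y^q)) / q ∈ ℤ[Y][X]`. -/
def PsiZ : ℤ[X][X] :=
  if h : ∃ R : ℤ[X][X], PhiZ q = (X ^ q - Polynomial.C X) * (X - Polynomial.C (X ^ q)) +
      Polynomial.C (Polynomial.C (q : ℤ)) * R then Classical.choose h else 0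

/-- **Kronecker's congruence** in `ℤ[Y][X]`: `Φ_q = (X^q - Y)(X - Y^q) + q Ψ_q`. -/
theorem kronecker (hq : q.Prime) :
    PhiZ q = (X ^ q - Polynomial.C X) * (X - Polynomial.C (X ^ q)) +
      Polynomial.C (Polynomial.C (q : ℤ)) * PsiZ q := by
  have h := exists_PsiZ q hq
  rw [PsiZ, dif_pos h]
  exact Classical.choose_spec h

/-- `Ψ_q` with coefficients in an arbitrary commutative ring. -/
def psiK (K : Type*) [CommRing K] : K[X][X] :=
  (PsiZ q).map (Polynomial.mapRingHom (Int.castRingHom K))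

theorem phiK_eq (hq : q.Prime) (K : Type*) [CommRing K] :
    phiK q K = (X ^ q - Polynomial.C X) * (X - Polynomial.C (X ^ q)) +
      Polynomial.C (Polynomial.C (q : K)) * psiK q K := by
  rw [phiK, kronecker q hq, psiK]
  simp

/-- Kronecker's congruence, evaluated: `Φ_q(x, y) = (x^q - y)(x - y^q) + q Ψ_q(x, y)`. -/
theorem phiK_evalEval (hq : q.Prime) {K : Type*} [CommRing K] (x y : K) :
    (phiK q K).evalEval x y = (x ^ q - y) * (x - y ^ q) + q * (psiK q K).evalEval x y := by
  rw [phiK_eq q hq]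
  simp only [Polynomial.evalEval_add, Polynomial.evalEval_mul, Polynomial.evalEval_sub,
    Polynomial.evalEval_pow, Polynomial.evalEval_X, Polynomial.evalEval_C, Polynomial.eval_X,
    Polynomial.eval_pow, Polynomial.eval_C]
  ring

end OverZ

/-! ### Base change of evaluations, the root `(j(s), j(s^q))` -/

section Root

variable (q : ℕ) [NeZero q]

/-- Evaluation of `Φ_q` commutes with ring homomorphisms. -/
theorem map_phiK_evalEval {K L : Type*} [CommRing K] [CommRing L] (g : K →+* L) (x y : K) :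
    g ((phiK q K).evalEval x y) = (phiK q L).evalEval (g x) (g y) := by
  rw [← Polynomial.map_mapRingHom_evalEval, phiK, phiK, Polynomial.map_map]
  congr 2
  rw [Polynomial.mapRingHom_comp]
  congr 1
  exact RingHom.ext_int _ _

/-- Evaluation of `Ψ_q` commutes with ring homomorphisms. -/
theorem map_psiK_evalEval {K L : Type*} [CommRing K] [CommRing L] (g : K →+* L) (x y : K) :
    g ((psiK q K).evalEval x y) = (psiK q L).evalEval (g x) (g y) := by
  rw [← Polynomial.map_mapRingHom_evalEval, psiK, psiK, Polynomial.map_map]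
  congr 2
  rw [Polynomial.mapRingHom_comp]
  congr 1
  exact RingHom.ext_int _ _

/-- `evY` followed by evaluation of the outer variable is `evalEval` over the Laurent series. -/
theorem eval_evY_phiK (C : Type*) [CommRing C] (y x : LaurentSeries C) :
    (evY y (phiK q C)).eval x = (phiK q (LaurentSeries C)).evalEval y x := by
  rw [evY_apply, Polynomial.eval_map, Polynomial.eval₂_eval₂RingHom_apply, phiK, phiK,
    Polynomial.map_map]
  congr 2
  rw [Polynomial.mapRingHom_comp]
  congr 1

/-- `Φ_q(X = j(s^{q²}), Y = j(s^q)) = 0`. -/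
theorem phiK_evalEval_J (hq : q.Prime) (C : Type*) [CommRing C] :
    (phiK q (LaurentSeries C)).evalEval (J (1 : Cˣ) q) (J (1 : Cˣ) (q * q)) = 0 := by
  rw [← eval_evY_phiK, evY_phiK q hq, Polynomial.eval_mul, Polynomial.eval_sub, Polynomial.eval_X,
    Polynomial.eval_C, sub_self, zero_mul]

/-- **The root.** `Φ_q(X = j(s^q), Y = j(s)) = 0` in `C((s))`, for every coefficient ring `C`. -/
theorem phiK_evalEval_jq (hq : q.Prime) (C : Type*) [CommRing C] :
    (phiK q (LaurentSeries C)).evalEval (jqModC C) (jqNModC C q) = 0 := by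
  apply qExpand_injective (R := C) q
  rw [map_zero, map_phiK_evalEval, ← J_one_unit, jqNModC, ← J_one_unit, qExpand_J]
  exact phiK_evalEval_J q hq C

end Root

/-! ### The node form at a point -/

section Node

variable (q : ℕ) [NeZero q]

/-- **Node form.** At a point `(a, b)` with `a^q - b = q A` and `a - b^q = q B` (e.g. `a` a
Teichmüller-type lift of a point of `𝔽_{q²}` and `b = a^q`), the translated modular polynomial is
`Φ_q(a + x, b + y) = (x^q - y)(x - y^q) + q R(x, y)` with `R(0,0) = Ψ_q(a, b) + q A B`. -/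
theorem exists_nodeForm (hq : q.Prime) {K : Type*} [CommRing K] (a b A B : K)
    (hA : a ^ q - b = q * A) (hB : a - b ^ q = q * B) :
    ∃ R : K[X][X],
      (∀ x y : K, (phiK q K).evalEval (a + x) (b + y) =
        (x ^ q - y) * (x - y ^ q) + q * R.evalEval x y) ∧
      R.evalEval 0 0 = (psiK q K).evalEval a b + q * A * B := by
  set xh : K[X][X] := Polynomial.C X with hxh
  set yh : K[X][X] := X with hyh
  set ah : K[X][X] := Polynomial.C (Polynomial.C a) with hah
  set bh : K[X][X] := Polynomial.C (Polynomial.C b) with hbh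
  set Ah : K[X][X] := Polynomial.C (Polynomial.C A) with hAh
  set Bh : K[X][X] := Polynomial.C (Polynomial.C B) with hBh
  have hA' : ah ^ q - bh = q * Ah := by
    have := congrArg (fun t : K => Polynomial.C (Polynomial.C t) (R := K[X])) hA
    simpa using this
  have hB' : ah - bh ^ q = q * Bh := by
    have := congrArg (fun t : K => Polynomial.C (Polynomial.C t) (R := K[X])) hB
    simpa using this
  obtain ⟨r1, hr1⟩ := exists_add_pow_prime_eq hq ah xh
  obtain ⟨r2, hr2⟩ := exists_add_pow_prime_eq hq bh yh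
  set R : K[X][X] := (psiK q K[X][X]).evalEval (ah + xh) (bh + yh) +
    (xh ^ q - yh) * (Bh - bh * yh * r2) + (xh - yh ^ q) * (Ah + ah * xh * r1) +
    q * (Ah + ah * xh * r1) * (Bh - bh * yh * r2) with hR
  have hT : (phiK q K[X][X]).evalEval (ah + xh) (bh + yh) =
      (xh ^ q - yh) * (xh - yh ^ q) + q * R := by
    rw [phiK_evalEval q hq, hr1, hr2, hR]
    linear_combination ((xh - yh ^ q) + (ah - bh ^ q) - q * (bh * yh * r2)) * hA' +
      ((xh ^ q - yh) + q * Ah + q * (ah * xh * r1)) * hB'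
  have hev : ∀ x y : K, Polynomial.evalEvalRingHom x y ah = a ∧
      Polynomial.evalEvalRingHom x y bh = b ∧ Polynomial.evalEvalRingHom x y xh = x ∧
      Polynomial.evalEvalRingHom x y yh = y ∧ Polynomial.evalEvalRingHom x y Ah = A ∧
      Polynomial.evalEvalRingHom x y Bh = B := by
    intro x y
    simp [hah, hbh, hxh, hyh, hAh, hBh]
  refine ⟨R, ?_, ?_⟩
  · intro x y
    obtain ⟨e1, e2, e3, e4, -, -⟩ := hev x y
    have h1 := congrArg (Polynomial.evalEvalRingHom x y) hT
    rw [map_phiK_evalEval, map_add, map_add, e1, e2, e3, e4, map_add, map_mul, map_sub, map_sub,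
      map_pow, map_pow, e3, e4, map_mul, map_natCast] at h1
    rw [h1]
    rfl
  · obtain ⟨e1, e2, e3, e4, e5, e6⟩ := hev 0 0
    have h0 : (0 : K) ^ q = 0 := zero_pow hq.ne_zero
    change Polynomial.evalEvalRingHom 0 0 R = _
    rw [hR]
    simp only [map_add, map_mul, map_sub, map_pow, map_natCast, e1, e2, e3, e4, e5, e6,
      map_psiK_evalEval, h0]
    rw [add_zero, add_zero]
    ring

theorem evalEval_zero_zero {K : Type*} [CommRing K] (P : K[X][X]) :
    P.evalEval 0 0 = (P.coeff 0).coeff 0 := by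
  rw [Polynomial.evalEval, Polynomial.C_0, ← Polynomial.coeff_zero_eq_eval_zero,
    ← Polynomial.coeff_zero_eq_eval_zero]

/-- `exists_nodeForm` with the constant term in coefficient form (the shape of
`BR/NodeNewton.lean`: `nodeEq q (q : K) R x y`, `gam = (R.coeff 0).coeff 0`). -/
theorem exists_nodeForm_coeff (hq : q.Prime) {K : Type*} [CommRing K] (a b A B : K)
    (hA : a ^ q - b = q * A) (hB : a - b ^ q = q * B) :
    ∃ R : K[X][X],
      (∀ x y : K, (phiK q K).evalEval (a + x) (b + y) =
        (x ^ q - y) * (x - y ^ q) + q * R.evalEval x y) ∧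
      (R.coeff 0).coeff 0 = (psiK q K).evalEval a b + q * A * B := by
  obtain ⟨R, h1, h2⟩ := exists_nodeForm q hq a b A B hA hB
  exact ⟨R, h1, by rw [← evalEval_zero_zero, h2]⟩

end Node

end Fermat.Agent.BR.Kron
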