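import Mathlib
import Fermat.Agent.BR.KronCong
import Fermat.Agent.BR.CuspSep

/-!
# Program B (BADRED), cusp chart (risk R2): inner degrees of the modular polynomial

`PhiZ q ∈ ℤ[Y][X]` (helper16, `BR/KronPoly.lean`; outer variable `X = j_q`, inner variable `Y = j`).
From `Φ_q(X, j(s^q)) = (X - j(s^{q²})) ∏_b (X - j(ζ^b s))` and the pole orders in `s`
(`q²` resp. `1`) of the roots:

* `mul_natDegree_coeff_PhiZ_add_le` : `q * deg_Y (coeff_b Φ_q) + b ≤ q² + q` for `b ≤ q`;
* `natDegree_coeff_PhiZ_le` : `deg_Y (coeff_b Φ_q) ≤ q * (deg_X Φ_q - b)` for every `b`;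
* `isIntegral_of_evalEval_eq_zero` : if `Φ_q(y, x) = 0` in a field, `x ≠ 0`, then `y / x^q` is
  integral over `ℤ[1/x]`;

So the separator at infinity `h = j_q / j^q` lies in the chart at infinity of the normal model.
-/

set_option autoImplicit false

noncomputable section

namespace Fermat.Agent.BR.PhiZDegree

open Polynomial HahnSeries ModularCurve Fermat.Agent.Igusa Fermat.Agent.BR.Kron

/-! ### Coefficients of a split monic polynomial with bounded roots -/

theorem coeff_prod_X_sub_C_le {L Γ₀ ι : Type*} [Field L] [LinearOrderedCommGroupWithZero Γ₀]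
    (v : Valuation L Γ₀) {g : Γ₀} (s : Finset ι) (r : ι → L)
    (hr : ∀ i ∈ s, v (r i) ≤ g) (k : ℕ) :
    v ((∏ i ∈ s, (X - Polynomial.C (r i))).coeff k) ≤ g ^ (s.card - k) := by
  classical
  induction s using Finset.induction_on generalizing k with
  | empty =>
    rw [Finset.prod_empty, Finset.card_empty, Nat.zero_sub, pow_zero, Polynomial.coeff_one]
    split_ifs
    · rw [map_one]
    · rw [map_zero]; exact zero_le
  | insert a s ha ih =>
    have hrs : ∀ i ∈ s, v (r i) ≤ g := fun i hi => hr i (Finset.mem_insert_of_mem hi)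
    have hra : v (r a) ≤ g := hr a (Finset.mem_insert_self a s)
    rw [Finset.prod_insert ha, Finset.card_insert_of_notMem ha]
    have hPdeg : (∏ i ∈ s, (X - Polynomial.C (r i))).natDegree = s.card :=
      natDegree_finsetProd_X_sub_C_eq_card s r
    cases k with
    | zero =>
      rw [mul_coeff_zero, Polynomial.coeff_sub, coeff_X_zero, coeff_C_zero, zero_sub, map_mul,
        Valuation.map_neg, Nat.sub_zero, pow_succ']
      exact mul_le_mul' hra (by simpa using ih hrs 0)
    | succ j =>
      rw [coeff_X_sub_C_mul]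
      refine (Valuation.map_sub _ _ _).trans (max_le ?_ ?_)
      · have h1 := ih hrs j
        rwa [Nat.add_sub_add_right]
      · rw [map_mul]
        by_cases hj : j + 1 ≤ s.card
        · have h1 := ih hrs (j + 1)
          calc v (r a) * v ((∏ i ∈ s, (X - Polynomial.C (r i))).coeff (j + 1))
              ≤ g * g ^ (s.card - (j + 1)) := mul_le_mul' hra h1
            _ = g ^ (s.card + 1 - (j + 1)) := by
                rw [← pow_succ']
                congr 1
                omega
        · have h0 : (∏ i ∈ s, (X - Polynomial.C (r i))).coeff (j + 1) = 0 :=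
            coeff_eq_zero_of_natDegree_lt (by omega)
          rw [h0, map_zero, mul_zero]
          exact zero_le

/-! ### Pole orders of the `J c m` as valuations -/

theorem valuation_J_le {K : Type*} [Field K] (c : Kˣ) (m : ℕ) [NeZero m] :
    Valued.v (J c m) ≤ WithZero.exp (m : ℤ) := by
  have h := (LaurentSeries.valuation_le_iff_coeff_lt_eq_zero K (D := -(m : ℤ)) (f := J c m)).mpr
    (fun n hn => J_coeff_of_lt c m hn)
  simpa using h

theorem exp_one_pow (n : ℕ) : (WithZero.exp (1 : ℤ)) ^ n = WithZero.exp (n : ℤ) := by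
  rw [← WithZero.exp_nsmul]
  simp

/-! ### The bound over a field with a primitive `q`-th root of unity -/

section Field

variable {q : ℕ} [NeZero q] {K : Type*} [Field K]

/-- the coefficients of `Φ_q(X, j(s^q))` have pole order at most `q² + q - b` in `s` -/
theorem valuation_coeff_evY_le (hq : q.Prime) {ζ : Kˣ} (hζ : IsPrimitiveRoot ζ q) (b : ℕ)
    (hb : b ≤ q) :
    Valued.v ((evY (J (1 : Kˣ) q) (phiK q K)).coeff b) ≤
      WithZero.exp ((q * q + q - b : ℕ) : ℤ) := by
  rw [evY_phiK q hq K, normPoly_eq_prod q hζ]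
  simp only [scale_jqModC]
  set N : (LaurentSeries K)[X] := ∏ i ∈ Finset.range q, (X - Polynomial.C (J (ζ ^ i) 1)) with hN
  have hNc : ∀ k, Valued.v (N.coeff k) ≤ (WithZero.exp (1 : ℤ)) ^ (q - k) := by
    intro k
    have h := coeff_prod_X_sub_C_le (Valued.v : Valuation (LaurentSeries K) _)
      (g := WithZero.exp (1 : ℤ)) (Finset.range q) (fun i => J (ζ ^ i) 1)
      (fun i _ => by simpa using valuation_J_le (ζ ^ i) 1) k
    rwa [Finset.card_range] at h
  have hA : Valued.v (J (1 : Kˣ) (q * q)) ≤ WithZero.exp ((q * q : ℕ) : ℤ) :=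
    valuation_J_le 1 (q * q)
  have hNdeg : N.natDegree = q := by
    rw [hN, natDegree_finsetProd_X_sub_C_eq_card, Finset.card_range]
  cases b with
  | zero =>
    rw [mul_coeff_zero, Polynomial.coeff_sub, coeff_X_zero, coeff_C_zero, zero_sub, map_mul,
      Valuation.map_neg]
    calc Valued.v (J (1 : Kˣ) (q * q)) * Valued.v (N.coeff 0)
        ≤ WithZero.exp ((q * q : ℕ) : ℤ) * (WithZero.exp (1 : ℤ)) ^ (q - 0) :=
          mul_le_mul' hA (hNc 0)
      _ = WithZero.exp ((q * q + q - 0 : ℕ) : ℤ) := by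
          rw [exp_one_pow, ← WithZero.exp_add]
          congr 1
  | succ j =>
    rw [coeff_X_sub_C_mul]
    refine (Valuation.map_sub _ _ _).trans (max_le ?_ ?_)
    · refine (hNc j).trans ?_
      rw [exp_one_pow, WithZero.exp_le_exp]
      have : q - j ≤ q * q + q - (j + 1) := by
        have h1 : 1 ≤ q * q := Nat.mul_pos hq.pos hq.pos
        omega
      exact_mod_cast this
    · rw [map_mul]
      calc Valued.v (J (1 : Kˣ) (q * q)) * Valued.v (N.coeff (j + 1))
          ≤ WithZero.exp ((q * q : ℕ) : ℤ) * (WithZero.exp (1 : ℤ)) ^ (q - (j + 1)) :=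
            mul_le_mul' hA (hNc (j + 1))
        _ = WithZero.exp ((q * q + q - (j + 1) : ℕ) : ℤ) := by
            rw [exp_one_pow, ← WithZero.exp_add]
            congr 1
            have : j + 1 ≤ q := hb
            push_cast [Nat.cast_sub this, Nat.cast_sub (le_trans this (Nat.le_add_left q (q * q)))]
            ring

/-- `q * deg_Y (coeff_b Φ_q) + b ≤ q² + q` over a field with a primitive `q`-th root of unity -/
theorem mul_natDegree_coeff_phiK_add_le (hq : q.Prime) {ζ : Kˣ} (hζ : IsPrimitiveRoot ζ q)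
    (b : ℕ) (hb : b ≤ q) :
    q * ((phiK q K).coeff b).natDegree + b ≤ q * q + q := by
  set c : K[X] := (phiK q K).coeff b with hc
  rcases eq_or_ne c 0 with h0 | h0
  · rw [h0, natDegree_zero, mul_zero, zero_add]
    exact hb.trans (Nat.le_add_left _ _)
  have hval := valuation_coeff_evY_le (K := K) hq hζ b hb
  have hcoeff : (evY (J (1 : Kˣ) q) (phiK q K)).coeff b =
      c.eval₂ (HahnSeries.C : K →+* LaurentSeries K) (J (1 : Kˣ) q) := by
    rw [evY_apply, coeff_map, hc]
    rfl
  rw [hcoeff] at hval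
  have hord : (J (1 : Kˣ) q).order = -(q : ℤ) := order_J 1 q
  have hlead : (J (1 : Kˣ) q).leadingCoeff = 1 := by
    rw [leadingCoeff_J]; simp
  have h1 := coeff_eval₂_of_order hq.pos hord hlead c c.natDegree le_rfl
  have hne : c.coeff c.natDegree ≠ 0 := by
    rw [coeff_natDegree]; exact leadingCoeff_ne_zero.mpr h0
  have h2 := (LaurentSeries.valuation_le_iff_coeff_lt_eq_zero K
    (D := -((q * q + q - b : ℕ) : ℤ))
    (f := c.eval₂ (HahnSeries.C : K →+* LaurentSeries K) (J (1 : Kˣ) q))).mp
    (by simpa using hval)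
  by_contra hcon
  push Not at hcon
  apply hne
  rw [← h1]
  apply h2
  have h3 : q * q + q - b + b = q * q + q := Nat.sub_add_cancel (hb.trans (Nat.le_add_left _ _))
  have h4 : ((q * q + q - b : ℕ) : ℤ) < (q : ℤ) * (c.natDegree : ℤ) := by
    have : q * q + q - b < q * c.natDegree := by omega
    exact_mod_cast this
  linarith

end Field

/-! ### The bound over `ℤ` -/

variable {q : ℕ} [NeZero q]

theorem mul_natDegree_coeff_PhiZ_add_le (hq : q.Prime) (b : ℕ) (hb : b ≤ q) :
    q * ((PhiZ q).coeff b).natDegree + b ≤ q * q + q := by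
  obtain ⟨ζ, pinv, hζ, -⟩ := Fermat.Agent.ES.Gen.hasModEqData_complex q hq
  have h := mul_natDegree_coeff_phiK_add_le (K := ℂ) hq hζ b hb
  have e : ((phiK q ℂ).coeff b).natDegree = ((PhiZ q).coeff b).natDegree := by
    rw [phiK, coeff_map, coe_mapRingHom]
    exact natDegree_map_eq_of_injective (RingHom.injective_int (Int.castRingHom ℂ)) _
  rwa [e] at h

/-- **inner degree bound**: `deg_Y (coeff_b Φ_q) ≤ q (deg_X Φ_q - b)` for every `b`. -/
theorem natDegree_coeff_PhiZ_le (hq : q.Prime) (b : ℕ) :
    ((PhiZ q).coeff b).natDegree ≤ q * ((PhiZ q).natDegree - b) := by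
  rw [PhiZ_natDegree q hq]
  rcases Nat.lt_or_ge q b with hb | hb
  · -- `b ≥ q + 1`: the coefficient is `1` or `0`
    rcases Nat.lt_or_ge (q + 1) b with hb' | hb'
    · rw [coeff_eq_zero_of_natDegree_lt (by rw [PhiZ_natDegree q hq]; exact hb'), natDegree_zero]
      exact Nat.zero_le _
    · have hbq : b = q + 1 := le_antisymm hb' hb
      have h1 : (PhiZ q).coeff b = 1 := by
        rw [hbq, ← PhiZ_natDegree q hq]
        exact (PhiZ_monic q hq).coeff_natDegree
      rw [h1, natDegree_one]
      exact Nat.zero_le _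
  · have h := mul_natDegree_coeff_PhiZ_add_le hq b hb
    set d := ((PhiZ q).coeff b).natDegree with hd
    have hq1 : 1 ≤ q := hq.pos
    rcases Nat.eq_zero_or_pos b with rfl | hbpos
    · -- `q d ≤ q (q + 1)`
      have h1 : q * d ≤ q * (q + 1) := by
        have : q * (q + 1) = q * q + q := by ring
        rw [this]; omega
      have h2 : d ≤ q + 1 := Nat.le_of_mul_le_mul_left h1 hq.pos
      calc d ≤ q + 1 := h2
        _ = 1 * (q + 1 - 0) := by simp
        _ ≤ q * (q + 1 - 0) := Nat.mul_le_mul_right _ hq1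
    · -- `q d < q (q + 1)`, so `d ≤ q`
      have h1 : q * d < q * (q + 1) := by
        have : q * (q + 1) = q * q + q := by ring
        rw [this]; omega
      have h2 : d < q + 1 := Nat.lt_of_mul_lt_mul_left h1
      have h3 : 1 ≤ q + 1 - b := by omega
      calc d ≤ q := Nat.lt_succ_iff.mp h2
        _ = q * 1 := (mul_one q).symm
        _ ≤ q * (q + 1 - b) := Nat.mul_le_mul_left _ h3

/-! ### Integrality of `y / x^q` -/

/-- `evalEval` as evaluation of the outer variable after mapping the inner one. -/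
theorem eval_map_aeval_eq_evalEval {F : Type*} [Field F] (Φ : ℤ[X][X]) (x y : F) :
    (Φ.map ((aeval x : ℤ[X] →ₐ[ℤ] F) : ℤ[X] →+* F)).eval y =
      (Φ.map (mapRingHom (Int.castRingHom F))).evalEval x y := by
  rw [eval_map, ← Polynomial.eval₂_eval₂RingHom_apply]
  congr 1

/-- **`y / x^q` is integral over `ℤ[1/x]`** whenever `Φ_q(y, x) = 0`, `x ≠ 0`. -/
theorem isIntegral_of_evalEval_eq_zero (hq : q.Prime) {F : Type*} [Field F] {x y : F} (hx : x ≠ 0)
    (h : (phiK q F).evalEval x y = 0) :
    IsIntegral (Algebra.adjoin ℤ {x⁻¹}) (y * (x⁻¹) ^ q) := by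
  refine CuspSep.isIntegral_mul_inv_pow (PhiZ_monic q hq) q (natDegree_coeff_PhiZ_le hq) hx ?_
  rw [eval_map_aeval_eq_evalEval]
  exact h

end Fermat.Agent.BR.PhiZDegree
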