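import Fermat.Agent.BR.CuspSepVal
import Fermat.Agent.BR.PhiZDegree

/-!
# Program B (BADRED), cusp chart (risk R2): the separator `hSep = j_q / j^q` is integral over
`ℤ[1/j]` in `F̄_{Mq}`

* `coe_jA`, `coe_jB` : the `q`-expansions of `j = α j_M` and `j_q = β j_M`;
* `phiK_evalEval_jA_jB` : `Φ_q(j_q, j) = 0` in `F̄_{Mq}`;
* `isIntegral_hSep` : `hSep M q` is integral over `Algebra.adjoin ℤ {j⁻¹}`: it lies in the chart at
  infinity of every normal model over a base containing `ℤ`.
-/

set_option autoImplicit false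
set_option linter.unusedSectionVars false

noncomputable section

namespace Fermat.Agent.BR.CuspSepInt

open ModularCurve AlgebraicCurve HahnSeries Fermat.Agent.X0 Fermat.Agent.Val Fermat.Agent.Hecke.AL
  Fermat.Agent.BR.ValTwo Fermat.Agent.BR.CuspSepVal Fermat.Agent.BR.Kron

variable {M q : ℕ} [NeZero M] [NeZero q]

theorem coe_jM : ((jM (M := M) : Fb M) : LaurentSeries Kb) = jqModC Kb := by
  rw [coe_jBarD, coeffEmb_jqN, jqNModC_one]

theorem coe_jA : ((jA M q : Fb (M * q)) : LaurentSeries Kb) = jqModC Kb := by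
  rw [jA, coe_heckeAlphaBar, coe_jM]

theorem coe_jB : ((jB M q : Fb (M * q)) : LaurentSeries Kb) = jqNModC Kb q := by
  rw [jB, coe_heckeBetaBar, coe_jM]
  rfl

theorem jA_ne_zero : jA M q ≠ 0 := by
  intro h
  have h1 := congrArg (fun x : Fb (M * q) => (x : LaurentSeries Kb)) h
  simp only [coe_jA] at h1
  exact jqModC_ne_zero' Kb h1

/-- `Φ_q(j_q, j) = 0` in `F̄_{Mq}`. -/
theorem phiK_evalEval_jA_jB (hq : q.Prime) :
    (phiK q (Fb (M * q))).evalEval (jA M q) (jB M q) = 0 := by
  have hinj : Function.Injective ((modularFunctionFieldBar (M * q)).val :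
      Fb (M * q) → LaurentSeries Kb) := Subtype.val_injective
  apply hinj
  have h := map_phiK_evalEval q
    (((modularFunctionFieldBar (M * q)).val : Fb (M * q) →ₐ[Kb] LaurentSeries Kb) :
      Fb (M * q) →+* LaurentSeries Kb) (jA M q) (jB M q)
  rw [map_zero]
  refine h.trans ?_
  have e1 : (((modularFunctionFieldBar (M * q)).val : Fb (M * q) →ₐ[Kb] LaurentSeries Kb) :
      Fb (M * q) →+* LaurentSeries Kb) (jA M q) = jqModC Kb := coe_jA (M := M) (q := q)
  have e2 : (((modularFunctionFieldBar (M * q)).val : Fb (M * q) →ₐ[Kb] LaurentSeries Kb) :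
      Fb (M * q) →+* LaurentSeries Kb) (jB M q) = jqNModC Kb q := coe_jB (M := M) (q := q)
  rw [e1, e2]
  exact phiK_evalEval_jq q hq Kb

/-- **the separator at infinity is integral over `ℤ[1/j]`**. -/
theorem isIntegral_hSep (hq : q.Prime) :
    IsIntegral (Algebra.adjoin ℤ {(jA M q)⁻¹}) (hSep M q) :=
  PhiZDegree.isIntegral_of_evalEval_eq_zero hq (jA_ne_zero (M := M) (q := q))
    (phiK_evalEval_jA_jB hq)

end Fermat.Agent.BR.CuspSepInt
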