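import Fermat.Agent.BR.ValTwo

/-!
# Program B (BADRED), cusp chart (risk R2): the separator `h = j_q / j^q` at the level of the two
valuations

`q` a prime, `q ∤ M`, `B ⊂ ℚ̄` a valuation subring over `q`, `k` its residue field; `w₁`, `w₂`,
`resOne`, `resTwo` as in `BR/ValTwo.lean`.  `j = α j_M`, `j_q = β j_M` in `F̄_{Mq}`.

`hSep := j_q / j^q`.  It separates the two components at infinity:

* `resOne_hSep`   : `hSep ∈ O₁` and its reduction on `Z₁` is the constant `1`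
  (Kronecker: `j_q ≡ j^q` on `Z₁`);
* `resTwo_hSep`   : `hSep ∈ O₂` and its reduction on `Z₂` is `(1/j̄)^(q² - 1)`;
* `resTwo_hSep_eq_mul` : `resTwo hSep = resTwo (1/j) * (1/j̄)^(q² - q - 1)`, i.e. on `Z₂` the function
  `hSep` is a multiple of `1/j` by an element of the level-`M` chart at infinity (`q² - q - 1 ≥ 1`).

Hence in the normal model `B'` over `W[1/j]`: `1 = (1 - h) + (h - c/j) + c/j ∈ p₁ + p₂ + (1/j)`:
no point at infinity lies on both components (`BR/CuspSep.lean`, abstract form).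
-/

set_option autoImplicit false
set_option linter.unusedSectionVars false

noncomputable section

namespace Fermat.Agent.BR.CuspSepVal

open ModularCurve AlgebraicCurve HahnSeries Fermat.Agent.X0 Fermat.Agent.Val Fermat.Agent.Hecke.AL
  Fermat.Agent.BR.ValTwo

variable {M q : ℕ} [NeZero M] [NeZero q] (hq : q.Prime) (hcop : Nat.Coprime q M)
variable (B : ValuationSubring Kb) (hB : B.LiesOverPrime q)

/-! ### `j̄ ≠ 0` -/

theorem jqModC_ne_zero' (k : Type*) [Field k] : jqModC k ≠ 0 := by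
  intro h
  have h1 := congrArg (fun s : LaurentSeries k => s.coeff (-1)) h
  simp only [HahnSeries.coeff_zero] at h1
  rw [coeff_jqModC_neg_one] at h1
  exact one_ne_zero h1

/-! ### `j = α j_M` and `j_q = β j_M` in the two valuation rings -/

variable (M q) in
/-- `j = α j_M ∈ F̄_{Mq}` -/
def jA : Fb (M * q) := heckeAlphaBar Kb M q (jM (M := M))

variable (M q) in
/-- `j_q = β j_M ∈ F̄_{Mq}` -/
def jB : Fb (M * q) := heckeBetaBar Kb M q (jM (M := M))

theorem jA_mem_valOne : jA M q ∈ valOne M hq B hB :=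
  (alpha_mem_valOne_iff hq B hB _).mpr (jM_mem hq B hB)

theorem jB_mem_valOne : jB M q ∈ valOne M hq B hB :=
  (beta_mem_valOne_iff hq B hB _).mpr (jM_mem hq B hB)

theorem jA_mem_valTwo : jA M q ∈ valTwo hq hcop B hB :=
  (alpha_mem_valTwo_iff hq hcop B hB _).mpr (jM_mem hq B hB)

theorem jB_mem_valTwo : jB M q ∈ valTwo hq hcop B hB :=
  (beta_mem_valTwo_iff hq hcop B hB _).mpr (jM_mem hq B hB)

theorem resOne_jA : resOne M hq B hB ⟨jA M q, jA_mem_valOne hq B hB⟩ = jqModC (kB B) := by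
  have := resOne_alpha (M := M) hq B hB ⟨jM, jM_mem hq B hB⟩
  rw [resM_jM] at this
  exact this

theorem resOne_jB :
    resOne M hq B hB ⟨jB M q, jB_mem_valOne hq B hB⟩ = (jqModC (kB B)) ^ q := by
  have := resOne_beta (M := M) hq B hB ⟨jM, jM_mem hq B hB⟩
  rw [resM_jM, qExpand_jqModC_eq_pow hq B hB] at this
  exact this

theorem resTwo_jA :
    resTwo hq hcop B hB ⟨jA M q, jA_mem_valTwo hq hcop B hB⟩ = (jqModC (kB B)) ^ q := by
  have := resTwo_alpha (M := M) hq hcop B hB ⟨jM, jM_mem hq B hB⟩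
  rw [resM_jM, qExpand_jqModC_eq_pow hq B hB] at this
  exact this

theorem resTwo_jB :
    resTwo hq hcop B hB ⟨jB M q, jB_mem_valTwo hq hcop B hB⟩ = jqModC (kB B) := by
  have := resTwo_beta (M := M) hq hcop B hB ⟨jM, jM_mem hq B hB⟩
  rw [resM_jM] at this
  exact this

theorem isUnit_jA_valOne :
    IsUnit (⟨jA M q, jA_mem_valOne hq B hB⟩ : valOne M hq B hB) := by
  rw [isUnit_iff_resOne_ne_zero, resOne_jA]
  exact jqModC_ne_zero' _

theorem isUnit_jA_valTwo :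
    IsUnit (⟨jA M q, jA_mem_valTwo hq hcop B hB⟩ : valTwo hq hcop B hB) := by
  rw [isUnit_iff_resTwo_ne_zero, resTwo_jA]
  exact pow_ne_zero _ (jqModC_ne_zero' _)

/-! ### Inverses of units of a valuation subring -/

theorem inv_mem_of_isUnit {F : Type*} [Field F] (O : ValuationSubring F) {x : F} (hx : x ∈ O)
    (hu : IsUnit (⟨x, hx⟩ : O)) : x⁻¹ ∈ O := by
  obtain ⟨y, hy⟩ := hu.exists_right_inv
  have h1 : x * (y : F) = 1 := by
    have := congrArg (Subtype.val) hy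
    simpa using this
  have h2 : x⁻¹ = (y : F) := inv_eq_of_mul_eq_one_right h1
  rw [h2]; exact y.2

theorem map_inv_of_isUnit {F L : Type*} [Field F] [Field L] (O : ValuationSubring F)
    (f : O →+* L) {x : F} (hx : x ∈ O) (hu : IsUnit (⟨x, hx⟩ : O)) (hx' : x⁻¹ ∈ O) :
    f ⟨x⁻¹, hx'⟩ = (f ⟨x, hx⟩)⁻¹ := by
  have hx0 : x ≠ 0 := by
    rintro rfl
    have : (⟨0, hx⟩ : O) = 0 := rfl
    rw [this] at hu
    exact not_isUnit_zero hu
  have h1 : (⟨x, hx⟩ : O) * ⟨x⁻¹, hx'⟩ = 1 := Subtype.ext (mul_inv_cancel₀ hx0)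
  have h2 : f ⟨x, hx⟩ * f ⟨x⁻¹, hx'⟩ = 1 := by rw [← map_mul, h1, map_one]
  exact eq_inv_of_mul_eq_one_right h2

/-! ### `1/j` -/

theorem jA_inv_mem_valOne : (jA M q)⁻¹ ∈ valOne M hq B hB :=
  inv_mem_of_isUnit _ (jA_mem_valOne hq B hB) (isUnit_jA_valOne hq B hB)

theorem jA_inv_mem_valTwo : (jA M q)⁻¹ ∈ valTwo hq hcop B hB :=
  inv_mem_of_isUnit _ (jA_mem_valTwo hq hcop B hB) (isUnit_jA_valTwo hq hcop B hB)

theorem resOne_jA_inv :
    resOne M hq B hB ⟨(jA M q)⁻¹, jA_inv_mem_valOne hq B hB⟩ = (jqModC (kB B))⁻¹ := by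
  rw [map_inv_of_isUnit _ (resOne M hq B hB) (jA_mem_valOne hq B hB) (isUnit_jA_valOne hq B hB),
    resOne_jA]

theorem resTwo_jA_inv :
    resTwo hq hcop B hB ⟨(jA M q)⁻¹, jA_inv_mem_valTwo hq hcop B hB⟩ =
      ((jqModC (kB B))⁻¹) ^ q := by
  rw [map_inv_of_isUnit _ (resTwo hq hcop B hB) (jA_mem_valTwo hq hcop B hB)
    (isUnit_jA_valTwo hq hcop B hB), resTwo_jA, inv_pow]

/-! ### The separator -/

variable (M q) in
/-- **the separator at infinity** `h = j_q / j^q` -/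
def hSep : Fb (M * q) := jB M q * ((jA M q)⁻¹) ^ q

theorem hSep_mem_valOne : hSep M q ∈ valOne M hq B hB :=
  mul_mem (jB_mem_valOne hq B hB) (pow_mem (jA_inv_mem_valOne hq B hB) q)

theorem hSep_mem_valTwo : hSep M q ∈ valTwo hq hcop B hB :=
  mul_mem (jB_mem_valTwo hq hcop B hB) (pow_mem (jA_inv_mem_valTwo hq hcop B hB) q)

/-- **on `Z₁` the separator is the constant `1`**. -/
theorem resOne_hSep : resOne M hq B hB ⟨hSep M q, hSep_mem_valOne hq B hB⟩ = 1 := by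
  have e : (⟨hSep M q, hSep_mem_valOne hq B hB⟩ : valOne M hq B hB) =
      ⟨jB M q, jB_mem_valOne hq B hB⟩ * ⟨(jA M q)⁻¹, jA_inv_mem_valOne hq B hB⟩ ^ q :=
    Subtype.ext rfl
  rw [e, map_mul, map_pow, resOne_jB, resOne_jA_inv, inv_pow]
  exact mul_inv_cancel₀ (pow_ne_zero _ (jqModC_ne_zero' _))

/-- `h - 1` lies in the maximal ideal of `w₁`. -/
theorem hSep_sub_one_mem :
    (⟨hSep M q, hSep_mem_valOne hq B hB⟩ - 1 : valOne M hq B hB) ∈
      IsLocalRing.maximalIdeal (valOne M hq B hB) := by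
  rw [← resOne_eq_zero_iff, map_sub, resOne_hSep, map_one, sub_self]

/-- **on `Z₂` the separator is `(1/j̄)^(q² - 1)`**. -/
theorem resTwo_hSep :
    resTwo hq hcop B hB ⟨hSep M q, hSep_mem_valTwo hq hcop B hB⟩ =
      ((jqModC (kB B))⁻¹) ^ (q * q - 1) := by
  have e : (⟨hSep M q, hSep_mem_valTwo hq hcop B hB⟩ : valTwo hq hcop B hB) =
      ⟨jB M q, jB_mem_valTwo hq hcop B hB⟩ *
        ⟨(jA M q)⁻¹, jA_inv_mem_valTwo hq hcop B hB⟩ ^ q :=
    Subtype.ext rfl
  have hj := jqModC_ne_zero' (kB B)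
  have hqq : 1 ≤ q * q := Nat.mul_pos hq.pos hq.pos
  rw [e, map_mul, map_pow, resTwo_jB, resTwo_jA_inv, ← pow_mul]
  obtain ⟨n, hn⟩ := Nat.exists_eq_add_of_le hqq
  rw [hn, Nat.add_sub_cancel_left, _root_.pow_add, pow_one, ← mul_assoc, mul_inv_cancel₀ hj,
    one_mul]

/-- on `Z₂` the separator is a multiple of `1/j` by a power of the level-`M` coordinate at
infinity `1/j̄`, with positive exponent `q² - q - 1`. -/
theorem resTwo_hSep_eq_mul :
    resTwo hq hcop B hB ⟨hSep M q, hSep_mem_valTwo hq hcop B hB⟩ =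
      resTwo hq hcop B hB ⟨(jA M q)⁻¹, jA_inv_mem_valTwo hq hcop B hB⟩ *
        ((jqModC (kB B))⁻¹) ^ (q * q - q - 1) := by
  rw [resTwo_hSep, resTwo_jA_inv, ← _root_.pow_add]
  congr 1
  have h2 : 2 ≤ q := hq.two_le
  have : q + 1 ≤ q * q := by nlinarith
  omega

include hq in
theorem one_le_exponent : 1 ≤ q * q - q - 1 := by
  have h2 : 2 ≤ q := hq.two_le
  have : q + 2 ≤ q * q := by nlinarith
  omega

end Fermat.Agent.BR.CuspSepVal
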