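import Mathlib

/-!
# Program B (BADRED), support for B7.AP: linear disjointness in rational function fields

`k₀` a subfield of the field `k`.  Elements of the subfield `k₀(X)` of `RatFunc k` which are
linearly independent over `k₀` are linearly independent over `k`
(`k₀(X)` and `k` are linearly disjoint over `k₀`).  This is hypothesis (indep) of
`BR/DVRLattice.lean` when the residue field of the component is `RatFunc k`.

* `IsRat k₀ g` : `g * Q = P` for polynomials `P, Q ≠ 0` with coefficients in `k₀`;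
* `ratSub k₀` : the subfield of `RatFunc k` generated by the constants of `k₀` and `X`;
  `isRat_of_mem_ratSub`;
* `linearIndependent_of_isRat` : the main statement, in elementary form.
-/

set_option autoImplicit false

namespace Fermat.Agent.BR.RatFuncDisjoint

open Polynomial

variable {k : Type*} [Field k] (k₀ : Subfield k)

/-- The inclusion of `k₀[X]` into `RatFunc k`. -/
noncomputable def polyEmb : Polynomial k₀ →+* RatFunc k :=
  (algebraMap (Polynomial k) (RatFunc k)).comp (Polynomial.mapRingHom k₀.subtype)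

theorem polyEmb_injective : Function.Injective (polyEmb k₀) := by
  unfold polyEmb
  rw [RingHom.coe_comp]
  exact (IsFractionRing.injective (Polynomial k) (RatFunc k)).comp
    (Polynomial.map_injective _ k₀.subtype_injective)

theorem polyEmb_ne_zero {Q : Polynomial k₀} (hQ : Q ≠ 0) : polyEmb k₀ Q ≠ 0 :=
  fun h => hQ (polyEmb_injective k₀ (h.trans (map_zero _).symm))

theorem polyEmb_C (c : k₀) : polyEmb k₀ (Polynomial.C c) = RatFunc.C (c : k) := by
  simp [polyEmb, RatFunc.algebraMap_C]

theorem polyEmb_X : polyEmb k₀ Polynomial.X = RatFunc.X := by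
  simp [polyEmb, RatFunc.algebraMap_X]

/-- `g` is a quotient of two polynomials with coefficients in `k₀`. -/
def IsRat (g : RatFunc k) : Prop :=
  ∃ P Q : Polynomial k₀, Q ≠ 0 ∧ g * polyEmb k₀ Q = polyEmb k₀ P

theorem isRat_polyEmb (P : Polynomial k₀) : IsRat k₀ (polyEmb k₀ P) :=
  ⟨P, 1, one_ne_zero, by rw [map_one, mul_one]⟩

theorem isRat_zero : IsRat k₀ (0 : RatFunc k) := by
  simpa using isRat_polyEmb k₀ 0

theorem isRat_one : IsRat k₀ (1 : RatFunc k) := by
  simpa using isRat_polyEmb k₀ 1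

theorem IsRat.add {g h : RatFunc k} (hg : IsRat k₀ g) (hh : IsRat k₀ h) : IsRat k₀ (g + h) := by
  obtain ⟨P, Q, hQ, hPQ⟩ := hg
  obtain ⟨P', Q', hQ', hPQ'⟩ := hh
  refine ⟨P * Q' + P' * Q, Q * Q', mul_ne_zero hQ hQ', ?_⟩
  rw [map_add, map_mul, map_mul, map_mul, ← hPQ, ← hPQ']
  ring

theorem IsRat.neg {g : RatFunc k} (hg : IsRat k₀ g) : IsRat k₀ (-g) := by
  obtain ⟨P, Q, hQ, hPQ⟩ := hg
  exact ⟨-P, Q, hQ, by rw [map_neg, ← hPQ, neg_mul]⟩

theorem IsRat.mul {g h : RatFunc k} (hg : IsRat k₀ g) (hh : IsRat k₀ h) : IsRat k₀ (g * h) := by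
  obtain ⟨P, Q, hQ, hPQ⟩ := hg
  obtain ⟨P', Q', hQ', hPQ'⟩ := hh
  refine ⟨P * P', Q * Q', mul_ne_zero hQ hQ', ?_⟩
  rw [map_mul, map_mul, ← hPQ, ← hPQ']
  ring

theorem IsRat.inv {g : RatFunc k} (hg : IsRat k₀ g) : IsRat k₀ g⁻¹ := by
  obtain ⟨P, Q, hQ, hPQ⟩ := hg
  by_cases hP : P = 0
  · have hg0 : g = 0 := by
      rw [hP, map_zero] at hPQ
      exact (mul_eq_zero.mp hPQ).resolve_right (polyEmb_ne_zero k₀ hQ)
    rw [hg0, inv_zero]
    exact isRat_zero k₀
  · refine ⟨Q, P, hP, ?_⟩
    have hg0 : g ≠ 0 := by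
      rintro rfl
      rw [zero_mul] at hPQ
      exact polyEmb_ne_zero k₀ hP hPQ.symm
    rw [← hPQ, ← mul_assoc, inv_mul_cancel₀ hg0, one_mul]

/-- The subfield `k₀(X)` of `RatFunc k`. -/
noncomputable def ratSub : Subfield (RatFunc k) :=
  Subfield.closure (Set.range (fun c : k₀ => (RatFunc.C (c : k) : RatFunc k)) ∪ {RatFunc.X})

theorem C_mem_ratSub (c : k₀) : (RatFunc.C (c : k) : RatFunc k) ∈ ratSub k₀ :=
  Subfield.subset_closure (Or.inl ⟨c, rfl⟩)

theorem X_mem_ratSub : (RatFunc.X : RatFunc k) ∈ ratSub k₀ :=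
  Subfield.subset_closure (Or.inr rfl)

theorem isRat_of_mem_ratSub {g : RatFunc k} (hg : g ∈ ratSub k₀) : IsRat k₀ g := by
  unfold ratSub at hg
  induction hg using Subfield.closure_induction with
  | mem x hx =>
    rcases hx with ⟨c, rfl⟩ | hx
    · have : (RatFunc.C (c : k) : RatFunc k) = polyEmb k₀ (Polynomial.C c) := by
        simp [polyEmb, RatFunc.algebraMap_C]
      show IsRat k₀ (RatFunc.C (c : k))
      rw [this]
      exact isRat_polyEmb k₀ _
    · rw [Set.mem_singleton_iff] at hx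
      have : (RatFunc.X : RatFunc k) = polyEmb k₀ Polynomial.X := by
        simp [polyEmb, RatFunc.algebraMap_X]
      rw [hx, this]
      exact isRat_polyEmb k₀ _
  | one => exact isRat_one k₀
  | add x y _ _ hx hy => exact hx.add k₀ hy
  | neg x _ hx => exact hx.neg k₀
  | inv x _ hx => exact hx.inv k₀
  | mul x y _ _ hx hy => exact hx.mul k₀ hy

/-- **Linear disjointness.**  Elements of `k₀(X)` which are linearly independent over `k₀` are
linearly independent over `k`. -/
theorem linearIndependent_of_isRat {m : ℕ} (u : Fin m → RatFunc k) (hu : ∀ j, IsRat k₀ (u j))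
    (hind : ∀ b : Fin m → k, (∀ j, b j ∈ k₀) → ∑ j, b j • u j = 0 → ∀ j, b j = 0) :
    LinearIndependent k u := by
  classical
  choose P Q hQ hPQ using hu
  set Qall : Polynomial k₀ := ∏ j, Q j with hQalldef
  have hQall : Qall ≠ 0 := Finset.prod_ne_zero_iff.mpr fun j _ => hQ j
  set P' : Fin m → Polynomial k₀ := fun j => P j * ∏ l ∈ Finset.univ.erase j, Q l with hP'def
  have hP' : ∀ j, u j * polyEmb k₀ Qall = polyEmb k₀ (P' j) := by
    intro j
    have h1 : Qall = Q j * ∏ l ∈ Finset.univ.erase j, Q l :=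
      (Finset.mul_prod_erase _ _ (Finset.mem_univ j)).symm
    rw [h1, map_mul, ← mul_assoc, hPQ j, ← map_mul]
  rw [Fintype.linearIndependent_iff]
  intro a ha
  have hpoly : ∑ j, Polynomial.C (a j) * (P' j).map k₀.subtype = 0 := by
    apply IsFractionRing.injective (Polynomial k) (RatFunc k)
    rw [map_zero, map_sum]
    have h1 : ∑ j, algebraMap (Polynomial k) (RatFunc k)
        (Polynomial.C (a j) * (P' j).map k₀.subtype) = (∑ j, a j • u j) * polyEmb k₀ Qall := by
      rw [Finset.sum_mul]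
      refine Finset.sum_congr rfl fun j _ => ?_
      rw [map_mul, smul_mul_assoc, hP' j, RatFunc.algebraMap_C, RatFunc.smul_eq_C_mul]
      rfl
    rw [h1, ha, zero_mul]
  have hφ : ∀ φ : k →ₗ[k₀] k₀, ∀ j, φ (a j) = 0 := by
    intro φ
    have h1 : ∑ j, Polynomial.C (φ (a j)) * P' j = 0 := by
      refine Polynomial.ext fun d => ?_
      have h2 := congrArg (fun p => Polynomial.coeff p d) hpoly
      simp only [Polynomial.finsetSum_coeff, Polynomial.coeff_C_mul, Polynomial.coeff_map,
        Polynomial.coeff_zero] at h2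
      have h3 : ∑ j, φ (a j * k₀.subtype ((P' j).coeff d)) = 0 := by
        rw [← map_sum φ, h2, map_zero]
      simp only [Polynomial.finsetSum_coeff, Polynomial.coeff_C_mul, Polynomial.coeff_zero]
      rw [← h3]
      refine Finset.sum_congr rfl fun j _ => ?_
      have h4 : a j * k₀.subtype ((P' j).coeff d) = (P' j).coeff d • a j := by
        rw [Subfield.smul_def, smul_eq_mul, mul_comm]
        rfl
      rw [h4, map_smul, smul_eq_mul, mul_comm]
    have h4 : ∑ j, ((φ (a j) : k₀) : k) • u j = 0 := by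
      have h5 : (∑ j, ((φ (a j) : k₀) : k) • u j) * polyEmb k₀ Qall = 0 := by
        rw [Finset.sum_mul]
        have h6 : ∀ j, (((φ (a j) : k₀) : k) • u j) * polyEmb k₀ Qall =
            polyEmb k₀ (Polynomial.C (φ (a j)) * P' j) := by
          intro j
          calc (((φ (a j) : k₀) : k) • u j) * polyEmb k₀ Qall
              = RatFunc.C ((φ (a j) : k₀) : k) * (u j * polyEmb k₀ Qall) := by
                rw [RatFunc.smul_eq_C_mul, mul_assoc]
            _ = polyEmb k₀ (Polynomial.C (φ (a j))) * polyEmb k₀ (P' j) := by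
                rw [hP' j, polyEmb_C]
            _ = polyEmb k₀ (Polynomial.C (φ (a j)) * P' j) := (map_mul _ _ _).symm
        rw [Finset.sum_congr rfl fun j _ => h6 j, ← map_sum, h1, map_zero]
      exact (mul_eq_zero.mp h5).resolve_right (polyEmb_ne_zero k₀ hQall)
    intro j
    have h7 := hind (fun j => ((φ (a j) : k₀) : k)) (fun j => (φ (a j)).2) h4 j
    exact Subtype.ext h7
  intro j
  by_contra hj
  have hj' : a j ∉ (⊥ : Submodule k₀ k) := by
    rw [Submodule.mem_bot]
    exact hj
  obtain ⟨φ, hφ1, -⟩ := Submodule.exists_le_ker_of_notMem hj'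
  exact hφ1 (hφ φ j)

/-- Variant for elements of the subfield `ratSub k₀`. -/
theorem linearIndependent_of_mem_ratSub {m : ℕ} (u : Fin m → RatFunc k)
    (hu : ∀ j, u j ∈ ratSub k₀)
    (hind : ∀ b : Fin m → k, (∀ j, b j ∈ k₀) → ∑ j, b j • u j = 0 → ∀ j, b j = 0) :
    LinearIndependent k u :=
  linearIndependent_of_isRat k₀ u (fun j => isRat_of_mem_ratSub k₀ (hu j)) hind

end Fermat.Agent.BR.RatFuncDisjoint
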