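import Mathlib
import Fermat.Agent.BR.DVRLattice
import Fermat.Agent.BR.RatFuncDisjoint
import Fermat.Agent.Red.ChartInst

/-!
# Program B (BADRED), node B7.AP, part 2: suppliers for the hypotheses of `BR/DVRLattice.lean`

* `pow_mul_mem_of_isRankOne` : over a rank-one valuation ring `A` every element of `K` is
  scaled into `A` by a power of a modulus `ϖ`;
* `bdd_of_eval_arch` : (bdd) from `n` evaluation functionals with values in `K` (NOT necessarily
  `K'`-rational) which are integral on the `K'`-rational part of the unit ball and have an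
  invertible matrix — the version of `DVRLattice.bdd_of_eval` for values at non-rational points;
* `ResBall.resSubfield` : the residue field `π (A ∩ K')` as a subfield of `k`;
* `indep_of_ratSub` : (indep) when the residue ring is `RatFunc k` and the residues of
  `O ∩ F'` lie in the subfield `k'(X)`, `k' = π (A ∩ K')` (linear disjointness,
  `BR/RatFuncDisjoint.lean`);
* `isDVRForm_of_uniformizer` : (abs) and (unr) when `ϖ` is a uniformizer of `O ∩ F'`.
-/

set_option autoImplicit false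

namespace Fermat.Agent.BR.DVRLattice

open Fermat.Agent.Red Fermat.Agent.BR

variable {K F k R : Type*} [Field K] [Field F] [Algebra K F] [Field k] [CommRing R]
  [Algebra k R] {A : ValuationSubring K} {π : A →+* k}

/-- Over a rank-one valuation ring every element of `K` is scaled into `A` by a power of a
modulus. -/
theorem pow_mul_mem_of_isRankOne (hrank : IsRankOne A) {ϖ : K} (hϖ : IsModulus A ϖ)
    (d : K) : ∃ N : ℕ, ϖ ^ N * d ∈ A := by
  by_cases hd0 : d = 0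
  · exact ⟨0, by simp [hd0, A.zero_mem]⟩
  rcases A.mem_or_inv_mem d with hdA | hdA
  · exact ⟨0, by simpa using hdA⟩
  · obtain ⟨n, c, hc, hnc⟩ := hrank.exists_pow_eq hϖ.mem (fun h => hϖ.inv_not_mem h.2) hdA
      (inv_ne_zero hd0)
    refine ⟨n, ?_⟩
    rw [hnc, mul_comm d⁻¹, mul_assoc, inv_mul_cancel₀ hd0, mul_one]
    exact hc

section Eval

variable {B : ResBall (F := F) (R := R) A π} {K' : Subfield K} {ϖ : K}

/-- **(bdd) from evaluations, values in `K`.**  Same as `bdd_of_eval`, but the evaluation matrix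
`E` (`E j i` = value of `w i` at the `j`-th point) has entries in `K`; needs that powers of `ϖ`
scale every element of `K` into `A` (`A` of rank one). -/
theorem bdd_of_eval_arch (hϖ : ϖ ∈ A) (harch : ∀ d : K, ∃ N : ℕ, ϖ ^ N * d ∈ A) {n : ℕ}
    (w : Fin n → F) (E : Matrix (Fin n) (Fin n) K) (hdet : E.det ≠ 0)
    (hev : ∀ c : Fin n → K, (∀ i, c i ∈ K') → comb w c ∈ B.O → ∀ j, ∑ i, E j i * c i ∈ A) :
    ∃ N : ℕ, ∀ c : Fin n → K, (∀ i, c i ∈ K') → comb w c ∈ B.O → ∀ i, ϖ ^ N * c i ∈ A := by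
  classical
  choose N₀ hN₀ using fun p : Fin n × Fin n => harch (E⁻¹ p.1 p.2)
  have hmono : ∀ {d : K} {N M : ℕ}, N ≤ M → ϖ ^ N * d ∈ A → ϖ ^ M * d ∈ A := by
    intro d N M hNM hd
    obtain ⟨j, rfl⟩ := Nat.exists_eq_add_of_le hNM
    rw [pow_add, mul_comm (ϖ ^ N), mul_assoc]
    exact A.mul_mem _ _ (pow_mem hϖ j) hd
  refine ⟨Finset.univ.sup N₀, fun c hc hO i => ?_⟩
  have hN : ∀ p : Fin n × Fin n, ϖ ^ (Finset.univ.sup N₀) * E⁻¹ p.1 p.2 ∈ A := fun p =>
    hmono (Finset.le_sup (Finset.mem_univ p)) (hN₀ p)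
  have hci : c i = ∑ j, E⁻¹ i j * ∑ l, E j l * c l := by
    have h1 : E⁻¹.mulVec (E.mulVec c) = c := by
      rw [Matrix.mulVec_mulVec, Matrix.nonsing_inv_mul _ (isUnit_iff_ne_zero.mpr hdet),
        Matrix.one_mulVec]
    have h2 := congrFun h1 i
    rw [← h2]
    rfl
  rw [hci, Finset.mul_sum]
  refine sum_mem fun j _ => ?_
  rw [← mul_assoc]
  exact A.mul_mem _ _ (hN (i, j)) (hev c hc hO j)

/-- `bdd_of_eval_arch` for a rank-one valuation ring. -/
theorem bdd_of_eval_rankOne (hrank : IsRankOne A) (hϖ : IsModulus A ϖ) {n : ℕ}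
    (w : Fin n → F) (E : Matrix (Fin n) (Fin n) K) (hdet : E.det ≠ 0)
    (hev : ∀ c : Fin n → K, (∀ i, c i ∈ K') → comb w c ∈ B.O → ∀ j, ∑ i, E j i * c i ∈ A) :
    ∃ N : ℕ, ∀ c : Fin n → K, (∀ i, c i ∈ K') → comb w c ∈ B.O → ∀ i, ϖ ^ N * c i ∈ A :=
  bdd_of_eval_arch hϖ.mem (pow_mul_mem_of_isRankOne hrank hϖ) w E hdet hev

end Eval

end Fermat.Agent.BR.DVRLattice

namespace Fermat.Agent.BR.ResBall

open Fermat.Agent.Red Fermat.Agent.BR

variable {K F k R : Type*} [Field K] [Field F] [Algebra K F] [Field k] [CommRing R]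
  [Algebra k R] {A : ValuationSubring K} {π : A →+* k}

/-- The residue field `π (A ∩ K')` of the subfield `K'`, as a subfield of `k`. -/
def resSubfield (B : ResBall (F := F) (R := R) A π) (K' : Subfield K) : Subfield k where
  carrier := {b | ∃ (a : K) (ha : a ∈ A), a ∈ K' ∧ π ⟨a, ha⟩ = b}
  mul_mem' := by
    rintro _ _ ⟨a, ha, haK, rfl⟩ ⟨a', ha', haK', rfl⟩
    exact ⟨a * a', A.mul_mem _ _ ha ha', K'.mul_mem haK haK', map_mul π ⟨a, ha⟩ ⟨a', ha'⟩⟩
  one_mem' := ⟨1, A.one_mem, K'.one_mem, map_one π⟩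
  add_mem' := by
    rintro _ _ ⟨a, ha, haK, rfl⟩ ⟨a', ha', haK', rfl⟩
    exact ⟨a + a', A.add_mem _ _ ha ha', K'.add_mem haK haK', map_add π ⟨a, ha⟩ ⟨a', ha'⟩⟩
  zero_mem' := ⟨0, A.zero_mem, K'.zero_mem, map_zero π⟩
  neg_mem' := by
    rintro _ ⟨a, ha, haK, rfl⟩
    exact ⟨-a, A.neg_mem _ ha, K'.neg_mem haK, map_neg π ⟨a, ha⟩⟩
  inv_mem' := by
    rintro _ ⟨a, ha, haK, rfl⟩
    by_cases hinv : a⁻¹ ∈ A
    · refine ⟨a⁻¹, hinv, K'.inv_mem haK, ?_⟩
      by_cases ha0 : a = 0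
      · subst ha0
        have h0 : (⟨(0 : K)⁻¹, hinv⟩ : A) = 0 := by
          ext
          simp
        have h0' : (⟨(0 : K), ha⟩ : A) = 0 := rfl
        rw [h0, h0', map_zero, inv_zero]
      · have h1 : (⟨a, ha⟩ : A) * ⟨a⁻¹, hinv⟩ = 1 := by
          ext
          simp [mul_inv_cancel₀ ha0]
        have h2 : π ⟨a, ha⟩ * π ⟨a⁻¹, hinv⟩ = 1 := by rw [← map_mul, h1, map_one]
        exact eq_inv_of_mul_eq_one_right h2
    · refine ⟨0, A.zero_mem, K'.zero_mem, ?_⟩
      rw [B.pi_eq_zero a ha hinv, inv_zero]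
      exact map_zero π

theorem mem_resSubfield (B : ResBall (F := F) (R := R) A π) {K' : Subfield K} {b : k} :
    b ∈ B.resSubfield K' ↔ ∃ (a : K) (ha : a ∈ A), a ∈ K' ∧ π ⟨a, ha⟩ = b := Iff.rfl

end Fermat.Agent.BR.ResBall

namespace Fermat.Agent.BR.DVRLattice

open Fermat.Agent.Red Fermat.Agent.BR

section Indep

variable {K F k : Type*} [Field K] [Field F] [Algebra K F] [Field k]
  {A : ValuationSubring K} {π : A →+* k}

/-- **(indep) for `R = RatFunc k`.**  If the residues of `O ∩ F'` lie in the subfield `k'(X)` of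
`RatFunc k`, `k' = π (A ∩ K')`, then residues independent over `k'` are independent over `k`:
this is the field `indep` of `IsDVRForm`. -/
theorem indep_of_ratSub (B : ResBall (F := F) (R := RatFunc k) A π) (K' : Subfield K)
    (F' : Subfield F)
    (hres : ∀ x ∈ F', x ∈ B.O → B.resF x ∈ RatFuncDisjoint.ratSub (B.resSubfield K'))
    {m : ℕ} (u : Fin m → F) (hu : ∀ j, u j ∈ F') (huO : ∀ j, u j ∈ B.O)
    (hk' : ∀ (a : Fin m → K) (ha : ∀ j, a j ∈ A), (∀ j, a j ∈ K') →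
      ∑ j, π ⟨a j, ha j⟩ • B.resF (u j) = 0 → ∀ j, π ⟨a j, ha j⟩ = 0) :
    LinearIndependent k fun j => B.resF (u j) := by
  refine RatFuncDisjoint.linearIndependent_of_mem_ratSub (B.resSubfield K') _
    (fun j => hres _ (hu j) (huO j)) ?_
  intro b hb hsum
  choose a ha haK hab using hb
  have h1 : ∑ j, π ⟨a j, ha j⟩ • B.resF (u j) = 0 := by
    rw [← hsum]
    exact Finset.sum_congr rfl fun j _ => by rw [hab j]
  intro j
  rw [← hab j]
  exact hk' a ha haK h1 j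

end Indep

section Uniformizer

variable {K F k R : Type*} [Field K] [Field F] [Algebra K F] [Field k] [CommRing R]
  [Algebra k R] {A : ValuationSubring K} {π : A →+* k}

/-- **(abs) and (unr) from a uniformizer.**  If every nonzero element of `F'` is a power of `ϖ`
times a unit of `O` (i.e. `O ∩ F'` is a discrete valuation ring with uniformizer `ϖ`), then
(abs) and (unr) hold. -/
theorem isDVRForm_of_uniformizer [Nontrivial R] (B : ResBall (F := F) (R := R) A π)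
    {K' : Subfield K} {F' : Subfield F} {ϖ : K} (hdvr : IsDVRSubfield A K' ϖ)
    (hmem : ∀ c ∈ K', algebraMap K F c ∈ F')
    (hunif : ∀ x ∈ F', x ≠ 0 → ∃ n : ℤ, ∃ e : F, e ∈ B.O ∧ e⁻¹ ∈ B.O ∧ x = (ϖ ^ n) • e)
    (hindep : ∀ {m : ℕ} (u : Fin m → F), (∀ j, u j ∈ F') → (∀ j, u j ∈ B.O) →
      (∀ (a : Fin m → K) (ha : ∀ j, a j ∈ A), (∀ j, a j ∈ K') →
        ∑ j, π ⟨a j, ha j⟩ • B.resF (u j) = 0 → ∀ j, π ⟨a j, ha j⟩ = 0) →
      LinearIndependent k fun j => B.resF (u j)) :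
    IsDVRForm B K' F' ϖ := by
  have hϖ0 : ϖ ≠ 0 := hdvr.isModulus.ne_zero
  have hpowO : ∀ N : ℕ, ∀ y ∈ B.O, (ϖ ^ N) • y ∈ B.O := fun N y hy =>
    B.smul_mem (hdvr.pow_mem_A N) hy
  refine ⟨hdvr, hmem, ?_, ?_, hindep⟩
  · intro x hx
    by_cases hx0 : x = 0
    · exact ⟨0, by simp [hx0, B.O.zero_mem]⟩
    obtain ⟨n, e, he, -, rfl⟩ := hunif x hx hx0
    refine ⟨n.natAbs, ?_⟩
    rw [smul_smul, ← zpow_natCast, ← zpow_add₀ hϖ0]
    have hnn : 0 ≤ (n.natAbs : ℤ) + n := by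
      omega
    obtain ⟨M, hM⟩ := Int.eq_ofNat_of_zero_le hnn
    rw [hM, zpow_natCast]
    exact hpowO M e he
  · intro x hx hxO hres
    by_cases hx0 : x = 0
    · exact ⟨0, B.O.zero_mem, by simp [hx0]⟩
    obtain ⟨n, e, he, he', rfl⟩ := hunif x hx hx0
    have hn : 1 ≤ n := by
      by_contra hcon
      push Not at hcon
      have hn0 : 0 ≤ -n := by omega
      obtain ⟨M, hM⟩ := Int.eq_ofNat_of_zero_le hn0
      have hinv : ((ϖ ^ n) • e)⁻¹ ∈ B.O := by
        have h1 : ((ϖ ^ n) • e)⁻¹ = (ϖ ^ M) • e⁻¹ := by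
          rw [Algebra.smul_def, Algebra.smul_def, mul_inv, ← map_inv₀, ← zpow_neg, hM,
            zpow_natCast]
        rw [h1]
        exact hpowO M _ he'
      have hmul : B.resF ((ϖ ^ n) • e) * B.resF ((ϖ ^ n) • e)⁻¹ = 1 := by
        rw [← B.resF_mul hxO hinv, mul_inv_cancel₀ hx0, B.resF_one]
      rw [hres, zero_mul] at hmul
      exact zero_ne_one hmul
    obtain ⟨M, hM⟩ := Int.eq_ofNat_of_zero_le (show 0 ≤ n - 1 by omega)
    refine ⟨(ϖ ^ M) • e, hpowO M e he, ?_⟩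
    rw [smul_smul]
    congr 1
    have : n = 1 + (n - 1) := by ring
    rw [this, zpow_add₀ hϖ0, zpow_one, hM, zpow_natCast]

end Uniformizer

end Fermat.Agent.BR.DVRLattice
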