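/-
Program B (BADRED), block B2, node B2.DELTA (helper2).

`V(Δ) ≡ Δ^q · (1 + 24 q ∑_{m ≥ 1} σ'_{q-2}(m) X^m)  mod q²` in `ℤ⟦X⟧`, for every prime `q`, where
`Δ = X ∏ (1 - X^n)^24`, `V = PowerSeries.expand q` (`X ↦ X^q`) and `σ'_{q-2}(m)` is the sum of
`d^(q-2)` over the divisors `d` of `m` prime to `q`.  For odd `q` also the `η`-version
`V(∏(1-X^n)) ≡ (∏(1-X^n))^q (1 + q ∑ σ'_{q-2}(m) X^m) mod q²`.  No Bernoulli numbers.

Proof: `C(q-1,k) ≡ (-1)^k mod q`; the one-variable identity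
`(1 - X)^q (1 + q W_q) ≡ 1 - X^q mod q²`, `W_q = ∑_{q ∤ k} k^(q-2) X^k`; apply the ring
homomorphism `X ↦ X^n`, multiply over `n ≤ N` in `ℤ⟦X⟧ ⧸ (q², X^(N+1))`, and compare with the
infinite product modulo `X^(N+1)`.
-/
import Mathlib
import Fermat.Prelude.Def_ModularCurve_X0

set_option autoImplicit false

namespace Fermat.Agent.BR.DeltaCong

open PowerSeries Finset
open scoped PowerSeries.WithPiTopology

/-! ### Step 0 and Step 1: arithmetic and the one-variable identity -/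


theorem choose_pred_prime_modEq {q : ℕ} (hq : q.Prime) (k : ℕ) (hk : k < q) :
    ((q - 1).choose k : ℤ) ≡ (-1) ^ k [ZMOD q] := by
  induction k with
  | zero => simp
  | succ k ih =>
    have ih' := ih (Nat.lt_of_succ_lt hk)
    have h1 : q.choose (k + 1) = (q - 1).choose k + (q - 1).choose (k + 1) := by
      conv_lhs => rw [← Nat.sub_add_cancel hq.one_le]
      exact Nat.choose_succ_succ _ _
    have h2 : (q : ℤ) ∣ (q.choose (k + 1) : ℤ) := by
      exact_mod_cast hq.dvd_choose_self (Nat.succ_ne_zero k) hk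
    have h3 : ((q - 1).choose (k + 1) : ℤ) =
        (q.choose (k + 1) : ℤ) - ((q - 1).choose k : ℤ) := by
      rw [h1]; push_cast; ring
    rw [h3, pow_succ]
    have h4 : (q.choose (k + 1) : ℤ) ≡ 0 [ZMOD q] := (Int.modEq_zero_iff_dvd).mpr h2
    calc (q.choose (k + 1) : ℤ) - ((q - 1).choose k : ℤ)
        ≡ 0 - (-1) ^ k [ZMOD q] := h4.sub ih'
      _ = (-1) ^ k * -1 := by ring

theorem prime_mul_choose_pred {q : ℕ} (hq : q.Prime) (k : ℕ) :
    q * (q - 1).choose k = q.choose (k + 1) * (k + 1) := by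
  have := Nat.add_one_mul_choose_eq (q - 1) k
  rwa [Nat.sub_add_cancel hq.one_le] at this

theorem exists_eq_C_mul_of_forall_dvd (d : ℤ) (f : ℤ⟦X⟧) (h : ∀ k, d ∣ coeff k f) :
    ∃ r : ℤ⟦X⟧, f = C d * r := by
  choose g hg using h
  refine ⟨PowerSeries.mk g, ?_⟩
  ext k
  rw [coeff_C_mul, coeff_mk, hg k]

theorem coeff_one_sub_X_pow' (n k : ℕ) :
    coeff k ((1 - X : ℤ⟦X⟧) ^ n) = (-1) ^ k * (n.choose k : ℤ) := by
  have h1 : (1 - X : ℤ⟦X⟧) = rescale (-1 : ℤ) (1 + X) := by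
    rw [map_add, map_one, rescale_X]
    simp [sub_eq_add_neg]
  have h2 : (1 + X : ℤ⟦X⟧) ^ n = ((1 + Polynomial.X : Polynomial ℤ) ^ n : Polynomial ℤ) := by
    simp
  rw [h1, ← map_pow, coeff_rescale, h2, Polynomial.coeff_coe, Polynomial.coeff_one_add_X_pow]

/-- `W_q = ∑_{q ∤ k} k^(q-2) X^k`. -/
noncomputable def W (q : ℕ) : ℤ⟦X⟧ :=
  PowerSeries.mk fun k => if q ∣ k then 0 else (k : ℤ) ^ (q - 2)

theorem coeff_W (q k : ℕ) : coeff k (W q) = if q ∣ k then 0 else (k : ℤ) ^ (q - 2) := by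
  rw [W, coeff_mk]

/-- The defect `(1 - X)^q - (1 - X^q)` is `q` times a series `Rps` with controlled coefficients. -/
theorem exists_Rps {q : ℕ} (hq : q.Prime) (hq2 : q ≠ 2) :
    ∃ Rps : ℤ⟦X⟧, (1 - X : ℤ⟦X⟧) ^ q = 1 - X ^ q + C (q : ℤ) * Rps ∧
      (∀ k, q ≤ k → coeff k Rps = 0) ∧ coeff 0 Rps = 0 ∧
      ∀ k, 0 < k → k < q → (k : ℤ) * coeff k Rps ≡ -1 [ZMOD q] := by
  have hqodd : Odd q := hq.odd_of_ne_two hq2
  have hq0 : (q : ℤ) ≠ 0 := by exact_mod_cast hq.ne_zero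
  -- coefficients of the defect
  have hD : ∀ k, coeff k ((1 - X : ℤ⟦X⟧) ^ q - (1 - X ^ q)) =
      (-1) ^ k * (q.choose k : ℤ) - (if k = 0 then 1 else 0) + (if k = q then 1 else 0) := by
    intro k
    rw [map_sub, map_sub, coeff_one_sub_X_pow', coeff_one, coeff_X_pow]
    ring
  have hdvd : ∀ k, (q : ℤ) ∣ coeff k ((1 - X : ℤ⟦X⟧) ^ q - (1 - X ^ q)) := by
    intro k
    rw [hD k]
    rcases Nat.eq_zero_or_pos k with rfl | hk0
    · simp [hq.ne_zero.symm]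
    rcases lt_trichotomy k q with hkq | rfl | hkq
    · have h2 : (q : ℤ) ∣ (q.choose k : ℤ) := by
        exact_mod_cast hq.dvd_choose_self hk0.ne' hkq
      simp only [hk0.ne', hkq.ne, if_false, sub_zero, add_zero]
      exact Dvd.dvd.mul_left h2 _
    · simp [hq.ne_zero, hqodd.neg_one_pow]
    · simp [Nat.choose_eq_zero_of_lt hkq, hk0.ne', hkq.ne']
  obtain ⟨Rps, hR⟩ := exists_eq_C_mul_of_forall_dvd _ _ hdvd
  have hcoef : ∀ k, (q : ℤ) * coeff k Rps =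
      (-1) ^ k * (q.choose k : ℤ) - (if k = 0 then 1 else 0) + (if k = q then 1 else 0) := by
    intro k
    rw [← hD k, hR, coeff_C_mul]
  refine ⟨Rps, ?_, ?_, ?_, ?_⟩
  · rw [← hR]; ring
  · intro k hk
    have h := hcoef k
    have hk0 : k ≠ 0 := by have := hq.pos; omega
    rcases eq_or_lt_of_le hk with rfl | hkq
    · simp only [hk0, if_false, if_true, Nat.choose_self, Nat.cast_one, mul_one,
        hqodd.neg_one_pow, sub_zero] at h
      have : (q : ℤ) * coeff q Rps = 0 := by rw [h]; ring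
      exact (mul_eq_zero.mp this).resolve_left hq0
    · simp only [hk0, hkq.ne', if_false, Nat.choose_eq_zero_of_lt hkq, Nat.cast_zero, mul_zero,
        sub_zero, add_zero] at h
      exact (mul_eq_zero.mp h).resolve_left hq0
  · have h := hcoef 0
    simp only [pow_zero, Nat.choose_zero_right, Nat.cast_one, mul_one, if_true, sub_self,
      zero_add, hq.ne_zero.symm, if_false] at h
    exact (mul_eq_zero.mp h).resolve_left hq0
  · intro k hk0 hkq
    have h := hcoef k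
    simp only [hk0.ne', hkq.ne, if_false, sub_zero, add_zero] at h
    -- k * C(q,k) = q * C(q-1,k-1)
    obtain ⟨j, rfl⟩ : ∃ j, k = j + 1 := ⟨k - 1, by omega⟩
    have h1 := prime_mul_choose_pred hq j
    have h1' : ((q : ℤ)) * ((q - 1).choose j : ℤ) = (q.choose (j + 1) : ℤ) * ((j : ℤ) + 1) := by
      exact_mod_cast h1
    have h2 : (q : ℤ) * (((j + 1 : ℕ) : ℤ) * coeff (j + 1) Rps) =
        (q : ℤ) * ((-1) ^ (j + 1) * ((q - 1).choose j : ℤ)) := by
      have : (q : ℤ) * (((j + 1 : ℕ) : ℤ) * coeff (j + 1) Rps) =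
          ((j + 1 : ℕ) : ℤ) * ((q : ℤ) * coeff (j + 1) Rps) := by ring
      rw [this, h]
      push_cast
      linear_combination (-1) ^ (j + 1) * (-h1')
    have h3 := mul_left_cancel₀ hq0 h2
    rw [h3]
    have h4 := choose_pred_prime_modEq hq j (Nat.lt_of_succ_lt hkq)
    calc (-1) ^ (j + 1) * ((q - 1).choose j : ℤ)
        ≡ (-1) ^ (j + 1) * (-1) ^ j [ZMOD q] := h4.mul_left _
      _ = -1 := by
        rw [← pow_add, show j + 1 + j = 2 * j + 1 by ring, pow_succ, pow_mul]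
        simp


/-- **Step 1** (one variable, `q` odd): `(1 - X)^q (1 + q W_q) = 1 - X^q mod q^2`. -/
theorem one_var {q : ℕ} (hq : q.Prime) (hq2 : q ≠ 2) :
    ∃ r : ℤ⟦X⟧, (1 - X : ℤ⟦X⟧) ^ q * (1 + C (q : ℤ) * W q) =
      1 - X ^ q + C ((q : ℤ) ^ 2) * r := by
  obtain ⟨Rps, hR, hRge, hR0, hRk⟩ := exists_Rps hq hq2
  have hq3 : 3 ≤ q := by
    have := hq.two_le
    omega
  have hT : ∀ k, (q : ℤ) ∣ coeff k ((1 - X ^ q : ℤ⟦X⟧) * W q + Rps) := by
    intro k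
    have hc : coeff k ((1 - X ^ q : ℤ⟦X⟧) * W q) =
        coeff k (W q) - (if q ≤ k then coeff (k - q) (W q) else 0) := by
      rw [sub_mul, one_mul, map_sub, coeff_X_pow_mul']
    rw [map_add, hc, coeff_W]
    by_cases hkq : q ≤ k
    · rw [if_pos hkq, coeff_W, hRge k hkq, add_zero]
      have hdvd : q ∣ k - q ↔ q ∣ k := by
        constructor
        · intro h
          have := Nat.dvd_add h (dvd_refl q)
          rwa [Nat.sub_add_cancel hkq] at this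
        · intro h
          exact Nat.dvd_sub h (dvd_refl q)
      by_cases hk : q ∣ k
      · rw [if_pos hk, if_pos (hdvd.mpr hk), sub_zero]
        exact dvd_zero _
      · rw [if_neg hk, if_neg (fun h => hk (hdvd.mp h))]
        have h1 : ((k - q : ℕ) : ℤ) = (k : ℤ) - q := by
          rw [Nat.cast_sub hkq]
        rw [h1]
        have := sub_dvd_pow_sub_pow (k : ℤ) ((k : ℤ) - q) (q - 2)
        rwa [sub_sub_cancel] at this
    · rw [if_neg hkq, sub_zero]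
      rw [not_le] at hkq
      rcases Nat.eq_zero_or_pos k with rfl | hk0
      · rw [if_pos (dvd_zero q), hR0, add_zero]
        exact dvd_zero _
      · have hk : ¬ q ∣ k := fun h => absurd (Nat.le_of_dvd hk0 h) (not_le.mpr hkq)
        rw [if_neg hk]
        have hcop : IsCoprime (k : ℤ) (q : ℤ) := by
          rw [Int.isCoprime_iff_gcd_eq_one, Int.gcd_natCast_natCast]
          exact (Nat.coprime_comm.mp ((Nat.Prime.coprime_iff_not_dvd hq).mpr hk))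
        have h1 : (k : ℤ) ^ (q - 1) ≡ 1 [ZMOD q] := Int.ModEq.pow_card_sub_one_eq_one hq hcop
        have h2 : (k : ℤ) * ((k : ℤ) ^ (q - 2) + coeff k Rps) ≡ 0 [ZMOD q] := by
          have e : (k : ℤ) * ((k : ℤ) ^ (q - 2) + coeff k Rps) =
              (k : ℤ) ^ (q - 1) + (k : ℤ) * coeff k Rps := by
            rw [mul_add, ← pow_succ', show q - 2 + 1 = q - 1 by omega]
          rw [e]
          calc (k : ℤ) ^ (q - 1) + (k : ℤ) * coeff k Rps ≡ 1 + -1 [ZMOD q] :=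
                h1.add (hRk k hk0 hkq)
            _ = 0 := by ring
        have h3 : (q : ℤ) ∣ (k : ℤ) * ((k : ℤ) ^ (q - 2) + coeff k Rps) :=
          Int.modEq_zero_iff_dvd.mp h2
        exact hcop.symm.dvd_of_dvd_mul_left h3
  obtain ⟨r1, hr1⟩ := exists_eq_C_mul_of_forall_dvd _ _ hT
  refine ⟨r1 + Rps * W q, ?_⟩
  rw [hR, map_pow]
  linear_combination (C (q : ℤ)) * hr1


/-! ### Truncation of the infinite product -/


/-- The finite Euler product `∏_{n < N} (1 - X^(n+1))`. -/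
noncomputable def etaFin (N : ℕ) : ℤ⟦X⟧ := ∏ n ∈ range N, (1 - X ^ (n + 1))

theorem X_pow_dvd_prod_sub_one (N : ℕ) (t : Finset ℕ) (ht : ∀ n ∈ t, N ≤ n) :
    (X : ℤ⟦X⟧) ^ (N + 1) ∣ ∏ n ∈ t, (1 - X ^ (n + 1)) - 1 := by
  classical
  induction t using Finset.induction_on with
  | empty => simp
  | insert a t ha ih =>
    rw [Finset.prod_insert ha]
    have h1 := ih fun n hn => ht n (Finset.mem_insert_of_mem hn)
    have h2 : (X : ℤ⟦X⟧) ^ (N + 1) ∣ X ^ (a + 1) :=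
      pow_dvd_pow X (Nat.succ_le_succ (ht a (Finset.mem_insert_self a t)))
    have e : (1 - X ^ (a + 1)) * ∏ n ∈ t, (1 - X ^ (n + 1)) - 1 =
        (∏ n ∈ t, (1 - X ^ (n + 1)) - 1) - X ^ (a + 1) * ∏ n ∈ t, (1 - X ^ (n + 1) : ℤ⟦X⟧) := by
      ring
    rw [e]
    exact dvd_sub h1 (Dvd.dvd.mul_right h2 _)

theorem X_pow_dvd_prod_sub_etaFin (N : ℕ) (s : Finset ℕ) (hs : range N ⊆ s) :
    (X : ℤ⟦X⟧) ^ (N + 1) ∣ ∏ n ∈ s, (1 - X ^ (n + 1)) - etaFin N := by
  classical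
  rw [etaFin, ← Finset.prod_sdiff hs]
  have h := X_pow_dvd_prod_sub_one N (s \ range N) (fun n hn => by
    rw [Finset.mem_sdiff, Finset.mem_range, not_lt] at hn
    exact hn.2)
  have e : (∏ n ∈ s \ range N, (1 - X ^ (n + 1) : ℤ⟦X⟧)) * ∏ n ∈ range N, (1 - X ^ (n + 1)) -
      ∏ n ∈ range N, (1 - X ^ (n + 1)) =
      (∏ n ∈ s \ range N, (1 - X ^ (n + 1) : ℤ⟦X⟧) - 1) * ∏ n ∈ range N, (1 - X ^ (n + 1)) := by
    ring
  rw [e]
  exact Dvd.dvd.mul_right h _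

/-- `etaProd ≡ ∏_{n<N} (1 - X^(n+1)) mod X^(N+1)`. -/
theorem X_pow_dvd_etaProd_sub (N : ℕ) :
    (X : ℤ⟦X⟧) ^ (N + 1) ∣ ModularCurve.etaProd - etaFin N := by
  classical
  rw [X_pow_dvd_iff]
  intro m hm
  have hP : HasProd (fun n : ℕ => (1 : ℤ⟦X⟧) - X ^ (n + 1)) ModularCurve.etaProd :=
    (PowerSeries.WithPiTopology.multipliable_one_sub_X_pow ℤ).hasProd
  rw [HasProd, PowerSeries.WithPiTopology.tendsto_iff_coeff_tendsto] at hP
  have h := hP m
  rw [nhds_discrete, Filter.tendsto_pure] at h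
  have h' : ∀ᶠ s : Finset ℕ in Filter.atTop,
      coeff m (∏ n ∈ s, ((1 : ℤ⟦X⟧) - X ^ (n + 1))) = coeff m ModularCurve.etaProd := by
    simpa using h
  obtain ⟨s0, hs0⟩ := Filter.eventually_atTop.mp h'
  have h1 := hs0 (s0 ∪ range N) Finset.subset_union_left
  have h2 := X_pow_dvd_prod_sub_etaFin N (s0 ∪ range N) Finset.subset_union_right
  rw [X_pow_dvd_iff] at h2
  have h3 := h2 m hm
  rw [map_sub] at h3 ⊢
  rw [← h1, h3]


/-! ### The divisor-sum series -/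

/-- `σ'_{q-2}(m)`: the sum of `d^(q-2)` over the divisors `d` of `m` prime to `q`. -/
def sigmaPrime (q m : ℕ) : ℤ := ∑ d ∈ m.divisors.filter (fun d => ¬ q ∣ d), (d : ℤ) ^ (q - 2)

/-- `S_q = ∑_{m ≥ 1} σ'_{q-2}(m) X^m`. -/
noncomputable def sigmaSeries (q : ℕ) : ℤ⟦X⟧ := PowerSeries.mk (sigmaPrime q)

theorem coeff_sigmaSeries (q m : ℕ) : coeff m (sigmaSeries q) = sigmaPrime q m := by
  rw [sigmaSeries, coeff_mk]

/-- `W_q(X^(n+1))`. -/
noncomputable def Wn (q n : ℕ) : ℤ⟦X⟧ := expand (n + 1) (Nat.succ_ne_zero n) (W q)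

theorem coeff_Wn (q n m : ℕ) :
    coeff m (Wn q n) = if (n + 1) ∣ m then coeff (m / (n + 1)) (W q) else 0 := by
  rw [Wn, coeff_expand]

theorem coeff_sum_Wn (q N m : ℕ) (hm : m ≤ N) :
    coeff m (∑ n ∈ range N, Wn q n) = sigmaPrime q m := by
  rw [map_sum]
  simp_rw [coeff_Wn]
  rcases Nat.eq_zero_or_pos m with rfl | hm0
  · simp [coeff_W, sigmaPrime]
  have h1 : ∑ n ∈ range N, (if (n + 1) ∣ m then coeff (m / (n + 1)) (W q) else 0) =
      ∑ d ∈ Ico 1 (N + 1), (if d ∣ m then coeff (m / d) (W q) else 0) := by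
    rw [Finset.range_eq_Ico, ← Finset.sum_Ico_add' (fun d => if d ∣ m then coeff (m / d) (W q) else 0) 0 N 1]
  rw [h1, ← Finset.sum_filter]
  have h2 : (Ico 1 (N + 1)).filter (fun d => d ∣ m) = m.divisors := by
    ext d
    simp only [Finset.mem_filter, Finset.mem_Ico, Nat.mem_divisors]
    constructor
    · rintro ⟨-, hd⟩
      exact ⟨hd, hm0.ne'⟩
    · rintro ⟨hd, -⟩
      have := Nat.le_of_dvd hm0 hd
      have := Nat.pos_of_dvd_of_pos hd hm0
      exact ⟨⟨by omega, by omega⟩, hd⟩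
  rw [h2, Nat.sum_div_divisors m (fun k => coeff k (W q))]
  simp_rw [coeff_W]
  rw [sigmaPrime, Finset.sum_filter]
  refine Finset.sum_congr rfl fun k _ => ?_
  by_cases hk : q ∣ k <;> simp [hk]

theorem X_pow_dvd_sigmaSeries_sub (q N : ℕ) :
    (X : ℤ⟦X⟧) ^ (N + 1) ∣ sigmaSeries q - ∑ n ∈ range N, Wn q n := by
  rw [X_pow_dvd_iff]
  intro m hm
  rw [map_sub, coeff_sigmaSeries, coeff_sum_Wn q N m (by omega), sub_self]


/-! ### Quotient-ring helpers -/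


section Quot
variable {A : Type*} [CommRing A]

theorem prod_one_add_of_sq_zero {ι : Type*} (s : Finset ι) (ε : A) (hε : ε * ε = 0) (a : ι → A) :
    ∏ i ∈ s, (1 + ε * a i) = 1 + ε * ∑ i ∈ s, a i := by
  classical
  induction s using Finset.induction_on with
  | empty => simp
  | insert i s hi ih =>
    rw [prod_insert hi, sum_insert hi, ih]
    linear_combination (a i * ∑ j ∈ s, a j) * hε

theorem one_add_pow_of_sq_zero (ε : A) (hε : ε * ε = 0) (a : A) (k : ℕ) :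
    (1 + ε * a) ^ k = 1 + ε * (k * a) := by
  have h := prod_one_add_of_sq_zero (range k) ε hε (fun _ => a)
  simpa using h

end Quot

/-- The ideal `(q^2, X^(N+1))` of `ℤ⟦X⟧`. -/
noncomputable def idealQN (q N : ℕ) : Ideal ℤ⟦X⟧ :=
  Ideal.span ({C ((q : ℤ) ^ 2), X ^ (N + 1)} : Set ℤ⟦X⟧)

theorem C_sq_mem (q N : ℕ) : C ((q : ℤ) ^ 2) ∈ idealQN q N :=
  Ideal.subset_span (by simp)

theorem X_pow_mem (q N : ℕ) : (X : ℤ⟦X⟧) ^ (N + 1) ∈ idealQN q N :=
  Ideal.subset_span (by simp)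

theorem mem_of_X_pow_dvd (q N : ℕ) {f : ℤ⟦X⟧} (h : (X : ℤ⟦X⟧) ^ (N + 1) ∣ f) :
    f ∈ idealQN q N := by
  obtain ⟨c, rfl⟩ := h
  exact Ideal.mul_mem_right _ _ (X_pow_mem q N)

theorem mk_eq_of_X_pow_dvd (q N : ℕ) {f g : ℤ⟦X⟧} (h : (X : ℤ⟦X⟧) ^ (N + 1) ∣ f - g) :
    Ideal.Quotient.mk (idealQN q N) f = Ideal.Quotient.mk (idealQN q N) g :=
  Ideal.Quotient.eq.mpr (mem_of_X_pow_dvd q N h)

/-- Coefficients of index `≤ N` of elements of `(q^2, X^(N+1))` are divisible by `q^2`. -/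
theorem dvd_coeff_of_mem (q N : ℕ) {f : ℤ⟦X⟧} (hf : f ∈ idealQN q N) (m : ℕ) (hm : m ≤ N) :
    (q : ℤ) ^ 2 ∣ coeff m f := by
  rw [idealQN, Ideal.mem_span_pair] at hf
  obtain ⟨a, b, rfl⟩ := hf
  rw [map_add, coeff_mul_C, coeff_mul_X_pow', if_neg (by omega), add_zero]
  exact Dvd.intro_left _ rfl


/-! ### Step 2: the one-variable identity at `X^(n+1)` -/

theorem one_var_expand {q : ℕ} (hq : q.Prime) (hq2 : q ≠ 2) (n : ℕ) :
    ∃ r : ℤ⟦X⟧, (1 - X ^ (n + 1) : ℤ⟦X⟧) ^ q * (1 + C (q : ℤ) * Wn q n) =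
      1 - (X ^ q) ^ (n + 1) + C ((q : ℤ) ^ 2) * r := by
  obtain ⟨r, hr⟩ := one_var hq hq2
  refine ⟨expand (n + 1) (Nat.succ_ne_zero n) r, ?_⟩
  have h := congrArg (expand (n + 1) (Nat.succ_ne_zero n)) hr
  simp only [map_mul, map_pow, map_sub, map_add, map_one, expand_X, expand_C] at h
  rw [Wn, h, ← pow_mul, ← pow_mul, mul_comm q (n + 1), map_pow]

/-! ### Step 3: the finite product in `ℤ⟦X⟧ ⧸ (q², X^(N+1))` and the limit -/

theorem expand_X_pow_dvd {q : ℕ} (hq : q.Prime) (N : ℕ) {f : ℤ⟦X⟧}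
    (h : (X : ℤ⟦X⟧) ^ (N + 1) ∣ f) : (X : ℤ⟦X⟧) ^ (N + 1) ∣ expand q hq.ne_zero f := by
  obtain ⟨c, rfl⟩ := h
  rw [map_mul, map_pow, expand_X, ← pow_mul]
  exact Dvd.dvd.mul_right (pow_dvd_pow X (Nat.le_mul_of_pos_left _ hq.pos)) _

theorem mk_expand_etaProd {q : ℕ} (hq : q.Prime) (hq2 : q ≠ 2) (N : ℕ) :
    Ideal.Quotient.mk (idealQN q N) (expand q hq.ne_zero ModularCurve.etaProd) =
      Ideal.Quotient.mk (idealQN q N)
        (ModularCurve.etaProd ^ q * (1 + C (q : ℤ) * sigmaSeries q)) := by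
  set π := Ideal.Quotient.mk (idealQN q N) with hπ
  have hsq : π (C ((q : ℤ) ^ 2)) = 0 := Ideal.Quotient.eq_zero_iff_mem.mpr (C_sq_mem q N)
  have hε : π (C (q : ℤ)) * π (C (q : ℤ)) = 0 := by
    rw [← map_mul, ← map_mul, ← pow_two]
    exact hsq
  have h1 : π ModularCurve.etaProd = π (etaFin N) :=
    mk_eq_of_X_pow_dvd q N (X_pow_dvd_etaProd_sub N)
  have h2 : π (expand q hq.ne_zero ModularCurve.etaProd) = π (expand q hq.ne_zero (etaFin N)) := by
    refine mk_eq_of_X_pow_dvd q N ?_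
    rw [← map_sub]
    exact expand_X_pow_dvd hq N (X_pow_dvd_etaProd_sub N)
  have h3 : expand q hq.ne_zero (etaFin N) = ∏ n ∈ range N, (1 - (X ^ q) ^ (n + 1) : ℤ⟦X⟧) := by
    rw [etaFin, map_prod]
    refine Finset.prod_congr rfl fun n _ => ?_
    rw [map_sub, map_one, map_pow, expand_X]
  have h4 : ∀ n, π (1 - (X ^ q) ^ (n + 1)) =
      π (1 - X ^ (n + 1)) ^ q * (1 + π (C (q : ℤ)) * π (Wn q n)) := by
    intro n
    obtain ⟨r, hr⟩ := one_var_expand hq hq2 n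
    have h := congrArg π hr
    rw [map_add π _ (C _ * r), map_mul π (C _) r, hsq, zero_mul, add_zero] at h
    rw [← h]
    simp only [map_mul, map_pow, map_add, map_one]
  have h5 : ∑ n ∈ range N, π (Wn q n) = π (sigmaSeries q) := by
    rw [← map_sum]
    exact (mk_eq_of_X_pow_dvd q N (X_pow_dvd_sigmaSeries_sub q N)).symm
  rw [h2, h3, map_prod]
  simp_rw [h4]
  rw [Finset.prod_mul_distrib, Finset.prod_pow, prod_one_add_of_sq_zero _ _ hε, h5, ← map_prod,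
    ← etaFin, ← h1]
  simp only [map_mul, map_pow, map_add, map_one]

/-- **η-version** (`q` odd), coefficientwise. -/
theorem sq_dvd_coeff_expand_etaProd {q : ℕ} (hq : q.Prime) (hq2 : q ≠ 2) (m : ℕ) :
    (q : ℤ) ^ 2 ∣ coeff m (expand q hq.ne_zero ModularCurve.etaProd -
      ModularCurve.etaProd ^ q * (1 + C (q : ℤ) * sigmaSeries q)) :=
  dvd_coeff_of_mem q m (Ideal.Quotient.eq.mp (mk_expand_etaProd hq hq2 m)) m le_rfl

/-- **η-version** (`q` odd): `V(η) = η^q (1 + q S_q) + q² R`. -/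
theorem expand_etaProd_modEq (q : ℕ) (hq : q.Prime) (hq2 : q ≠ 2) :
    ∃ R : ℤ⟦X⟧, expand q hq.ne_zero ModularCurve.etaProd =
      ModularCurve.etaProd ^ q * (1 + C (q : ℤ) * sigmaSeries q) + C ((q : ℤ) ^ 2) * R := by
  obtain ⟨R, hR⟩ := exists_eq_C_mul_of_forall_dvd _ _ (sq_dvd_coeff_expand_etaProd hq hq2)
  exact ⟨R, by rw [← hR]; ring⟩

/-! ### `Δ` -/

/-- `Δ = X ∏ (1 - X^n)^24` (same body as `Eis.QExpInt.deltaZ` on main). -/
noncomputable def Delta : ℤ⟦X⟧ := X * ModularCurve.dedekindEtaUnit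

theorem Delta_eq : Delta = X * ModularCurve.etaProd ^ 24 := rfl

/-- The case `q = 2`: `V(η)^2 = η^4` in `ℤ⟦X⟧ ⧸ (4, X^(N+1))`. -/
theorem mk_expand_etaProd_two (N : ℕ) :
    Ideal.Quotient.mk (idealQN 2 N) (expand 2 two_ne_zero ModularCurve.etaProd) ^ 2 =
      Ideal.Quotient.mk (idealQN 2 N) ModularCurve.etaProd ^ 4 := by
  set π := Ideal.Quotient.mk (idealQN 2 N) with hπ
  have hsq : π (C (((2 : ℕ) : ℤ) ^ 2)) = 0 := Ideal.Quotient.eq_zero_iff_mem.mpr (C_sq_mem 2 N)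
  have h22 : (2 : ℤ⟦X⟧ ⧸ idealQN 2 N) * 2 = 0 := by
    have : (C (((2 : ℕ) : ℤ) ^ 2) : ℤ⟦X⟧) = 2 * 2 := by
      rw [show (((2 : ℕ) : ℤ) ^ 2) = 2 * 2 by norm_num, map_mul]
      simp
    rw [this, map_mul] at hsq
    have e : π (2 : ℤ⟦X⟧) = 2 := map_ofNat π 2
    rw [e] at hsq
    exact hsq
  have h1 : π ModularCurve.etaProd = π (etaFin N) :=
    mk_eq_of_X_pow_dvd 2 N (X_pow_dvd_etaProd_sub N)
  have h2 : π (expand 2 two_ne_zero ModularCurve.etaProd) =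
      π (expand 2 two_ne_zero (etaFin N)) := by
    refine mk_eq_of_X_pow_dvd 2 N ?_
    rw [← map_sub]
    exact expand_X_pow_dvd Nat.prime_two N (X_pow_dvd_etaProd_sub N)
  have h3 : expand 2 two_ne_zero (etaFin N) =
      ∏ n ∈ range N, ((1 - X ^ (n + 1)) ^ 2 + 2 * (X ^ (n + 1) * (1 - X ^ (n + 1))) : ℤ⟦X⟧) := by
    rw [etaFin, map_prod]
    refine Finset.prod_congr rfl fun n _ => ?_
    rw [map_sub, map_one, map_pow, expand_X]
    ring
  -- a product of terms `u + 2 v` is `∏ u + 2 c`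
  have h4 : ∀ (s : Finset ℕ) (u v : ℕ → ℤ⟦X⟧ ⧸ idealQN 2 N),
      ∃ c, ∏ n ∈ s, (u n + 2 * v n) = ∏ n ∈ s, u n + 2 * c := by
    classical
    intro s u v
    induction s using Finset.induction_on with
    | empty => exact ⟨0, by simp⟩
    | insert a s ha ih =>
      obtain ⟨c, hc⟩ := ih
      refine ⟨u a * c + v a * ∏ n ∈ s, u n + 2 * (v a * c), ?_⟩
      rw [Finset.prod_insert ha, Finset.prod_insert ha, hc]
      ring
  rw [h2, h3, map_prod, h1]
  obtain ⟨c, hc⟩ := h4 (range N) (fun n => π ((1 - X ^ (n + 1)) ^ 2))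
    (fun n => π (X ^ (n + 1) * (1 - X ^ (n + 1))))
  have h5 : ∀ n, π ((1 - X ^ (n + 1)) ^ 2 + 2 * (X ^ (n + 1) * (1 - X ^ (n + 1)))) =
      π ((1 - X ^ (n + 1)) ^ 2) + 2 * π (X ^ (n + 1) * (1 - X ^ (n + 1))) := by
    intro n
    rw [map_add, map_mul, map_ofNat]
  simp_rw [h5]
  rw [hc]
  have h6 : ∏ n ∈ range N, π ((1 - X ^ (n + 1)) ^ 2) = π (etaFin N) ^ 2 := by
    rw [etaFin, map_prod, ← Finset.prod_pow]
    refine Finset.prod_congr rfl fun n _ => ?_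
    rw [map_pow]
  rw [h6]
  linear_combination (π (etaFin N) ^ 2 * c + c ^ 2) * h22

theorem mk_expand_Delta {q : ℕ} (hq : q.Prime) (N : ℕ) :
    Ideal.Quotient.mk (idealQN q N) (expand q hq.ne_zero Delta) =
      Ideal.Quotient.mk (idealQN q N)
        (Delta ^ q * (1 + C (24 * (q : ℤ)) * sigmaSeries q)) := by
  have hsq : Ideal.Quotient.mk (idealQN q N) (C ((q : ℤ) ^ 2)) = 0 :=
    Ideal.Quotient.eq_zero_iff_mem.mpr (C_sq_mem q N)
  by_cases hq2 : q = 2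
  · subst hq2
    have h := mk_expand_etaProd_two N
    have h48 : Ideal.Quotient.mk (idealQN 2 N) (C (24 * ((2 : ℕ) : ℤ))) = 0 := by
      have : (C (24 * ((2 : ℕ) : ℤ)) : ℤ⟦X⟧) = C (((2 : ℕ) : ℤ) ^ 2) * C 12 := by
        rw [← map_mul]; norm_num
      rw [this, map_mul, hsq, zero_mul]
    have hR : Ideal.Quotient.mk (idealQN 2 N)
        (Delta ^ 2 * (1 + C (24 * ((2 : ℕ) : ℤ)) * sigmaSeries 2)) =
        Ideal.Quotient.mk (idealQN 2 N) (Delta ^ 2) := by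
      rw [map_mul, map_add, map_mul _ (C _), h48, zero_mul, add_zero, map_one, mul_one]
    rw [hR, Delta_eq, map_mul (expand 2 _), map_pow (expand 2 _), expand_X, map_mul, map_pow,
      map_pow _ (expand 2 _ ModularCurve.etaProd), mul_pow, map_mul, map_pow, map_pow]
    have e : Ideal.Quotient.mk (idealQN 2 N) (expand 2 hq.ne_zero ModularCurve.etaProd) ^ 24 =
        (Ideal.Quotient.mk (idealQN 2 N) (expand 2 hq.ne_zero ModularCurve.etaProd) ^ 2) ^ 12 := by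
      rw [← pow_mul]
    rw [e, h, ← pow_mul, map_pow, ← pow_mul]
  · have h := mk_expand_etaProd hq hq2 N
    have hε : Ideal.Quotient.mk (idealQN q N) (C (q : ℤ)) *
        Ideal.Quotient.mk (idealQN q N) (C (q : ℤ)) = 0 := by
      rw [← map_mul, ← map_mul, ← pow_two]
      exact hsq
    have h24 : (C (24 * (q : ℤ)) : ℤ⟦X⟧) = C (q : ℤ) * 24 := by
      rw [mul_comm (24 : ℤ), map_mul]
      simp
    rw [Delta_eq, h24]
    simp only [map_mul, map_pow, map_add, map_one, expand_X] at h ⊢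
    rw [h, mul_pow, one_add_pow_of_sq_zero _ hε, mul_pow, ← pow_mul, ← pow_mul]
    simp only [map_ofNat, Nat.cast_ofNat]
    ring

/-- **B2.DELTA**, coefficientwise. -/
theorem sq_dvd_coeff_expand_Delta {q : ℕ} (hq : q.Prime) (m : ℕ) :
    (q : ℤ) ^ 2 ∣ coeff m (expand q hq.ne_zero Delta -
      Delta ^ q * (1 + C (24 * (q : ℤ)) * sigmaSeries q)) :=
  dvd_coeff_of_mem q m (Ideal.Quotient.eq.mp (mk_expand_Delta hq m)) m le_rfl

/-- **B2.DELTA**: `V(Δ) = Δ^q (1 + 24 q S_q) + q² R` in `ℤ⟦X⟧`, for every prime `q`. -/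
theorem expand_Delta_modEq (q : ℕ) (hq : q.Prime) :
    ∃ R : ℤ⟦X⟧, expand q hq.ne_zero Delta =
      Delta ^ q * (1 + C (24 * (q : ℤ)) * sigmaSeries q) + C ((q : ℤ) ^ 2) * R := by
  obtain ⟨R, hR⟩ := exists_eq_C_mul_of_forall_dvd _ _ (sq_dvd_coeff_expand_Delta hq)
  exact ⟨R, by rw [← hR]; ring⟩

/-- **B2.DELTA**, image form in `(ZMod (q^2))⟦X⟧`. -/
theorem map_expand_Delta (q : ℕ) (hq : q.Prime) :
    PowerSeries.map (Int.castRingHom (ZMod (q ^ 2))) (expand q hq.ne_zero Delta) =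
      PowerSeries.map (Int.castRingHom (ZMod (q ^ 2)))
        (Delta ^ q * (1 + C (24 * (q : ℤ)) * sigmaSeries q)) := by
  obtain ⟨R, hR⟩ := expand_Delta_modEq q hq
  rw [hR, map_add, map_mul _ (C _) R]
  have : PowerSeries.map (Int.castRingHom (ZMod (q ^ 2))) (C ((q : ℤ) ^ 2)) = 0 := by
    rw [map_C]
    have : (Int.castRingHom (ZMod (q ^ 2))) ((q : ℤ) ^ 2) = 0 := by
      rw [eq_intCast]
      have : (((q : ℤ) ^ 2 : ℤ) : ZMod (q ^ 2)) = ((q ^ 2 : ℕ) : ZMod (q ^ 2)) := by push_cast; rfl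
      rw [this, ZMod.natCast_self]
    rw [this, map_zero]
  rw [this, zero_mul, add_zero]

end Fermat.Agent.BR.DeltaCong
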