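import Mathlib
import Fermat.Agent.Val.ResidueFieldA
import Fermat.Agent.S05.Val

/-!
# Program B (BADRED): the maximal prime-to-`q` cyclotomic extension of `ℚ` inside `ℚ̄`

For a valuation subring `A` of `L = ℚ̄` lying over the prime `q`, the field
`K₀ := ℚ(ζ : ζ^m = 1, q ∤ m)` is

* (i) fixed pointwise by the inertia group of `A` (`apply_eq_of_mem_cycloField`);
* (ii) unramified: `v(K₀ˣ) = v(q)^ℤ` (`exists_zpow_eq_valuation`);
* (iii) has the full residue field of `A` (`exists_mem_cycloField_sub_mem_nonunits`).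

This is the base coefficient field of the frame of block B6.5 (`IsDVRField A K₀ q`, `FullRes A K₀`)
and the reason why the annulus coordinates are fixed by inertia (`hu` in `BR/Refine/Final.lean`).
-/

set_option autoImplicit false

open Polynomial IsLocalRing

namespace Fermat.Agent.BR.UnramCyclo

/-! ### Lifting a divisibility from `(ZMod q)[X]` to `ℤ[X]` -/

section Lift

variable {q : ℕ}

/-- If `h ≡ p s` modulo `q` then `h = p s + q t`. -/
theorem exists_eq_mul_add_of_map_eq (p s h : ℤ[X])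
    (heq : h.map (Int.castRingHom (ZMod q)) =
      p.map (Int.castRingHom (ZMod q)) * s.map (Int.castRingHom (ZMod q))) :
    ∃ t : ℤ[X], h = p * s + C (q : ℤ) * t := by
  have h0 : (h - p * s).map (Int.castRingHom (ZMod q)) = 0 := by
    rw [Polynomial.map_sub, Polynomial.map_mul, heq, sub_self]
  have hall : ∀ i, (q : ℤ) ∣ (h - p * s).coeff i := fun i => by
    have := congrArg (fun f => f.coeff i) h0
    simp only [coeff_map, coeff_zero, eq_intCast] at this
    exact (ZMod.intCast_zmod_eq_zero_iff_dvd _ _).1 this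
  obtain ⟨t, ht⟩ := (C_dvd_iff_dvd_coeff _ _).2 hall
  exact ⟨t, by rw [← ht]; ring⟩

end Lift


/-! ### The core computation: non-units of `ℤ[ζ]` are divisible by `q` up to units -/

section Core

variable {L : Type*} [Field L] (A : ValuationSubring L) {q : ℕ}

/-- Reduction of an integer polynomial evaluated at an element of `A`. -/
theorem residue_aeval [Algebra (ZMod q) (ResidueField A)] (z : A) (h : ℤ[X]) :
    residue A (aeval z h) = aeval (residue A z) (h.map (Int.castRingHom (ZMod q))) := by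
  have h1 : (algebraMap (ZMod q) (ResidueField A)).comp (Int.castRingHom (ZMod q)) =
      (residue A).comp (Int.castRingHom A) := RingHom.ext_int _ _
  rw [aeval_def, aeval_def, eval₂_map, h1, ← hom_eval₂, algebraMap_int_eq]

/-- A root of unity has valuation one. -/
theorem valuation_eq_one_of_pow_eq_one {m : ℕ} (hm : 0 < m) {ζ : L} (hζ : ζ ^ m = 1) :
    A.valuation ζ = 1 := by
  have h1 : A.valuation ζ ^ m = 1 := by rw [← map_pow, hζ, map_one]
  exact (pow_eq_one_iff.1 h1).resolve_right hm.ne'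

/-- The value in `L` of an integer polynomial at an element of `A`. -/
theorem coe_aeval (z : A) (h : ℤ[X]) : ((aeval z h : A) : L) = aeval (z : L) h :=
  (aeval_algebraMap_apply L z h).symm

/-- **Core step.** If `ζ^m = 1` with `q ∤ m` and `y = h(ζ)` (`h ∈ ℤ[X]`) is a non-unit of `A`,
then `y b = q a` with `a, b ∈ ℤ[ζ]`, `b` a unit of `A`. -/
theorem exists_mul_eq_q_mul (hq : q.Prime) (hA : A.valuation (q : L) < 1) {m : ℕ} (hm : 0 < m)
    (hqm : ¬ q ∣ m) {ζ : L} (hζ : ζ ^ m = 1) (h : ℤ[X]) (hh : A.valuation (aeval ζ h) < 1) :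
    ∃ a b : ℤ[X], A.valuation (aeval ζ b) = 1 ∧
      aeval ζ h * aeval ζ b = (q : L) * aeval ζ a := by
  have : Fact q.Prime := ⟨hq⟩
  have := Fermat.Agent.Val.charP_residueField A hq hA
  let _ := ZMod.algebra (ResidueField A) q
  have hζA : ζ ∈ A := (A.valuation_le_one_iff ζ).1 (valuation_eq_one_of_pow_eq_one A hm hζ).le
  set z : A := ⟨ζ, hζA⟩ with hz
  set r : ResidueField A := residue A z with hr
  have hrm : r ^ m = 1 := by
    rw [hr, ← map_pow]
    have : z ^ m = 1 := Subtype.ext (by simpa using hζ)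
    rw [this, map_one]
  have hr0 : r ≠ 0 := fun h0 => by
    rw [h0, zero_pow hm.ne'] at hrm
    exact zero_ne_one hrm
  let c := Int.castRingHom (ZMod q)
  have hsurj : Function.Surjective (Polynomial.map c) :=
    map_surjective c (ZMod.intCast_surjective)
  have hint : IsIntegral (ZMod q) r :=
    ⟨X ^ m - C 1, monic_X_pow_sub_C 1 hm.ne', by simp [hrm]⟩
  -- `p` lifts the minimal polynomial of `r`
  obtain ⟨p, hp⟩ := hsurj (minpoly (ZMod q) r)
  -- `h` is divisible by it modulo `q`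
  have hhr : aeval r (h.map c) = 0 := by
    rw [← residue_aeval A z h, Fermat.Agent.Val.residue_eq_zero_iff_valuation_lt_one, coe_aeval]
    exact hh
  obtain ⟨sbar, hsbar⟩ := minpoly.dvd (ZMod q) r hhr
  obtain ⟨s, hs⟩ := hsurj sbar
  obtain ⟨t, ht⟩ := exists_eq_mul_add_of_map_eq (q := q) p s h (by rw [hp, hs]; exact hsbar)
  -- `X^m - 1` as well, with a cofactor prime to it at `r`
  have hgmap : (X ^ m - 1 : ℤ[X]).map c = X ^ m - 1 := by simp
  have hgr : aeval r (X ^ m - 1 : (ZMod q)[X]) = 0 := by simp [hrm]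
  obtain ⟨ubar, hubar⟩ := minpoly.dvd (ZMod q) r hgr
  obtain ⟨u, hu⟩ := hsurj ubar
  obtain ⟨w, hw⟩ := exists_eq_mul_add_of_map_eq (q := q) p u (X ^ m - 1)
    (by rw [hp, hu, hgmap]; exact hubar)
  have hur : aeval r ubar ≠ 0 := by
    intro h0
    have hder := congrArg (fun f => aeval r (derivative f)) hubar
    simp only [derivative_sub, derivative_X_pow, derivative_one, sub_zero, derivative_mul,
      map_add, map_mul, minpoly.aeval, h0, mul_zero, zero_mul, add_zero, map_pow, aeval_X,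
      map_natCast] at hder
    have hm0 : ((m : ℕ) : ResidueField A) = 0 := by
      rcases mul_eq_zero.1 hder with h1 | h1
      · simpa using h1
      · exact absurd h1 (pow_ne_zero _ hr0)
    exact hqm ((CharP.cast_eq_zero_iff (ResidueField A) q m).1 hm0)
  have hvu : A.valuation (aeval ζ u) = 1 := by
    have h1 : ¬ A.valuation ((aeval z u : A) : L) < 1 := by
      rw [← Fermat.Agent.Val.residue_eq_zero_iff_valuation_lt_one, residue_aeval (q := q) A z u, hu]
      exact hur
    rw [coe_aeval] at h1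
    have h2 : A.valuation (aeval ζ u) ≤ 1 := by
      rw [← coe_aeval A z u]
      exact (A.valuation_le_one_iff _).2 (Subtype.mem _)
    exact le_antisymm h2 (not_lt.1 h1)
  refine ⟨t * u - w * s, u, hvu, ?_⟩
  have e1 : aeval ζ h = aeval ζ p * aeval ζ s + (q : L) * aeval ζ t := by
    conv_lhs => rw [ht]
    simp
  have e2 : aeval ζ p * aeval ζ u + (q : L) * aeval ζ w = 0 := by
    have h1 : aeval ζ (p * u + C (q : ℤ) * w) = 0 := by
      rw [← hw]
      simp [hζ]
    simpa using h1
  rw [e1, map_sub, map_mul, map_mul]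
  linear_combination (aeval ζ s) * e2

end Core

/-! ### Values of the elements of `ℤ[ζ]` and of `ℚ(ζ)` -/

section Values

variable {L : Type*} [Field L] (A : ValuationSubring L) {q : ℕ}

/-- The value in `L` of an integer polynomial at a root of unity is integral. -/
theorem valuation_aeval_le_one {m : ℕ} (hm : 0 < m) {ζ : L} (hζ : ζ ^ m = 1) (h : ℤ[X]) :
    A.valuation (aeval ζ h) ≤ 1 := by
  have hζA : ζ ∈ A := (A.valuation_le_one_iff ζ).1 (valuation_eq_one_of_pow_eq_one A hm hζ).le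
  rw [← coe_aeval A ⟨ζ, hζA⟩ h]
  exact (A.valuation_le_one_iff _).2 (Subtype.mem _)

theorem valuation_natCast_pos (hq : q.Prime) [CharZero L] : 0 < A.valuation (q : L) := by
  rw [zero_lt_iff]
  exact (Valuation.ne_zero_iff _).2 (Nat.cast_ne_zero.2 hq.ne_zero)

/-- Induction on a bound `v(q)^N ≤ v(y)`. -/
theorem exists_pow_eq_valuation_aeval_aux [CharZero L] (hq : q.Prime)
    (hA : A.valuation (q : L) < 1) {m : ℕ} (hm : 0 < m) (hqm : ¬ q ∣ m) {ζ : L} (hζ : ζ ^ m = 1)
    (N : ℕ) : ∀ h : ℤ[X], aeval ζ h ≠ 0 → A.valuation (q : L) ^ N ≤ A.valuation (aeval ζ h) →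
      ∃ n : ℕ, A.valuation (aeval ζ h) = A.valuation (q : L) ^ n := by
  induction N with
  | zero =>
    intro h _ hle
    rw [pow_zero] at hle
    exact ⟨0, by rw [pow_zero]; exact le_antisymm (valuation_aeval_le_one A hm hζ h) hle⟩
  | succ N ih =>
    intro h hne hle
    rcases lt_or_eq_of_le (valuation_aeval_le_one A hm hζ h) with hlt | heq
    · obtain ⟨a, b, hb, hab⟩ := exists_mul_eq_q_mul A hq hA hm hqm hζ h hlt
      have hval : A.valuation (aeval ζ h) = A.valuation (q : L) * A.valuation (aeval ζ a) := by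
        have := congrArg A.valuation hab
        rwa [map_mul, map_mul, hb, mul_one] at this
      have hqpos := valuation_natCast_pos A (L := L) hq
      have ha0 : aeval ζ a ≠ 0 := by
        intro h0
        rw [h0, map_zero, mul_zero] at hval
        exact hne ((Valuation.zero_iff _).1 hval)
      have hle' : A.valuation (q : L) ^ N ≤ A.valuation (aeval ζ a) := by
        rw [hval, pow_succ'] at hle
        exact le_of_mul_le_mul_left hle hqpos
      obtain ⟨n, hn⟩ := ih a ha0 hle'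
      exact ⟨n + 1, by rw [hval, hn, pow_succ']⟩
    · exact ⟨0, by rw [heq, pow_zero]⟩

/-- **Values of `ℤ[ζ]`.** For `ζ^m = 1`, `q ∤ m`, every non-zero element of `ℤ[ζ]` has the value
of a power of `q`. -/
theorem exists_pow_eq_valuation_aeval [CharZero L] (halg : ∀ x : L, IsAlgebraic ℤ x)
    (hq : q.Prime) (hA : A.valuation (q : L) < 1) {m : ℕ} (hm : 0 < m) (hqm : ¬ q ∣ m) {ζ : L}
    (hζ : ζ ^ m = 1) (h : ℤ[X]) (hne : aeval ζ h ≠ 0) :
    ∃ n : ℕ, A.valuation (aeval ζ h) = A.valuation (q : L) ^ n := by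
  have hmem : aeval ζ h ∈ A := (A.valuation_le_one_iff _).1 (valuation_aeval_le_one A hm hζ h)
  obtain ⟨N, hN⟩ := Fermat.Agent.Val.exists_pow_le_valuation A hq hA (halg _) hne hmem
  exact exists_pow_eq_valuation_aeval_aux A hq hA hm hqm hζ N h hne hN

/-- The same for polynomials with rational coefficients. -/
theorem exists_zpow_eq_valuation_aeval_rat [CharZero L] [Algebra ℚ L]
    (halg : ∀ x : L, IsAlgebraic ℤ x)
    (hq : q.Prime) (hA : A.valuation (q : L) < 1) {m : ℕ} (hm : 0 < m) (hqm : ¬ q ∣ m) {ζ : L}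
    (hζ : ζ ^ m = 1) (h : ℚ[X]) (hne : aeval ζ h ≠ 0) :
    ∃ n : ℤ, A.valuation (aeval ζ h) = A.valuation (q : L) ^ n := by
  obtain ⟨b, hb, hbh⟩ := IsLocalization.integerNormalization_spec (nonZeroDivisors ℤ) h
  set h' : ℤ[X] := IsLocalization.integerNormalization (nonZeroDivisors ℤ) h with hh'
  have hb0 : b ≠ 0 := nonZeroDivisors.ne_zero hb
  have e1 : aeval ζ h' = (b : L) * aeval ζ h := by
    have h1 : aeval ζ (h'.map (algebraMap ℤ ℚ)) = aeval ζ ((b : ℤ) • h) := by
      rw [hbh]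
    rw [aeval_map_algebraMap] at h1
    rw [h1, map_zsmul, zsmul_eq_mul]
  have hbL : (b : L) ≠ 0 := Int.cast_ne_zero.2 hb0
  have hne' : aeval ζ h' ≠ 0 := by
    rw [e1]
    exact mul_ne_zero hbL hne
  obtain ⟨n, hn⟩ := exists_pow_eq_valuation_aeval A halg hq hA hm hqm hζ h' hne'
  obtain ⟨N, hN⟩ := Fermat.Agent.Val.exists_pow_eq_valuation_intCast A hq hA hb0
  refine ⟨(n : ℤ) - N, ?_⟩
  have hqne : A.valuation (q : L) ≠ 0 := (valuation_natCast_pos A (L := L) hq).ne'
  have h2 : A.valuation (aeval ζ h) = A.valuation (aeval ζ h') / A.valuation (b : L) := by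
    have hvb : A.valuation (b : L) ≠ 0 := (Valuation.ne_zero_iff _).2 hbL
    rw [e1, map_mul, mul_comm, mul_div_assoc, div_self hvb, mul_one]
  rw [h2, hn, hN, zpow_sub₀ hqne, zpow_natCast, zpow_natCast]

end Values

/-! ### The field `K₀ = ℚ(ζ : ζ^m = 1, q ∤ m)` is unramified -/

section CycloField

variable (L : Type*) [Field L] [Algebra ℚ L] (q : ℕ)

/-- The roots of unity of order prime to `q`. -/
def primeToRoots : Set L := {ζ | ∃ m : ℕ, 0 < m ∧ ¬ q ∣ m ∧ ζ ^ m = 1}

/-- `K₀`: the field generated by the roots of unity of order prime to `q`. -/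
def cycloField : IntermediateField ℚ L := IntermediateField.adjoin ℚ (primeToRoots L q)

variable {L q}

theorem mem_cycloField_of_pow_eq_one {m : ℕ} (hm : 0 < m) (hqm : ¬ q ∣ m) {ζ : L}
    (hζ : ζ ^ m = 1) : ζ ∈ cycloField L q :=
  IntermediateField.subset_adjoin ℚ _ ⟨m, hm, hqm, hζ⟩

/-- Every element of `K₀` lies in `ℚ(ζ)` for a single root of unity `ζ` of order prime to `q`. -/
theorem exists_mem_adjoin_simple [CharZero L] [IsAlgClosed L] (hq : q.Prime) {x : L}
    (hx : x ∈ cycloField L q) :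
    ∃ (m : ℕ) (ζ : L), 0 < m ∧ ¬ q ∣ m ∧ ζ ^ m = 1 ∧ x ∈ IntermediateField.adjoin ℚ {ζ} := by
  classical
  obtain ⟨T, hTS, hxT⟩ := IntermediateField.exists_finset_of_mem_adjoin hx
  have hT : ∀ t ∈ T, ∃ m : ℕ, 0 < m ∧ ¬ q ∣ m ∧ t ^ m = 1 := fun t ht => hTS ht
  choose! f hf using hT
  set M : ℕ := ∏ t ∈ T, f t with hM
  have hMpos : 0 < M := Finset.prod_pos fun t ht => (hf t ht).1
  have hqM : ¬ q ∣ M := by
    intro hdvd
    obtain ⟨t, ht, hqt⟩ := (hq.prime.dvd_finsetProd_iff _).1 hdvd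
    exact (hf t ht).2.1 hqt
  have htM : ∀ t ∈ T, t ^ M = 1 := fun t ht => by
    obtain ⟨c, hc⟩ := Finset.dvd_prod_of_mem f ht
    rw [hM, hc, pow_mul, (hf t ht).2.2, one_pow]
  have : NeZero (M : L) := ⟨Nat.cast_ne_zero.2 hMpos.ne'⟩
  have : NeZero M := ⟨hMpos.ne'⟩
  obtain ⟨ζ, hζ⟩ := HasEnoughRootsOfUnity.exists_primitiveRoot L M
  refine ⟨M, ζ, hMpos, hqM, hζ.pow_eq_one, ?_⟩
  have hle : IntermediateField.adjoin ℚ (T : Set L) ≤ IntermediateField.adjoin ℚ {ζ} := by
    rw [IntermediateField.adjoin_le_iff]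
    intro t ht
    obtain ⟨i, -, hi⟩ := hζ.eq_pow_of_pow_eq_one (htM t ht)
    rw [← hi]
    exact pow_mem (IntermediateField.mem_adjoin_simple_self ℚ ζ) i
  exact hle hxT

/-- **(ii) `K₀` is unramified at `q`**: the non-zero elements of `K₀` have the value of an integral
power of `q`. -/
theorem exists_zpow_eq_valuation [CharZero L] [IsAlgClosed L] (A : ValuationSubring L)
    (halg : ∀ x : L, IsAlgebraic ℤ x) (hq : q.Prime) (hA : A.valuation (q : L) < 1) {x : L}
    (hx : x ∈ cycloField L q) (hx0 : x ≠ 0) :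
    ∃ n : ℤ, A.valuation x = A.valuation (q : L) ^ n := by
  obtain ⟨m, ζ, hm, hqm, hζ, hxζ⟩ := exists_mem_adjoin_simple hq hx
  obtain ⟨r, s, hrs⟩ := IntermediateField.mem_adjoin_simple_iff ℚ x |>.1 hxζ
  have hs0 : aeval ζ s ≠ 0 := by
    intro h0
    rw [h0, div_zero] at hrs
    exact hx0 hrs
  have hr0 : aeval ζ r ≠ 0 := by
    intro h0
    rw [h0, zero_div] at hrs
    exact hx0 hrs
  obtain ⟨n₁, hn₁⟩ := exists_zpow_eq_valuation_aeval_rat A halg hq hA hm hqm hζ r hr0
  obtain ⟨n₂, hn₂⟩ := exists_zpow_eq_valuation_aeval_rat A halg hq hA hm hqm hζ s hs0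
  have hqne : A.valuation (q : L) ≠ 0 := (valuation_natCast_pos A (L := L) hq).ne'
  exact ⟨n₁ - n₂, by rw [hrs, map_div₀, hn₁, hn₂, zpow_sub₀ hqne]⟩

end CycloField

/-! ### Distinct roots of unity of order prime to `q` have distinct residues; inertia -/

section Inertia

variable {L : Type*} [Field L] (A : ValuationSubring L) {q : ℕ}

/-- Two distinct `m`-th roots of unity, `q ∤ m`, differ by a unit of `A`. -/
theorem valuation_sub_eq_one (hq : q.Prime) (hA : A.valuation (q : L) < 1) {m : ℕ} (hm : 0 < m)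
    (hqm : ¬ q ∣ m) {ζ η : L} (hζ : ζ ^ m = 1) (hη : η ^ m = 1) (hne : η ≠ ζ) :
    A.valuation (η - ζ) = 1 := by
  have := Fermat.Agent.Val.charP_residueField A hq hA
  have hζA : ζ ∈ A := (A.valuation_le_one_iff ζ).1 (valuation_eq_one_of_pow_eq_one A hm hζ).le
  have hηA : η ∈ A := (A.valuation_le_one_iff η).1 (valuation_eq_one_of_pow_eq_one A hm hη).le
  set z : A := ⟨ζ, hζA⟩ with hz
  set w : A := ⟨η, hηA⟩ with hw
  have hle : A.valuation (η - ζ) ≤ 1 := (A.valuation_le_one_iff _).2 (A.sub_mem hηA hζA)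
  refine le_antisymm hle (not_lt.1 fun hlt => ?_)
  have hres : residue A w = residue A z := by
    rw [← sub_eq_zero, ← map_sub, Fermat.Agent.Val.residue_eq_zero_iff_valuation_lt_one]
    exact hlt
  have hwz : w ≠ z := fun h => hne (congrArg Subtype.val h)
  have hsum : (∑ i ∈ Finset.range m, w ^ i * z ^ (m - 1 - i)) = 0 := by
    have h1 := Commute.geom_sum₂_mul (Commute.all w z) m
    have h2 : w ^ m - z ^ m = 0 := by
      have hw1 : w ^ m = 1 := Subtype.ext (by simpa using hη)
      have hz1 : z ^ m = 1 := Subtype.ext (by simpa using hζ)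
      rw [hw1, hz1, sub_self]
    rw [h2] at h1
    exact (mul_eq_zero.1 h1).resolve_right (sub_ne_zero.2 hwz)
  have h3 := congrArg (residue A) hsum
  rw [map_sum, map_zero] at h3
  simp only [map_mul, map_pow, hres] at h3
  rw [geom_sum₂_self] at h3
  have hr0 : residue A z ≠ 0 := by
    intro h0
    have hz1 : z ^ m = 1 := Subtype.ext (by simpa using hζ)
    have := congrArg (residue A) hz1
    rw [map_pow, h0, zero_pow hm.ne', map_one] at this
    exact zero_ne_one this
  have hm0 : ((m : ℕ) : ResidueField A) = 0 :=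
    (mul_eq_zero.1 h3).resolve_right (pow_ne_zero _ hr0)
  exact hqm ((CharP.cast_eq_zero_iff (ResidueField A) q m).1 hm0)

variable [Algebra ℚ L]

/-- Inertia fixes the roots of unity of order prime to the residue characteristic. -/
theorem apply_eq_of_pow_eq_one (hq : q.Prime) (hA : A.valuation (q : L) < 1) {σ : L ≃ₐ[ℚ] L}
    (hσ : σ ∈ A.inertiaSubgroupIn ℚ) {m : ℕ} (hm : 0 < m) (hqm : ¬ q ∣ m) {ζ : L}
    (hζ : ζ ^ m = 1) : σ ζ = ζ := by
  by_contra hne
  have hη : (σ ζ) ^ m = 1 := by rw [← map_pow, hζ, map_one]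
  have h1 := valuation_sub_eq_one A hq hA hm hqm hζ hη hne
  have h2 := Fermat.Agent.S05.valuation_apply_sub_lt_one A hσ
    (valuation_eq_one_of_pow_eq_one A hm hζ).le
  rw [h1] at h2
  exact lt_irrefl _ h2

/-- The fixed field of an automorphism. -/
def fixedIF (σ : L ≃ₐ[ℚ] L) : IntermediateField ℚ L where
  carrier := {x | σ x = x}
  mul_mem' := fun {a b} ha hb => by
    show σ (a * b) = a * b
    rw [map_mul, show σ a = a from ha, show σ b = b from hb]
  one_mem' := map_one σ
  add_mem' := fun {a b} ha hb => by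
    show σ (a + b) = a + b
    rw [map_add, show σ a = a from ha, show σ b = b from hb]
  zero_mem' := map_zero σ
  algebraMap_mem' := fun r => σ.commutes r
  inv_mem' := fun a ha => by
    show σ a⁻¹ = a⁻¹
    rw [map_inv₀, show σ a = a from ha]

/-- **(i) Inertia fixes `K₀` pointwise.** -/
theorem apply_eq_of_mem_cycloField (hq : q.Prime) (hA : A.valuation (q : L) < 1) {σ : L ≃ₐ[ℚ] L}
    (hσ : σ ∈ A.inertiaSubgroupIn ℚ) {x : L} (hx : x ∈ cycloField L q) : σ x = x := by
  have hle : cycloField L q ≤ fixedIF σ := by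
    rw [cycloField, IntermediateField.adjoin_le_iff]
    rintro ζ ⟨m, hm, hqm, hζ⟩
    exact apply_eq_of_pow_eq_one A hq hA hσ hm hqm hζ
  exact hle hx

end Inertia

/-! ### `K₀` has the full residue field -/

section FullRes

variable {L : Type*} [Field L] [CharZero L] (A : ValuationSubring L) {q : ℕ}

/-- Every non-zero element of the residue field is a root of unity of order prime to `q`. -/
theorem exists_pow_eq_one_residue (halg : ∀ x : L, IsAlgebraic ℤ x) (hq : q.Prime)
    (hA : A.valuation (q : L) < 1) {r : ResidueField A} (hr : r ≠ 0) :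
    ∃ m : ℕ, 0 < m ∧ ¬ q ∣ m ∧ r ^ m = 1 := by
  have : Fact q.Prime := ⟨hq⟩
  have := Fermat.Agent.Val.charP_residueField A hq hA
  let _ := ZMod.algebra (ResidueField A) q
  have halgk : Algebra.IsAlgebraic (ZMod q) (ResidueField A) :=
    Fermat.Agent.Val.isAlgebraic_residueField A halg hq
  have hint : IsIntegral (ZMod q) r := (halgk.isAlgebraic r).isIntegral
  let E := IntermediateField.adjoin (ZMod q) {r}
  have : FiniteDimensional (ZMod q) E := IntermediateField.adjoin.finiteDimensional hint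
  have : Finite E := Module.finite_of_finite (ZMod q)
  let _ : Fintype E := Fintype.ofFinite E
  have : CharP E q := charP_of_injective_algebraMap (algebraMap (ZMod q) E).injective q
  obtain ⟨n, -, hn⟩ := FiniteField.card E q
  let u : E := ⟨r, IntermediateField.mem_adjoin_simple_self (ZMod q) r⟩
  have hu : u ≠ 0 := fun h => hr (congrArg Subtype.val h)
  have hpow := FiniteField.pow_card_sub_one_eq_one u hu
  have hqn : 2 ≤ q ^ (n : ℕ) :=
    le_trans hq.two_le (Nat.le_self_pow (PNat.ne_zero n) q)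
  refine ⟨q ^ (n : ℕ) - 1, by omega, ?_, ?_⟩
  · intro hdvd
    have h1 : q ∣ q ^ (n : ℕ) := dvd_pow_self q (PNat.ne_zero n)
    have h2 : q ^ (n : ℕ) - 1 + 1 = q ^ (n : ℕ) := by omega
    rw [← h2] at h1
    have := (Nat.dvd_add_right hdvd).1 h1
    exact hq.one_lt.ne' (Nat.dvd_one.1 this)
  · rw [hn] at hpow
    have := congrArg Subtype.val hpow
    simpa [u] using this

/-- **(iii) `K₀` has the full residue field**: every element of `A` is congruent modulo the maximal
ideal to an element of `A ∩ K₀`. -/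
theorem exists_mem_cycloField_sub_mem_nonunits [IsAlgClosed L] [Algebra ℚ L]
    (halg : ∀ x : L, IsAlgebraic ℤ x) (hq : q.Prime) (hA : A.valuation (q : L) < 1) {a : L}
    (ha : a ∈ A) : ∃ a' ∈ cycloField L q, a' ∈ A ∧ a - a' ∈ A.nonunits := by
  set r : ResidueField A := residue A ⟨a, ha⟩ with hr
  by_cases hr0 : r = 0
  · refine ⟨0, zero_mem _, zero_mem _, ?_⟩
    rw [sub_zero, A.mem_nonunits_iff]
    exact (Fermat.Agent.Val.residue_eq_zero_iff_valuation_lt_one A ⟨a, ha⟩).1 hr0
  · obtain ⟨m, hm, hqm, hrm⟩ := exists_pow_eq_one_residue A halg hq hA hr0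
    have : NeZero (m : L) := ⟨Nat.cast_ne_zero.2 hm.ne'⟩
    have : NeZero m := ⟨hm.ne'⟩
    obtain ⟨ζ, hζ⟩ := HasEnoughRootsOfUnity.exists_primitiveRoot L m
    have hζm : ζ ^ m = 1 := hζ.pow_eq_one
    have hζA : ζ ∈ A := (A.valuation_le_one_iff ζ).1 (valuation_eq_one_of_pow_eq_one A hm hζm).le
    set z : A := ⟨ζ, hζA⟩ with hz
    have hz1 : z ^ m = 1 := Subtype.ext (by simpa using hζm)
    have hρ : IsPrimitiveRoot (residue A z) m := by
      refine IsPrimitiveRoot.mk_of_lt _ hm (by rw [← map_pow, hz1, map_one]) ?_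
      intro l hl hlm h1
      have hne : ζ ^ l ≠ 1 := hζ.pow_ne_one_of_pos_of_lt hl.ne' hlm
      have h2 : (ζ ^ l) ^ m = 1 := by rw [← pow_mul, mul_comm, pow_mul, hζm, one_pow]
      have h3 := valuation_sub_eq_one A hq hA hm hqm (one_pow m) h2 hne
      have h4 : residue A (z ^ l - 1) = 0 := by rw [map_sub, map_pow, h1, map_one, sub_self]
      rw [Fermat.Agent.Val.residue_eq_zero_iff_valuation_lt_one] at h4
      have h5 : ((z ^ l - 1 : A) : L) = ζ ^ l - 1 := by simp [hz]
      rw [h5, h3] at h4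
      exact lt_irrefl _ h4
    obtain ⟨i, -, hi⟩ := hρ.eq_pow_of_pow_eq_one hrm
    refine ⟨ζ ^ i, ?_, A.pow_mem hζA i, ?_⟩
    · exact mem_cycloField_of_pow_eq_one hm hqm
        (by rw [← pow_mul, mul_comm, pow_mul, hζm, one_pow])
    · rw [A.mem_nonunits_iff]
      have h6 : residue A (⟨a, ha⟩ - z ^ i) = 0 := by
        rw [map_sub, map_pow, hi, sub_self]
      rw [Fermat.Agent.Val.residue_eq_zero_iff_valuation_lt_one] at h6
      have h7 : (((⟨a, ha⟩ : A) - z ^ i : A) : L) = a - ζ ^ i := by simp [hz]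
      rwa [h7] at h6

end FullRes

/-! ### The case `L = ℚ̄` -/

section Qbar

local notation "Qb" => AlgebraicClosure ℚ

variable (A : ValuationSubring Qb) {q : ℕ}

/-- (i) for `ℚ̄`: the inertia group of `A` fixes `K₀ = cycloField ℚ̄ q` pointwise. -/
theorem apply_eq_of_mem_inertia (hq : q.Prime) (hA : A.LiesOverPrime q)
    {σ : Qb ≃ₐ[ℚ] Qb} (hσ : σ ∈ A.inertiaSubgroupIn ℚ) {x : Qb} (hx : x ∈ cycloField Qb q) :
    σ x = x :=
  apply_eq_of_mem_cycloField A hq ((A.mem_nonunits_iff).1 hA) hσ hx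

/-- (ii) for `ℚ̄`, in the shape of `IsDVRField A K₀ q` of the frame of block B6.5. -/
theorem isDVRField_cycloField (hq : q.Prime) (hA : A.LiesOverPrime q) :
    (q : Qb) ∈ cycloField Qb q ∧ A.valuation (q : Qb) < 1 ∧
      ∀ x ∈ cycloField Qb q, x ≠ 0 → ∃ n : ℤ, A.valuation x = A.valuation (q : Qb) ^ n :=
  ⟨natCast_mem _ q, (A.mem_nonunits_iff).1 hA, fun _ hx hx0 =>
    exists_zpow_eq_valuation A Fermat.Agent.Val.isAlgebraic_int_algebraicClosure_rat hq
      ((A.mem_nonunits_iff).1 hA) hx hx0⟩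

/-- (iii) for `ℚ̄`, in the shape of `FullRes A K₀` of the frame of block B6.5. -/
theorem fullRes_cycloField (hq : q.Prime) (hA : A.LiesOverPrime q) :
    ∀ a ∈ A, ∃ a' ∈ cycloField Qb q, a' ∈ A ∧ a - a' ∈ A.nonunits := fun _ ha =>
  exists_mem_cycloField_sub_mem_nonunits A
    Fermat.Agent.Val.isAlgebraic_int_algebraicClosure_rat hq ((A.mem_nonunits_iff).1 hA) ha

end Qbar

end Fermat.Agent.BR.UnramCyclo
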