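import Mathlib

/-!
# Program B (BADRED), node B6.5(h): the tower of discretely valued coefficient fields

`K` is any field and `A : ValuationSubring K` (no rank hypothesis).  Everything is stated for
subfields `E : Subfield K` in elementary (membership) form.

Definitions
* `ValIn A E g`   : the nonzero elements of `E` have valuation in `⟨g⟩`.
* `FullRes A E`   : every residue class of `A` contains an element of `E`.
* `DVRField A E p`: `p ∈ E`, `p ≠ 0`, `v p < 1`, and `v (E ∖ 0) ⊆ ⟨v p⟩`.
* `SpannedBy K0 K' m` : `K'` lies in the `K0`-span of `m` elements (elementary `[K':K0] ≤ m`).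
* `towerField K0 S := (IntermediateField.adjoin K0 S).toSubfield`.

Main results
* `exists_dvrField` **(h3)**: `K0 ≤ K'`, `v (K0 ∖ 0) ⊆ ⟨v q⟩`, `SpannedBy K0 K' m` imply that
  `K'` has a uniformizer (index of value groups `≤ m`, easy half of the fundamental inequality).
* `tower_of_base`, `exists_dvrField_of_le` **(h3)+(h4)** against an abstract base field `K0`
  with `ValIn A K0 (v q)` and `FullRes A K0`: every finite `S` lies in `K0(S)`, which has
  `FullRes`, a uniformizer, and is finite over `K0`.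
* `towerField_le_union`, `exists_towerField_ge`, `DVRField.exists_pow_eq` **(h5)**:
  directedness, and the old uniformizer is a positive power of the new one up to a unit.
* `dvr_of_intermediate`, `tower_intermediate`, `sup_adjoin_le_union`: the same for
  `K₀ : IntermediateField F K` and `K' = K₀ ⊔ F(S)`, with all hypotheses and conclusions
  unfolded (they plug into any definition of the same shape by `exact`).
* Library, off the main path: `valIn_of_resIndep_span` **(h1)** (element form of the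
  fundamental inequality: independent residues give the same value group),
  `exists_fullRes` **(h2)** (Zorn: a maximal subfield with value group `⟨g⟩` over which `K` is
  algebraic, `K` algebraically closed, has full residue field) and `exists_tower`.
-/

set_option autoImplicit false

namespace Fermat.Agent.BR.UnramTower

variable {K : Type*} [Field K] (A : ValuationSubring K)

/-- The nonzero elements of `E` have their valuations in the cyclic group generated by `g`. -/
def ValIn (E : Subfield K) (g : A.ValueGroup) : Prop :=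
  ∀ x ∈ E, x ≠ 0 → ∃ n : ℤ, A.valuation x = g ^ n

/-- Every residue class of `A` contains an element of `E`. -/
def FullRes (E : Subfield K) : Prop :=
  ∀ a ∈ A, ∃ a' ∈ E, a' ∈ A ∧ a - a' ∈ A.nonunits

/-- `A ∩ E` is a discrete valuation ring of `E` with uniformizer `p`. -/
def DVRField (E : Subfield K) (p : K) : Prop :=
  p ∈ E ∧ p ≠ 0 ∧ A.valuation p < 1 ∧ ∀ x ∈ E, x ≠ 0 → ∃ n : ℤ, A.valuation x = A.valuation p ^ n

/-- The residues of the `x i` are linearly independent over the residue field of `E`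
(residue-field-free formulation). -/
def ResIndep (E : Subfield K) {n : ℕ} (x : Fin n → K) : Prop :=
  ∀ c : Fin n → K, (∀ i, c i ∈ E ∧ c i ∈ A) → (∑ i, c i * x i) ∈ A.nonunits →
    ∀ i, c i ∈ A.nonunits

variable {A}

theorem ValIn.mono {E E' : Subfield K} {g : A.ValueGroup} (h : ValIn A E' g) (hE : E ≤ E') :
    ValIn A E g := fun x hx hx0 => h x (hE hx) hx0

theorem FullRes.mono {E E' : Subfield K} (h : FullRes A E) (hE : E ≤ E') : FullRes A E' := by
  intro a ha
  obtain ⟨a', ha'E, ha'A, h1⟩ := h a ha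
  exact ⟨a', hE ha'E, ha'A, h1⟩

theorem mem_nonunits_iff_lt {x : K} : x ∈ A.nonunits ↔ A.valuation x < 1 :=
  Iff.rfl

theorem mem_iff_le {x : K} : x ∈ A ↔ A.valuation x ≤ 1 :=
  (A.valuation_le_one_iff x).symm

theorem ResIndep.valuation_eq_one {E : Subfield K} {n : ℕ} {x : Fin n → K}
    (h : ResIndep A E x) (hx : ∀ i, x i ∈ A) (i : Fin n) : A.valuation (x i) = 1 := by
  classical
  apply le_antisymm (mem_iff_le.1 (hx i))
  by_contra hlt
  rw [not_le] at hlt
  have h1 := h (fun j => if j = i then 1 else 0)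
    (fun j => by
      by_cases hj : j = i
      · simp [hj, E.one_mem, A.one_mem]
      · simp [hj, E.zero_mem, A.zero_mem])
    (by
      rw [mem_nonunits_iff_lt]
      simpa using hlt) i
  rw [if_pos rfl, mem_nonunits_iff_lt, map_one] at h1
  exact lt_irrefl _ h1

/-- **Fundamental inequality, element form**: if the residues of the `x i` are independent over
the residue field of `E`, then `v (∑ c i * x i)` is the maximum of the `v (c i)`, `c i ∈ E`. -/
theorem valuation_sum_eq {E : Subfield K} {n : ℕ} {x : Fin n → K} (h : ResIndep A E x)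
    (hx : ∀ i, x i ∈ A) (c : Fin n → K) (hc : ∀ i, c i ∈ E) (j : Fin n)
    (hj : ∀ i, A.valuation (c i) ≤ A.valuation (c j)) :
    A.valuation (∑ i, c i * x i) = A.valuation (c j) := by
  by_cases hcj : c j = 0
  · have h0 : ∀ i, c i = 0 := by
      intro i
      have := hj i
      rw [hcj, map_zero] at this
      exact (map_eq_zero _).1 (le_antisymm this zero_le)
    simp [h0]
  · set d : Fin n → K := fun i => c i / c j with hd
    have hdE : ∀ i, d i ∈ E ∧ d i ∈ A := by
      intro i
      refine ⟨E.div_mem (hc i) (hc j), ?_⟩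
      rw [mem_iff_le, hd, map_div₀]
      exact div_le_one_of_le₀ (hj i) zero_le
    have hsum : ∑ i, c i * x i = c j * ∑ i, d i * x i := by
      rw [Finset.mul_sum]
      apply Finset.sum_congr rfl
      intro i _
      rw [hd]
      field_simp
    have hA : (∑ i, d i * x i) ∈ A :=
      A.sum_mem (fun i _ => A.mul_mem _ _ (hdE i).2 (hx i))
    have hnot : (∑ i, d i * x i) ∉ A.nonunits := by
      intro hmem
      have h1 := h d hdE hmem j
      rw [hd, mem_nonunits_iff_lt] at h1
      simp only [div_self hcj, map_one, lt_self_iff_false] at h1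
    have h1 : A.valuation (∑ i, d i * x i) = 1 := by
      apply le_antisymm (mem_iff_le.1 hA)
      by_contra hlt
      rw [not_le] at hlt
      exact hnot (mem_nonunits_iff_lt.2 hlt)
    rw [hsum, map_mul, h1, mul_one]

/-- **(h1)** If `L` is spanned over `E` by elements of `A` with `E`-independent residues, then
`L` has the same value group as `E`. -/
theorem valIn_of_resIndep_span {E L : Subfield K} {g : A.ValueGroup} (hE : ValIn A E g)
    {n : ℕ} {x : Fin n → K} (hx : ∀ i, x i ∈ A) (h : ResIndep A E x)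
    (hspan : ∀ y ∈ L, ∃ c : Fin n → K, (∀ i, c i ∈ E) ∧ y = ∑ i, c i * x i) :
    ValIn A L g := by
  intro y hy hy0
  obtain ⟨c, hc, rfl⟩ := hspan y hy
  have hn : (Finset.univ : Finset (Fin n)).Nonempty := by
    by_contra hne
    rw [Finset.not_nonempty_iff_eq_empty] at hne
    apply hy0
    rw [hne, Finset.sum_empty]
  obtain ⟨j, _, hj⟩ := Finset.exists_max_image Finset.univ (fun i => A.valuation (c i)) hn
  have h1 := valuation_sum_eq h hx c hc j (fun i => hj i (Finset.mem_univ i))
  rw [h1]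
  apply hE (c j) (hc j)
  intro hcj
  rw [hcj, map_zero] at h1
  exact hy0 ((map_eq_zero _).1 h1)



section Nonunits

variable {K : Type*} [Field K] {A : ValuationSubring K}

theorem nonunits_add {x y : K} (hx : x ∈ A.nonunits) (hy : y ∈ A.nonunits) :
    x + y ∈ A.nonunits := by
  rw [mem_nonunits_iff_lt] at hx hy ⊢
  exact lt_of_le_of_lt (A.valuation.map_add x y) (max_lt hx hy)

theorem nonunits_mul_left {x y : K} (hx : x ∈ A) (hy : y ∈ A.nonunits) : x * y ∈ A.nonunits := by
  rw [mem_nonunits_iff_lt] at hy ⊢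
  rw [map_mul]
  exact mul_lt_one_of_nonneg_of_lt_one_right (mem_iff_le.1 hx) zero_le hy

theorem nonunits_mul_right {x y : K} (hx : x ∈ A.nonunits) (hy : y ∈ A) : x * y ∈ A.nonunits := by
  rw [mul_comm]
  exact nonunits_mul_left hy hx

theorem nonunits_neg {x : K} (hx : x ∈ A.nonunits) : -x ∈ A.nonunits := by
  rw [mem_nonunits_iff_lt] at hx ⊢
  rwa [Valuation.map_neg]

theorem nonunits_sub {x y : K} (hx : x ∈ A.nonunits) (hy : y ∈ A.nonunits) :
    x - y ∈ A.nonunits := by
  rw [sub_eq_add_neg]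
  exact nonunits_add hx (nonunits_neg hy)

theorem zero_mem_nonunits : (0 : K) ∈ A.nonunits := by
  rw [mem_nonunits_iff_lt, map_zero]
  exact zero_lt_one

theorem nonunits_sum {ι : Type*} (s : Finset ι) (f : ι → K) (hf : ∀ i ∈ s, f i ∈ A.nonunits) :
    ∑ i ∈ s, f i ∈ A.nonunits := by
  classical
  induction s using Finset.induction_on with
  | empty =>
    rw [Finset.sum_empty]
    exact zero_mem_nonunits
  | insert a s ha ih =>
    rw [Finset.sum_insert ha]
    exact nonunits_add (hf a (Finset.mem_insert_self a s))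
      (ih fun i hi => hf i (Finset.mem_insert_of_mem hi))

theorem valuation_eq_one_of_mem {x : K} (hx : x ∈ A) (hx' : x ∉ A.nonunits) :
    A.valuation x = 1 := by
  apply le_antisymm (mem_iff_le.1 hx)
  by_contra hlt
  rw [not_le] at hlt
  exact hx' hlt

/-- `a ^ i - r ^ i` lies in the maximal ideal if `a - r` does. -/
theorem pow_sub_pow_mem_nonunits {a r : K} (ha : a ∈ A) (hr : r ∈ A) (har : a - r ∈ A.nonunits)
    (i : ℕ) : a ^ i - r ^ i ∈ A.nonunits := by
  rw [← geom_sum₂_mul]
  apply nonunits_mul_left _ har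
  exact A.sum_mem fun k _ => A.mul_mem _ _ (A.pow_mem ha _) (A.pow_mem hr _)

end Nonunits

section Truncate

variable {K : Type*} [Field K] {A : ValuationSubring K}

/-- **Truncation to a monic relation**: from a relation `∑_{i<n} c i z^i ∈ 𝔪` with coefficients in
`A ∩ K0`, not all in `𝔪`, one gets a monic relation of degree `j < n`. -/
theorem exists_monic_trunc (K0 : Subfield K) {n : ℕ} (c : ℕ → K)
    (hc : ∀ i, c i ∈ K0 ∧ c i ∈ A) (hu : ∃ i < n, c i ∉ A.nonunits) {z : K} (hz : z ∈ A)
    (hs : ∑ i ∈ Finset.range n, c i * z ^ i ∈ A.nonunits) :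
    ∃ j < n, ∃ e : ℕ → K, (∀ i, e i ∈ K0 ∧ e i ∈ A) ∧
      z ^ j + ∑ i ∈ Finset.range j, e i * z ^ i ∈ A.nonunits := by
  classical
  set S := (Finset.range n).filter (fun i => c i ∉ A.nonunits) with hS
  have hne : S.Nonempty := by
    obtain ⟨i, hi, hci⟩ := hu
    exact ⟨i, Finset.mem_filter.2 ⟨Finset.mem_range.2 hi, hci⟩⟩
  set j := S.max' hne with hj
  have hjS : j ∈ S := Finset.max'_mem S hne
  rw [hS, Finset.mem_filter, Finset.mem_range] at hjS
  obtain ⟨hjn, hju⟩ := hjS
  have hmax : ∀ i, j < i → i < n → c i ∈ A.nonunits := by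
    intro i hji hin
    by_contra hci
    have hiS : i ∈ S := Finset.mem_filter.2 ⟨Finset.mem_range.2 hin, hci⟩
    exact absurd (Finset.le_max' S i hiS) (not_le.2 hji)
  have hu1 : A.valuation (c j) = 1 := valuation_eq_one_of_mem (hc j).2 hju
  have hu0 : c j ≠ 0 := by
    intro h0
    rw [h0, map_zero] at hu1
    exact zero_ne_one hu1
  refine ⟨j, hjn, fun i => c i / c j, ?_, ?_⟩
  · intro i
    refine ⟨K0.div_mem (hc i).1 (hc j).1, ?_⟩
    rw [mem_iff_le, map_div₀, hu1, div_one]
    exact mem_iff_le.1 (hc i).2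
  · have hsplit : ∑ i ∈ Finset.range n, c i * z ^ i =
        c j * (z ^ j + ∑ i ∈ Finset.range j, c i / c j * z ^ i) +
          ∑ i ∈ Finset.Ico (j + 1) n, c i * z ^ i := by
      rw [← Finset.sum_range_add_sum_Ico _ (show j + 1 ≤ n by omega), Finset.sum_range_succ,
        mul_add, Finset.mul_sum]
      congr 1
      rw [add_comm]
      congr 1
      apply Finset.sum_congr rfl
      intro i _
      field_simp
    have htail : ∑ i ∈ Finset.Ico (j + 1) n, c i * z ^ i ∈ A.nonunits := by
      apply nonunits_sum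
      intro i hi
      rw [Finset.mem_Ico] at hi
      exact nonunits_mul_right (hmax i (by omega) hi.2) (A.pow_mem hz _)
    have h1 : c j * (z ^ j + ∑ i ∈ Finset.range j, c i / c j * z ^ i) ∈ A.nonunits := by
      have := nonunits_sub hs htail
      rwa [hsplit, add_sub_cancel_right] at this
    rw [mem_nonunits_iff_lt, map_mul, hu1, one_mul] at h1
    exact h1

end Truncate

section Poly

open Polynomial

variable {K : Type*} [Field K] {A : ValuationSubring K}

/-- The monic polynomial `X ^ m + ∑_{i<m} e i X ^ i` over the subfield `K0`. -/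
noncomputable def monicOfSeq (K0 : Subfield K) (m : ℕ) (e : ℕ → K) (he : ∀ i, e i ∈ K0) :
    Polynomial K0 :=
  X ^ m + ∑ i ∈ Finset.range m, monomial i (⟨e i, he i⟩ : K0)

theorem degree_lower_lt (K0 : Subfield K) (m : ℕ) (e : ℕ → K) (he : ∀ i, e i ∈ K0) :
    (∑ i ∈ Finset.range m, monomial i (⟨e i, he i⟩ : K0)).degree < m := by
  rw [degree_lt_iff_coeff_zero]
  intro k hk
  rw [finsetSum_coeff]
  apply Finset.sum_eq_zero
  intro i hi
  rw [Finset.mem_range] at hi
  rw [coeff_monomial, if_neg (by omega)]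

theorem monicOfSeq_monic (K0 : Subfield K) (m : ℕ) (e : ℕ → K) (he : ∀ i, e i ∈ K0) :
    (monicOfSeq K0 m e he).Monic :=
  monic_X_pow_add (degree_lower_lt K0 m e he)

theorem monicOfSeq_natDegree (K0 : Subfield K) (m : ℕ) (e : ℕ → K) (he : ∀ i, e i ∈ K0) :
    (monicOfSeq K0 m e he).natDegree = m := by
  rw [monicOfSeq, natDegree_add_eq_left_of_degree_lt, natDegree_X_pow]
  rw [degree_X_pow]
  exact degree_lower_lt K0 m e he

theorem monicOfSeq_coeff_mem (K0 : Subfield K) (m : ℕ) (e : ℕ → K) (he : ∀ i, e i ∈ K0)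
    (heA : ∀ i, e i ∈ A) (k : ℕ) : (((monicOfSeq K0 m e he).coeff k : K0) : K) ∈ A := by
  rw [monicOfSeq, coeff_add, coeff_X_pow, finsetSum_coeff]
  simp only [coeff_monomial]
  rw [Subfield.coe_add, AddSubmonoidClass.coe_finsetSum]
  apply A.add_mem
  · split_ifs
    · exact A.one_mem
    · exact A.zero_mem
  · apply A.sum_mem
    intro i _
    split_ifs
    · exact heA i
    · exact A.zero_mem

theorem aeval_monicOfSeq (K0 : Subfield K) (m : ℕ) (e : ℕ → K) (he : ∀ i, e i ∈ K0) (z : K) :
    aeval z (monicOfSeq K0 m e he) = z ^ m + ∑ i ∈ Finset.range m, e i * z ^ i := by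
  rw [monicOfSeq, map_add, map_pow, aeval_X, map_sum]
  congr 1
  apply Finset.sum_congr rfl
  intro i _
  rw [aeval_monomial]
  rfl

/-- A root of a monic polynomial with coefficients in `A` lies in `A`. -/
theorem root_mem_of_monic (K0 : Subfield K) {g : Polynomial K0} (hg : g.Monic)
    (hgA : ∀ i, ((g.coeff i : K0) : K) ∈ A) {r : K} (hr : aeval r g = 0) : r ∈ A := by
  have hl : g.map (algebraMap K0 K) ∈ lifts (algebraMap A K) := by
    rw [lifts_iff_coeff_lifts]
    intro n
    rw [coeff_map]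
    exact ⟨⟨_, hgA n⟩, rfl⟩
  obtain ⟨q, hq, -, hqm⟩ := lifts_and_natDegree_eq_and_monic hl (hg.map _)
  have hint : IsIntegral A r := by
    refine ⟨q, hqm, ?_⟩
    rw [← eval_map, hq, eval_map_algebraMap]
    exact hr
  obtain ⟨y, hy⟩ := IsIntegrallyClosed.isIntegral_iff.1 hint
  rw [← hy]
  exact y.2

/-- Values of a polynomial with coefficients in `A` at congruent points are congruent. -/
theorem aeval_sub_aeval_mem (K0 : Subfield K) {g : Polynomial K0}
    (hgA : ∀ i, ((g.coeff i : K0) : K) ∈ A) {a r : K} (ha : a ∈ A) (hr : r ∈ A)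
    (har : a - r ∈ A.nonunits) : aeval a g - aeval r g ∈ A.nonunits := by
  rw [aeval_eq_sum_range, aeval_eq_sum_range, ← Finset.sum_sub_distrib]
  apply nonunits_sum
  intro i _
  rw [← smul_sub, Algebra.smul_def]
  exact nonunits_mul_left (hgA i) (pow_sub_pow_mem_nonunits ha hr har i)

/-- **Root congruent to a given point** (`K` algebraically closed). -/
theorem exists_root_sub_mem [IsAlgClosed K] (K0 : Subfield K) {g : Polynomial K0} (hg : g.Monic)
    (hgA : ∀ i, ((g.coeff i : K0) : K) ∈ A) {a : K} (ha : a ∈ A)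
    (hga : aeval a g ∈ A.nonunits) :
    ∃ r : K, r ∈ A ∧ aeval r g = 0 ∧ a - r ∈ A.nonunits := by
  have hsp : (g.map (algebraMap K0 K)).Splits := IsAlgClosed.splits _
  have h1 := hsp.aeval_eq_prod_aroots_of_monic hg a
  have hrA : ∀ r ∈ g.aroots K, r ∈ A := by
    intro r hr
    exact root_mem_of_monic K0 hg hgA ((mem_aroots.1 hr).2)
  by_contra hcon
  have h2 : ∀ r ∈ g.aroots K, A.valuation (a - r) = 1 := by
    intro r hr
    apply valuation_eq_one_of_mem (A.sub_mem ha (hrA r hr))
    intro hmem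
    exact hcon ⟨r, hrA r hr, (mem_aroots.1 hr).2, hmem⟩
  have h3 : A.valuation (aeval a g) = 1 := by
    rw [h1, map_multiset_prod, Multiset.map_map]
    apply Multiset.prod_eq_one
    intro x hx
    rw [Multiset.mem_map] at hx
    obtain ⟨r, hr, rfl⟩ := hx
    exact h2 r hr
  rw [mem_nonunits_iff_lt, h3] at hga
  exact lt_irrefl _ hga

end Poly

section Maximal

open Polynomial

variable {K : Type*} [Field K] {A : ValuationSubring K}

/-- There is a monic polynomial of degree `n` over `K0` with coefficients in `A` whose value at `a`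
lies in the maximal ideal. -/
def HasMonicRel (A : ValuationSubring K) (K0 : Subfield K) (a : K) (n : ℕ) : Prop :=
  ∃ g : Polynomial K0, g.Monic ∧ g.natDegree = n ∧ (∀ i, ((g.coeff i : K0) : K) ∈ A) ∧
    aeval a g ∈ A.nonunits

theorem hasMonicRel_of_seq (K0 : Subfield K) {a : K} {j : ℕ} {e : ℕ → K}
    (he : ∀ i, e i ∈ K0 ∧ e i ∈ A)
    (h : a ^ j + ∑ i ∈ Finset.range j, e i * a ^ i ∈ A.nonunits) : HasMonicRel A K0 a j :=
  ⟨monicOfSeq K0 j e (fun i => (he i).1), monicOfSeq_monic _ _ _ _, monicOfSeq_natDegree _ _ _ _,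
    monicOfSeq_coeff_mem _ _ _ _ (fun i => (he i).2), by rwa [aeval_monicOfSeq]⟩

theorem exists_hasMonicRel (K0 : Subfield K) {a : K} (ha : a ∈ A) (halg : IsAlgebraic K0 a) :
    ∃ n, HasMonicRel A K0 a n := by
  obtain ⟨p, hp0, hpa⟩ := halg
  set n := p.natDegree + 1 with hn
  have hne : (Finset.range n).Nonempty := ⟨0, Finset.mem_range.2 (by omega)⟩
  obtain ⟨j0, hj0, hmax⟩ :=
    Finset.exists_max_image (Finset.range n) (fun i => A.valuation ((p.coeff i : K0) : K)) hne
  rw [Finset.mem_range] at hj0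
  set u : K := ((p.coeff j0 : K0) : K) with hu
  have hlead : ((p.coeff p.natDegree : K0) : K) ≠ 0 := by
    have : p.coeff p.natDegree ≠ 0 := by
      rw [coeff_natDegree]
      exact leadingCoeff_ne_zero.2 hp0
    simpa using this
  have hu0 : u ≠ 0 := by
    intro h0
    have h1 := hmax p.natDegree (Finset.mem_range.2 (by omega))
    rw [h0, map_zero] at h1
    exact hlead ((map_eq_zero _).1 (le_antisymm h1 zero_le))
  set c : ℕ → K := fun i => ((p.coeff i : K0) : K) / u with hc
  have hcmem : ∀ i, c i ∈ K0 ∧ c i ∈ A := by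
    intro i
    refine ⟨K0.div_mem (p.coeff i).2 (p.coeff j0).2, ?_⟩
    rw [mem_iff_le, hc, map_div₀]
    by_cases hi : i < n
    · exact div_le_one_of_le₀ (hmax i (Finset.mem_range.2 hi)) zero_le
    · have : p.coeff i = 0 := coeff_eq_zero_of_natDegree_lt (by omega)
      rw [this]
      simp
  have hunit : ∃ i < n, c i ∉ A.nonunits := by
    refine ⟨j0, hj0, ?_⟩
    change ¬ A.valuation (u / u) < 1
    rw [div_self hu0, map_one]
    exact lt_irrefl _
  have hsum : ∑ i ∈ Finset.range n, c i * a ^ i ∈ A.nonunits := by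
    have h1 : ∑ i ∈ Finset.range n, c i * a ^ i = (aeval a p) / u := by
      rw [aeval_eq_sum_range, Finset.sum_div]
      apply Finset.sum_congr rfl
      intro i _
      rw [hc, Algebra.smul_def]
      change _ = ((p.coeff i : K0) : K) * a ^ i / u
      ring
    rw [h1, hpa, zero_div]
    exact zero_mem_nonunits
  obtain ⟨j, _, e, he, hrel⟩ := exists_monic_trunc K0 c hcmem hunit ha hsum
  exact ⟨j, hasMonicRel_of_seq K0 he hrel⟩

variable [IsAlgClosed K]

/-- **Key step of (h2)**: a subfield which is maximal with value group in `⟨g⟩` has full residue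
field. -/
theorem fullRes_of_maximal (E0 : Subfield K) [Algebra.IsAlgebraic E0 K] (g : A.ValueGroup)
    {K0 : Subfield K} (hmax : Maximal (· ∈ {E : Subfield K | E0 ≤ E ∧ ValIn A E g}) K0) :
    FullRes A K0 := by
  classical
  obtain ⟨⟨hE0, hval⟩, hmaximal⟩ := hmax
  intro a ha
  -- `a` is algebraic over `K0`
  have halg : IsAlgebraic K0 a := by
    obtain ⟨p, hp0, hpa⟩ := Algebra.IsAlgebraic.isAlgebraic (R := E0) a
    refine ⟨p.map (Subfield.inclusion hE0), ?_, ?_⟩
    · rwa [Ne, Polynomial.map_eq_zero_iff (Subfield.inclusion hE0).injective]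
    · rw [aeval_def, eval₂_map]
      exact hpa
  -- a monic relation of minimal degree
  have hex := exists_hasMonicRel K0 ha halg
  set d := Nat.find hex with hd
  obtain ⟨g0, hg0m, hg0d, hg0A, hg0a⟩ := Nat.find_spec hex
  have hmin : ∀ m < d, ¬ HasMonicRel A K0 a m := fun m hm => Nat.find_min hex hm
  -- a root congruent to `a`
  obtain ⟨r, hrA, hr0, har⟩ := exists_root_sub_mem K0 hg0m hg0A ha hg0a
  -- the powers of `r` have independent residues
  have hind : ResIndep A K0 (fun i : Fin d => r ^ (i : ℕ)) := by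
    intro c hc hsum
    by_contra hcon
    push Not at hcon
    obtain ⟨i0, hi0⟩ := hcon
    set c' : ℕ → K := fun i => if h : i < d then c ⟨i, h⟩ else 0 with hc'
    have hc'mem : ∀ i, c' i ∈ K0 ∧ c' i ∈ A := by
      intro i
      rw [hc']
      by_cases h : i < d
      · simp only [dif_pos h]
        exact hc ⟨i, h⟩
      · simp only [dif_neg h]
        exact ⟨K0.zero_mem, A.zero_mem⟩
    have hsum' : ∑ i ∈ Finset.range d, c' i * r ^ i ∈ A.nonunits := by
      rw [Finset.sum_range]
      convert hsum using 2 with i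
      rw [hc']
      simp only [dif_pos i.2, Fin.eta]
    have hunit : ∃ i < d, c' i ∉ A.nonunits := by
      refine ⟨i0, i0.2, ?_⟩
      rw [hc']
      simpa only [dif_pos i0.2, Fin.eta] using hi0
    obtain ⟨j, hjd, e, he, hrel⟩ := exists_monic_trunc K0 c' hc'mem hunit hrA hsum'
    obtain ⟨g1, hg1m, hg1d, hg1A, hg1r⟩ := hasMonicRel_of_seq K0 he hrel
    apply hmin j hjd
    refine ⟨g1, hg1m, hg1d, hg1A, ?_⟩
    have h1 := aeval_sub_aeval_mem K0 hg1A ha hrA har
    have h2 := nonunits_add h1 hg1r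
    rwa [sub_add_cancel] at h2
  -- `g0 ≠ 1`
  have hg01 : g0 ≠ 1 := by
    rintro rfl
    rw [map_one, mem_nonunits_iff_lt, map_one] at hg0a
    exact lt_irrefl _ hg0a
  -- the field `K0(r)` is spanned by the first `d` powers of `r`
  have hint : IsIntegral K0 r := ⟨g0, hg0m, hr0⟩
  set L : Subfield K := (IntermediateField.adjoin K0 {r}).toSubfield with hL
  have hspan : ∀ y ∈ L, ∃ c : Fin d → K, (∀ i, c i ∈ K0) ∧ y = ∑ i, c i * r ^ (i : ℕ) := by
    intro y hy
    have hy' : y ∈ (IntermediateField.adjoin K0 {r}).toSubalgebra := hy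
    rw [IntermediateField.adjoin_simple_toSubalgebra_of_isAlgebraic hint.isAlgebraic,
      Algebra.adjoin_singleton_eq_range_aeval] at hy'
    obtain ⟨p, rfl⟩ := hy'
    have hdiv := modByMonic_add_div p g0
    have hval' : aeval r p = aeval r (p %ₘ g0) := by
      conv_lhs => rw [← hdiv]
      rw [map_add, map_mul, hr0, zero_mul, add_zero]
    have hdeg : (p %ₘ g0).natDegree < d := by
      rw [hd, ← hg0d]
      exact natDegree_modByMonic_lt p hg0m hg01
    refine ⟨fun i => (((p %ₘ g0).coeff i : K0) : K), fun i => ((p %ₘ g0).coeff i).2, ?_⟩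
    change aeval r p = _
    rw [hval', aeval_eq_sum_range' hdeg, Finset.sum_range]
    apply Finset.sum_congr rfl
    intro i _
    rw [Algebra.smul_def]
    rfl
  have hLval : ValIn A L g :=
    valIn_of_resIndep_span hval (fun i => A.pow_mem hrA _) hind hspan
  have hK0L : K0 ≤ L := by
    intro x hx
    exact (IntermediateField.adjoin K0 {r}).algebraMap_mem ⟨x, hx⟩
  have hLK0 : L ≤ K0 := hmaximal ⟨hE0.trans hK0L, hLval⟩ hK0L
  have hrL : r ∈ L := IntermediateField.mem_adjoin_simple_self K0 r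
  exact ⟨r, hLK0 hrL, hrA, har⟩

/-- **(h2)** -/
theorem exists_fullRes (E0 : Subfield K) [Algebra.IsAlgebraic E0 K] (g : A.ValueGroup)
    (h0 : ValIn A E0 g) :
    ∃ K0 : Subfield K, E0 ≤ K0 ∧ ValIn A K0 g ∧ FullRes A K0 := by
  obtain ⟨K0, hle, hmax⟩ := zorn_le_nonempty₀ {E : Subfield K | E0 ≤ E ∧ ValIn A E g}
    (by
      intro c hcs hc y hy
      have hne : c.Nonempty := ⟨y, hy⟩
      have hdir : DirectedOn (· ≤ ·) c := hc.directedOn
      refine ⟨sSup c, ⟨(hcs hy).1.trans (le_sSup hy), ?_⟩, fun z hz => le_sSup hz⟩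
      intro x hx hx0
      rw [Subfield.mem_sSup_of_directedOn hne hdir] at hx
      obtain ⟨E, hE, hxE⟩ := hx
      exact (hcs hE).2 x hxE hx0)
    E0 ⟨le_rfl, h0⟩
  exact ⟨K0, hle, hmax.1.2, fullRes_of_maximal E0 g hmax⟩

end Maximal

section Finite

variable {K : Type*} [Field K] {A : ValuationSubring K}

/-- `K'` is spanned over `K0` by `m` elements (elementary form of `[K' : K0] ≤ m`). -/
def SpannedBy (K0 K' : Subfield K) (m : ℕ) : Prop :=
  ∃ b : Fin m → K, ∀ y ∈ K', ∃ c : Fin m → K, (∀ i, c i ∈ K0) ∧ y = ∑ i, c i * b i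

theorem zpow_of_mul_pow_eq {Γ : Type*} [LinearOrderedCommGroupWithZero Γ] {g a s t : Γ}
    {ns nt : ℤ} (hs : s = g ^ ns) (ht : t = g ^ nt) (hg : g ≠ 0) (ha : a ≠ 0) {i j : ℕ}
    (hij : i < j) (h : s * a ^ i = t * a ^ j) : a ^ (j - i) = g ^ (ns - nt) := by
  have hj : j = i + (j - i) := by omega
  have ht0 : t ≠ 0 := by rw [ht]; exact zpow_ne_zero _ hg
  have h' : a ^ i * s = a ^ i * (t * a ^ (j - i)) := by
    rw [mul_comm, h, hj, pow_add, Nat.add_sub_cancel_left]
    rw [← mul_assoc, mul_comm t, mul_assoc]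
  have h1 : s = t * a ^ (j - i) := mul_left_cancel₀ (pow_ne_zero i ha) h'
  rw [zpow_sub₀ hg, ← hs, ← ht, h1, mul_comm, mul_div_assoc, div_self ht0, mul_one]

end Finite

section StepA

variable {K : Type*} [Field K] {A : ValuationSubring K}

/-- **Index of value groups**: some power `v x ^ k`, `1 ≤ k ≤ m`, lies in the value group of
`K0`. -/
theorem exists_pow_valuation {K0 K' : Subfield K} {γ : A.ValueGroup} (hγ : γ ≠ 0)
    (hval : ValIn A K0 γ) {m : ℕ} (hspan : SpannedBy K0 K' m) {x : K} (hx : x ∈ K')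
    (hx0 : x ≠ 0) : ∃ k, 1 ≤ k ∧ k ≤ m ∧ ∃ n : ℤ, A.valuation x ^ k = γ ^ n := by
  classical
  obtain ⟨b, hb⟩ := hspan
  have hdep : ¬ LinearIndependent K0 (fun i : Fin (m + 1) => x ^ (i : ℕ)) := by
    intro hli
    have hsub : Set.range (fun i : Fin (m + 1) => x ^ (i : ℕ)) ≤
        Submodule.span K0 (Set.range b) := by
      rintro _ ⟨i, rfl⟩
      obtain ⟨c, hc, hy⟩ := hb (x ^ (i : ℕ)) (K'.pow_mem hx _)
      change x ^ (i : ℕ) ∈ Submodule.span K0 (Set.range b)
      rw [hy]
      apply Submodule.sum_mem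
      intro l _
      have : c l * b l = (⟨c l, hc l⟩ : K0) • b l := rfl
      rw [this]
      exact Submodule.smul_mem _ _ (Submodule.subset_span ⟨l, rfl⟩)
    have h1 := linearIndependent_le_span_aux' _ hli (Set.range b) hsub
    have h2 := Fintype.card_range_le b
    rw [Fintype.card_fin] at h1 h2
    omega
  rw [Fintype.not_linearIndependent_iff] at hdep
  obtain ⟨g, hg0, i1, hi1⟩ := hdep
  set f : Fin (m + 1) → K := fun i => ((g i : K0) : K) * x ^ (i : ℕ) with hf
  have hsum : ∑ i, f i = 0 := by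
    rw [← hg0]
    rfl
  set T := Finset.univ.filter (fun i => g i ≠ 0) with hT
  have hsumT : ∑ i ∈ T, f i = 0 := by
    rw [← hsum, hT]
    apply Finset.sum_filter_of_ne
    intro i _ hfi hgi
    apply hfi
    rw [hf]
    simp [hgi]
  have hTne : T.Nonempty := ⟨i1, Finset.mem_filter.2 ⟨Finset.mem_univ _, hi1⟩⟩
  obtain ⟨j, hjT, hjmax⟩ := Finset.exists_max_image T (fun i => A.valuation (f i)) hTne
  have hgne : ∀ i ∈ T, ((g i : K0) : K) ≠ 0 := by
    intro i hi
    have := (Finset.mem_filter.1 hi).2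
    simpa using this
  have hfj0 : A.valuation (f j) ≠ 0 := by
    rw [Ne, map_eq_zero, hf]
    exact mul_ne_zero (hgne j hjT) (pow_ne_zero _ hx0)
  have hex : ∃ i ∈ T, i ≠ j ∧ A.valuation (f i) = A.valuation (f j) := by
    by_contra hcon
    push Not at hcon
    have h1 : A.valuation (∑ i ∈ T, f i) = A.valuation (f j) := by
      apply Valuation.map_sum_eq_of_lt _ hjT
      intro i hi
      rw [Finset.mem_sdiff, Finset.mem_singleton] at hi
      exact lt_of_le_of_ne (hjmax i hi.1) (hcon i hi.1 hi.2)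
    rw [hsumT, map_zero] at h1
    exact hfj0 h1.symm
  obtain ⟨i, hiT, hij, hval_eq⟩ := hex
  obtain ⟨ni, hni⟩ := hval (g i : K0) (g i).2 (hgne i hiT)
  obtain ⟨nj, hnj⟩ := hval (g j : K0) (g j).2 (hgne j hjT)
  have hvx : A.valuation x ≠ 0 := (map_ne_zero _).2 hx0
  rw [hf] at hval_eq
  simp only [map_mul, map_pow] at hval_eq
  rcases lt_or_gt_of_ne (fun h => hij (Fin.ext h) : (i : ℕ) ≠ (j : ℕ)) with hlt | hlt
  · refine ⟨(j : ℕ) - (i : ℕ), by omega, by omega, ni - nj, ?_⟩
    exact zpow_of_mul_pow_eq hni hnj hγ hvx hlt hval_eq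
  · refine ⟨(i : ℕ) - (j : ℕ), by omega, by omega, nj - ni, ?_⟩
    exact zpow_of_mul_pow_eq hnj hni hγ hvx hlt hval_eq.symm

/-- A uniform exponent: `v x ^ m!` lies in the value group of `K0` for every `x ∈ K'`. -/
theorem pow_factorial_valuation {K0 K' : Subfield K} {γ : A.ValueGroup} (hγ : γ ≠ 0)
    (hval : ValIn A K0 γ) {m : ℕ} (hspan : SpannedBy K0 K' m) {x : K} (hx : x ∈ K')
    (hx0 : x ≠ 0) : ∃ n : ℤ, A.valuation x ^ m.factorial = γ ^ n := by
  obtain ⟨k, hk1, hkm, n, hn⟩ := exists_pow_valuation hγ hval hspan hx hx0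
  obtain ⟨t, ht⟩ := Nat.dvd_factorial (by omega) hkm
  refine ⟨n * t, ?_⟩
  rw [ht, pow_mul, hn, zpow_mul, zpow_natCast]

end StepA

section StepC

variable {K : Type*} [Field K] {A : ValuationSubring K}

theorem zpow_nonneg_of_le_one {Γ : Type*} [LinearOrderedCommGroupWithZero Γ] {g : Γ}
    (hg0 : g ≠ 0) (hg1 : g < 1) {n : ℤ} (h : g ^ n ≤ 1) : 0 ≤ n := by
  by_contra hn
  rw [not_le] at hn
  obtain ⟨k, hk⟩ : ∃ k : ℕ, n = -((k : ℤ) + 1) := ⟨(-n - 1).toNat, by omega⟩
  rw [hk, zpow_neg, ← Nat.cast_succ, zpow_natCast] at h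
  have h1 : g ^ (k + 1) < 1 := pow_lt_one₀ zero_le hg1 (by omega)
  have h2 : (1 : Γ) < (g ^ (k + 1))⁻¹ := by
    rw [one_lt_inv₀ (pow_pos (zero_lt_iff.2 hg0) _)]
    exact h1
  exact absurd h (not_le.2 h2)

/-- **(h3)** A finite extension of a field with cyclic value group `⟨v q⟩` has a uniformizer. -/
theorem exists_dvrField {K0 K' : Subfield K} (hle : K0 ≤ K') {q : K} (hq : q ∈ K0) (hq0 : q ≠ 0)
    (hq1 : A.valuation q < 1) (hval : ValIn A K0 (A.valuation q)) {m : ℕ}
    (hspan : SpannedBy K0 K' m) : ∃ p, DVRField A K' p := by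
  classical
  set γ := A.valuation q with hγdef
  have hγ0 : γ ≠ 0 := (map_ne_zero _).2 hq0
  set N := m.factorial with hN
  have hN0 : N ≠ 0 := Nat.factorial_ne_zero m
  -- exponents for elements of valuation `≤ 1`
  have hexp : ∀ x ∈ K', x ≠ 0 → A.valuation x ≤ 1 → ∃ t : ℕ, A.valuation x ^ N = γ ^ t := by
    intro x hx hx0 hx1
    obtain ⟨n, hn⟩ := pow_factorial_valuation hγ0 hval hspan hx hx0
    have h1 : γ ^ n ≤ 1 := by
      rw [← hn]
      exact pow_le_one₀ zero_le hx1
    have h2 := zpow_nonneg_of_le_one hγ0 hq1 h1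
    obtain ⟨t, rfl⟩ := Int.eq_ofNat_of_zero_le h2
    exact ⟨t, by rw [hn, zpow_natCast]⟩
  -- the predicate for `Nat.find`
  have hP : ∃ t : ℕ, ∃ x ∈ K', x ≠ 0 ∧ A.valuation x < 1 ∧ A.valuation x ^ N = γ ^ t := by
    obtain ⟨t, ht⟩ := hexp q (hle hq) hq0 hq1.le
    exact ⟨t, q, hle hq, hq0, hq1, ht⟩
  set t0 := Nat.find hP with ht0
  obtain ⟨p, hpK, hp0, hp1, hpt⟩ := Nat.find_spec hP
  have hvp0 : A.valuation p ≠ 0 := (map_ne_zero _).2 hp0
  have ht0pos : t0 ≠ 0 := by
    intro h0
    rw [← ht0, h0, pow_zero] at hpt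
    have h1 : A.valuation p ^ N < 1 := pow_lt_one₀ zero_le hp1 hN0
    rw [hpt] at h1
    exact lt_irrefl _ h1
  -- `v p` is the largest valuation `< 1`
  have hmax : ∀ x ∈ K', x ≠ 0 → A.valuation x < 1 → A.valuation x ≤ A.valuation p := by
    intro x hx hx0 hx1
    obtain ⟨t, ht⟩ := hexp x hx hx0 hx1.le
    have htt : t0 ≤ t := Nat.find_min' hP ⟨x, hx, hx0, hx1, ht⟩
    have h1 : A.valuation x ^ N ≤ A.valuation p ^ N := by
      rw [ht, hpt]
      exact pow_le_pow_of_le_one zero_le hq1.le htt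
    exact (pow_le_pow_iff_left₀ zero_le zero_le hN0).1 h1
  -- every element of valuation `≤ 1` is a power of `p` up to a unit
  have hpow : ∀ t : ℕ, ∀ x ∈ K', x ≠ 0 → A.valuation x ≤ 1 → A.valuation x ^ N = γ ^ t →
      ∃ n : ℕ, A.valuation x = A.valuation p ^ n := by
    intro t
    induction t using Nat.strong_induction_on with
    | _ t ih =>
      intro x hx hx0 hx1 hxt
      rcases eq_or_lt_of_le hx1 with h1 | h1
      · exact ⟨0, by rw [h1, pow_zero]⟩
      · have htt : t0 ≤ t := Nat.find_min' hP ⟨x, hx, hx0, h1, hxt⟩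
        have hy : x / p ∈ K' := K'.div_mem hx hpK
        have hy0 : x / p ≠ 0 := div_ne_zero hx0 hp0
        have hy1 : A.valuation (x / p) ≤ 1 := by
          rw [map_div₀]
          exact div_le_one_of_le₀ (hmax x hx hx0 h1) zero_le
        have hyt : A.valuation (x / p) ^ N = γ ^ (t - t0) := by
          rw [map_div₀, div_pow, hxt, hpt]
          have : γ ^ t = γ ^ t0 * γ ^ (t - t0) := by
            rw [← pow_add, Nat.add_sub_cancel' htt]
          rw [this, mul_comm, mul_div_assoc, div_self (pow_ne_zero _ hγ0), mul_one]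
        obtain ⟨n, hn⟩ := ih (t - t0) (by omega) (x / p) hy hy0 hy1 hyt
        refine ⟨n + 1, ?_⟩
        rw [map_div₀, div_eq_iff hvp0] at hn
        rw [hn, pow_succ]
  refine ⟨p, hpK, hp0, hp1, ?_⟩
  intro x hx hx0
  rcases le_total (A.valuation x) 1 with h1 | h1
  · obtain ⟨t, ht⟩ := hexp x hx hx0 h1
    obtain ⟨n, hn⟩ := hpow t x hx hx0 h1 ht
    exact ⟨n, by rw [hn, zpow_natCast]⟩
  · have hxi : x⁻¹ ∈ K' := K'.inv_mem hx
    have hxi0 : x⁻¹ ≠ 0 := inv_ne_zero hx0
    have hxi1 : A.valuation x⁻¹ ≤ 1 := by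
      rw [map_inv₀]
      exact inv_le_one_of_one_le₀ h1
    obtain ⟨t, ht⟩ := hexp x⁻¹ hxi hxi0 hxi1
    obtain ⟨n, hn⟩ := hpow t x⁻¹ hxi hxi0 hxi1 ht
    refine ⟨-(n : ℤ), ?_⟩
    rw [zpow_neg, zpow_natCast, ← hn, map_inv₀, inv_inv]

end StepC

section Tower

variable {K : Type*} [Field K] {A : ValuationSubring K}

theorem isIntegral_of_le (E0 K0 : Subfield K) [Algebra.IsAlgebraic E0 K] (hle : E0 ≤ K0)
    (a : K) : IsIntegral K0 a := by
  obtain ⟨p, hp0, hpa⟩ := Algebra.IsAlgebraic.isAlgebraic (R := E0) a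
  have halg : IsAlgebraic K0 a := by
    refine ⟨p.map (Subfield.inclusion hle), ?_, ?_⟩
    · rwa [Ne, Polynomial.map_eq_zero_iff (Subfield.inclusion hle).injective]
    · rw [Polynomial.aeval_def, Polynomial.eval₂_map]
      exact hpa
  exact halg.isIntegral

/-- The field `K0(S)` as a subfield of `K`. -/
noncomputable def towerField (K0 : Subfield K) (S : Set K) : Subfield K :=
  (IntermediateField.adjoin K0 S).toSubfield

theorem le_towerField (K0 : Subfield K) (S : Set K) : K0 ≤ towerField K0 S := by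
  intro x hx
  exact (IntermediateField.adjoin K0 S).algebraMap_mem ⟨x, hx⟩

theorem subset_towerField (K0 : Subfield K) (S : Set K) : S ⊆ towerField K0 S := by
  intro x hx
  exact IntermediateField.subset_adjoin K0 S hx

theorem towerField_mono (K0 : Subfield K) {S T : Set K} (h : S ⊆ T) :
    towerField K0 S ≤ towerField K0 T := by
  intro x hx
  exact IntermediateField.adjoin.mono K0 S T h hx

theorem spannedBy_towerField (E0 K0 : Subfield K) [Algebra.IsAlgebraic E0 K] (hle : E0 ≤ K0)
    (S : Finset K) : ∃ m, SpannedBy K0 (towerField K0 (S : Set K)) m := by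
  have : FiniteDimensional K0 (IntermediateField.adjoin K0 (S : Set K)) :=
    IntermediateField.finiteDimensional_adjoin (fun x _ => isIntegral_of_le E0 K0 hle x)
  set L := IntermediateField.adjoin K0 (S : Set K) with hL
  set bs := Module.finBasis K0 L with hbs
  refine ⟨Module.finrank K0 L, fun i => ((bs i : L) : K), ?_⟩
  intro y hy
  have hyL : y ∈ L := hy
  refine ⟨fun i => ((bs.repr ⟨y, hyL⟩ i : K0) : K), fun i => (bs.repr ⟨y, hyL⟩ i).2, ?_⟩
  have h1 := bs.sum_repr ⟨y, hyL⟩
  have h2 : ((∑ i, bs.repr ⟨y, hyL⟩ i • bs i : L) : K) = y := by rw [h1]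
  rw [IntermediateField.coe_sum] at h2
  refine h2.symm.trans ?_
  apply Finset.sum_congr rfl
  intro i _
  rfl

/-- **(h2)+(h3)+(h4): the tower.** -/
theorem exists_tower [IsAlgClosed K] (E0 : Subfield K) [Algebra.IsAlgebraic E0 K] {q : K}
    (hq : q ∈ E0) (hq0 : q ≠ 0) (hq1 : A.valuation q < 1) (h0 : ValIn A E0 (A.valuation q)) :
    ∃ K0 : Subfield K, E0 ≤ K0 ∧ ValIn A K0 (A.valuation q) ∧ FullRes A K0 ∧
      ∀ S : Finset K, K0 ≤ towerField K0 (S : Set K) ∧ (S : Set K) ⊆ towerField K0 (S : Set K) ∧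
        FullRes A (towerField K0 (S : Set K)) ∧ (∃ p, DVRField A (towerField K0 (S : Set K)) p) ∧
        ∃ m, SpannedBy K0 (towerField K0 (S : Set K)) m := by
  obtain ⟨K0, hle, hval, hfull⟩ := exists_fullRes E0 (A.valuation q) h0
  refine ⟨K0, hle, hval, hfull, fun S => ?_⟩
  obtain ⟨m, hm⟩ := spannedBy_towerField E0 K0 hle S
  exact ⟨le_towerField K0 _, subset_towerField K0 _, hfull.mono (le_towerField K0 _),
    exists_dvrField (le_towerField K0 _) (hle hq) hq0 hq1 hval hm, m, hm⟩

end Tower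


section AbstractBase

variable {K : Type*} [Field K] {A : ValuationSubring K}

theorem SpannedBy.mono {K0 K' K'' : Subfield K} {m : ℕ} (h : SpannedBy K0 K'' m)
    (hle : K' ≤ K'') : SpannedBy K0 K' m := by
  obtain ⟨b, hb⟩ := h
  exact ⟨b, fun y hy => hb y (hle hy)⟩

/-- A field spanned by finitely many elements over `K0` lies in a finitely generated tower
field. -/
theorem SpannedBy.exists_le_towerField {K0 K' : Subfield K} {m : ℕ} (h : SpannedBy K0 K' m) :
    ∃ S : Finset K, K' ≤ towerField K0 (S : Set K) := by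
  classical
  obtain ⟨b, hb⟩ := h
  refine ⟨Finset.univ.image b, ?_⟩
  intro y hy
  obtain ⟨c, hc, rfl⟩ := hb y hy
  apply Subfield.sum_mem
  intro i _
  apply Subfield.mul_mem
  · exact le_towerField K0 _ (hc i)
  · apply subset_towerField
    simp

/-- **(h3), general form.**  Let `K0` have value group `⟨v q⟩`.  Every subfield `K'` between
`K0` and a finitely generated tower field `K0(S)` has a uniformizer. -/
theorem exists_dvrField_of_le (K0 : Subfield K) [Algebra.IsAlgebraic K0 K] {q : K}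
    (hq : q ∈ K0) (hq0 : q ≠ 0) (hq1 : A.valuation q < 1) (hval : ValIn A K0 (A.valuation q))
    {K' : Subfield K} (hle : K0 ≤ K') (S : Finset K) (hK' : K' ≤ towerField K0 (S : Set K)) :
    ∃ p, DVRField A K' p := by
  obtain ⟨m, hm⟩ := spannedBy_towerField K0 K0 le_rfl S
  exact exists_dvrField hle hq hq0 hq1 hval (hm.mono hK')

/-- **(h3)+(h4) against an abstract base field** `K0` with value group `⟨v q⟩` and full residue
field: every finite subset `S` of `K` lies in the subfield `K0(S)`, which has full residue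
field, a uniformizer, and is spanned by finitely many elements over `K0`. -/
theorem tower_of_base (K0 : Subfield K) [Algebra.IsAlgebraic K0 K] {q : K}
    (hq : q ∈ K0) (hq0 : q ≠ 0) (hq1 : A.valuation q < 1) (hval : ValIn A K0 (A.valuation q))
    (hfull : FullRes A K0) (S : Finset K) :
    K0 ≤ towerField K0 (S : Set K) ∧ (S : Set K) ⊆ towerField K0 (S : Set K) ∧
      FullRes A (towerField K0 (S : Set K)) ∧ (∃ p, DVRField A (towerField K0 (S : Set K)) p) ∧
      ∃ m, SpannedBy K0 (towerField K0 (S : Set K)) m := by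
  obtain ⟨m, hm⟩ := spannedBy_towerField K0 K0 le_rfl S
  exact ⟨le_towerField K0 _, subset_towerField K0 _, hfull.mono (le_towerField K0 _),
    exists_dvrField (le_towerField K0 _) hq hq0 hq1 hval hm, m, hm⟩

/-- **(h5), directedness.** -/
theorem towerField_le_union (K0 : Subfield K) [DecidableEq K] (S T : Finset K) :
    towerField K0 (S : Set K) ≤ towerField K0 ((S ∪ T : Finset K) : Set K) ∧
      towerField K0 (T : Set K) ≤ towerField K0 ((S ∪ T : Finset K) : Set K) := by
  refine ⟨towerField_mono K0 ?_, towerField_mono K0 ?_⟩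
  · intro x hx
    exact Finset.mem_coe.2 (Finset.mem_union_left _ (Finset.mem_coe.1 hx))
  · intro x hx
    exact Finset.mem_coe.2 (Finset.mem_union_right _ (Finset.mem_coe.1 hx))

/-- **(h5)** Two finite extensions of `K0` lie in a third one, of the form `K0(S)`. -/
theorem exists_towerField_ge {K0 K' K'' : Subfield K} {m m' : ℕ} (h' : SpannedBy K0 K' m)
    (h'' : SpannedBy K0 K'' m') :
    ∃ S : Finset K, K' ≤ towerField K0 (S : Set K) ∧ K'' ≤ towerField K0 (S : Set K) := by
  classical
  obtain ⟨S, hS⟩ := h'.exists_le_towerField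
  obtain ⟨T, hT⟩ := h''.exists_le_towerField
  exact ⟨S ∪ T, hS.trans (towerField_le_union K0 S T).1, hT.trans (towerField_le_union K0 S T).2⟩

/-- **(h5)** Passing to a bigger discretely valued field: the old uniformizer is a positive
power of the new one, up to a unit. -/
theorem DVRField.exists_pow_eq {K' K'' : Subfield K} {p' p'' : K} (h' : DVRField A K' p')
    (h'' : DVRField A K'' p'') (hle : K' ≤ K'') :
    ∃ e : ℕ, 0 < e ∧ A.valuation p' = A.valuation p'' ^ e := by
  obtain ⟨hp', hp'0, hp'1, -⟩ := h'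
  obtain ⟨-, hp''0, hp''1, hK''⟩ := h''
  obtain ⟨n, hn⟩ := hK'' p' (hle hp') hp'0
  have hγ0 : A.valuation p'' ≠ 0 := (map_ne_zero _).2 hp''0
  have h1 : A.valuation p'' ^ n ≤ 1 := by
    rw [← hn]
    exact hp'1.le
  have h2 := zpow_nonneg_of_le_one hγ0 hp''1 h1
  obtain ⟨e, rfl⟩ := Int.eq_ofNat_of_zero_le h2
  refine ⟨e, ?_, by rw [hn, zpow_natCast]⟩
  rcases Nat.eq_zero_or_pos e with rfl | he
  · rw [Nat.cast_zero, zpow_zero] at hn
    rw [hn] at hp'1
    exact absurd hp'1 (lt_irrefl _)
  · exact he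

end AbstractBase

section Intermediate

variable {F K : Type*} [Field F] [Field K] [Algebra F K] {A : ValuationSubring K}

/-- `K₀ ⊔ F(S)`, for an intermediate field `K₀` of `K / F`, is the tower field `K₀(S)`. -/
theorem toSubfield_sup_adjoin (K₀ : IntermediateField F K) (S : Set K) :
    (K₀ ⊔ IntermediateField.adjoin F S).toSubfield = towerField K₀.toSubfield S := by
  apply le_antisymm
  · have hmem : ∀ x : F, algebraMap F K x ∈ towerField K₀.toSubfield S := fun x =>
      le_towerField _ _ (K₀.algebraMap_mem x)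
    have h1 : K₀ ⊔ IntermediateField.adjoin F S ≤
        Subfield.toIntermediateField (towerField K₀.toSubfield S) hmem := by
      apply sup_le
      · intro x hx
        exact le_towerField K₀.toSubfield S hx
      · rw [IntermediateField.adjoin_le_iff]
        intro x hx
        exact subset_towerField K₀.toSubfield S hx
    intro x hx
    exact h1 hx
  · have hmem : ∀ x : K₀.toSubfield, algebraMap K₀.toSubfield K x ∈
        (K₀ ⊔ IntermediateField.adjoin F S).toSubfield := fun x =>
      (le_sup_left : K₀ ≤ K₀ ⊔ IntermediateField.adjoin F S) x.2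
    have h1 : IntermediateField.adjoin K₀.toSubfield S ≤
        Subfield.toIntermediateField (K₀ ⊔ IntermediateField.adjoin F S).toSubfield hmem := by
      rw [IntermediateField.adjoin_le_iff]
      intro x hx
      exact (le_sup_right : IntermediateField.adjoin F S ≤ K₀ ⊔ IntermediateField.adjoin F S)
        (IntermediateField.subset_adjoin F S hx)
    intro x hx
    exact h1 hx

theorem mem_sup_adjoin_iff (K₀ : IntermediateField F K) (S : Set K) (x : K) :
    x ∈ K₀ ⊔ IntermediateField.adjoin F S ↔ x ∈ towerField K₀.toSubfield S := by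
  rw [← toSubfield_sup_adjoin]
  exact Iff.rfl

theorem isAlgebraic_toSubfield [Algebra.IsAlgebraic F K] (K₀ : IntermediateField F K) :
    Algebra.IsAlgebraic K₀.toSubfield K := by
  constructor
  intro a
  obtain ⟨p, hp0, hpa⟩ := Algebra.IsAlgebraic.isAlgebraic (R := F) a
  let f : F →+* K₀.toSubfield :=
    (algebraMap F K).codRestrict K₀.toSubfield (fun x => K₀.algebraMap_mem x)
  have hf : (algebraMap K₀.toSubfield K).comp f = algebraMap F K := by
    ext x
    rfl
  refine ⟨p.map f, ?_, ?_⟩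
  · rwa [Ne, Polynomial.map_eq_zero_iff f.injective]
  · rw [Polynomial.aeval_def, Polynomial.eval₂_map, hf]
    exact hpa

/-- **(h3), intermediate-field form**: every intermediate field `K'` with
`K₀ ≤ K' ≤ K₀ ⊔ F(S)`, `S` finite, has full residue field and a uniformizer. -/
theorem dvr_of_intermediate [Algebra.IsAlgebraic F K] (K₀ : IntermediateField F K) {q : K}
    (hq : q ∈ K₀) (hq0 : q ≠ 0) (hq1 : A.valuation q < 1)
    (hval : ∀ x ∈ K₀, x ≠ 0 → ∃ n : ℤ, A.valuation x = A.valuation q ^ n)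
    (hfull : ∀ a ∈ A, ∃ a' ∈ K₀, a' ∈ A ∧ a - a' ∈ A.nonunits)
    {K' : IntermediateField F K} (hle : K₀ ≤ K') (S : Finset K)
    (hK' : K' ≤ K₀ ⊔ IntermediateField.adjoin F (S : Set K)) :
    (∀ a ∈ A, ∃ a' ∈ K', a' ∈ A ∧ a - a' ∈ A.nonunits) ∧
      ∃ π' ∈ K', π' ≠ 0 ∧ A.valuation π' < 1 ∧
        ∀ x ∈ K', x ≠ 0 → ∃ n : ℤ, A.valuation x = A.valuation π' ^ n := by
  have := isAlgebraic_toSubfield (F := F) (K := K) K₀
  have hle' : K₀.toSubfield ≤ K'.toSubfield := fun x hx => hle hx
  have hK'' : K'.toSubfield ≤ towerField K₀.toSubfield (S : Set K) := by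
    intro x hx
    exact (mem_sup_adjoin_iff K₀ (S : Set K) x).1 (hK' hx)
  have hfull' : FullRes A K₀.toSubfield := hfull
  obtain ⟨p, hpK, hp0, hp1, hp⟩ :=
    exists_dvrField_of_le (A := A) K₀.toSubfield hq hq0 hq1 hval hle' S hK''
  exact ⟨hfull'.mono hle', p, hpK, hp0, hp1, hp⟩

/-- **(h3)+(h4), intermediate-field form**: for a finite `S ⊆ K`, the field `K' = K₀ ⊔ F(S)`
contains `K₀` and `S`, has full residue field and a uniformizer. -/
theorem tower_intermediate [Algebra.IsAlgebraic F K] (K₀ : IntermediateField F K) {q : K}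
    (hq : q ∈ K₀) (hq0 : q ≠ 0) (hq1 : A.valuation q < 1)
    (hval : ∀ x ∈ K₀, x ≠ 0 → ∃ n : ℤ, A.valuation x = A.valuation q ^ n)
    (hfull : ∀ a ∈ A, ∃ a' ∈ K₀, a' ∈ A ∧ a - a' ∈ A.nonunits) (S : Finset K) :
    K₀ ≤ K₀ ⊔ IntermediateField.adjoin F (S : Set K) ∧
      (S : Set K) ⊆ (K₀ ⊔ IntermediateField.adjoin F (S : Set K) : IntermediateField F K) ∧
      (∀ a ∈ A, ∃ a' ∈ K₀ ⊔ IntermediateField.adjoin F (S : Set K),
        a' ∈ A ∧ a - a' ∈ A.nonunits) ∧
      ∃ π' ∈ K₀ ⊔ IntermediateField.adjoin F (S : Set K), π' ≠ 0 ∧ A.valuation π' < 1 ∧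
        ∀ x ∈ K₀ ⊔ IntermediateField.adjoin F (S : Set K), x ≠ 0 →
          ∃ n : ℤ, A.valuation x = A.valuation π' ^ n := by
  obtain ⟨h1, h2⟩ := dvr_of_intermediate (A := A) K₀ hq hq0 hq1 hval hfull
    (le_sup_left : K₀ ≤ K₀ ⊔ IntermediateField.adjoin F (S : Set K)) S le_rfl
  refine ⟨le_sup_left, ?_, h1, h2⟩
  intro x hx
  exact (le_sup_right : IntermediateField.adjoin F (S : Set K) ≤
    K₀ ⊔ IntermediateField.adjoin F (S : Set K)) (IntermediateField.subset_adjoin F _ hx)

/-- **(h5), intermediate-field form**: the fields `K₀ ⊔ F(S)` form a directed family. -/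
theorem sup_adjoin_le_union (K₀ : IntermediateField F K) [DecidableEq K] (S T : Finset K) :
    K₀ ⊔ IntermediateField.adjoin F (S : Set K) ≤
        K₀ ⊔ IntermediateField.adjoin F ((S ∪ T : Finset K) : Set K) ∧
      K₀ ⊔ IntermediateField.adjoin F (T : Set K) ≤
        K₀ ⊔ IntermediateField.adjoin F ((S ∪ T : Finset K) : Set K) := by
  refine ⟨sup_le_sup_left (IntermediateField.adjoin.mono F _ _ ?_) _,
    sup_le_sup_left (IntermediateField.adjoin.mono F _ _ ?_) _⟩
  · intro x hx
    exact Finset.mem_coe.2 (Finset.mem_union_left _ (Finset.mem_coe.1 hx))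
  · intro x hx
    exact Finset.mem_coe.2 (Finset.mem_union_right _ (Finset.mem_coe.1 hx))

end Intermediate

end Fermat.Agent.BR.UnramTower
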