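import Mathlib
import Fermat.Agent.BR.UnramTower
import Fermat.Agent.BR.UnramCyclo

/-!
# Program B (BADRED), node B6.5(h): the coefficient fields of the frame over `ℚ̄`

Composition of `BR/UnramCyclo` (the base field `K₀ = ℚ(μ_{prime to q}) ⊆ ℚ̄`: value group
`⟨v q⟩`, full residue field, fixed by inertia) with `BR/UnramTower` (finite extensions of such a
field are discretely valued with full residue field, and form a directed family).

For a finite `S ⊆ ℚ̄` put `coeffField q S := K₀ ⊔ ℚ(S)`.  Then, for a valuation subring `A` of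
`ℚ̄` lying over the prime `q`:
* `cycloField_le_coeffField`, `subset_coeffField`, `coeffField_le_union` (directed cover of `ℚ̄`);
* `fullRes_coeffField` : every residue class of `A` meets `coeffField q S`;
* `exists_uniformizer_coeffField` : there is `π' ∈ coeffField q S`, `π' ≠ 0`, `v π' < 1`, with
  `v (K' ∖ 0) ⊆ ⟨v π'⟩`, and `v q = v π' ^ e` for some `e > 0`;
* `exists_uniformizer_of_le` : the same for every intermediate field
  `K₀ ≤ K' ≤ coeffField q S`.
All statements are unfolded, in the shapes `IsDVRField A K' π'` and `FullRes A K'` of the frame.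
-/

set_option autoImplicit false

namespace Fermat.Agent.BR.UnramCycloTower

open Fermat.Agent.BR.UnramCyclo Fermat.Agent.BR.UnramTower

local notation "Qb" => AlgebraicClosure ℚ

/-- The coefficient field `K₀ ⊔ ℚ(S)`, `K₀ = ℚ(μ_{prime to q})`. -/
noncomputable def coeffField (q : ℕ) (S : Finset Qb) : IntermediateField ℚ Qb :=
  cycloField Qb q ⊔ IntermediateField.adjoin ℚ (S : Set Qb)

theorem cycloField_le_coeffField (q : ℕ) (S : Finset Qb) : cycloField Qb q ≤ coeffField q S :=
  le_sup_left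

theorem subset_coeffField (q : ℕ) (S : Finset Qb) : (S : Set Qb) ⊆ coeffField q S := by
  intro x hx
  exact (le_sup_right : IntermediateField.adjoin ℚ (S : Set Qb) ≤ coeffField q S)
    (IntermediateField.subset_adjoin ℚ _ hx)

theorem coeffField_mono (q : ℕ) {S T : Finset Qb} (h : S ⊆ T) :
    coeffField q S ≤ coeffField q T :=
  sup_le_sup_left (IntermediateField.adjoin.mono ℚ _ _ (Finset.coe_subset.2 h)) _

/-- Directedness of the family of coefficient fields. -/
theorem coeffField_le_union (q : ℕ) [DecidableEq Qb] (S T : Finset Qb) :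
    coeffField q S ≤ coeffField q (S ∪ T) ∧ coeffField q T ≤ coeffField q (S ∪ T) :=
  ⟨coeffField_mono q Finset.subset_union_left, coeffField_mono q Finset.subset_union_right⟩

/-- Every element of `ℚ̄` lies in a coefficient field. -/
theorem mem_coeffField_singleton (q : ℕ) (x : Qb) : x ∈ coeffField q {x} :=
  subset_coeffField q {x} (by simp)

variable (A : ValuationSubring Qb) {q : ℕ}

/-- `FullRes A K'` for every intermediate field containing `K₀`. -/
theorem fullRes_of_le (hq : q.Prime) (hA : A.LiesOverPrime q) {K' : IntermediateField ℚ Qb}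
    (hle : cycloField Qb q ≤ K') :
    ∀ a ∈ A, ∃ a' ∈ K', a' ∈ A ∧ a - a' ∈ A.nonunits := by
  intro a ha
  obtain ⟨a', h1, h2, h3⟩ := fullRes_cycloField A hq hA a ha
  exact ⟨a', hle h1, h2, h3⟩

theorem fullRes_coeffField (hq : q.Prime) (hA : A.LiesOverPrime q) (S : Finset Qb) :
    ∀ a ∈ A, ∃ a' ∈ coeffField q S, a' ∈ A ∧ a - a' ∈ A.nonunits :=
  fullRes_of_le A hq hA (cycloField_le_coeffField q S)

/-- `IsDVRField A K' π'` for every intermediate field `K₀ ≤ K' ≤ K₀ ⊔ ℚ(S)`, `S` finite; moreover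
`v q` is a positive power of `v π'`. -/
theorem exists_uniformizer_of_le (hq : q.Prime) (hA : A.LiesOverPrime q)
    {K' : IntermediateField ℚ Qb} (hle : cycloField Qb q ≤ K') (S : Finset Qb)
    (hK' : K' ≤ coeffField q S) :
    ∃ π' ∈ K', π' ≠ 0 ∧ A.valuation π' < 1 ∧
      (∀ x ∈ K', x ≠ 0 → ∃ n : ℤ, A.valuation x = A.valuation π' ^ n) ∧
      ∃ e : ℕ, 0 < e ∧ A.valuation (q : Qb) = A.valuation π' ^ e := by
  obtain ⟨hqK, hq1, hval⟩ := isDVRField_cycloField A hq hA
  have hq0 : (q : Qb) ≠ 0 := Nat.cast_ne_zero.2 hq.ne_zero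
  have halg : Algebra.IsAlgebraic ℚ Qb := AlgebraicClosure.isAlgebraic ℚ
  obtain ⟨-, π', hπK, hπ0, hπ1, hπ⟩ := dvr_of_intermediate (A := A) (cycloField Qb q) hqK hq0 hq1
    hval (fullRes_cycloField A hq hA) hle S hK'
  refine ⟨π', hπK, hπ0, hπ1, hπ, ?_⟩
  have h1 : DVRField A (cycloField Qb q).toSubfield (q : Qb) := ⟨hqK, hq0, hq1, hval⟩
  have h2 : DVRField A K'.toSubfield π' := ⟨hπK, hπ0, hπ1, hπ⟩
  exact h1.exists_pow_eq h2 (fun x hx => hle hx)

theorem exists_uniformizer_coeffField (hq : q.Prime) (hA : A.LiesOverPrime q) (S : Finset Qb) :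
    ∃ π' ∈ coeffField q S, π' ≠ 0 ∧ A.valuation π' < 1 ∧
      (∀ x ∈ coeffField q S, x ≠ 0 → ∃ n : ℤ, A.valuation x = A.valuation π' ^ n) ∧
      ∃ e : ℕ, 0 < e ∧ A.valuation (q : Qb) = A.valuation π' ^ e :=
  exists_uniformizer_of_le A hq hA (cycloField_le_coeffField q S) S le_rfl

/-- **Cover**: every finite subset of `ℚ̄` lies in an intermediate field `K' ⊇ K₀` with
`FullRes A K'` and a uniformizer. -/
theorem exists_cover (hq : q.Prime) (hA : A.LiesOverPrime q) (S : Finset Qb) :
    ∃ K' : IntermediateField ℚ Qb, cycloField Qb q ≤ K' ∧ (S : Set Qb) ⊆ K' ∧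
      (∀ a ∈ A, ∃ a' ∈ K', a' ∈ A ∧ a - a' ∈ A.nonunits) ∧
      ∃ π' ∈ K', π' ≠ 0 ∧ A.valuation π' < 1 ∧
        (∀ x ∈ K', x ≠ 0 → ∃ n : ℤ, A.valuation x = A.valuation π' ^ n) ∧
        ∃ e : ℕ, 0 < e ∧ A.valuation (q : Qb) = A.valuation π' ^ e :=
  ⟨coeffField q S, cycloField_le_coeffField q S, subset_coeffField q S,
    fullRes_coeffField A hq hA S, exists_uniformizer_coeffField A hq hA S⟩

end Fermat.Agent.BR.UnramCycloTower
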