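import Mathlib
import Fermat.Agent.BR.NodalRed
import Fermat.Prelude.Def_ModularCurve_ArithmeticGalois
import Fermat.Prelude.Def_FLTPrelim_Ramification

/-!
# Program B: from nodal reductions to unipotent inertia on `J₀(N)[p^∞]`

`unipInertia_of_hasNodalReductions` : if for every place `P` of `ℚ̄` over `q` and every `σ` in the
inertia group of `P` the semilinear automorphism of the function field of `X₀(N)` over `ℚ̄` induced
by `σ` has nodal reductions (`BR.Nodal.HasNodalReductions`) with residue field the residue field of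
`P`, then `(σ - 1)² = 0` on the `p`-power torsion of `J₀(N)`, `p ≠ q`
(the statement `BR.UnipInertia N p q` of block B5, unfolded).
-/

set_option autoImplicit false

namespace Fermat.Agent.BR.Nodal

open AlgebraicCurve ModularCurve

/-- a prime `p ≠ q` is invertible in the residue field of a place over `q` -/
theorem natCast_pow_ne_zero_residueField {L : Type*} [Field L]
    (P : ValuationSubring L) {p q : ℕ} (hp : p.Prime) (hq : q.Prime) (hpq : p ≠ q)
    (hP : P.LiesOverPrime q) (n : ℕ) : ((p ^ n : ℕ) : IsLocalRing.ResidueField P) ≠ 0 := by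
  rw [Nat.cast_pow]
  apply pow_ne_zero
  intro h1
  have h2 : IsLocalRing.residue P ((p : ℕ) : P) = 0 := by
    rw [map_natCast]
    exact h1
  rw [IsLocalRing.residue_eq_zero_iff] at h2
  have hq' : ((q : ℕ) : P) ∈ IsLocalRing.maximalIdeal P := by
    rw [IsLocalRing.mem_maximalIdeal, mem_nonunits_iff]
    intro hu
    have : ((q : ℕ) : L) ∈ P.nonunits := hP
    rw [ValuationSubring.mem_nonunits_iff_exists_mem_maximalIdeal] at this
    obtain ⟨hqP, hqm⟩ := this
    rw [IsLocalRing.mem_maximalIdeal, mem_nonunits_iff] at hqm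
    apply hqm
    have e : (⟨((q : ℕ) : L), hqP⟩ : P) = ((q : ℕ) : P) := Subtype.ext (by simp)
    rw [e]
    exact hu
  have hcop : Nat.Coprime p q := (Nat.coprime_primes hp hq).mpr hpq
  have hone : (1 : P) ∈ IsLocalRing.maximalIdeal P := by
    have hb := Nat.Coprime.gcd_eq_one hcop
    have hbez : ((Nat.gcd p q : ℕ) : ℤ) = p * Nat.gcdA p q + q * Nat.gcdB p q :=
      Nat.gcd_eq_gcd_ab p q
    rw [hb] at hbez
    have h3 : (1 : P) = ((p : ℕ) : P) * ((Nat.gcdA p q : ℤ) : P) +
        ((q : ℕ) : P) * ((Nat.gcdB p q : ℤ) : P) := by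
      have := congrArg (fun z : ℤ => (z : P)) hbez
      simpa using this
    rw [h3]
    exact Ideal.add_mem _ (Ideal.mul_mem_right _ _ h2) (Ideal.mul_mem_right _ _ hq')
  exact (IsLocalRing.maximalIdeal P).ne_top_iff_one.mp
    (IsLocalRing.maximalIdeal.isMaximal P).ne_top hone

/-- **From nodal reductions to unipotent inertia** (the statement `BR.UnipInertia N p q` of block
B5, unfolded). -/
theorem unipInertia_of_hasNodalReductions (N p q : ℕ) [NeZero N] (hp : p.Prime) (hq : q.Prime)
    (hpq : p ≠ q)
    (h : ∀ P : ValuationSubring (AlgebraicClosure ℚ), P.LiesOverPrime q →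
      ∀ σ ∈ P.inertiaSubgroupIn ℚ,
        HasNodalReductions (IsLocalRing.ResidueField P)
          (arithmeticGalois (modularFunctionFieldFull N) σ)) :
    ∀ P : ValuationSubring (AlgebraicClosure ℚ), P.LiesOverPrime q →
      ∀ σ ∈ P.inertiaSubgroupIn ℚ, ∀ x : JZero N, (∃ n : ℕ, p ^ n • x = 0) →
        σ • (σ • x - x) = σ • x - x := by
  intro P hP σ hσ x ⟨n, hx⟩
  exact smul_smul_sub_eq_of_hasNodalReductions (h P hP σ hσ)
    (natCast_pow_ne_zero_residueField P hp hq hpq hP n) x hx

end Fermat.Agent.BR.Nodal
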