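import Fermat.Agent.BR.LevelTransfer
import Fermat.Agent.BR.NodalUnipInertia

/-!
# Program B, block B5: the frozen statement S34 from the geometric main theorem

`HasNodalReductionsAux` is the exact geometric statement the blocks B1–B4, B6, B7 have to prove:
for every `M ≥ 1` and every prime `q ∤ M` there is an auxiliary factor `ℓ ≥ 1` (in the plan: a prime
`ℓ ≡ 11 mod 12` not dividing `q M`, so that `X₀(M ℓ)` has no elliptic points) such that every element
of every inertia group over `q` has nodal reductions on the function field of `X₀(M ℓ q)` over `ℚ̄`.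

* `unipInertiaWeak_of_hasNodalReductionsAux` : `HasNodalReductionsAux` implies
  `UnipInertiaWeak N p q` for all `q ∥ N`, `p ≠ q`;
* `s34_of_hasNodalReductionsAux` : the frozen conclusion of S34.

The final `Fermat/Agent/S34.lean` is `s34_of_hasNodalReductionsAux hp hp𝒪 hpS hNS H q hq hqp hqN hq2`
applied to the proof of `HasNodalReductionsAux`.
-/

set_option autoImplicit false
set_option linter.style.haveILetI false
set_option linter.unusedSectionVars false

namespace Fermat.Agent.BR.S34Final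

open AlgebraicCurve ModularCurve CuspForm

local notation "Qb" => AlgebraicClosure ℚ

/-- **The geometric main theorem of Program B**, as a proposition. -/
def HasNodalReductionsAux : Prop :=
  ∀ M q : ℕ, 0 < M → q.Prime → ¬ q ∣ M → ∃ ℓ : ℕ, 0 < ℓ ∧
    ∀ P : ValuationSubring Qb, P.LiesOverPrime q → ∀ σ ∈ P.inertiaSubgroupIn ℚ,
      Nodal.HasNodalReductions (IsLocalRing.ResidueField P)
        (arithmeticGalois (modularFunctionFieldFull (M * ℓ * q)) σ)

/-- The special case without auxiliary level (`ℓ = 1`). -/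
def HasNodalReductionsAll : Prop :=
  ∀ M q : ℕ, 0 < M → q.Prime → ¬ q ∣ M →
    ∀ P : ValuationSubring Qb, P.LiesOverPrime q → ∀ σ ∈ P.inertiaSubgroupIn ℚ,
      Nodal.HasNodalReductions (IsLocalRing.ResidueField P)
        (arithmeticGalois (modularFunctionFieldFull (M * q)) σ)

theorem hasNodalReductionsAux_of_all (h : HasNodalReductionsAll) : HasNodalReductionsAux := by
  intro M q hM hq hqM
  refine ⟨1, one_pos, ?_⟩
  rw [mul_one]
  exact h M q hM hq hqM

/-- Unipotent inertia (weak form) at every prime `q ∥ N`, `q ≠ p`, from the geometric main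
theorem. -/
theorem unipInertiaWeak_of_hasNodalReductionsAux (h : HasNodalReductionsAux)
    {N p q : ℕ} [NeZero N] (hp : p.Prime) (hq : q.Prime) (hqp : q ≠ p) (hqN : q ∣ N)
    (hq2 : ¬ q ^ 2 ∣ N) : UnipInertiaWeak N p q := by
  obtain ⟨M, rfl⟩ := hqN
  -- `N = q * M`
  have hM : 0 < M := by
    rcases Nat.eq_zero_or_pos M with h0 | h0
    · exact absurd (by rw [h0, mul_zero]) (NeZero.ne (q * M))
    · exact h0
  have hqM : ¬ q ∣ M := by
    rintro ⟨c, rfl⟩
    exact hq2 ⟨c, by ring⟩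
  obtain ⟨ℓ, hℓ, hgeo⟩ := h M q hM hq hqM
  haveI : NeZero M := ⟨hM.ne'⟩
  haveI : NeZero ℓ := ⟨hℓ.ne'⟩
  haveI : NeZero q := ⟨hq.ne_zero⟩
  have hU : UnipInertia (M * ℓ * q) p q :=
    Nodal.unipInertia_of_hasNodalReductions (M * ℓ * q) p q hp hq hqp.symm hgeo
  have h1 : UnipInertiaWeak (M * q) p q :=
    LevelTransfer.unipInertiaWeak_of_aux (unipInertiaWeak_of_unipInertia hU)
  exact (LevelTransfer.unipInertiaWeak_congr (mul_comm M q)).mp h1

section S34

variable {p : ℕ} {N : ℕ} [NeZero N] {S : Finset ℕ}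
  {𝒪 : Type} [CommRing 𝒪] [IsDomain 𝒪] [IsDiscreteValuationRing 𝒪]
  [IsAdicComplete (IsLocalRing.maximalIdeal 𝒪) 𝒪] [CharZero 𝒪]
  {θ : CuspForm.heckeAlgebra N 2 (↑S : Set ℕ) →+* IsLocalRing.ResidueField 𝒪}
  {T : Type} [CommRing T] [IsLocalRing T] [IsNoetherianRing T]
  [IsAdicComplete (IsLocalRing.maximalIdeal T) T] [Algebra 𝒪 T] [IsLocalHom (algebraMap 𝒪 T)]
  [Module.Finite 𝒪 T] [Module.Free 𝒪 T]

/-- **S34 (frozen conclusion) from the geometric main theorem of Program B.** -/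
theorem s34_of_hasNodalReductionsAux (h : HasNodalReductionsAux) (hp : p.Prime)
    (hp𝒪 : (p : 𝒪) ∈ IsLocalRing.maximalIdeal 𝒪) (hpS : p ∈ S)
    (hNS : ∀ q : ℕ, q.Prime → q ∣ N → q ∈ S)
    (H : CuspForm.HeckeGaloisRepDatum N (↑S : Set ℕ) 𝒪 θ T)
    (q : ℕ) (hq : q.Prime) (hqp : q ≠ p) (hqN : q ∣ N) (hq2 : ¬ q ^ 2 ∣ N) :
    H.ρ.IsUnipotentOnInertiaAt q :=
  S34TransferWeak.s34_of_unipInertia_weak hp hp𝒪 hpS hNS H q hq hqp
    (unipInertiaWeak_of_hasNodalReductionsAux h hp hq hqp hqN hq2)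

end S34

end Fermat.Agent.BR.S34Final
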