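import Fermat.Agent.BR.GenusNodeCount

/-!
# Program B (BADRED), node B2.GENUS (part 2): levels without elliptic points, auxiliary primes

Complements `BR/GenusNodeCount.lean` for the genus-hypothesis argument of finding #597:

* `nodeCount_of_no_elliptic` : if `ν₂(M) = ν₃(M) = 0` then `nodeCount q M = (q-1) ψ(M) / 12`;
* `nuTwo_mul_prime_eq_zero`, `nuThree_mul_prime_eq_zero` : multiplying the level by a prime
  `ℓ ≡ 3 mod 4` (resp. `ℓ ≡ 2 mod 3`) not dividing it kills `ν₂` (resp. `ν₃`);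
* `exists_aux_prime` : Dirichlet: a prime `ℓ ≡ 11 mod 12` not dividing a given nonzero `n`;
* `exists_aux_level` : for every `q`, `M`, `p` there is a prime `ℓ ≡ 11 mod 12`, `ℓ ∤ q M p`, with
  `ν₂(Mℓ) = ν₃(Mℓ) = 0` and `nodeCount q (Mℓ) = (q-1)(ℓ+1) ψ(M) / 12`;
* `genusFormula_prime_mul_of_no_elliptic` : the genus identity at such a level.
-/

set_option autoImplicit false

namespace Fermat.Agent.BR.GenusCount

open ModularCurve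

theorem nodeCount_of_no_elliptic (q : ℕ) {M : ℕ} (h2 : nuTwo M = 0) (h3 : nuThree M = 0) :
    nodeCount q M = ((q : ℚ) - 1) * (dedekindPsi M : ℚ) / 12 := by
  unfold nodeCount
  rw [h2, h3]
  push_cast
  ring

theorem twelve_mul_nodeCount_of_no_elliptic (q : ℕ) {M : ℕ} (h2 : nuTwo M = 0)
    (h3 : nuThree M = 0) : 12 * nodeCount q M = ((q : ℚ) - 1) * (dedekindPsi M : ℚ) := by
  rw [nodeCount_of_no_elliptic q h2 h3]
  ring

theorem nuTwo_prime_eq_zero {ℓ : ℕ} (hℓ : ℓ.Prime) (h : ℓ % 4 = 3) : nuTwo ℓ = 0 := by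
  rw [nuTwo_prime hℓ, if_neg (by omega), if_neg (by omega)]

theorem nuThree_prime_eq_zero {ℓ : ℕ} (hℓ : ℓ.Prime) (h : ℓ % 3 = 2) : nuThree ℓ = 0 := by
  rw [nuThree_prime hℓ, if_neg (by omega), if_neg (by omega)]

theorem nuTwo_mul_prime_eq_zero {M ℓ : ℕ} (hℓ : ℓ.Prime) (hℓM : ¬ ℓ ∣ M) (h : ℓ % 4 = 3) :
    nuTwo (M * ℓ) = 0 := by
  have hcop : M.Coprime ℓ := ((Nat.Prime.coprime_iff_not_dvd hℓ).mpr hℓM).symm
  rw [nuTwo_mul_of_coprime hcop, nuTwo_prime_eq_zero hℓ h, mul_zero]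

theorem nuThree_mul_prime_eq_zero {M ℓ : ℕ} (hℓ : ℓ.Prime) (hℓM : ¬ ℓ ∣ M) (h : ℓ % 3 = 2) :
    nuThree (M * ℓ) = 0 := by
  have hcop : M.Coprime ℓ := ((Nat.Prime.coprime_iff_not_dvd hℓ).mpr hℓM).symm
  rw [nuThree_mul_of_coprime hcop, nuThree_prime_eq_zero hℓ h, mul_zero]

/-- **Dirichlet**: a prime `ℓ ≡ 11 mod 12` larger than `n`. -/
theorem exists_aux_prime_gt (n : ℕ) : ∃ ℓ : ℕ, n < ℓ ∧ ℓ.Prime ∧ ℓ % 12 = 11 := by
  obtain ⟨ℓ, hgt, hℓ, hmod⟩ :=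
    Nat.forall_exists_prime_gt_and_modEq n (q := 12) (a := 11) (by norm_num) (by norm_num)
  exact ⟨ℓ, hgt, hℓ, hmod⟩

/-- A prime `ℓ ≡ 11 mod 12` not dividing the nonzero number `n`. -/
theorem exists_aux_prime {n : ℕ} (hn : n ≠ 0) : ∃ ℓ : ℕ, ℓ.Prime ∧ ℓ % 12 = 11 ∧ ¬ ℓ ∣ n := by
  obtain ⟨ℓ, hgt, hℓ, hmod⟩ := exists_aux_prime_gt n
  exact ⟨ℓ, hℓ, hmod, fun h => absurd (Nat.le_of_dvd (Nat.pos_of_ne_zero hn) h) (not_le.mpr hgt)⟩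

/-- **Auxiliary level.** For `q`, `M`, `p` nonzero there is a prime `ℓ ≡ 11 mod 12` not dividing
`q M p` such that `X₀(Mℓ)` has no elliptic points; then the node count at level `q · Mℓ` is
`(q-1)(ℓ+1) ψ(M) / 12`. -/
theorem exists_aux_level {q M p : ℕ} (hq : q ≠ 0) (hM : M ≠ 0) (hp : p ≠ 0) :
    ∃ ℓ : ℕ, ℓ.Prime ∧ ℓ % 12 = 11 ∧ ¬ ℓ ∣ q ∧ ¬ ℓ ∣ M ∧ ¬ ℓ ∣ p ∧
      nuTwo (M * ℓ) = 0 ∧ nuThree (M * ℓ) = 0 ∧
      nodeCount q (M * ℓ) = ((q : ℚ) - 1) * (((ℓ : ℚ) + 1) * (dedekindPsi M : ℚ)) / 12 := by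
  obtain ⟨ℓ, hℓ, hmod, hnd⟩ := exists_aux_prime (mul_ne_zero (mul_ne_zero hq hM) hp)
  have hℓq : ¬ ℓ ∣ q := fun h => hnd ((h.mul_right M).mul_right p)
  have hℓM : ¬ ℓ ∣ M := fun h => hnd ((h.mul_left q).mul_right p)
  have hℓp : ¬ ℓ ∣ p := fun h => hnd (h.mul_left (q * M))
  have h2 := nuTwo_mul_prime_eq_zero hℓ hℓM (by omega)
  have h3 := nuThree_mul_prime_eq_zero hℓ hℓM (by omega)
  refine ⟨ℓ, hℓ, hmod, hℓq, hℓM, hℓp, h2, h3, ?_⟩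
  rw [nodeCount_of_no_elliptic q h2 h3, mul_comm M ℓ, dedekindPsi_prime_mul hℓ hℓM]
  push_cast
  ring

/-- The genus identity at a level without elliptic points. -/
theorem genusFormula_prime_mul_of_no_elliptic {q M : ℕ} (hq : q.Prime) (hM : 0 < M)
    (hqM : ¬ q ∣ M) (h2 : nuTwo M = 0) (h3 : nuThree M = 0) :
    genusFormula (q * M) = 2 * genusFormula M - 1 + ((q : ℚ) - 1) * (dedekindPsi M : ℚ) / 12 := by
  rw [genusFormula_prime_mul hq hM hqM, nodeCount_of_no_elliptic q h2 h3]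

end Fermat.Agent.BR.GenusCount
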