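import Mathlib
import Fermat.Prelude.Def_ModularCurve_GenusNumerics

/-!
# Program B (BADRED), node B2.GENUS: genus bookkeeping for `X₀(qM)` versus `X₀(M)`

Pure arithmetic of the Prelude numerics (`ModularCurve.genusFormula`, `dedekindPsi`, `nuTwo`,
`nuThree`, `cuspCount`).  For a prime `q ∤ M`:

* `dedekindPsi_prime_mul`, `nuTwo_mul_of_coprime`, `nuThree_mul_of_coprime`,
  `cuspCount_prime_mul` : multiplicativity;
* `nuTwo_prime`, `nuThree_prime` : the values at a prime;
* `nodeCount q M` : the number of supersingular points of `X₀(M)` in characteristic `q`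
  (= number of nodes of the special fibre of `X₀(qM)` at `q`);
* `genusFormula_prime_mul` : `g(qM) = 2 g(M) - 1 + nodeCount q M`, i.e. the genus of `X₀(qM)` is
  the arithmetic genus of two copies of `X₀(M)` crossing at `nodeCount q M` points;
* `nodeCount_eq_weighted` : the weighted form of the count (mass formula as a hypothesis).
-/

set_option autoImplicit false
set_option linter.style.haveILetI false

namespace Fermat.Agent.BR.GenusCount

open ModularCurve

/-! ### `dedekindPsi` -/

section Psi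

open ArithmeticFunction

/-- The indicator function of squarefree numbers. -/
def sqfIndicator : ArithmeticFunction ℕ :=
  ⟨fun d => if Squarefree d then 1 else 0, by simp⟩

theorem sqfIndicator_apply (d : ℕ) : sqfIndicator d = if Squarefree d then 1 else 0 := rfl

theorem isMultiplicative_sqfIndicator : IsMultiplicative sqfIndicator := by
  refine ⟨by simp [sqfIndicator_apply], ?_⟩
  intro m n hmn
  simp only [sqfIndicator_apply, Nat.squarefree_mul hmn]
  by_cases h1 : Squarefree m <;> by_cases h2 : Squarefree n <;> simp [h1, h2]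

theorem dedekindPsi_eq_conv (N : ℕ) :
    dedekindPsi N = (sqfIndicator * ArithmeticFunction.id) N := by
  rw [ArithmeticFunction.mul_apply,
    Nat.sum_divisorsAntidiagonal (fun a b => sqfIndicator a * ArithmeticFunction.id b),
    dedekindPsi, Finset.sum_filter]
  refine Finset.sum_congr rfl fun d _ => ?_
  by_cases h : Squarefree d <;> simp [sqfIndicator_apply, h]

theorem dedekindPsi_mul_of_coprime {m n : ℕ} (hmn : m.Coprime n) :
    dedekindPsi (m * n) = dedekindPsi m * dedekindPsi n := by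
  rw [dedekindPsi_eq_conv, dedekindPsi_eq_conv, dedekindPsi_eq_conv]
  exact (isMultiplicative_sqfIndicator.mul isMultiplicative_id).map_mul_of_coprime hmn

theorem dedekindPsi_prime {q : ℕ} (hq : q.Prime) : dedekindPsi q = q + 1 := by
  have hset : q.divisors.filter Squarefree = {1, q} := by
    rw [hq.divisors]
    ext d
    simp only [Finset.mem_filter, Finset.mem_insert, Finset.mem_singleton]
    constructor
    · exact fun h => h.1
    · rintro (rfl | rfl)
      · exact ⟨Or.inl rfl, squarefree_one⟩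
      · exact ⟨Or.inr rfl, hq.squarefree⟩
  rw [dedekindPsi, hset, Finset.sum_pair hq.one_lt.ne, Nat.div_one, Nat.div_self hq.pos]

theorem dedekindPsi_prime_mul {q M : ℕ} (hq : q.Prime) (hqM : ¬ q ∣ M) :
    dedekindPsi (q * M) = (q + 1) * dedekindPsi M := by
  have hcop : q.Coprime M := (Nat.Prime.coprime_iff_not_dvd hq).mpr hqM
  rw [dedekindPsi_mul_of_coprime hcop, dedekindPsi_prime hq]

end Psi

/-! ### `nuTwo`, `nuThree`: multiplicativity -/

section Nu

/-- Evaluation of an integer polynomial at an element of a commutative ring. -/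
noncomputable def evalInt {R : Type*} [CommRing R] (p : Polynomial ℤ) (x : R) : R :=
  Polynomial.eval₂ (Int.castRingHom R) x p

theorem map_evalInt {R S : Type*} [CommRing R] [CommRing S] (f : R →+* S) (p : Polynomial ℤ)
    (x : R) : f (evalInt p x) = evalInt p (f x) := by
  unfold evalInt
  rw [Polynomial.hom_eval₂]
  congr 1
  exact RingHom.ext_int _ _

/-- Solutions of a polynomial equation in a product ring. -/
theorem card_prod_solutions {R S : Type*} [CommRing R] [CommRing S] (p : Polynomial ℤ) :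
    Nat.card {z : R × S // evalInt p z = 0} =
      Nat.card {x : R // evalInt p x = 0} * Nat.card {y : S // evalInt p y = 0} := by
  rw [← Nat.card_prod]
  have h1 : ∀ z : R × S, (evalInt p z).1 = evalInt p z.1 := fun z =>
    map_evalInt (RingHom.fst R S) p z
  have h2 : ∀ z : R × S, (evalInt p z).2 = evalInt p z.2 := fun z =>
    map_evalInt (RingHom.snd R S) p z
  refine Nat.card_congr ⟨fun z => (⟨z.1.1, ?_⟩, ⟨z.1.2, ?_⟩), fun w => ⟨(w.1.1, w.2.1), ?_⟩, ?_, ?_⟩
  · rw [← h1, z.2]; rfl
  · rw [← h2, z.2]; rfl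
  · exact Prod.ext (by rw [h1]; exact w.1.2) (by rw [h2]; exact w.2.2)
  · intro z
    rfl
  · intro w
    rfl

theorem card_solutions_congr {R S : Type*} [CommRing R] [CommRing S] (e : R ≃+* S)
    (p : Polynomial ℤ) :
    Nat.card {x : R // evalInt p x = 0} = Nat.card {y : S // evalInt p y = 0} := by
  have key : ∀ x : R, evalInt p (e x) = e (evalInt p x) := fun x =>
    (map_evalInt e.toRingHom p x).symm
  refine Nat.card_congr ⟨fun x => ⟨e x.1, ?_⟩, fun y => ⟨e.symm y.1, ?_⟩, ?_, ?_⟩
  · rw [key, x.2, map_zero]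
  · apply e.injective
    rw [← key, e.apply_symm_apply, y.2, map_zero]
  · intro x
    exact Subtype.ext (e.symm_apply_apply _)
  · intro y
    exact Subtype.ext (e.apply_symm_apply _)

theorem card_solutions_zmod_mul {m n : ℕ} (h : m.Coprime n) (p : Polynomial ℤ) :
    Nat.card {x : ZMod (m * n) // evalInt p x = 0} =
      Nat.card {x : ZMod m // evalInt p x = 0} * Nat.card {x : ZMod n // evalInt p x = 0} := by
  rw [card_solutions_congr (ZMod.chineseRemainder h) p, card_prod_solutions]

open Polynomial in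
theorem nuTwo_eq_evalInt (N : ℕ) :
    nuTwo N = Nat.card {x : ZMod N // evalInt (X ^ 2 + 1 : Polynomial ℤ) x = 0} := by
  rw [nuTwo]
  refine Nat.card_congr (Equiv.subtypeEquivRight fun x => ?_)
  simp [evalInt]

open Polynomial in
theorem nuThree_eq_evalInt (N : ℕ) :
    nuThree N = Nat.card {x : ZMod N // evalInt (X ^ 2 + X + 1 : Polynomial ℤ) x = 0} := by
  rw [nuThree]
  refine Nat.card_congr (Equiv.subtypeEquivRight fun x => ?_)
  simp [evalInt]

theorem nuTwo_mul_of_coprime {m n : ℕ} (h : m.Coprime n) : nuTwo (m * n) = nuTwo m * nuTwo n := by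
  rw [nuTwo_eq_evalInt, nuTwo_eq_evalInt, nuTwo_eq_evalInt, card_solutions_zmod_mul h]

theorem nuThree_mul_of_coprime {m n : ℕ} (h : m.Coprime n) :
    nuThree (m * n) = nuThree m * nuThree n := by
  rw [nuThree_eq_evalInt, nuThree_eq_evalInt, nuThree_eq_evalInt, card_solutions_zmod_mul h]

end Nu

/-! ### `cuspCount` -/

section Cusps

theorem divisors_prime_mul {q M : ℕ} (hq : q.Prime) (hM : 0 < M) :
    (q * M).divisors = M.divisors ∪ M.divisors.image (fun d => q * d) := by
  ext d
  simp only [Nat.mem_divisors, Finset.mem_union, Finset.mem_image]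
  constructor
  · rintro ⟨hd, -⟩
    by_cases hqd : q ∣ d
    · obtain ⟨d', rfl⟩ := hqd
      right
      exact ⟨d', ⟨Nat.dvd_of_mul_dvd_mul_left hq.pos hd, hM.ne'⟩, rfl⟩
    · left
      have hcop : d.Coprime q := ((Nat.Prime.coprime_iff_not_dvd hq).mpr hqd).symm
      exact ⟨hcop.dvd_of_dvd_mul_left hd, hM.ne'⟩
  · rintro (⟨hd, -⟩ | ⟨d', ⟨hd', -⟩, rfl⟩)
    · exact ⟨hd.mul_left q, mul_ne_zero hq.ne_zero hM.ne'⟩
    · exact ⟨Nat.mul_dvd_mul_left q hd', mul_ne_zero hq.ne_zero hM.ne'⟩

theorem disjoint_divisors_image {q M : ℕ} (hqM : ¬ q ∣ M) :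
    Disjoint M.divisors (M.divisors.image (fun d => q * d)) := by
  rw [Finset.disjoint_left]
  intro d hd hd'
  obtain ⟨d', -, rfl⟩ := Finset.mem_image.mp hd'
  exact hqM ((dvd_mul_right q d').trans (Nat.dvd_of_mem_divisors hd))

theorem cuspCount_prime_mul {q M : ℕ} (hq : q.Prime) (hM : 0 < M) (hqM : ¬ q ∣ M) :
    cuspCount (q * M) = 2 * cuspCount M := by
  unfold cuspCount
  rw [divisors_prime_mul hq hM, Finset.sum_union (disjoint_divisors_image hqM),
    Finset.sum_image (fun a _ b _ h => Nat.eq_of_mul_eq_mul_left hq.pos h), two_mul]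
  congr 1
  · refine Finset.sum_congr rfl fun d hd => ?_
    have hdM : d ∣ M := Nat.dvd_of_mem_divisors hd
    have hqd : ¬ q ∣ d := fun h => hqM (h.trans hdM)
    have hcop : q.Coprime d := (Nat.Prime.coprime_iff_not_dvd hq).mpr hqd
    rw [Nat.mul_div_assoc q hdM, Nat.Coprime.gcd_mul_left_cancel_right _ hcop]
  · refine Finset.sum_congr rfl fun d hd => ?_
    have hdM : d ∣ M := Nat.dvd_of_mem_divisors hd
    have hqMd : ¬ q ∣ M / d := fun h => hqM (h.trans (Nat.div_dvd_of_dvd hdM))
    have hcop : q.Coprime (M / d) := (Nat.Prime.coprime_iff_not_dvd hq).mpr hqMd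
    rw [Nat.mul_div_mul_left _ _ hq.pos, Nat.Coprime.gcd_mul_left_cancel _ hcop]

end Cusps

/-! ### `nuTwo`, `nuThree` at a prime -/

section NuPrime

/-- A monic quadratic over a field with a root `ω` whose conjugate root `-b - ω` is different has
exactly two roots. -/
theorem card_quadratic_roots {k : Type*} [Field k] (b c ω : k) (hω : ω ^ 2 + b * ω + c = 0)
    (hne : ω ≠ -b - ω) : Nat.card {x : k // x ^ 2 + b * x + c = 0} = 2 := by
  have hω' : (-b - ω) ^ 2 + b * (-b - ω) + c = 0 := by linear_combination hω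
  rw [Nat.card_eq_two_iff]
  refine ⟨⟨ω, hω⟩, ⟨-b - ω, hω'⟩, fun h => hne (congrArg Subtype.val h), ?_⟩
  rw [Set.eq_univ_iff_forall]
  rintro ⟨x, hx⟩
  have hfac : (x - ω) * (x - (-b - ω)) = 0 := by linear_combination hx - hω
  rcases mul_eq_zero.mp hfac with h | h
  · left
    exact Subtype.ext (sub_eq_zero.mp h)
  · right
    exact Subtype.ext (sub_eq_zero.mp h)

theorem nuTwo_two : nuTwo 2 = 1 := by
  rw [nuTwo, Nat.card_eq_fintype_card]
  decide

theorem nuThree_two : nuThree 2 = 0 := by
  rw [nuThree, Nat.card_eq_fintype_card]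
  decide

theorem nuThree_three : nuThree 3 = 1 := by
  rw [nuThree, Nat.card_eq_fintype_card]
  decide

theorem nuTwo_prime {q : ℕ} (hq : q.Prime) :
    nuTwo q = if q = 2 then 1 else if q % 4 = 1 then 2 else 0 := by
  haveI : Fact q.Prime := ⟨hq⟩
  by_cases h2 : q = 2
  · subst h2
    rw [if_pos rfl, nuTwo_two]
  rw [if_neg h2]
  have hodd : q % 2 = 1 := (hq.eq_two_or_odd).resolve_left h2
  have h2ne : (2 : ZMod q) ≠ 0 := by
    intro h
    have : (q : ℕ) ∣ 2 := (ZMod.natCast_eq_zero_iff 2 q).mp (by exact_mod_cast h)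
    exact h2 ((Nat.prime_dvd_prime_iff_eq hq Nat.prime_two).mp this)
  by_cases h4 : q % 4 = 1
  · rw [if_pos h4]
    obtain ⟨i, hi⟩ := (ZMod.exists_sq_eq_neg_one_iff (p := q)).mpr (by omega)
    have hi2 : i ^ 2 + 0 * i + 1 = 0 := by rw [pow_two, ← hi]; ring
    have hi0 : i ≠ 0 := by
      rintro rfl
      rw [mul_zero] at hi
      exact one_ne_zero (neg_eq_zero.mp hi)
    have hne : i ≠ -0 - i := by
      intro h
      have : 2 * i = 0 := by linear_combination h
      rcases mul_eq_zero.mp this with h | h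
      · exact h2ne h
      · exact hi0 h
    have := card_quadratic_roots (0 : ZMod q) 1 i hi2 hne
    rw [nuTwo]
    refine Eq.trans (Nat.card_congr (Equiv.subtypeEquivRight fun x => ?_)) this
    rw [zero_mul, add_zero]
  · rw [if_neg h4]
    have h43 : q % 4 = 3 := by omega
    rw [nuTwo]
    haveI : IsEmpty {x : ZMod q // x ^ 2 + 1 = 0} := by
      refine ⟨fun x => ?_⟩
      have hx : x.1 ^ 2 = -1 := by linear_combination x.2
      exact ZMod.mod_four_ne_three_of_sq_eq_neg_one hx h43
    exact Nat.card_of_isEmpty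

theorem nuThree_prime {q : ℕ} (hq : q.Prime) :
    nuThree q = if q = 3 then 1 else if q % 3 = 1 then 2 else 0 := by
  haveI : Fact q.Prime := ⟨hq⟩
  by_cases h3 : q = 3
  · subst h3
    rw [if_pos rfl, nuThree_three]
  rw [if_neg h3]
  have h3ne : (3 : ZMod q) ≠ 0 := by
    intro h
    have : (q : ℕ) ∣ 3 := (ZMod.natCast_eq_zero_iff 3 q).mp (by exact_mod_cast h)
    exact h3 ((Nat.prime_dvd_prime_iff_eq hq Nat.prime_three).mp this)
  -- a root of `x² + x + 1` has order three
  have hord : ∀ x : ZMod q, x ^ 2 + x + 1 = 0 → orderOf x = 3 := by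
    intro x hx
    haveI : Fact (Nat.Prime 3) := ⟨Nat.prime_three⟩
    refine orderOf_eq_prime (by linear_combination (x - 1) * hx) ?_
    rintro rfl
    apply h3ne
    linear_combination hx
  by_cases hq3 : q % 3 = 1
  · rw [if_pos hq3]
    haveI : Fact (Nat.Prime 3) := ⟨Nat.prime_three⟩
    have hcard : 3 ∣ Fintype.card (ZMod q)ˣ := by
      rw [ZMod.card_units]
      have := hq.two_le
      omega
    obtain ⟨u, hu⟩ := exists_prime_orderOf_dvd_card 3 hcard
    have hu3 : (u : ZMod q) ^ 3 = 1 := by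
      have h := congrArg Units.val (pow_orderOf_eq_one u)
      rw [hu, Units.val_pow_eq_pow_val, Units.val_one] at h
      exact h
    have hu1 : (u : ZMod q) ≠ 1 := by
      intro h
      have : u = 1 := Units.ext h
      rw [this, orderOf_one] at hu
      omega
    have hω : (u : ZMod q) ^ 2 + 1 * (u : ZMod q) + 1 = 0 := by
      have h : ((u : ZMod q) - 1) * ((u : ZMod q) ^ 2 + 1 * (u : ZMod q) + 1) = 0 := by
        linear_combination hu3
      exact (mul_eq_zero.mp h).resolve_left (sub_ne_zero.mpr hu1)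
    have hne : (u : ZMod q) ≠ -1 - (u : ZMod q) := by
      intro h
      apply h3ne
      have h2 : 2 * (u : ZMod q) + 1 = 0 := by linear_combination h
      linear_combination 4 * hω - (2 * (u : ZMod q) + 1) * h2
    have := card_quadratic_roots (1 : ZMod q) 1 (u : ZMod q) hω hne
    rw [nuThree]
    refine Eq.trans (Nat.card_congr (Equiv.subtypeEquivRight fun x => ?_)) this
    rw [one_mul]
  · rw [if_neg hq3]
    rw [nuThree]
    haveI : IsEmpty {x : ZMod q // x ^ 2 + x + 1 = 0} := by
      refine ⟨fun x => ?_⟩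
      have ho := hord x.1 x.2
      have hx0 : x.1 ≠ 0 := by
        intro h
        have := x.2
        rw [h] at this
        simp at this
      have hdvd : orderOf x.1 ∣ q - 1 :=
        orderOf_dvd_of_pow_eq_one (ZMod.pow_card_sub_one_eq_one hx0)
      rw [ho] at hdvd
      have := hq.two_le
      have hq0 : q % 3 ≠ 0 := by
        intro h0
        exact h3 ((Nat.prime_dvd_prime_iff_eq Nat.prime_three hq).mp
          (Nat.dvd_of_mod_eq_zero h0)).symm
      omega
    exact Nat.card_of_isEmpty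

end NuPrime

/-! ### The genus identity -/

section Genus

/-- The number of supersingular points of `X₀(M)` in characteristic `q` (`q ∤ M`), i.e. the number
of nodes of the special fibre of `X₀(qM)` at `q`. -/
noncomputable def nodeCount (q M : ℕ) : ℚ :=
  ((q : ℚ) - 1) * (dedekindPsi M : ℚ) / 12 + (nuTwo M : ℚ) * (2 - (nuTwo q : ℚ)) / 4 +
    (nuThree M : ℚ) * (2 - (nuThree q : ℚ)) / 3

/-- **Genus bookkeeping.** `g(X₀(qM)) = 2 g(X₀(M)) - 1 + #nodes`: the genus of `X₀(qM)` is the
arithmetic genus of two copies of `X₀(M)` crossing at `nodeCount q M` points. -/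
theorem genusFormula_prime_mul {q M : ℕ} (hq : q.Prime) (hM : 0 < M) (hqM : ¬ q ∣ M) :
    genusFormula (q * M) = 2 * genusFormula M - 1 + nodeCount q M := by
  have hcop : q.Coprime M := (Nat.Prime.coprime_iff_not_dvd hq).mpr hqM
  unfold genusFormula nodeCount
  rw [dedekindPsi_prime_mul hq hqM, nuTwo_mul_of_coprime hcop, nuThree_mul_of_coprime hcop,
    cuspCount_prime_mul hq hM hqM]
  push_cast
  ring

theorem genusFormula_one : genusFormula 1 = 0 := by
  have h2 : nuTwo 1 = 1 := by
    rw [nuTwo, Nat.card_eq_fintype_card]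
    decide
  have h3 : nuThree 1 = 1 := by
    rw [nuThree, Nat.card_eq_fintype_card]
    decide
  rw [genusFormula, dedekindPsi_one, h2, h3, cuspCount_one]
  norm_num

/-- `M = 1`: the number of supersingular `j`-invariants in characteristic `q` is
`g(X₀(q)) + 1`. -/
theorem nodeCount_one {q : ℕ} (hq : q.Prime) : nodeCount q 1 = genusFormula q + 1 := by
  have h := genusFormula_prime_mul hq one_pos (by simpa using hq.one_lt.ne')
  rw [mul_one, genusFormula_one] at h
  rw [h]
  ring

theorem twelve_mul_nodeCount (q M : ℕ) :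
    12 * nodeCount q M = ((q : ℚ) - 1) * (dedekindPsi M : ℚ) +
      3 * (nuTwo M : ℚ) * (2 - (nuTwo q : ℚ)) + 4 * (nuThree M : ℚ) * (2 - (nuThree q : ℚ)) := by
  unfold nodeCount
  ring

/-- `1` if `j = 1728` is supersingular in characteristic `q ≥ 5`, else `0`. -/
def eps2 (q : ℕ) : ℕ := if q % 4 = 3 then 1 else 0

/-- `1` if `j = 0` is supersingular in characteristic `q ≥ 5`, else `0`. -/
def eps3 (q : ℕ) : ℕ := if q % 3 = 2 then 1 else 0

theorem nuTwo_prime_of_five_le {q : ℕ} (hq : q.Prime) (h5 : 5 ≤ q) :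
    (nuTwo q : ℚ) = 2 - 2 * (eps2 q : ℚ) := by
  have hodd : q % 2 = 1 := (hq.eq_two_or_odd).resolve_left (by omega)
  rw [nuTwo_prime hq, if_neg (by omega), eps2]
  by_cases h : q % 4 = 1
  · rw [if_pos h, if_neg (by omega)]
    norm_num
  · rw [if_neg h, if_pos (by omega)]
    norm_num

theorem nuThree_prime_of_five_le {q : ℕ} (hq : q.Prime) (h5 : 5 ≤ q) :
    (nuThree q : ℚ) = 2 - 2 * (eps3 q : ℚ) := by
  have h0 : q % 3 ≠ 0 := by
    intro h0
    have := (Nat.prime_dvd_prime_iff_eq Nat.prime_three hq).mp (Nat.dvd_of_mod_eq_zero h0)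
    omega
  rw [nuThree_prime hq, if_neg (by omega), eps3]
  by_cases h : q % 3 = 1
  · rw [if_pos h, if_neg (by omega)]
    norm_num
  · rw [if_neg h, if_pos (by omega)]
    norm_num

/-- **Weighted form of the node count** (`q ≥ 5`): if `n` is the number of supersingular
`j ≠ 0, 1728` (Eichler–Deuring mass formula `n + ε₂/2 + ε₃/3 = (q-1)/12` as a hypothesis), then
`nodeCount q M = n ψ(M) + ε₂ (ψ(M) + ν₂(M))/2 + ε₃ (ψ(M) + 2 ν₃(M))/3`: the fibres of
`X₀(M) → X(1)` over a generic `j`, over `1728` and over `0` have `ψ`, `(ψ + ν₂)/2` and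
`(ψ + 2ν₃)/3` points. -/
theorem nodeCount_eq_weighted {q M : ℕ} (hq : q.Prime) (h5 : 5 ≤ q) (n : ℚ)
    (hn : n + (eps2 q : ℚ) / 2 + (eps3 q : ℚ) / 3 = ((q : ℚ) - 1) / 12) :
    nodeCount q M = n * (dedekindPsi M : ℚ) +
      (eps2 q : ℚ) * ((dedekindPsi M : ℚ) + (nuTwo M : ℚ)) / 2 +
      (eps3 q : ℚ) * ((dedekindPsi M : ℚ) + 2 * (nuThree M : ℚ)) / 3 := by
  unfold nodeCount
  rw [nuTwo_prime_of_five_le hq h5, nuThree_prime_of_five_le hq h5]
  have hn' : n = ((q : ℚ) - 1) / 12 - (eps2 q : ℚ) / 2 - (eps3 q : ℚ) / 3 := by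
    linear_combination hn
  rw [hn']
  ring

/-- The number of supersingular `j ≠ 0, 1728` in characteristic `q ≥ 5` is `⌊q / 12⌋`. -/
theorem mass_formula_floor {q : ℕ} (hq : q.Prime) (h5 : 5 ≤ q) :
    ((q / 12 : ℕ) : ℚ) + (eps2 q : ℚ) / 2 + (eps3 q : ℚ) / 3 = ((q : ℚ) - 1) / 12 := by
  have hodd : q % 2 = 1 := (hq.eq_two_or_odd).resolve_left (by omega)
  have h0 : q % 3 ≠ 0 := by
    intro h0
    have := (Nat.prime_dvd_prime_iff_eq Nat.prime_three hq).mp (Nat.dvd_of_mod_eq_zero h0)
    omega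
  have hq12 : (q : ℚ) = 12 * ((q / 12 : ℕ) : ℚ) + ((q % 12 : ℕ) : ℚ) := by
    exact_mod_cast (Nat.div_add_mod q 12).symm
  have hcases : q % 12 = 1 ∨ q % 12 = 5 ∨ q % 12 = 7 ∨ q % 12 = 11 := by omega
  unfold eps2 eps3
  rcases hcases with h | h | h | h
  · rw [if_neg (by omega), if_neg (by omega), hq12, h]
    push_cast
    ring
  · rw [if_neg (by omega), if_pos (by omega), hq12, h]
    push_cast
    ring
  · rw [if_pos (by omega), if_neg (by omega), hq12, h]
    push_cast
    ring
  · rw [if_pos (by omega), if_pos (by omega), hq12, h]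
    push_cast
    ring

theorem nodeCount_two (M : ℕ) :
    nodeCount 2 M = (dedekindPsi M : ℚ) / 12 + (nuTwo M : ℚ) / 4 + 2 * (nuThree M : ℚ) / 3 := by
  unfold nodeCount
  rw [nuTwo_two, nuThree_two]
  push_cast
  ring

theorem nodeCount_three (M : ℕ) :
    nodeCount 3 M = (dedekindPsi M : ℚ) / 6 + (nuTwo M : ℚ) / 2 + (nuThree M : ℚ) / 3 := by
  have h2 : nuTwo 3 = 0 := by
    rw [nuTwo, Nat.card_eq_fintype_card]
    decide
  unfold nodeCount
  rw [h2, nuThree_three]
  push_cast
  ring

end Genus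

end Fermat.Agent.BR.GenusCount
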