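import Fermat.Agent.Hecke.AtkinLehner
import Fermat.Agent.Val.GaussBar
import Fermat.Agent.Val.GaussGalois
import Fermat.Agent.ES.LaurentFrob

/-!
# Program B (bad reduction), block B1, node W2: the second valuation `w₂ := w₁ ∘ W_q` of `F̄_{Mq}`

`q` a prime, `q ∤ M`, `B` a valuation subring of `ℚ̄` over `q`, `k` its residue field.

* `valOne` : `w₁`, the Gauss valuation subring of `Fb (M * q)` (`q`-expansion at `∞`,
  `Val/GaussBar.lean`); `resOne` its residue map into `k((q))`;
* `valTwo` : `w₂ := w₁ ∘ W_q`, `W_q` the Atkin–Lehner involution (`Hecke/AtkinLehner.lean`);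
  `resTwo` its residue map into `k((q))`;
* both restrict to the level `M` Gauss valuation along `α` and along `β`, with residues
  `resOne (α x) = x̄`, `resOne (β x) = V x̄`, `resTwo (α x) = V x̄`, `resTwo (β x) = x̄`
  (`V = qExpand k q`), i.e. Kronecker's congruence on the two components;
* `valOne_ne_valTwo`; constants; compatibility with the decomposition and inertia groups.
-/

set_option autoImplicit false
set_option linter.style.haveILetI false
set_option linter.unusedSectionVars false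

noncomputable section

namespace Fermat.Agent.BR.ValTwo

open ModularCurve AlgebraicCurve HahnSeries Fermat.Agent.X0 Fermat.Agent.Val Fermat.Agent.Hecke.AL

/-! ## `qExpand` and the Gauss ring -/

section General

variable {L : Type*} [Field L] (A : ValuationSubring L) {k : Type*} [Field k] (π : A →+* k)
variable (n : ℕ) [NeZero n]

theorem aIota_qExpand (a : LaurentSeries A) :
    aIota A (qExpand A n a) = qExpand L n (aIota A a) :=
  coeffMap_qExpand A.subtype n a

theorem aRed_qExpand (a : LaurentSeries A) :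
    aRed π (qExpand A n a) = qExpand k n (aRed π a) :=
  coeffMap_qExpand π n a

theorem qExpand_ne_zero {R : Type*} [CommRing R] {x : LaurentSeries R} (hx : x ≠ 0) :
    qExpand R n x ≠ 0 := fun h => hx (qExpand_injective (N := n) (by rw [h, map_zero]))

theorem qExpand_mem_gaussRingA {x : LaurentSeries L} (hx : x ∈ gaussRingA A π) :
    qExpand L n x ∈ gaussRingA A π := by
  obtain ⟨a, b, hb, hab⟩ := hx
  refine ⟨qExpand A n a, qExpand A n b, ?_, ?_⟩
  · rw [aRed_qExpand]; exact qExpand_ne_zero n hb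
  · rw [aIota_qExpand, aIota_qExpand, ← map_mul, hab]

theorem gaussResA_qExpand (x : gaussRingA A π) :
    gaussResA A π ⟨qExpand L n (x : LaurentSeries L), qExpand_mem_gaussRingA A π n x.2⟩ =
      qExpand k n (gaussResA A π x) := by
  obtain ⟨a, b, hb, hab⟩ := x.2
  have hb' : aRed π (qExpand A n b) ≠ 0 := by
    rw [aRed_qExpand]; exact qExpand_ne_zero n hb
  rw [gaussResA_eq A π _ hb' (a := qExpand A n a)
      (by rw [aIota_qExpand, aIota_qExpand, ← map_mul, hab]),
    gaussResA_eq A π x hb hab, aRed_qExpand, aRed_qExpand, map_div₀]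

theorem gaussResA_congr {x y : LaurentSeries L} (h : x = y) (hx : x ∈ gaussRingA A π)
    (hy : y ∈ gaussRingA A π) : gaussResA A π ⟨x, hx⟩ = gaussResA A π ⟨y, hy⟩ := by
  subst h; rfl

variable {A π} in
theorem hasContent_qExpand {x : LaurentSeries L} {c : L} (h : HasContent A π x c) :
    HasContent A π (qExpand L n x) c := by
  obtain ⟨hc, a, b, ha, hb, hab⟩ := h
  refine ⟨hc, qExpand A n a, qExpand A n b, ?_, ?_, ?_⟩
  · rw [aRed_qExpand]; exact qExpand_ne_zero n ha
  · rw [aRed_qExpand]; exact qExpand_ne_zero n hb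
  · rw [aIota_qExpand, aIota_qExpand, ← map_mul, hab, map_mul, qExpand_C]

end General

/-! ## The two valuations -/

section Two

variable {M q : ℕ} [NeZero M] [NeZero q] (hq : q.Prime) (hcop : Nat.Coprime q M)
variable (B : ValuationSubring Kb) (hB : B.LiesOverPrime q)

/-- the residue field of `B` -/
abbrev kB : Type := IsLocalRing.ResidueField B

variable (M) in
/-- The level `M` Gauss valuation subring. -/
abbrev valM : ValuationSubring (Fb M) := gaussValQbar B M hq.ne_zero hB

variable (M) in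
/-- Its residue map into `k((q))`. -/
abbrev resM : valM M hq B hB →+* LaurentSeries (kB B) := gaussResQbar B M hq.ne_zero hB

variable (M) in
/-- **`w₁`**: the Gauss valuation subring of `F̄_{Mq}` (`q`-expansion at `∞`). -/
abbrev valOne : ValuationSubring (Fb (M * q)) := gaussValQbar B (M * q) hq.ne_zero hB

variable (M) in
/-- The residue map of `w₁` into `k((q))`. -/
abbrev resOne : valOne M hq B hB →+* LaurentSeries (kB B) :=
  gaussResQbar B (M * q) hq.ne_zero hB

/-- the Atkin–Lehner involution `W_q` as a ring homomorphism -/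
abbrev wq : Fb (M * q) →+* Fb (M * q) := (atkinLehner hq hcop : Fb (M * q) ≃ₐ[Kb] Fb (M * q))

theorem wq_apply (x : Fb (M * q)) : wq hq hcop x = atkinLehner hq hcop x := rfl

theorem wq_wq (x : Fb (M * q)) : wq hq hcop (wq hq hcop x) = x :=
  atkinLehner_atkinLehner hq hcop x

/-- **`w₂ := w₁ ∘ W_q`**, the second valuation subring of `F̄_{Mq}` over `B`. -/
def valTwo : ValuationSubring (Fb (M * q)) := (valOne M hq B hB).comap (wq hq hcop)

theorem mem_valTwo_iff {x : Fb (M * q)} :
    x ∈ valTwo hq hcop B hB ↔ atkinLehner hq hcop x ∈ valOne M hq B hB := Iff.rfl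

theorem atkinLehner_mem_valTwo_iff {x : Fb (M * q)} :
    atkinLehner hq hcop x ∈ valTwo hq hcop B hB ↔ x ∈ valOne M hq B hB := by
  rw [mem_valTwo_iff, atkinLehner_atkinLehner]

/-- `W_q` restricted to `w₂ → w₁`. -/
def wqRestrict : valTwo hq hcop B hB →+* valOne M hq B hB where
  toFun x := ⟨atkinLehner hq hcop (x : Fb (M * q)), x.2⟩
  map_one' := Subtype.ext (map_one _)
  map_mul' _ _ := Subtype.ext (map_mul _ _ _)
  map_zero' := Subtype.ext (map_zero _)
  map_add' _ _ := Subtype.ext (map_add _ _ _)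

@[simp]
theorem coe_wqRestrict (x : valTwo hq hcop B hB) :
    ((wqRestrict hq hcop B hB x : valOne M hq B hB) : Fb (M * q)) =
      atkinLehner hq hcop (x : Fb (M * q)) := rfl

/-- **The residue map of `w₂`** into `k((q))`: the `q`-expansion of `W_q x` reduced mod `𝔪_B`. -/
def resTwo : valTwo hq hcop B hB →+* LaurentSeries (kB B) :=
  (resOne M hq B hB).comp (wqRestrict hq hcop B hB)

theorem resTwo_apply (x : valTwo hq hcop B hB) :
    resTwo hq hcop B hB x = resOne M hq B hB ⟨atkinLehner hq hcop (x : Fb (M * q)), x.2⟩ :=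
  rfl

/-! ### Membership in terms of `q`-expansions -/

theorem mem_valM_iff {x : Fb M} :
    x ∈ valM M hq B hB ↔ (x : LaurentSeries Kb) ∈ gaussRingA B (IsLocalRing.residue B) := Iff.rfl

theorem mem_valOne_iff {x : Fb (M * q)} :
    x ∈ valOne M hq B hB ↔ (x : LaurentSeries Kb) ∈ gaussRingA B (IsLocalRing.residue B) :=
  Iff.rfl

theorem resM_mk (x : Fb M) (hx : x ∈ valM M hq B hB) :
    resM M hq B hB ⟨x, hx⟩ =
      gaussResA B (IsLocalRing.residue B) ⟨(x : LaurentSeries Kb), hx⟩ :=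
  rfl

theorem resOne_mk (x : Fb (M * q)) (hx : x ∈ valOne M hq B hB) :
    resOne M hq B hB ⟨x, hx⟩ =
      gaussResA B (IsLocalRing.residue B) ⟨(x : LaurentSeries Kb), hx⟩ :=
  rfl

include hq hB in
/-- every nonzero element of `F̄_N` has content -/
theorem exists_hasContent (N : ℕ) [NeZero N] {x : Fb N} (hx : x ≠ 0) :
    ∃ c, HasContent B (IsLocalRing.residue B) (x : LaurentSeries Kb) c :=
  haveI := algebraIsAlgebraic_rat_algebraicClosure
  hasContent_of_mem_bar B (IsLocalRing.residue B) N hq.ne_zero hB x.2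
    (fun h => hx (Subtype.ext h))

/-! ### Restriction along `α` and `β` -/

/-- `w₁ ∘ α` is the level `M` Gauss valuation. -/
theorem alpha_mem_valOne_iff (x : Fb M) :
    heckeAlphaBar Kb M q x ∈ valOne M hq B hB ↔ x ∈ valM M hq B hB := by
  rw [mem_valOne_iff, mem_valM_iff, coe_heckeAlphaBar]

/-- `w₁ ∘ β` is the level `M` Gauss valuation. -/
theorem beta_mem_valOne_iff (x : Fb M) :
    heckeBetaBar Kb M q x ∈ valOne M hq B hB ↔ x ∈ valM M hq B hB := by
  rw [mem_valOne_iff, mem_valM_iff, coe_heckeBetaBar]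
  refine ⟨fun h => ?_, fun h => qExpand_mem_gaussRingA B _ q h⟩
  by_cases hx : x = 0
  · rw [hx]; exact Subring.zero_mem _
  obtain ⟨c, hc⟩ := exists_hasContent hq B hB M hx
  have hπ := residue_eq_zero_of_mem_maximalIdeal B
  rw [hc.mem_gaussRingA_iff hπ]
  exact ((hasContent_qExpand q hc).mem_gaussRingA_iff hπ).mp h

/-- `w₂ ∘ α` is the level `M` Gauss valuation. -/
theorem alpha_mem_valTwo_iff (x : Fb M) :
    heckeAlphaBar Kb M q x ∈ valTwo hq hcop B hB ↔ x ∈ valM M hq B hB := by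
  rw [mem_valTwo_iff, atkinLehner_alpha, beta_mem_valOne_iff]

/-- `w₂ ∘ β` is the level `M` Gauss valuation. -/
theorem beta_mem_valTwo_iff (x : Fb M) :
    heckeBetaBar Kb M q x ∈ valTwo hq hcop B hB ↔ x ∈ valM M hq B hB := by
  rw [mem_valTwo_iff, atkinLehner_beta, alpha_mem_valOne_iff]

/-! ### Residues along `α` and `β` -/

/-- `resOne (α x) = x̄`. -/
theorem resOne_alpha (x : valM M hq B hB) :
    resOne M hq B hB ⟨heckeAlphaBar Kb M q (x : Fb M),
        (alpha_mem_valOne_iff hq B hB (x : Fb M)).mpr x.2⟩ =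
      resM M hq B hB x :=
  (resOne_mk hq B hB _ _).trans
    ((gaussResA_congr B _ (coe_heckeAlphaBar M q (x : Fb M)) _ x.2).trans
      (resM_mk hq B hB (x : Fb M) x.2).symm)

/-- `resOne (β x) = V x̄`. -/
theorem resOne_beta (x : valM M hq B hB) :
    resOne M hq B hB ⟨heckeBetaBar Kb M q (x : Fb M),
        (beta_mem_valOne_iff hq B hB (x : Fb M)).mpr x.2⟩ =
      qExpand (kB B) q (resM M hq B hB x) :=
  (resOne_mk hq B hB _ _).trans
    ((gaussResA_congr B _ (coe_heckeBetaBar M q (x : Fb M)) _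
        (qExpand_mem_gaussRingA B _ q x.2)).trans
      ((gaussResA_qExpand B _ q ⟨((x : Fb M) : LaurentSeries Kb), x.2⟩).trans
        (congrArg (qExpand (kB B) q) (resM_mk hq B hB (x : Fb M) x.2).symm)))

/-- `resTwo (α x) = V x̄`. -/
theorem resTwo_alpha (x : valM M hq B hB) :
    resTwo hq hcop B hB ⟨heckeAlphaBar Kb M q (x : Fb M),
        (alpha_mem_valTwo_iff hq hcop B hB (x : Fb M)).mpr x.2⟩ =
      qExpand (kB B) q (resM M hq B hB x) :=
  (congrArg (resOne M hq B hB) (Subtype.ext (atkinLehner_alpha hq hcop (x : Fb M)))).trans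
    (resOne_beta hq B hB x)

/-- `resTwo (β x) = x̄`. -/
theorem resTwo_beta (x : valM M hq B hB) :
    resTwo hq hcop B hB ⟨heckeBetaBar Kb M q (x : Fb M),
        (beta_mem_valTwo_iff hq hcop B hB (x : Fb M)).mpr x.2⟩ =
      resM M hq B hB x :=
  (congrArg (resOne M hq B hB) (Subtype.ext (atkinLehner_beta hq hcop (x : Fb M)))).trans
    (resOne_alpha hq B hB x)

/-! ### Units and kernels -/

theorem isUnit_iff_resOne_ne_zero (x : valOne M hq B hB) :
    IsUnit x ↔ resOne M hq B hB x ≠ 0 :=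
  haveI := algebraIsAlgebraic_rat_algebraicClosure
  isUnit_iff_gaussResBar_ne_zero B (IsLocalRing.residue B) (M * q) hq.ne_zero hB x

theorem resOne_eq_zero_iff (x : valOne M hq B hB) :
    resOne M hq B hB x = 0 ↔ x ∈ IsLocalRing.maximalIdeal (valOne M hq B hB) :=
  haveI := algebraIsAlgebraic_rat_algebraicClosure
  gaussResBar_eq_zero_iff B (IsLocalRing.residue B) (M * q) hq.ne_zero hB x

/-- `W_q` restricted to `w₁ → w₂` (the inverse of `wqRestrict`). -/
def wqRestrictInv : valOne M hq B hB →+* valTwo hq hcop B hB where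
  toFun x := ⟨atkinLehner hq hcop (x : Fb (M * q)),
    (atkinLehner_mem_valTwo_iff hq hcop B hB).mpr x.2⟩
  map_one' := Subtype.ext (map_one _)
  map_mul' _ _ := Subtype.ext (map_mul _ _ _)
  map_zero' := Subtype.ext (map_zero _)
  map_add' _ _ := Subtype.ext (map_add _ _ _)

theorem wqRestrict_wqRestrictInv (x : valOne M hq B hB) :
    wqRestrict hq hcop B hB (wqRestrictInv hq hcop B hB x) = x :=
  Subtype.ext (atkinLehner_atkinLehner hq hcop _)

theorem wqRestrictInv_wqRestrict (x : valTwo hq hcop B hB) :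
    wqRestrictInv hq hcop B hB (wqRestrict hq hcop B hB x) = x :=
  Subtype.ext (atkinLehner_atkinLehner hq hcop _)

/-- `W_q : w₂ ≃ w₁` as a ring isomorphism. -/
def wqEquiv : valTwo hq hcop B hB ≃+* valOne M hq B hB :=
  RingEquiv.ofRingHom (wqRestrict hq hcop B hB) (wqRestrictInv hq hcop B hB)
    (RingHom.ext (wqRestrict_wqRestrictInv hq hcop B hB))
    (RingHom.ext (wqRestrictInv_wqRestrict hq hcop B hB))

theorem isUnit_iff_resTwo_ne_zero (x : valTwo hq hcop B hB) :
    IsUnit x ↔ resTwo hq hcop B hB x ≠ 0 := by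
  rw [resTwo, RingHom.comp_apply, ← isUnit_iff_resOne_ne_zero]
  exact (isUnit_map_iff (wqEquiv hq hcop B hB) x).symm

theorem resTwo_eq_zero_iff (x : valTwo hq hcop B hB) :
    resTwo hq hcop B hB x = 0 ↔ x ∈ IsLocalRing.maximalIdeal (valTwo hq hcop B hB) := by
  rw [IsLocalRing.mem_maximalIdeal, mem_nonunits_iff, isUnit_iff_resTwo_ne_zero, not_not]

theorem ker_resTwo :
    RingHom.ker (resTwo hq hcop B hB) = IsLocalRing.maximalIdeal (valTwo hq hcop B hB) := by
  ext x
  rw [RingHom.mem_ker, resTwo_eq_zero_iff]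

/-! ### `w₁ ≠ w₂` -/

/-- the function `j` at level `M` -/
abbrev jM : Fb M := jBarD M 1 (one_dvd M)

include hq hB in
theorem jM_mem : jM (M := M) ∈ valM M hq B hB := by
  haveI := algebraIsAlgebraic_rat_algebraicClosure
  obtain ⟨hmem, h, -⟩ := gaussResBar_jqN B (IsLocalRing.residue B) M hq.ne_zero hB (one_dvd M)
  have e : (⟨jqNModC Kb 1, hmem⟩ : Fb M) = jM := Subtype.ext (coeffEmb_jqN 1).symm
  rw [← e]
  exact h

theorem resM_jM :
    resM M hq B hB ⟨jM, jM_mem hq B hB⟩ = jqModC (kB B) := by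
  haveI := algebraIsAlgebraic_rat_algebraicClosure
  obtain ⟨hmem, h, hres⟩ := gaussResBar_jqN B (IsLocalRing.residue B) M hq.ne_zero hB (one_dvd M)
  have e : (⟨jqNModC Kb 1, hmem⟩ : Fb M) = jM := Subtype.ext (coeffEmb_jqN 1).symm
  rw [← jqNModC_one, ← hres]
  exact congrArg (resM M hq B hB) (Subtype.ext e.symm)

variable (M q) in
/-- **Kronecker's element** `j(q^q) - j(q)^q = β j - (α j)^q` of `F̄_{Mq}`. -/
def kron : Fb (M * q) := heckeBetaBar Kb M q jM - (heckeAlphaBar Kb M q jM) ^ q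

theorem kron_mem_valOne : kron M q ∈ valOne M hq B hB :=
  sub_mem ((beta_mem_valOne_iff hq B hB _).mpr (jM_mem hq B hB))
    (pow_mem ((alpha_mem_valOne_iff hq B hB _).mpr (jM_mem hq B hB)) q)

theorem kron_mem_valTwo : kron M q ∈ valTwo hq hcop B hB :=
  sub_mem ((beta_mem_valTwo_iff hq hcop B hB _).mpr (jM_mem hq B hB))
    (pow_mem ((alpha_mem_valTwo_iff hq hcop B hB _).mpr (jM_mem hq B hB)) q)

include hq hB in
/-- `j̄(q^q) = j̄(q)^q` in `k((q))`. -/
theorem qExpand_jqModC_eq_pow :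
    qExpand (kB B) q (jqModC (kB B)) = (jqModC (kB B)) ^ q := by
  haveI : Fact q.Prime := ⟨hq⟩
  haveI := charP_residueField_of_liesOverPrime B hB
  rw [Fermat.Agent.ES.pow_char_eq_qExpand_coeffMap_frobenius q (jqModC (kB B)), coeffMap_jqModC]

/-- **Kronecker on `Z₁`**: `β j ≡ (α j)^q` for `w₁`. -/
theorem resOne_kron : resOne M hq B hB ⟨kron M q, kron_mem_valOne hq B hB⟩ = 0 := by
  have e : (⟨kron M q, kron_mem_valOne hq B hB⟩ : valOne M hq B hB) =
      ⟨heckeBetaBar Kb M q jM, (beta_mem_valOne_iff hq B hB _).mpr (jM_mem hq B hB)⟩ -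
        ⟨heckeAlphaBar Kb M q jM, (alpha_mem_valOne_iff hq B hB _).mpr (jM_mem hq B hB)⟩ ^ q :=
    Subtype.ext rfl
  rw [e, map_sub, map_pow, resOne_beta hq B hB ⟨jM, jM_mem hq B hB⟩,
    resOne_alpha hq B hB ⟨jM, jM_mem hq B hB⟩, resM_jM, qExpand_jqModC_eq_pow hq B hB, sub_self]

/-- **Kronecker on `Z₂`**: `β j - (α j)^q` reduces to `j̄ - j̄^{q²}` for `w₂`. -/
theorem resTwo_kron :
    resTwo hq hcop B hB ⟨kron M q, kron_mem_valTwo hq hcop B hB⟩ =
      jqModC (kB B) - (jqModC (kB B)) ^ (q * q) := by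
  have e : (⟨kron M q, kron_mem_valTwo hq hcop B hB⟩ : valTwo hq hcop B hB) =
      ⟨heckeBetaBar Kb M q jM, (beta_mem_valTwo_iff hq hcop B hB _).mpr (jM_mem hq B hB)⟩ -
        ⟨heckeAlphaBar Kb M q jM,
          (alpha_mem_valTwo_iff hq hcop B hB _).mpr (jM_mem hq B hB)⟩ ^ q :=
    Subtype.ext rfl
  rw [e, map_sub, map_pow, resTwo_beta hq hcop B hB ⟨jM, jM_mem hq B hB⟩,
    resTwo_alpha hq hcop B hB ⟨jM, jM_mem hq B hB⟩, resM_jM, qExpand_jqModC_eq_pow hq B hB,
    ← pow_mul]

theorem resTwo_kron_ne_zero :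
    resTwo hq hcop B hB ⟨kron M q, kron_mem_valTwo hq hcop B hB⟩ ≠ 0 := by
  rw [resTwo_kron, pow_mul, ← qExpand_jqModC_eq_pow hq B hB, ← map_pow]
  intro h
  have h1 := congrArg (fun s : LaurentSeries (kB B) => s.coeff (-1)) h
  simp only [HahnSeries.coeff_sub, HahnSeries.coeff_zero] at h1
  rw [coeff_jqModC_neg_one, qExpand_coeff_of_not_dvd, sub_zero] at h1
  · exact one_ne_zero h1
  · intro hdvd
    have h2 : (q : ℤ) ∣ 1 := (dvd_neg.mp hdvd)
    have h3 : q ∣ 1 := Int.natCast_dvd_natCast.mp (by simpa using h2)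
    exact hq.one_lt.ne' (Nat.dvd_one.mp h3)

/-- **`w₁ ≠ w₂`**: Kronecker's element lies in the maximal ideal of `w₁` and is a unit of `w₂`. -/
theorem valOne_ne_valTwo : valOne M hq B hB ≠ valTwo hq hcop B hB := by
  intro heq
  have hu : IsUnit (⟨kron M q, kron_mem_valTwo hq hcop B hB⟩ : valTwo hq hcop B hB) :=
    (isUnit_iff_resTwo_ne_zero hq hcop B hB _).mpr (resTwo_kron_ne_zero hq hcop B hB)
  obtain ⟨u, hu⟩ := hu
  have hinv : (kron M q)⁻¹ ∈ valTwo hq hcop B hB := by
    have h1 : ((u⁻¹ : (valTwo hq hcop B hB)ˣ) : valTwo hq hcop B hB).1 * kron M q = 1 := by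
      have h2 : ((u⁻¹ : (valTwo hq hcop B hB)ˣ) : valTwo hq hcop B hB) * (u : valTwo hq hcop B hB) = 1 :=
        Units.inv_mul u
      rw [hu] at h2
      exact congrArg Subtype.val h2
    rw [← eq_inv_of_mul_eq_one_left h1]
    exact Subtype.mem _
  rw [← heq] at hinv
  have hmax : (⟨kron M q, kron_mem_valOne hq B hB⟩ : valOne M hq B hB) ∈
      IsLocalRing.maximalIdeal (valOne M hq B hB) :=
    (resOne_eq_zero_iff hq B hB _).mp (resOne_kron hq B hB)
  have hk0 : kron M q ≠ 0 := by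
    intro h0
    apply resTwo_kron_ne_zero hq hcop B hB
    have : (⟨kron M q, kron_mem_valTwo hq hcop B hB⟩ : valTwo hq hcop B hB) = 0 :=
      Subtype.ext h0
    rw [this, map_zero]
  apply (IsLocalRing.mem_maximalIdeal _).mp hmax
  refine IsUnit.of_mul_eq_one (⟨(kron M q)⁻¹, hinv⟩ : valOne M hq B hB) (Subtype.ext ?_)
  exact mul_inv_cancel₀ hk0

/-! ### Kronecker's congruence on the two components, general form -/

/-- **Kronecker on `Z₁`**: `σ(res₁(β x)) = res₁(α x)^q`, `σ` the coefficientwise Frobenius. -/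
theorem frobenius_resOne_beta (x : valM M hq B hB) :
    haveI : Fact q.Prime := ⟨hq⟩
    haveI := charP_residueField_of_liesOverPrime B hB
    coeffMap (frobenius (kB B) q)
        (resOne M hq B hB ⟨heckeBetaBar Kb M q (x : Fb M),
          (beta_mem_valOne_iff hq B hB (x : Fb M)).mpr x.2⟩) =
      (resOne M hq B hB ⟨heckeAlphaBar Kb M q (x : Fb M),
        (alpha_mem_valOne_iff hq B hB (x : Fb M)).mpr x.2⟩) ^ q := by
  haveI : Fact q.Prime := ⟨hq⟩
  haveI := charP_residueField_of_liesOverPrime B hB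
  rw [resOne_beta, resOne_alpha, coeffMap_qExpand,
    Fermat.Agent.ES.pow_char_eq_qExpand_coeffMap_frobenius q]

/-- **Kronecker on `Z₂`**: `σ(res₂(α x)) = res₂(β x)^q`, `σ` the coefficientwise Frobenius. -/
theorem frobenius_resTwo_alpha (x : valM M hq B hB) :
    haveI : Fact q.Prime := ⟨hq⟩
    haveI := charP_residueField_of_liesOverPrime B hB
    coeffMap (frobenius (kB B) q)
        (resTwo hq hcop B hB ⟨heckeAlphaBar Kb M q (x : Fb M),
          (alpha_mem_valTwo_iff hq hcop B hB (x : Fb M)).mpr x.2⟩) =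
      (resTwo hq hcop B hB ⟨heckeBetaBar Kb M q (x : Fb M),
        (beta_mem_valTwo_iff hq hcop B hB (x : Fb M)).mpr x.2⟩) ^ q := by
  haveI : Fact q.Prime := ⟨hq⟩
  haveI := charP_residueField_of_liesOverPrime B hB
  rw [resTwo_beta, resTwo_alpha, coeffMap_qExpand,
    Fermat.Agent.ES.pow_char_eq_qExpand_coeffMap_frobenius q]

/-! ### Constants -/

include hq hB in
theorem algebraMap_mem_gauss_iff (N : ℕ) [NeZero N] (c : Kb) :
    algebraMap Kb (Fb N) c ∈ gaussValQbar B N hq.ne_zero hB ↔ c ∈ B := by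
  show (algebraMap Kb (LaurentSeries Kb) c) ∈ gaussRingA B (IsLocalRing.residue B) ↔ c ∈ B
  rw [algebraMap_laurentSeries_eq_single, ← HahnSeries.C_apply]
  by_cases hc : c = 0
  · rw [hc, map_zero]
    exact ⟨fun _ => B.zero_mem, fun _ => Subring.zero_mem _⟩
  · exact (hasContent_C B (IsLocalRing.residue B) hc).mem_gaussRingA_iff
      (residue_eq_zero_of_mem_maximalIdeal B)

/-- `w₁` extends `B`. -/
theorem algebraMap_mem_valOne_iff (c : Kb) :
    algebraMap Kb (Fb (M * q)) c ∈ valOne M hq B hB ↔ c ∈ B :=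
  algebraMap_mem_gauss_iff hq B hB (M * q) c

/-- `w₂` extends `B`. -/
theorem algebraMap_mem_valTwo_iff (c : Kb) :
    algebraMap Kb (Fb (M * q)) c ∈ valTwo hq hcop B hB ↔ c ∈ B := by
  rw [mem_valTwo_iff, AlgEquiv.commutes, algebraMap_mem_valOne_iff]

theorem comap_algebraMap_valOne :
    (valOne M hq B hB).comap (algebraMap Kb (Fb (M * q))) = B := by
  ext c
  exact algebraMap_mem_valOne_iff hq B hB c

theorem comap_algebraMap_valTwo :
    (valTwo hq hcop B hB).comap (algebraMap Kb (Fb (M * q))) = B := by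
  ext c
  exact algebraMap_mem_valTwo_iff hq hcop B hB c

/-- the residue of a constant for `w₁` -/
theorem resOne_algebraMap (a : B) :
    resOne M hq B hB ⟨algebraMap Kb (Fb (M * q)) (a : Kb),
        (algebraMap_mem_valOne_iff hq B hB _).mpr a.2⟩ =
      HahnSeries.C (IsLocalRing.residue B a) := by
  haveI := algebraIsAlgebraic_rat_algebraicClosure
  obtain ⟨h, hres⟩ := gaussResBar_algebraMap B (IsLocalRing.residue B) (M * q) hq.ne_zero hB a
  exact hres

/-- the residue of a constant for `w₂` -/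
theorem resTwo_algebraMap (a : B) :
    resTwo hq hcop B hB ⟨algebraMap Kb (Fb (M * q)) (a : Kb),
        (algebraMap_mem_valTwo_iff hq hcop B hB _).mpr a.2⟩ =
      HahnSeries.C (IsLocalRing.residue B a) := by
  rw [← resOne_algebraMap (M := M) hq B hB a, resTwo_apply]
  exact congrArg (resOne M hq B hB) (Subtype.ext (AlgEquiv.commutes _ _))

/-! ### Galois: `W_q` is defined over `ℚ` -/

/-- the coefficientwise Galois action on `F̄_N` -/
abbrev gal (N : ℕ) (σ : Kb ≃ₐ[ℚ] Kb) : SemilinearAut Kb (Fb N) :=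
  arithmeticGalois (modularFunctionFieldFull N) σ

theorem gal_smul_jBarD (N d : ℕ) [NeZero d] (hd : d ∣ N) (σ : Kb ≃ₐ[ℚ] Kb) :
    gal N σ • jBarD N d hd = jBarD N d hd :=
  Subtype.ext (by
    rw [coe_arithmeticGalois_smul, coe_jBarD]
    exact coeffMap_coeffEmb σ _)

theorem gal_smul_gen (σ : Kb ≃ₐ[ℚ] Kb) (i : Idx M) :
    gal (M * q) σ • gen M q i = gen M q i :=
  gal_smul_jBarD _ _ _ σ

/-- `W_q` commutes with the Galois action on `Rb`. -/
theorem atkinLehner_gal_smul_of_mem_Rb (σ : Kb ≃ₐ[ℚ] Kb) {r : Fb (M * q)}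
    (hr : r ∈ Rb (M * q)) :
    atkinLehner hq hcop (gal (M * q) σ • r) = gal (M * q) σ • atkinLehner hq hcop r := by
  unfold Rb at hr
  induction hr using Algebra.adjoin_induction with
  | mem x hx =>
    obtain ⟨i, rfl⟩ := genSetB_subset_range M q hq hx
    rw [gal_smul_gen, atkinLehner_gen, gal_smul_gen]
  | algebraMap c =>
    rw [SemilinearAut.smul_algebraMap, AlgEquiv.commutes, AlgEquiv.commutes,
      SemilinearAut.smul_algebraMap]
  | add x y _ _ hx hy => rw [smul_add, map_add, map_add, smul_add, hx, hy]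
  | mul x y _ _ hx hy => rw [smul_mul', map_mul, map_mul, smul_mul', hx, hy]

/-- **`W_q` is defined over `ℚ`**: it commutes with the coefficientwise Galois action. -/
theorem atkinLehner_gal_smul (σ : Kb ≃ₐ[ℚ] Kb) (x : Fb (M * q)) :
    atkinLehner hq hcop (gal (M * q) σ • x) = gal (M * q) σ • atkinLehner hq hcop x := by
  obtain ⟨g, h, -, rfl⟩ := exists_Rb_div (M * q) x
  rw [smul_div₀', map_div₀, map_div₀, smul_div₀',
    atkinLehner_gal_smul_of_mem_Rb hq hcop σ g.2, atkinLehner_gal_smul_of_mem_Rb hq hcop σ h.2]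

variable {σ : Kb ≃ₐ[ℚ] Kb}

/-- The decomposition group of `B` preserves `w₂`. -/
theorem gal_smul_mem_valTwo_iff (hσ : σ ∈ B.decompositionSubgroup ℚ) {x : Fb (M * q)} :
    gal (M * q) σ • x ∈ valTwo hq hcop B hB ↔ x ∈ valTwo hq hcop B hB := by
  rw [mem_valTwo_iff, mem_valTwo_iff, atkinLehner_gal_smul]
  exact smul_mem_gaussValQbar_iff (M * q) hq.ne_zero hB hσ

/-- The decomposition group of `B` preserves `w₁` (`Val/GaussGalois.lean`). -/
theorem gal_smul_mem_valOne_iff (hσ : σ ∈ B.decompositionSubgroup ℚ) {x : Fb (M * q)} :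
    gal (M * q) σ • x ∈ valOne M hq B hB ↔ x ∈ valOne M hq B hB :=
  smul_mem_gaussValQbar_iff (M * q) hq.ne_zero hB hσ

/-- the residue map of `w₂` intertwines `σ` in the decomposition group with the coefficientwise
action of the induced automorphism of the residue field -/
theorem resTwo_gal_smul (hσ : σ ∈ B.decompositionSubgroup ℚ) (x : valTwo hq hcop B hB) :
    resTwo hq hcop B hB ⟨gal (M * q) σ • (x : Fb (M * q)),
        (gal_smul_mem_valTwo_iff hq hcop B hB hσ).mpr x.2⟩ =
      coeffMap ((decompResAut B ⟨σ, hσ⟩ : kB B ≃+* kB B) : kB B →+* kB B)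
        (resTwo hq hcop B hB x) := by
  rw [resTwo_apply, resTwo_apply,
    ← gaussResQbar_smul (M * q) hq.ne_zero hB hσ ⟨atkinLehner hq hcop (x : Fb (M * q)), x.2⟩]
  exact congrArg (resOne M hq B hB) (Subtype.ext (atkinLehner_gal_smul hq hcop σ _))

/-- **inertia acts trivially on the residues of `w₂`** -/
theorem resTwo_gal_smul_of_mem_inertia (hσ : σ ∈ B.inertiaSubgroupIn ℚ)
    (x : valTwo hq hcop B hB) :
    resTwo hq hcop B hB ⟨gal (M * q) σ • (x : Fb (M * q)),
        (gal_smul_mem_valTwo_iff hq hcop B hB (mem_decomposition_of_mem_inertiaIn hσ)).mpr x.2⟩ =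
      resTwo hq hcop B hB x := by
  rw [resTwo_gal_smul hq hcop B hB (mem_decomposition_of_mem_inertiaIn hσ) x,
    decompResAut_of_mem_inertiaSubgroupIn hσ]
  exact coeffMap_id _

/-- **inertia acts trivially on the residues of `w₁`** (`Val/GaussGalois.lean`) -/
theorem resOne_gal_smul_of_mem_inertia (hσ : σ ∈ B.inertiaSubgroupIn ℚ)
    (x : valOne M hq B hB) :
    resOne M hq B hB ⟨gal (M * q) σ • (x : Fb (M * q)),
        (gal_smul_mem_valOne_iff hq B hB (mem_decomposition_of_mem_inertiaIn hσ)).mpr x.2⟩ =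
      resOne M hq B hB x :=
  gaussResQbar_smul_of_mem_inertiaSubgroupIn (M * q) hq.ne_zero hB hσ x

end Two

end Fermat.Agent.BR.ValTwo
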