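import Fermat.Agent.BR.TwoValDefs
import Fermat.Agent.BR.ValTwo
import Fermat.Agent.Val.RankOne

/-!
# Program B, block B1, node SEP: Kronecker's separating elements for `w₁`, `w₂`

Notation of `BR/TwoValDefs.lean`.  `t := j_q - j^q` and `s := W_q t = j - j_q^q` in `Fb (M * q)`:

* `tEl_mem_R12`, `res1_tEl : res1 t = 0`, `res2_tEl : res2 t = j̃ - j̃^(q²) ≠ 0`,
  `inv_q_smul_tEl_mem_O1 : q⁻¹ • t ∈ O1` (integer congruence `j(q^q) ≡ j(q)^q mod q`);
  the mirror statements for `s`;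
* `O1_ne_O2`, `not_O1_le_O2`, `not_O2_le_O1`;
* `exists_pow_smul_mem_O1`, `exists_pow_smul_mem_O2` (ARCH): `q^n • x ∈ O_i` for `n ≫ 0`;
* `exists_separator₁`, `exists_separator₂` (SEPARATOR): for `x ∈ O1` there is `x' ∈ R12` with
  `res1 x' = res1 x` and `res2 x' = 0`, and the mirror.
-/

set_option autoImplicit false
set_option linter.style.haveILetI false
set_option linter.unusedSectionVars false

noncomputable section

namespace Fermat.Agent.BR.Separate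

open ModularCurve AlgebraicCurve HahnSeries Fermat.Agent.X0 Fermat.Agent.Val Fermat.Agent.Hecke.AL
open Fermat.Agent.BR.TwoVal Fermat.Agent.BR.ValTwo

/-! ## The integer congruence `j(q^q) ≡ j(q)^q mod q` -/

section Integer

variable (q : ℕ) [hq : Fact q.Prime]

/-- `j(q^q) - j(q)^q` over `ℤ`. -/
def kronZ : LaurentSeries ℤ :=
  haveI : NeZero q := ⟨hq.out.ne_zero⟩
  qExpand ℤ q (jqModC ℤ) - (jqModC ℤ) ^ q

theorem coeffMap_kronZ {R : Type*} [CommRing R] (f : ℤ →+* R) :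
    haveI : NeZero q := ⟨hq.out.ne_zero⟩
    coeffMap f (kronZ q) = qExpand R q (jqModC R) - (jqModC R) ^ q := by
  haveI : NeZero q := ⟨hq.out.ne_zero⟩
  rw [kronZ, map_sub, map_pow, coeffMap_qExpand, coeffMap_jqModC]

theorem coeffMap_kronZ_zmod : coeffMap (Int.castRingHom (ZMod q)) (kronZ q) = 0 := by
  haveI : NeZero q := ⟨hq.out.ne_zero⟩
  rw [coeffMap_kronZ, Fermat.Agent.ES.pow_char_eq_qExpand_coeffMap_frobenius q (jqModC (ZMod q)),
    coeffMap_jqModC, sub_self]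

theorem dvd_coeff_kronZ (n : ℤ) : (q : ℤ) ∣ (kronZ q).coeff n := by
  have h := congrArg (fun s : LaurentSeries (ZMod q) => s.coeff n) (coeffMap_kronZ_zmod q)
  simp only [coeffMap_coeff, HahnSeries.coeff_zero, eq_intCast] at h
  exact (ZMod.intCast_zmod_eq_zero_iff_dvd _ q).mp h

/-- `(j(q^q) - j(q)^q)/q` over `ℤ`. -/
def kronZDiv : LaurentSeries ℤ :=
  hahnOfFunA (kronZ q) (fun n => (kronZ q).coeff n / (q : ℤ)) fun n hn => by
    simp only [hn, Int.zero_ediv]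

theorem C_mul_kronZDiv : HahnSeries.C (q : ℤ) * kronZDiv q = kronZ q := by
  ext n
  rw [HahnSeries.C_mul_eq_smul, HahnSeries.coeff_smul, kronZDiv, hahnOfFunA_coeff, smul_eq_mul]
  exact Int.mul_ediv_cancel' (dvd_coeff_kronZ q n)

end Integer

/-! ## The abstract separator lemma -/

section Abstract

variable {E : Type*} [Field E] (V W : ValuationSubring E)

/-- abstract separator: `s` a unit of `V`, `t` a non-unit of `V`, `t` a unit of `W`,
`w(s) ≤ w(π) < 1`, `x ∈ V` with `π^n x ∈ W`. Then `x' := x s^(n+1)/(s^(n+1) + t^(n+1))` satisfies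
`x' ∈ V`, `x' - x ∈ 𝔪_V`, `x' ∈ 𝔪_W`. -/
theorem separator_abstract {s t ϖ x : E} (hs : V.valuation s = 1) (ht : V.valuation t < 1)
    (ht' : W.valuation t = 1) (hs' : W.valuation s ≤ W.valuation ϖ) (hϖ : W.valuation ϖ < 1)
    (hx : x ∈ V) {n : ℕ} (hn : ϖ ^ n * x ∈ W) :
    x * (s ^ (n + 1) * (s ^ (n + 1) + t ^ (n + 1))⁻¹) ∈ V ∧
      x * (s ^ (n + 1) * (s ^ (n + 1) + t ^ (n + 1))⁻¹) - x ∈ V.nonunits ∧
      x * (s ^ (n + 1) * (s ^ (n + 1) + t ^ (n + 1))⁻¹) ∈ W.nonunits := by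
  set N := n + 1 with hN
  set D := s ^ N + t ^ N with hD
  have hs'lt : W.valuation s < 1 := lt_of_le_of_lt hs' hϖ
  have hvtN : V.valuation (t ^ N) < 1 := by
    rw [map_pow]; exact pow_lt_one₀ zero_le ht (Nat.succ_ne_zero n)
  have hvsN : V.valuation (s ^ N) = 1 := by rw [map_pow, hs, one_pow]
  have hwtN : W.valuation (t ^ N) = 1 := by rw [map_pow, ht', one_pow]
  have hwsN : W.valuation (s ^ N) < 1 := by
    rw [map_pow]; exact pow_lt_one₀ zero_le hs'lt (Nat.succ_ne_zero n)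
  have hvD : V.valuation D = 1 := by
    rw [hD, Valuation.map_add_eq_of_lt_left _ (by rw [hvsN]; exact hvtN), hvsN]
  have hwD : W.valuation D = 1 := by
    rw [hD, Valuation.map_add_eq_of_lt_right _ (by rw [hwtN]; exact hwsN), hwtN]
  have hD0 : D ≠ 0 := by
    intro h
    rw [h, map_zero] at hvD
    exact zero_ne_one hvD
  have hvx : V.valuation x ≤ 1 := (V.valuation_le_one_iff _).mpr hx
  refine ⟨?_, ?_, ?_⟩
  · rw [← ValuationSubring.valuation_le_one_iff, map_mul, map_mul, map_inv₀, hvD, hvsN, inv_one,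
      mul_one, mul_one]
    exact hvx
  · have e : x * (s ^ N * D⁻¹) - x = -(x * (t ^ N * D⁻¹)) := by
      field_simp
      rw [hD]; ring
    rw [e]
    show V.valuation _ < 1
    rw [Valuation.map_neg, map_mul, map_mul, map_inv₀, hvD, inv_one, mul_one]
    calc V.valuation x * V.valuation (t ^ N) ≤ 1 * V.valuation (t ^ N) :=
          mul_le_mul_left hvx _
      _ = V.valuation (t ^ N) := one_mul _
      _ < 1 := hvtN
  · show W.valuation _ < 1
    rw [map_mul, map_mul, map_inv₀, hwD, inv_one, mul_one, map_pow]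
    have h1 : W.valuation ϖ ^ n * W.valuation x ≤ 1 := by
      have := (W.valuation_le_one_iff _).mpr hn
      rwa [map_mul, map_pow] at this
    calc W.valuation x * W.valuation s ^ N ≤ W.valuation x * W.valuation ϖ ^ N :=
          mul_le_mul_right (pow_le_pow_left₀ zero_le hs' N) _
      _ = (W.valuation ϖ ^ n * W.valuation x) * W.valuation ϖ := by
          rw [hN, pow_succ, mul_comm (W.valuation ϖ ^ n) (W.valuation x), mul_assoc]
      _ ≤ 1 * W.valuation ϖ := mul_le_mul_left h1 _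
      _ = W.valuation ϖ := one_mul _
      _ < 1 := hϖ

end Abstract

/-! ## The elements `t` and `s` -/

section Elements

variable {M q : ℕ} [NeZero M] [hq : Fact q.Prime] (hqM : ¬ q ∣ M)
variable (B : ValuationSubring Kb) (hB : B.LiesOverPrime q)

variable (M q) in
/-- **`t := j_q - j^q`** in `Fb (M * q)`. -/
def tEl : Fb (M * q) :=
  jBarD (M * q) q (dvd_mul_left q M) - (jBarD (M * q) 1 (one_dvd _)) ^ q

/-- **`s := W_q t = j - j_q^q`**. -/
def sEl : Fb (M * q) := Wq hqM (tEl M q)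

theorem tEl_eq_kron : tEl M q = kron M q := by
  unfold tEl kron
  rw [heckeBetaBar_jBarD, heckeAlphaBar_jBarD]
  congr 1
  exact jBarD_congr _ (one_mul q).symm _ _

theorem Wq_tEl : Wq hqM (tEl M q) = sEl hqM := rfl

theorem Wq_sEl : Wq hqM (sEl hqM) = tEl M q := Wq_Wq hqM _

theorem sEl_eq : sEl hqM =
    jBarD (M * q) 1 (one_dvd _) - (jBarD (M * q) q (dvd_mul_left q M)) ^ q := by
  have h1 : jBarD (M * q) q (dvd_mul_left q M) = heckeBetaBar Kb M q (jBarD M 1 (one_dvd M)) := by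
    rw [heckeBetaBar_jBarD]
    exact jBarD_congr _ (one_mul q).symm _ _
  have h2 : jBarD (M * q) 1 (one_dvd _) = heckeAlphaBar Kb M q (jBarD M 1 (one_dvd M)) := by
    rw [heckeAlphaBar_jBarD]
  unfold sEl tEl
  rw [map_sub, map_pow, h1, h2, Wq_beta, Wq_alpha]

/-! ### Bridges to `BR/ValTwo.lean` (all by `rfl`) -/

theorem O1_eq_valOne : O1 M B hB = valOne M hq.out B hB := rfl

theorem O2_eq_valTwo : O2 B hB hqM = valTwo hq.out (coprime_of_not_dvd hqM) B hB := rfl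

theorem res1_eq_resOne (x : Fb (M * q)) (hx : x ∈ O1 M B hB) :
    res1 M B hB ⟨x, hx⟩ = resOne M hq.out B hB ⟨x, hx⟩ := rfl

theorem res2_eq_resTwo (x : Fb (M * q)) (hx : x ∈ O2 B hB hqM) :
    res2 B hB hqM ⟨x, hx⟩ = resTwo hq.out (coprime_of_not_dvd hqM) B hB ⟨x, hx⟩ := rfl

/-! ### Membership and residues of `t` -/

theorem tEl_mem_O1 : tEl M q ∈ O1 M B hB := by
  rw [tEl_eq_kron]; exact kron_mem_valOne hq.out B hB

theorem tEl_mem_O2 : tEl M q ∈ O2 B hB hqM := by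
  rw [tEl_eq_kron]; exact kron_mem_valTwo hq.out (coprime_of_not_dvd hqM) B hB

theorem tEl_mem_R12 : tEl M q ∈ R12 B hB hqM := ⟨tEl_mem_O1 B hB, tEl_mem_O2 hqM B hB⟩

theorem sEl_mem_O1 : sEl hqM ∈ O1 M B hB := (Wq_mem_O1_iff B hB hqM).mpr (tEl_mem_O2 hqM B hB)

theorem sEl_mem_O2 : sEl hqM ∈ O2 B hB hqM := (Wq_mem_O2_iff B hB hqM).mpr (tEl_mem_O1 B hB)

theorem sEl_mem_R12 : sEl hqM ∈ R12 B hB hqM := ⟨sEl_mem_O1 hqM B hB, sEl_mem_O2 hqM B hB⟩

/-- **Kronecker on `Z₁`**: `res1 t = 0`. -/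
theorem res1_tEl : res1 M B hB ⟨tEl M q, tEl_mem_O1 B hB⟩ = 0 := by
  rw [res1_eq_resOne, ← resOne_kron (M := M) hq.out B hB]
  exact congrArg (resOne M hq.out B hB) (Subtype.ext tEl_eq_kron)

/-- **Kronecker on `Z₂`**: `res2 t = j̃ - j̃^(q²)`. -/
theorem res2_tEl : res2 B hB hqM ⟨tEl M q, tEl_mem_O2 hqM B hB⟩ =
    jqModC (IsLocalRing.ResidueField B) - (jqModC (IsLocalRing.ResidueField B)) ^ (q * q) := by
  rw [res2_eq_resTwo, ← resTwo_kron (M := M) hq.out (coprime_of_not_dvd hqM) B hB]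
  exact congrArg (resTwo hq.out (coprime_of_not_dvd hqM) B hB) (Subtype.ext tEl_eq_kron)

theorem res2_tEl_ne_zero : res2 B hB hqM ⟨tEl M q, tEl_mem_O2 hqM B hB⟩ ≠ 0 := by
  rw [res2_eq_resTwo]
  have h := resTwo_kron_ne_zero (M := M) hq.out (coprime_of_not_dvd hqM) B hB
  intro h0
  apply h
  rw [← h0]
  exact congrArg (resTwo hq.out (coprime_of_not_dvd hqM) B hB) (Subtype.ext tEl_eq_kron.symm)

/-- `res1 s = res2 t = j̃ - j̃^(q²)`. -/
theorem res1_sEl : res1 M B hB ⟨sEl hqM, sEl_mem_O1 hqM B hB⟩ =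
    jqModC (IsLocalRing.ResidueField B) - (jqModC (IsLocalRing.ResidueField B)) ^ (q * q) :=
  res2_tEl hqM B hB

theorem res1_sEl_ne_zero : res1 M B hB ⟨sEl hqM, sEl_mem_O1 hqM B hB⟩ ≠ 0 :=
  res2_tEl_ne_zero hqM B hB

/-- `res2 s = res1 t = 0`. -/
theorem res2_sEl : res2 B hB hqM ⟨sEl hqM, sEl_mem_O2 hqM B hB⟩ = 0 := by
  rw [res2_apply, ← res1_tEl (M := M) B hB]
  exact congrArg (res1 M B hB) (Subtype.ext (Wq_sEl hqM))

/-! ### `q⁻¹ • t ∈ O1`, `q⁻¹ • s ∈ O2` -/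

theorem coe_tEl : ((tEl M q : Fb (M * q)) : LaurentSeries Kb) =
    coeffMap (Int.castRingHom Kb) (kronZ q) := by
  rw [coeffMap_kronZ]
  show coeffEmb Kb (qExpand ℚ q jq) - (coeffEmb Kb (qExpand ℚ 1 jq)) ^ q = _
  rw [coeffEmb_jqN, coeffEmb_jqN, jqNModC_one]
  rfl

theorem coe_inv_q_smul_tEl : (((q : Kb)⁻¹ • tEl M q : Fb (M * q)) : LaurentSeries Kb) =
    aIota B (coeffMap (Int.castRingHom B) (kronZDiv q)) := by
  have hq0 : (q : Kb) ≠ 0 := Nat.cast_ne_zero.mpr hq.out.ne_zero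
  have h1 : (((q : Kb)⁻¹ • tEl M q : Fb (M * q)) : LaurentSeries Kb) =
      (q : Kb)⁻¹ • ((tEl M q : Fb (M * q)) : LaurentSeries Kb) := by
    rw [Algebra.smul_def, ← HahnSeries.C_mul_eq_smul, HahnSeries.C_apply,
      ← algebraMap_laurentSeries_eq_single]
    rfl
  have h2 : aIota B (coeffMap (Int.castRingHom B) (kronZDiv q)) =
      coeffMap (Int.castRingHom Kb) (kronZDiv q) := by
    rw [aIota, coeffMap_coeffMap]
    exact coeffMap_congr (RingHom.ext fun c => by simp) _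
  rw [h1, h2, coe_tEl, ← C_mul_kronZDiv, map_mul]
  have h3 : coeffMap (Int.castRingHom Kb) (HahnSeries.C (q : ℤ)) = HahnSeries.C (q : Kb) := by
    rw [HahnSeries.C_apply, coeffMap_single, HahnSeries.C_apply]
    simp
  rw [h3, HahnSeries.C_mul_eq_smul, smul_smul, inv_mul_cancel₀ hq0, one_smul]

/-- **`t` is divisible by `q` in `O1`** (the integer congruence `j(q^q) ≡ j(q)^q mod q`). -/
theorem inv_q_smul_tEl_mem_O1 : (q : Kb)⁻¹ • tEl M q ∈ O1 M B hB := by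
  show (((q : Kb)⁻¹ • tEl M q : Fb (M * q)) : LaurentSeries Kb) ∈
    gaussRingA B (IsLocalRing.residue B)
  rw [coe_inv_q_smul_tEl B]
  exact aIota_mem_gaussRingA B _ _

/-- **`s` is divisible by `q` in `O2`**. -/
theorem inv_q_smul_sEl_mem_O2 : (q : Kb)⁻¹ • sEl hqM ∈ O2 B hB hqM := by
  rw [mem_O2_iff, Algebra.smul_def, map_mul, AlgEquiv.commutes, Wq_sEl, ← Algebra.smul_def]
  exact inv_q_smul_tEl_mem_O1 B hB

/-! ### Non-units in terms of residues -/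

theorem mem_nonunits_O1_iff {x : Fb (M * q)} :
    x ∈ (O1 M B hB).nonunits ↔ ∃ h : x ∈ O1 M B hB, res1 M B hB ⟨x, h⟩ = 0 := by
  rw [ValuationSubring.mem_nonunits_iff_exists_mem_maximalIdeal]
  refine exists_congr fun h => ?_
  exact (resOne_eq_zero_iff (M := M) hq.out B hB ⟨x, h⟩).symm

theorem mem_nonunits_O2_iff {x : Fb (M * q)} :
    x ∈ (O2 B hB hqM).nonunits ↔ ∃ h : x ∈ O2 B hB hqM, res2 B hB hqM ⟨x, h⟩ = 0 := by
  rw [ValuationSubring.mem_nonunits_iff_exists_mem_maximalIdeal]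
  refine exists_congr fun h => ?_
  exact (resTwo_eq_zero_iff hq.out (coprime_of_not_dvd hqM) B hB ⟨x, h⟩).symm

theorem Wq_mem_nonunits_O1_iff {x : Fb (M * q)} :
    Wq hqM x ∈ (O1 M B hB).nonunits ↔ x ∈ (O2 B hB hqM).nonunits := by
  rw [mem_nonunits_O1_iff, mem_nonunits_O2_iff]
  exact Iff.rfl

theorem Wq_mem_nonunits_O2_iff {x : Fb (M * q)} :
    Wq hqM x ∈ (O2 B hB hqM).nonunits ↔ x ∈ (O1 M B hB).nonunits := by
  rw [← Wq_mem_nonunits_O1_iff hqM B hB, Wq_Wq]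

theorem tEl_mem_nonunits_O1 : tEl M q ∈ (O1 M B hB).nonunits :=
  (mem_nonunits_O1_iff B hB).mpr ⟨tEl_mem_O1 B hB, res1_tEl B hB⟩

theorem tEl_notMem_nonunits_O2 : tEl M q ∉ (O2 B hB hqM).nonunits := by
  rw [mem_nonunits_O2_iff]
  rintro ⟨h, h0⟩
  exact res2_tEl_ne_zero hqM B hB h0

theorem sEl_mem_nonunits_O2 : sEl hqM ∈ (O2 B hB hqM).nonunits :=
  (Wq_mem_nonunits_O2_iff hqM B hB).mpr (tEl_mem_nonunits_O1 B hB)

theorem sEl_notMem_nonunits_O1 : sEl hqM ∉ (O1 M B hB).nonunits := fun h =>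
  tEl_notMem_nonunits_O2 hqM B hB ((Wq_mem_nonunits_O1_iff hqM B hB).mp h)

/-- `v₁(t) < 1`, `v₂(t) = 1`, `v₁(s) = 1`, `v₂(s) < 1`. -/
theorem valuation_O1_tEl_lt : (O1 M B hB).valuation (tEl M q) < 1 := tEl_mem_nonunits_O1 B hB

theorem valuation_O2_tEl : (O2 B hB hqM).valuation (tEl M q) = 1 :=
  le_antisymm (((O2 B hB hqM).valuation_le_one_iff _).mpr (tEl_mem_O2 hqM B hB))
    (not_lt.mp (tEl_notMem_nonunits_O2 hqM B hB))

theorem valuation_O1_sEl : (O1 M B hB).valuation (sEl hqM) = 1 :=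
  le_antisymm (((O1 M B hB).valuation_le_one_iff _).mpr (sEl_mem_O1 hqM B hB))
    (not_lt.mp (sEl_notMem_nonunits_O1 hqM B hB))

theorem valuation_O2_sEl_lt : (O2 B hB hqM).valuation (sEl hqM) < 1 :=
  sEl_mem_nonunits_O2 hqM B hB

include hqM B hB in
theorem tEl_ne_zero : tEl M q ≠ 0 := by
  intro h
  have := valuation_O2_tEl hqM B hB
  rw [h, map_zero] at this
  exact zero_ne_one this

include B hB in
theorem sEl_ne_zero : sEl hqM ≠ 0 := by
  intro h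
  have := valuation_O1_sEl hqM B hB
  rw [h, map_zero] at this
  exact zero_ne_one this

/-! ### `O1 ≠ O2`, neither contains the other -/

theorem not_O2_le_O1 : ¬ O2 B hB hqM ≤ O1 M B hB := by
  intro hle
  have h1 : (tEl M q)⁻¹ ∈ O2 B hB hqM := by
    rw [← ValuationSubring.valuation_le_one_iff, map_inv₀, valuation_O2_tEl hqM B hB, inv_one]
  have h2 := hle h1
  rw [← ValuationSubring.valuation_le_one_iff, map_inv₀] at h2
  have h3 := valuation_O1_tEl_lt (M := M) B hB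
  have h4 : (O1 M B hB).valuation (tEl M q) ≠ 0 :=
    (Valuation.ne_zero_iff _).mpr (tEl_ne_zero hqM B hB)
  have h5 : 1 ≤ (O1 M B hB).valuation (tEl M q) := by
    rwa [inv_le_one₀ (zero_lt_iff.mpr h4)] at h2
  exact absurd h3 (not_lt.mpr h5)

theorem not_O1_le_O2 : ¬ O1 M B hB ≤ O2 B hB hqM := by
  intro hle
  apply not_O2_le_O1 hqM B hB
  intro x hx
  have h1 : Wq hqM x ∈ O1 M B hB := hx
  have h2 := hle h1
  rwa [Wq_mem_O2_iff] at h2

theorem O1_ne_O2 : O1 M B hB ≠ O2 B hB hqM := fun h =>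
  not_O1_le_O2 hqM B hB (le_of_eq h)

/-! ### ARCH: `q^n • x ∈ O_i` for `n ≫ 0` -/

include hB in
theorem exists_pow_mul_mem_B (c : Kb) : ∃ n : ℕ, (q : Kb) ^ n * c ∈ B := by
  by_cases hc : c ∈ B
  · exact ⟨0, by simpa using hc⟩
  have hc0 : c ≠ 0 := fun h => hc (h ▸ B.zero_mem)
  have hinv : c⁻¹ ∈ B := (B.mem_or_inv_mem c).resolve_left hc
  have hqB : (q : Kb) ∈ B := ValuationSubring.nonunits_subset hB
  have hq' : ¬ IsUnit (⟨(q : Kb), hqB⟩ : B) := by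
    have h1 : (⟨(q : Kb), hqB⟩ : B) ∈ IsLocalRing.maximalIdeal B :=
      (B.valuation_lt_one_iff _).mpr hB
    exact (IsLocalRing.mem_maximalIdeal _).mp h1
  have hne : (⟨c⁻¹, hinv⟩ : B) ≠ 0 := fun h => inv_ne_zero hc0 (congrArg Subtype.val h)
  obtain ⟨n, d, hd⟩ := Val.isRankOne B hB ⟨(q : Kb), hqB⟩ hq' ⟨c⁻¹, hinv⟩ hne
  refine ⟨n, ?_⟩
  have h2 : (q : Kb) ^ n = c⁻¹ * (d : Kb) := by
    have := congrArg Subtype.val hd
    simpa using this
  rw [h2, mul_comm c⁻¹, mul_assoc, inv_mul_cancel₀ hc0, mul_one]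
  exact d.2

theorem coe_smul_Fb (N : ℕ) (c : Kb) (x : Fb N) :
    ((c • x : Fb N) : LaurentSeries Kb) = HahnSeries.C c * (x : LaurentSeries Kb) := by
  rw [Algebra.smul_def, HahnSeries.C_apply, ← algebraMap_laurentSeries_eq_single]
  rfl

/-- **ARCH for `w₁`**. -/
theorem exists_pow_smul_mem_O1 (x : Fb (M * q)) : ∃ n : ℕ, (q : Kb) ^ n • x ∈ O1 M B hB := by
  by_cases hx : x = 0
  · exact ⟨0, by rw [hx, smul_zero]; exact (O1 M B hB).zero_mem⟩
  obtain ⟨c, hc⟩ := exists_hasContent hq.out B hB (M * q) hx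
  obtain ⟨n, hn⟩ := exists_pow_mul_mem_B B hB c
  refine ⟨n, ?_⟩
  have hq0 : (q : Kb) ^ n ≠ 0 := pow_ne_zero _ (Nat.cast_ne_zero.mpr hq.out.ne_zero)
  show (((q : Kb) ^ n • x : Fb (M * q)) : LaurentSeries Kb) ∈
    gaussRingA B (IsLocalRing.residue B)
  rw [coe_smul_Fb]
  exact (hc.C_mul hq0).mem_gaussRingA_of_mem hn

/-- **ARCH for `w₂`**. -/
theorem exists_pow_smul_mem_O2 (x : Fb (M * q)) : ∃ n : ℕ, (q : Kb) ^ n • x ∈ O2 B hB hqM := by
  obtain ⟨n, hn⟩ := exists_pow_smul_mem_O1 B hB (Wq hqM x)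
  refine ⟨n, ?_⟩
  rw [mem_O2_iff, Algebra.smul_def, map_mul, AlgEquiv.commutes, ← Algebra.smul_def]
  exact hn

/-! ### Constants -/

theorem algebraMap_mem_O1_iff (c : Kb) : algebraMap Kb (Fb (M * q)) c ∈ O1 M B hB ↔ c ∈ B :=
  algebraMap_mem_valOne_iff (M := M) hq.out B hB c

theorem algebraMap_mem_O2_iff (c : Kb) : algebraMap Kb (Fb (M * q)) c ∈ O2 B hB hqM ↔ c ∈ B :=
  algebraMap_mem_valTwo_iff hq.out (coprime_of_not_dvd hqM) B hB c

theorem algebraMap_mem_nonunits_O1_iff (c : Kb) :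
    algebraMap Kb (Fb (M * q)) c ∈ (O1 M B hB).nonunits ↔ c ∈ B.nonunits := by
  rw [ValuationSubring.mem_nonunits_iff_or, ValuationSubring.mem_nonunits_iff_or, ← map_inv₀,
    algebraMap_mem_O1_iff, map_eq_zero]

theorem algebraMap_mem_nonunits_O2_iff (c : Kb) :
    algebraMap Kb (Fb (M * q)) c ∈ (O2 B hB hqM).nonunits ↔ c ∈ B.nonunits := by
  rw [ValuationSubring.mem_nonunits_iff_or, ValuationSubring.mem_nonunits_iff_or, ← map_inv₀,
    algebraMap_mem_O2_iff, map_eq_zero]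

/-- `v₂(q) < 1`. -/
theorem valuation_O2_q_lt :
    (O2 B hB hqM).valuation (algebraMap Kb (Fb (M * q)) (q : Kb)) < 1 :=
  (algebraMap_mem_nonunits_O2_iff hqM B hB _).mpr hB

/-- `v₁(q) < 1`. -/
theorem valuation_O1_q_lt :
    (O1 M B hB).valuation (algebraMap Kb (Fb (M * q)) (q : Kb)) < 1 :=
  (algebraMap_mem_nonunits_O1_iff B hB _).mpr hB

/-- `v₂(s) ≤ v₂(q)`. -/
theorem valuation_O2_sEl_le :
    (O2 B hB hqM).valuation (sEl hqM) ≤
      (O2 B hB hqM).valuation (algebraMap Kb (Fb (M * q)) (q : Kb)) := by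
  have hq0 : (q : Kb) ≠ 0 := Nat.cast_ne_zero.mpr hq.out.ne_zero
  have h1 := inv_q_smul_sEl_mem_O2 hqM B hB
  rw [← ValuationSubring.valuation_le_one_iff, Algebra.smul_def, map_mul, map_inv₀, map_inv₀] at h1
  have h2 : (O2 B hB hqM).valuation (algebraMap Kb (Fb (M * q)) (q : Kb)) ≠ 0 :=
    (Valuation.ne_zero_iff _).mpr (by rwa [Ne, map_eq_zero])
  rwa [inv_mul_le_iff₀ (zero_lt_iff.mpr h2), mul_one] at h1

/-- `v₁(t) ≤ v₁(q)`. -/
theorem valuation_O1_tEl_le :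
    (O1 M B hB).valuation (tEl M q) ≤
      (O1 M B hB).valuation (algebraMap Kb (Fb (M * q)) (q : Kb)) := by
  have hq0 : (q : Kb) ≠ 0 := Nat.cast_ne_zero.mpr hq.out.ne_zero
  have h1 := inv_q_smul_tEl_mem_O1 (M := M) B hB
  rw [← ValuationSubring.valuation_le_one_iff, Algebra.smul_def, map_mul, map_inv₀, map_inv₀] at h1
  have h2 : (O1 M B hB).valuation (algebraMap Kb (Fb (M * q)) (q : Kb)) ≠ 0 :=
    (Valuation.ne_zero_iff _).mpr (by rwa [Ne, map_eq_zero])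
  rwa [inv_mul_le_iff₀ (zero_lt_iff.mpr h2), mul_one] at h1

/-! ### SEPARATOR -/

/-- **SEPARATOR for `w₁`**: every `x ∈ O1` is congruent mod `𝔪₁` to an element of `O1 ∩ 𝔪₂`. -/
theorem exists_separator₁ {x : Fb (M * q)} (hx : x ∈ O1 M B hB) :
    ∃ (x' : Fb (M * q)) (h1 : x' ∈ O1 M B hB) (h2 : x' ∈ O2 B hB hqM),
      res1 M B hB ⟨x', h1⟩ = res1 M B hB ⟨x, hx⟩ ∧ res2 B hB hqM ⟨x', h2⟩ = 0 := by
  obtain ⟨n, hn⟩ := exists_pow_smul_mem_O2 hqM B hB x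
  rw [Algebra.smul_def, map_pow] at hn
  obtain ⟨h1, h3, h4⟩ := separator_abstract (O1 M B hB) (O2 B hB hqM)
    (valuation_O1_sEl hqM B hB) (valuation_O1_tEl_lt B hB) (valuation_O2_tEl hqM B hB)
    (valuation_O2_sEl_le hqM B hB) (valuation_O2_q_lt hqM B hB) hx hn
  refine ⟨_, h1, ValuationSubring.nonunits_subset h4, ?_, ?_⟩
  · obtain ⟨h5, h6⟩ := (mem_nonunits_O1_iff B hB).mp h3
    have e : (⟨_, h5⟩ : O1 M B hB) = ⟨_, h1⟩ - ⟨x, hx⟩ := Subtype.ext rfl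
    rw [e, map_sub, sub_eq_zero] at h6
    exact h6
  · obtain ⟨h5, h6⟩ := (mem_nonunits_O2_iff hqM B hB).mp h4
    exact h6

/-- **SEPARATOR for `w₂`**: every `x ∈ O2` is congruent mod `𝔪₂` to an element of `O2 ∩ 𝔪₁`. -/
theorem exists_separator₂ {x : Fb (M * q)} (hx : x ∈ O2 B hB hqM) :
    ∃ (x' : Fb (M * q)) (h1 : x' ∈ O1 M B hB) (h2 : x' ∈ O2 B hB hqM),
      res2 B hB hqM ⟨x', h2⟩ = res2 B hB hqM ⟨x, hx⟩ ∧ res1 M B hB ⟨x', h1⟩ = 0 := by
  obtain ⟨n, hn⟩ := exists_pow_smul_mem_O1 B hB x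
  rw [Algebra.smul_def, map_pow] at hn
  obtain ⟨h1, h3, h4⟩ := separator_abstract (O2 B hB hqM) (O1 M B hB)
    (valuation_O2_tEl hqM B hB) (valuation_O2_sEl_lt hqM B hB) (valuation_O1_sEl hqM B hB)
    (valuation_O1_tEl_le B hB) (valuation_O1_q_lt B hB) hx hn
  refine ⟨_, ValuationSubring.nonunits_subset h4, h1, ?_, ?_⟩
  · obtain ⟨h5, h6⟩ := (mem_nonunits_O2_iff hqM B hB).mp h3
    have e : (⟨_, h5⟩ : O2 B hB hqM) = ⟨_, h1⟩ - ⟨x, hx⟩ := Subtype.ext rfl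
    rw [e, map_sub, sub_eq_zero] at h6
    exact h6
  · obtain ⟨h5, h6⟩ := (mem_nonunits_O1_iff B hB).mp h4
    exact h6

/-- SEPARATOR for `w₁`, in terms of `R12` and `res12`. -/
theorem exists_R12_separator₁ (x : O1 M B hB) :
    ∃ x' : R12 B hB hqM, res12 B hB hqM x' = (res1 M B hB x, 0) := by
  obtain ⟨x', h1, h2, e1, e2⟩ := exists_separator₁ hqM B hB x.2
  exact ⟨⟨x', h1, h2⟩, Prod.ext e1 e2⟩

/-- SEPARATOR for `w₂`, in terms of `R12` and `res12`. -/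
theorem exists_R12_separator₂ (x : O2 B hB hqM) :
    ∃ x' : R12 B hB hqM, res12 B hB hqM x' = (0, res2 B hB hqM x) := by
  obtain ⟨x', h1, h2, e1, e2⟩ := exists_separator₂ hqM B hB x.2
  exact ⟨⟨x', h1, h2⟩, Prod.ext e2 e1⟩

/-- **`res12 : R12 → res1(O1) × res2(O2)` is onto** (Chinese remainder for `w₁`, `w₂`). -/
theorem exists_R12_res12_eq (x : O1 M B hB) (y : O2 B hB hqM) :
    ∃ z : R12 B hB hqM, res12 B hB hqM z = (res1 M B hB x, res2 B hB hqM y) := by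
  obtain ⟨x', hx'⟩ := exists_R12_separator₁ hqM B hB x
  obtain ⟨y', hy'⟩ := exists_R12_separator₂ hqM B hB y
  refine ⟨x' + y', ?_⟩
  rw [map_add, hx', hy']
  simp

end Elements

end Fermat.Agent.BR.Separate
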