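import Fermat.Agent.BR.TwoValInst
import Fermat.Agent.BR.Separate
import Fermat.Agent.Good.ChartBridge

/-!
# Program B, block B1, node B1.QFORM (file 1): the two valuations on the `ℚ`-form `F_{Mq}`

`F = modularFunctionFieldFull (M * q) ⊂ ℚ((q))`, `barEmb : F → Fb (M * q)` the extension of
coefficients.  `O1Q`, `O2Q` are the restrictions of `w₁`, `w₂` (for a valuation subring `B` of `ℚ̄`
over `q`) to `F`.

* `exists_zpow_mul_unit` : (`ℚ`-level content) a nonzero series with bounded denominators is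
  `q ^ n · u` with `u` a unit of the Gauss ring `gaussSubring q`;
* `exists_Wq_barEmb` : `w_q` maps `barEmb F` into itself;
* **(I1)** `exists_zpow_O1`, `exists_zpow_O2` (uniform in `B`), `exists_zpow_O1Q`, `exists_zpow_O2Q`:
  `w_i(F^×) = v(q)^ℤ`;
* `q_mem_nonunits_O1Q/O2Q`, **(e = 1)** `div_q_mem_O1Q`, `div_q_mem_O2Q`;
* **independence of `B`**: `O1Q_eq`, `O2Q_eq`.
-/

set_option autoImplicit false
set_option linter.unusedSectionVars false
set_option linter.style.haveILetI false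

noncomputable section

namespace Fermat.Agent.BR.TwoValQ

open ModularCurve ModularCurve.IgusaScheme Fermat.Agent.X0 Fermat.Agent.Val Fermat.Agent.BR.TwoVal
  Fermat.Agent.Igusa Fermat.Agent.Good.Bridge

/-! ### Generic lemmas on valuation subrings -/

section Generic

variable {K : Type*} [Field K]

/-- nonunits of a comap -/
theorem mem_nonunits_comap {K' : Type*} [Field K'] (f : K' →+* K) (O : ValuationSubring K)
    {x : K'} : x ∈ (O.comap f).nonunits ↔ f x ∈ O.nonunits := by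
  rw [ValuationSubring.mem_nonunits_iff_or, ValuationSubring.mem_nonunits_iff_or,
    ValuationSubring.mem_comap, map_inv₀, map_eq_zero]

/-- if `x / π ^ n` is a unit of `O` then `v(x) = v(π) ^ n` -/
theorem valuation_eq_zpow {O : ValuationSubring K} {π x : K} {n : ℤ} (hx : x ≠ 0) (hπ : π ≠ 0)
    (h1 : x * (π ^ n)⁻¹ ∈ O) (h2 : (x * (π ^ n)⁻¹)⁻¹ ∈ O) :
    O.valuation x = O.valuation π ^ n := by
  have hy0 : x * (π ^ n)⁻¹ ≠ 0 := mul_ne_zero hx (inv_ne_zero (zpow_ne_zero n hπ))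
  have hv0 : O.valuation (x * (π ^ n)⁻¹) ≠ 0 := (map_ne_zero _).2 hy0
  have h1' : O.valuation (x * (π ^ n)⁻¹) ≤ 1 := (O.valuation_le_one_iff _).2 h1
  have h2' : O.valuation ((x * (π ^ n)⁻¹)⁻¹) ≤ 1 := (O.valuation_le_one_iff _).2 h2
  rw [map_inv₀] at h2'
  have h3 : 1 ≤ O.valuation (x * (π ^ n)⁻¹) := (inv_le_one₀ (zero_lt_iff.2 hv0)).1 h2'
  have h4 : O.valuation (x * (π ^ n)⁻¹) = 1 := le_antisymm h1' h3
  have hπn : O.valuation (π ^ n) ≠ 0 := (map_ne_zero _).2 (zpow_ne_zero n hπ)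
  rw [map_mul, map_inv₀, mul_inv_eq_one₀ hπn, map_zpow₀] at h4
  exact h4

theorem mem_iff_nonneg {O : ValuationSubring K} {π x : K} {n : ℤ} (hx : x ≠ 0) (hπ : π ≠ 0)
    (hπO : π ∈ O.nonunits) (h1 : x * (π ^ n)⁻¹ ∈ O) (h2 : (x * (π ^ n)⁻¹)⁻¹ ∈ O) :
    x ∈ O ↔ 0 ≤ n := by
  have hv : O.valuation π < 1 := (O.mem_nonunits_iff).1 hπO |> fun h => by
    simpa using h
  have hv0 : 0 < O.valuation π := zero_lt_iff.2 ((map_ne_zero _).2 hπ)
  rw [← O.valuation_le_one_iff, valuation_eq_zpow hx hπ h1 h2,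
    zpow_le_one_iff_right_of_lt_one₀ hv0 hv]

theorem mem_nonunits_iff_pos {O : ValuationSubring K} {π x : K} {n : ℤ} (hx : x ≠ 0) (hπ : π ≠ 0)
    (hπO : π ∈ O.nonunits) (h1 : x * (π ^ n)⁻¹ ∈ O) (h2 : (x * (π ^ n)⁻¹)⁻¹ ∈ O) :
    x ∈ O.nonunits ↔ 0 < n := by
  have hv : O.valuation π < 1 := (O.mem_nonunits_iff).1 hπO |> fun h => by
    simpa using h
  have hv0 : 0 < O.valuation π := zero_lt_iff.2 ((map_ne_zero _).2 hπ)
  rw [O.mem_nonunits_iff, valuation_eq_zpow hx hπ h1 h2]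
  exact zpow_lt_one_iff_right_of_lt_one₀ hv0 hv

/-- `e = 1` from the value group -/
theorem div_mem_of_mem_nonunits {O : ValuationSubring K} {π x : K} {n : ℤ} (hx : x ≠ 0)
    (hπ : π ≠ 0) (hπO : π ∈ O.nonunits) (h1 : x * (π ^ n)⁻¹ ∈ O) (h2 : (x * (π ^ n)⁻¹)⁻¹ ∈ O)
    (hxO : x ∈ O.nonunits) : x / π ∈ O := by
  have hn : 0 < n := (mem_nonunits_iff_pos hx hπ hπO h1 h2).1 hxO
  have hv : O.valuation π < 1 := (O.mem_nonunits_iff).1 hπO |> fun h => by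
    simpa using h
  have hv0 : 0 < O.valuation π := zero_lt_iff.2 ((map_ne_zero _).2 hπ)
  rw [← O.valuation_le_one_iff, map_div₀, valuation_eq_zpow hx hπ h1 h2]
  have h3 : O.valuation π ^ n / O.valuation π = O.valuation π ^ (n - 1) := by
    rw [zpow_sub₀ hv0.ne', zpow_one]
  rw [h3, zpow_le_one_iff_right_of_lt_one₀ hv0 hv]
  omega

end Generic

/-! ### `ℚ`-level contents -/

section Content

variable (ℓ : ℕ) [hℓ : Fact ℓ.Prime]

/-- a nonzero series with bounded denominators is `ℓ ^ n · u`, `u` a unit of the Gauss ring -/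
theorem exists_zpow_mul_unit {x : LaurentSeries ℚ} (hx : IsZlFraction ℓ x) (hx0 : x ≠ 0) :
    ∃ (n : ℤ) (u : LaurentSeries ℚ), u ∈ gaussSubring ℓ ∧ u⁻¹ ∈ gaussSubring ℓ ∧
      x = (ℓ : LaurentSeries ℚ) ^ n * u := by
  have hC : (HahnSeries.C (ℓ : ℚ) : LaurentSeries ℚ) = (ℓ : LaurentSeries ℚ) :=
    map_natCast (HahnSeries.C : ℚ →+* LaurentSeries ℚ) ℓ
  rw [← hC]
  obtain ⟨a, b, hb, hab⟩ := hx
  have hb0 : zlIota ℓ b ≠ 0 := fun h => hb (zlIota_injective ℓ (by rw [h, map_zero]))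
  have ha : a ≠ 0 := by
    rintro rfl
    rw [map_zero] at hab
    exact (mul_ne_zero hx0 hb0) hab
  obtain ⟨m, a', rfl, ha'⟩ := exists_eq_pow_mul_of_ne_zero ℓ ha
  obtain ⟨n, b', rfl, hb'⟩ := exists_eq_pow_mul_of_ne_zero ℓ hb
  have hπ : zlIota ℓ (HahnSeries.C (zlPrime ℓ)) = HahnSeries.C (ℓ : ℚ) := coe_gaussPrime ℓ
  have hπ0 : (HahnSeries.C (ℓ : ℚ) : LaurentSeries ℚ) ≠ 0 := by
    rw [← hπ]; exact zlIota_C_zlPrime_ne_zero ℓ
  have ha0 := zlIota_ne_zero_of_zlRed_ne_zero ℓ ha'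
  have hb0' := zlIota_ne_zero_of_zlRed_ne_zero ℓ hb'
  rw [map_mul, map_mul, map_pow, map_pow, hπ] at hab
  refine ⟨(m : ℤ) - n, zlIota ℓ a' / zlIota ℓ b', ⟨a', b', hb', div_mul_cancel₀ _ hb0'⟩,
    ⟨b', a', ha', ?_⟩, ?_⟩
  · rw [inv_div, div_mul_cancel₀ _ ha0]
  · rw [zpow_sub₀ hπ0, zpow_natCast, zpow_natCast]
    have hn0 : (HahnSeries.C (ℓ : ℚ) : LaurentSeries ℚ) ^ n ≠ 0 := pow_ne_zero n hπ0
    field_simp
    rw [← hab]
    ring

end Content

/-! ### Level `M q` -/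

section Level

variable {M q : ℕ} [NeZero M] [hq : Fact q.Prime]

set_option quotPrecheck false in
local notation "FQ" => ↥(modularFunctionFieldFull (M * q))

variable (B : ValuationSubring Kb) (hB : B.LiesOverPrime q) (hqM : ¬ q ∣ M)

variable (M) in
/-- `w₁` restricted to the `ℚ`-form `F_{Mq}` -/
def O1Q : ValuationSubring FQ := (O1 M B hB).comap (barEmb (M * q))

/-- `w₂` restricted to the `ℚ`-form `F_{Mq}` -/
def O2Q : ValuationSubring FQ := (O2 B hB hqM).comap (barEmb (M * q))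

theorem mem_O1Q_iff {x : FQ} : x ∈ O1Q M B hB ↔ barEmb (M * q) x ∈ O1 M B hB := Iff.rfl

theorem mem_O2Q_iff {x : FQ} : x ∈ O2Q B hB hqM ↔ barEmb (M * q) x ∈ O2 B hB hqM := Iff.rfl

theorem mem_nonunits_O1Q_iff {x : FQ} :
    x ∈ (O1Q M B hB).nonunits ↔ barEmb (M * q) x ∈ (O1 M B hB).nonunits :=
  mem_nonunits_comap _ _

theorem mem_nonunits_O2Q_iff {x : FQ} :
    x ∈ (O2Q B hB hqM).nonunits ↔ barEmb (M * q) x ∈ (O2 B hB hqM).nonunits :=
  mem_nonunits_comap _ _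

/-- `barEmb` of a natural number -/
theorem barEmb_natCast (n : ℕ) : barEmb (M * q) (n : FQ) = (n : Fb (M * q)) := map_natCast _ n

omit [NeZero M] in
/-- `(q : Fb (M * q))` is the constant `q` -/
theorem natCast_eq_algebraMap (n : ℕ) : (n : Fb (M * q)) = algebraMap Kb (Fb (M * q)) (n : Kb) :=
  (map_natCast _ n).symm

theorem q_mem_nonunits_O1 : (q : Fb (M * q)) ∈ (O1 M B hB).nonunits := by
  rw [natCast_eq_algebraMap]
  exact (Separate.algebraMap_mem_nonunits_O1_iff B hB _).2 hB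

theorem q_mem_nonunits_O2 : (q : Fb (M * q)) ∈ (O2 B hB hqM).nonunits := by
  rw [natCast_eq_algebraMap]
  exact (Separate.algebraMap_mem_nonunits_O2_iff hqM B hB _).2 hB

theorem q_mem_nonunits_O1Q : (q : FQ) ∈ (O1Q M B hB).nonunits := by
  rw [mem_nonunits_O1Q_iff, barEmb_natCast]
  exact q_mem_nonunits_O1 B hB

theorem q_mem_nonunits_O2Q : (q : FQ) ∈ (O2Q B hB hqM).nonunits := by
  rw [mem_nonunits_O2Q_iff, barEmb_natCast]
  exact q_mem_nonunits_O2 B hB hqM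

omit [NeZero M] in
theorem q_ne_zero_Fb : (q : Fb (M * q)) ≠ 0 := by
  rw [natCast_eq_algebraMap, Ne, map_eq_zero]
  exact_mod_cast hq.out.ne_zero

omit [NeZero M] in
theorem q_ne_zero_FQ : (q : FQ) ≠ 0 := by
  exact_mod_cast hq.out.ne_zero

/-! ### `w_q` preserves the `ℚ`-form -/

/-- `barEmb` of a generator -/
theorem barEmb_gen (d : ℕ) [NeZero d] (hd : d ∣ M * q) :
    barEmb (M * q) ⟨qExpand ℚ d jq, jqd_mem_full (M * q) hd⟩ = jBarD (M * q) d hd := rfl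

include hqM in
/-- `w_q` maps `barEmb F` into itself. -/
theorem exists_Wq_barEmb (x : FQ) : ∃ x' : FQ, Wq hqM (barEmb (M * q) x) = barEmb (M * q) x' := by
  have key : ∀ y (hy : y ∈ IntermediateField.adjoin ℚ (divisorExpansions (M * q))),
      ∃ x' : FQ, Wq hqM (barEmb (M * q) ⟨y, hy⟩) = barEmb (M * q) x' := by
    intro y hy
    induction hy using IntermediateField.adjoin_induction with
    | mem y hy =>
      obtain ⟨d, hd0, hdN, rfl⟩ := hy
      haveI := hd0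
      by_cases hqd : q ∣ d
      · obtain ⟨d', rfl⟩ := hqd
        have hd'0 : d' ≠ 0 := fun h => NeZero.ne (q * d') (by rw [h, mul_zero])
        haveI : NeZero d' := ⟨hd'0⟩
        haveI : NeZero (d' * q) := ⟨Nat.mul_ne_zero hd'0 hq.out.ne_zero⟩
        have hd'M : d' ∣ M := by
          rw [mul_comm q d'] at hdN
          exact Nat.dvd_of_mul_dvd_mul_right hq.out.pos hdN
        refine ⟨⟨qExpand ℚ d' jq, jqd_mem_full (M * q) (Dvd.dvd.mul_right hd'M q)⟩, ?_⟩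
        have e : jBarD (M * q) (q * d') hdN =
            jBarD (M * q) (d' * q) (Nat.mul_dvd_mul_right hd'M q) := by
          apply Subtype.ext
          show coeffEmb Kb (qExpand ℚ (q * d') jq) = coeffEmb Kb (qExpand ℚ (d' * q) jq)
          rw [qExpand_congr (mul_comm q d')]
        rw [barEmb_gen (q * d') hdN, e, ResGen.Wq_jBarD_mul hqM d' hd'M]
        rfl
      · have hcop : Nat.Coprime d q := ((Nat.Prime.coprime_iff_not_dvd hq.out).2 hqd).symm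
        have hdM : d ∣ M := hcop.dvd_of_dvd_mul_right hdN
        haveI : NeZero (d * q) := ⟨Nat.mul_ne_zero (NeZero.ne d) hq.out.ne_zero⟩
        refine ⟨⟨qExpand ℚ (d * q) jq, jqd_mem_full (M * q) (Nat.mul_dvd_mul_right hdM q)⟩, ?_⟩
        rw [barEmb_gen d hdN, ResGen.Wq_jBarD hqM d hdM]
        rfl
    | algebraMap r =>
      refine ⟨(r : FQ), ?_⟩
      have h2 : (⟨algebraMap ℚ (LaurentSeries ℚ) r, IntermediateField.algebraMap_mem _ r⟩ : FQ) =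
          (r : FQ) := by
        apply Subtype.ext
        show algebraMap ℚ (LaurentSeries ℚ) r = (((r : ℚ) : FQ) : LaurentSeries ℚ)
        rw [eq_ratCast]
        norm_cast
      rw [h2, map_ratCast, map_ratCast]
    | add x y hx hy ihx ihy =>
      obtain ⟨x', hx'⟩ := ihx
      obtain ⟨y', hy'⟩ := ihy
      refine ⟨x' + y', ?_⟩
      have h : (⟨x + y, add_mem hx hy⟩ : FQ) = ⟨x, hx⟩ + ⟨y, hy⟩ := rfl
      rw [h, map_add, map_add, hx', hy', map_add]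
    | inv x hx ihx =>
      obtain ⟨x', hx'⟩ := ihx
      refine ⟨x'⁻¹, ?_⟩
      have h : (⟨x⁻¹, inv_mem hx⟩ : FQ) = (⟨x, hx⟩ : FQ)⁻¹ := rfl
      rw [h, map_inv₀, map_inv₀, hx', map_inv₀]
    | mul x y hx hy ihx ihy =>
      obtain ⟨x', hx'⟩ := ihx
      obtain ⟨y', hy'⟩ := ihy
      refine ⟨x' * y', ?_⟩
      have h : (⟨x * y, mul_mem hx hy⟩ : FQ) = ⟨x, hx⟩ * ⟨y, hy⟩ := rfl
      rw [h, map_mul, map_mul, hx', hy', map_mul]
  exact key x.1 x.2

include hqM in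
theorem exists_Wq_barEmb_ne_zero {x : FQ} (hx : x ≠ 0) :
    ∃ x' : FQ, x' ≠ 0 ∧ Wq hqM (barEmb (M * q) x) = barEmb (M * q) x' := by
  obtain ⟨x', hx'⟩ := exists_Wq_barEmb hqM x
  refine ⟨x', ?_, hx'⟩
  rintro rfl
  rw [map_zero, map_eq_zero_iff _ (Wq hqM).injective, map_eq_zero] at hx'
  exact hx hx'

/-! ### (I1) the value group -/

/-- the series underlying `barEmb x / q ^ n` -/
theorem coe_barEmb_mul_inv (x : FQ) (n : ℤ) (u : LaurentSeries ℚ)
    (hxu : (x : LaurentSeries ℚ) = (q : LaurentSeries ℚ) ^ n * u) :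
    ((barEmb (M * q) x * ((q : Fb (M * q)) ^ n)⁻¹ : Fb (M * q)) : LaurentSeries Kb) =
      coeffEmb Kb u := by
  have hq0 : ((q : ℕ) : LaurentSeries Kb) ≠ 0 := by
    have : ((q : ℕ) : LaurentSeries Kb) = algebraMap Kb (LaurentSeries Kb) (q : Kb) :=
      (map_natCast _ q).symm
    rw [this, Ne, map_eq_zero]
    exact_mod_cast hq.out.ne_zero
  have h1 : ((barEmb (M * q) x * ((q : Fb (M * q)) ^ n)⁻¹ : Fb (M * q)) : LaurentSeries Kb) =
      coeffEmb Kb (x : LaurentSeries ℚ) * (((q : ℕ) : LaurentSeries Kb) ^ n)⁻¹ := by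
    have := map_mul (algebraMap (Fb (M * q)) (LaurentSeries Kb)) (barEmb (M * q) x)
      (((q : Fb (M * q)) ^ n)⁻¹)
    rw [map_inv₀, map_zpow₀, map_natCast] at this
    exact this
  rw [h1, hxu, map_mul, map_zpow₀, map_natCast, mul_comm (((q : ℕ) : LaurentSeries Kb) ^ n),
    mul_assoc, mul_inv_cancel₀ (zpow_ne_zero n hq0), mul_one]

/-- **(I1)** for `w₁`, uniformly in `B`: `w₁(F^×) = v(q)^ℤ`. -/
theorem exists_zpow_O1 (x : FQ) (hx : x ≠ 0) :
    ∃ n : ℤ, ∀ (B : ValuationSubring Kb) (hB : B.LiesOverPrime q),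
      barEmb (M * q) x * ((q : Fb (M * q)) ^ n)⁻¹ ∈ O1 M B hB ∧
      (barEmb (M * q) x * ((q : Fb (M * q)) ^ n)⁻¹)⁻¹ ∈ O1 M B hB := by
  have hfrac : IsZlFraction q (x : LaurentSeries ℚ) := isZlFraction_of_mem_full q (M * q) x.2
  have hx0 : (x : LaurentSeries ℚ) ≠ 0 := fun h => hx (Subtype.ext h)
  obtain ⟨n, u, hu, hu', hxu⟩ := exists_zpow_mul_unit q hfrac hx0
  refine ⟨n, fun B hB => ⟨?_, ?_⟩⟩
  · rw [ResGen.mem_O1_iff, coe_barEmb_mul_inv x n u hxu]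
    exact coeffEmb_mem_gaussRingA B hB (IsLocalRing.residue B) (zmodToResidue B hB) hu
  · rw [ResGen.mem_O1_iff]
    have h1 : (((barEmb (M * q) x * ((q : Fb (M * q)) ^ n)⁻¹)⁻¹ : Fb (M * q)) : LaurentSeries Kb) =
        (((barEmb (M * q) x * ((q : Fb (M * q)) ^ n)⁻¹ : Fb (M * q)) : LaurentSeries Kb))⁻¹ := rfl
    rw [h1, coe_barEmb_mul_inv x n u hxu, ← map_inv₀]
    exact coeffEmb_mem_gaussRingA B hB (IsLocalRing.residue B) (zmodToResidue B hB) hu'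

include hqM in
/-- **(I1)** for `w₂`, uniformly in `B`. -/
theorem exists_zpow_O2 (x : FQ) (hx : x ≠ 0) :
    ∃ n : ℤ, ∀ (B : ValuationSubring Kb) (hB : B.LiesOverPrime q),
      barEmb (M * q) x * ((q : Fb (M * q)) ^ n)⁻¹ ∈ O2 B hB hqM ∧
      (barEmb (M * q) x * ((q : Fb (M * q)) ^ n)⁻¹)⁻¹ ∈ O2 B hB hqM := by
  obtain ⟨x', hx'0, hx'⟩ := exists_Wq_barEmb_ne_zero hqM hx
  obtain ⟨n, hn⟩ := exists_zpow_O1 x' hx'0
  refine ⟨n, fun B hB => ?_⟩
  have hW : Wq hqM (barEmb (M * q) x * ((q : Fb (M * q)) ^ n)⁻¹) =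
      barEmb (M * q) x' * ((q : Fb (M * q)) ^ n)⁻¹ := by
    rw [map_mul, map_inv₀, map_zpow₀, map_natCast, hx']
  constructor
  · rw [mem_O2_iff, hW]; exact (hn B hB).1
  · rw [mem_O2_iff, map_inv₀, hW]; exact (hn B hB).2

/-- `ℚ`-level form of (I1) for `w₁`. -/
theorem exists_zpow_O1Q (x : FQ) (hx : x ≠ 0) :
    ∃ n : ℤ, ∀ (B : ValuationSubring Kb) (hB : B.LiesOverPrime q),
      x * ((q : FQ) ^ n)⁻¹ ∈ O1Q M B hB ∧ (x * ((q : FQ) ^ n)⁻¹)⁻¹ ∈ O1Q M B hB := by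
  obtain ⟨n, hn⟩ := exists_zpow_O1 x hx
  refine ⟨n, fun B hB => ?_⟩
  have h : barEmb (M * q) (x * ((q : FQ) ^ n)⁻¹) =
      barEmb (M * q) x * ((q : Fb (M * q)) ^ n)⁻¹ := by
    rw [map_mul, map_inv₀, map_zpow₀, map_natCast]
  rw [mem_O1Q_iff, mem_O1Q_iff, map_inv₀, h]
  exact hn B hB

include hqM in
/-- `ℚ`-level form of (I1) for `w₂`. -/
theorem exists_zpow_O2Q (x : FQ) (hx : x ≠ 0) :
    ∃ n : ℤ, ∀ (B : ValuationSubring Kb) (hB : B.LiesOverPrime q),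
      x * ((q : FQ) ^ n)⁻¹ ∈ O2Q B hB hqM ∧ (x * ((q : FQ) ^ n)⁻¹)⁻¹ ∈ O2Q B hB hqM := by
  obtain ⟨n, hn⟩ := exists_zpow_O2 hqM x hx
  refine ⟨n, fun B hB => ?_⟩
  have h : barEmb (M * q) (x * ((q : FQ) ^ n)⁻¹) =
      barEmb (M * q) x * ((q : Fb (M * q)) ^ n)⁻¹ := by
    rw [map_mul, map_inv₀, map_zpow₀, map_natCast]
  rw [mem_O2Q_iff, mem_O2Q_iff, map_inv₀, h]
  exact hn B hB

/-! ### `e = 1` -/

/-- **(e = 1)** for `w₁`: `q` is a uniformizer of `O1Q`. -/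
theorem div_q_mem_O1Q {x : FQ} (hx : x ∈ (O1Q M B hB).nonunits) : x / (q : FQ) ∈ O1Q M B hB := by
  by_cases hx0 : x = 0
  · rw [hx0, zero_div]; exact (O1Q M B hB).zero_mem
  obtain ⟨n, hn⟩ := exists_zpow_O1Q x hx0
  exact div_mem_of_mem_nonunits hx0 q_ne_zero_FQ (q_mem_nonunits_O1Q B hB) (hn B hB).1
    (hn B hB).2 hx

/-- **(e = 1)** for `w₂`: `q` is a uniformizer of `O2Q`. -/
theorem div_q_mem_O2Q {x : FQ} (hx : x ∈ (O2Q B hB hqM).nonunits) :
    x / (q : FQ) ∈ O2Q B hB hqM := by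
  by_cases hx0 : x = 0
  · rw [hx0, zero_div]; exact (O2Q B hB hqM).zero_mem
  obtain ⟨n, hn⟩ := exists_zpow_O2Q hqM x hx0
  exact div_mem_of_mem_nonunits hx0 q_ne_zero_FQ (q_mem_nonunits_O2Q B hB hqM) (hn B hB).1
    (hn B hB).2 hx

/-! ### Independence of `B` -/

/-- `O1Q` does not depend on the valuation subring of `ℚ̄` over `q`. -/
theorem O1Q_eq (B' : ValuationSubring Kb) (hB' : B'.LiesOverPrime q) :
    O1Q M B hB = O1Q M B' hB' := by
  ext x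
  by_cases hx0 : x = 0
  · rw [hx0]; exact iff_of_true (O1Q M B hB).zero_mem (O1Q M B' hB').zero_mem
  obtain ⟨n, hn⟩ := exists_zpow_O1Q x hx0
  rw [mem_iff_nonneg hx0 q_ne_zero_FQ (q_mem_nonunits_O1Q B hB) (hn B hB).1 (hn B hB).2,
    mem_iff_nonneg hx0 q_ne_zero_FQ (q_mem_nonunits_O1Q B' hB') (hn B' hB').1 (hn B' hB').2]

/-- `O2Q` does not depend on the valuation subring of `ℚ̄` over `q`. -/
theorem O2Q_eq (B' : ValuationSubring Kb) (hB' : B'.LiesOverPrime q) :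
    O2Q B hB hqM = O2Q B' hB' hqM := by
  ext x
  by_cases hx0 : x = 0
  · rw [hx0]; exact iff_of_true (O2Q B hB hqM).zero_mem (O2Q B' hB' hqM).zero_mem
  obtain ⟨n, hn⟩ := exists_zpow_O2Q hqM x hx0
  rw [mem_iff_nonneg hx0 q_ne_zero_FQ (q_mem_nonunits_O2Q B hB hqM) (hn B hB).1 (hn B hB).2,
    mem_iff_nonneg hx0 q_ne_zero_FQ (q_mem_nonunits_O2Q B' hB' hqM) (hn B' hB').1 (hn B' hB').2]

/-- the chart generator `j` lies in both -/
theorem jFull_mem_O1Q : jFull (M * q) ∈ O1Q M B hB := by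
  rw [mem_O1Q_iff, barEmb_jFull]
  have h := ResGen.jBarD_mem_O1 B hB 1 (one_dvd M)
  have e : jBarD (M * q) 1 (Dvd.dvd.mul_right (one_dvd M) q) = jBar (M * q) := by
    apply Subtype.ext
    show coeffEmb Kb (qExpand ℚ 1 jq) = coeffEmb Kb jq
    rw [qExpand_one_apply]
  rwa [e] at h

theorem jFull_mem_O2Q : jFull (M * q) ∈ O2Q B hB hqM := by
  rw [mem_O2Q_iff, barEmb_jFull]
  have h := ResGen.jBarD_mem_O2 B hB hqM 1 (one_dvd M)
  have e : jBarD (M * q) 1 (Dvd.dvd.mul_right (one_dvd M) q) = jBar (M * q) := by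
    apply Subtype.ext
    show coeffEmb Kb (qExpand ℚ 1 jq) = coeffEmb Kb jq
    rw [qExpand_one_apply]
  rwa [e] at h

/-! ### The rational separators `t = j_q - j^q`, `s = j - j_q^q` -/

variable (M q) in
/-- `j(q^q)` in the `ℚ`-form. -/
def jqFull : FQ := ⟨qExpand ℚ q jq, jqd_mem_full (M * q) (dvd_mul_left q M)⟩

variable (M q) in
/-- `j` in the `ℚ`-form, written as `j(q^1)`. -/
def jOneFull : FQ := ⟨qExpand ℚ 1 jq, jqd_mem_full (M * q) (one_dvd _)⟩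

theorem jOneFull_eq : jOneFull M q = jFull (M * q) :=
  Subtype.ext (qExpand_one_apply _)

variable (M q) in
/-- `t = j_q - j^q` in the `ℚ`-form. -/
def tQ : FQ := jqFull M q - jOneFull M q ^ q

variable (M q) in
/-- `s = j - j_q^q` in the `ℚ`-form. -/
def sQ : FQ := jOneFull M q - jqFull M q ^ q

theorem barEmb_tQ : barEmb (M * q) (tQ M q) = Separate.tEl M q := by
  unfold tQ Separate.tEl
  rw [map_sub, map_pow]
  rfl

theorem barEmb_sQ : barEmb (M * q) (sQ M q) = Separate.sEl hqM := by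
  rw [Separate.sEl_eq]
  unfold sQ
  rw [map_sub, map_pow]
  rfl

theorem tQ_mem_nonunits_O1Q : tQ M q ∈ (O1Q M B hB).nonunits := by
  rw [mem_nonunits_O1Q_iff, barEmb_tQ]
  exact Separate.tEl_mem_nonunits_O1 B hB

theorem tQ_mem_O2Q : tQ M q ∈ O2Q B hB hqM := by
  rw [mem_O2Q_iff, barEmb_tQ]
  exact Separate.tEl_mem_O2 hqM B hB

theorem tQ_notMem_nonunits_O2Q : tQ M q ∉ (O2Q B hB hqM).nonunits := by
  rw [mem_nonunits_O2Q_iff, barEmb_tQ]
  exact Separate.tEl_notMem_nonunits_O2 hqM B hB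

theorem sQ_mem_nonunits_O2Q : sQ M q ∈ (O2Q B hB hqM).nonunits := by
  rw [mem_nonunits_O2Q_iff, barEmb_sQ hqM]
  exact Separate.sEl_mem_nonunits_O2 hqM B hB

include hqM in
theorem sQ_mem_O1Q : sQ M q ∈ O1Q M B hB := by
  rw [mem_O1Q_iff, barEmb_sQ hqM]
  exact Separate.sEl_mem_O1 hqM B hB

include hqM in
theorem sQ_notMem_nonunits_O1Q : sQ M q ∉ (O1Q M B hB).nonunits := by
  rw [mem_nonunits_O1Q_iff, barEmb_sQ hqM]
  exact Separate.sEl_notMem_nonunits_O1 hqM B hB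

theorem O1Q_ne_O2Q : O1Q M B hB ≠ O2Q B hB hqM := fun h =>
  tQ_notMem_nonunits_O2Q B hB hqM (h ▸ tQ_mem_nonunits_O1Q B hB)

end Level

end Fermat.Agent.BR.TwoValQ
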