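import Mathlib
import Fermat.Prelude.Def_AlgebraicCurve_DivisorClassGroup

/-!
# Program B (BADRED), node B2.ZEROCOUNT: the zeros of a polynomial in a function

`F / K` a function field in the `AlgebraicCurve.Place` vocabulary with principal divisors of
degree `0`.  For `x ∈ F` and `G ∈ K[X]` of degree `d` with `G(x) ≠ 0`:

  `deg (G(x))₀ = d * deg (x)_∞`.

Application (finding 'B2 GENUS-HYPOTHESIS NOTE (helper18)', (F2)): `F = κ_M` the function field of
`X0(M)` mod `q`, `x = j̄`, `G = F_q` (`T̄₁ = Δ^(1-q) mod q = F_q(j̄)`, `deg F_q = q - 1`),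
`deg (j̄)_∞ = ψ(M)`: the zeros of `T̄₁` (= the crossing points), counted with `ord_z(T̄₁)`, add up
to `(q - 1) ψ(M)`.  Together with `e_z * ord_z(T̄₁) = 12` (`BR/NodeThickness`) and the inequality
`#crossings ≤ (q-1) ψ(M) / 12` this forces all `e_z = 1` (`card_eq_and_forall_eq`).

* `adicValuation_aeval_le_one`, `adicValuation_aeval_eq_pow` : valuation of `G(x)` at a place;
* `ord_aeval_nonneg`, `ord_aeval_eq_mul` : the same for `ord`;
* `exists_zeroDivisor_aeval` : the global count;
* `sum_zeros_aeval` : the same as a finite sum over any finite set of places containing the zeros,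
  when all places have degree one;
* `card_eq_and_forall_eq` : the pigeonhole step.
-/

set_option autoImplicit false

namespace Fermat.Agent.BR.ZeroCount

open AlgebraicCurve Polynomial

variable {K F : Type*} [Field K] [Field F] [Algebra K F]

/-- constants are integral at every place -/
theorem adicValuation_algebraMap_le_one (v : Place K F) (c : K) :
    v.adicValuation (algebraMap K F c) ≤ 1 := by
  have h := v.adicValuation_coe ⟨algebraMap K F c, v.algebraMap_mem' c⟩
  rw [h]
  exact IsDedekindDomain.HeightOneSpectrum.intValuation_le_one _ _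

/-- nonzero constants are units at every place -/
theorem adicValuation_algebraMap_eq_one (v : Place K F) {c : K} (hc : c ≠ 0) :
    v.adicValuation (algebraMap K F c) = 1 := by
  have h1 := adicValuation_algebraMap_le_one v c
  have h2 := adicValuation_algebraMap_le_one v c⁻¹
  have h3 : v.adicValuation (algebraMap K F c) * v.adicValuation (algebraMap K F c⁻¹) = 1 := by
    rw [← map_mul, ← map_mul, mul_inv_cancel₀ hc, map_one, map_one]
  refine le_antisymm h1 ?_
  by_contra hlt
  push Not at hlt
  have h4 : v.adicValuation (algebraMap K F c) * v.adicValuation (algebraMap K F c⁻¹) < 1 := by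
    calc v.adicValuation (algebraMap K F c) * v.adicValuation (algebraMap K F c⁻¹)
        ≤ v.adicValuation (algebraMap K F c) * 1 := mul_le_mul_right h2 _
      _ = v.adicValuation (algebraMap K F c) := mul_one _
      _ < 1 := hlt
  rw [h3] at h4
  exact lt_irrefl _ h4

/-- `G(x)` is integral at a place where `x` is integral -/
theorem adicValuation_aeval_le_one (v : Place K F) {x : F} (hx : v.adicValuation x ≤ 1)
    (G : K[X]) : v.adicValuation (aeval x G) ≤ 1 := by
  rw [aeval_eq_sum_range]
  refine Valuation.map_sum_le _ (fun i _ => ?_)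
  rw [Algebra.smul_def, map_mul, map_pow]
  exact mul_le_one' (adicValuation_algebraMap_le_one v _) (pow_le_one' hx i)

/-- at a pole of `x`, `G(x)` has the valuation of its leading term -/
theorem adicValuation_aeval_eq_pow (v : Place K F) {x : F} (hx : 1 < v.adicValuation x)
    {G : K[X]} (hG : G ≠ 0) :
    v.adicValuation (aeval x G) = v.adicValuation x ^ G.natDegree := by
  have hx0 : v.adicValuation x ≠ 0 := (zero_lt_one.trans hx).ne'
  have hlead : v.adicValuation (G.coeff G.natDegree • x ^ G.natDegree) =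
      v.adicValuation x ^ G.natDegree := by
    rw [Algebra.smul_def, map_mul, map_pow, adicValuation_algebraMap_eq_one v, one_mul]
    rwa [coeff_natDegree, leadingCoeff_ne_zero]
  rw [aeval_eq_sum_range, Finset.sum_range_succ, add_comm]
  rw [Valuation.map_add_eq_of_lt_left, hlead]
  rw [hlead]
  refine Valuation.map_sum_lt _ (pow_ne_zero _ hx0) (fun i hi => ?_)
  rw [Algebra.smul_def, map_mul, map_pow]
  have hi' : i < G.natDegree := Finset.mem_range.mp hi
  calc v.adicValuation (algebraMap K F (G.coeff i)) * v.adicValuation x ^ i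
      ≤ 1 * v.adicValuation x ^ i := mul_le_mul_left (adicValuation_algebraMap_le_one v _) _
    _ = v.adicValuation x ^ i := one_mul _
    _ < v.adicValuation x ^ G.natDegree := pow_lt_pow_right₀ hx hi'

theorem ord_nonneg_iff (v : Place K F) {f : F} (hf : f ≠ 0) :
    0 ≤ v.ord f ↔ v.adicValuation f ≤ 1 := by
  have h0 := v.adicValuation_ne_zero hf
  unfold Place.ord
  rw [neg_nonneg, ← WithZero.log_one, WithZero.log_le_log h0 one_ne_zero]

theorem ord_neg_iff (v : Place K F) {f : F} (hf : f ≠ 0) :
    v.ord f < 0 ↔ 1 < v.adicValuation f := by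
  rw [← not_le, ord_nonneg_iff v hf, not_le]

/-- `G(x)` has no pole where `x` has none -/
theorem ord_aeval_nonneg (v : Place K F) {x : F} (hx : 0 ≤ v.ord x) (G : K[X]) :
    0 ≤ v.ord (aeval x G) := by
  rcases eq_or_ne (aeval x G) 0 with h0 | h0
  · rw [h0, Place.ord_zero]
  · rw [ord_nonneg_iff v h0]
    rcases eq_or_ne x 0 with rfl | hx0
    · exact adicValuation_aeval_le_one v (by simp) G
    · exact adicValuation_aeval_le_one v ((ord_nonneg_iff v hx0).mp hx) G

/-- at a pole of `x`: `ord (G(x)) = deg G * ord x` -/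
theorem ord_aeval_eq_mul (v : Place K F) {x : F} (hx : v.ord x < 0) {G : K[X]} (hG : G ≠ 0) :
    v.ord (aeval x G) = G.natDegree * v.ord x := by
  have hx0 : x ≠ 0 := by
    rintro rfl
    simp at hx
  have h1 := adicValuation_aeval_eq_pow v ((ord_neg_iff v hx0).mp hx) hG
  unfold Place.ord
  rw [h1, WithZero.log_pow]
  simp

/-- **zero count**: `deg (G(x))₀ = deg G * deg (x)_∞`. -/
theorem exists_zeroDivisor_aeval [HasPrincipalDivisors K F] (x : F) {G : K[X]}
    (hy : aeval x G ≠ 0) :
    ∃ Z P : Divisor K F, (∀ v, Z v = max (v.ord (aeval x G)) 0) ∧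
      (∀ v, P v = max (-(v.ord x)) 0) ∧
      Divisor.degree Z = G.natDegree * Divisor.degree P := by
  classical
  have hG : G ≠ 0 := by
    rintro rfl
    simp at hy
  rcases eq_or_ne x 0 with rfl | hx0
  · refine ⟨0, 0, fun v => ?_, fun v => ?_, by simp⟩
    · have h1 : (0 : ℤ) ≤ v.ord (aeval (0 : F) G) := ord_aeval_nonneg v (by simp) G
      have h2 : v.ord (aeval (0 : F) G) ≤ 0 := by
        have h3 : aeval (0 : F) G = algebraMap K F (G.coeff 0) := by
          rw [aeval_def, eval₂_at_zero]
        have hc : G.coeff 0 ≠ 0 := by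
          intro h
          apply hy
          rw [h3, h, map_zero]
        rw [h3]
        unfold Place.ord
        rw [adicValuation_algebraMap_eq_one v hc]
        simp
      have : v.ord (aeval (0 : F) G) = 0 := le_antisymm h2 h1
      simp [this]
    · simp
  · obtain ⟨Dx, hDx, _⟩ := HasPrincipalDivisors.exists_divisor (K := K) x hx0
    obtain ⟨Dy, hDy, hDy0⟩ := HasPrincipalDivisors.exists_divisor (K := K) (aeval x G) hy
    set P : Divisor K F := Finsupp.mapRange (fun n : ℤ => max (-n) 0) (by simp) Dx with hP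
    set Z : Divisor K F := Finsupp.mapRange (fun n : ℤ => max n 0) (by simp) Dy with hZ
    have hPv : ∀ v, P v = max (-(v.ord x)) 0 := fun v => by
      rw [hP, Finsupp.mapRange_apply, hDx v]
    have hZv : ∀ v, Z v = max (v.ord (aeval x G)) 0 := fun v => by
      rw [hZ, Finsupp.mapRange_apply, hDy v]
    refine ⟨Z, P, hZv, hPv, ?_⟩
    have hDyZ : Dy = Z - (G.natDegree : ℤ) • P := by
      ext v
      rw [Finsupp.sub_apply, Finsupp.smul_apply, hZv v, hPv v, hDy v, smul_eq_mul]
      rcases lt_or_ge (v.ord x) 0 with hneg | hpos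
      · rw [ord_aeval_eq_mul v hneg hG]
        have h1 : (G.natDegree : ℤ) * v.ord x ≤ 0 :=
          mul_nonpos_of_nonneg_of_nonpos (Int.natCast_nonneg _) hneg.le
        rw [max_eq_right h1, max_eq_left (by omega)]
        ring
      · have h1 := ord_aeval_nonneg v hpos G
        rw [max_eq_left h1, max_eq_right (by omega)]
        ring
    have h2 := congrArg Divisor.degree hDyZ
    rw [hDy0, map_sub, map_zsmul, smul_eq_mul] at h2
    omega

/-- **zero count, finite-sum form**: if all places have degree one and `S` is a finite set of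
places containing all zeros of `G(x)`, then `∑_{z ∈ S} max (ord_z(G(x))) 0 = deg G * deg (x)_∞`. -/
theorem sum_zeros_aeval [HasPrincipalDivisors K F] (hdeg : ∀ v : Place K F, v.deg = 1) (x : F)
    {G : K[X]} (hy : aeval x G ≠ 0) (S : Finset (Place K F))
    (hS : ∀ v : Place K F, 0 < v.ord (aeval x G) → v ∈ S) :
    ∃ P : Divisor K F, (∀ v, P v = max (-(v.ord x)) 0) ∧
      ∑ z ∈ S, max (z.ord (aeval x G)) 0 = G.natDegree * Divisor.degree P := by
  classical
  obtain ⟨Z, P, hZ, hP, hdegZ⟩ := exists_zeroDivisor_aeval (K := K) x hy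
  refine ⟨P, hP, ?_⟩
  rw [← hdegZ]
  have h1 : Divisor.degree Z = ∑ v ∈ Z.support, Z v := by
    unfold Divisor.degree
    rw [Finsupp.liftAddHom_apply, Finsupp.sum]
    refine Finset.sum_congr rfl (fun v _ => ?_)
    rw [AddMonoidHom.mulRight_apply, hdeg v]
    simp
  rw [h1]
  have hsub : Z.support ⊆ S := by
    intro v hv
    rw [Finsupp.mem_support_iff, hZ v] at hv
    apply hS v
    by_contra hle
    push Not at hle
    exact hv (max_eq_right hle)
  rw [← Finset.sum_subset hsub]
  · exact Finset.sum_congr rfl (fun v _ => (hZ v).symm)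
  · intro v _ hv
    rw [Finsupp.notMem_support_iff] at hv
    rw [← hZ v]
    exact hv

/-- **pigeonhole**: if `f ≤ m` on `S`, `∑_S f = m * n` and `#S ≤ n`, then `#S = n` and `f = m`
everywhere (`m = 12`, `f z = ord_z(T̄₁) = 12 / e_z`, `n = (q - 1) ψ(M) / 12`: all `e_z = 1`). -/
theorem card_eq_and_forall_eq {ι : Type*} (S : Finset ι) (f : ι → ℕ) {m n : ℕ} (hm : 0 < m)
    (hf : ∀ z ∈ S, f z ≤ m) (hsum : ∑ z ∈ S, f z = m * n) (hcard : S.card ≤ n) :
    S.card = n ∧ ∀ z ∈ S, f z = m := by
  have h1 : ∑ z ∈ S, f z ≤ S.card * m := by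
    have := Finset.sum_le_card_nsmul S f m hf
    simpa [smul_eq_mul] using this
  have h2 : m * n ≤ m * S.card := by
    rw [← hsum, mul_comm m S.card]; exact h1
  have h3 : n ≤ S.card := Nat.le_of_mul_le_mul_left h2 hm
  have hc : S.card = n := le_antisymm hcard h3
  refine ⟨hc, ?_⟩
  by_contra hne
  push Not at hne
  obtain ⟨z0, hz0, hz0m⟩ := hne
  have hlt : f z0 < m := lt_of_le_of_ne (hf z0 hz0) hz0m
  have h4 : ∑ z ∈ S, f z < ∑ _z ∈ S, m :=
    Finset.sum_lt_sum hf ⟨z0, hz0, hlt⟩
  rw [Finset.sum_const, smul_eq_mul, hsum, hc, mul_comm] at h4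
  exact lt_irrefl _ h4

end Fermat.Agent.BR.ZeroCount
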