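import Fermat.Agent.BR.TwoValDefs
import Fermat.Agent.BR.ValTwo

/-!
# Program B, block B1, node GAL: the Galois action and the two valuations `w₁`, `w₂`

Notation of `BR/TwoValDefs.lean`; `gal N σ := arithmeticGalois (modularFunctionFieldFull N) σ`
is the coefficientwise action of `σ ∈ Gal(ℚ̄/ℚ)` on `Fb N`.

* `Wq_gal_smul` : `W_q` is defined over `ℚ`: it commutes with `gal (M * q) σ`;
* for `σ` in the decomposition group of `B`: `gal_smul_mem_O1_iff`, `gal_smul_mem_O2_iff`,
  `gal_smul_mem_R12_iff`; `res1_gal_smul`, `res2_gal_smul` : the residue maps intertwine `σ` with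
  the coefficientwise action of the induced automorphism of the residue field;
* for `σ` in the inertia group: `res1_gal_smul_of_mem_inertia`, `res2_gal_smul_of_mem_inertia`,
  `res12_gal_smul_of_mem_inertia` : inertia acts trivially on both residue fields;
* for a Frobenius element: `coeff_res1_gal_smul_of_isFrobeniusAt`,
  `coeff_res2_gal_smul_of_isFrobeniusAt`.
-/

set_option autoImplicit false
set_option linter.style.haveILetI false
set_option linter.unusedSectionVars false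

noncomputable section

namespace Fermat.Agent.BR.GaloisTwo

open ModularCurve AlgebraicCurve HahnSeries Fermat.Agent.X0 Fermat.Agent.Val Fermat.Agent.Hecke.AL
open Fermat.Agent.BR.TwoVal Fermat.Agent.BR.ValTwo

variable {M q : ℕ} [NeZero M] [hq : Fact q.Prime] (hqM : ¬ q ∣ M)
variable (B : ValuationSubring Kb) (hB : B.LiesOverPrime q)

/-- **`W_q` is defined over `ℚ`**. -/
theorem Wq_gal_smul (σ : Kb ≃ₐ[ℚ] Kb) (x : Fb (M * q)) :
    Wq hqM (gal (M * q) σ • x) = gal (M * q) σ • Wq hqM x :=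
  atkinLehner_gal_smul hq.out (coprime_of_not_dvd hqM) σ x

variable {σ : Kb ≃ₐ[ℚ] Kb}

/-- The decomposition group of `B` preserves `w₁`. -/
theorem gal_smul_mem_O1_iff (hσ : σ ∈ B.decompositionSubgroup ℚ) {x : Fb (M * q)} :
    gal (M * q) σ • x ∈ O1 M B hB ↔ x ∈ O1 M B hB :=
  gal_smul_mem_valOne_iff (M := M) hq.out B hB hσ

/-- The decomposition group of `B` preserves `w₂`. -/
theorem gal_smul_mem_O2_iff (hσ : σ ∈ B.decompositionSubgroup ℚ) {x : Fb (M * q)} :
    gal (M * q) σ • x ∈ O2 B hB hqM ↔ x ∈ O2 B hB hqM :=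
  gal_smul_mem_valTwo_iff hq.out (coprime_of_not_dvd hqM) B hB hσ

/-- The decomposition group of `B` preserves `R12 = O1 ∩ O2`. -/
theorem gal_smul_mem_R12_iff (hσ : σ ∈ B.decompositionSubgroup ℚ) {x : Fb (M * q)} :
    gal (M * q) σ • x ∈ R12 B hB hqM ↔ x ∈ R12 B hB hqM := by
  rw [mem_R12_iff, mem_R12_iff, gal_smul_mem_O1_iff B hB hσ, gal_smul_mem_O2_iff hqM B hB hσ]

/-- `res1 (σ • x) = σ̄ (res1 x)` coefficientwise, `σ` in the decomposition group. -/
theorem res1_gal_smul (hσ : σ ∈ B.decompositionSubgroup ℚ) (x : O1 M B hB) :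
    res1 M B hB ⟨gal (M * q) σ • (x : Fb (M * q)), (gal_smul_mem_O1_iff B hB hσ).mpr x.2⟩ =
      coeffMap ((decompResAut B ⟨σ, hσ⟩ :
          IsLocalRing.ResidueField B ≃+* IsLocalRing.ResidueField B) :
        IsLocalRing.ResidueField B →+* IsLocalRing.ResidueField B) (res1 M B hB x) :=
  gaussResQbar_smul (M * q) hq.out.ne_zero hB hσ x

/-- `res2 (σ • x) = σ̄ (res2 x)` coefficientwise, `σ` in the decomposition group. -/
theorem res2_gal_smul (hσ : σ ∈ B.decompositionSubgroup ℚ) (x : O2 B hB hqM) :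
    res2 B hB hqM ⟨gal (M * q) σ • (x : Fb (M * q)),
        (gal_smul_mem_O2_iff hqM B hB hσ).mpr x.2⟩ =
      coeffMap ((decompResAut B ⟨σ, hσ⟩ :
          IsLocalRing.ResidueField B ≃+* IsLocalRing.ResidueField B) :
        IsLocalRing.ResidueField B →+* IsLocalRing.ResidueField B) (res2 B hB hqM x) :=
  resTwo_gal_smul hq.out (coprime_of_not_dvd hqM) B hB hσ x

/-- **Inertia acts trivially on the residue field of `w₁`**. -/
theorem res1_gal_smul_of_mem_inertia (hσ : σ ∈ B.inertiaSubgroupIn ℚ) (x : O1 M B hB) :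
    res1 M B hB ⟨gal (M * q) σ • (x : Fb (M * q)),
        (gal_smul_mem_O1_iff B hB (mem_decomposition_of_mem_inertiaIn hσ)).mpr x.2⟩ =
      res1 M B hB x :=
  gaussResQbar_smul_of_mem_inertiaSubgroupIn (M * q) hq.out.ne_zero hB hσ x

/-- **Inertia acts trivially on the residue field of `w₂`**. -/
theorem res2_gal_smul_of_mem_inertia (hσ : σ ∈ B.inertiaSubgroupIn ℚ) (x : O2 B hB hqM) :
    res2 B hB hqM ⟨gal (M * q) σ • (x : Fb (M * q)),
        (gal_smul_mem_O2_iff hqM B hB (mem_decomposition_of_mem_inertiaIn hσ)).mpr x.2⟩ =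
      res2 B hB hqM x :=
  resTwo_gal_smul_of_mem_inertia hq.out (coprime_of_not_dvd hqM) B hB hσ x

theorem res12_mk (x : Fb (M * q)) (hx : x ∈ R12 B hB hqM) :
    res12 B hB hqM ⟨x, hx⟩ = (res1 M B hB ⟨x, hx.1⟩, res2 B hB hqM ⟨x, hx.2⟩) := rfl

/-- Inertia acts trivially on `res12`. -/
theorem res12_gal_smul_of_mem_inertia (hσ : σ ∈ B.inertiaSubgroupIn ℚ) (x : R12 B hB hqM) :
    res12 B hB hqM ⟨gal (M * q) σ • (x : Fb (M * q)),
        (gal_smul_mem_R12_iff hqM B hB (mem_decomposition_of_mem_inertiaIn hσ)).mpr x.2⟩ =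
      res12 B hB hqM x := by
  obtain ⟨x, hx⟩ := x
  rw [res12_mk, res12_mk]
  exact Prod.ext (res1_gal_smul_of_mem_inertia B hB hσ ⟨x, hx.1⟩)
    (res2_gal_smul_of_mem_inertia hqM B hB hσ ⟨x, hx.2⟩)

/-- A Frobenius element acts on the residues of `w₁` as the coefficientwise `p`-power map. -/
theorem coeff_res1_gal_smul_of_isFrobeniusAt {p : ℕ} (hσ : B.IsFrobeniusAt σ p)
    (x : O1 M B hB) (n : ℤ) :
    (res1 M B hB ⟨gal (M * q) σ • (x : Fb (M * q)),
        (gal_smul_mem_O1_iff B hB hσ.mem_decompositionSubgroup).mpr x.2⟩).coeff n =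
      ((res1 M B hB x).coeff n) ^ p :=
  coeff_gaussResQbar_smul_of_isFrobeniusAt (M * q) hq.out.ne_zero hB hσ x n

/-- A Frobenius element acts on the residues of `w₂` as the coefficientwise `p`-power map. -/
theorem coeff_res2_gal_smul_of_isFrobeniusAt {p : ℕ} (hσ : B.IsFrobeniusAt σ p)
    (x : O2 B hB hqM) (n : ℤ) :
    (res2 B hB hqM ⟨gal (M * q) σ • (x : Fb (M * q)),
        (gal_smul_mem_O2_iff hqM B hB hσ.mem_decompositionSubgroup).mpr x.2⟩).coeff n =
      ((res2 B hB hqM x).coeff n) ^ p := by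
  rw [res2_gal_smul hqM B hB hσ.mem_decompositionSubgroup x, coeffMap_coeff]
  exact decompResAut_of_isFrobeniusAt hσ _ _

end Fermat.Agent.BR.GaloisTwo
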