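/-
Program B (BADRED), block B2 (helper22): the Gauss valuation of radius `r` on `K[X]` and on
`RatFunc K`, with values in an arbitrary `Γ₀` (Mathlib only has the real-valued `gaussNorm`).

`gN v r P = max_i v (P.coeff i) * r ^ i`.

* `coeff_le`, `gN_le_iff`, `exists_coeff_eq` : basic API of the maximum;
* `gN_add_le`, `gN_mul` : ultrametric inequality and multiplicativity;
* `gaussR v r : Valuation K[X] Γ₀`, `gaussR_X_sub_C : gaussR v r (X - C a) = max r (v a)`;
* `gaussRF v r hr : Valuation (RatFunc K) Γ₀` for `r ≠ 0`, extending `v` with `gaussRF X = r`.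
-/
import Mathlib
import Fermat.Agent.BR.NewtonPoly

set_option autoImplicit false

namespace Fermat.Agent.BR.GaussR

open Polynomial

variable {K : Type*} [Field K] {Γ₀ : Type*} [LinearOrderedCommGroupWithZero Γ₀]
  (v : Valuation K Γ₀) (r : Γ₀)

/-- the Gauss size of radius `r` of a polynomial -/
noncomputable def gN (P : K[X]) : Γ₀ := P.support.sup fun i => v (P.coeff i) * r ^ i

theorem coeff_le (P : K[X]) (i : ℕ) : v (P.coeff i) * r ^ i ≤ gN v r P := by
  by_cases hi : i ∈ P.support
  · exact Finset.le_sup (f := fun i => v (P.coeff i) * r ^ i) hi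
  · rw [notMem_support_iff.mp hi, map_zero, zero_mul]
    exact zero_le

theorem gN_le_iff (P : K[X]) (c : Γ₀) : gN v r P ≤ c ↔ ∀ i, v (P.coeff i) * r ^ i ≤ c := by
  constructor
  · intro h i
    exact (coeff_le v r P i).trans h
  · intro h
    exact Finset.sup_le fun i _ => h i

theorem gN_lt_iff (P : K[X]) {c : Γ₀} (hc : 0 < c) :
    gN v r P < c ↔ ∀ i, v (P.coeff i) * r ^ i < c := by
  constructor
  · intro h i
    exact (coeff_le v r P i).trans_lt h
  · intro h
    rw [gN, Finset.sup_lt_iff (by rwa [bot_eq_zero])]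
    exact fun i _ => h i

@[simp] theorem gN_zero : gN v r (0 : K[X]) = 0 := by
  simp [gN, bot_eq_zero]

theorem exists_coeff_eq {P : K[X]} (hP : P ≠ 0) :
    ∃ i ∈ P.support, gN v r P = v (P.coeff i) * r ^ i := by
  have hne : P.support.Nonempty := nonempty_support_iff.mpr hP
  obtain ⟨i, hi, h⟩ := Finset.exists_mem_eq_sup P.support hne fun i => v (P.coeff i) * r ^ i
  exact ⟨i, hi, h⟩

/-- the maximum is attained at some index (also for `P = 0`) -/
theorem exists_coeff_eq' (P : K[X]) : ∃ i, gN v r P = v (P.coeff i) * r ^ i := by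
  by_cases hP : P = 0
  · exact ⟨0, by simp [hP]⟩
  · obtain ⟨i, -, h⟩ := exists_coeff_eq v r hP
    exact ⟨i, h⟩

theorem gN_monomial (n : ℕ) (a : K) : gN v r (monomial n a) = v a * r ^ n := by
  apply le_antisymm
  · rw [gN_le_iff]
    intro i
    rw [coeff_monomial]
    split_ifs with h
    · rw [h]
    · rw [map_zero, zero_mul]; exact zero_le
  · have := coeff_le v r (monomial n a) n
    rwa [coeff_monomial, if_pos rfl] at this

@[simp] theorem gN_C (a : K) : gN v r (C a) = v a := by
  rw [← monomial_zero_left, gN_monomial, pow_zero, mul_one]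

@[simp] theorem gN_one : gN v r (1 : K[X]) = 1 := by
  rw [← C_1, gN_C, map_one]

@[simp] theorem gN_X : gN v r (X : K[X]) = r := by
  rw [← monomial_one_one_eq_X, gN_monomial, map_one, one_mul, pow_one]

theorem gN_X_pow (n : ℕ) : gN v r ((X : K[X]) ^ n) = r ^ n := by
  rw [← monomial_one_right_eq_X_pow, gN_monomial, map_one, one_mul]

theorem gN_eq_zero_iff (hr : r ≠ 0) (P : K[X]) : gN v r P = 0 ↔ P = 0 := by
  constructor
  · intro h
    ext i
    have h1 := coeff_le v r P i
    rw [h] at h1
    have h2 : v (P.coeff i) * r ^ i = 0 := le_antisymm h1 zero_le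
    rcases mul_eq_zero.mp h2 with h3 | h3
    · rw [coeff_zero]; exact v.zero_iff.mp h3
    · exact absurd (eq_zero_of_pow_eq_zero h3) hr
  · rintro rfl
    exact gN_zero v r

theorem gN_neg (P : K[X]) : gN v r (-P) = gN v r P := by
  apply le_antisymm
  · rw [gN_le_iff]; intro i; rw [coeff_neg, Valuation.map_neg]; exact coeff_le v r P i
  · rw [gN_le_iff]; intro i
    have := coeff_le v r (-P) i
    rwa [coeff_neg, Valuation.map_neg] at this

theorem gN_add_le (P Q : K[X]) : gN v r (P + Q) ≤ max (gN v r P) (gN v r Q) := by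
  rw [gN_le_iff]
  intro i
  rw [coeff_add]
  rcases le_total (v (P.coeff i)) (v (Q.coeff i)) with h | h
  · refine le_trans ?_ (le_max_right _ _)
    refine le_trans ?_ (coeff_le v r Q i)
    exact mul_le_mul_left ((v.map_add _ _).trans (max_le h le_rfl)) _
  · refine le_trans ?_ (le_max_left _ _)
    refine le_trans ?_ (coeff_le v r P i)
    exact mul_le_mul_left ((v.map_add _ _).trans (max_le le_rfl h)) _

/-- ultrametric bound for a finite sum, with a scaling factor -/
theorem map_sum_mul_le {ι : Type*} (s : Finset ι) (f : ι → K) (c g : Γ₀)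
    (h : ∀ i ∈ s, v (f i) * c ≤ g) : v (∑ i ∈ s, f i) * c ≤ g := by
  classical
  induction s using Finset.induction_on with
  | empty => simp
  | insert a s ha ih =>
    rw [Finset.sum_insert ha]
    have h1 := h a (Finset.mem_insert_self a s)
    have h2 := ih fun i hi => h i (Finset.mem_insert_of_mem hi)
    rcases le_total (v (f a)) (v (∑ i ∈ s, f i)) with h3 | h3
    · exact (mul_le_mul_left ((v.map_add _ _).trans (max_le h3 le_rfl)) c).trans h2
    · exact (mul_le_mul_left ((v.map_add _ _).trans (max_le le_rfl h3)) c).trans h1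

theorem gN_mul_le (P Q : K[X]) : gN v r (P * Q) ≤ gN v r P * gN v r Q := by
  rw [gN_le_iff]
  intro n
  rw [coeff_mul]
  refine map_sum_mul_le v _ _ _ _ fun x hx => ?_
  rw [Finset.HasAntidiagonal.mem_antidiagonal] at hx
  rw [← hx, map_mul, pow_add, mul_mul_mul_comm]
  exact mul_le_mul' (coeff_le v r P x.1) (coeff_le v r Q x.2)

theorem gN_mul (P Q : K[X]) : gN v r (P * Q) = gN v r P * gN v r Q := by
  classical
  refine le_antisymm (gN_mul_le v r P Q) ?_
  by_cases hP0 : gN v r P = 0
  · rw [hP0, zero_mul]; exact zero_le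
  by_cases hQ0 : gN v r Q = 0
  · rw [hQ0, mul_zero]; exact zero_le
  have hP := exists_coeff_eq' v r P
  have hQ := exists_coeff_eq' v r Q
  set i0 := Nat.find hP with hi0
  set j0 := Nat.find hQ with hj0
  have hPi : gN v r P = v (P.coeff i0) * r ^ i0 := Nat.find_spec hP
  have hQj : gN v r Q = v (Q.coeff j0) * r ^ j0 := Nat.find_spec hQ
  have hPlt : ∀ i < i0, v (P.coeff i) * r ^ i < gN v r P := fun i hi =>
    lt_of_le_of_ne (coeff_le v r P i) (fun h => Nat.find_min hP hi h.symm)
  have hQlt : ∀ j < j0, v (Q.coeff j) * r ^ j < gN v r Q := fun j hj =>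
    lt_of_le_of_ne (coeff_le v r Q j) (fun h => Nat.find_min hQ hj h.symm)
  have hrn : r ^ (i0 + j0) ≠ 0 := by
    intro h
    rw [pow_add] at h
    rcases mul_eq_zero.mp h with h | h
    · rw [h, mul_zero] at hPi; exact hP0 hPi
    · rw [h, mul_zero] at hQj; exact hQ0 hQj
  have hmain : v ((P * Q).coeff (i0 + j0)) = v (P.coeff i0 * Q.coeff j0) := by
    rw [coeff_mul]
    refine Newton.map_sum_eq_of_dominant v _ (fun x : ℕ × ℕ => P.coeff x.1 * Q.coeff x.2)
      (j := (i0, j0)) (Finset.HasAntidiagonal.mem_antidiagonal.mpr rfl) ?_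
    intro x hx hne
    rw [Finset.HasAntidiagonal.mem_antidiagonal] at hx
    refine lt_of_mul_lt_mul_right ?_ (zero_le : 0 ≤ r ^ (i0 + j0))
    rw [map_mul, map_mul]
    have e1 : v (P.coeff i0) * v (Q.coeff j0) * r ^ (i0 + j0) = gN v r P * gN v r Q := by
      rw [hPi, hQj, pow_add, mul_mul_mul_comm]
    have e2 : v (P.coeff x.1) * v (Q.coeff x.2) * r ^ (i0 + j0) =
        (v (P.coeff x.1) * r ^ x.1) * (v (Q.coeff x.2) * r ^ x.2) := by
      rw [← hx, pow_add, mul_mul_mul_comm]
    rw [e1, e2]
    by_cases h1 : x.1 < i0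
    · exact mul_lt_mul_of_lt_of_le_of_nonneg_of_pos (hPlt _ h1) (coeff_le v r Q _) zero_le
        (zero_lt_iff.mpr hQ0)
    · have h2 : x.2 < j0 := by
        by_contra h2
        apply hne
        have : x.1 = i0 ∧ x.2 = j0 := by omega
        exact Prod.ext this.1 this.2
      exact mul_lt_mul_of_le_of_lt_of_nonneg_of_pos (coeff_le v r P _) (hQlt _ h2) zero_le
        (zero_lt_iff.mpr hP0)
  calc gN v r P * gN v r Q = v ((P * Q).coeff (i0 + j0)) * r ^ (i0 + j0) := by
        rw [hmain, map_mul, hPi, hQj, pow_add, mul_mul_mul_comm]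
    _ ≤ gN v r (P * Q) := coeff_le v r _ _

/-- The Gauss valuation of radius `r` on `K[X]`. -/
noncomputable def gaussR : Valuation K[X] Γ₀ where
  toFun := gN v r
  map_zero' := gN_zero v r
  map_one' := gN_one v r
  map_mul' := gN_mul v r
  map_add_le_max' := gN_add_le v r

@[simp] theorem gaussR_apply (P : K[X]) : gaussR v r P = gN v r P := rfl

theorem gaussR_C (a : K) : gaussR v r (C a) = v a := gN_C v r a

theorem gaussR_X : gaussR v r (X : K[X]) = r := gN_X v r

theorem gaussR_X_sub_C (a : K) : gaussR v r (X - C a) = max r (v a) := by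
  rw [gaussR_apply]
  apply le_antisymm
  · rw [sub_eq_add_neg]
    refine (gN_add_le v r X (-C a)).trans ?_
    rw [gN_neg, gN_C, gN_X]
  · apply max_le
    · have := coeff_le v r (X - C a) 1
      rwa [coeff_sub, coeff_X_one, coeff_C_succ, sub_zero, map_one, one_mul, pow_one] at this
    · have := coeff_le v r (X - C a) 0
      rwa [coeff_sub, coeff_X_zero, coeff_C_zero, zero_sub, Valuation.map_neg, pow_zero,
        mul_one] at this

theorem gaussR_X_add_C (a : K) : gaussR v r (X + C a) = max r (v a) := by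
  have := gaussR_X_sub_C v r (-a)
  rwa [C_neg, sub_neg_eq_add, Valuation.map_neg] at this

/-- the Gauss size of a product of linear factors -/
theorem gaussR_prodX (s : Multiset K) :
    gaussR v r (Newton.prodX s) = (s.map fun a => max r (v a)).prod := by
  induction s using Multiset.induction_on with
  | empty => simp
  | cons a s ih =>
    rw [Newton.prodX_cons, map_mul, ih, gaussR_X_sub_C, Multiset.map_cons, Multiset.prod_cons]

/-- monotonicity in the radius -/
theorem gN_mono {r r' : Γ₀} (h : r ≤ r') (P : K[X]) : gN v r P ≤ gN v r' P := by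
  rw [gN_le_iff]
  intro i
  exact (mul_le_mul' le_rfl (pow_le_pow_left₀ zero_le h i)).trans (coeff_le v r' P i)

/-! ### Evaluation: the maximum principle on the closed disc -/

theorem map_eval_le (P : K[X]) {y : K} (hy : v y ≤ r) : v (P.eval y) ≤ gN v r P := by
  rw [eval_eq_sum_range]
  refine v.map_sum_le fun i _ => ?_
  rw [map_mul, map_pow]
  exact (mul_le_mul' le_rfl (pow_le_pow_left₀ zero_le hy i)).trans (coeff_le v r P i)

/-! ### Extension to rational functions -/

theorem supp_gaussR (hr : r ≠ 0) : (gaussR v r).supp = ⊥ := by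
  rw [eq_bot_iff]
  intro P hP
  rw [Valuation.mem_supp_iff, gaussR_apply, gN_eq_zero_iff v r hr] at hP
  rw [hP]; exact Ideal.zero_mem _

theorem nonZeroDivisors_le_primeCompl (hr : r ≠ 0) :
    nonZeroDivisors K[X] ≤ (gaussR v r).supp.primeCompl := by
  intro P hP
  rw [Ideal.mem_primeCompl_iff, Valuation.mem_supp_iff, gaussR_apply, gN_eq_zero_iff v r hr]
  exact nonZeroDivisors.ne_zero hP

/-- The Gauss valuation of radius `r ≠ 0` on `RatFunc K`. -/
noncomputable def gaussRF (hr : r ≠ 0) : Valuation (RatFunc K) Γ₀ :=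
  (gaussR v r).extendToLocalization (nonZeroDivisors_le_primeCompl v r hr) (RatFunc K)

theorem gaussRF_algebraMap (hr : r ≠ 0) (P : K[X]) :
    gaussRF v r hr (algebraMap K[X] (RatFunc K) P) = gN v r P := by
  rw [gaussRF, Valuation.extendToLocalization_apply_map_apply, gaussR_apply]

theorem gaussRF_C (hr : r ≠ 0) (a : K) : gaussRF v r hr (RatFunc.C a) = v a := by
  rw [← RatFunc.algebraMap_C, gaussRF_algebraMap, gN_C]

theorem gaussRF_X (hr : r ≠ 0) : gaussRF v r hr (RatFunc.X : RatFunc K) = r := by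
  rw [← RatFunc.algebraMap_X, gaussRF_algebraMap, gN_X]

theorem gaussRF_div (hr : r ≠ 0) (P Q : K[X]) :
    gaussRF v r hr (algebraMap K[X] (RatFunc K) P / algebraMap K[X] (RatFunc K) Q) =
      gN v r P / gN v r Q := by
  rw [map_div₀, gaussRF_algebraMap, gaussRF_algebraMap]

theorem gaussRF_eq (hr : r ≠ 0) (f : RatFunc K) :
    gaussRF v r hr f = gN v r f.num / gN v r f.denom := by
  conv_lhs => rw [← RatFunc.num_div_denom f]
  exact gaussRF_div v r hr _ _

/-! ### The indices where the maximum is attained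

`loIdx` / `hiIdx` are the smallest / largest index `i` with `v (P.coeff i) * r ^ i = gN v r P`.
Both are additive under multiplication: this is the Newton polygon theorem in its sharpest form
(`loIdx` = number of roots of size `< r`, `hiIdx` = number of roots of size `≤ r`). -/

/-- `i` attains the maximum defining `gN v r P` -/
def Attains (P : K[X]) (i : ℕ) : Prop := gN v r P = v (P.coeff i) * r ^ i

theorem Attains.le_natDegree {P : K[X]} {i : ℕ} (h : Attains v r P i) (h0 : gN v r P ≠ 0) :
    i ≤ P.natDegree := by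
  by_contra hi
  rw [Attains, coeff_eq_zero_of_natDegree_lt (not_le.mp hi), map_zero, zero_mul] at h
  exact h0 h

/-- the smallest index attaining the maximum -/
noncomputable def loIdx (P : K[X]) : ℕ := by
  classical exact Nat.find (exists_coeff_eq' v r P)

/-- the largest index attaining the maximum -/
noncomputable def hiIdx (P : K[X]) : ℕ := by
  classical exact Nat.findGreatest (Attains v r P) P.natDegree

theorem attains_loIdx (P : K[X]) : Attains v r P (loIdx v r P) := by
  classical exact Nat.find_spec (exists_coeff_eq' v r P)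

theorem loIdx_le {P : K[X]} {i : ℕ} (h : Attains v r P i) : loIdx v r P ≤ i := by
  classical exact Nat.find_min' (exists_coeff_eq' v r P) h

theorem lt_of_lt_loIdx {P : K[X]} {i : ℕ} (h : i < loIdx v r P) :
    v (P.coeff i) * r ^ i < gN v r P :=
  lt_of_le_of_ne (coeff_le v r P i) fun h' => absurd (loIdx_le v r h'.symm) (not_le.mpr h)

theorem attains_hiIdx {P : K[X]} (h0 : gN v r P ≠ 0) : Attains v r P (hiIdx v r P) := by
  classical
  obtain ⟨i, hi⟩ := exists_coeff_eq' v r P
  exact Nat.findGreatest_spec (P := Attains v r P) (Attains.le_natDegree v r hi h0) hi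

theorem le_hiIdx {P : K[X]} {i : ℕ} (h : Attains v r P i) (h0 : gN v r P ≠ 0) :
    i ≤ hiIdx v r P := by
  classical exact Nat.le_findGreatest (Attains.le_natDegree v r h h0) h

theorem lt_of_hiIdx_lt {P : K[X]} {i : ℕ} (h0 : gN v r P ≠ 0) (h : hiIdx v r P < i) :
    v (P.coeff i) * r ^ i < gN v r P :=
  lt_of_le_of_ne (coeff_le v r P i) fun h' => absurd (le_hiIdx v r h'.symm h0) (not_le.mpr h)

theorem loIdx_le_hiIdx {P : K[X]} (h0 : gN v r P ≠ 0) : loIdx v r P ≤ hiIdx v r P :=
  le_hiIdx v r (attains_loIdx v r P) h0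

/-- strict ultrametric bound for a finite sum, with a scaling factor -/
theorem map_sum_mul_lt {ι : Type*} (s : Finset ι) (f : ι → K) (c g : Γ₀) (hg : g ≠ 0)
    (h : ∀ i ∈ s, v (f i) * c < g) : v (∑ i ∈ s, f i) * c < g := by
  classical
  induction s using Finset.induction_on with
  | empty => simpa using zero_lt_iff.mpr hg
  | insert a s ha ih =>
    rw [Finset.sum_insert ha]
    have h1 := h a (Finset.mem_insert_self a s)
    have h2 := ih fun i hi => h i (Finset.mem_insert_of_mem hi)
    rcases le_total (v (f a)) (v (∑ i ∈ s, f i)) with h3 | h3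
    · exact (mul_le_mul_left ((v.map_add _ _).trans (max_le h3 le_rfl)) c).trans_lt h2
    · exact (mul_le_mul_left ((v.map_add _ _).trans (max_le le_rfl h3)) c).trans_lt h1

/-- the key step: a pair of indices which is extremal (to the left or to the right) for both
factors gives a dominant term of the product -/
theorem attains_mul_of_extremal {P Q : K[X]} (hP0 : gN v r P ≠ 0) (hQ0 : gN v r Q ≠ 0)
    {i0 j0 : ℕ} (hi0 : Attains v r P i0) (hj0 : Attains v r Q j0)
    (hex : ∀ x : ℕ × ℕ, x.1 + x.2 = i0 + j0 → x ≠ (i0, j0) →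
      v (P.coeff x.1) * r ^ x.1 < gN v r P ∨ v (Q.coeff x.2) * r ^ x.2 < gN v r Q) :
    Attains v r (P * Q) (i0 + j0) := by
  classical
  rw [Attains] at hi0 hj0
  have hmain : v ((P * Q).coeff (i0 + j0)) = v (P.coeff i0 * Q.coeff j0) := by
    rw [coeff_mul]
    refine Newton.map_sum_eq_of_dominant v _ (fun x : ℕ × ℕ => P.coeff x.1 * Q.coeff x.2)
      (j := (i0, j0)) (Finset.HasAntidiagonal.mem_antidiagonal.mpr rfl) ?_
    intro x hx hne
    rw [Finset.HasAntidiagonal.mem_antidiagonal] at hx
    refine lt_of_mul_lt_mul_right ?_ (zero_le : 0 ≤ r ^ (i0 + j0))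
    rw [map_mul, map_mul]
    have e1 : v (P.coeff i0) * v (Q.coeff j0) * r ^ (i0 + j0) = gN v r P * gN v r Q := by
      rw [hi0, hj0, pow_add, mul_mul_mul_comm]
    have e2 : v (P.coeff x.1) * v (Q.coeff x.2) * r ^ (i0 + j0) =
        (v (P.coeff x.1) * r ^ x.1) * (v (Q.coeff x.2) * r ^ x.2) := by
      rw [← hx, pow_add, mul_mul_mul_comm]
    rw [e1, e2]
    rcases hex x hx hne with h1 | h2
    · exact mul_lt_mul_of_lt_of_le_of_nonneg_of_pos h1 (coeff_le v r Q _) zero_le
        (zero_lt_iff.mpr hQ0)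
    · exact mul_lt_mul_of_le_of_lt_of_nonneg_of_pos (coeff_le v r P _) h2 zero_le
        (zero_lt_iff.mpr hP0)
  rw [Attains, gN_mul, hmain, map_mul, hi0, hj0, pow_add, mul_mul_mul_comm]

theorem loIdx_mul {P Q : K[X]} (hP0 : gN v r P ≠ 0) (hQ0 : gN v r Q ≠ 0) :
    loIdx v r (P * Q) = loIdx v r P + loIdx v r Q := by
  apply le_antisymm
  · apply loIdx_le
    refine attains_mul_of_extremal v r hP0 hQ0 (attains_loIdx v r P) (attains_loIdx v r Q) ?_
    intro x hx hne
    by_cases h1 : x.1 < loIdx v r P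
    · exact Or.inl (lt_of_lt_loIdx v r h1)
    · refine Or.inr (lt_of_lt_loIdx v r ?_)
      by_contra h2
      exact hne (Prod.ext (by simp only; omega) (by simp only; omega))
  · by_contra hlt
    rw [not_le] at hlt
    have hatt := attains_loIdx v r (P * Q)
    rw [Attains, gN_mul, coeff_mul] at hatt
    have : v (∑ x ∈ Finset.HasAntidiagonal.antidiagonal (loIdx v r (P * Q)),
        P.coeff x.1 * Q.coeff x.2) * r ^ loIdx v r (P * Q) < gN v r P * gN v r Q := by
      refine map_sum_mul_lt v _ _ _ _ (mul_ne_zero hP0 hQ0) fun x hx => ?_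
      rw [Finset.HasAntidiagonal.mem_antidiagonal] at hx
      rw [← hx, map_mul, pow_add, mul_mul_mul_comm]
      by_cases h1 : x.1 < loIdx v r P
      · exact mul_lt_mul_of_lt_of_le_of_nonneg_of_pos (lt_of_lt_loIdx v r h1) (coeff_le v r Q _)
          zero_le (zero_lt_iff.mpr hQ0)
      · have h2 : x.2 < loIdx v r Q := by omega
        exact mul_lt_mul_of_le_of_lt_of_nonneg_of_pos (coeff_le v r P _) (lt_of_lt_loIdx v r h2)
          zero_le (zero_lt_iff.mpr hP0)
    exact absurd hatt (ne_of_gt this)

theorem hiIdx_mul {P Q : K[X]} (hP0 : gN v r P ≠ 0) (hQ0 : gN v r Q ≠ 0) :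
    hiIdx v r (P * Q) = hiIdx v r P + hiIdx v r Q := by
  have hPQ0 : gN v r (P * Q) ≠ 0 := by rw [gN_mul]; exact mul_ne_zero hP0 hQ0
  apply le_antisymm
  · by_contra hlt
    rw [not_le] at hlt
    have hatt := attains_hiIdx v r hPQ0
    rw [Attains, gN_mul, coeff_mul] at hatt
    have : v (∑ x ∈ Finset.HasAntidiagonal.antidiagonal (hiIdx v r (P * Q)),
        P.coeff x.1 * Q.coeff x.2) * r ^ hiIdx v r (P * Q) < gN v r P * gN v r Q := by
      refine map_sum_mul_lt v _ _ _ _ (mul_ne_zero hP0 hQ0) fun x hx => ?_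
      rw [Finset.HasAntidiagonal.mem_antidiagonal] at hx
      rw [← hx, map_mul, pow_add, mul_mul_mul_comm]
      by_cases h1 : hiIdx v r P < x.1
      · exact mul_lt_mul_of_lt_of_le_of_nonneg_of_pos (lt_of_hiIdx_lt v r hP0 h1)
          (coeff_le v r Q _) zero_le (zero_lt_iff.mpr hQ0)
      · have h2 : hiIdx v r Q < x.2 := by omega
        exact mul_lt_mul_of_le_of_lt_of_nonneg_of_pos (coeff_le v r P _)
          (lt_of_hiIdx_lt v r hQ0 h2) zero_le (zero_lt_iff.mpr hP0)
    exact absurd hatt (ne_of_gt this)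
  · refine le_hiIdx v r ?_ hPQ0
    refine attains_mul_of_extremal v r hP0 hQ0 (attains_hiIdx v r hP0) (attains_hiIdx v r hQ0) ?_
    intro x hx hne
    by_cases h1 : hiIdx v r P < x.1
    · exact Or.inl (lt_of_hiIdx_lt v r hP0 h1)
    · refine Or.inr (lt_of_hiIdx_lt v r hQ0 ?_)
      by_contra h2
      exact hne (Prod.ext (by simp only; omega) (by simp only; omega))

/-! ### Constants and linear factors -/

theorem attains_iff_of_eq {P : K[X]} {i : ℕ} : Attains v r P i ↔ gN v r P ≤ v (P.coeff i) * r ^ i :=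
  ⟨fun h => le_of_eq h, fun h => le_antisymm h (coeff_le v r P i)⟩

theorem loIdx_C (c : K) : loIdx v r (C c) = 0 := by
  apply Nat.eq_zero_of_le_zero
  apply loIdx_le
  rw [Attains, gN_C, coeff_C_zero, pow_zero, mul_one]

theorem hiIdx_C {c : K} (hc : c ≠ 0) : hiIdx v r (C c) = 0 := by
  have h0 : gN v r (C c) ≠ 0 := by rw [gN_C]; exact (v.ne_zero_iff).mpr hc
  have := (attains_hiIdx v r h0).le_natDegree v r h0
  rwa [natDegree_C, Nat.le_zero] at this

theorem gN_X_sub_C (a : K) : gN v r (X - C a) = max r (v a) := gaussR_X_sub_C v r a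

theorem attains_X_sub_C_zero_iff (a : K) : Attains v r (X - C a) 0 ↔ r ≤ v a := by
  rw [attains_iff_of_eq, gN_X_sub_C, coeff_sub, coeff_X_zero, coeff_C_zero, zero_sub,
    Valuation.map_neg, pow_zero, mul_one, max_le_iff]
  exact ⟨fun h => h.1, fun h => ⟨h, le_rfl⟩⟩

theorem attains_X_sub_C_one_iff (a : K) : Attains v r (X - C a) 1 ↔ v a ≤ r := by
  rw [attains_iff_of_eq, gN_X_sub_C, coeff_sub, coeff_X_one, coeff_C_succ, sub_zero, map_one,
    one_mul, pow_one, max_le_iff]
  exact ⟨fun h => h.2, fun h => ⟨le_rfl, h⟩⟩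

theorem gN_X_sub_C_ne_zero (hr : r ≠ 0) (a : K) : gN v r (X - C a) ≠ 0 := by
  rw [gN_X_sub_C]
  exact ne_of_gt (lt_of_lt_of_le (zero_lt_iff.mpr hr) (le_max_left _ _))

open Classical in
theorem loIdx_X_sub_C (a : K) :
    loIdx v r (X - C a) = if v a < r then 1 else 0 := by
  split_ifs with h
  · apply le_antisymm
    · exact loIdx_le v r ((attains_X_sub_C_one_iff v r a).mpr h.le)
    · rw [Nat.one_le_iff_ne_zero]
      intro h0
      have := attains_loIdx v r (X - C a)
      rw [h0, attains_X_sub_C_zero_iff] at this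
      exact absurd h (not_lt.mpr this)
  · apply Nat.eq_zero_of_le_zero
    exact loIdx_le v r ((attains_X_sub_C_zero_iff v r a).mpr (not_lt.mp h))

open Classical in
theorem hiIdx_X_sub_C (hr : r ≠ 0) (a : K) :
    hiIdx v r (X - C a) = if v a ≤ r then 1 else 0 := by
  have h0 := gN_X_sub_C_ne_zero v r hr a
  have hle : hiIdx v r (X - C a) ≤ 1 := by
    have := (attains_hiIdx v r h0).le_natDegree v r h0
    rwa [natDegree_X_sub_C] at this
  split_ifs with h
  · exact le_antisymm hle (le_hiIdx v r ((attains_X_sub_C_one_iff v r a).mpr h) h0)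
  · by_contra hne
    have h1 : hiIdx v r (X - C a) = 1 := by omega
    have := attains_hiIdx v r h0
    rw [h1, attains_X_sub_C_one_iff] at this
    exact h this

theorem gN_prodX (s : Multiset K) :
    gN v r (Newton.prodX s) = (s.map fun a => max r (v a)).prod := gaussR_prodX v r s

theorem gN_prodX_ne_zero (hr : r ≠ 0) (s : Multiset K) : gN v r (Newton.prodX s) ≠ 0 := by
  rw [Ne, gN_eq_zero_iff v r hr]
  exact (Newton.prodX_monic s).ne_zero

open Classical in
/-- **Newton polygon theorem, left end**: the smallest index attaining the Gauss size of radius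
`r` is the number of roots of size `< r`. -/
theorem loIdx_prodX (hr : r ≠ 0) (s : Multiset K) :
    loIdx v r (Newton.prodX s) = Multiset.countP (fun a => v a < r) s := by
  induction s using Multiset.induction_on with
  | empty =>
    rw [Newton.prodX_zero, Multiset.countP_zero, ← C_1]
    exact loIdx_C v r 1
  | cons a s ih =>
    rw [Newton.prodX_cons, loIdx_mul v r (gN_X_sub_C_ne_zero v r hr a) (gN_prodX_ne_zero v r hr s),
      ih, loIdx_X_sub_C v r, Multiset.countP_cons, add_comm]

open Classical in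
/-- **Newton polygon theorem, right end**: the largest index attaining the Gauss size of radius
`r` is the number of roots of size `≤ r`. -/
theorem hiIdx_prodX (hr : r ≠ 0) (s : Multiset K) :
    hiIdx v r (Newton.prodX s) = Multiset.countP (fun a => v a ≤ r) s := by
  induction s using Multiset.induction_on with
  | empty =>
    rw [Newton.prodX_zero, Multiset.countP_zero, ← C_1]
    exact hiIdx_C v r one_ne_zero
  | cons a s ih =>
    rw [Newton.prodX_cons, hiIdx_mul v r (gN_X_sub_C_ne_zero v r hr a) (gN_prodX_ne_zero v r hr s),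
      ih, hiIdx_X_sub_C v r hr, Multiset.countP_cons, add_comm]

theorem gN_C_mul (c : K) (P : K[X]) : gN v r (C c * P) = v c * gN v r P := by
  rw [gN_mul, gN_C]

open Classical in
theorem loIdx_C_mul_prodX (hr : r ≠ 0) {c : K} (hc : c ≠ 0) (s : Multiset K) :
    loIdx v r (C c * Newton.prodX s) = Multiset.countP (fun a => v a < r) s := by
  rw [loIdx_mul v r (by rw [gN_C]; exact (v.ne_zero_iff).mpr hc) (gN_prodX_ne_zero v r hr s),
    loIdx_C v r c, zero_add, loIdx_prodX v r hr]

open Classical in
theorem hiIdx_C_mul_prodX (hr : r ≠ 0) {c : K} (hc : c ≠ 0) (s : Multiset K) :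
    hiIdx v r (C c * Newton.prodX s) = Multiset.countP (fun a => v a ≤ r) s := by
  rw [hiIdx_mul v r (by rw [gN_C]; exact (v.ne_zero_iff).mpr hc) (gN_prodX_ne_zero v r hr s),
    hiIdx_C v r hc, zero_add, hiIdx_prodX v r hr]

/-- a split polynomial in the form consumed by the lemmas above -/
theorem eq_C_mul_prodX_of_splits {P : K[X]} (hP : P.Splits) :
    P = C P.leadingCoeff * Newton.prodX P.roots := hP.eq_prod_roots

open Classical in
/-- For a split polynomial, the coefficient of index `#{roots of size ≤ r}` attains the Gauss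
size of radius `r`, and so does the one of index `#{roots of size < r}`. -/
theorem attains_countP_of_splits (hr : r ≠ 0) {P : K[X]} (hP : P.Splits) (hP0 : P ≠ 0) :
    Attains v r P (Multiset.countP (fun a => v a < r) P.roots) ∧
      Attains v r P (Multiset.countP (fun a => v a ≤ r) P.roots) := by
  have hc : P.leadingCoeff ≠ 0 := leadingCoeff_ne_zero.mpr hP0
  have h0 : gN v r P ≠ 0 := by rwa [Ne, gN_eq_zero_iff v r hr]
  constructor
  · have := attains_loIdx v r P
    rwa [eq_C_mul_prodX_of_splits hP, loIdx_C_mul_prodX v r hr hc, ← eq_C_mul_prodX_of_splits hP]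
      at this
  · have := attains_hiIdx v r h0
    rwa [eq_C_mul_prodX_of_splits hP, hiIdx_C_mul_prodX v r hr hc, ← eq_C_mul_prodX_of_splits hP]
      at this

/-! ### Comparison of two radii -/

/-- Indices attaining the maximum move to the right when the radius grows. -/
theorem hiIdx_le_loIdx {r r' : Γ₀} (hrr' : r < r') {P : K[X]} (h0 : gN v r P ≠ 0) :
    hiIdx v r P ≤ loIdx v r' P := by
  by_contra hlt
  rw [not_le] at hlt
  set i := hiIdx v r P with hi
  set j := loIdx v r' P with hj
  have hAi : Attains v r P i := attains_hiIdx v r h0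
  have hAj : Attains v r' P j := attains_loIdx v r' P
  have h0' : gN v r' P ≠ 0 :=
    ne_of_gt (lt_of_lt_of_le (zero_lt_iff.mpr h0) (gN_mono v hrr'.le P))
  have hr' : r' ≠ 0 := ne_of_gt (lt_of_le_of_lt zero_le hrr')
  have hci : v (P.coeff i) ≠ 0 := by
    intro h; rw [Attains, h, zero_mul] at hAi; exact h0 hAi
  have hcj : v (P.coeff j) ≠ 0 := by
    intro h; rw [Attains, h, zero_mul] at hAj; exact h0' hAj
  -- `|a_j| r^j ≤ |a_i| r^i` and `|a_i| r'^i ≤ |a_j| r'^j`
  have h1 : v (P.coeff j) * r ^ j ≤ v (P.coeff i) * r ^ i := by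
    rw [← hAi]; exact coeff_le v r P j
  have h2 : v (P.coeff i) * r' ^ i ≤ v (P.coeff j) * r' ^ j := by
    rw [← hAj]; exact coeff_le v r' P i
  obtain ⟨d, hd⟩ : ∃ d, i = j + (d + 1) := ⟨i - j - 1, by omega⟩
  have ei : r ^ i = r ^ j * r ^ (d + 1) := by rw [hd, pow_add]
  have ei' : r' ^ i = r' ^ j * r' ^ (d + 1) := by rw [hd, pow_add]
  have hrj : r ^ j ≠ 0 := by
    intro h
    rw [Attains, ei, h, zero_mul, mul_zero] at hAi
    exact h0 hAi
  have h3 := mul_le_mul' h1 h2
  rw [ei] at h3
  rw [ei'] at h3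
  have h4 : (v (P.coeff j) * v (P.coeff i) * r ^ j * r' ^ j) * r' ^ (d + 1) ≤
      (v (P.coeff j) * v (P.coeff i) * r ^ j * r' ^ j) * r ^ (d + 1) := by
    calc (v (P.coeff j) * v (P.coeff i) * r ^ j * r' ^ j) * r' ^ (d + 1)
        = v (P.coeff j) * r ^ j * (v (P.coeff i) * (r' ^ j * r' ^ (d + 1))) := by ac_rfl
      _ ≤ v (P.coeff i) * (r ^ j * r ^ (d + 1)) * (v (P.coeff j) * r' ^ j) := h3
      _ = (v (P.coeff j) * v (P.coeff i) * r ^ j * r' ^ j) * r ^ (d + 1) := by ac_rfl
  have hne : v (P.coeff j) * v (P.coeff i) * r ^ j * r' ^ j ≠ 0 :=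
    mul_ne_zero (mul_ne_zero (mul_ne_zero hcj hci) hrj) (pow_ne_zero _ hr')
  have h5 : r' ^ (d + 1) ≤ r ^ (d + 1) :=
    le_of_mul_le_mul_left h4 (zero_lt_iff.mpr hne)
  exact absurd h5 (not_le.mpr (pow_lt_pow_left₀ hrr' zero_le (Nat.succ_ne_zero d)))

/-! ### Evaluation on the circle of radius `r` -/

theorem eval_prodX (s : Multiset K) (y : K) :
    (Newton.prodX s).eval y = (s.map fun a => y - a).prod := by
  induction s using Multiset.induction_on with
  | empty => simp
  | cons a s ih =>
    rw [Newton.prodX_cons, eval_mul, ih, eval_sub, eval_X, eval_C, Multiset.map_cons,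
      Multiset.prod_cons]

theorem map_eval_prodX (s : Multiset K) (y : K) :
    v ((Newton.prodX s).eval y) = (s.map fun a => v (y - a)).prod := by
  rw [eval_prodX, map_multiset_prod, Multiset.map_map]
  rfl

/-- termwise comparison of two products in `Γ₀` -/
theorem prod_map_le_and_eq_iff {α : Type*} (s : Multiset α) (f g : α → Γ₀)
    (hle : ∀ a ∈ s, f a ≤ g a) (hg : ∀ a ∈ s, g a ≠ 0) :
    (s.map f).prod ≤ (s.map g).prod ∧ (s.map g).prod ≠ 0 ∧
      ((s.map f).prod = (s.map g).prod ↔ ∀ a ∈ s, f a = g a) := by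
  induction s using Multiset.induction_on with
  | empty => simp
  | cons a s ih =>
    obtain ⟨h1, h2, h3⟩ := ih (fun b hb => hle b (Multiset.mem_cons_of_mem hb))
      (fun b hb => hg b (Multiset.mem_cons_of_mem hb))
    have ha := hle a (Multiset.mem_cons_self a s)
    have hga := hg a (Multiset.mem_cons_self a s)
    simp only [Multiset.map_cons, Multiset.prod_cons, Multiset.mem_cons, forall_eq_or_imp]
    refine ⟨mul_le_mul' ha h1, mul_ne_zero hga h2, ?_⟩
    constructor
    · intro h
      have hfa : f a = g a := by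
        by_contra hne
        have hlt : f a < g a := lt_of_le_of_ne ha hne
        have : f a * (s.map f).prod < g a * (s.map g).prod :=
          mul_lt_mul_of_lt_of_le_of_nonneg_of_pos hlt h1 zero_le (zero_lt_iff.mpr h2)
        exact absurd h (ne_of_lt this)
      refine ⟨hfa, h3.mp ?_⟩
      rw [hfa] at h
      exact mul_left_cancel₀ hga h
    · rintro ⟨hfa, hs⟩
      rw [hfa, h3.mpr hs]

theorem map_sub_le_max_radius {y : K} (hy : v y ≤ r) (a : K) : v (y - a) ≤ max r (v a) :=
  (v.map_sub y a).trans (max_le_max hy le_rfl)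

/-- On the circle `v y = r`, the factor `y - a` has the size `max r (v a)` unless `a` lies in the
open disc of radius `r` around `y`. -/
theorem map_sub_eq_max_iff {y : K} (hy : v y = r) (a : K) :
    v (y - a) = max r (v a) ↔ r ≤ v (y - a) := by
  constructor
  · intro h; rw [h]; exact le_max_left _ _
  · intro h
    apply le_antisymm (map_sub_le_max_radius v r hy.le a)
    apply max_le h
    -- `v a ≤ max (v y) (v (y - a))`
    have : v a ≤ max (v y) (v (y - a)) := by
      have h1 : a = y - (y - a) := by ring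
      calc v a = v (y - (y - a)) := by rw [← h1]
        _ ≤ max (v y) (v (y - a)) := v.map_sub _ _
    rw [hy] at this
    exact this.trans (max_le h le_rfl)

/-- **Maximum principle, equality case.** For a split polynomial `P = c ∏ (X - a)` and a point `y`
on the circle of radius `r`, `v (P y)` equals the Gauss size of radius `r` iff no root of `P` lies
in the open disc of radius `r` around `y`. -/
theorem map_eval_eq_gN_iff (hr : r ≠ 0) {c : K} (hc : c ≠ 0) (s : Multiset K) {y : K}
    (hy : v y = r) :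
    v ((C c * Newton.prodX s).eval y) = gN v r (C c * Newton.prodX s) ↔
      ∀ a ∈ s, r ≤ v (y - a) := by
  rw [eval_mul, eval_C, map_mul, map_eval_prodX, gN_C_mul, gN_prodX]
  have hvc : v c ≠ 0 := (v.ne_zero_iff).mpr hc
  obtain ⟨-, -, h3⟩ := prod_map_le_and_eq_iff s (fun a => v (y - a)) (fun a => max r (v a))
    (fun a _ => map_sub_le_max_radius v r hy.le a)
    (fun a _ => ne_of_gt (lt_of_lt_of_le (zero_lt_iff.mpr hr) (le_max_left _ _)))
  constructor
  · intro h a ha
    exact (map_sub_eq_max_iff v r hy a).mp ((h3.mp (mul_left_cancel₀ hvc h)) a ha)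
  · intro h
    rw [h3.mpr fun a ha => (map_sub_eq_max_iff v r hy a).mpr (h a ha)]

/-- the same for a split polynomial given abstractly -/
theorem map_eval_eq_gN_iff_of_splits (hr : r ≠ 0) {P : K[X]} (hP : P.Splits) (hP0 : P ≠ 0)
    {y : K} (hy : v y = r) :
    v (P.eval y) = gN v r P ↔ ∀ a ∈ P.roots, r ≤ v (y - a) := by
  have hc : P.leadingCoeff ≠ 0 := leadingCoeff_ne_zero.mpr hP0
  have := map_eval_eq_gN_iff v r hr hc P.roots hy
  rwa [← eq_C_mul_prodX_of_splits hP] at this

/-- closed form of the Gauss size of a product of linear factors -/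
theorem prod_max_eq (s : Multiset K) [DecidablePred fun a : K => v a ≤ r] :
    (s.map fun a => max r (v a)).prod =
      r ^ Multiset.countP (fun a => v a ≤ r) s * ((s.filter fun a => ¬ v a ≤ r).map v).prod := by
  induction s using Multiset.induction_on with
  | empty => simp
  | cons a s ih =>
    rw [Multiset.map_cons, Multiset.prod_cons, ih, Multiset.countP_cons]
    by_cases h : v a ≤ r
    · rw [if_pos h, Multiset.filter_cons_of_neg (p := fun a => ¬ v a ≤ r) s (not_not.mpr h),
        max_eq_left h, pow_succ]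
      ac_rfl
    · rw [if_neg h, Multiset.filter_cons_of_pos (p := fun a => ¬ v a ≤ r) s h,
        max_eq_right (not_le.mp h).le,
        Multiset.map_cons, Multiset.prod_cons, add_zero]
      ac_rfl

end Fermat.Agent.BR.GaussR
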