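/-
Program B (BADRED), block B2 (helper22): the residue map of the Gauss valuation of radius
`r = v c` on `RatFunc K` (gauge `c ∈ Kˣ`): its valuation ring `gaussRing A π c`, the residue map
`gaussRes A π c : gaussRing A π c →+* RatFunc k` with `X / c ↦ X`, kernel = `{gaussRF < 1}`,
surjective when `π` is; the indices `loIdx` / `hiIdx` are the order at `0` / the degree of the
reduction.

* `gN_comp_C_mul_X` : rescaling `X ↦ c X` turns radius `r` into radius `v c * r`;
* `FracRes` : a generic "ring of fractions with a residue map" construction;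
* `gaussRing`, `gaussRes`, `mem_gaussRing_iff`, `gaussRes_eq_zero_iff`, `gaussRes_surjective`.
-/
import Mathlib
import Fermat.Agent.BR.GaussRadius

set_option autoImplicit false

namespace Fermat.Agent.BR.GaussR

open Polynomial

/-! ### Rescaling the variable -/

section Rescale

variable {K : Type*} [Field K] {Γ₀ : Type*} [LinearOrderedCommGroupWithZero Γ₀]
  (v : Valuation K Γ₀) (r : Γ₀)

theorem map_coeff_comp_C_mul_X (c : K) (P : K[X]) (i : ℕ) :
    v ((P.comp (C c * X)).coeff i) * r ^ i = v (P.coeff i) * (v c * r) ^ i := by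
  rw [comp_C_mul_X_coeff, map_mul, map_pow, mul_pow, mul_assoc]

theorem gN_comp_C_mul_X (c : K) (P : K[X]) : gN v r (P.comp (C c * X)) = gN v (v c * r) P := by
  apply le_antisymm
  · rw [gN_le_iff]
    intro i
    rw [map_coeff_comp_C_mul_X]
    exact coeff_le v _ P i
  · rw [gN_le_iff]
    intro i
    rw [← map_coeff_comp_C_mul_X]
    exact coeff_le v r _ i

theorem attains_comp_C_mul_X_iff (c : K) (P : K[X]) (i : ℕ) :
    Attains v r (P.comp (C c * X)) i ↔ Attains v (v c * r) P i := by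
  rw [Attains, Attains, gN_comp_C_mul_X, map_coeff_comp_C_mul_X]

theorem loIdx_comp_C_mul_X (c : K) (P : K[X]) :
    loIdx v r (P.comp (C c * X)) = loIdx v (v c * r) P := by
  apply le_antisymm
  · exact loIdx_le v r ((attains_comp_C_mul_X_iff v r c P _).mpr (attains_loIdx v _ P))
  · exact loIdx_le v _ ((attains_comp_C_mul_X_iff v r c P _).mp (attains_loIdx v r _))

theorem hiIdx_comp_C_mul_X (c : K) (P : K[X]) (h0 : gN v (v c * r) P ≠ 0) :
    hiIdx v r (P.comp (C c * X)) = hiIdx v (v c * r) P := by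
  have h0' : gN v r (P.comp (C c * X)) ≠ 0 := by rwa [gN_comp_C_mul_X]
  apply le_antisymm
  · exact le_hiIdx v _ ((attains_comp_C_mul_X_iff v r c P _).mp (attains_hiIdx v r h0')) h0
  · exact le_hiIdx v r ((attains_comp_C_mul_X_iff v r c P _).mpr (attains_hiIdx v _ h0)) h0'

theorem comp_C_mul_X_comp_C_mul_X (c d : K) (P : K[X]) :
    (P.comp (C c * X)).comp (C d * X) = P.comp (C (c * d) * X) := by
  rw [comp_assoc, mul_comp, C_comp, X_comp, ← mul_assoc, ← C_mul]

theorem comp_C_mul_X_inv_cancel {c : K} (hc : c ≠ 0) (P : K[X]) :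
    (P.comp (C c * X)).comp (C c⁻¹ * X) = P := by
  rw [comp_C_mul_X_comp_C_mul_X, mul_inv_cancel₀ hc, C_1, one_mul, comp_X]

theorem comp_C_mul_X_inv_cancel' {c : K} (hc : c ≠ 0) (P : K[X]) :
    (P.comp (C c⁻¹ * X)).comp (C c * X) = P := by
  rw [comp_C_mul_X_comp_C_mul_X, inv_mul_cancel₀ hc, C_1, one_mul, comp_X]

end Rescale

/-! ### A generic ring of fractions with a residue map -/

namespace FracRes

variable {R L κ : Type*} [CommRing R] [Field L] [Field κ] (ι : R →+* L) (ρ : R →+* κ)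

/-- `x` is a fraction `ι a / ι b` with `ρ b ≠ 0` -/
def IsInt (x : L) : Prop := ∃ a b : R, ρ b ≠ 0 ∧ x * ι b = ι a

/-- the ring of fractions with denominator nonzero under `ρ` -/
def gring : Subring L where
  carrier := {x | IsInt ι ρ x}
  mul_mem' := by
    rintro x y ⟨a, b, hb, hab⟩ ⟨a', b', hb', hab'⟩
    refine ⟨a * a', b * b', ?_, ?_⟩
    · rw [map_mul]; exact mul_ne_zero hb hb'
    · rw [map_mul, map_mul, ← hab, ← hab']; ring
  one_mem' := ⟨1, 1, by rw [map_one]; exact one_ne_zero, by simp⟩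
  add_mem' := by
    rintro x y ⟨a, b, hb, hab⟩ ⟨a', b', hb', hab'⟩
    refine ⟨a * b' + a' * b, b * b', ?_, ?_⟩
    · rw [map_mul]; exact mul_ne_zero hb hb'
    · rw [map_add, map_mul, map_mul, map_mul, ← hab, ← hab']; ring
  zero_mem' := ⟨0, 1, by rw [map_one]; exact one_ne_zero, by simp⟩
  neg_mem' := by
    rintro x ⟨a, b, hb, hab⟩
    exact ⟨-a, b, hb, by rw [map_neg, ← hab]; ring⟩

theorem mem_gring_iff {x : L} :
    x ∈ gring ι ρ ↔ ∃ a b : R, ρ b ≠ 0 ∧ x * ι b = ι a := Iff.rfl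

theorem ι_mem (a : R) : ι a ∈ gring ι ρ :=
  ⟨a, 1, by rw [map_one]; exact one_ne_zero, by simp⟩

/-- the residue of an element of the ring (auxiliary function) -/
noncomputable def resFun (x : gring ι ρ) : κ :=
  ρ (Classical.choose x.2) / ρ (Classical.choose (Classical.choose_spec x.2))

variable (hι : Function.Injective ι)
include hι

theorem resFun_eq (x : gring ι ρ) {a b : R} (hb : ρ b ≠ 0) (hab : (x : L) * ι b = ι a) :
    resFun ι ρ x = ρ a / ρ b := by
  obtain ⟨hb₀, hab₀⟩ := Classical.choose_spec (Classical.choose_spec x.2)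
  set a₀ := Classical.choose x.2
  set b₀ := Classical.choose (Classical.choose_spec x.2)
  show ρ a₀ / ρ b₀ = _
  rw [div_eq_div_iff hb₀ hb]
  have h : a₀ * b = a * b₀ := by
    apply hι
    rw [map_mul, map_mul, ← hab₀, ← hab]; ring
  rw [← map_mul, ← map_mul, h]

/-- **The residue map.** -/
noncomputable def res : gring ι ρ →+* κ where
  toFun := resFun ι ρ
  map_one' := by
    rw [resFun_eq ι ρ hι 1 (a := 1) (b := 1) (by rw [map_one]; exact one_ne_zero) (by simp)]
    simp
  map_zero' := by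
    rw [resFun_eq ι ρ hι 0 (a := 0) (b := 1) (by rw [map_one]; exact one_ne_zero) (by simp)]
    simp
  map_mul' := by
    intro x y
    obtain ⟨a, b, hb, hab⟩ := (mem_gring_iff ι ρ).mp x.2
    obtain ⟨a', b', hb', hab'⟩ := (mem_gring_iff ι ρ).mp y.2
    rw [resFun_eq ι ρ hι x hb hab, resFun_eq ι ρ hι y hb' hab',
      resFun_eq ι ρ hι (x * y) (a := a * a') (b := b * b')
        (by rw [map_mul]; exact mul_ne_zero hb hb')
        (by rw [Subring.coe_mul, map_mul, map_mul, ← hab, ← hab']; ring),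
      map_mul, map_mul, div_mul_div_comm]
  map_add' := by
    intro x y
    obtain ⟨a, b, hb, hab⟩ := (mem_gring_iff ι ρ).mp x.2
    obtain ⟨a', b', hb', hab'⟩ := (mem_gring_iff ι ρ).mp y.2
    rw [resFun_eq ι ρ hι x hb hab, resFun_eq ι ρ hι y hb' hab',
      resFun_eq ι ρ hι (x + y) (a := a * b' + a' * b) (b := b * b')
        (by rw [map_mul]; exact mul_ne_zero hb hb')
        (by rw [Subring.coe_add, map_add, map_mul, map_mul, map_mul, ← hab, ← hab']; ring),
      map_add, map_mul, map_mul, map_mul, div_add_div _ _ hb hb',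
      mul_comm (ρ a') (ρ b)]

theorem res_eq (x : gring ι ρ) {a b : R} (hb : ρ b ≠ 0) (hab : (x : L) * ι b = ι a) :
    res ι ρ hι x = ρ a / ρ b :=
  resFun_eq ι ρ hι x hb hab

theorem res_ι (a : R) : res ι ρ hι ⟨ι a, ι_mem ι ρ a⟩ = ρ a := by
  rw [res_eq ι ρ hι _ (a := a) (b := 1) (by rw [map_one]; exact one_ne_zero) (by simp)]
  simp

theorem res_eq_zero_iff (x : gring ι ρ) :
    res ι ρ hι x = 0 ↔ ∃ a b : R, ρ b ≠ 0 ∧ ρ a = 0 ∧ (x : L) * ι b = ι a := by
  constructor
  · intro h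
    obtain ⟨a, b, hb, hab⟩ := (mem_gring_iff ι ρ).mp x.2
    rw [res_eq ι ρ hι x hb hab, div_eq_zero_iff] at h
    exact ⟨a, b, hb, h.resolve_right hb, hab⟩
  · rintro ⟨a, b, hb, ha, hab⟩
    rw [res_eq ι ρ hι x hb hab, ha, zero_div]

theorem ι_ne_zero_of_ρ_ne_zero {b : R} (hb : ρ b ≠ 0) : ι b ≠ 0 := by
  intro h
  apply hb
  have : b = 0 := hι (by rw [h, map_zero])
  rw [this, map_zero]

/-- Elements with nonzero residue are units of the ring. -/
theorem inv_mem_of_res_ne_zero (x : gring ι ρ) (hx : res ι ρ hι x ≠ 0) :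
    (x : L)⁻¹ ∈ gring ι ρ := by
  obtain ⟨a, b, hb, hab⟩ := (mem_gring_iff ι ρ).mp x.2
  rw [res_eq ι ρ hι x hb hab] at hx
  have ha : ρ a ≠ 0 := fun h => hx (by rw [h, zero_div])
  have hb0 := ι_ne_zero_of_ρ_ne_zero ι ρ hι hb
  have ha0 := ι_ne_zero_of_ρ_ne_zero ι ρ hι ha
  have hx0 : (x : L) ≠ 0 := by
    intro h
    rw [h, zero_mul] at hab
    exact ha0 hab.symm
  refine ⟨b, a, ha, ?_⟩
  rw [← hab]
  field_simp

theorem res_surjective (hρ : ∀ z : κ, ∃ a b : R, ρ b ≠ 0 ∧ z = ρ a / ρ b) :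
    Function.Surjective (res ι ρ hι) := by
  intro z
  obtain ⟨a, b, hb, rfl⟩ := hρ z
  have hb0 := ι_ne_zero_of_ρ_ne_zero ι ρ hι hb
  have hmem : ι a / ι b ∈ gring ι ρ := ⟨a, b, hb, by field_simp⟩
  refine ⟨⟨ι a / ι b, hmem⟩, ?_⟩
  exact res_eq ι ρ hι _ hb (by field_simp)

end FracRes

/-! ### Polynomials over the valuation ring -/

section Gauss

variable {K : Type*} [Field K] (A : ValuationSubring K) {k : Type*} [Field k] (π : A →+* k)

theorem gN_one_map_le_one (p : A[X]) : gN A.valuation 1 (p.map A.subtype) ≤ 1 := by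
  rw [gN_le_iff]
  intro i
  rw [coeff_map, one_pow, mul_one]
  exact A.valuation_le_one _

/-- the kernel of `π` is the maximal ideal as soon as it contains it -/
theorem pi_eq_zero_iff (hπ : ∀ a : A, A.valuation (a : K) < 1 → π a = 0) (a : A) :
    π a = 0 ↔ A.valuation (a : K) < 1 := by
  refine ⟨fun h => ?_, hπ a⟩
  by_contra hlt
  have h1 : A.valuation (a : K) = 1 := le_antisymm (A.valuation_le_one a) (not_lt.mp hlt)
  have hu : IsUnit a := (A.valuation_eq_one_iff a).mpr h1
  exact (hu.map π).ne_zero h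

theorem map_pi_eq_zero_iff (hπ : ∀ a : A, A.valuation (a : K) < 1 → π a = 0) (p : A[X]) :
    p.map π = 0 ↔ gN A.valuation 1 (p.map A.subtype) < 1 := by
  rw [gN_lt_iff _ _ _ zero_lt_one]
  constructor
  · intro h i
    have : π (p.coeff i) = 0 := by rw [← coeff_map, h, coeff_zero]
    rw [coeff_map, one_pow, mul_one]
    exact (pi_eq_zero_iff A π hπ _).mp this
  · intro h
    ext i
    rw [coeff_map, coeff_zero]
    have := h i
    rw [coeff_map, one_pow, mul_one] at this
    exact hπ _ this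

theorem gN_one_map_eq_one_iff (hπ : ∀ a : A, A.valuation (a : K) < 1 → π a = 0) (p : A[X]) :
    gN A.valuation 1 (p.map A.subtype) = 1 ↔ p.map π ≠ 0 := by
  rw [Ne, map_pi_eq_zero_iff A π hπ, not_lt]
  exact ⟨fun h => h.ge, fun h => le_antisymm (gN_one_map_le_one A p) h⟩

/-- a polynomial of Gauss size `≤ 1` (radius `1`) has coefficients in `A` -/
theorem exists_map_subtype_eq {P : K[X]} (h : gN A.valuation 1 P ≤ 1) :
    ∃ p : A[X], p.map A.subtype = P := by
  have hmem : ∀ i, P.coeff i ∈ A := fun i => by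
    rw [← A.valuation_le_one_iff]
    have := (gN_le_iff A.valuation 1 P 1).mp h i
    rwa [one_pow, mul_one] at this
  refine ⟨∑ i ∈ P.support, monomial i (⟨P.coeff i, hmem i⟩ : A), ?_⟩
  rw [Polynomial.map_sum]
  conv_rhs => rw [P.as_sum_support]
  refine Finset.sum_congr rfl fun i _ => ?_
  rw [map_monomial]
  rfl

/-- the coefficients of the reduction detect the indices attaining the Gauss size -/
theorem attains_one_iff (hπ : ∀ a : A, A.valuation (a : K) < 1 → π a = 0) {p : A[X]}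
    (hp : p.map π ≠ 0) (i : ℕ) :
    Attains A.valuation 1 (p.map A.subtype) i ↔ (p.map π).coeff i ≠ 0 := by
  rw [Attains, (gN_one_map_eq_one_iff A π hπ p).mpr hp, coeff_map, coeff_map, one_pow, mul_one,
    Ne, pi_eq_zero_iff A π hπ, not_lt]
  exact ⟨fun h => h.le, fun h => le_antisymm h (A.valuation_le_one _)⟩

theorem loIdx_one_eq_natTrailingDegree (hπ : ∀ a : A, A.valuation (a : K) < 1 → π a = 0)
    {p : A[X]} (hp : p.map π ≠ 0) :
    loIdx A.valuation 1 (p.map A.subtype) = (p.map π).natTrailingDegree := by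
  apply le_antisymm
  · apply loIdx_le
    rw [attains_one_iff A π hπ hp]
    exact fun h => hp (trailingCoeff_eq_zero.mp h)
  · apply natTrailingDegree_le_of_ne_zero
    rw [← attains_one_iff A π hπ hp]
    exact attains_loIdx _ _ _

theorem hiIdx_one_eq_natDegree (hπ : ∀ a : A, A.valuation (a : K) < 1 → π a = 0)
    {p : A[X]} (hp : p.map π ≠ 0) :
    hiIdx A.valuation 1 (p.map A.subtype) = (p.map π).natDegree := by
  have h0 : gN A.valuation 1 (p.map A.subtype) ≠ 0 := by
    rw [(gN_one_map_eq_one_iff A π hπ p).mpr hp]; exact one_ne_zero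
  apply le_antisymm
  · apply le_natDegree_of_ne_zero
    rw [← attains_one_iff A π hπ hp]
    exact attains_hiIdx _ _ h0
  · refine le_hiIdx _ _ ?_ h0
    rw [attains_one_iff A π hπ hp]
    exact fun h => hp (leadingCoeff_eq_zero.mp h)

/-! ### The Gauss ring of radius `v c` and its residue map -/

/-- the Gauss valuation of radius `v c` on `RatFunc K` (gauge `c ≠ 0`) -/
noncomputable def gaugeVal (c : K) (hc : c ≠ 0) : Valuation (RatFunc K) A.ValueGroup :=
  gaussRF A.valuation (A.valuation c) ((A.valuation.ne_zero_iff).mpr hc)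

/-- polynomials over `A`, rescaled by the gauge `c`, as rational functions: `p ↦ p (X / c)` -/
noncomputable def iotaG (c : K) : A[X] →+* RatFunc K :=
  (algebraMap K[X] (RatFunc K)).comp ((compRingHom (C c⁻¹ * X)).comp (mapRingHom A.subtype))

variable {A} in
/-- reduction of polynomials over `A`, as rational functions over `k` -/
noncomputable def rhoG : A[X] →+* RatFunc k :=
  (algebraMap k[X] (RatFunc k)).comp (mapRingHom π)

theorem iotaG_apply (c : K) (p : A[X]) :
    iotaG A c p = algebraMap K[X] (RatFunc K) ((p.map A.subtype).comp (C c⁻¹ * X)) := rfl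

variable {A} in
theorem rhoG_apply (p : A[X]) : rhoG π p = algebraMap k[X] (RatFunc k) (p.map π) := rfl

variable {A} in
theorem rhoG_ne_zero_iff (p : A[X]) : rhoG π p ≠ 0 ↔ p.map π ≠ 0 := by
  rw [rhoG_apply, Ne, Ne, map_eq_zero_iff _ (RatFunc.algebraMap_injective k)]

theorem iotaG_injective {c : K} (hc : c ≠ 0) : Function.Injective (iotaG A c) := by
  intro p q h
  rw [iotaG_apply, iotaG_apply] at h
  have h1 := RatFunc.algebraMap_injective K h
  have h2 : p.map A.subtype = q.map A.subtype := by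
    have := congrArg (fun P : K[X] => P.comp (C c * X)) h1
    beta_reduce at this
    rwa [comp_C_mul_X_inv_cancel' hc, comp_C_mul_X_inv_cancel' hc] at this
  exact Polynomial.map_injective _ Subtype.val_injective h2

theorem gaugeVal_iotaG {c : K} (hc : c ≠ 0) (p : A[X]) :
    gaugeVal A c hc (iotaG A c p) = gN A.valuation 1 (p.map A.subtype) := by
  rw [gaugeVal, iotaG_apply, gaussRF_algebraMap, gN_comp_C_mul_X, map_inv₀,
    inv_mul_cancel₀ ((A.valuation.ne_zero_iff).mpr hc)]

theorem gaugeVal_iotaG_le_one {c : K} (hc : c ≠ 0) (p : A[X]) :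
    gaugeVal A c hc (iotaG A c p) ≤ 1 := by
  rw [gaugeVal_iotaG]; exact gN_one_map_le_one A p

theorem gaugeVal_iotaG_eq_one (hπ : ∀ a : A, A.valuation (a : K) < 1 → π a = 0) {c : K}
    (hc : c ≠ 0) {p : A[X]} (hp : rhoG π p ≠ 0) : gaugeVal A c hc (iotaG A c p) = 1 := by
  rw [gaugeVal_iotaG, gN_one_map_eq_one_iff A π hπ]
  exact (rhoG_ne_zero_iff π p).mp hp

/-- The valuation ring of the Gauss valuation of radius `v c`, as a ring of fractions. -/
noncomputable def gaussRing (c : K) : Subring (RatFunc K) := FracRes.gring (iotaG A c) (rhoG π)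

/-- **The residue map of the Gauss valuation of radius `v c`**, with values in `RatFunc k`;
the reduction of `X / c` is `X`. -/
noncomputable def gaussRes (c : K) (hc : c ≠ 0) : gaussRing A π c →+* RatFunc k :=
  FracRes.res (iotaG A c) (rhoG π) (iotaG_injective A hc)

theorem gaussRes_eq {c : K} (hc : c ≠ 0) (x : gaussRing A π c) {p q : A[X]} (hq : q.map π ≠ 0)
    (h : (x : RatFunc K) * iotaG A c q = iotaG A c p) :
    gaussRes A π c hc x =
      algebraMap k[X] (RatFunc k) (p.map π) / algebraMap k[X] (RatFunc k) (q.map π) :=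
  FracRes.res_eq _ _ (iotaG_injective A hc) x ((rhoG_ne_zero_iff π q).mpr hq) h

theorem iotaG_mem_gaussRing (c : K) (p : A[X]) : iotaG A c p ∈ gaussRing A π c :=
  FracRes.ι_mem _ _ p

theorem gaussRes_iotaG {c : K} (hc : c ≠ 0) (p : A[X]) :
    gaussRes A π c hc ⟨iotaG A c p, iotaG_mem_gaussRing A π c p⟩ =
      algebraMap k[X] (RatFunc k) (p.map π) :=
  FracRes.res_ι _ _ (iotaG_injective A hc) p

theorem gaugeVal_le_one_of_mem (hπ : ∀ a : A, A.valuation (a : K) < 1 → π a = 0) {c : K}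
    (hc : c ≠ 0) {x : RatFunc K} (hx : x ∈ gaussRing A π c) : gaugeVal A c hc x ≤ 1 := by
  obtain ⟨p, q, hq, h⟩ := hx
  have h1 := congrArg (gaugeVal A c hc) h
  rw [map_mul, gaugeVal_iotaG_eq_one A π hπ hc hq, mul_one] at h1
  rw [h1]
  exact gaugeVal_iotaG_le_one A hc p

/-- every rational function is, up to the gauge, a quotient of polynomials over `A` with
denominator of nonzero reduction: `x * q(X/c) = d * p(X/c)`-form used below -/
theorem exists_iotaG_of_le_one (hπ : ∀ a : A, A.valuation (a : K) < 1 → π a = 0) {c : K}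
    (hc : c ≠ 0) {x : RatFunc K} (hx : gaugeVal A c hc x ≤ 1) :
    ∃ p q : A[X], q.map π ≠ 0 ∧ x * iotaG A c q = iotaG A c p := by
  classical
  set v := A.valuation with hv
  have hvc : v c ≠ 0 := (v.ne_zero_iff).mpr hc
  set Q' := x.denom.comp (C c * X) with hQ'
  set P' := x.num.comp (C c * X) with hP'
  have hQ0 : gN v 1 Q' ≠ 0 := by
    rw [hQ', gN_comp_C_mul_X, mul_one, Ne, gN_eq_zero_iff v _ hvc]
    exact x.denom_ne_zero
  obtain ⟨i, hi⟩ := exists_coeff_eq' v 1 Q'
  rw [one_pow, mul_one] at hi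
  set d := Q'.coeff i with hd
  have hd0 : d ≠ 0 := by
    intro h
    rw [h, map_zero] at hi
    exact hQ0 hi
  have hvd : v d ≠ 0 := (v.ne_zero_iff).mpr hd0
  -- the normalised denominator
  have hQ1 : gN v 1 (C d⁻¹ * Q') = 1 := by
    rw [gN_C_mul, map_inv₀, hi, inv_mul_cancel₀ hvd]
  -- the normalised numerator
  have hx' : gaugeVal A c hc x = gN v 1 P' / gN v 1 Q' := by
    rw [gaugeVal, gaussRF_eq, hP', hQ', gN_comp_C_mul_X, gN_comp_C_mul_X, mul_one]
  have hP1 : gN v 1 (C d⁻¹ * P') ≤ 1 := by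
    rw [gN_C_mul, map_inv₀, ← hi, mul_comm, ← div_eq_mul_inv, ← hx']
    exact hx
  obtain ⟨q, hq⟩ := exists_map_subtype_eq A hQ1.le
  obtain ⟨p, hp⟩ := exists_map_subtype_eq A hP1
  refine ⟨p, q, ?_, ?_⟩
  · rw [← gN_one_map_eq_one_iff A π hπ, hq]
    exact hQ1
  · rw [iotaG_apply, iotaG_apply, hq, hp, mul_comp, mul_comp, C_comp, hQ', hP',
      comp_C_mul_X_inv_cancel hc, comp_C_mul_X_inv_cancel hc, map_mul, map_mul, mul_left_comm]
    congr 1
    have := RatFunc.num_div_denom x
    rw [div_eq_iff (by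
      rw [Ne, map_eq_zero_iff _ (RatFunc.algebraMap_injective K)]
      exact x.denom_ne_zero)] at this
    exact this.symm

theorem mem_gaussRing_iff (hπ : ∀ a : A, A.valuation (a : K) < 1 → π a = 0) {c : K}
    (hc : c ≠ 0) (x : RatFunc K) : x ∈ gaussRing A π c ↔ gaugeVal A c hc x ≤ 1 := by
  constructor
  · exact gaugeVal_le_one_of_mem A π hπ hc
  · intro hx
    obtain ⟨p, q, hq, h⟩ := exists_iotaG_of_le_one A π hπ hc hx
    exact ⟨p, q, (rhoG_ne_zero_iff π q).mpr hq, h⟩

/-- the kernel of the residue map is the open unit ball of the Gauss valuation -/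
theorem gaussRes_eq_zero_iff (hπ : ∀ a : A, A.valuation (a : K) < 1 → π a = 0) {c : K}
    (hc : c ≠ 0) (x : gaussRing A π c) :
    gaussRes A π c hc x = 0 ↔ gaugeVal A c hc (x : RatFunc K) < 1 := by
  obtain ⟨p, q, hq, h⟩ := x.2
  have hq' : q.map π ≠ 0 := (rhoG_ne_zero_iff π q).mp hq
  rw [gaussRes_eq A π hc x hq' h, div_eq_zero_iff]
  have h1 := congrArg (gaugeVal A c hc) h
  rw [map_mul, gaugeVal_iotaG_eq_one A π hπ hc hq, mul_one] at h1
  rw [h1, gaugeVal_iotaG, ← map_pi_eq_zero_iff A π hπ]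
  constructor
  · rintro (h2 | h2)
    · exact (map_eq_zero_iff _ (RatFunc.algebraMap_injective k)).mp h2
    · exact absurd ((map_eq_zero_iff _ (RatFunc.algebraMap_injective k)).mp h2) hq'
  · intro h2
    exact Or.inl (by rw [h2, map_zero])

theorem gaussRes_ne_zero_iff (hπ : ∀ a : A, A.valuation (a : K) < 1 → π a = 0) {c : K}
    (hc : c ≠ 0) (x : gaussRing A π c) :
    gaussRes A π c hc x ≠ 0 ↔ gaugeVal A c hc (x : RatFunc K) = 1 := by
  rw [Ne, gaussRes_eq_zero_iff A π hπ hc, not_lt]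
  have := gaugeVal_le_one_of_mem A π hπ hc x.2
  exact ⟨fun h => le_antisymm this h, fun h => h.ge⟩

theorem gaussRes_surjective (hπs : Function.Surjective π) {c : K} (hc : c ≠ 0) :
    Function.Surjective (gaussRes A π c hc) := by
  apply FracRes.res_surjective
  intro z
  obtain ⟨p, hp⟩ := Polynomial.map_surjective π hπs z.num
  obtain ⟨q, hq⟩ := Polynomial.map_surjective π hπs z.denom
  refine ⟨p, q, ?_, ?_⟩
  · rw [rhoG_ne_zero_iff, hq]; exact z.denom_ne_zero
  · rw [rhoG_apply, rhoG_apply, hp, hq, RatFunc.num_div_denom]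

/-! ### Constants and the coordinate -/

theorem iotaG_C (c : K) (a : A) : iotaG A c (C a) = RatFunc.C (a : K) := by
  rw [iotaG_apply, map_C, C_comp, RatFunc.algebraMap_C]
  rfl

theorem iotaG_X (c : K) : iotaG A c X = RatFunc.C c⁻¹ * RatFunc.X := by
  rw [iotaG_apply, map_X, X_comp, map_mul, RatFunc.algebraMap_C, RatFunc.algebraMap_X]

theorem C_mem_gaussRing (c : K) (a : A) : RatFunc.C (a : K) ∈ gaussRing A π c := by
  rw [← iotaG_C A c a]; exact iotaG_mem_gaussRing A π c _

theorem gaussRes_C {c : K} (hc : c ≠ 0) (a : A) :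
    gaussRes A π c hc ⟨RatFunc.C (a : K), C_mem_gaussRing A π c a⟩ = RatFunc.C (π a) := by
  have h := gaussRes_iotaG A π hc (C a)
  rw [map_C, RatFunc.algebraMap_C] at h
  rw [← h]
  congr 1
  exact Subtype.ext (iotaG_C A c a).symm

theorem X_div_mem_gaussRing (c : K) : RatFunc.C c⁻¹ * RatFunc.X ∈ gaussRing A π c := by
  rw [← iotaG_X A c]; exact iotaG_mem_gaussRing A π c _

/-- the reduction of the normalised coordinate `X / c` is the coordinate `X` of the residue
field `k(X)` -/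
theorem gaussRes_X_div {c : K} (hc : c ≠ 0) :
    gaussRes A π c hc ⟨RatFunc.C c⁻¹ * RatFunc.X, X_div_mem_gaussRing A π c⟩ = RatFunc.X := by
  have h := gaussRes_iotaG A π hc X
  rw [map_X, RatFunc.algebraMap_X] at h
  rw [← h]
  congr 1
  exact Subtype.ext (iotaG_X A c).symm

/-! ### The valuation-subring form (shape of `SemistableSetup.O`, `.res`) -/

/-- the valuation ring of the Gauss valuation of radius `v c` -/
noncomputable def gaussVS (c : K) (hc : c ≠ 0) : ValuationSubring (RatFunc K) :=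
  (gaugeVal A c hc).valuationSubring

theorem mem_gaussVS_iff {c : K} (hc : c ≠ 0) (x : RatFunc K) :
    x ∈ gaussVS A c hc ↔ gaugeVal A c hc x ≤ 1 :=
  Valuation.mem_valuationSubring_iff _ _

theorem gaussVS_le_gaussRing (hπ : ∀ a : A, A.valuation (a : K) < 1 → π a = 0) {c : K}
    (hc : c ≠ 0) : (gaussVS A c hc).toSubring ≤ gaussRing A π c := fun x hx =>
  (mem_gaussRing_iff A π hπ hc x).mpr ((mem_gaussVS_iff A hc x).mp hx)

/-- the residue map on the valuation subring -/
noncomputable def gaussResVS (hπ : ∀ a : A, A.valuation (a : K) < 1 → π a = 0) (c : K)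
    (hc : c ≠ 0) : gaussVS A c hc →+* RatFunc k :=
  (gaussRes A π c hc).comp (Subring.inclusion (gaussVS_le_gaussRing A π hπ hc))

theorem gaussResVS_apply (hπ : ∀ a : A, A.valuation (a : K) < 1 → π a = 0) {c : K}
    (hc : c ≠ 0) (x : gaussVS A c hc) :
    gaussResVS A π hπ c hc x =
      gaussRes A π c hc ⟨(x : RatFunc K), gaussVS_le_gaussRing A π hπ hc x.2⟩ := rfl

theorem gaussResVS_surjective (hπ : ∀ a : A, A.valuation (a : K) < 1 → π a = 0)
    (hπs : Function.Surjective π) {c : K} (hc : c ≠ 0) :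
    Function.Surjective (gaussResVS A π hπ c hc) := by
  intro z
  obtain ⟨x, hx⟩ := gaussRes_surjective A π hπs hc z
  have hmem : (x : RatFunc K) ∈ gaussVS A c hc :=
    (mem_gaussVS_iff A hc _).mpr ((mem_gaussRing_iff A π hπ hc _).mp x.2)
  exact ⟨⟨x, hmem⟩, hx⟩

theorem gaussResVS_eq_zero_iff_lt (hπ : ∀ a : A, A.valuation (a : K) < 1 → π a = 0) {c : K}
    (hc : c ≠ 0) (x : gaussVS A c hc) :
    gaussResVS A π hπ c hc x = 0 ↔ gaugeVal A c hc (x : RatFunc K) < 1 :=
  gaussRes_eq_zero_iff A π hπ hc _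

theorem gaussResVS_eq_zero_iff (hπ : ∀ a : A, A.valuation (a : K) < 1 → π a = 0) {c : K}
    (hc : c ≠ 0) (x : gaussVS A c hc) :
    gaussResVS A π hπ c hc x = 0 ↔ ¬ IsUnit x := by
  rw [gaussResVS_eq_zero_iff_lt]
  constructor
  · intro hlt hu
    obtain ⟨y, hy⟩ := hu.exists_right_inv
    have h1 : gaugeVal A c hc (x : RatFunc K) * gaugeVal A c hc (y : RatFunc K) = 1 := by
      have hy' : (x : RatFunc K) * (y : RatFunc K) = 1 := by
        have := congrArg (fun z : gaussVS A c hc => (z : RatFunc K)) hy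
        simpa using this
      rw [← map_mul, hy', map_one]
    have h2 : gaugeVal A c hc (y : RatFunc K) ≤ 1 := (mem_gaussVS_iff A hc _).mp y.2
    have h3 : gaugeVal A c hc (x : RatFunc K) * gaugeVal A c hc (y : RatFunc K) < 1 :=
      lt_of_le_of_lt (mul_le_mul' le_rfl h2) (by rwa [mul_one])
    exact absurd h1 (ne_of_lt h3)
  · intro hu
    by_contra hlt
    have h1 : gaugeVal A c hc (x : RatFunc K) = 1 :=
      le_antisymm ((mem_gaussVS_iff A hc _).mp x.2) (not_lt.mp hlt)
    have hx0 : (x : RatFunc K) ≠ 0 := by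
      intro h; rw [h, map_zero] at h1; exact zero_ne_one h1
    have hinv : (x : RatFunc K)⁻¹ ∈ gaussVS A c hc := by
      rw [mem_gaussVS_iff, map_inv₀, h1, inv_one]
    apply hu
    refine IsUnit.of_mul_eq_one (⟨_, hinv⟩ : gaussVS A c hc) ?_
    exact Subtype.ext (mul_inv_cancel₀ hx0)

theorem C_mem_gaussVS_iff {c : K} (hc : c ≠ 0) (a : K) :
    RatFunc.C a ∈ gaussVS A c hc ↔ a ∈ A := by
  rw [mem_gaussVS_iff, gaugeVal, gaussRF_C, A.valuation_le_one_iff]

theorem gaussResVS_C (hπ : ∀ a : A, A.valuation (a : K) < 1 → π a = 0) {c : K} (hc : c ≠ 0)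
    (a : K) (ha : a ∈ A) (ha' : RatFunc.C a ∈ gaussVS A c hc) :
    gaussResVS A π hπ c hc ⟨RatFunc.C a, ha'⟩ = RatFunc.C (π ⟨a, ha⟩) := by
  rw [gaussResVS_apply]
  exact gaussRes_C A π hc ⟨a, ha⟩

theorem X_div_mem_gaussVS {c : K} (hc : c ≠ 0) :
    RatFunc.C c⁻¹ * RatFunc.X ∈ gaussVS A c hc := by
  rw [mem_gaussVS_iff, gaugeVal, map_mul, gaussRF_C, gaussRF_X, map_inv₀,
    inv_mul_cancel₀ ((A.valuation.ne_zero_iff).mpr hc)]

theorem gaussResVS_X_div (hπ : ∀ a : A, A.valuation (a : K) < 1 → π a = 0) {c : K}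
    (hc : c ≠ 0) :
    gaussResVS A π hπ c hc ⟨RatFunc.C c⁻¹ * RatFunc.X, X_div_mem_gaussVS A hc⟩ = RatFunc.X := by
  rw [gaussResVS_apply]
  exact gaussRes_X_div A π hc

end Gauss

end Fermat.Agent.BR.GaussR
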