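/-
Program B (BADRED), block B2 (helper22): the explicit reduction of a split rational function on a
circle.  Gauge `c ≠ 0`, radius `r = v c`, `redG c a = π (a / c)` (junk `0` if `a / c ∉ A`).

For `x = e · ∏_{a ∈ s} (X - a) / ∏_{a ∈ t} (X - a)` of Gauss size `1` (radius `r`):
`gaussRes x = γ · ∏_{a ∈ s, |a| ≤ r} (X - redG a) / ∏_{a ∈ t, |a| ≤ r} (X - redG a)`, `γ ∈ kˣ`,
where `redG a = 0` for `|a| < r`: the roots inside the circle give the power of `X`, the roots on
the circle reduce to the roots of the reduction, the roots outside disappear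
(circle conservation for `K(u)`).
-/
import Mathlib
import Fermat.Agent.BR.GaussResidue

set_option autoImplicit false

namespace Fermat.Agent.BR.GaussR

open Polynomial

variable {K : Type*} [Field K] (A : ValuationSubring K) {k : Type*} [Field k] (π : A →+* k)

theorem div_mem_iff {c : K} (hc : c ≠ 0) (a : K) :
    a / c ∈ A ↔ A.valuation a ≤ A.valuation c := by
  have hvc : 0 < A.valuation c := zero_lt_iff.mpr ((A.valuation.ne_zero_iff).mpr hc)
  rw [← A.valuation_le_one_iff, map_div₀, div_le_one₀ hvc]

/-- the angular reduction `π (a / c)` (`0` outside `A`) -/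
noncomputable def redG (c a : K) : k := by
  classical exact if h : a / c ∈ A then π ⟨a / c, h⟩ else 0

theorem redG_of_mem {c a : K} (h : a / c ∈ A) : redG A π c a = π ⟨a / c, h⟩ := by
  unfold redG; rw [dif_pos h]

theorem redG_eq_zero_of_lt (hπ : ∀ a : A, A.valuation (a : K) < 1 → π a = 0) {c a : K}
    (hc : c ≠ 0) (h : A.valuation a < A.valuation c) : redG A π c a = 0 := by
  have hmem : a / c ∈ A := (div_mem_iff A hc a).mpr h.le
  rw [redG_of_mem A π hmem]
  apply hπ
  have hvc : 0 < A.valuation c := zero_lt_iff.mpr ((A.valuation.ne_zero_iff).mpr hc)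
  show A.valuation (a / c) < 1
  rw [map_div₀, div_lt_one₀ hvc]
  exact h

theorem redG_ne_zero_of_eq {c a : K} (hc : c ≠ 0) (h : A.valuation a = A.valuation c) :
    redG A π c a ≠ 0 := by
  have hmem : a / c ∈ A := (div_mem_iff A hc a).mpr h.le
  rw [redG_of_mem A π hmem]
  have hvc : A.valuation c ≠ 0 := (A.valuation.ne_zero_iff).mpr hc
  have h1 : A.valuation ((⟨a / c, hmem⟩ : A) : K) = 1 := by
    show A.valuation (a / c) = 1
    rw [map_div₀, h, div_self hvc]
  exact ((A.valuation_eq_one_iff _).mpr h1).map π |>.ne_zero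

/-- the normalised linear factor: `(X - a) / c` rescaled if `|a| ≤ |c|`, `1 - X / a` otherwise,
as a polynomial over `A` in the variable `X / c` -/
noncomputable def nfac (c a : K) : A[X] := by
  classical exact
    if h : a / c ∈ A then X - C ⟨a / c, h⟩
    else 1 - C ⟨(a / c)⁻¹, (A.mem_or_inv_mem (a / c)).resolve_left h⟩ * X

/-- the constant by which `X - a` is multiplied in `nfac` -/
noncomputable def normConst (c a : K) : K := by
  classical exact if a / c ∈ A then c⁻¹ else -a⁻¹

theorem normConst_ne_zero {c : K} (hc : c ≠ 0) (a : K) : normConst A c a ≠ 0 := by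
  unfold normConst
  split_ifs with h
  · exact inv_ne_zero hc
  · have ha : a ≠ 0 := by
      rintro rfl
      rw [zero_div] at h
      exact h A.zero_mem
    exact neg_ne_zero.mpr (inv_ne_zero ha)

theorem iotaG_nfac {c : K} (hc : c ≠ 0) (a : K) :
    iotaG A c (nfac A c a) = RatFunc.C (normConst A c a) * (RatFunc.X - RatFunc.C a) := by
  unfold nfac normConst
  split_ifs with h
  · rw [map_sub, iotaG_X, iotaG_C]
    show RatFunc.C c⁻¹ * RatFunc.X - RatFunc.C (a / c) = _
    rw [mul_sub, ← map_mul, div_eq_inv_mul]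
  · have ha : a ≠ 0 := by
      rintro rfl
      rw [zero_div] at h
      exact h A.zero_mem
    rw [map_sub, map_one, map_mul, iotaG_X, iotaG_C]
    show 1 - RatFunc.C (a / c)⁻¹ * (RatFunc.C c⁻¹ * RatFunc.X) = _
    have e1 : (a / c)⁻¹ * c⁻¹ = a⁻¹ := by field_simp
    have e2 : -a⁻¹ * a = -1 := by field_simp
    rw [← mul_assoc, ← map_mul, e1, mul_sub, ← map_mul (RatFunc.C) (-a⁻¹) a, e2, map_neg, map_neg,
      map_one]
    ring

theorem map_nfac (hπ : ∀ a : A, A.valuation (a : K) < 1 → π a = 0) (c a : K) :
    (nfac A c a).map π = by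
      classical exact if a / c ∈ A then X - C (redG A π c a) else 1 := by
  unfold nfac
  split_ifs with h
  · rw [Polynomial.map_sub, map_X, map_C, redG_of_mem A π h]
  · rw [Polynomial.map_sub, Polynomial.map_one, Polynomial.map_mul, map_C, map_X]
    have : π ⟨(a / c)⁻¹, (A.mem_or_inv_mem (a / c)).resolve_left h⟩ = 0 := by
      apply hπ
      show A.valuation (a / c)⁻¹ < 1
      rw [map_inv₀]
      apply inv_lt_one_of_one_lt₀
      rw [← not_le, A.valuation_le_one_iff]
      exact h
    rw [this, map_zero, zero_mul, sub_zero]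

/-- the normalised product of linear factors -/
noncomputable def nfprod (c : K) (s : Multiset K) : A[X] := (s.map (nfac A c)).prod

theorem iotaG_nfprod {c : K} (hc : c ≠ 0) (s : Multiset K) :
    iotaG A c (nfprod A c s) = RatFunc.C ((s.map (normConst A c)).prod) *
      algebraMap K[X] (RatFunc K) (Newton.prodX s) := by
  induction s using Multiset.induction_on with
  | empty => simp [nfprod]
  | cons a s ih =>
    unfold nfprod at ih ⊢
    rw [Multiset.map_cons, Multiset.prod_cons, map_mul, ih, iotaG_nfac A hc, Multiset.map_cons,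
      Multiset.prod_cons, Newton.prodX_cons, map_mul, map_mul, map_sub, RatFunc.algebraMap_X,
      RatFunc.algebraMap_C]
    ring

open Classical in
theorem map_nfprod (hπ : ∀ a : A, A.valuation (a : K) < 1 → π a = 0) (c : K) (s : Multiset K) :
    (nfprod A c s).map π =
      Newton.prodX ((s.filter fun a => a / c ∈ A).map (redG A π c)) := by
  induction s using Multiset.induction_on with
  | empty => simp [nfprod]
  | cons a s ih =>
    unfold nfprod at ih ⊢
    rw [Multiset.map_cons, Multiset.prod_cons, Polynomial.map_mul, ih, map_nfac A π hπ]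
    by_cases h : a / c ∈ A
    · rw [if_pos h, Multiset.filter_cons_of_pos (p := fun a => a / c ∈ A) s h, Multiset.map_cons,
        Newton.prodX_cons]
    · rw [if_neg h, Multiset.filter_cons_of_neg (p := fun a => a / c ∈ A) s h, one_mul]

theorem map_nfprod_ne_zero (hπ : ∀ a : A, A.valuation (a : K) < 1 → π a = 0) (c : K)
    (s : Multiset K) : (nfprod A c s).map π ≠ 0 := by
  classical
  rw [map_nfprod A π hπ]
  exact (Newton.prodX_monic _).ne_zero

/-- **Reduction of a split rational function on the circle of radius `v c`.** -/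
theorem gaussRes_split (hπ : ∀ a : A, A.valuation (a : K) < 1 → π a = 0) {c : K} (hc : c ≠ 0)
    (e : K) (s t : Multiset K) (x : gaussRing A π c)
    (hx : (x : RatFunc K) = RatFunc.C e * algebraMap K[X] (RatFunc K) (Newton.prodX s) /
      algebraMap K[X] (RatFunc K) (Newton.prodX t))
    (hx1 : gaugeVal A c hc (x : RatFunc K) = 1) :
    ∃ γ : k, γ ≠ 0 ∧ gaussRes A π c hc x = RatFunc.C γ *
      algebraMap k[X] (RatFunc k)
        (Newton.prodX ((s.filter fun a => A.valuation a ≤ A.valuation c).map (redG A π c))) /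
      algebraMap k[X] (RatFunc k)
        (Newton.prodX ((t.filter fun a => A.valuation a ≤ A.valuation c).map (redG A π c))) := by
  classical
  have hfilt : ∀ u : Multiset K, (u.filter fun a => A.valuation a ≤ A.valuation c) =
      u.filter fun a => a / c ∈ A :=
    fun u => Multiset.filter_congr fun a _ => (div_mem_iff A hc a).symm
  rw [hfilt s, hfilt t, ← map_nfprod A π hπ, ← map_nfprod A π hπ]
  set Ns := (s.map (normConst A c)).prod with hNs
  set Nt := (t.map (normConst A c)).prod with hNt
  have hNs0 : Ns ≠ 0 := Multiset.prod_ne_zero fun h => by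
    obtain ⟨a, -, ha⟩ := Multiset.mem_map.mp h
    exact normConst_ne_zero A hc a ha
  have hNt0 : Nt ≠ 0 := Multiset.prod_ne_zero fun h => by
    obtain ⟨a, -, ha⟩ := Multiset.mem_map.mp h
    exact normConst_ne_zero A hc a ha
  have hPt0 : algebraMap K[X] (RatFunc K) (Newton.prodX t) ≠ 0 := by
    rw [Ne, map_eq_zero_iff _ (RatFunc.algebraMap_injective K)]
    exact (Newton.prodX_monic t).ne_zero
  set g := e * Nt / Ns with hg
  -- the basic relation
  have hrel : (x : RatFunc K) * iotaG A c (nfprod A c t) =
      RatFunc.C g * iotaG A c (nfprod A c s) := by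
    rw [hx, iotaG_nfprod A hc, iotaG_nfprod A hc, ← hNs, ← hNt, hg, map_div₀, map_mul]
    have : (RatFunc.C Ns : RatFunc K) ≠ 0 := by
      rw [Ne, map_eq_zero_iff _ (RatFunc.C_injective)]; exact hNs0
    field_simp
  have hs1 : gaugeVal A c hc (iotaG A c (nfprod A c s)) = 1 :=
    gaugeVal_iotaG_eq_one A π hπ hc ((rhoG_ne_zero_iff π _).mpr (map_nfprod_ne_zero A π hπ c s))
  have ht1 : gaugeVal A c hc (iotaG A c (nfprod A c t)) = 1 :=
    gaugeVal_iotaG_eq_one A π hπ hc ((rhoG_ne_zero_iff π _).mpr (map_nfprod_ne_zero A π hπ c t))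
  have hvg : A.valuation g = 1 := by
    have := congrArg (gaugeVal A c hc) hrel
    rw [map_mul, map_mul, hx1, hs1, ht1, mul_one, mul_one, gaugeVal, gaussRF_C] at this
    exact this.symm
  have hgA : g ∈ A := (A.valuation_le_one_iff g).mp hvg.le
  have hrel' : (x : RatFunc K) * iotaG A c (nfprod A c t) =
      iotaG A c (C ⟨g, hgA⟩ * nfprod A c s) := by
    rw [hrel, map_mul, iotaG_C]
  refine ⟨π ⟨g, hgA⟩, ?_, ?_⟩
  · exact ((A.valuation_eq_one_iff _).mpr hvg).map π |>.ne_zero
  · rw [gaussRes_eq A π hc x (map_nfprod_ne_zero A π hπ c t) hrel', Polynomial.map_mul, map_C,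
      map_mul, RatFunc.algebraMap_C]

/-! ### Residue discs on the circle -/

theorem redG_eq_zero_iff (hπ : ∀ a : A, A.valuation (a : K) < 1 → π a = 0) {c a : K}
    (hc : c ≠ 0) (h : A.valuation a ≤ A.valuation c) :
    redG A π c a = 0 ↔ A.valuation a < A.valuation c := by
  constructor
  · intro h0
    by_contra hlt
    exact redG_ne_zero_of_eq A π hc (le_antisymm h (not_lt.mp hlt)) h0
  · exact redG_eq_zero_of_lt A π hπ hc

theorem redG_sub {c a b : K} (ha : a / c ∈ A) (hb : b / c ∈ A) :
    redG A π c (a - b) = redG A π c a - redG A π c b := by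
  have hab : (a - b) / c ∈ A := by rw [sub_div]; exact sub_mem ha hb
  rw [redG_of_mem A π ha, redG_of_mem A π hb, redG_of_mem A π hab, ← map_sub]
  congr 1
  exact Subtype.ext (sub_div a b c)

/-- two points of the closed disc of radius `v c` have the same angular reduction iff they lie
in the same open disc of radius `v c` (the same residue disc) -/
theorem redG_eq_iff (hπ : ∀ a : A, A.valuation (a : K) < 1 → π a = 0) {c a b : K} (hc : c ≠ 0)
    (ha : A.valuation a ≤ A.valuation c) (hb : A.valuation b ≤ A.valuation c) :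
    redG A π c a = redG A π c b ↔ A.valuation (a - b) < A.valuation c := by
  have ha' := (div_mem_iff A hc a).mpr ha
  have hb' := (div_mem_iff A hc b).mpr hb
  have hab : A.valuation (a - b) ≤ A.valuation c :=
    (A.valuation.map_sub a b).trans (max_le ha hb)
  rw [← sub_eq_zero, ← redG_sub A π ha' hb', redG_eq_zero_iff A π hπ hc hab]

open Classical in
/-- the multiplicity of `b` among the reduced roots = number of roots in the residue disc -/
theorem count_map_redG (c : K) (s : Multiset K) (b : k) :
    ((s.filter fun a => A.valuation a ≤ A.valuation c).map (redG A π c)).count b =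
      Multiset.countP (fun a => A.valuation a ≤ A.valuation c ∧ redG A π c a = b) s := by
  rw [Multiset.count, Multiset.countP_map, Multiset.filter_filter, Multiset.countP_eq_card_filter]
  congr 1
  exact Multiset.filter_congr fun a _ => by rw [and_comm, eq_comm]

theorem rootMultiplicity_prodX {F : Type*} [Field F] [DecidableEq F] (m : Multiset F) (b : F) :
    (Newton.prodX m).rootMultiplicity b = m.count b := by
  rw [← count_roots, Newton.prodX, roots_multiset_prod_X_sub_C]

/-- **Reduction of a split polynomial on the circle of radius `v c`.** -/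
theorem gaussRes_split_poly (hπ : ∀ a : A, A.valuation (a : K) < 1 → π a = 0) {c : K}
    (hc : c ≠ 0) (e : K) (s : Multiset K) (x : gaussRing A π c)
    (hx : (x : RatFunc K) = RatFunc.C e * algebraMap K[X] (RatFunc K) (Newton.prodX s))
    (hx1 : gaugeVal A c hc (x : RatFunc K) = 1) :
    ∃ γ : k, γ ≠ 0 ∧ gaussRes A π c hc x = RatFunc.C γ *
      algebraMap k[X] (RatFunc k)
        (Newton.prodX ((s.filter fun a => A.valuation a ≤ A.valuation c).map (redG A π c))) := by
  obtain ⟨γ, hγ, h⟩ := gaussRes_split A π hπ hc e s 0 x (by simpa using hx) hx1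
  refine ⟨γ, hγ, ?_⟩
  rw [h]
  simp

end Fermat.Agent.BR.GaussR
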