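/-
Program B (bad reduction), block B3, node B3.GLUE, function-field form (helper19).

The special fibre of the nodal model has two components with function fields `Ft₁`, `Ft₂` over `k`,
glued along finitely many nodes: pairs `(p₁ i, p₂ i)` of places of degree one.  A function on an
open subset of the glued fibre is a pair `(t₁, t₂)` of functions regular on the two parts whose
values agree at the nodes of the open subset.

* `NodeData k Ft₁ Ft₂ ι` : the nodes.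
* `gluedRegular n Y₁ Y₂` : the `k`-algebra of pairs regular outside `Y₁ ⊔ Y₂`, matching at every
  node neither of whose branches has been removed.
* `exists_const_of_gluedRegular_disjoint` : **`H⁰(O) = k` for the glued fibre**: a pair regular
  outside `Y₁ ⊔ Y₂` and outside `Y₁' ⊔ Y₂'` (disjoint) is a constant pair, and the two constants
  agree as soon as one node survives in one of the two opens.  (Nodal analogue of
  `Red.RedSetup.exists_const_of_regular_disjoint`.)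
-/
import Mathlib
import Fermat.Agent.Red.Values
import Fermat.Agent.Red.ConstLemma

set_option autoImplicit false

namespace Fermat.Agent.BR.GlueFF

open AlgebraicCurve Fermat.Agent.Red

variable {k Ft₁ Ft₂ : Type*} [Field k] [Field Ft₁] [Field Ft₂] [Algebra k Ft₁] [Algebra k Ft₂]

/-- The nodes of the glued special fibre: pairs of places of degree one. -/
structure NodeData (k Ft₁ Ft₂ : Type*) [Field k] [Field Ft₁] [Field Ft₂] [Algebra k Ft₁]
    [Algebra k Ft₂] (ι : Type*) where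
  /-- the branch on the first component -/
  p₁ : ι → Place k Ft₁
  /-- the branch on the second component -/
  p₂ : ι → Place k Ft₂
  deg₁ : ∀ i, (p₁ i).deg = 1
  deg₂ : ∀ i, (p₂ i).deg = 1

variable {ι : Type*}

/-- Pairs of functions regular outside `Y₁ ⊔ Y₂` on the glued fibre, matching at every node both
of whose branches lie outside `Y₁ ⊔ Y₂`. -/
def gluedRegular (n : NodeData k Ft₁ Ft₂ ι) (Y₁ : Set (Place k Ft₁)) (Y₂ : Set (Place k Ft₂)) :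
    Subalgebra k (Ft₁ × Ft₂) where
  carrier := {t | t.1 ∈ regularRing Y₁ ∧ t.2 ∈ regularRing Y₂ ∧
    ∀ i, n.p₁ i ∉ Y₁ → n.p₂ i ∉ Y₂ → evalAt (n.p₁ i) t.1 = evalAt (n.p₂ i) t.2}
  zero_mem' := by
    refine ⟨Subalgebra.zero_mem _, Subalgebra.zero_mem _, fun i _ _ => ?_⟩
    show evalAt (n.p₁ i) (0 : Ft₁) = evalAt (n.p₂ i) (0 : Ft₂)
    rw [evalAt_eq_of_isValueAt (isValueAt_zero _), evalAt_eq_of_isValueAt (isValueAt_zero _)]
  one_mem' := by
    refine ⟨Subalgebra.one_mem _, Subalgebra.one_mem _, fun i _ _ => ?_⟩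
    show evalAt (n.p₁ i) (1 : Ft₁) = evalAt (n.p₂ i) (1 : Ft₂)
    rw [evalAt_eq_of_isValueAt (isValueAt_one _), evalAt_eq_of_isValueAt (isValueAt_one _)]
  add_mem' := by
    rintro s t ⟨hs1, hs2, hs⟩ ⟨ht1, ht2, ht⟩
    refine ⟨Subalgebra.add_mem _ hs1 ht1, Subalgebra.add_mem _ hs2 ht2, fun i h1 h2 => ?_⟩
    show evalAt (n.p₁ i) (s.1 + t.1) = evalAt (n.p₂ i) (s.2 + t.2)
    rw [evalAt_add _ (n.deg₁ i) (mem_toValuationSubring_of_mem_regularRing hs1 h1)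
        (mem_toValuationSubring_of_mem_regularRing ht1 h1),
      evalAt_add _ (n.deg₂ i) (mem_toValuationSubring_of_mem_regularRing hs2 h2)
        (mem_toValuationSubring_of_mem_regularRing ht2 h2), hs i h1 h2, ht i h1 h2]
  mul_mem' := by
    rintro s t ⟨hs1, hs2, hs⟩ ⟨ht1, ht2, ht⟩
    refine ⟨Subalgebra.mul_mem _ hs1 ht1, Subalgebra.mul_mem _ hs2 ht2, fun i h1 h2 => ?_⟩
    show evalAt (n.p₁ i) (s.1 * t.1) = evalAt (n.p₂ i) (s.2 * t.2)
    rw [evalAt_mul _ (n.deg₁ i) (mem_toValuationSubring_of_mem_regularRing hs1 h1)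
        (mem_toValuationSubring_of_mem_regularRing ht1 h1),
      evalAt_mul _ (n.deg₂ i) (mem_toValuationSubring_of_mem_regularRing hs2 h2)
        (mem_toValuationSubring_of_mem_regularRing ht2 h2), hs i h1 h2, ht i h1 h2]
  algebraMap_mem' := by
    intro c
    refine ⟨Subalgebra.algebraMap_mem _ c, Subalgebra.algebraMap_mem _ c, fun i _ _ => ?_⟩
    show evalAt (n.p₁ i) (algebraMap k Ft₁ c) = evalAt (n.p₂ i) (algebraMap k Ft₂ c)
    rw [evalAt_algebraMap, evalAt_algebraMap]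

theorem mem_gluedRegular_iff {n : NodeData k Ft₁ Ft₂ ι} {Y₁ : Set (Place k Ft₁)}
    {Y₂ : Set (Place k Ft₂)} {t : Ft₁ × Ft₂} :
    t ∈ gluedRegular n Y₁ Y₂ ↔ t.1 ∈ regularRing Y₁ ∧ t.2 ∈ regularRing Y₂ ∧
      ∀ i, n.p₁ i ∉ Y₁ → n.p₂ i ∉ Y₂ → evalAt (n.p₁ i) t.1 = evalAt (n.p₂ i) t.2 := Iff.rfl

/-- Shrinking the open set (enlarging `Y₁`, `Y₂`). -/
theorem gluedRegular_mono (n : NodeData k Ft₁ Ft₂ ι) {Y₁ Y₁' : Set (Place k Ft₁)}
    {Y₂ Y₂' : Set (Place k Ft₂)} (h₁ : Y₁ ⊆ Y₁') (h₂ : Y₂ ⊆ Y₂') :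
    gluedRegular n Y₁ Y₂ ≤ gluedRegular n Y₁' Y₂' := by
  rintro t ⟨ht1, ht2, ht⟩
  refine ⟨fun P hP => ht1 P fun h => hP (h₁ h), fun P hP => ht2 P fun h => hP (h₂ h),
    fun i h1 h2 => ht i (fun h => h1 (h₁ h)) (fun h => h2 (h₂ h))⟩

/-- **`H⁰(O) = k` on the glued fibre.** A pair of functions regular on two opens of the glued
fibre covering it (`Y₁ ∩ Y₁' = ∅`, `Y₂ ∩ Y₂' = ∅`) is a pair of constants; the two constants
coincide as soon as one node lies in one of the two opens. -/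
theorem exists_const_of_gluedRegular_disjoint (hFt₁ : RiemannPkg k Ft₁) (hFt₂ : RiemannPkg k Ft₂)
    (n : NodeData k Ft₁ Ft₂ ι) {Y₁ Y₁' : Set (Place k Ft₁)} {Y₂ Y₂' : Set (Place k Ft₂)}
    (hd₁ : Disjoint Y₁ Y₁') (hd₂ : Disjoint Y₂ Y₂')
    (hnode : ∃ i, (n.p₁ i ∉ Y₁ ∧ n.p₂ i ∉ Y₂) ∨ (n.p₁ i ∉ Y₁' ∧ n.p₂ i ∉ Y₂'))
    {t : Ft₁ × Ft₂} (h : t ∈ gluedRegular n Y₁ Y₂) (h' : t ∈ gluedRegular n Y₁' Y₂') :
    ∃ c : k, t = algebraMap k (Ft₁ × Ft₂) c := by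
  obtain ⟨ht1, ht2, ht⟩ := h
  obtain ⟨ht1', ht2', ht'⟩ := h'
  obtain ⟨c₁, hc₁⟩ := RedSetup.exists_const_of_regular_disjoint hFt₁ hd₁ ht1 ht1'
  obtain ⟨c₂, hc₂⟩ := RedSetup.exists_const_of_regular_disjoint hFt₂ hd₂ ht2 ht2'
  have hc : c₁ = c₂ := by
    obtain ⟨i, hi | hi⟩ := hnode
    · have := ht i hi.1 hi.2
      rwa [hc₁, hc₂, evalAt_algebraMap, evalAt_algebraMap] at this
    · have := ht' i hi.1 hi.2
      rwa [hc₁, hc₂, evalAt_algebraMap, evalAt_algebraMap] at this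
  refine ⟨c₁, Prod.ext ?_ ?_⟩
  · rw [hc₁]; rfl
  · rw [hc₂, ← hc]; rfl

/-- Variant with separate conclusions. -/
theorem exists_const_of_gluedRegular_disjoint' (hFt₁ : RiemannPkg k Ft₁)
    (hFt₂ : RiemannPkg k Ft₂) (n : NodeData k Ft₁ Ft₂ ι) {Y₁ Y₁' : Set (Place k Ft₁)}
    {Y₂ Y₂' : Set (Place k Ft₂)} (hd₁ : Disjoint Y₁ Y₁') (hd₂ : Disjoint Y₂ Y₂')
    (hnode : ∃ i, (n.p₁ i ∉ Y₁ ∧ n.p₂ i ∉ Y₂) ∨ (n.p₁ i ∉ Y₁' ∧ n.p₂ i ∉ Y₂'))
    {t : Ft₁ × Ft₂} (h : t ∈ gluedRegular n Y₁ Y₂) (h' : t ∈ gluedRegular n Y₁' Y₂') :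
    ∃ c : k, t.1 = algebraMap k Ft₁ c ∧ t.2 = algebraMap k Ft₂ c := by
  obtain ⟨c, hc⟩ := exists_const_of_gluedRegular_disjoint hFt₁ hFt₂ n hd₁ hd₂ hnode h h'
  exact ⟨c, by rw [hc]; rfl, by rw [hc]; rfl⟩

end Fermat.Agent.BR.GlueFF
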