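/-
Program B (bad reduction), block B3, node B3.GLUE (helper19): the **glued ring**
`R₁ ×_{k^S} R₂ = {(f₁, f₂) : f₁(s) = f₂(s) for every node s}` of two `k`-algebras along finitely
many pairs of `k`-points (the coordinate ring of a chart of a nodal curve with two components),
Mathlib only.

* `glued e₁ e₂` : the subalgebra of `R₁ × R₂`; `mem_glued`.
* `gluedFst`, `gluedSnd` : the projections; surjective if the nodes impose independent conditions
  on the other component.
* `diffMap`, `ker_diffMap`, `diffMap_surjective` : the exact sequence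
  `0 → glued → R₁ × R₂ → k^S → 0`.
* `evalPi_surjective` : distinct `k`-points of an algebra over a field impose independent
  conditions (Chinese remainder theorem).
* `isReduced_glued`, `isUnit_glued_iff`.
* `eq_zero_or_one_of_idempotent` : connectedness (two domains glued along at least one node).
* `eq_algebraMap_of_const`, `exists_algebraMap_of_isAlgebraic` : the constants of the glued ring.
-/
import Mathlib

set_option autoImplicit false

namespace Fermat.Agent.BR.Glue

variable {k : Type*} [CommRing k]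

section Eval

variable {R : Type*} [CommRing R] [Algebra k R] {ι : Type*}

/-- evaluation at a family of `k`-points -/
def evalPi (e : ι → R →ₐ[k] k) : R →ₐ[k] (ι → k) := AlgHom.pi e

@[simp] theorem evalPi_apply (e : ι → R →ₐ[k] k) (f : R) (i : ι) : evalPi e f i = e i f := rfl

end Eval

variable {R₁ R₂ : Type*} [CommRing R₁] [CommRing R₂] [Algebra k R₁] [Algebra k R₂] {ι : Type*}

/-- The glued ring: pairs taking the same value at every node. -/
def glued (e₁ : ι → R₁ →ₐ[k] k) (e₂ : ι → R₂ →ₐ[k] k) : Subalgebra k (R₁ × R₂) :=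
  AlgHom.equalizer ((evalPi e₁).comp (AlgHom.fst k R₁ R₂)) ((evalPi e₂).comp (AlgHom.snd k R₁ R₂))

variable {e₁ : ι → R₁ →ₐ[k] k} {e₂ : ι → R₂ →ₐ[k] k}

theorem mem_glued {p : R₁ × R₂} : p ∈ glued e₁ e₂ ↔ ∀ i, e₁ i p.1 = e₂ i p.2 := by
  unfold glued
  rw [AlgHom.mem_equalizer]
  constructor
  · intro h i
    exact congrFun h i
  · intro h
    funext i
    exact h i

theorem glued_apply (x : glued e₁ e₂) (i : ι) :
    e₁ i (x : R₁ × R₂).1 = e₂ i (x : R₁ × R₂).2 := mem_glued.mp x.2 i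

/-- first projection -/
def gluedFst (e₁ : ι → R₁ →ₐ[k] k) (e₂ : ι → R₂ →ₐ[k] k) : glued e₁ e₂ →ₐ[k] R₁ :=
  (AlgHom.fst k R₁ R₂).comp (glued e₁ e₂).val

/-- second projection -/
def gluedSnd (e₁ : ι → R₁ →ₐ[k] k) (e₂ : ι → R₂ →ₐ[k] k) : glued e₁ e₂ →ₐ[k] R₂ :=
  (AlgHom.snd k R₁ R₂).comp (glued e₁ e₂).val

@[simp] theorem gluedFst_apply (x : glued e₁ e₂) : gluedFst e₁ e₂ x = (x : R₁ × R₂).1 := rfl

@[simp] theorem gluedSnd_apply (x : glued e₁ e₂) : gluedSnd e₁ e₂ x = (x : R₁ × R₂).2 := rfl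

theorem gluedFst_surjective (h : Function.Surjective (evalPi e₂)) :
    Function.Surjective (gluedFst e₁ e₂) := by
  intro a
  obtain ⟨b, hb⟩ := h (evalPi e₁ a)
  refine ⟨⟨(a, b), mem_glued.mpr fun i => ?_⟩, rfl⟩
  have := congrFun hb i
  simpa using this.symm

theorem gluedSnd_surjective (h : Function.Surjective (evalPi e₁)) :
    Function.Surjective (gluedSnd e₁ e₂) := by
  intro b
  obtain ⟨a, ha⟩ := h (evalPi e₂ b)
  refine ⟨⟨(a, b), mem_glued.mpr fun i => ?_⟩, rfl⟩
  have := congrFun ha i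
  simpa using this

/-- the difference of the values at the nodes -/
def diffMap (e₁ : ι → R₁ →ₐ[k] k) (e₂ : ι → R₂ →ₐ[k] k) : (R₁ × R₂) →ₗ[k] (ι → k) :=
  ((evalPi e₁).toLinearMap.comp (LinearMap.fst k R₁ R₂)) -
    ((evalPi e₂).toLinearMap.comp (LinearMap.snd k R₁ R₂))

@[simp] theorem diffMap_apply (p : R₁ × R₂) (i : ι) :
    diffMap e₁ e₂ p i = e₁ i p.1 - e₂ i p.2 := rfl

theorem ker_diffMap : LinearMap.ker (diffMap e₁ e₂) = Subalgebra.toSubmodule (glued e₁ e₂) := by
  ext p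
  rw [LinearMap.mem_ker, Subalgebra.mem_toSubmodule, mem_glued]
  constructor
  · intro h i
    have := congrFun h i
    rw [diffMap_apply, Pi.zero_apply] at this
    exact sub_eq_zero.mp this
  · intro h
    funext i
    rw [diffMap_apply, Pi.zero_apply, h i, sub_self]

theorem diffMap_surjective
    (h : Function.Surjective (evalPi e₁) ∨ Function.Surjective (evalPi e₂)) :
    Function.Surjective (diffMap e₁ e₂) := by
  intro v
  rcases h with h | h
  · obtain ⟨a, ha⟩ := h v
    refine ⟨(a, 0), ?_⟩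
    funext i
    rw [diffMap_apply, map_zero, sub_zero, ← evalPi_apply e₁ a i, ha]
  · obtain ⟨b, hb⟩ := h (-v)
    refine ⟨(0, b), ?_⟩
    funext i
    rw [diffMap_apply, map_zero, zero_sub, ← evalPi_apply e₂ b i, hb, Pi.neg_apply, neg_neg]

instance isReduced_glued [IsReduced R₁] [IsReduced R₂] : IsReduced (glued e₁ e₂) := by
  refine ⟨fun x hx => ?_⟩
  obtain ⟨n, hn⟩ := hx
  have h1 : ((x : R₁ × R₂).1) ^ n = 0 := by
    have := congrArg (fun y : glued e₁ e₂ => (y : R₁ × R₂).1) hn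
    simpa using this
  have h2 : ((x : R₁ × R₂).2) ^ n = 0 := by
    have := congrArg (fun y : glued e₁ e₂ => (y : R₁ × R₂).2) hn
    simpa using this
  have h1' : (x : R₁ × R₂).1 = 0 := IsReduced.eq_zero _ ⟨n, h1⟩
  have h2' : (x : R₁ × R₂).2 = 0 := IsReduced.eq_zero _ ⟨n, h2⟩
  apply Subtype.ext
  exact Prod.ext h1' h2'

theorem isUnit_glued_iff {x : glued e₁ e₂} :
    IsUnit x ↔ IsUnit (x : R₁ × R₂).1 ∧ IsUnit (x : R₁ × R₂).2 := by
  constructor
  · intro hx
    exact ⟨hx.map (gluedFst e₁ e₂), hx.map (gluedSnd e₁ e₂)⟩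
  · rintro ⟨h1, h2⟩
    obtain ⟨u1, hu1⟩ := h1
    obtain ⟨u2, hu2⟩ := h2
    have hmem : ((↑u1⁻¹ : R₁), (↑u2⁻¹ : R₂)) ∈ glued e₁ e₂ := by
      rw [mem_glued]
      intro i
      have hx := glued_apply x i
      rw [← hu1, ← hu2] at hx
      have e1 : e₁ i ↑u1 * e₁ i ↑u1⁻¹ = 1 := by rw [← map_mul, Units.mul_inv, map_one]
      have e2 : e₂ i ↑u2 * e₂ i ↑u2⁻¹ = 1 := by rw [← map_mul, Units.mul_inv, map_one]
      calc e₁ i ↑u1⁻¹ = e₁ i ↑u1⁻¹ * (e₂ i ↑u2 * e₂ i ↑u2⁻¹) := by rw [e2, mul_one]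
        _ = (e₁ i ↑u1 * e₁ i ↑u1⁻¹) * e₂ i ↑u2⁻¹ := by rw [← hx]; ring
        _ = e₂ i ↑u2⁻¹ := by rw [e1, one_mul]
    refine isUnit_iff_exists_inv.mpr ⟨⟨_, hmem⟩, ?_⟩
    apply Subtype.ext
    apply Prod.ext
    · show (x : R₁ × R₂).1 * ↑u1⁻¹ = 1
      rw [← hu1, Units.mul_inv]
    · show (x : R₁ × R₂).2 * ↑u2⁻¹ = 1
      rw [← hu2, Units.mul_inv]

/-- **Connectedness**: two domains glued along at least one node have no nontrivial idempotent. -/
theorem eq_zero_or_one_of_idempotent [IsDomain R₁] [IsDomain R₂] [Nontrivial k] [Nonempty ι]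
    (x : glued e₁ e₂) (hx : x * x = x) : x = 0 ∨ x = 1 := by
  have h1 : (x : R₁ × R₂).1 * (x : R₁ × R₂).1 = (x : R₁ × R₂).1 := by
    have := congrArg (fun y : glued e₁ e₂ => (y : R₁ × R₂).1) hx
    simpa using this
  have h2 : (x : R₁ × R₂).2 * (x : R₁ × R₂).2 = (x : R₁ × R₂).2 := by
    have := congrArg (fun y : glued e₁ e₂ => (y : R₁ × R₂).2) hx
    simpa using this
  have d1 : (x : R₁ × R₂).1 = 0 ∨ (x : R₁ × R₂).1 = 1 := by
    have : (x : R₁ × R₂).1 * ((x : R₁ × R₂).1 - 1) = 0 := by rw [mul_sub, h1, mul_one, sub_self]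
    rcases mul_eq_zero.mp this with h | h
    · exact Or.inl h
    · exact Or.inr (sub_eq_zero.mp h)
  have d2 : (x : R₁ × R₂).2 = 0 ∨ (x : R₁ × R₂).2 = 1 := by
    have : (x : R₁ × R₂).2 * ((x : R₁ × R₂).2 - 1) = 0 := by rw [mul_sub, h2, mul_one, sub_self]
    rcases mul_eq_zero.mp this with h | h
    · exact Or.inl h
    · exact Or.inr (sub_eq_zero.mp h)
  obtain ⟨i⟩ := ‹Nonempty ι›
  have hi := glued_apply x i
  rcases d1 with a0 | a1 <;> rcases d2 with b0 | b1
  · left
    exact Subtype.ext (Prod.ext a0 b0)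
  · exfalso
    rw [a0, b1, map_zero, map_one] at hi
    exact zero_ne_one hi
  · exfalso
    rw [a1, b0, map_zero, map_one] at hi
    exact one_ne_zero hi
  · right
    exact Subtype.ext (Prod.ext a1 b1)

/-- If both components of an element of the glued ring are constants, they are the same constant. -/
theorem eq_algebraMap_of_const [Nonempty ι] {x : glued e₁ e₂} {c₁ c₂ : k}
    (h₁ : (x : R₁ × R₂).1 = algebraMap k R₁ c₁) (h₂ : (x : R₁ × R₂).2 = algebraMap k R₂ c₂) :
    c₁ = c₂ ∧ x = algebraMap k (glued e₁ e₂) c₁ := by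
  obtain ⟨i⟩ := ‹Nonempty ι›
  have hi := glued_apply x i
  rw [h₁, h₂, AlgHom.commutes, AlgHom.commutes] at hi
  have hc : c₁ = c₂ := hi
  refine ⟨hc, Subtype.ext (Prod.ext ?_ ?_)⟩
  · rw [h₁]; rfl
  · rw [h₂, ← hc]; rfl

/-- **Constants of the glued ring**: if the only elements of `R₁`, `R₂` algebraic over the field `k`
are the constants, the same holds for the glued ring (at least one node). -/
theorem exists_algebraMap_of_isAlgebraic {k : Type*} [Field k] {R₁ R₂ : Type*} [CommRing R₁]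
    [CommRing R₂] [Algebra k R₁] [Algebra k R₂] {ι : Type*} [Nonempty ι]
    {e₁ : ι → R₁ →ₐ[k] k} {e₂ : ι → R₂ →ₐ[k] k}
    (hR₁ : ∀ a : R₁, IsAlgebraic k a → ∃ c : k, a = algebraMap k R₁ c)
    (hR₂ : ∀ a : R₂, IsAlgebraic k a → ∃ c : k, a = algebraMap k R₂ c)
    (x : glued e₁ e₂) (hx : IsAlgebraic k x) : ∃ c : k, x = algebraMap k (glued e₁ e₂) c := by
  have hx1 : IsAlgebraic k (gluedFst e₁ e₂ x) := hx.algHom (gluedFst e₁ e₂)
  have hx2 : IsAlgebraic k (gluedSnd e₁ e₂ x) := hx.algHom (gluedSnd e₁ e₂)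
  obtain ⟨c₁, hc₁⟩ := hR₁ _ hx1
  obtain ⟨c₂, hc₂⟩ := hR₂ _ hx2
  exact ⟨c₁, (eq_algebraMap_of_const hc₁ hc₂).2⟩

/-- **Distinct `k`-points impose independent conditions** (Chinese remainder theorem). -/
theorem evalPi_surjective {k : Type*} [Field k] {R : Type*} [CommRing R] [Algebra k R]
    {ι : Type*} [Finite ι] (e : ι → R →ₐ[k] k) (hinj : Function.Injective e) :
    Function.Surjective (evalPi e) := by
  classical
  have := Fintype.ofFinite ι
  -- the kernels are pairwise coprime maximal ideals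
  have hsurj : ∀ i, Function.Surjective (e i) := fun i c => ⟨algebraMap k R c, (e i).commutes c⟩
  have hmax : ∀ i, (RingHom.ker (e i).toRingHom).IsMaximal := fun i =>
    RingHom.ker_isMaximal_of_surjective (e i).toRingHom (hsurj i)
  have hne : ∀ i j, i ≠ j → RingHom.ker (e i).toRingHom ≠ RingHom.ker (e j).toRingHom := by
    intro i j hij hker
    apply hij
    apply hinj
    apply AlgHom.ext
    intro f
    -- `f - e i f` lies in the kernel of `e i`, hence of `e j`
    have h1 : f - algebraMap k R (e i f) ∈ RingHom.ker (e i).toRingHom := by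
      rw [RingHom.mem_ker]
      show e i (f - algebraMap k R (e i f)) = 0
      rw [map_sub, AlgHom.commutes]
      simp
    rw [hker, RingHom.mem_ker] at h1
    have h2 : e j (f - algebraMap k R (e i f)) = 0 := h1
    rw [map_sub, AlgHom.commutes, sub_eq_zero] at h2
    simpa using h2.symm
  have hcop : Pairwise (fun i j => IsCoprime (RingHom.ker (e i).toRingHom)
      (RingHom.ker (e j).toRingHom)) := by
    intro i j hij
    rw [Ideal.isCoprime_iff_sup_eq]
    exact Ideal.IsMaximal.coprime_of_ne (hmax i) (hmax j) (hne i j hij)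
  intro v
  -- choose preimages of the `v i` and glue by CRT
  obtain ⟨f, hf⟩ := Ideal.exists_forall_sub_mem_ideal (ι := ι)
    (I := fun i => RingHom.ker (e i).toRingHom) hcop (fun i => algebraMap k R (v i))
  refine ⟨f, ?_⟩
  funext i
  have := hf i
  rw [RingHom.mem_ker] at this
  have h2 : e i (f - algebraMap k R (v i)) = 0 := this
  rw [map_sub, AlgHom.commutes, sub_eq_zero] at h2
  simpa using h2

end Fermat.Agent.BR.Glue
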