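/-
Program B (BADRED), block B6 (helper21): Hensel's lemma for the valuation ring of an algebraically
closed valued field, in the "disc" form used to compare tubes at level `qM` and at level `q`:
a simple root of the reduction of a monic polynomial lifts uniquely, and the lift is fixed by every
automorphism that preserves the valuation ring, fixes the polynomial and acts trivially on the
residue field.
-/
import Mathlib

set_option autoImplicit false

namespace Fermat.Agent.BR.HenselDisc

open Polynomial IsLocalRing

variable {K : Type*} [Field K]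

/-- Over an algebraically closed field, a monic polynomial with coefficients in a valuation
subring `A` is a product of linear factors over `A`. -/
theorem exists_multiset_eq_prod [IsAlgClosed K] (A : ValuationSubring K) (f : A[X])
    (hf : f.Monic) : ∃ s : Multiset A, f = (s.map fun a => X - C a).prod := by
  classical
  set fK : K[X] := f.map (algebraMap A K) with hfK
  have hsplit : fK.Splits := IsAlgClosed.splits fK
  have hmonic : fK.Monic := hf.map _
  have hmem : ∀ r ∈ fK.roots, r ∈ A := by
    intro r hr
    have hroot : fK.IsRoot r := (Polynomial.mem_roots hmonic.ne_zero).mp hr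
    have hint : IsIntegral A r := by
      refine ⟨f, hf, ?_⟩
      rw [← Polynomial.eval_map]; exact hroot
    obtain ⟨y, hy⟩ := IsIntegrallyClosed.algebraMap_eq_of_integral hint
    rw [← hy]; exact y.2
  refine ⟨fK.roots.attach.map fun r => ⟨r.1, hmem r.1 r.2⟩, ?_⟩
  apply Polynomial.map_injective (algebraMap A K) (IsFractionRing.injective A K)
  rw [Polynomial.map_multiset_prod, Multiset.map_map, Multiset.map_map]
  have h1 := hsplit.eq_prod_roots_of_monic hmonic
  refine h1.trans ?_
  conv_lhs => rw [← Multiset.attach_map_val fK.roots, Multiset.map_map]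
  congr 1
  apply Multiset.map_congr rfl
  intro r _
  simp only [Function.comp_apply, Polynomial.map_sub, Polynomial.map_X, Polynomial.map_C]
  rfl

/-- **Hensel, existence.** -/
theorem exists_root_lift [IsAlgClosed K] (A : ValuationSubring K) (f : A[X]) (hf : f.Monic)
    (a₀ : ResidueField A) (hroot : (f.map (residue A)).IsRoot a₀) :
    ∃ t : A, f.IsRoot t ∧ residue A t = a₀ := by
  classical
  obtain ⟨s, hs⟩ := exists_multiset_eq_prod A f hf
  have h1 : f.map (residue A) = ((s.map (residue A)).map fun a => X - C a).prod := by
    rw [hs, Polynomial.map_multiset_prod, Multiset.map_map, Multiset.map_map]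
    congr 1
    apply Multiset.map_congr rfl
    intro a _
    simp
  have hne : f.map (residue A) ≠ 0 := (hf.map _).ne_zero
  have h2 : a₀ ∈ (f.map (residue A)).roots := (Polynomial.mem_roots hne).mpr hroot
  rw [h1, Polynomial.roots_multiset_prod_X_sub_C] at h2
  obtain ⟨t, hts, hta⟩ := Multiset.mem_map.mp h2
  refine ⟨t, ?_, hta⟩
  rw [hs, Polynomial.IsRoot, Polynomial.eval_multiset_prod]
  apply Multiset.prod_eq_zero
  rw [Multiset.map_map]
  exact Multiset.mem_map.mpr ⟨t, hts, by simp⟩

/-- **Hensel, uniqueness** (any local domain): two roots with the same simple residue coincide. -/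
theorem root_lift_unique {R : Type*} [CommRing R] [IsDomain R] [IsLocalRing R] (f : R[X])
    (a₀ : ResidueField R) (hsimple : (derivative (f.map (residue R))).eval a₀ ≠ 0)
    {t t' : R} (ht : f.IsRoot t) (ht' : f.IsRoot t') (hta : residue R t = a₀)
    (hta' : residue R t' = a₀) : t = t' := by
  by_contra hne
  obtain ⟨g₁, hg₁⟩ := Polynomial.dvd_iff_isRoot.mpr ht
  have h1 : g₁.IsRoot t' := by
    have := ht'
    rw [hg₁, Polynomial.IsRoot, Polynomial.eval_mul] at this
    rcases mul_eq_zero.mp this with h | h
    · exfalso
      apply hne
      have : t' - t = 0 := by simpa using h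
      exact (sub_eq_zero.mp this).symm
    · exact h
  obtain ⟨g₂, hg₂⟩ := Polynomial.dvd_iff_isRoot.mpr h1
  apply hsimple
  have hf : f.map (residue R) =
      (X - C a₀) * ((X - C a₀) * g₂.map (residue R)) := by
    rw [hg₁, hg₂]
    simp only [Polynomial.map_mul, Polynomial.map_sub, Polynomial.map_X, Polynomial.map_C]
    rw [hta, hta']
  rw [hf]
  simp [Polynomial.derivative_mul]

/-- **Hensel, disc form**: existence and uniqueness of the lift of a simple root. -/
theorem existsUnique_root_lift [IsAlgClosed K] (A : ValuationSubring K) (f : A[X])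
    (hf : f.Monic) (a₀ : ResidueField A) (hroot : (f.map (residue A)).IsRoot a₀)
    (hsimple : (derivative (f.map (residue A))).eval a₀ ≠ 0) :
    ∃! t : A, f.IsRoot t ∧ residue A t = a₀ := by
  obtain ⟨t, ht, hta⟩ := exists_root_lift A f hf a₀ hroot
  refine ⟨t, ⟨ht, hta⟩, ?_⟩
  rintro t' ⟨ht', hta'⟩
  exact root_lift_unique f a₀ hsimple ht' ht hta' hta

/-- **Equivariance**: a ring automorphism `σ` of `A` that fixes `f` coefficientwise and acts
trivially on the residue field fixes the lift of a simple root. -/
theorem root_lift_fixed {R : Type*} [CommRing R] [IsDomain R] [IsLocalRing R] (f : R[X])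
    (a₀ : ResidueField R) (hsimple : (derivative (f.map (residue R))).eval a₀ ≠ 0)
    (σ : R ≃+* R) (hσf : f.map (σ : R →+* R) = f)
    (hσres : ∀ x : R, residue R (σ x) = residue R x)
    {t : R} (ht : f.IsRoot t) (hta : residue R t = a₀) : σ t = t := by
  have ht' : f.IsRoot (σ t) := by
    have h := congrArg (fun g : R[X] => g.eval (σ t)) hσf
    rw [Polynomial.IsRoot, ← h]
    have : (f.map (σ : R →+* R)).eval ((σ : R →+* R) t) = (σ : R →+* R) (f.eval t) :=
      Polynomial.eval_map_apply (σ : R →+* R) t
    simp only [RingEquiv.coe_toRingHom] at this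
    rw [this, ht, map_zero]
  exact root_lift_unique f a₀ hsimple ht' ht ((hσres t).trans hta) hta

/-- **Equivariance, field form**: an automorphism `σ` of `K` preserving the valuation ring `A`,
fixing the coefficients of `f` and acting trivially on the residue field fixes the lift of a
simple root. -/
theorem root_lift_fixed_of_aut (A : ValuationSubring K) (f : A[X])
    (a₀ : ResidueField A) (hsimple : (derivative (f.map (residue A))).eval a₀ ≠ 0)
    (σ : K ≃+* K) (hσA : ∀ x ∈ A, σ x ∈ A)
    (hσf : ∀ n, σ ((f.coeff n : A) : K) = ((f.coeff n : A) : K))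
    (hσres : ∀ x : A, residue A ⟨σ x, hσA x x.2⟩ = residue A x)
    {t : A} (ht : f.IsRoot t) (hta : residue A t = a₀) : σ (t : K) = (t : K) := by
  set t' : A := ⟨σ t, hσA t t.2⟩ with ht'def
  have hmapσ : (f.map (algebraMap A K)).map (σ : K →+* K) = f.map (algebraMap A K) := by
    ext n
    simp only [Polynomial.coeff_map, RingEquiv.coe_toRingHom]
    exact hσf n
  have hrootK : (f.map (algebraMap A K)).eval ((t : A) : K) = 0 := by
    rw [Polynomial.IsRoot.def] at ht
    have h0 : (f.map (algebraMap A K)).eval (algebraMap A K t) = algebraMap A K (f.eval t) :=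
      Polynomial.eval_map_apply (algebraMap A K) t
    rw [ht, map_zero] at h0
    exact h0
  have ht' : f.IsRoot t' := by
    rw [Polynomial.IsRoot.def]
    apply IsFractionRing.injective A K
    rw [map_zero, ← Polynomial.eval_map_apply (algebraMap A K) t']
    have h1 : (algebraMap A K) t' = (σ : K →+* K) ((t : A) : K) := rfl
    rw [h1, ← hmapσ, Polynomial.eval_map_apply, hrootK, map_zero]
  have := root_lift_unique f a₀ hsimple ht' ht ((hσres t).trans hta) hta
  have h2 := congrArg (fun x : A => (x : K)) this
  exact h2

end Fermat.Agent.BR.HenselDisc
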