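import Fermat.Agent.S05.Val

/-!
# Program B, node B4.3 (b)+(c): inertia on annular ("angular") reductions

`A` a valuation subring of `L` (think: a place of `ℚ̄` over `q`), `k` its residue field,
`σ ∈ A.inertiaSubgroupIn K` an inertia element which preserves the valuation (automatic when
`L / K` is algebraic, e.g. `L = ℚ̄`, `K = ℚ`).

* `resOf A z` : the residue of `z` (junk value `0` outside `A`);
* `angRes A c a := resOf A (c / a)` : the *angular reduction* of `c` relative to the gauge `a`
  (meaningful when `v c = v a ≠ 0`; it is then a nonzero element of `k`);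
* `chi A σ a := angRes A (σ a) a` : the tame character `σ ↦ residue of σ(a)/a`;
* `chi_mul` (homomorphism in `σ`), `chi_congr` (depends only on `v a`), `chi_mul_gauge`
  (multiplicative in `a`), `chi_of_fixed` (trivial on fixed gauges);
* `angRes_apply` : **`angRes (σ c) a = chi σ a * angRes c a`** — inertia rotates the reduction of a
  point of the circle `v c = v a` by the root of unity `chi σ a`.
-/

set_option autoImplicit false

open IsLocalRing

namespace Fermat.Agent.BR.InertiaRed

variable {K L : Type*} [Field K] [Field L] [Algebra K L]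

/-- The residue of `z`, extended by `0` outside the valuation ring. -/
noncomputable def resOf (A : ValuationSubring L) (z : L) : ResidueField A :=
  open scoped Classical in if h : z ∈ A then residue A ⟨z, h⟩ else 0

theorem resOf_of_mem (A : ValuationSubring L) {z : L} (h : z ∈ A) :
    resOf A z = residue A ⟨z, h⟩ := by
  unfold resOf; rw [dif_pos h]

theorem resOf_one (A : ValuationSubring L) : resOf A 1 = 1 := by
  rw [resOf_of_mem A A.one_mem]; exact map_one _

theorem resOf_mul (A : ValuationSubring L) {x y : L} (hx : x ∈ A) (hy : y ∈ A) :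
    resOf A (x * y) = resOf A x * resOf A y := by
  rw [resOf_of_mem A hx, resOf_of_mem A hy, resOf_of_mem A (A.mul_mem _ _ hx hy), ← map_mul]
  rfl

theorem resOf_add (A : ValuationSubring L) {x y : L} (hx : x ∈ A) (hy : y ∈ A) :
    resOf A (x + y) = resOf A x + resOf A y := by
  rw [resOf_of_mem A hx, resOf_of_mem A hy, resOf_of_mem A (A.add_mem _ _ hx hy), ← map_add]
  rfl

theorem mem_of_valuation_eq_one (A : ValuationSubring L) {z : L} (h : A.valuation z = 1) :
    z ∈ A := (A.valuation_le_one_iff z).mp h.le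

theorem resOf_ne_zero (A : ValuationSubring L) {z : L} (h : A.valuation z = 1) :
    resOf A z ≠ 0 := by
  rw [resOf_of_mem A (mem_of_valuation_eq_one A h)]
  intro h0
  have h1 := (residue_eq_zero_iff _).mp h0
  have h2 : A.valuation z < 1 := (A.valuation_lt_one_iff _).mp h1
  rw [h] at h2
  exact lt_irrefl _ h2

theorem resOf_eq_zero (A : ValuationSubring L) {z : L} (h : A.valuation z < 1) :
    resOf A z = 0 := by
  have hz : z ∈ A := (A.valuation_le_one_iff z).mp h.le
  rw [resOf_of_mem A hz, residue_eq_zero_iff]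
  exact (A.valuation_lt_one_iff _).mpr h

/-- Inertia acts trivially on residues. -/
theorem resOf_apply (A : ValuationSubring L) {σ : L ≃ₐ[K] L} (hσ : σ ∈ A.inertiaSubgroupIn K)
    {z : L} (hz : z ∈ A) : resOf A (σ z) = resOf A z := by
  have h1 : A.valuation (σ z - z) < 1 :=
    Fermat.Agent.S05.valuation_apply_sub_lt_one A hσ ((A.valuation_le_one_iff z).mpr hz)
  have h2 : σ z - z ∈ A := (A.valuation_le_one_iff _).mp h1.le
  have h3 : σ z = (σ z - z) + z := by ring
  rw [h3, resOf_add A h2 hz, resOf_eq_zero A h1, zero_add]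

/-- The angular reduction of `c` relative to the gauge `a`. -/
noncomputable def angRes (A : ValuationSubring L) (c a : L) : ResidueField A := resOf A (c / a)

theorem valuation_div_eq_one (A : ValuationSubring L) {c a : L} (ha : a ≠ 0)
    (h : A.valuation c = A.valuation a) : A.valuation (c / a) = 1 := by
  rw [map_div₀, h]
  exact div_self ((Valuation.ne_zero_iff _).mpr ha)

theorem angRes_ne_zero (A : ValuationSubring L) {c a : L} (ha : a ≠ 0)
    (h : A.valuation c = A.valuation a) : angRes A c a ≠ 0 :=
  resOf_ne_zero A (valuation_div_eq_one A ha h)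

theorem angRes_self (A : ValuationSubring L) {a : L} (ha : a ≠ 0) : angRes A a a = 1 := by
  unfold angRes; rw [div_self ha]; exact resOf_one A

/-- Changing the gauge: `angRes c a = angRes c a' * angRes a' a`. -/
theorem angRes_trans (A : ValuationSubring L) {c a a' : L} (ha : a ≠ 0) (ha' : a' ≠ 0)
    (h : A.valuation c = A.valuation a') (h' : A.valuation a' = A.valuation a) :
    angRes A c a = angRes A c a' * angRes A a' a := by
  unfold angRes
  rw [← resOf_mul A (mem_of_valuation_eq_one A (valuation_div_eq_one A ha' h))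
    (mem_of_valuation_eq_one A (valuation_div_eq_one A ha h'))]
  congr 1
  field_simp

/-- The tame character: residue of `σ a / a`. -/
noncomputable def chi (A : ValuationSubring L) (σ : L ≃ₐ[K] L) (a : L) : ResidueField A :=
  angRes A (σ a) a

section Inertia

variable (A : ValuationSubring L) {σ τ : L ≃ₐ[K] L}

theorem chi_ne_zero {a : L} (ha : a ≠ 0) (hv : A.valuation (σ a) = A.valuation a) :
    chi A σ a ≠ 0 :=
  angRes_ne_zero A ha hv

/-- **Rotation formula.**  For `σ` in the inertia group and `c` on the circle `v c = v a`,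
the angular reduction of `σ c` is the angular reduction of `c` times `chi σ a`. -/
theorem angRes_apply (hσ : σ ∈ A.inertiaSubgroupIn K) {c a : L} (ha : a ≠ 0)
    (hc : A.valuation c = A.valuation a) (hv : A.valuation (σ a) = A.valuation a) :
    angRes A (σ c) a = chi A σ a * angRes A c a := by
  have hu : A.valuation (c / a) = 1 := valuation_div_eq_one A ha hc
  have huA : c / a ∈ A := mem_of_valuation_eq_one A hu
  have hσu : σ (c / a) ∈ A := by
    have h1 : A.valuation (σ (c / a) - c / a) < 1 :=
      Fermat.Agent.S05.valuation_apply_sub_lt_one A hσ hu.le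
    have h2 : σ (c / a) - c / a ∈ A := (A.valuation_le_one_iff _).mp h1.le
    have h3 : σ (c / a) = (σ (c / a) - c / a) + c / a := by ring
    rw [h3]; exact A.add_mem _ _ h2 huA
  have hw : σ a / a ∈ A := mem_of_valuation_eq_one A (valuation_div_eq_one A ha hv)
  have hσa : σ a ≠ 0 := by simpa using ha
  have e : σ c / a = (σ a / a) * σ (c / a) := by
    rw [map_div₀]; field_simp
  unfold chi angRes
  rw [e, resOf_mul A hw hσu, resOf_apply A hσ huA]

/-- `chi` is a homomorphism in `σ`. -/
theorem chi_mul (hσ : σ ∈ A.inertiaSubgroupIn K) {a : L} (ha : a ≠ 0)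
    (hvσ : A.valuation (σ a) = A.valuation a) (hvτ : A.valuation (τ a) = A.valuation a) :
    chi A (σ * τ) a = chi A σ a * chi A τ a := by
  have h := angRes_apply A hσ (c := τ a) ha hvτ hvσ
  unfold chi at h ⊢
  rw [AlgEquiv.mul_apply]
  exact h

/-- `chi σ a` depends only on the absolute value of the gauge. -/
theorem chi_congr (hσ : σ ∈ A.inertiaSubgroupIn K) {a a' : L} (ha : a ≠ 0) (ha' : a' ≠ 0)
    (h : A.valuation a' = A.valuation a) (hv : A.valuation (σ a) = A.valuation a) :
    chi A σ a' = chi A σ a := by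
  have h1 := angRes_apply A hσ (c := a') ha h hv
  have hv' : A.valuation (σ a') = A.valuation a' := by
    have h2 : A.valuation (σ (a' / a) - a' / a) < 1 :=
      Fermat.Agent.S05.valuation_apply_sub_lt_one A hσ (valuation_div_eq_one A ha h).le
    have h3 : A.valuation (σ (a' / a)) = 1 := by
      have h4 : σ (a' / a) = (σ (a' / a) - a' / a) + a' / a := by ring
      rw [h4, Valuation.map_add_eq_of_lt_right _ (by rw [valuation_div_eq_one A ha h]; exact h2),
        valuation_div_eq_one A ha h]
    rw [map_div₀, map_div₀] at h3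
    have hσa0 : A.valuation (σ a) ≠ 0 := by rw [hv]; exact (Valuation.ne_zero_iff _).mpr ha
    rw [div_eq_one_iff_eq hσa0] at h3
    rw [h3, hv, h]
  have h5 : angRes A (σ a') a = chi A σ a' * angRes A a' a := by
    unfold chi
    exact angRes_trans A ha ha' hv' h
  rw [h1] at h5
  exact (mul_right_cancel₀ (angRes_ne_zero A ha h) h5).symm

/-- `chi` is multiplicative in the gauge. -/
theorem chi_mul_gauge {a b : L} (ha : a ≠ 0) (hb : b ≠ 0)
    (hva : A.valuation (σ a) = A.valuation a) (hvb : A.valuation (σ b) = A.valuation b) :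
    chi A σ (a * b) = chi A σ a * chi A σ b := by
  unfold chi angRes
  rw [← resOf_mul A (mem_of_valuation_eq_one A (valuation_div_eq_one A ha hva))
    (mem_of_valuation_eq_one A (valuation_div_eq_one A hb hvb)), map_mul]
  congr 1
  field_simp

/-- `chi` is trivial on gauges fixed by `σ`. -/
theorem chi_of_fixed {a : L} (ha : a ≠ 0) (h : σ a = a) : chi A σ a = 1 := by
  unfold chi; rw [h]; exact angRes_self A ha

theorem chi_one {a : L} (ha : a ≠ 0) : chi A (1 : L ≃ₐ[K] L) a = 1 :=
  chi_of_fixed A ha rfl

end Inertia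

/-! ### Specialisation to `ℚ̄` -/

section Qbar

local notation "Qb" => AlgebraicClosure ℚ

variable (A : ValuationSubring Qb) {σ τ : Qb ≃ₐ[ℚ] Qb}

theorem angRes_apply_Qbar (hσ : σ ∈ A.inertiaSubgroupIn ℚ) {c a : Qb} (ha : a ≠ 0)
    (hc : A.valuation c = A.valuation a) :
    angRes A (σ c) a = chi A σ a * angRes A c a :=
  angRes_apply A hσ ha hc (Fermat.Agent.S05.valuation_apply_eq_of_mem_inertia A hσ a)

theorem chi_mul_Qbar (hσ : σ ∈ A.inertiaSubgroupIn ℚ) (hτ : τ ∈ A.inertiaSubgroupIn ℚ) {a : Qb}
    (ha : a ≠ 0) : chi A (σ * τ) a = chi A σ a * chi A τ a :=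
  chi_mul A hσ ha (Fermat.Agent.S05.valuation_apply_eq_of_mem_inertia A hσ a)
    (Fermat.Agent.S05.valuation_apply_eq_of_mem_inertia A hτ a)

theorem chi_congr_Qbar (hσ : σ ∈ A.inertiaSubgroupIn ℚ) {a a' : Qb} (ha : a ≠ 0) (ha' : a' ≠ 0)
    (h : A.valuation a' = A.valuation a) : chi A σ a' = chi A σ a :=
  chi_congr A hσ ha ha' h (Fermat.Agent.S05.valuation_apply_eq_of_mem_inertia A hσ a)

theorem chi_ne_zero_Qbar (hσ : σ ∈ A.inertiaSubgroupIn ℚ) {a : Qb} (ha : a ≠ 0) :
    chi A σ a ≠ 0 :=
  chi_ne_zero A ha (Fermat.Agent.S05.valuation_apply_eq_of_mem_inertia A hσ a)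

/-- Second difference: on the circle `v c = v a`, the three points `c`, `σ c`, `σ² c` reduce to
`ū`, `ζ ū`, `ζ² ū` with `ζ = chi σ a`. -/
theorem angRes_apply_apply_Qbar (hσ : σ ∈ A.inertiaSubgroupIn ℚ) {c a : Qb} (ha : a ≠ 0)
    (hc : A.valuation c = A.valuation a) :
    angRes A (σ (σ c)) a = chi A σ a ^ 2 * angRes A c a := by
  have hc' : A.valuation (σ c) = A.valuation a := by
    rw [Fermat.Agent.S05.valuation_apply_eq_of_mem_inertia A hσ c, hc]
  rw [angRes_apply_Qbar A hσ ha hc', angRes_apply_Qbar A hσ ha hc, sq, mul_assoc]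

end Qbar

end Fermat.Agent.BR.InertiaRed
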