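import Mathlib
import Fermat.Agent.BR.KrullNormal
import Fermat.Agent.BR.BlowUpPoints

/-!
# Program B (BADRED), block B7, node B7.2: divisor theory in the local ring of a node

Abstract commutative algebra (Mathlib + `BR/KrullNormal` + `BR/NodeUP` + `BR/BlowUpPoints`), no
modular objects.  `O` is a noetherian local domain with fraction field `F`, a `W`-algebra with
`NodeHyp W π e u v p1 p2` (maximal ideal `(π, u, v)`, `u v = π ^ e`, branches `p1 = (π, u)`,
`p2 = (π, v)`), and `p1 ⊓ p2 = (π)`.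

Main exports.

* `UnitAt Q z` : `z ∈ F` is a unit at the prime `Q` (`z = t / s`, `s, t ∉ Q`), with the calculus
  `UnitAt.mul / inv / pow / zpow / prod`, `unitAt_algebraMap`, `unitAt_of_isUnit`.
* `eq_p1_or_eq_p2` : the height-one primes containing `π` are `p1` and `p2`.
* `u_notMem_of_horizontal`, `v_notMem_of_horizontal` : `u, v` are units at horizontal primes.
* **(N2)** `exists_eq_zpow_mul_zpow_mul_unit` : an element of `F` which is a unit at every
  horizontal height-one prime is `π ^ a u ^ b ε`, `ε ∈ O^×` (`O` integrally closed).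
* **(N1')(iii)** `ker_le_of_sub_mem` : for a `W`-point `φ` of the node, every prime `Q` without `π`
  which contains `u - φ u` contains `ker φ`; `sub_ne_zero_of_point`.
* **(N3)** `exists_factorisation` : `y = w π ^ a u ^ b ∏ (u - c i) ^ (n i) ε`, `ε ≡ 1 mod 𝔪`, for `y`
  with horizontal divisor `∑ n i [ker (φ i)]`.
-/

set_option autoImplicit false
set_option linter.unusedSectionVars false

namespace Fermat.Agent.BR.LocalDivNode

open IsLocalRing Fermat.Agent.BR.DiscUP Fermat.Agent.BR.NodeUP Fermat.Agent.BR.KrullNormal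
  Fermat.Agent.BR.BlowUpPoints

/-! ### Units at a prime -/

section UnitAt

variable {O F : Type*} [CommRing O] [IsDomain O] [Field F] [Algebra O F] [IsFractionRing O F]

/-- `z ∈ F = Frac O` is a unit at the prime `Q`: `z = t / s` with `s, t ∉ Q`. -/
def UnitAt (Q : Ideal O) (z : F) : Prop :=
  ∃ s t : O, s ∉ Q ∧ t ∉ Q ∧ z * algebraMap O F s = algebraMap O F t

theorem algebraMap_ne_zero_of_notMem {Q : Ideal O} {t : O} (ht : t ∉ Q) :
    algebraMap O F t ≠ 0 := by
  intro h0
  have : t = 0 := IsFractionRing.injective O F (by rw [h0, map_zero])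
  exact ht (this ▸ Q.zero_mem)

theorem UnitAt.ne_zero {Q : Ideal O} {z : F} (h : UnitAt Q z) : z ≠ 0 := by
  obtain ⟨s, t, _, ht, h⟩ := h
  intro h0
  rw [h0, zero_mul] at h
  exact algebraMap_ne_zero_of_notMem (F := F) ht h.symm

theorem UnitAt.regularAt {Q : Ideal O} {z : F} (h : UnitAt Q z) : RegularAt Q z := by
  obtain ⟨s, t, hs, _, h⟩ := h
  exact ⟨t, s, hs, h⟩

theorem unitAt_algebraMap {Q : Ideal O} [Q.IsPrime] {x : O} (hx : x ∉ Q) :
    UnitAt Q (algebraMap O F x) :=
  ⟨1, x, fun h => (Ideal.IsPrime.ne_top ‹_›) ((Ideal.eq_top_iff_one Q).mpr h), hx,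
    by rw [map_one, mul_one]⟩

theorem unitAt_one {Q : Ideal O} [Q.IsPrime] : UnitAt Q (1 : F) := by
  have := unitAt_algebraMap (F := F) (Q := Q) (x := 1)
    (fun h => (Ideal.IsPrime.ne_top ‹_›) ((Ideal.eq_top_iff_one Q).mpr h))
  rwa [map_one] at this

theorem UnitAt.mul {Q : Ideal O} [hQ : Q.IsPrime] {z₁ z₂ : F} (h₁ : UnitAt Q z₁)
    (h₂ : UnitAt Q z₂) : UnitAt Q (z₁ * z₂) := by
  obtain ⟨s₁, t₁, hs₁, ht₁, e₁⟩ := h₁
  obtain ⟨s₂, t₂, hs₂, ht₂, e₂⟩ := h₂
  refine ⟨s₁ * s₂, t₁ * t₂, fun h => ?_, fun h => ?_, ?_⟩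
  · rcases hQ.mem_or_mem h with h | h
    · exact hs₁ h
    · exact hs₂ h
  · rcases hQ.mem_or_mem h with h | h
    · exact ht₁ h
    · exact ht₂ h
  · rw [map_mul, map_mul, ← e₁, ← e₂]; ring

theorem UnitAt.inv {Q : Ideal O} {z : F} (h : UnitAt Q z) : UnitAt Q z⁻¹ := by
  have hz := h.ne_zero
  obtain ⟨s, t, hs, ht, e⟩ := h
  refine ⟨t, s, ht, hs, ?_⟩
  rw [← e, ← mul_assoc, inv_mul_cancel₀ hz, one_mul]

theorem UnitAt.pow {Q : Ideal O} [Q.IsPrime] {z : F} (h : UnitAt Q z) (n : ℕ) :
    UnitAt Q (z ^ n) := by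
  induction n with
  | zero => rw [pow_zero]; exact unitAt_one
  | succ n ih => rw [pow_succ]; exact ih.mul h

theorem UnitAt.zpow {Q : Ideal O} [Q.IsPrime] {z : F} (h : UnitAt Q z) (n : ℤ) :
    UnitAt Q (z ^ n) := by
  cases n with
  | ofNat n => rw [Int.ofNat_eq_natCast, zpow_natCast]; exact h.pow n
  | negSucc n => rw [zpow_negSucc]; exact (h.pow _).inv

theorem UnitAt.prod {Q : Ideal O} [Q.IsPrime] {ι : Type*} (s : Finset ι) (f : ι → F)
    (h : ∀ i ∈ s, UnitAt Q (f i)) : UnitAt Q (∏ i ∈ s, f i) := by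
  classical
  induction s using Finset.induction_on with
  | empty => rw [Finset.prod_empty]; exact unitAt_one
  | insert a s ha ih =>
    rw [Finset.prod_insert ha]
    exact (h a (Finset.mem_insert_self a s)).mul
      (ih fun i hi => h i (Finset.mem_insert_of_mem hi))

theorem unitAt_of_isUnit {Q : Ideal O} [hQ : Q.IsPrime] {x : O} (hx : IsUnit x) :
    UnitAt Q (algebraMap O F x) :=
  unitAt_algebraMap fun h => hQ.ne_top (Ideal.eq_top_of_isUnit_mem _ h hx)

end UnitAt

/-! ### A prime whose localisation has principal maximal ideal -/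

section Principal

variable {O : Type*} [CommRing O] [IsDomain O] [IsNoetherianRing O]

/-- If `p O_p = (π)` then every nonzero element of `O` is `π ^ A` times a unit at `p`. -/
theorem exists_eq_mul_pow_of_principal (p : Ideal O) [hp : p.IsPrime] (π : O) (hπ : π ∈ p)
    (hloc : ∀ x ∈ p, ∃ s, s ∉ p ∧ π ∣ s * x) {x : O} (hx : x ≠ 0) :
    ∃ (A : ℕ) (s t : O), s ∉ p ∧ t ∉ p ∧ s * x = t * π ^ A := by
  set L := Localization.AtPrime p with hL
  have hinj : Function.Injective (algebraMap O L) :=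
    IsLocalization.injective L p.primeCompl_le_nonZeroDivisors
  have hmax : maximalIdeal L = Ideal.span {algebraMap O L π} := by
    apply le_antisymm
    · rw [← IsLocalization.AtPrime.map_eq_maximalIdeal p L, Ideal.map_le_iff_le_comap]
      intro y hy
      obtain ⟨s, hs, c, hc⟩ := hloc y hy
      rw [Ideal.mem_comap]
      have hu : IsUnit (algebraMap O L s) := IsLocalization.map_units L (⟨s, hs⟩ : p.primeCompl)
      obtain ⟨d, hd⟩ := hu.exists_left_inv
      have e : algebraMap O L y = d * algebraMap O L c * algebraMap O L π := by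
        have : algebraMap O L s * algebraMap O L y = algebraMap O L π * algebraMap O L c := by
          rw [← map_mul, ← map_mul, hc]
        calc algebraMap O L y = d * algebraMap O L s * algebraMap O L y := by rw [hd, one_mul]
          _ = d * (algebraMap O L s * algebraMap O L y) := by ring
          _ = d * algebraMap O L c * algebraMap O L π := by rw [this]; ring
      rw [e]
      exact Ideal.mul_mem_left _ _ (Ideal.mem_span_singleton_self _)
    · rw [Ideal.span_singleton_le_iff_mem]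
      exact (IsLocalization.AtPrime.to_map_mem_maximal_iff L p π).mpr hπ
  have hI : (Ideal.span {algebraMap O L π} : Ideal L) ≠ ⊤ := by
    rw [← hmax]; exact (maximalIdeal.isMaximal L).ne_top
  have hkrull := Ideal.iInf_pow_eq_bot_of_isDomain (Ideal.span {algebraMap O L π}) hI
  have hxL : algebraMap O L x ≠ 0 := fun h0 => hx (hinj (by rw [h0, map_zero]))
  have hex : ∃ k : ℕ, algebraMap O L x ∉ (Ideal.span {algebraMap O L π ^ k} : Ideal L) := by
    by_contra hall
    push Not at hall
    apply hxL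
    have : algebraMap O L x ∈ ⨅ i : ℕ, (Ideal.span {algebraMap O L π} : Ideal L) ^ i := by
      rw [Ideal.mem_iInf]
      intro i
      rw [Ideal.span_singleton_pow]
      exact hall i
    rw [hkrull] at this
    exact this
  classical
  set k := Nat.find hex with hk
  have hk1 : algebraMap O L x ∉ (Ideal.span {algebraMap O L π ^ k} : Ideal L) := Nat.find_spec hex
  have hk0 : k ≠ 0 := by
    intro h0
    rw [h0, pow_zero, Ideal.span_singleton_one] at hk1
    exact hk1 Submodule.mem_top
  obtain ⟨A, hA⟩ := Nat.exists_eq_succ_of_ne_zero hk0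
  have hA1 : algebraMap O L x ∈ (Ideal.span {algebraMap O L π ^ A} : Ideal L) := by
    by_contra hcon
    have := Nat.find_min' hex hcon
    omega
  obtain ⟨w, hw⟩ := Ideal.mem_span_singleton'.mp hA1
  have hwu : IsUnit w := by
    by_contra hnu
    have hwm : w ∈ maximalIdeal L := (IsLocalRing.mem_maximalIdeal w).mpr hnu
    rw [hmax] at hwm
    obtain ⟨w', hw'⟩ := Ideal.mem_span_singleton'.mp hwm
    apply hk1
    rw [hA, pow_succ, ← hw, ← hw']
    exact Ideal.mem_span_singleton'.mpr ⟨w', by ring⟩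
  obtain ⟨⟨t, s⟩, hts⟩ := IsLocalization.surj p.primeCompl w
  have hsu : IsUnit (algebraMap O L (s : O)) := IsLocalization.map_units L s
  have htu : IsUnit (algebraMap O L t) := by
    change w * algebraMap O L (s : O) = algebraMap O L t at hts
    rw [← hts]; exact hwu.mul hsu
  have htp : t ∉ p := (IsLocalization.AtPrime.isUnit_to_map_iff L p t).mp htu
  refine ⟨A, s, t, s.2, htp, hinj ?_⟩
  change w * algebraMap O L (s : O) = algebraMap O L t at hts
  rw [map_mul, map_mul, map_pow, ← hw, ← hts]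
  ring

end Principal

/-! ### Reduction modulo a branch -/

section Branch

variable {O : Type*} [CommRing O] [IsLocalRing O] [IsNoetherianRing O]

/-- If `𝔪 = p + (u)` with `p` prime then every element outside `p` is congruent modulo `p` to
`u ^ b` times a unit (`O/p` is a discrete valuation ring with uniformizer `ū`). -/
theorem exists_sub_pow_mul_unit_mem (p : Ideal O) [hp : p.IsPrime] (u : O)
    (hmax : maximalIdeal O = p ⊔ Ideal.span {u}) {x : O} (hx : x ∉ p) :
    ∃ (b : ℕ) (η : Oˣ), x - u ^ b * η ∈ p := by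
  have hple : p ≤ maximalIdeal O := by rw [hmax]; exact le_sup_left
  have hum : u ∈ maximalIdeal O := by
    rw [hmax]; exact Ideal.mem_sup_right (Ideal.mem_span_singleton_self u)
  set D := O ⧸ p with hD
  set ub : D := Ideal.Quotient.mk p u with hub
  have hI : (Ideal.span {ub} : Ideal D) ≠ ⊤ := by
    intro htop
    have h1 : (1 : D) ∈ Ideal.span {ub} := by rw [htop]; exact Submodule.mem_top
    obtain ⟨yb, hyb⟩ := Ideal.mem_span_singleton'.mp h1
    obtain ⟨y, rfl⟩ := Ideal.Quotient.mk_surjective yb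
    have h2 : y * u - 1 ∈ p := by
      rw [← Ideal.Quotient.eq_zero_iff_mem, map_sub, map_mul, map_one, ← hub, hyb, sub_self]
    have h3 : (1 : O) ∈ maximalIdeal O := by
      have : (1 : O) = y * u - (y * u - 1) := by ring
      rw [this]
      exact Ideal.sub_mem _ (Ideal.mul_mem_left _ _ hum) (hple h2)
    exact (maximalIdeal.isMaximal O).ne_top ((Ideal.eq_top_iff_one _).mpr h3)
  have hkrull := Ideal.iInf_pow_eq_bot_of_isDomain (Ideal.span {ub}) hI
  have hxD : Ideal.Quotient.mk p x ≠ 0 := fun h0 => hx (Ideal.Quotient.eq_zero_iff_mem.mp h0)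
  have hex : ∃ k : ℕ, Ideal.Quotient.mk p x ∉ (Ideal.span {ub ^ k} : Ideal D) := by
    by_contra hall
    push Not at hall
    apply hxD
    have : Ideal.Quotient.mk p x ∈ ⨅ i : ℕ, (Ideal.span {ub} : Ideal D) ^ i := by
      rw [Ideal.mem_iInf]
      intro i
      rw [Ideal.span_singleton_pow]
      exact hall i
    rw [hkrull] at this
    exact this
  classical
  set k := Nat.find hex with hk
  have hk1 : Ideal.Quotient.mk p x ∉ (Ideal.span {ub ^ k} : Ideal D) := Nat.find_spec hex
  have hk0 : k ≠ 0 := by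
    intro h0
    rw [h0, pow_zero, Ideal.span_singleton_one] at hk1
    exact hk1 Submodule.mem_top
  obtain ⟨b, hb⟩ := Nat.exists_eq_succ_of_ne_zero hk0
  have hb1 : Ideal.Quotient.mk p x ∈ (Ideal.span {ub ^ b} : Ideal D) := by
    by_contra hcon
    have := Nat.find_min' hex hcon
    omega
  obtain ⟨wb, hwb⟩ := Ideal.mem_span_singleton'.mp hb1
  obtain ⟨w, rfl⟩ := Ideal.Quotient.mk_surjective wb
  have hwu : IsUnit w := by
    by_contra hnu
    have hwm : w ∈ maximalIdeal O := (IsLocalRing.mem_maximalIdeal w).mpr hnu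
    rw [hmax] at hwm
    obtain ⟨z, hz, c, hc, rfl⟩ := Submodule.mem_sup.mp hwm
    obtain ⟨d, rfl⟩ := Ideal.mem_span_singleton'.mp hc
    apply hk1
    rw [hb, pow_succ, ← hwb, map_add, Ideal.Quotient.eq_zero_iff_mem.mpr hz, zero_add, map_mul,
      ← hub]
    exact Ideal.mem_span_singleton'.mpr ⟨Ideal.Quotient.mk p d, by ring⟩
  refine ⟨b, hwu.unit, ?_⟩
  rw [← Ideal.Quotient.eq_zero_iff_mem, map_sub, map_mul, map_pow, ← hub, IsUnit.unit_spec, ← hwb]
  ring

end Branch

/-! ### The node -/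

section Node

variable {W O F : Type*} [CommRing W] [CommRing O] [IsDomain O] [IsLocalRing O]
  [IsNoetherianRing O] [Algebra W O] [Field F] [Algebra O F] [IsFractionRing O F]
  {π : W} {e : ℕ} {u v : O} {p1 p2 : Ideal O}

/-- `p2 O_{p2} = (π)`: `u x ∈ (π)` for `x ∈ p2` -/
theorem exists_dvd_mul_of_mem_p2 (h : NodeHyp W π e u v p1 p2) {x : O} (hx : x ∈ p2) :
    ∃ s, s ∉ p2 ∧ algebraMap W O π ∣ s * x := by
  refine ⟨u, h.hu2, ?_⟩
  rw [nodeHyp_p2_eq h] at hx
  obtain ⟨z, hz, w, hw, rfl⟩ := Submodule.mem_sup.mp hx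
  obtain ⟨c, rfl⟩ := Ideal.mem_span_singleton'.mp hz
  obtain ⟨d, rfl⟩ := Ideal.mem_span_singleton'.mp hw
  have he : e = e - 1 + 1 := (Nat.sub_add_cancel h.he).symm
  refine ⟨u * c + d * algebraMap W O π ^ (e - 1), ?_⟩
  have : u * (c * algebraMap W O π + d * v) =
      u * c * algebraMap W O π + d * (u * v) := by ring
  rw [this, h.huv]
  conv_lhs => rw [he, pow_succ]
  ring

theorem exists_dvd_mul_of_mem_p1 (h : NodeHyp W π e u v p1 p2) {x : O} (hx : x ∈ p1) :
    ∃ s, s ∉ p1 ∧ algebraMap W O π ∣ s * x :=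
  exists_dvd_mul_of_mem_p2 (nodeHyp_symm h) hx

/-- `π` is a uniformizer at `p2` -/
theorem exists_eq_mul_pow_p2 (h : NodeHyp W π e u v p1 p2) {x : O} (hx : x ≠ 0) :
    ∃ (A : ℕ) (s t : O), s ∉ p2 ∧ t ∉ p2 ∧ s * x = t * algebraMap W O π ^ A := by
  have := h.prime2
  exact exists_eq_mul_pow_of_principal p2 (algebraMap W O π) h.hq2
    (fun y hy => exists_dvd_mul_of_mem_p2 h hy) hx

/-- `π` is a uniformizer at `p1` -/
theorem exists_eq_mul_pow_p1 (h : NodeHyp W π e u v p1 p2) {x : O} (hx : x ≠ 0) :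
    ∃ (A : ℕ) (s t : O), s ∉ p1 ∧ t ∉ p1 ∧ s * x = t * algebraMap W O π ^ A :=
  exists_eq_mul_pow_p2 (nodeHyp_symm h) hx

/-- the height-one primes containing `π` are `p1` and `p2` -/
theorem eq_p1_or_eq_p2 (h : NodeHyp W π e u v p1 p2)
    (hinter : p1 ⊓ p2 = Ideal.span {algebraMap W O π}) (hπ0 : algebraMap W O π ≠ 0)
    (Q : Ideal O) (hQ : Q.IsPrime) (hht : Q.height = 1) (hπQ : algebraMap W O π ∈ Q) :
    Q = p1 ∨ Q = p2 := by
  have hle : p1 * p2 ≤ Q := by
    refine Ideal.mul_le_inf.trans ?_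
    rw [hinter, Ideal.span_singleton_le_iff_mem]
    exact hπQ
  have key : ∀ p : Ideal O, p.IsPrime → algebraMap W O π ∈ p → p ≤ Q → Q = p := by
    intro p hp hπp hpQ
    by_contra hne
    have hlt : p < Q := lt_of_le_of_ne hpQ (fun h => hne h.symm)
    have h1 := (Ideal.height_le_iff (p := Q) (n := 1)).mp (by rw [hht]; norm_cast) p hp hlt
    have h0 : p.height = 0 := by
      have : p.height < 1 := by exact_mod_cast h1
      exact Order.lt_one_iff.mp this
    rw [Ideal.height_eq_zero_iff_eq_bot] at h0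
    rw [h0, Ideal.mem_bot] at hπp
    exact hπ0 hπp
  rcases (Ideal.IsPrime.mul_le hQ).mp hle with h1 | h2
  · exact Or.inl (key p1 h.prime1 h.hq1 h1)
  · exact Or.inr (key p2 h.prime2 h.hq2 h2)

/-- `u` and `v` lie in no horizontal prime -/
theorem u_notMem_of_horizontal (h : NodeHyp W π e u v p1 p2) (Q : Ideal O) [hQ : Q.IsPrime]
    (hπQ : algebraMap W O π ∉ Q) : u ∉ Q := by
  intro hu
  have : algebraMap W O π ^ e ∈ Q := by rw [← h.huv]; exact Ideal.mul_mem_right _ _ hu
  exact hπQ (hQ.mem_of_pow_mem _ this)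

theorem v_notMem_of_horizontal (h : NodeHyp W π e u v p1 p2) (Q : Ideal O) [hQ : Q.IsPrime]
    (hπQ : algebraMap W O π ∉ Q) : v ∉ Q :=
  u_notMem_of_horizontal (nodeHyp_symm h) Q hπQ

/-- every nonzero element of `F` becomes a unit at `p2` after multiplication by a power of `π` -/
theorem exists_unitAt_p2_mul_zpow (h : NodeHyp W π e u v p1 p2)
    (hπ0 : algebraMap W O π ≠ 0) {z : F} (hz : z ≠ 0) :
    ∃ A : ℤ, UnitAt p2 (z * algebraMap O F (algebraMap W O π) ^ A) := by
  have hp2 := h.prime2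
  obtain ⟨x1, x2, hx2, rfl⟩ := IsFractionRing.div_surjective (A := O) z
  have hx2' : x2 ≠ 0 := nonZeroDivisors.ne_zero hx2
  have hx1 : x1 ≠ 0 := by
    rintro rfl
    rw [map_zero, zero_div] at hz
    exact hz rfl
  obtain ⟨A1, s1, t1, hs1, ht1, e1⟩ := exists_eq_mul_pow_p2 h hx1
  obtain ⟨A2, s2, t2, hs2, ht2, e2⟩ := exists_eq_mul_pow_p2 h hx2'
  have hX2 : algebraMap O F x2 ≠ 0 := fun h0 =>
    hx2' (IsFractionRing.injective O F (by rw [h0, map_zero]))
  have hπF : algebraMap O F (algebraMap W O π) ≠ 0 := fun h0 =>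
    hπ0 (IsFractionRing.injective O F (by rw [h0, map_zero]))
  refine ⟨(A2 : ℤ) - A1, s1 * t2, t1 * s2, ?_, ?_, ?_⟩
  · intro hmem
    rcases hp2.mem_or_mem hmem with h1 | h1
    · exact hs1 h1
    · exact ht2 h1
  · intro hmem
    rcases hp2.mem_or_mem hmem with h1 | h1
    · exact ht1 h1
    · exact hs2 h1
  · have E1 : algebraMap O F s1 * algebraMap O F x1 =
        algebraMap O F t1 * algebraMap O F (algebraMap W O π) ^ A1 := by
      rw [← map_mul, e1, map_mul, map_pow]
    have E2 : algebraMap O F s2 * algebraMap O F x2 =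
        algebraMap O F t2 * algebraMap O F (algebraMap W O π) ^ A2 := by
      rw [← map_mul, e2, map_mul, map_pow]
    rw [zpow_sub₀ hπF, zpow_natCast, zpow_natCast, map_mul, map_mul]
    have hP1 : algebraMap O F (algebraMap W O π) ^ A1 ≠ 0 := pow_ne_zero _ hπF
    field_simp
    linear_combination (algebraMap O F t2 * algebraMap O F (algebraMap W O π) ^ A2) * E1 -
      (algebraMap O F t1 * algebraMap O F (algebraMap W O π) ^ A1) * E2

/-- `O_{p1}` is a valuation ring of `F` -/
theorem regularAt_or_regularAt_inv_p1 (h : NodeHyp W π e u v p1 p2)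
    (hπ0 : algebraMap W O π ≠ 0) {z : F} (hz : z ≠ 0) :
    RegularAt p1 z ∨ RegularAt p1 z⁻¹ := by
  obtain ⟨A, s, t, hs, ht, hE⟩ := exists_unitAt_p2_mul_zpow (F := F) (nodeHyp_symm h) hπ0 hz
  have hπF : algebraMap O F (algebraMap W O π) ≠ 0 := fun h0 =>
    hπ0 (IsFractionRing.injective O F (by rw [h0, map_zero]))
  rcases le_or_gt A 0 with hA | hA
  · left
    obtain ⟨n, hn⟩ : ∃ n : ℕ, A = -(n : ℤ) := ⟨(-A).toNat, by omega⟩
    refine ⟨t * algebraMap W O π ^ n, s, hs, ?_⟩
    rw [hn, zpow_neg, zpow_natCast] at hE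
    rw [map_mul, map_pow, ← hE]
    field_simp
  · right
    obtain ⟨n, hn⟩ : ∃ n : ℕ, A = (n : ℤ) := ⟨A.toNat, by omega⟩
    refine ⟨algebraMap W O π ^ n * s, t, ht, ?_⟩
    rw [hn, zpow_natCast] at hE
    rw [map_mul, map_pow, ← hE]
    field_simp

/-- **(N2) Class-group lemma.**  An element of `F` without horizontal prime divisors is
`π ^ a u ^ b` times a unit of `O`. -/
theorem exists_eq_zpow_mul_zpow_mul_unit [IsIntegrallyClosed O] (h : NodeHyp W π e u v p1 p2)
    (hinter : p1 ⊓ p2 = Ideal.span {algebraMap W O π}) (hπ0 : algebraMap W O π ≠ 0)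
    {z : F} (hz : z ≠ 0)
    (hhor : ∀ Q : Ideal O, Q.IsPrime → Q.height = 1 → algebraMap W O π ∉ Q → UnitAt Q z) :
    ∃ (a b : ℤ) (ε : Oˣ), z = algebraMap O F (algebraMap W O π) ^ a * algebraMap O F u ^ b *
      algebraMap O F ε := by
  have hp2 := h.prime2
  have hπF : algebraMap O F (algebraMap W O π) ≠ 0 := fun h0 =>
    hπ0 (IsFractionRing.injective O F (by rw [h0, map_zero]))
  have hu0 : u ≠ 0 := fun h0 => h.hu2 (h0 ▸ p2.zero_mem)
  have hUF : algebraMap O F u ≠ 0 := fun h0 =>
    hu0 (IsFractionRing.injective O F (by rw [h0, map_zero]))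
  obtain ⟨A, S, T, hS, hT, hE⟩ := exists_unitAt_p2_mul_zpow (F := F) h hπ0 hz
  obtain ⟨bT, ηT, hηT⟩ := exists_sub_pow_mul_unit_mem p2 u h.max2 hT
  obtain ⟨bS, ηS, hηS⟩ := exists_sub_pow_mul_unit_mem p2 u h.max2 hS
  set S' : O := S * (u ^ bT * ηT) with hS'
  set T' : O := T * (u ^ bS * ηS) with hT'
  have hunit_notMem : ∀ η : Oˣ, (η : O) ∉ p2 := fun η hη =>
    hp2.ne_top (Ideal.eq_top_of_isUnit_mem _ hη η.isUnit)
  have hupow : ∀ n : ℕ, u ^ n ∉ p2 := fun n hn => h.hu2 (hp2.mem_of_pow_mem _ hn)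
  have hS'p : S' ∉ p2 := by
    intro hmem
    rcases hp2.mem_or_mem hmem with h1 | h1
    · exact hS h1
    · rcases hp2.mem_or_mem h1 with h2 | h2
      · exact hupow _ h2
      · exact hunit_notMem _ h2
  have hT'p : T' ∉ p2 := by
    intro hmem
    rcases hp2.mem_or_mem hmem with h1 | h1
    · exact hT h1
    · rcases hp2.mem_or_mem h1 with h2 | h2
      · exact hupow _ h2
      · exact hunit_notMem _ h2
  have hdiff : T' - S' ∈ p2 := by
    have : T' - S' = (T - u ^ bT * ηT) * (u ^ bS * ηS) - (S - u ^ bS * ηS) * (u ^ bT * ηT) := by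
      rw [hS', hT']; ring
    rw [this]
    exact Ideal.sub_mem _ (Ideal.mul_mem_right _ _ hηT) (Ideal.mul_mem_right _ _ hηS)
  have hS'F : algebraMap O F S' ≠ 0 := algebraMap_ne_zero_of_notMem hS'p
  have hT'F : algebraMap O F T' ≠ 0 := algebraMap_ne_zero_of_notMem hT'p
  have hSF : algebraMap O F S ≠ 0 := algebraMap_ne_zero_of_notMem hS
  set z2 : F := algebraMap O F T' / algebraMap O F S' with hz2
  have hz2ne : z2 ≠ 0 := div_ne_zero hT'F hS'F
  have hz2S : z2 * algebraMap O F S' = algebraMap O F T' := div_mul_cancel₀ _ hS'F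
  -- `z2` in terms of `z`
  have hz2eq : z2 = z * algebraMap O F (algebraMap W O π) ^ A *
      (algebraMap O F (u ^ bS * ηS)) * (algebraMap O F (u ^ bT * ηT))⁻¹ := by
    have h1 : algebraMap O F (u ^ bT * ηT) ≠ 0 := by
      intro h0
      apply hS'F
      rw [hS', map_mul, h0, mul_zero]
    rw [hz2, hS', hT', map_mul (algebraMap O F) T, map_mul (algebraMap O F) S, ← hE]
    field_simp
  have hz2_p2 : UnitAt p2 z2 := ⟨S', T', hS'p, hT'p, hz2S⟩
  have hz2_hor : ∀ Q : Ideal O, Q.IsPrime → Q.height = 1 → algebraMap W O π ∉ Q →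
      UnitAt Q z2 := by
    intro Q hQ hht hπQ
    rw [hz2eq]
    have hu_Q : u ∉ Q := u_notMem_of_horizontal h Q hπQ
    have hmemS : u ^ bS * (ηS : O) ∉ Q := by
      intro hmem
      rcases hQ.mem_or_mem hmem with h1 | h1
      · exact hu_Q (hQ.mem_of_pow_mem _ h1)
      · exact hQ.ne_top (Ideal.eq_top_of_isUnit_mem _ h1 ηS.isUnit)
    have hmemT : u ^ bT * (ηT : O) ∉ Q := by
      intro hmem
      rcases hQ.mem_or_mem hmem with h1 | h1
      · exact hu_Q (hQ.mem_of_pow_mem _ h1)
      · exact hQ.ne_top (Ideal.eq_top_of_isUnit_mem _ h1 ηT.isUnit)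
    exact (((hhor Q hQ hht hπQ).mul ((unitAt_algebraMap hπQ).zpow A)).mul
      (unitAt_algebraMap hmemS)).mul (unitAt_algebraMap hmemT).inv
  -- `z2` is a unit of `O`
  have hunit : ∃ ε : Oˣ, z2 = algebraMap O F ε := by
    have hreg_of : ∀ w : F, (RegularAt p1 w) → UnitAt p2 w →
        (∀ Q : Ideal O, Q.IsPrime → Q.height = 1 → algebraMap W O π ∉ Q → UnitAt Q w) →
        w ∈ (algebraMap O F).range := by
      intro w h1 h2 h3
      apply mem_range_of_forall_height_one
      intro Q hQ hht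
      by_cases hπQ : algebraMap W O π ∈ Q
      · rcases eq_p1_or_eq_p2 h hinter hπ0 Q hQ hht hπQ with rfl | rfl
        · exact h1
        · exact h2.regularAt
      · exact (h3 Q hQ hht hπQ).regularAt
    have hunit_of : ∀ r : O, r - 1 ∈ p2 → IsUnit r := by
      intro r hr
      by_contra hnu
      have hrm : r ∈ maximalIdeal O := (IsLocalRing.mem_maximalIdeal r).mpr hnu
      have hp2le : p2 ≤ maximalIdeal O := by rw [h.max2]; exact le_sup_left
      have h1 : (1 : O) ∈ maximalIdeal O := by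
        have : (1 : O) = r - (r - 1) := by ring
        rw [this]
        exact Ideal.sub_mem _ hrm (hp2le hr)
      exact (maximalIdeal.isMaximal O).ne_top ((Ideal.eq_top_iff_one _).mpr h1)
    rcases regularAt_or_regularAt_inv_p1 (F := F) h hπ0 hz2ne with hreg | hreg
    · obtain ⟨r, hr⟩ := hreg_of z2 hreg hz2_p2 hz2_hor
      have hrS : r * S' = T' := by
        apply IsFractionRing.injective O F
        rw [map_mul, hr, hz2S]
      have hr1 : r - 1 ∈ p2 := by
        have h1 : (r - 1) * S' ∈ p2 := by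
          have : (r - 1) * S' = T' - S' := by rw [sub_mul, hrS, one_mul]
          rw [this]; exact hdiff
        rcases hp2.mem_or_mem h1 with h2 | h2
        · exact h2
        · exact absurd h2 hS'p
      exact ⟨(hunit_of r hr1).unit, by rw [IsUnit.unit_spec, hr]⟩
    · obtain ⟨r, hr⟩ := hreg_of z2⁻¹ hreg hz2_p2.inv (fun Q hQ hht hπQ => (hz2_hor Q hQ hht hπQ).inv)
      have hrT : r * T' = S' := by
        apply IsFractionRing.injective O F
        rw [map_mul, hr, ← hz2S]
        field_simp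
      have hr1 : r - 1 ∈ p2 := by
        have h1 : (r - 1) * T' ∈ p2 := by
          have : (r - 1) * T' = -(T' - S') := by rw [sub_mul, hrT, one_mul]; ring
          rw [this]; exact p2.neg_mem hdiff
        rcases hp2.mem_or_mem h1 with h2 | h2
        · exact h2
        · exact absurd h2 hT'p
      refine ⟨(hunit_of r hr1).unit⁻¹, ?_⟩
      rw [map_units_inv, IsUnit.unit_spec, hr, inv_inv]
  obtain ⟨ε, hε⟩ := hunit
  refine ⟨-A, (bT : ℤ) - bS, ε * ηT * ηS⁻¹, ?_⟩
  have hηSF : algebraMap O F (ηS : O) ≠ 0 := fun h0 =>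
    ηS.ne_zero (IsFractionRing.injective O F (by rw [h0, map_zero]))
  have hηTF : algebraMap O F (ηT : O) ≠ 0 := fun h0 =>
    ηT.ne_zero (IsFractionRing.injective O F (by rw [h0, map_zero]))
  have hPA : algebraMap O F (algebraMap W O π) ^ A ≠ 0 := zpow_ne_zero _ hπF
  have key : z * algebraMap O F (algebraMap W O π) ^ A *
      (algebraMap O F u ^ bS * algebraMap O F (ηS : O)) =
      algebraMap O F u ^ bT * (algebraMap O F (ε : O) * algebraMap O F (ηT : O)) := by
    apply mul_right_cancel₀ hSF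
    have h2' : algebraMap O F (ε : O) * (algebraMap O F S * (algebraMap O F u ^ bT *
        algebraMap O F (ηT : O))) = algebraMap O F T * (algebraMap O F u ^ bS *
        algebraMap O F (ηS : O)) := by
      have := hz2S
      rw [hε, hS', hT', map_mul, map_mul, map_mul, map_mul, map_pow, map_pow] at this
      exact this
    linear_combination (algebraMap O F u ^ bS * algebraMap O F (ηS : O)) * hE - h2'
  rw [Units.val_mul, Units.val_mul, map_mul, map_mul, map_units_inv,
    zpow_neg, zpow_sub₀ hUF, zpow_natCast, zpow_natCast]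
  field_simp
  linear_combination key

/-! ### Rational points of the node: `(N1')` -/

section Points

variable [IsDomain W]

/-- approximation of `O` by `W` modulo `(u - c, v - c') + (π ^ k)` -/
theorem exists_sub_mem_sup_pow (h : NodeHyp W π e u v p1 p2) (c c' : W)
    (hc : π ∣ c) (hc' : π ∣ c') (k : ℕ) (x : O) :
    ∃ w : W, x - algebraMap W O w ∈
      Ideal.span {u - algebraMap W O c, v - algebraMap W O c'} ⊔
        Ideal.span {algebraMap W O π ^ k} := by
  induction k generalizing x with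
  | zero =>
    refine ⟨0, ?_⟩
    rw [pow_zero, Ideal.span_singleton_one]
    exact Submodule.mem_sup_right Submodule.mem_top
  | succ k ih =>
    obtain ⟨w, hw⟩ := ih x
    obtain ⟨a, ha, b, hb, hab⟩ := Submodule.mem_sup.mp hw
    obtain ⟨y, rfl⟩ := Ideal.mem_span_singleton'.mp hb
    obtain ⟨w', hw'⟩ := h.res.surj y
    rw [h.max3] at hw'
    obtain ⟨m1, hm1, m2, hm2, hm⟩ := Submodule.mem_sup.mp hw'
    obtain ⟨m3, hm3, m4, hm4, rfl⟩ := Submodule.mem_sup.mp hm1
    obtain ⟨α, rfl⟩ := Ideal.mem_span_singleton'.mp hm3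
    obtain ⟨β, rfl⟩ := Ideal.mem_span_singleton'.mp hm4
    obtain ⟨γ, rfl⟩ := Ideal.mem_span_singleton'.mp hm2
    obtain ⟨c1, rfl⟩ := hc
    obtain ⟨c1', rfl⟩ := hc'
    refine ⟨w + π ^ k * w', ?_⟩
    -- x - (w + π^k w') = a + π^k (y - w')
    have e1 : x - algebraMap W O (w + π ^ k * w') =
        (a + algebraMap W O π ^ k * (β * (u - algebraMap W O (π * c1)) +
          γ * (v - algebraMap W O (π * c1')))) +
        (α + β * algebraMap W O c1 + γ * algebraMap W O c1') * algebraMap W O π ^ (k + 1) := by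
      have h1 : x - algebraMap W O w = a + y * algebraMap W O π ^ k := hab.symm
      have h2 : y - algebraMap W O w' = α * algebraMap W O π + β * u + γ * v := hm.symm
      have h3 : x = algebraMap W O w + (a + y * algebraMap W O π ^ k) := by rw [← h1]; ring
      have h4 : y = algebraMap W O w' + (α * algebraMap W O π + β * u + γ * v) := by
        rw [← h2]; ring
      rw [h3, h4, map_add, map_mul, map_mul, map_mul, map_pow, pow_succ]
      ring
    rw [e1]
    refine Submodule.add_mem_sup (Ideal.add_mem _ ha (Ideal.mul_mem_left _ _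
      (Ideal.add_mem _ (Ideal.mul_mem_left _ _ (Ideal.subset_span (by simp)))
        (Ideal.mul_mem_left _ _ (Ideal.subset_span (by simp))))))
      (Ideal.mul_mem_left _ _ (Ideal.mem_span_singleton_self _))

/-- **(N1')(iii)**: a prime not containing `π` which contains `u - c`, `c = φ u` for a
`W`-point `φ`, contains the kernel of `φ`. -/
theorem ker_le_of_sub_mem (h : NodeHyp W π e u v p1 p2) (φ : O →+* W)
    (hφ : ∀ w : W, φ (algebraMap W O w) = w) (Q : Ideal O) [hQ : Q.IsPrime]
    (hπQ : algebraMap W O π ∉ Q) (huQ : u - algebraMap W O (φ u) ∈ Q) :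
    RingHom.ker φ ≤ Q := by
  set c := φ u with hcdef
  set c' := φ v with hc'def
  have hcc' : c * c' = π ^ e := by
    rw [hcdef, hc'def, ← map_mul, h.huv, map_pow, hφ]
  have hcO : algebraMap W O c * algebraMap W O c' = algebraMap W O π ^ e := by
    rw [← map_mul, hcc', map_pow]
  -- `v - c' ∈ Q`
  have hcQ : algebraMap W O c ∉ Q := by
    intro hmem
    have : algebraMap W O π ^ e ∈ Q := by rw [← hcO]; exact Ideal.mul_mem_right _ _ hmem
    exact hπQ (hQ.mem_of_pow_mem _ this)
  have hvQ : v - algebraMap W O c' ∈ Q := by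
    have e1 : algebraMap W O c * (v - algebraMap W O c') = -(v * (u - algebraMap W O c)) := by
      have : algebraMap W O c * (v - algebraMap W O c') =
          algebraMap W O c * v - algebraMap W O c * algebraMap W O c' := by ring
      rw [this, hcO, ← h.huv]; ring
    have h1 : algebraMap W O c * (v - algebraMap W O c') ∈ Q := by
      rw [e1]; exact Q.neg_mem (Ideal.mul_mem_left _ _ huQ)
    rcases hQ.mem_or_mem h1 with h2 | h2
    · exact absurd h2 hcQ
    · exact h2
  -- the kernel is proper, hence contained in the maximal ideal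
  have hker_ne : RingHom.ker φ ≠ ⊤ := RingHom.ker_ne_top φ
  have hker_le : RingHom.ker φ ≤ maximalIdeal O := IsLocalRing.le_maximalIdeal hker_ne
  have hum : u ∈ maximalIdeal O := by
    rw [h.max3]; exact Ideal.mem_sup_left (Ideal.mem_sup_right (Ideal.mem_span_singleton_self u))
  have hvm : v ∈ maximalIdeal O := by
    rw [h.max3]; exact Ideal.mem_sup_right (Ideal.mem_span_singleton_self v)
  have hu_ker : u - algebraMap W O c ∈ RingHom.ker φ := by
    rw [RingHom.mem_ker, map_sub, hφ, sub_self]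
  have hv_ker : v - algebraMap W O c' ∈ RingHom.ker φ := by
    rw [RingHom.mem_ker, map_sub, hφ, sub_self]
  have hc_dvd : π ∣ c := by
    apply h.res.ker
    have : algebraMap W O c = u - (u - algebraMap W O c) := by ring
    rw [this]
    exact Ideal.sub_mem _ hum (hker_le hu_ker)
  have hc'_dvd : π ∣ c' := by
    apply h.res.ker
    have : algebraMap W O c' = v - (v - algebraMap W O c') := by ring
    rw [this]
    exact Ideal.sub_mem _ hvm (hker_le hv_ker)
  set I : Ideal O := Ideal.span {u - algebraMap W O c, v - algebraMap W O c'} with hI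
  have hIQ : I ≤ Q := by
    rw [hI, Ideal.span_le]
    intro z hz
    rcases hz with rfl | rfl
    · exact huQ
    · exact hvQ
  have hIker : I ≤ RingHom.ker φ := by
    rw [hI, Ideal.span_le]
    intro z hz
    rcases hz with rfl | rfl
    · exact hu_ker
    · exact hv_ker
  -- every element of the kernel lies in `Q + (π ^ k)` for all `k`
  have hstep : ∀ x ∈ RingHom.ker φ, ∀ k : ℕ, x ∈ Q ⊔ Ideal.span {algebraMap W O π ^ k} := by
    intro x hx k
    obtain ⟨w, hw⟩ := exists_sub_mem_sup_pow h c c' hc_dvd hc'_dvd k x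
    obtain ⟨a, ha, b, hb, hab⟩ := Submodule.mem_sup.mp hw
    obtain ⟨y, rfl⟩ := Ideal.mem_span_singleton'.mp hb
    have h1 : φ (x - algebraMap W O w) = φ a + φ y * π ^ k := by
      rw [← hab, map_add, map_mul, map_pow, hφ]
    rw [map_sub, RingHom.mem_ker.mp hx, hφ, RingHom.mem_ker.mp (hIker ha), zero_add,
      zero_sub] at h1
    have h2 : x = a + (y - algebraMap W O (φ y)) * algebraMap W O π ^ k := by
      have h3 : algebraMap W O w = -(algebraMap W O (φ y) * algebraMap W O π ^ k) := by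
        rw [← map_pow, ← map_mul, ← h1, map_neg, neg_neg]
      have h4 : x = algebraMap W O w + (a + y * algebraMap W O π ^ k) := by rw [hab]; ring
      rw [h4, h3]; ring
    rw [h2]
    exact Submodule.add_mem_sup (hIQ ha) (Ideal.mul_mem_left _ _ (Ideal.mem_span_singleton_self _))
  -- Krull intersection in `O ⧸ Q`
  intro x hx
  set D := O ⧸ Q with hD
  set qb : D := Ideal.Quotient.mk Q (algebraMap W O π) with hqb
  have hπm : algebraMap W O π ∈ maximalIdeal O := by
    rw [h.max3]
    exact Ideal.mem_sup_left (Ideal.mem_sup_left (Ideal.mem_span_singleton_self _))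
  have hQle : Q ≤ maximalIdeal O := IsLocalRing.le_maximalIdeal hQ.ne_top
  have hIne : (Ideal.span {qb} : Ideal D) ≠ ⊤ := by
    intro htop
    have h1 : (1 : D) ∈ Ideal.span {qb} := by rw [htop]; exact Submodule.mem_top
    obtain ⟨yb, hyb⟩ := Ideal.mem_span_singleton'.mp h1
    obtain ⟨y, rfl⟩ := Ideal.Quotient.mk_surjective yb
    have h2 : y * algebraMap W O π - 1 ∈ Q := by
      rw [← Ideal.Quotient.eq_zero_iff_mem, map_sub, map_mul, map_one, ← hqb, hyb, sub_self]
    have h3 : (1 : O) ∈ maximalIdeal O := by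
      have : (1 : O) = y * algebraMap W O π - (y * algebraMap W O π - 1) := by ring
      rw [this]
      exact Ideal.sub_mem _ (Ideal.mul_mem_left _ _ hπm) (hQle h2)
    exact (maximalIdeal.isMaximal O).ne_top ((Ideal.eq_top_iff_one _).mpr h3)
  have hkrull := Ideal.iInf_pow_eq_bot_of_isDomain (Ideal.span {qb}) hIne
  have hxD : Ideal.Quotient.mk Q x ∈ ⨅ i : ℕ, (Ideal.span {qb} : Ideal D) ^ i := by
    rw [Ideal.mem_iInf]
    intro k
    rw [Ideal.span_singleton_pow]
    obtain ⟨a, ha, b, hb, hab⟩ := Submodule.mem_sup.mp (hstep x hx k)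
    obtain ⟨y, rfl⟩ := Ideal.mem_span_singleton'.mp hb
    rw [← hab, map_add, Ideal.Quotient.eq_zero_iff_mem.mpr ha, zero_add, map_mul, map_pow, ← hqb]
    exact Ideal.mul_mem_left _ _ (Ideal.mem_span_singleton_self _)
  rw [hkrull, Ideal.mem_bot] at hxD
  exact Ideal.Quotient.eq_zero_iff_mem.mp hxD

/-- the kernel of a `W`-point of the node is not zero -/
theorem sub_ne_zero_of_point (h : NodeHyp W π e u v p1 p2) (φ : O →+* W)
    (hφ : ∀ w : W, φ (algebraMap W O w) = w) : u - algebraMap W O (φ u) ≠ 0 := by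
  intro h0
  have hu_ker : u - algebraMap W O (φ u) ∈ RingHom.ker φ := by
    rw [RingHom.mem_ker, map_sub, hφ, sub_self]
  have hker_le : RingHom.ker φ ≤ maximalIdeal O :=
    IsLocalRing.le_maximalIdeal (RingHom.ker_ne_top φ)
  have hum : u ∈ maximalIdeal O := by
    rw [h.max3]; exact Ideal.mem_sup_left (Ideal.mem_sup_right (Ideal.mem_span_singleton_self u))
  have hueq : u = algebraMap W O (φ u) := sub_eq_zero.mp h0
  have hc_dvd : π ∣ φ u := by
    apply h.res.ker
    rw [← hueq]; exact hum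
  obtain ⟨c1, hc1⟩ := hc_dvd
  apply h.hu2
  rw [hueq, hc1, map_mul]
  exact Ideal.mul_mem_right _ _ h.hq2

/-- **(N3) Factorisation on the annulus.**  Let `y ∈ F^×` and let `φ i` (`i ∈ s`) be `W`-points
of the node with pairwise different coordinates `c i = φ i u`, such that the horizontal divisor of
`y` is `∑ n i [ker (φ i)]`: `y (u - c i) ^ (- n i)` is a unit at `ker (φ i)` and `y` is a unit at every
other height-one prime not containing `π`.  Then
`y = w π ^ a u ^ b ∏ (u - c i) ^ (n i) ε` with `w ∈ W` a unit of `O` and `ε ∈ O^×`, `ε ≡ 1 mod 𝔪`. -/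
theorem exists_factorisation [IsIntegrallyClosed O] (h : NodeHyp W π e u v p1 p2)
    (hinter : p1 ⊓ p2 = Ideal.span {algebraMap W O π}) (hπ0 : algebraMap W O π ≠ 0)
    {ι : Type*} (s : Finset ι) (φ : ι → O →+* W)
    (hφ : ∀ i ∈ s, ∀ w : W, φ i (algebraMap W O w) = w)
    (hinj : ∀ i ∈ s, ∀ j ∈ s, φ i u = φ j u → i = j) (n : ι → ℤ) {y : F} (hy : y ≠ 0)
    (h1 : ∀ i ∈ s, UnitAt (RingHom.ker (φ i))
      (y * algebraMap O F (u - algebraMap W O (φ i u)) ^ (-(n i))))
    (h2 : ∀ Q : Ideal O, Q.IsPrime → Q.height = 1 → algebraMap W O π ∉ Q →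
      (∀ i ∈ s, Q ≠ RingHom.ker (φ i)) → UnitAt Q y) :
    ∃ (a b : ℤ) (w : W) (ε : Oˣ), IsUnit (algebraMap W O w) ∧ (ε : O) - 1 ∈ maximalIdeal O ∧
      y = algebraMap O F (algebraMap W O w) * algebraMap O F (algebraMap W O π) ^ a *
        algebraMap O F u ^ b *
        (∏ i ∈ s, algebraMap O F (u - algebraMap W O (φ i u)) ^ n i) * algebraMap O F ε := by
  classical
  set fac : ι → F := fun i => algebraMap O F (u - algebraMap W O (φ i u)) with hfac
  have hfac_ne : ∀ i ∈ s, fac i ≠ 0 := by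
    intro i hi h0
    have h0' : algebraMap O F (u - algebraMap W O (φ i u)) = 0 := h0
    exact sub_ne_zero_of_point h (φ i) (hφ i hi)
      (IsFractionRing.injective O F (by rw [h0', map_zero]))
  set g : F := ∏ i ∈ s, fac i ^ n i with hg
  have hg_ne : g ≠ 0 := Finset.prod_ne_zero_iff.mpr fun i hi => zpow_ne_zero _ (hfac_ne i hi)
  have hz : y * g⁻¹ ≠ 0 := mul_ne_zero hy (inv_ne_zero hg_ne)
  have hhor : ∀ Q : Ideal O, Q.IsPrime → Q.height = 1 → algebraMap W O π ∉ Q →
      UnitAt Q (y * g⁻¹) := by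
    intro Q hQ hht hπQ
    by_cases hex : ∃ i ∈ s, Q = RingHom.ker (φ i)
    · obtain ⟨i, hi, rfl⟩ := hex
      have hsplit : y * g⁻¹ = (y * fac i ^ (-(n i))) * (∏ j ∈ s.erase i, fac j ^ n j)⁻¹ := by
        rw [hg, ← Finset.mul_prod_erase s (fun j => fac j ^ n j) hi, mul_inv, zpow_neg]
        ring
      rw [hsplit]
      refine (h1 i hi).mul (UnitAt.inv (UnitAt.prod _ _ fun j hj => ?_))
      have hji : j ≠ i := Finset.ne_of_mem_erase hj
      have hjs : j ∈ s := Finset.mem_of_mem_erase hj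
      refine (unitAt_algebraMap ?_).zpow _
      rw [RingHom.mem_ker, map_sub, hφ i hi, sub_eq_zero]
      intro heq
      exact hji (hinj j hjs i hi heq.symm)
    · push Not at hex
      refine (h2 Q hQ hht hπQ hex).mul (UnitAt.inv (UnitAt.prod _ _ fun j hj => ?_))
      refine (unitAt_algebraMap ?_).zpow _
      intro hmem
      have hle := ker_le_of_sub_mem h (φ j) (hφ j hj) Q hπQ hmem
      have hkprime : (RingHom.ker (φ j)).IsPrime := RingHom.ker_isPrime (φ j)
      apply hex j hj
      by_contra hne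
      have hlt : RingHom.ker (φ j) < Q := lt_of_le_of_ne hle (fun h => hne h.symm)
      have h1' := (Ideal.height_le_iff (p := Q) (n := 1)).mp (by rw [hht]; norm_cast)
        (RingHom.ker (φ j)) hkprime hlt
      have h0 : (RingHom.ker (φ j)).height = 0 := by
        have : (RingHom.ker (φ j)).height < 1 := by exact_mod_cast h1'
        exact Order.lt_one_iff.mp this
      rw [Ideal.height_eq_zero_iff_eq_bot] at h0
      have hmem' : u - algebraMap W O (φ j u) ∈ RingHom.ker (φ j) := by
        rw [RingHom.mem_ker, map_sub, hφ j hj, sub_self]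
      rw [h0, Ideal.mem_bot] at hmem'
      exact sub_ne_zero_of_point h (φ j) (hφ j hj) hmem'
  obtain ⟨a, b, ε0, hε0⟩ := exists_eq_zpow_mul_zpow_mul_unit (F := F) h hinter hπ0 hz hhor
  obtain ⟨w, hw⟩ := h.res.surj (ε0 : O)
  have hwu : IsUnit (algebraMap W O w) := by
    by_contra hnu
    have hwm : algebraMap W O w ∈ maximalIdeal O := (IsLocalRing.mem_maximalIdeal _).mpr hnu
    have : (ε0 : O) ∈ maximalIdeal O := by
      have e1 : (ε0 : O) = ((ε0 : O) - algebraMap W O w) + algebraMap W O w := by ring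
      rw [e1]; exact Ideal.add_mem _ hw hwm
    exact (IsLocalRing.mem_maximalIdeal _).mp this ε0.isUnit
  refine ⟨a, b, w, ε0 * hwu.unit⁻¹, hwu, ?_, ?_⟩
  · have e1 : ((ε0 * hwu.unit⁻¹ : Oˣ) : O) - 1 =
        ((ε0 : O) - algebraMap W O w) * ((hwu.unit⁻¹ : Oˣ) : O) := by
      rw [Units.val_mul, sub_mul]
      have : algebraMap W O w * ((hwu.unit⁻¹ : Oˣ) : O) = 1 := by
        have := hwu.unit.mul_inv
        rw [IsUnit.unit_spec] at this
        exact_mod_cast this
      rw [this]
    rw [e1]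
    exact Ideal.mul_mem_right _ _ hw
  · have hyz : y = y * g⁻¹ * g := by
      rw [mul_assoc, inv_mul_cancel₀ hg_ne, mul_one]
    have hwF : algebraMap O F (algebraMap W O w) ≠ 0 := fun h0 =>
      hwu.ne_zero (IsFractionRing.injective O F (by rw [h0, map_zero]))
    rw [hyz, hε0, Units.val_mul, map_mul, map_units_inv, IsUnit.unit_spec]
    field_simp

end Points

end Node

end Fermat.Agent.BR.LocalDivNode
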