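import Fermat.Agent.BR.TwoValInst
import Fermat.Agent.Val.SeparableModL

/-!
# Program B (BADRED), node B6.5(e): the TWISTED Kronecker congruences and the Frobenius untwist

Inputs `(K1')`, `(K2')` of `BR/CrossingTwisted.lean` in the FRAME of B6.5 (general coefficient
field, residue field `k` of the valuation subring `B ⊂ ℚ̄` over `q`; level `M * q`).

* `kron_twisted₁` : for `x x' ∈ O_M` with `res_M x = σ (res_M x')` (`σ` the coefficientwise
  Frobenius of `k((q))`): `β x - (α x')^q ∈ 𝔪(w₁)`;
* `kron_twisted₂` : the mirror `α x - (β x')^q ∈ 𝔪(w₂)`;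
* `coeffMap_mem_full` : for any `τ : k →+* k`, the coefficientwise map `coeffMap τ` of `k((q))`
  preserves `F̃_N = modularFunctionFieldFullC k N` (generators have coefficients in the prime
  ring); `coeffMapFull τ N : F̃_N →+* F̃_N`, `coeffMapFull_jFullC`;
* `isIntegral_ringHom_of_mapsTo` : a ring endomorphism preserving a subalgebra preserves
  integrality over it; `isIntegral_coeffMapFull` : `coeffMapFull τ` preserves integrality over
  `k[j̃] = Algebra.adjoin k {j̃}`;
* `untwist`, `frobenius_untwist` : over a perfect field, every `y ∈ k((q))` is `σ y'` with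
  `y' = coeffMap σ⁻¹ y`; `exists_untwist_full` : if `y ∈ F̃_N` is integral over `k[j̃]`, so is `y'`.
-/

set_option autoImplicit false
set_option linter.style.haveILetI false

noncomputable section

namespace Fermat.Agent.BR.KronTwisted

open ModularCurve AlgebraicCurve Fermat.Agent.X0 Fermat.Agent.Val Fermat.Agent.BR.TwoVal
  Fermat.Agent.BR.ResGen Fermat.Agent.BR.TwoValInst

/-! ### The twisted Kronecker congruences -/

section Kron

variable {M q : ℕ} [NeZero M] [hq : Fact q.Prime]
variable (B : ValuationSubring (AlgebraicClosure ℚ)) (hB : B.LiesOverPrime q)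

local notation "kB" => IsLocalRing.ResidueField B

/-- **Twisted Kronecker congruence on the first component**: if `res_M x = σ (res_M x')` then
`β x ≡ (α x')^q` modulo the maximal ideal of `w₁`. -/
theorem kron_twisted₁ {x x' : Fb M} (hx : x ∈ OM M B hB) (hx' : x' ∈ OM M B hB)
    (h : resM M B hB ⟨x, hx⟩ =
      haveI := charP_kB B hB
      coeffMap (frobenius kB q) (resM M B hB ⟨x', hx'⟩)) :
    heckeBetaBar Kb M q x - (heckeAlphaBar Kb M q x') ^ q ∈ (O1 M B hB).nonunits := by
  haveI := charP_kB B hB
  have hβ : heckeBetaBar Kb M q x ∈ O1 M B hB := (beta_mem_O1_iff B hB x).2 hx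
  have hα : heckeAlphaBar Kb M q x' ∈ O1 M B hB := (alpha_mem_O1_iff B hB x').2 hx'
  have hmem : heckeBetaBar Kb M q x - (heckeAlphaBar Kb M q x') ^ q ∈ O1 M B hB :=
    sub_mem hβ (pow_mem hα q)
  rw [mem_nonunits_O1_iff B hB hmem]
  have h2 : (⟨heckeBetaBar Kb M q x - (heckeAlphaBar Kb M q x') ^ q, hmem⟩ : O1 M B hB) =
      ⟨heckeBetaBar Kb M q x, hβ⟩ - (⟨heckeAlphaBar Kb M q x', hα⟩ : O1 M B hB) ^ q := rfl
  rw [h2, map_sub, map_pow, res1_beta B hB x hx, res1_alpha B hB x' hx', h,
    Fermat.Agent.ES.pow_char_eq_qExpand_coeffMap_frobenius q, sub_self]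

/-- **Twisted Kronecker congruence on the second component**: if `res_M x = σ (res_M x')` then
`α x ≡ (β x')^q` modulo the maximal ideal of `w₂`. -/
theorem kron_twisted₂ (hqM : ¬ q ∣ M) {x x' : Fb M} (hx : x ∈ OM M B hB)
    (hx' : x' ∈ OM M B hB)
    (h : resM M B hB ⟨x, hx⟩ =
      haveI := charP_kB B hB
      coeffMap (frobenius kB q) (resM M B hB ⟨x', hx'⟩)) :
    heckeAlphaBar Kb M q x - (heckeBetaBar Kb M q x') ^ q ∈ (O2 B hB hqM).nonunits := by
  rw [mem_nonunits_O2_iff_Wq B hB hqM, map_sub, map_pow, Wq_alpha, Wq_beta]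
  exact kron_twisted₁ B hB hx hx' h

end Kron

/-! ### Coefficientwise endomorphisms preserve `F̃_N` and integrality over `k[j̃]` -/

section Untwist

variable {k : Type*} [Field k]

theorem algebraMap_eq_C (c : k) : algebraMap k (LaurentSeries k) c = HahnSeries.C c := by
  have h1 : algebraMap k (PowerSeries k) c = PowerSeries.C c := by simp
  rw [HahnSeries.algebraMap_apply', h1, HahnSeries.ofPowerSeries_C]

theorem coeffMap_C (τ : k →+* k) (c : k) :
    coeffMap τ (HahnSeries.C c : LaurentSeries k) = HahnSeries.C (τ c) := by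
  simp only [HahnSeries.C_apply]
  exact coeffMap_single τ 0 c

/-- `coeffMap τ` preserves `F̃_N ⊆ k((q))`. -/
theorem coeffMap_mem_full (τ : k →+* k) (N : ℕ) [NeZero N] {y : LaurentSeries k}
    (hy : y ∈ modularFunctionFieldFullC k N) : coeffMap τ y ∈ modularFunctionFieldFullC k N := by
  rw [modularFunctionFieldFullC] at hy
  induction hy using IntermediateField.adjoin_induction with
  | mem x hx =>
    obtain ⟨d, hne, hd, rfl⟩ := hx
    have h1 : coeffMap τ (qExpand k d (jqModC k)) = qExpand k d (jqModC k) := by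
      have := coeffMap_jqNModC τ d
      rwa [jqNModC] at this
    rw [h1]
    exact jqModCd_mem_full k N hd
  | algebraMap c =>
    rw [algebraMap_eq_C, coeffMap_C, ← algebraMap_eq_C]
    exact (modularFunctionFieldFullC k N).algebraMap_mem (τ c)
  | add x y _ _ hx hy => rw [map_add]; exact add_mem hx hy
  | inv x _ hx => rw [map_inv₀]; exact inv_mem hx
  | mul x y _ _ hx hy => rw [map_mul]; exact mul_mem hx hy

/-- `coeffMap τ` as an endomorphism of `F̃_N`. -/
def coeffMapFull (τ : k →+* k) (N : ℕ) [NeZero N] :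
    ↥(modularFunctionFieldFullC k N) →+* ↥(modularFunctionFieldFullC k N) :=
  ((coeffMap τ).comp (modularFunctionFieldFullC k N).val.toRingHom).codRestrict
    (modularFunctionFieldFullC k N) fun y => coeffMap_mem_full τ N y.2

@[simp]
theorem coe_coeffMapFull (τ : k →+* k) (N : ℕ) [NeZero N]
    (y : ↥(modularFunctionFieldFullC k N)) :
    ((coeffMapFull τ N y : ↥(modularFunctionFieldFullC k N)) : LaurentSeries k) =
      coeffMap τ (y : LaurentSeries k) := rfl

theorem coeffMapFull_jFullC (τ : k →+* k) (N : ℕ) [NeZero N] :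
    coeffMapFull τ N (jFullC k N) = jFullC k N :=
  Subtype.ext (coeffMap_jqModC τ)

theorem coeffMapFull_algebraMap (τ : k →+* k) (N : ℕ) [NeZero N] (c : k) :
    coeffMapFull τ N (algebraMap k ↥(modularFunctionFieldFullC k N) c) =
      algebraMap k ↥(modularFunctionFieldFullC k N) (τ c) := by
  apply Subtype.ext
  have h1 : ∀ c : k, ((algebraMap k ↥(modularFunctionFieldFullC k N) c :
      ↥(modularFunctionFieldFullC k N)) : LaurentSeries k) = HahnSeries.C c := fun c =>
    algebraMap_eq_C c
  rw [coe_coeffMapFull, h1, h1, coeffMap_C]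

/-- A ring endomorphism which preserves a subalgebra preserves integrality over it. -/
theorem isIntegral_ringHom_of_mapsTo {R A : Type*} [CommRing R] [CommRing A] [Algebra R A]
    (S : Subalgebra R A) (φ : A →+* A) (hφ : ∀ s ∈ S, φ s ∈ S) {y : A}
    (hy : IsIntegral ↥S y) : IsIntegral ↥S (φ y) := by
  obtain ⟨p, hp, hpy⟩ := hy
  let φS : ↥S →+* ↥S := (φ.comp S.val.toRingHom).codRestrict S fun s => hφ s s.2
  refine ⟨p.map φS, hp.map _, ?_⟩
  rw [Polynomial.eval₂_map]
  have hcomp : (algebraMap ↥S A).comp φS = φ.comp (algebraMap ↥S A) := by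
    ext s
    rfl
  rw [hcomp, ← Polynomial.hom_eval₂, hpy, map_zero]

/-- `coeffMap τ` preserves `k[j̃] ⊆ F̃_N`. -/
theorem coeffMapFull_mem_adjoin (τ : k →+* k) (N : ℕ) [NeZero N]
    {s : ↥(modularFunctionFieldFullC k N)} (hs : s ∈ Algebra.adjoin k {jFullC k N}) :
    coeffMapFull τ N s ∈ Algebra.adjoin k {jFullC k N} := by
  induction hs using Algebra.adjoin_induction with
  | mem x hx =>
    rw [Set.mem_singleton_iff.1 hx, coeffMapFull_jFullC]
    exact Algebra.subset_adjoin (Set.mem_singleton _)
  | algebraMap c =>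
    rw [coeffMapFull_algebraMap]
    exact Subalgebra.algebraMap_mem _ _
  | add x y _ _ hx hy => rw [map_add]; exact add_mem hx hy
  | mul x y _ _ hx hy => rw [map_mul]; exact mul_mem hx hy

/-- `coeffMap τ` preserves integrality over `k[j̃]`. -/
theorem isIntegral_coeffMapFull (τ : k →+* k) (N : ℕ) [NeZero N]
    {y : ↥(modularFunctionFieldFullC k N)}
    (hy : IsIntegral ↥(Algebra.adjoin k {jFullC k N}) y) :
    IsIntegral ↥(Algebra.adjoin k {jFullC k N}) (coeffMapFull τ N y) :=
  isIntegral_ringHom_of_mapsTo _ (coeffMapFull τ N)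
    (fun _ hs => coeffMapFull_mem_adjoin τ N hs) hy

/-! ### The Frobenius untwist over a perfect field -/

variable (q : ℕ) [hq : Fact q.Prime] [CharP k q] [PerfectRing k q]

/-- the coefficientwise inverse Frobenius of `k((q))` -/
def untwist : LaurentSeries k →+* LaurentSeries k :=
  coeffMap ((frobeniusEquiv k q).symm : k →+* k)

theorem frobenius_untwist (y : LaurentSeries k) :
    coeffMap (frobenius k q) (untwist q y) = y := by
  rw [untwist, coeffMap_coeffMap]
  have h : (frobenius k q).comp ((frobeniusEquiv k q).symm : k →+* k) = RingHom.id k := by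
    ext c
    exact frobenius_apply_frobeniusEquiv_symm k q c
  rw [h, coeffMap_id]

theorem untwist_frobenius (y : LaurentSeries k) :
    untwist q (coeffMap (frobenius k q) y) = y := by
  rw [untwist, coeffMap_coeffMap]
  have h : ((frobeniusEquiv k q).symm : k →+* k).comp (frobenius k q) = RingHom.id k := by
    ext c
    exact frobeniusEquiv_symm_apply_frobenius k q c
  rw [h, coeffMap_id]

/-- `y^q = V (σ y)`, rewritten with the untwist: `(untwist y)^q = V y`. -/
theorem untwist_pow (y : LaurentSeries k) : (untwist q y) ^ q = qExpand k q y := by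
  rw [Fermat.Agent.ES.pow_char_eq_qExpand_coeffMap_frobenius q, frobenius_untwist]

/-- **Untwist inside `F̃_N`, integrally over `k[j̃]`**: every `y ∈ F̃_N` integral over `k[j̃]` is
`σ y'` for some `y' ∈ F̃_N` integral over `k[j̃]`. -/
theorem exists_untwist_full (N : ℕ) [NeZero N] (y : ↥(modularFunctionFieldFullC k N))
    (hy : IsIntegral ↥(Algebra.adjoin k {jFullC k N}) y) :
    ∃ y' : ↥(modularFunctionFieldFullC k N),
      IsIntegral ↥(Algebra.adjoin k {jFullC k N}) y' ∧
      (y : LaurentSeries k) = coeffMap (frobenius k q) (y' : LaurentSeries k) :=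
  ⟨coeffMapFull ((frobeniusEquiv k q).symm : k →+* k) N y,
    isIntegral_coeffMapFull _ N hy, (frobenius_untwist q (y : LaurentSeries k)).symm⟩

end Untwist

end Fermat.Agent.BR.KronTwisted
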