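import Fermat.Agent.BR.TwoValQ
import Fermat.Agent.Val.OrthoBar
import Fermat.Agent.Igusa.DegQ
import Fermat.Agent.Val.GaussUnique

/-!
# Program B, block B1, node B1.QFORM (file 2): `ℚ`-level exhaustion

`F = modularFunctionFieldFull (M * q)`.  A valuation subring `O` of `F` containing `j`, in which `q`
is a nonunit and such that the residue of `j` is transcendental over `𝔽_q` (in the residue-field-free
form `htr`) is `O1Q` or `O2Q`.

Route: extend `O` to a valuation subring `W` of `Fb (M * q)` (Chevalley); `B' := W ∩ ℚ̄` lies over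
`q`; `W ∩ ℚ̄(j)` is the Gauss valuation ring of `B'` (`comap_adjoin_eq_of_primitive`, using that the
residue of `j` stays transcendental over the residue field of `B'`, which is algebraic over `𝔽_q`);
hence `W ∩ Fb M` is the level-`M` Gauss valuation subring for `B'` (uniqueness, `Val/GaussUnique`),
hence `W = O₁(B')` or `W = O₂(B')` (`TwoValInst.eq_O1_or_eq_O2`); finally `O_i(B') ∩ F` does not
depend on `B'` (`TwoValQ.O1Q_eq`, `O2Q_eq`).
-/

set_option autoImplicit false
set_option linter.unusedSectionVars false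
set_option linter.style.haveILetI false

noncomputable section

namespace Fermat.Agent.BR.TwoValQ

open ModularCurve ModularCurve.IgusaScheme Fermat.Agent.X0 Fermat.Agent.Val Fermat.Agent.BR.TwoVal
  Fermat.Agent.Igusa Fermat.Agent.Good.Bridge Polynomial IntermediateField

/-! ### Generic: extension of valuation subrings (Chevalley) -/

section Chevalley

variable {K L : Type*} [Field K] [Field L]

/-- Every valuation subring of `K` is the restriction of a valuation subring of `L ⊇ K`. -/
theorem exists_comap_eq (f : K →+* L) (O : ValuationSubring K) :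
    ∃ W : ValuationSubring L, W.comap f = O := by
  obtain ⟨W, h, hloc⟩ := IsLocalRing.exists_factor_valuationRing (f.comp O.subtype)
  refine ⟨W, ?_⟩
  ext x
  constructor
  · intro hx
    by_contra hxO
    have hxinv : x⁻¹ ∈ O := (O.mem_or_inv_mem x).resolve_left hxO
    have hx0 : x ≠ 0 := fun h0 => hxO (h0 ▸ O.zero_mem)
    have hu : IsUnit ((f.comp O.subtype).codRestrict W.toSubring h ⟨x⁻¹, hxinv⟩) := by
      rw [isUnit_iff_exists_inv]
      refine ⟨⟨f x, hx⟩, Subtype.ext ?_⟩
      show f x⁻¹ * f x = 1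
      rw [← map_mul, inv_mul_cancel₀ hx0, map_one]
    have hu' : IsUnit (⟨x⁻¹, hxinv⟩ : O) := hloc.map_nonunit _ hu
    obtain ⟨y, hy⟩ := isUnit_iff_exists_inv.mp hu'
    have hy' : x⁻¹ * (y : K) = 1 := congrArg Subtype.val hy
    have : (y : K) = x := by
      have := congrArg (fun z => x * z) hy'
      simp only [← mul_assoc, mul_inv_cancel₀ hx0, one_mul, mul_one] at this
      exact this
    exact hxO (this ▸ y.2)
  · intro hx
    exact h ⟨x, hx⟩

end Chevalley

/-! ### Generic: a valuation subring of `K(x)` with transcendental residue of `x` is Gauss -/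

section GaussChar

variable {K F : Type*} [Field K] [Field F] [Algebra K F] (A : ValuationSubring K) (x : F)

/-- an element of `U` which is not a nonunit has its inverse in `U` -/
theorem inv_mem_of_notMem_nonunits {U : ValuationSubring F} {y : F} (hy : y ∈ U)
    (hy' : y ∉ U.nonunits) : y⁻¹ ∈ U := by
  rw [← U.valuation_le_one_iff] at hy ⊢
  rw [U.mem_nonunits_iff, not_lt] at hy'
  rw [map_inv₀, le_antisymm hy hy', inv_one]

/-- one direction of `comap_adjoin_eq_of_primitive` -/
theorem mem_of_mem_of_primitive {U₁ U₂ : ValuationSubring F}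
    (hA₁ : U₁.comap (algebraMap K F) = A) (hA₂ : U₂.comap (algebraMap K F) = A)
    (hx₁ : x ∈ U₁) (hx₂ : x ∈ U₂)
    (ht₁ : ∀ p : A[X], (∃ n, p.coeff n = 1) → aeval x (p.map A.subtype) ∉ U₁.nonunits)
    (ht₂ : ∀ p : A[X], (∃ n, p.coeff n = 1) → aeval x (p.map A.subtype) ∉ U₂.nonunits)
    {a : F} (ha : a ∈ K⟮x⟯) (ha₁ : a ∈ U₁) : a ∈ U₂ := by
  obtain ⟨P, Q, rfl⟩ := (IntermediateField.mem_adjoin_simple_iff K a).1 ha
  by_cases hQx : aeval x Q = 0
  · rw [hQx, div_zero]; exact U₂.zero_mem
  by_cases hPx : aeval x P = 0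
  · rw [hPx, zero_div]; exact U₂.zero_mem
  have hP0 : P ≠ 0 := fun h => hPx (by rw [h, map_zero])
  have hQ0 : Q ≠ 0 := fun h => hQx (by rw [h, map_zero])
  obtain ⟨c, PA, n₁, hc, hPA, hn₁⟩ := GaussUnique.exists_smul_eq_map_subtype A hP0
  obtain ⟨d, QA, n₂, hd, hQA, hn₂⟩ := GaussUnique.exists_smul_eq_map_subtype A hQ0
  -- the primitive parts are units of both
  have hmem : ∀ (U : ValuationSubring F), U.comap (algebraMap K F) = A → x ∈ U →
      ∀ p : A[X], aeval x (p.map A.subtype) ∈ U := by
    intro U hU hxU p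
    have hcoef : ∀ a : A, algebraMap K F (a : K) ∈ U := fun a => by
      have : (a : K) ∈ U.comap (algebraMap K F) := by rw [hU]; exact a.2
      exact this
    rw [aeval_def, eval₂_map, Polynomial.eval₂_eq_sum_range]
    exact sum_mem fun i _ => mul_mem (hcoef (p.coeff i)) (pow_mem hxU i)
  set uP := aeval x (PA.map A.subtype) with huP
  set uQ := aeval x (QA.map A.subtype) with huQ
  have hP' : uP = algebraMap K F c * aeval x P := by
    rw [huP, hPA, map_mul, aeval_C]
  have hQ' : uQ = algebraMap K F d * aeval x Q := by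
    rw [huQ, hQA, map_mul, aeval_C]
  have hc' : algebraMap K F c ≠ 0 := (_root_.map_ne_zero _).2 hc
  have hd' : algebraMap K F d ≠ 0 := (_root_.map_ne_zero _).2 hd
  have huP0 : uP ≠ 0 := by rw [hP']; exact mul_ne_zero hc' hPx
  have huQ0 : uQ ≠ 0 := by rw [hQ']; exact mul_ne_zero hd' hQx
  have key : aeval x P / aeval x Q = algebraMap K F (d / c) * (uP * uQ⁻¹) := by
    rw [hP', hQ', map_div₀]
    field_simp
  have key' : algebraMap K F (d / c) = aeval x P / aeval x Q * (uQ * uP⁻¹) := by
    rw [key]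
    field_simp
  have h1 : algebraMap K F (d / c) ∈ U₁ := by
    rw [key']
    exact mul_mem ha₁ (mul_mem (hmem U₁ hA₁ hx₁ QA)
      (inv_mem_of_notMem_nonunits (hmem U₁ hA₁ hx₁ PA) (ht₁ PA ⟨n₁, hn₁⟩)))
  have h2 : d / c ∈ A := by
    rw [← hA₁]; exact h1
  have h3 : algebraMap K F (d / c) ∈ U₂ := by
    have : d / c ∈ U₂.comap (algebraMap K F) := by rw [hA₂]; exact h2
    exact this
  rw [key]
  exact mul_mem h3 (mul_mem (hmem U₂ hA₂ hx₂ PA)
    (inv_mem_of_notMem_nonunits (hmem U₂ hA₂ hx₂ QA) (ht₂ QA ⟨n₂, hn₂⟩)))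

/-- **Gauss characterisation**: two valuation subrings of `F` extending `A`, containing `x`, in
which the primitive polynomials in `x` over `A` are units, induce the same valuation subring of
`K(x)`. -/
theorem comap_adjoin_eq_of_primitive {U₁ U₂ : ValuationSubring F}
    (hA₁ : U₁.comap (algebraMap K F) = A) (hA₂ : U₂.comap (algebraMap K F) = A)
    (hx₁ : x ∈ U₁) (hx₂ : x ∈ U₂)
    (ht₁ : ∀ p : A[X], (∃ n, p.coeff n = 1) → aeval x (p.map A.subtype) ∉ U₁.nonunits)
    (ht₂ : ∀ p : A[X], (∃ n, p.coeff n = 1) → aeval x (p.map A.subtype) ∉ U₂.nonunits) :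
    U₁.comap (algebraMap K⟮x⟯ F) = U₂.comap (algebraMap K⟮x⟯ F) := by
  ext a
  rw [ValuationSubring.mem_comap, ValuationSubring.mem_comap]
  exact ⟨mem_of_mem_of_primitive A x hA₁ hA₂ hx₁ hx₂ ht₁ ht₂ a.2,
    mem_of_mem_of_primitive A x hA₂ hA₁ hx₂ hx₁ ht₂ ht₁ a.2⟩

end GaussChar

/-! ### Transfer of transcendence: from `𝔽_q` to the residue field of `W ∩ ℚ̄` -/

section Transfer

variable {F : Type*} [Field F] [Algebra Kb F] {q : ℕ} [hq : Fact q.Prime]

/-- If the residue of `x` in `W` is transcendental over `𝔽_q` (form `htr`), then it is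
transcendental over the residue field of `W ∩ ℚ̄` (which is algebraic over `𝔽_q`): primitive
polynomials in `x` over `W ∩ ℚ̄` are units of `W`. -/
theorem aeval_notMem_nonunits_of_int (W : ValuationSubring F) (B' : ValuationSubring Kb)
    (hWB : W.comap (algebraMap Kb F) = B') (x : F) (hx : x ∈ W) (hB' : B'.LiesOverPrime q)
    (htr : ∀ R : ℤ[X], aeval x R ∈ W.nonunits → ∀ i, (q : ℤ) ∣ R.coeff i)
    (p : B'[X]) (hp : ∃ n, p.coeff n = 1) :
    aeval x (p.map B'.subtype) ∉ W.nonunits := by
  intro hy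
  have hmemW : ∀ a : B', algebraMap Kb F (a : Kb) ∈ W := fun a => by
    have : (a : Kb) ∈ W.comap (algebraMap Kb F) := by rw [hWB]; exact a.2
    exact this
  let φ : B' →+* W :=
    { toFun := fun a => ⟨algebraMap Kb F (a : Kb), hmemW a⟩
      map_one' := Subtype.ext (map_one _)
      map_mul' := fun _ _ => Subtype.ext (map_mul _ _ _)
      map_zero' := Subtype.ext (map_zero _)
      map_add' := fun _ _ => Subtype.ext (map_add _ _ _) }
  let ψ : B' →+* IsLocalRing.ResidueField W := (IsLocalRing.residue W).comp φ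
  have hψ : ∀ a : B', a ∈ IsLocalRing.maximalIdeal B' → ψ a = 0 := by
    intro a ha
    show IsLocalRing.residue W (φ a) = 0
    rw [IsLocalRing.residue_eq_zero_iff, ← ValuationSubring.coe_mem_nonunits_iff]
    show algebraMap Kb F (a : Kb) ∈ W.nonunits
    rw [← mem_nonunits_comap, hWB, ValuationSubring.coe_mem_nonunits_iff]
    exact ha
  let ι' : IsLocalRing.ResidueField B' →+* IsLocalRing.ResidueField W :=
    Ideal.Quotient.lift (IsLocalRing.maximalIdeal B') ψ hψ
  have hι' : ∀ a : B', ι' (IsLocalRing.residue B' a) = ψ a := fun a =>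
    Ideal.Quotient.lift_mk _ _ _
  letI := charP_residueField_of_liesOverPrime B' hB'
  letI : Algebra (ZMod q) (IsLocalRing.ResidueField B') :=
    ZMod.algebra (IsLocalRing.ResidueField B') q
  letI : Algebra (IsLocalRing.ResidueField B') (IsLocalRing.ResidueField W) := ι'.toAlgebra
  letI : Algebra (ZMod q) (IsLocalRing.ResidueField W) :=
    (ι'.comp (algebraMap (ZMod q) (IsLocalRing.ResidueField B'))).toAlgebra
  haveI : IsScalarTower (ZMod q) (IsLocalRing.ResidueField B') (IsLocalRing.ResidueField W) :=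
    IsScalarTower.of_algebraMap_eq (fun _ => rfl)
  haveI : Algebra.IsAlgebraic (ZMod q) (IsLocalRing.ResidueField B') :=
    isAlgebraic_residueField_algebraicClosure_rat B'
  set xW : W := ⟨x, hx⟩ with hxW
  set xb : IsLocalRing.ResidueField W := IsLocalRing.residue W xW with hxb
  have hpbar : p.map (IsLocalRing.residue B') ≠ 0 := by
    obtain ⟨n, hn⟩ := hp
    intro h
    have h1 := congrArg (fun r => r.coeff n) h
    simp only [coeff_map, coeff_zero] at h1
    rw [hn, map_one] at h1
    exact one_ne_zero h1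
  have hroot : aeval xb (p.map (IsLocalRing.residue B')) = 0 := by
    rw [aeval_def, eval₂_map]
    have hcomp : (algebraMap (IsLocalRing.ResidueField B') (IsLocalRing.ResidueField W)).comp
        (IsLocalRing.residue B') = (IsLocalRing.residue W).comp φ := RingHom.ext hι'
    rw [hcomp, hxb, ← hom_eval₂, IsLocalRing.residue_eq_zero_iff,
      ← ValuationSubring.coe_mem_nonunits_iff]
    have hcoe : ((eval₂ φ xW p : W) : F) = aeval x (p.map B'.subtype) := by
      have h1 := hom_eval₂ p φ W.subtype xW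
      rw [aeval_def, eval₂_map]
      exact h1
    rw [hcoe]
    exact hy
  have halg' : IsAlgebraic (IsLocalRing.ResidueField B') xb := ⟨_, hpbar, hroot⟩
  have halg : IsAlgebraic (ZMod q) xb := halg'.restrictScalars (ZMod q)
  obtain ⟨Rb, hRb0, hRb⟩ := halg
  obtain ⟨R, hR⟩ : ∃ R : ℤ[X], R.map (Int.castRingHom (ZMod q)) = Rb :=
    Polynomial.map_surjective _ ZMod.intCast_surjective Rb
  have hRx : aeval x R ∈ W.nonunits := by
    have hcoe : ((eval₂ (Int.castRingHom W) xW R : W) : F) = aeval x R := by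
      have h1 := hom_eval₂ R (Int.castRingHom W) W.subtype xW
      rw [aeval_def]
      have h2 : (W.subtype).comp (Int.castRingHom W) = algebraMap ℤ F := RingHom.ext_int _ _
      rw [h2] at h1
      exact h1
    rw [← hcoe, ValuationSubring.coe_mem_nonunits_iff, ← IsLocalRing.residue_eq_zero_iff,
      hom_eval₂, ← hxb]
    have h3 : (IsLocalRing.residue W).comp (Int.castRingHom W) =
        (algebraMap (ZMod q) (IsLocalRing.ResidueField W)).comp (Int.castRingHom (ZMod q)) :=
      RingHom.ext_int _ _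
    rw [h3, ← eval₂_map, hR, ← aeval_def]
    exact hRb
  have hdiv := htr R hRx
  apply hRb0
  rw [← hR]
  ext i
  rw [coeff_map, coeff_zero, eq_intCast]
  exact (ZMod.intCast_zmod_eq_zero_iff_dvd _ _).2 (hdiv i)

end Transfer

/-! ### The Gauss side and the assembly -/

section Assembly

variable {M q : ℕ} [NeZero M] [hq : Fact q.Prime]

set_option quotPrecheck false in
local notation "FQ" => ↥(modularFunctionFieldFull (M * q))

variable (B : ValuationSubring Kb) (hB : B.LiesOverPrime q) (hqM : ¬ q ∣ M)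

/-- `j ∈ O_M` -/
theorem jBar_mem_OM : jBar M ∈ ResGen.OM M B hB := by
  have h := ResGen.jBarD_mem_gaussValQbar B M hq.out.ne_zero hB 1 (one_dvd M)
  have e : jBarD M 1 (one_dvd M) = jBar M := by
    apply Subtype.ext
    show coeffEmb Kb (qExpand ℚ 1 jq) = coeffEmb Kb jq
    rw [qExpand_one_apply]
  rwa [e] at h

/-- primitive polynomials in `j` over `B` are units of the level-`M` Gauss valuation subring -/
theorem aeval_jBar_notMem_nonunits_OM (p : B[X]) (hp : ∃ n, p.coeff n = 1) :
    aeval (jBar M) (p.map B.subtype) ∉ (ResGen.OM M B hB).nonunits := by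
  have hcoe : ((aeval (jBar M) (p.map B.subtype) : Fb M) : LaurentSeries Kb) =
      aIota B (GaussUnique.evalA B (jqModC B) p) := by
    rw [coe_aeval_bar, coe_jBar, GaussUnique.aIota_evalA]
    congr 2
    exact (coeffMap_subtype_jqModC B).symm
  have hmem : aeval (jBar M) (p.map B.subtype) ∈ ResGen.OM M B hB := by
    rw [ResGen.mem_OM_iff, hcoe]
    exact aIota_mem_gaussRingA _ _ _
  rw [TwoValInst.mem_nonunits_OM_iff B hB hmem, ResGen.resM_apply]
  have hres : gaussResA B (IsLocalRing.residue B)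
      ⟨((aeval (jBar M) (p.map B.subtype) : Fb M) : LaurentSeries Kb), hmem⟩ =
      aRed (IsLocalRing.residue B) (GaussUnique.evalA B (jqModC B) p) := by
    rw [← gaussResA_aIota]
    exact ResGen.gaussResA_congr B _ _ hcoe
  rw [hres, GaussUnique.aRed_evalA]
  have hx : aRed (IsLocalRing.residue B) (jqModC B) = jqModC (IsLocalRing.ResidueField B) :=
    coeffMap_jqModC _
  rw [hx]
  intro h0
  have htr := Fermat.Agent.Igusa.ChartBaseAux.transcendental_jqModC (IsLocalRing.ResidueField B)
  have h1 := (transcendental_iff.1 htr) _ h0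
  obtain ⟨n, hn⟩ := hp
  have h2 := congrArg (fun r => r.coeff n) h1
  simp only [coeff_map, coeff_zero] at h2
  rw [hn, map_one] at h2
  exact one_ne_zero h2

include hqM in
/-- the variable of the orthonormal data is `j` -/
theorem orthoDataQbar_xF : (orthoDataQbar B M hB hqM).xF = jBar M := by
  apply Subtype.ext
  show aIota B (orthoDataQbar B M hB hqM).x = coeffEmb Kb jq
  rw [orthoDataQbar_x]
  exact coeffMap_subtype_jqModC B

include hqM in
/-- uniqueness at level `M`, with `j` as the variable -/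
theorem eq_OM_of_comap_eq (W' : ValuationSubring (Fb M))
    (h : W'.comap (algebraMap Kb⟮(orthoDataQbar B M hB hqM).xF⟯ (Fb M)) =
      (ResGen.OM M B hB).comap (algebraMap Kb⟮(orthoDataQbar B M hB hqM).xF⟯ (Fb M))) :
    W' = ResGen.OM M B hB := by
  have h1 := (orthoDataQbar B M hB hqM).eq_valSubring_of_comap_eq (residue_hπ B) W'
    (by rw [orthoDataQbar_valSubring]; exact h)
  rw [orthoDataQbar_valSubring] at h1
  exact h1

theorem comap_algebraMap_OM : (ResGen.OM M B hB).comap (algebraMap Kb (Fb M)) = B := by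
  ext c
  exact ValTwo.algebraMap_mem_gauss_iff hq.out B hB M c

include hqM in
/-- the level-`M` step: a valuation subring `W'` of `Fb M` with `W' ∩ ℚ̄ = B` over `q`,
containing `j`, in which primitive polynomials in `j` are units, is the Gauss valuation subring. -/
theorem eq_OM_of_primitive (W' : ValuationSubring (Fb M))
    (hW'B : W'.comap (algebraMap Kb (Fb M)) = B) (hjW' : jBar M ∈ W')
    (ht1 : ∀ p : B[X], (∃ n, p.coeff n = 1) → aeval (jBar M) (p.map B.subtype) ∉ W'.nonunits) :
    W' = ResGen.OM M B hB := by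
  apply eq_OM_of_comap_eq B hB hqM W'
  refine comap_adjoin_eq_of_primitive B _ hW'B (comap_algebraMap_OM B hB) ?_ ?_ ?_ ?_
  · rw [orthoDataQbar_xF B hB hqM]; exact hjW'
  · rw [orthoDataQbar_xF B hB hqM]; exact jBar_mem_OM B hB
  · rw [orthoDataQbar_xF B hB hqM]; exact ht1
  · rw [orthoDataQbar_xF B hB hqM]; exact aeval_jBar_notMem_nonunits_OM B hB

include hqM in
/-- the level-`M` step: a valuation subring `W` of `Fb (M * q)` with `W ∩ ℚ̄ = B'` over `q`,
containing `j`, with transcendental residue of `j`, restricts along `α` to the level-`M` Gauss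
valuation subring of `B'`. -/
theorem comap_alpha_eq_OM (W : ValuationSubring (Fb (M * q))) (B' : ValuationSubring Kb)
    (hWB : W.comap (algebraMap Kb (Fb (M * q))) = B') (hB' : B'.LiesOverPrime q)
    (hjW : jBar (M * q) ∈ W)
    (htrW : ∀ R : ℤ[X], aeval (jBar (M * q)) R ∈ W.nonunits → ∀ i, (q : ℤ) ∣ R.coeff i) :
    W.comap (heckeAlphaBar Kb M q : Fb M →+* Fb (M * q)) = ResGen.OM M B' hB' := by
  have hαj : heckeAlphaBar Kb M q (jBar M) = jBar (M * q) :=
    Subtype.ext (coe_heckeAlphaBar M q _)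
  apply eq_OM_of_primitive B' hB' hqM
  · ext c
    rw [← hWB, ValuationSubring.mem_comap, ValuationSubring.mem_comap, ValuationSubring.mem_comap,
      RingHom.coe_coe, AlgHom.commutes]
  · rw [ValuationSubring.mem_comap, RingHom.coe_coe, hαj]
    exact hjW
  · intro p hp h
    rw [mem_nonunits_comap, RingHom.coe_coe, ← Polynomial.aeval_algHom_apply, hαj] at h
    exact aeval_notMem_nonunits_of_int W B' hWB (jBar (M * q)) hjW hB' htrW p hp h

/-- **(I2) `ℚ`-LEVEL EXHAUSTION**: a valuation subring of `F = modularFunctionFieldFull (M * q)`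
containing `j`, in which `q` is a nonunit and the residue of `j` is transcendental over `𝔽_q`, is the
restriction of `w₁` or of `w₂`. -/
theorem eq_O1Q_or_eq_O2Q (O : ValuationSubring FQ) (hj : jFull (M * q) ∈ O)
    (hqO : (q : FQ) ∈ O.nonunits)
    (htr : ∀ P : ℤ[X], aeval (jFull (M * q)) P ∈ O.nonunits → ∀ i, (q : ℤ) ∣ P.coeff i) :
    O = O1Q M B hB ∨ O = O2Q B hB hqM := by
  obtain ⟨W, hW⟩ := exists_comap_eq (barEmb (M * q)) O
  obtain ⟨B', hWB⟩ : ∃ B' : ValuationSubring Kb,
      W.comap (algebraMap Kb (Fb (M * q))) = B' := ⟨_, rfl⟩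
  have hqW : (q : Fb (M * q)) ∈ W.nonunits := by
    rw [← barEmb_natCast (M := M) (q := q), ← mem_nonunits_comap, hW]
    exact hqO
  have hB' : B'.LiesOverPrime q := by
    show (q : Kb) ∈ B'.nonunits
    rw [← hWB, mem_nonunits_comap, ← natCast_eq_algebraMap]
    exact hqW
  have hjW : jBar (M * q) ∈ W := by
    rw [← barEmb_jFull]
    have : jFull (M * q) ∈ W.comap (barEmb (M * q)) := by rw [hW]; exact hj
    exact this
  have htrW : ∀ R : ℤ[X], aeval (jBar (M * q)) R ∈ W.nonunits → ∀ i, (q : ℤ) ∣ R.coeff i := by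
    intro R hR
    apply htr R
    rw [← hW, mem_nonunits_comap]
    have : barEmb (M * q) (aeval (jFull (M * q)) R) = aeval (jBar (M * q)) R := by
      rw [← barEmb_jFull, aeval_def, aeval_def, hom_eval₂]
      congr 1
      exact RingHom.ext_int _ _
    rwa [this]
  rcases TwoValInst.eq_O1_or_eq_O2 B' hB' hqM W (comap_alpha_eq_OM hqM W B' hWB hB' hjW htrW)
    with h | h
  · left
    rw [← hW, h]
    exact O1Q_eq B' hB' B hB
  · right
    rw [← hW, h]
    exact O2Q_eq B' hB' hqM B hB

end Assembly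

end Fermat.Agent.BR.TwoValQ
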