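import Fermat.Agent.BR.TwoValDefs
import Fermat.Agent.BR.ValTwo
import Fermat.Agent.BR.Separate
import Fermat.Agent.Good.ChartBridge
import Fermat.Agent.Igusa.ChartAssemble

/-!
# Program B, node B6.5(e), input (K1)/(K2): Kronecker's congruences for RATIONAL functions

For `y ∈ F_M = modularFunctionFieldFull M` (coefficients in `ℚ`) which is Gauss integral at `q`
(e.g. an element of the chart algebra `chartAlgFin M q`), and `x := barEmb M y ∈ Fb M`:

* `kron_rational₁` : `β x - (α x)^q ∈ 𝔪(w₁)`;
* `kron_rational₂` : `α x - (β x)^q ∈ 𝔪(w₂)`.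

Over `ℚ̄` these congruences hold only up to the Frobenius twist of the coefficients
(`ValTwo.frobenius_resOne_beta`); for rational `y` the reduction has coefficients in `𝔽_q`, on
which the Frobenius is the identity.
-/

set_option autoImplicit false
set_option linter.style.haveILetI false
set_option linter.unusedSectionVars false

noncomputable section

namespace Fermat.Agent.BR.KronRational

open ModularCurve AlgebraicCurve HahnSeries Fermat.Agent.X0 Fermat.Agent.Val Fermat.Agent.Hecke.AL
open Fermat.Agent.BR.TwoVal Fermat.Agent.BR.ValTwo Fermat.Agent.BR.Separate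
open Fermat.Agent.Igusa Fermat.Agent.Good.Bridge

variable {M q : ℕ} [NeZero M] [hq : Fact q.Prime] (hqM : ¬ q ∣ M)
variable (B : ValuationSubring Kb) (hB : B.LiesOverPrime q)

/-- The coefficientwise Frobenius fixes series coming from `𝔽_q((q))`. -/
theorem coeffMap_frobenius_coeffMap_zmod {k : Type*} [Field k] [CharP k q] (ι : ZMod q →+* k)
    (z : LaurentSeries (ZMod q)) :
    coeffMap (frobenius k q) (coeffMap ι z) = coeffMap ι z := by
  ext n
  rw [coeffMap_coeff, coeffMap_coeff, frobenius_def, ← map_pow, ZMod.pow_card]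

section Rational

variable {y : ↥(modularFunctionFieldFull M)}
  (hy : ((y : ↥(modularFunctionFieldFull M)) : LaurentSeries ℚ) ∈ gaussSubring q)

include hy in
/-- Gauss-integral rational functions are integral for the level `M` Gauss valuation of `ℚ̄`. -/
theorem barEmb_mem_valM : barEmb M y ∈ valM M hq.out B hB :=
  coeffEmb_mem_gaussRingA B hB (IsLocalRing.residue B) (zmodToResidue B hB) hy

/-- their residue has coefficients in `𝔽_q` -/
theorem resM_barEmb :
    resM M hq.out B hB ⟨barEmb M y, barEmb_mem_valM B hB hy⟩ =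
      coeffMap (zmodToResidue B hB) (gaussRes q ⟨_, hy⟩) :=
  gaussResA_coeffEmb B hB (IsLocalRing.residue B) (zmodToResidue B hB) hy

/-- `V x̄ = x̄^q` for the residue of a rational function. -/
theorem qExpand_resM_barEmb :
    qExpand (kB B) q (resM M hq.out B hB ⟨barEmb M y, barEmb_mem_valM B hB hy⟩) =
      (resM M hq.out B hB ⟨barEmb M y, barEmb_mem_valM B hB hy⟩) ^ q := by
  haveI := charP_residueField_of_liesOverPrime B hB
  rw [Fermat.Agent.ES.pow_char_eq_qExpand_coeffMap_frobenius q, resM_barEmb B hB hy,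
    coeffMap_frobenius_coeffMap_zmod]

include hy in
/-- **(K1), rational Kronecker on `Z₁`**: `β x ≡ (α x)^q mod 𝔪(w₁)`. -/
theorem kron_rational₁ :
    heckeBetaBar Kb M q (barEmb M y) - (heckeAlphaBar Kb M q (barEmb M y)) ^ q ∈
      (O1 M B hB).nonunits := by
  have hx := barEmb_mem_valM B hB hy
  have hβ : heckeBetaBar Kb M q (barEmb M y) ∈ valOne M hq.out B hB :=
    (beta_mem_valOne_iff hq.out B hB _).mpr hx
  have hα : heckeAlphaBar Kb M q (barEmb M y) ∈ valOne M hq.out B hB :=
    (alpha_mem_valOne_iff hq.out B hB _).mpr hx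
  rw [mem_nonunits_O1_iff]
  refine ⟨sub_mem hβ (pow_mem hα q), ?_⟩
  have e : (⟨_, sub_mem hβ (pow_mem hα q)⟩ : valOne M hq.out B hB) = ⟨_, hβ⟩ - ⟨_, hα⟩ ^ q :=
    Subtype.ext rfl
  rw [res1_eq_resOne, e, map_sub, map_pow, resOne_beta hq.out B hB ⟨_, hx⟩,
    resOne_alpha hq.out B hB ⟨_, hx⟩, qExpand_resM_barEmb B hB hy, sub_self]

include hy in
/-- **(K2), rational Kronecker on `Z₂`**: `α x ≡ (β x)^q mod 𝔪(w₂)`. -/
theorem kron_rational₂ :
    heckeAlphaBar Kb M q (barEmb M y) - (heckeBetaBar Kb M q (barEmb M y)) ^ q ∈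
      (O2 B hB hqM).nonunits := by
  rw [← Wq_mem_nonunits_O1_iff hqM B hB, map_sub, map_pow, Wq_alpha, Wq_beta]
  exact kron_rational₁ B hB hy

end Rational

/-! ### Chart elements -/

section Chart

open ModularCurve.IgusaScheme

/-- chart elements of level `M` are Gauss integral -/
theorem coe_chart_mem_gaussSubring (N : ℕ) [NeZero N] (x : ↥(chartAlgFin N q)) :
    (((x : ↥(chartAlgFin N q)) : ↥(modularFunctionFieldFull N)) : LaurentSeries ℚ) ∈
      gaussSubring q :=
  coe_mem_gaussSubring_of_mem_chartAlg N q (hSFin N q) x.2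

/-- **(K1) for the chart algebra**: `β x ≡ (α x)^q mod 𝔪(w₁)` for `x ∈ chartAlgFin M q`. -/
theorem kron_chart₁ (x : ↥(chartAlgFin M q)) :
    heckeBetaBar Kb M q (barEmb M (x : ↥(modularFunctionFieldFull M))) -
        (heckeAlphaBar Kb M q (barEmb M (x : ↥(modularFunctionFieldFull M)))) ^ q ∈
      (O1 M B hB).nonunits :=
  kron_rational₁ B hB (coe_chart_mem_gaussSubring M x)

/-- **(K2) for the chart algebra**: `α x ≡ (β x)^q mod 𝔪(w₂)` for `x ∈ chartAlgFin M q`. -/
theorem kron_chart₂ (x : ↥(chartAlgFin M q)) :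
    heckeAlphaBar Kb M q (barEmb M (x : ↥(modularFunctionFieldFull M))) -
        (heckeBetaBar Kb M q (barEmb M (x : ↥(modularFunctionFieldFull M)))) ^ q ∈
      (O2 B hB hqM).nonunits :=
  kron_rational₂ hqM B hB (coe_chart_mem_gaussSubring M x)

/-- chart elements of level `M * q` lie in `O1` -/
theorem barEmb_chart_mem_O1 (x : ↥(chartAlgFin (M * q) q)) :
    barEmb (M * q) (x : ↥(modularFunctionFieldFull (M * q))) ∈ O1 M B hB :=
  coeffEmb_mem_gaussRingA B hB (IsLocalRing.residue B) (zmodToResidue B hB)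
    (coe_chart_mem_gaussSubring (M * q) x)

/-- **bridge**: `res1` of a chart element of level `M * q` is the extension of coefficients of the
rational reduction `Igusa.chartRes`. -/
theorem res1_barEmb_chart (x : ↥(chartAlgFin (M * q) q)) :
    res1 M B hB ⟨barEmb (M * q) (x : ↥(modularFunctionFieldFull (M * q))),
        barEmb_chart_mem_O1 B hB x⟩ =
      coeffMap (zmodToResidue B hB) (chartRes (M * q) q (hSFin (M * q) q) x) :=
  gaussResA_coeffEmb B hB (IsLocalRing.residue B) (zmodToResidue B hB)
    (coe_chart_mem_gaussSubring (M * q) x)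

/-- a chart element of level `M * q` is a non-unit of `w₁` iff its rational reduction vanishes -/
theorem barEmb_chart_mem_nonunits_O1_iff (x : ↥(chartAlgFin (M * q) q)) :
    barEmb (M * q) (x : ↥(modularFunctionFieldFull (M * q))) ∈ (O1 M B hB).nonunits ↔
      chartRes (M * q) q (hSFin (M * q) q) x = 0 := by
  rw [mem_nonunits_O1_iff]
  constructor
  · rintro ⟨h, h0⟩
    have h1 := res1_barEmb_chart B hB x
    rw [h0] at h1
    exact coeffMap_injective_of_field (zmodToResidue B hB) (by rw [← h1, map_zero])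
  · intro h0
    exact ⟨barEmb_chart_mem_O1 B hB x, by rw [res1_barEmb_chart, h0, map_zero]⟩

end Chart

end Fermat.Agent.BR.KronRational
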