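import Fermat.Agent.BR.TraceUnip
import Fermat.Agent.Pseudo.FinalJZero
import Fermat.Agent.Pseudo.LamPsiHypProof
import Fermat.Agent.Jac.KummerMapsFinal
import Fermat.Agent.S37
import Fermat.Prelude.Def_GaloisRep_LocalConditions

/-!
# Program B (bad reduction), block B5: transfer to the frozen statement S34

Interface with the geometric blocks: `BR.UnipInertia N p q`, i.e. `(σ - 1)² = 0` on the `p`-power
torsion of `J₀(N)(ℚ̄)` for every `σ` in an inertia group over `q` (in the form "`σ x - x` is fixed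
by `σ`").

* `exists_trace_GQ_unip` : the limit trace of Program T (`Pseudo/TraceLimitGQ.lean`) together with
  the new clause `t σ = 2` for `σ` in an inertia group at a prime `q ≠ p` acting unipotently;
* `exists_traceFunction_unip` : the same at `J₀(N)` as a `Pseudo.HeckeTraceFunction`;
* `charpoly_eq_of_trace` : rank `2`, `tr f = 2`, `tr f² = 2`, `2` a non-zero-divisor
  `⇒ charpoly f = (X - 1)²`;
* `s34_of_unipInertia` : the frozen conclusion of S34 from `UnipInertia N p q`.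
-/

set_option autoImplicit false
set_option linter.style.haveILetI false
set_option linter.unusedSectionVars false

open ModularCurve CuspForm Polynomial

namespace Fermat.Agent.BR

local notation "Qb" => AlgebraicClosure ℚ
local notation "GQ" => (AlgebraicClosure ℚ ≃ₐ[ℚ] AlgebraicClosure ℚ)

/-- `(σ - 1)² = 0` on the `p`-power torsion of the `G_ℚ`-module `X`, for every `σ` in an inertia
group over `q`; in the form "`σ x - x` is fixed by `σ`". -/
def UnipInertiaOn (p q : ℕ) (X : Type*) [AddCommGroup X] [DistribMulAction GQ X] : Prop :=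
  ∀ P : ValuationSubring Qb, P.LiesOverPrime q → ∀ σ ∈ P.inertiaSubgroupIn ℚ,
    ∀ x : X, (∃ n : ℕ, p ^ n • x = 0) → σ • (σ • x - x) = σ • x - x

/-- **The output of the geometric blocks of Program B**: inertia at `q` acts unipotently on the
`p`-power torsion of `J₀(N)(ℚ̄)`. -/
def UnipInertia (N p q : ℕ) [NeZero N] : Prop := UnipInertiaOn p q (JZero N)

namespace S34Transfer

open Fermat.Agent.Jac Fermat.Agent.Pseudo Fermat.Agent.Pseudo.GQSys Fermat.Agent.Pseudo.JZ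
open Fermat.Agent.S54.FrobExists

/-! ### The `G_ℚ` layer -/

section GQLayer

variable {N p : ℕ} [NeZero N] [hp : Fact p.Prime] {S : Finset ℕ}
variable {X : Type*} [AddCommGroup X] [Module HeckeAlg X] [DistribMulAction GQ X]
  [SMulCommClass GQ HeckeAlg X]
variable {Lam : Type*} [AddCommGroup Lam] [Module.Free ℤ Lam] [Module.Finite ℤ Lam]
  {TLam : Nat.Primes → Module.End ℤ Lam}
variable {R : Type*} [CommRing R] (𝔞 : Ideal R) [IsAdicComplete 𝔞 R]

/-- The limit trace of `G_ℚ` (as in `GQLimit.exists_trace_GQ`) with the additional clause: the trace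
of an element of an inertia group at `q ≠ p` acting unipotently on the `p`-power torsion is `2`. -/
theorem exists_trace_GQ_unip (hpS : p ∈ S) (hNS : ∀ q : ℕ, q.Prime → q ∣ N → q ∈ S)
    (hFQ : FrobeniusQuadratic (K := ℚ) (L := Qb) N p X)
    (hUO : UnramifiedOutside (K := ℚ) (L := Qb) N p X)
    (hcheb : Fermat.Agent.Cheb.ChebExact)
    (hstab : ∀ x : X, ∃ L : IntermediateField ℚ Qb, FiniteDimensional ℚ L ∧
      ∀ σ : GQ, (∀ a ∈ L, σ a = a) → σ • x = x)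
    (hK : ∀ M : ℕ, 0 < M → ∃ rho : Lam →+ X, (∀ lam, rho lam = 0 ↔ ∃ mu, lam = M • mu) ∧
      ∀ (ℓ : Nat.Primes) (lam : Lam), rho (TLam ℓ lam) = heckeGen ℓ • rho lam)
    (A : Subalgebra ℤ (Module.End ℤ Lam)) (hA : ∀ i : Idx S, TLam i.1 ∈ A)
    (Ψ : A →+* heckeAlgebra N 2 (↑S : Set ℕ))
    (hΨ : ∀ (ℓ : ℕ) (hℓ : ℓ.Prime) (hℓN : ¬ ℓ ∣ N) (hℓS : ℓ ∉ (↑S : Set ℕ)),
      Ψ ⟨TLam ⟨ℓ, hℓ⟩, hA ⟨⟨ℓ, hℓ⟩, hℓS⟩⟩ = heckeAlgebra.T hℓ hℓN hℓS)
    (hp𝔞 : (p : R) ∈ 𝔞) (ξ : heckeAlgebra N 2 (↑S : Set ℕ) →+* R) :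
    ∃ t : GQ → R,
      (∀ n : ℕ, ∃ L : IntermediateField ℚ Qb, FiniteDimensional ℚ L ∧
        ∀ g g' : GQ, (∀ x ∈ L, g x = g' x) → t g - t g' ∈ 𝔞 ^ n) ∧
      (∀ (ℓ : ℕ) (hℓ : ℓ.Prime) (hℓN : ¬ ℓ ∣ N) (hℓS : ℓ ∉ (↑S : Set ℕ))
        (V : ValuationSubring Qb), V.LiesOverPrime ℓ → ∀ σ : GQ, V.IsFrobeniusAt σ ℓ →
          t σ = ξ (heckeAlgebra.T hℓ hℓN hℓS)) ∧
      (∀ q : ℕ, q.Prime → ¬ q ∣ N * p → ∀ P : ValuationSubring Qb, P.LiesOverPrime q →
        ∀ σ ∈ P.inertiaSubgroupIn ℚ, ∀ g : GQ, t (σ * g) = t g) ∧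
      (∀ q : ℕ, q.Prime → q ≠ p → UnipInertiaOn p q X →
        ∀ P : ValuationSubring Qb, P.LiesOverPrime q →
          ∀ σ ∈ P.inertiaSubgroupIn ℚ, t σ = 2) := by
  have hfg := GQLimit.fg_top_of_moduleFinite Lam
  let Y : TraceSystem GQ Lam X (Idx S) :=
    traceSystem N p S X TLam hpS hNS hFQ hcheb hstab hK hfg
  have htf : ∀ (n : ℕ) (x : heckeAlgebra N 2 (↑S : Set ℕ)), n ≠ 0 → n • x = 0 → x = 0 :=
    fun n x hn hx => nsmul_right_injective hn (by simpa using hx)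
  let D : TraceLimitInput Y R 𝔞 :=
    TraceLimitInput.ofHecke Y 𝔞 A hA Ψ ξ htf hp.out hp𝔞
      (fun g => ((Cyc.cycR 𝔞 hp𝔞 g : Rˣ) : R))
      (fun m g => Cyc.cycR_sub_cycloLift_mem 𝔞 hp𝔞 m g)
  refine ⟨D.t, ?_, ?_, ?_, ?_⟩
  · intro n
    obtain ⟨L, hL, h⟩ := exists_finite_of_mem_openSubgroups (Y.level_mem (n + D.c))
    exact ⟨L, hL, fun g g' hgg' => D.t_level n (h g g' hgg')⟩
  · intro ℓ hℓ hℓN hℓS V hV σ hσ
    have hF : Y.FrobAt σ ⟨⟨ℓ, hℓ⟩, hℓS⟩ := ⟨V, hV, hσ⟩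
    rw [D.t_frobAt hF]
    show ξ (Ψ ⟨TLam ⟨ℓ, hℓ⟩, hA ⟨⟨ℓ, hℓ⟩, hℓS⟩⟩) = _
    rw [hΨ ℓ hℓ hℓN hℓS]
  · intro q hq hqNp P hP σ hσ g
    have hqp : ∀ m : ℕ, ¬ q ∣ p ^ m := fun m h =>
      hqNp (Dvd.dvd.mul_left (hq.dvd_of_dvd_pow h) N)
    exact D.t_inertia (fun x hx => hUO q hq hqNp P hP σ hσ x hx)
      (fun m => Cyclo.cycloLift_of_cycloN_eq_one (p ^ m)
        (Cyclo.cycloN_eq_one_of_mem_inertia (p ^ m) hq (hqp m) P hP hσ)) g
  · intro q hq hqp hU P hP σ hσ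
    have hqp' : ∀ m : ℕ, ¬ q ∣ p ^ m := fun m h =>
      hqp ((Nat.prime_dvd_prime_iff_eq hq hp.out).mp (hq.dvd_of_dvd_pow h))
    exact TraceUnip.t_unip D (fun x hx => hU P hP σ hσ x hx)
      (fun m => Cyclo.cycloLift_of_cycloN_eq_one (p ^ m)
        (Cyclo.cycloN_eq_one_of_mem_inertia (p ^ m) hq (hqp' m) P hP hσ))

end GQLayer

/-! ### At `J₀(N)` -/

section JZeroLayer

variable {N p : ℕ} [NeZero N] [hp : Fact p.Prime] {S : Finset ℕ}

/-- The Hecke trace function at `J₀(N)` with the unipotent clause. -/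
theorem exists_traceFunction_unip (hpS : p ∈ S) (hNS : ∀ q : ℕ, q.Prime → q ∣ N → q ∈ S)
    (hK : KummerMaps N) (h37 : H37 N p) (hΨ : LamPsiHyp N S)
    (T : Type) [CommRing T] [IsLocalRing T] [IsAdicComplete (IsLocalRing.maximalIdeal T) T]
    (hpT : (p : T) ∈ IsLocalRing.maximalIdeal T)
    (π : heckeAlgebra N 2 (↑S : Set ℕ) →+* T) :
    ∃ F : HeckeTraceFunction N S T π,
      ∀ q : ℕ, q.Prime → q ≠ p → UnipInertia N p q →
        ∀ P : ValuationSubring Qb, P.LiesOverPrime q →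
          ∀ σ ∈ P.inertiaSubgroupIn ℚ, F.t σ = 2 := by
  letI := heckeModuleBar N
  haveI := smulCommClass_GQ_heckeAlg N
  haveI := finite_Lam N
  haveI := Fermat.Agent.Pseudo.JZ.free_Lam (N := N)
  obtain ⟨A, hA, Ψ, hΨ'⟩ := hΨ
  obtain ⟨t, hcont, hfrob, hin, hunip⟩ :=
    exists_trace_GQ_unip (X := JZero N) (TLam := fun ℓ => TLam N ℓ)
      (IsLocalRing.maximalIdeal T) hpS hNS
      (frobeniusQuadratic_of_H37 h37) (unramifiedOutside_of_H37 h37) Fermat.Agent.Cheb.chebExact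
      (Fermat.Agent.Res.exists_finite_fixing_JZero N) (kummerMaps_heckeGen hK) A hA Ψ hΨ' hpT π
  refine ⟨{ t := t, cont := hcont, frob := hfrob, inertia := ?_ }, ?_⟩
  · intro q hq hqS P hP σ hσ g
    refine hin q hq ?_ P hP σ hσ g
    intro h
    rcases (Nat.Prime.dvd_mul hq).mp h with h | h
    · exact hqS (hNS q hq h)
    · exact hqS (by rw [(Nat.prime_dvd_prime_iff_eq hq hp.out).mp h]; exact hpS)
  · intro q hq hqp hU P hP σ hσ
    exact hunip q hq hqp hU P hP σ hσ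

end JZeroLayer

/-! ### Rank two linear algebra -/

section RankTwo

variable {A V : Type*} [CommRing A] [AddCommGroup V] [Module A V] [Module.Free A V]
  [Module.Finite A V]

/-- An endomorphism `f` of a free module of rank `2` with `tr f = 2` and `tr f² = 2` has
characteristic polynomial `(X - 1)²`, provided `2` is a non-zero-divisor. -/
theorem charpoly_eq_of_trace (hrk : Module.finrank A V = 2) (h2 : ∀ x : A, 2 * x = 0 → x = 0)
    (f : Module.End A V) (h1 : LinearMap.trace A V f = 2)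
    (h1' : LinearMap.trace A V (f * f) = 2) :
    LinearMap.charpoly f = (X - 1) ^ 2 := by
  classical
  nontriviality A
  let b : Module.Basis (Fin 2) A V := Module.finBasisOfFinrankEq A V hrk
  set M := LinearMap.toMatrix b b f with hM
  have hc : M.charpoly = LinearMap.charpoly f := LinearMap.charpoly_toMatrix f b
  have ht : M.trace = 2 := by
    rw [hM, ← LinearMap.trace_eq_matrix_trace A b f, h1]
  have ht' : (M * M).trace = 2 := by
    rw [hM, ← LinearMap.toMatrix_mul, ← LinearMap.trace_eq_matrix_trace A b (f * f), h1']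
  have hdet2 : 2 * (M.det - 1) = 0 := by
    have e1 : M.trace = M 0 0 + M 1 1 := Matrix.trace_fin_two M
    have e2 : (M * M).trace = M 0 0 * M 0 0 + M 0 1 * M 1 0 + (M 1 0 * M 0 1 + M 1 1 * M 1 1) := by
      rw [Matrix.trace_fin_two, Matrix.mul_apply, Matrix.mul_apply, Fin.sum_univ_two,
        Fin.sum_univ_two]
    rw [Matrix.det_fin_two]
    rw [e1] at ht
    rw [e2] at ht'
    linear_combination (M 0 0 + M 1 1 + 2) * ht - ht'
  have hdet : M.det = 1 := sub_eq_zero.mp (h2 _ hdet2)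
  rw [← hc, Matrix.charpoly_fin_two, ht, hdet]
  simp only [map_ofNat, map_one]
  ring

end RankTwo

/-! ### The frozen statement S34 -/

/-- `2` is a non-zero-divisor of a free algebra over a domain of characteristic zero. -/
theorem two_mul_eq_zero_of_free (𝒪 : Type*) [CommRing 𝒪] [IsDomain 𝒪] [CharZero 𝒪]
    {T : Type*} [CommRing T] [Algebra 𝒪 T] [Module.Free 𝒪 T] (x : T) (hx : 2 * x = 0) : x = 0 := by
  have h : (2 : 𝒪) • x = 0 := by
    rw [Algebra.smul_def, map_ofNat]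
    exact hx
  rcases smul_eq_zero.mp h with h | h
  · exact absurd h two_ne_zero
  · exact h

section S34

variable {p : ℕ} {N : ℕ} [NeZero N] {S : Finset ℕ}
  {𝒪 : Type} [CommRing 𝒪] [IsDomain 𝒪] [IsDiscreteValuationRing 𝒪]
  [IsAdicComplete (IsLocalRing.maximalIdeal 𝒪) 𝒪] [CharZero 𝒪]
  {θ : CuspForm.heckeAlgebra N 2 (↑S : Set ℕ) →+* IsLocalRing.ResidueField 𝒪}
  {T : Type} [CommRing T] [IsLocalRing T] [IsNoetherianRing T]
  [IsAdicComplete (IsLocalRing.maximalIdeal T) T] [Algebra 𝒪 T] [IsLocalHom (algebraMap 𝒪 T)]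
  [Module.Finite 𝒪 T] [Module.Free 𝒪 T]

/-- **S34 (frozen conclusion) from the unipotent action of inertia on `J₀(N)[p^∞]`.** -/
theorem s34_of_unipInertia (hp : p.Prime)
    (hp𝒪 : (p : 𝒪) ∈ IsLocalRing.maximalIdeal 𝒪) (hpS : p ∈ S)
    (hNS : ∀ q : ℕ, q.Prime → q ∣ N → q ∈ S)
    (H : CuspForm.HeckeGaloisRepDatum N (↑S : Set ℕ) 𝒪 θ T)
    (q : ℕ) (hq : q.Prime) (hqp : q ≠ p) (hU : UnipInertia N p q) :
    H.ρ.IsUnipotentOnInertiaAt q := by
  haveI : Fact p.Prime := ⟨hp⟩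
  have hpT : (p : T) ∈ IsLocalRing.maximalIdeal T := by
    have h : algebraMap 𝒪 T (p : 𝒪) ∈ IsLocalRing.maximalIdeal T := by
      rw [IsLocalRing.mem_maximalIdeal, mem_nonunits_iff] at hp𝒪 ⊢
      exact fun hu => hp𝒪 (isUnit_of_map_unit (algebraMap 𝒪 T) _ hu)
    simpa using h
  obtain ⟨F, hF⟩ := exists_traceFunction_unip hpS hNS (Fermat.Agent.Jac.KMF.kummerMaps N)
    (Fermat.Agent.S37.result N p (Fermat.Agent.Jac.heckeOperatorsCommuteBar N))
    (Fermat.Agent.Pseudo.JZ.lamPsiHyp N S) T hpT H.π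
  intro P hP σ hσ
  have htr : ∀ τ ∈ P.inertiaSubgroupIn ℚ, LinearMap.trace T H.ρ.V (H.ρ.ρ τ) = 2 := by
    intro τ hτ
    have h := trace_eq_of_heckeTraceFunction Fermat.Agent.Cheb.chebExact hNS H F τ
    rw [GaloisRepAdic.trace] at h
    rw [h]
    exact hF q hq hqp hU P hP τ hτ
  refine charpoly_eq_of_trace H.ρ.finrank_eq (two_mul_eq_zero_of_free 𝒪) _
    (htr σ hσ) ?_
  rw [← map_mul]
  exact htr (σ * σ) (mul_mem hσ hσ)

end S34

end S34Transfer

end Fermat.Agent.BR
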