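import Fermat.Agent.BR.PicFunct
import Fermat.Agent.BR.S34TransferWeak
import Fermat.Agent.Jac.HeckeGalois
import Fermat.Agent.Hecke.HeckeInputs
import Fermat.Agent.Val.RiemannPkgBar

/-!
# Program B: lowering the auxiliary level

For all `N, ℓ ≥ 1` the degeneracy map `α : X₀(N ℓ) → X₀(N)` induces `G_ℚ`-equivariant
homomorphisms `alphaUp : J₀(N) → J₀(N ℓ)` (`α^*`) and `alphaDown : J₀(N ℓ) → J₀(N)` (`α_*`) with
`α_* α^* = deg α`.  Hence

* `unipInertiaWeak_of_mul : UnipInertiaWeak (N * ℓ) p q → UnipInertiaWeak N p q`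

so that the geometric blocks of Program B may add an auxiliary level `ℓ` (e.g. to kill the elliptic
points of `X₀(M)`).  With `BR.S34TransferWeak.s34_of_unipInertia_weak` no divisibility of torsion
and no condition on `deg α` is needed.
-/

set_option autoImplicit false
set_option linter.style.haveILetI false
set_option linter.unusedSectionVars false

noncomputable section

namespace Fermat.Agent.BR.LevelTransfer

open AlgebraicCurve ModularCurve Fermat.Agent.X0 Fermat.Agent.Red Fermat.Agent.Hecke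
  Fermat.Agent.Jac

local notation "Qb" => AlgebraicClosure ℚ

variable (N ℓ : ℕ) [NeZero N] [NeZero ℓ]

/-- `α^* : J₀(N) → J₀(N ℓ)`. -/
def alphaUp : JZero N →+ JZero (N * ℓ) :=
  PicFunct.pic0Pull (heckeAlphaBar Kb N ℓ) (heckeAlphaBarIntegral N ℓ)
    (fundamentalIdentityAlong_alpha N ℓ)

/-- `α_* : J₀(N ℓ) → J₀(N)`. -/
def alphaDown : JZero (N * ℓ) →+ JZero N :=
  PicFunct.pic0Push (heckeAlphaBar Kb N ℓ) (heckeAlphaBarIntegral N ℓ)
    (finiteAlong_heckeAlphaBar N ℓ) (normFormulaAlong_alpha N ℓ)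

/-- The degree of `α`. -/
def alphaDeg : ℕ := finrankAlong Kb (heckeAlphaBar Kb N ℓ)

theorem alphaDeg_ne_zero : alphaDeg N ℓ ≠ 0 := by
  letI := algebraAlong (heckeAlphaBar Kb N ℓ)
  haveI : Module.Finite (Fb N) (Fb (N * ℓ)) := finiteAlong_heckeAlphaBar N ℓ
  exact (Module.finrank_pos (R := Fb N) (M := Fb (N * ℓ))).ne'

/-- `α_* α^* = deg α`. -/
theorem alphaDown_alphaUp (x : JZero N) :
    alphaDown N ℓ (alphaUp N ℓ x) = alphaDeg N ℓ • x :=
  PicFunct.pic0Push_pic0Pull _ _ _ _ _ (Fermat.Agent.Val.riemannPkg_bar N) x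

/-- `α^*` is Galois equivariant. -/
theorem alphaUp_smul (σ : GQ) (x : JZero N) : alphaUp N ℓ (σ • x) = σ • alphaUp N ℓ x :=
  PicFunct.pic0Pull_smul _ _ _ (galAut N σ) (galAut (N * ℓ) σ)
    (fun f => heckeAlphaBar_galAut N ℓ σ f) (Fermat.Agent.Val.riemannPkg_bar N)
    (Fermat.Agent.Val.riemannPkg_bar (N * ℓ)) x

/-- `α_*` is Galois equivariant. -/
theorem alphaDown_smul (σ : GQ) (y : JZero (N * ℓ)) :
    alphaDown N ℓ (σ • y) = σ • alphaDown N ℓ y :=
  PicFunct.pic0Push_smul _ _ _ _ (galAut N σ) (galAut (N * ℓ) σ)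
    (fun f => heckeAlphaBar_galAut N ℓ σ f) (Fermat.Agent.Val.riemannPkg_bar N)
    (Fermat.Agent.Val.riemannPkg_bar (N * ℓ)) y

variable {N ℓ}

/-- **Lowering the auxiliary level** (with explicit factor). -/
theorem unipInertiaWeakOn_of_mul {e p q : ℕ}
    (h : UnipInertiaWeakOn e p q (JZero (N * ℓ))) :
    UnipInertiaWeakOn (e * alphaDeg N ℓ) p q (JZero N) := by
  intro P hP σ hσ x hx
  obtain ⟨n, hn⟩ := hx
  have hy : ∃ n : ℕ, p ^ n • alphaUp N ℓ x = 0 := ⟨n, by rw [← map_nsmul, hn, map_zero]⟩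
  have h1 := h P hP σ hσ (alphaUp N ℓ x) hy
  have h2 : alphaUp N ℓ (σ • (σ • x - x) - (σ • x - x)) =
      σ • (σ • alphaUp N ℓ x - alphaUp N ℓ x) - (σ • alphaUp N ℓ x - alphaUp N ℓ x) := by
    simp only [map_sub, alphaUp_smul, smul_sub]
  have h3 : e • alphaUp N ℓ (σ • (σ • x - x) - (σ • x - x)) = 0 := by rw [h2, h1]
  have h4 := congrArg (alphaDown N ℓ) h3
  rw [map_nsmul, alphaDown_alphaUp, map_zero, ← mul_nsmul'] at h4
  exact h4

/-- **Lowering the auxiliary level.** -/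
theorem unipInertiaWeak_of_mul {p q : ℕ} (h : UnipInertiaWeak (N * ℓ) p q) :
    UnipInertiaWeak N p q := by
  obtain ⟨e, he, h⟩ := h
  exact ⟨e * alphaDeg N ℓ, Nat.mul_ne_zero he (alphaDeg_ne_zero N ℓ), unipInertiaWeakOn_of_mul h⟩

/-- Transport along an equality of levels (e.g. `M * q * ℓ = M * ℓ * q`). -/
theorem unipInertiaWeak_congr {N N' : ℕ} [NeZero N] [NeZero N'] (h : N = N') {p q : ℕ} :
    UnipInertiaWeak N p q ↔ UnipInertiaWeak N' p q := by
  subst h
  exact Iff.rfl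

/-- The form used with levels written `M * q`: an auxiliary factor `ℓ` of `M` can be removed. -/
theorem unipInertiaWeak_of_aux {M ℓ q : ℕ} [NeZero M] [NeZero ℓ] [NeZero q] {p : ℕ}
    (h : UnipInertiaWeak (M * ℓ * q) p q) : UnipInertiaWeak (M * q) p q := by
  have e : M * ℓ * q = M * q * ℓ := by ring
  exact unipInertiaWeak_of_mul ((unipInertiaWeak_congr e).mp h)

end Fermat.Agent.BR.LevelTransfer

end
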