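import Mathlib
import Fermat.Agent.BR.LocalDivNode
import Fermat.Agent.BR.HorizPrimes

/-!
# Program B (BADRED), block B7, node B7.2 (adapter): factorisation at a node from rationality

On top of `BR/LocalDivNode` ((N2), (N3)) and `BR/HorizPrimes` (`primeVal`, `IsLocalGen`,
`node_point_dvd`).  The hypotheses `h1`, `h2` of `LocalDivNode.exists_factorisation` are
discharged: the only remaining input is the RATIONALITY of the finitely many horizontal height-one
primes at which `y` is not a unit.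

Main exports.

* `unitAt_iff_mem_primeVal` : `UnitAt Q z ↔ z, z⁻¹ ∈ primeVal Q` (`z ≠ 0`).
* `finite_not_unitAt` : `y ≠ 0` is a non-unit at only finitely many height-one primes.
* `isLocalGen_point`, `exists_unitAt_point` : at a `W`-point `φ` of the node, `u - φ u` is a
  uniformizer: `y (u - φ u) ^ (-k)` is a unit at `ker φ` for some `k : ℤ`.
* `ker_eq_of_apply_u_eq` : two `W`-points with the same `u`-coordinate have the same kernel.
* **(N3')** `exists_factorisation_of_rational` : if every horizontal height-one prime at which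
  `y` is not a unit is the kernel of a `W`-point, then
  `y = w π ^ a u ^ b ∏_{φ ∈ s} (u - φ u) ^ (n φ) ε`, `w ∈ W` a unit of `O`, `ε ∈ O^×`,
  `ε ≡ 1 mod 𝔪`, the points of `s` having pairwise different `u`-coordinates.
-/

set_option autoImplicit false
set_option linter.unusedSectionVars false

namespace Fermat.Agent.BR.LocalDivNodeRat

open IsLocalRing Fermat.Agent.BR.DiscUP Fermat.Agent.BR.NodeUP Fermat.Agent.BR.KrullNormal
  Fermat.Agent.BR.LocalDivNode Fermat.Agent.BR.HorizPrimes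

section Adapter

variable {O : Type*} [CommRing O] [IsDomain O] [IsNoetherianRing O] [IsIntegrallyClosed O]
  {F : Type*} [Field F] [Algebra O F] [IsFractionRing O F]

/-- units at `Q` are the units of the discrete valuation ring `primeVal Q` -/
theorem unitAt_iff_mem_primeVal (Q : Ideal O) [hQp : Q.IsPrime] (hQ : Q.height = 1) {z : F}
    (hz : z ≠ 0) :
    UnitAt Q z ↔ z ∈ primeVal (F := F) Q hQ ∧ z⁻¹ ∈ primeVal (F := F) Q hQ := by
  constructor
  · rintro ⟨s, t, hs, ht, hst⟩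
    refine ⟨⟨t, s, hs, hst⟩, ⟨s, t, ht, ?_⟩⟩
    rw [← hst]
    field_simp
  · rintro ⟨⟨a, b, hb, hab⟩, ⟨a', b', hb', hab'⟩⟩
    refine ⟨b, a, hb, fun ha => ?_, hab⟩
    have h1 : algebraMap O F (a * a') = algebraMap O F (b * b') := by
      rw [map_mul, map_mul, ← hab, ← hab']
      field_simp
    have h2 : a * a' = b * b' := IsFractionRing.injective O F h1
    have h3 : b * b' ∈ Q := h2 ▸ Q.mul_mem_right _ ha
    rcases hQp.mem_or_mem h3 with h | h
    · exact hb h
    · exact hb' h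

/-- a nonzero element of `F` is a non-unit at only finitely many height-one primes -/
theorem finite_not_unitAt {y : F} (hy : y ≠ 0) :
    {Q : Ideal O | Q.IsPrime ∧ Q.height = 1 ∧ ¬ UnitAt Q y}.Finite := by
  obtain ⟨t0, s0, hs0, hst⟩ := IsFractionRing.div_surjective (A := O) y
  have hs0' : s0 ≠ 0 := nonZeroDivisors.ne_zero hs0
  have hsF : algebraMap O F s0 ≠ 0 := fun h0 =>
    hs0' (IsFractionRing.injective O F (by rw [h0, map_zero]))
  have hyst : y * algebraMap O F s0 = algebraMap O F t0 := by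
    rw [← hst]; field_simp
  have ht0 : t0 ≠ 0 := by
    intro h0
    rw [h0, map_zero] at hyst
    rcases mul_eq_zero.mp hyst with h | h
    · exact hy h
    · exact hsF h
  refine (finite_height_one_of_mem (mul_ne_zero hs0' ht0)).subset ?_
  rintro Q ⟨hQ, hht, hnu⟩
  refine ⟨hQ, hht, ?_⟩
  by_contra hmem
  exact hnu ⟨s0, t0, fun hs => hmem (Q.mul_mem_right _ hs), fun ht => hmem (Q.mul_mem_left _ ht),
    hyst⟩

end Adapter

section Node

variable {W O F : Type*} [CommRing W] [IsDomain W] [CommRing O] [IsDomain O] [IsLocalRing O]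
  [IsNoetherianRing O] [Algebra W O] [Field F] [Algebra O F] [IsFractionRing O F]
  {π : W} {e : ℕ} {u v : O} {p1 p2 : Ideal O}

/-- `NodeUP.NodeHyp` together with `p1 ⊓ p2 = (π)` gives `NodeLemma.NodeData` -/
theorem nodeData_of_nodeHyp (h : NodeHyp W π e u v p1 p2)
    (hinter : p1 ⊓ p2 = Ideal.span {algebraMap W O π}) :
    NodeLemma.NodeData (algebraMap W O π) u v p1 p2 :=
  ⟨hinter, h.hu, h.hv, h.max1, h.max2⟩

/-- the value of a non-unit at a `W`-point is divisible by `π` -/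
theorem dvd_point_of_mem (h : NodeHyp W π e u v p1 p2) (φ : O →ₐ[W] W) {x : O}
    (hx : x ∈ maximalIdeal O) : π ∣ φ x := by
  apply h.res.ker
  have hker_le : RingHom.ker (φ : O →+* W) ≤ maximalIdeal O :=
    IsLocalRing.le_maximalIdeal (RingHom.ker_ne_top _)
  have hmem : x - algebraMap W O (φ x) ∈ RingHom.ker (φ : O →+* W) := by
    rw [RingHom.mem_ker, map_sub]
    have : (φ : O →+* W) (algebraMap W O (φ x)) = φ x := φ.commutes (φ x)
    rw [this]; exact sub_self _
  have : algebraMap W O (φ x) = x - (x - algebraMap W O (φ x)) := by ring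
  rw [this]
  exact Ideal.sub_mem _ hx (hker_le hmem)

theorem u_mem_maximalIdeal (h : NodeHyp W π e u v p1 p2) : u ∈ maximalIdeal O := by
  rw [h.max3]; exact Ideal.mem_sup_left (Ideal.mem_sup_right (Ideal.mem_span_singleton_self u))

theorem v_mem_maximalIdeal (h : NodeHyp W π e u v p1 p2) : v ∈ maximalIdeal O := by
  rw [h.max3]; exact Ideal.mem_sup_right (Ideal.mem_span_singleton_self v)

theorem pi_notMem_ker (hπ : π ≠ 0) (φ : O →ₐ[W] W) :
    algebraMap W O π ∉ RingHom.ker (φ : O →+* W) := by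
  rw [RingHom.mem_ker]
  have : (φ : O →+* W) (algebraMap W O π) = π := φ.commutes π
  rw [this]; exact hπ

/-- two `W`-points of the node with the same `u`-coordinate have the same kernel -/
theorem ker_eq_of_apply_u_eq (h : NodeHyp W π e u v p1 p2) (hπ : π ≠ 0) (φ ψ : O →ₐ[W] W)
    (hu : φ u = ψ u) : RingHom.ker (φ : O →+* W) = RingHom.ker (ψ : O →+* W) := by
  have key : ∀ φ ψ : O →ₐ[W] W, φ u = ψ u →
      RingHom.ker (φ : O →+* W) ≤ RingHom.ker (ψ : O →+* W) := by
    intro φ ψ hu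
    have : (RingHom.ker (ψ : O →+* W)).IsPrime := RingHom.ker_isPrime _
    refine ker_le_of_sub_mem h (φ : O →+* W) (fun w => φ.commutes w) _ (pi_notMem_ker hπ ψ) ?_
    rw [RingHom.mem_ker, map_sub]
    have h1 : (ψ : O →+* W) (algebraMap W O ((φ : O →+* W) u)) = (φ : O →+* W) u :=
      ψ.commutes _
    rw [h1]
    exact sub_eq_zero.mpr hu.symm
  exact le_antisymm (key φ ψ hu) (key ψ φ hu.symm)

variable [IsIntegrallyClosed O]

/-- **(N1')(ii)** in `IsLocalGen` form: `u - φ u` generates `ker φ` locally at `ker φ`. -/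
theorem isLocalGen_point (h : NodeHyp W π e u v p1 p2)
    (hinter : p1 ⊓ p2 = Ideal.span {algebraMap W O π}) (hπ : π ≠ 0) (φ : O →ₐ[W] W) :
    IsLocalGen (RingHom.ker (φ : O →+* W)) (u - algebraMap W O (φ u)) := by
  refine ⟨?_, ?_⟩
  · rw [RingHom.mem_ker, map_sub]
    have : (φ : O →+* W) (algebraMap W O (φ u)) = φ u := φ.commutes (φ u)
    rw [this]; exact sub_self _
  · exact node_point_dvd φ hπ (nodeData_of_nodeHyp h hinter) (e := e) isUnit_one
      (by rw [mul_one]; exact h.huv) (dvd_point_of_mem h φ (u_mem_maximalIdeal h))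
      (dvd_point_of_mem h φ (v_mem_maximalIdeal h))

/-- at a `W`-point `φ` of the node, `y (u - φ u) ^ (-k)` is a unit at `ker φ` for `k = ord y`. -/
theorem exists_unitAt_point (h : NodeHyp W π e u v p1 p2)
    (hinter : p1 ⊓ p2 = Ideal.span {algebraMap W O π}) (hπ : π ≠ 0) (φ : O →ₐ[W] W)
    (hht : (RingHom.ker (φ : O →+* W)).height = 1) {y : F} (hy : y ≠ 0) :
    ∃ k : ℤ, UnitAt (RingHom.ker (φ : O →+* W))
      (y * algebraMap O F (u - algebraMap W O (φ u)) ^ (-k)) := by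
  have : (RingHom.ker (φ : O →+* W)).IsPrime := RingHom.ker_isPrime _
  obtain ⟨k, w, hw, hw', hyw⟩ :=
    (isLocalGen_point h hinter hπ φ).exists_zpow_mul (F := F) hht hy
  have hg0 : algebraMap O F (u - algebraMap W O (φ u)) ≠ 0 := by
    intro h0
    have h1 : u - algebraMap W O (φ u) = 0 :=
      IsFractionRing.injective O F (h0.trans (map_zero _).symm)
    exact sub_ne_zero_of_point h (φ : O →+* W) (fun w => φ.commutes w) h1
  have hw0 : w ≠ 0 := by
    intro h0
    rw [h0, mul_zero] at hyw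
    exact hy hyw
  refine ⟨k, ?_⟩
  have : y * algebraMap O F (u - algebraMap W O (φ u)) ^ (-k) = w := by
    rw [hyw, zpow_neg]
    field_simp
  rw [this]
  exact (unitAt_iff_mem_primeVal _ hht hw0).mpr ⟨hw, hw'⟩

/-- **(N3') Factorisation on the annulus from rationality.**  Let `y ∈ F^×` be such that every
horizontal height-one prime of `O` at which `y` is not a unit is the kernel of a `W`-point.  Then
`y = w π ^ a u ^ b ∏_{φ ∈ s} (u - φ u) ^ (n φ) ε` with `s` a finite set of `W`-points with pairwise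
different `u`-coordinates (exactly the horizontal primes where `y` is not a unit), `w ∈ W` a unit
of `O` and `ε ∈ O^×`, `ε ≡ 1 mod 𝔪`. -/
theorem exists_factorisation_of_rational (h : NodeHyp W π e u v p1 p2)
    (hinter : p1 ⊓ p2 = Ideal.span {algebraMap W O π}) (hπ0 : algebraMap W O π ≠ 0)
    {y : F} (hy : y ≠ 0)
    (hrat : ∀ Q : Ideal O, Q.IsPrime → Q.height = 1 → algebraMap W O π ∉ Q → ¬ UnitAt Q y →
      ∃ φ : O →ₐ[W] W, Q = RingHom.ker (φ : O →+* W)) :
    ∃ (s : Finset (O →ₐ[W] W)) (n : (O →ₐ[W] W) → ℤ) (a b : ℤ) (w : W) (ε : Oˣ),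
      (∀ φ ∈ s, ∀ ψ ∈ s, φ u = ψ u → φ = ψ) ∧
      (∀ φ ∈ s, (RingHom.ker (φ : O →+* W)).height = 1 ∧
        ¬ UnitAt (RingHom.ker (φ : O →+* W)) y) ∧
      IsUnit (algebraMap W O w) ∧ (ε : O) - 1 ∈ maximalIdeal O ∧
      y = algebraMap O F (algebraMap W O w) * algebraMap O F (algebraMap W O π) ^ a *
        algebraMap O F u ^ b *
        (∏ φ ∈ s, algebraMap O F (u - algebraMap W O (φ u)) ^ n φ) * algebraMap O F ε := by
  classical
  have hπ : π ≠ 0 := fun h0 => hπ0 (by rw [h0, map_zero])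
  set B : Set (Ideal O) :=
    {Q | Q.IsPrime ∧ Q.height = 1 ∧ algebraMap W O π ∉ Q ∧ ¬ UnitAt Q y} with hB
  have hBfin : B.Finite := by
    refine (finite_not_unitAt (O := O) hy).subset ?_
    rintro Q ⟨hQ, hht, _, hnu⟩
    exact ⟨hQ, hht, hnu⟩
  have hch : ∀ Q : B, ∃ φ : O →ₐ[W] W, (Q : Ideal O) = RingHom.ker (φ : O →+* W) := fun Q =>
    hrat Q.1 Q.2.1 Q.2.2.1 Q.2.2.2.1 Q.2.2.2.2
  choose Φ hΦ using hch
  have : Fintype B := hBfin.fintype
  have hΦinj : Function.Injective Φ := by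
    intro Q Q' hQQ'
    apply Subtype.ext
    rw [hΦ Q, hΦ Q', hQQ']
  have hk : ∀ Q : B, ∃ k : ℤ, UnitAt (RingHom.ker ((Φ Q : O →ₐ[W] W) : O →+* W))
      (y * algebraMap O F (u - algebraMap W O ((Φ Q) u)) ^ (-k)) := fun Q =>
    exists_unitAt_point h hinter hπ (Φ Q) (by rw [← hΦ Q]; exact Q.2.2.1) hy
  choose n hn using hk
  have hinj : ∀ Q ∈ (Finset.univ : Finset B), ∀ Q' ∈ (Finset.univ : Finset B),
      ((Φ Q : O →ₐ[W] W) : O →+* W) u = ((Φ Q' : O →ₐ[W] W) : O →+* W) u → Q = Q' := by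
    intro Q _ Q' _ huu
    apply Subtype.ext
    rw [hΦ Q, hΦ Q']
    exact ker_eq_of_apply_u_eq h hπ (Φ Q) (Φ Q') huu
  have h2 : ∀ Q : Ideal O, Q.IsPrime → Q.height = 1 → algebraMap W O π ∉ Q →
      (∀ i ∈ (Finset.univ : Finset B), Q ≠ RingHom.ker ((Φ i : O →ₐ[W] W) : O →+* W)) →
      UnitAt Q y := by
    intro Q hQ hht hπQ hne
    by_contra hnu
    have hQB : Q ∈ B := ⟨hQ, hht, hπQ, hnu⟩
    exact hne ⟨Q, hQB⟩ (Finset.mem_univ _) (hΦ ⟨Q, hQB⟩)
  obtain ⟨a, b, w, ε, hw, hε, hyeq⟩ := exists_factorisation (F := F) h hinter hπ0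
    (Finset.univ : Finset B) (fun Q : B => ((Φ Q : O →ₐ[W] W) : O →+* W))
    (fun Q _ w => (Φ Q).commutes w) hinj n hy (fun Q _ => hn Q) h2
  refine ⟨Finset.univ.image Φ, Function.extend Φ n 0, a, b, w, ε, ?_, ?_, hw, hε, ?_⟩
  · intro φ hφ ψ hψ huu
    obtain ⟨Q, _, rfl⟩ := Finset.mem_image.mp hφ
    obtain ⟨Q', _, rfl⟩ := Finset.mem_image.mp hψ
    rw [hinj Q (Finset.mem_univ _) Q' (Finset.mem_univ _) huu]
  · intro φ hφ
    obtain ⟨Q, _, rfl⟩ := Finset.mem_image.mp hφ
    rw [← hΦ Q]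
    exact ⟨Q.2.2.1, Q.2.2.2.2⟩
  · rw [hyeq, Finset.prod_image (fun Q _ Q' _ hQQ' => hΦinj hQQ')]
    congr 2
    refine Finset.prod_congr rfl fun Q _ => ?_
    rw [hΦinj.extend_apply]
    rfl

end Node

end Fermat.Agent.BR.LocalDivNodeRat
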