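import Mathlib

/-!
# Program B (bad reduction), block B7: the node lemma without normality

Let `R` be a domain with fraction field `K` and `ϖ : R` such that `R ⧸ (ϖ)` is **reduced** (the
local ring of a model of a curve over a discrete valuation ring with uniformizer `ϖ` at a point of
the special fibre through which several components pass, e.g. a node; no normality is assumed, so
the lemma applies to the local rings of the *refined* models obtained by subdividing annuli).

* `RegAt P z` : `z : K` is regular at the prime `P` of `R` (`z = a / b` with `b ∉ P`);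
* `exists_pow_mul_eq_of_forall_regAt` : if `z` is regular at every prime not containing `ϖ`
  (no pole at the points of the generic fibre specialising to the given point) then
  `z ∈ R[1/ϖ]`;
* `mem_range_of_regAt` : if moreover `z` is regular at the minimal primes over `ϖ` (the components
  of the special fibre through the point) then `z ∈ R`;
* consequences for local rings: `isUnit_of_regAt` (nonzero value at the point `⇒` unit).

These give the axioms `node_match` and `node_unit` of `SS.SemistableSetup` at a node: a function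
integral on the components through the node and without poles in the tube of the node lies in the
local ring `R`, so its reductions on the branches are regular with the same value (its image in
the residue field of `R`); if the value is nonzero the function is a unit of `R`, so it has no zero
in the tube.
-/

set_option autoImplicit false
set_option linter.unusedSectionVars false

namespace Fermat.Agent.BR.LocalNodeRed

variable {R K : Type*} [CommRing R] [IsDomain R] [Field K] [Algebra R K]
  [IsFractionRing R K]

/-- `z` is regular at the prime `P`: `z = a / b` with `b ∉ P`. -/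
def RegAt (P : Ideal R) (z : K) : Prop :=
  ∃ a b : R, b ∉ P ∧ z * algebraMap R K b = algebraMap R K a

theorem regAt_algebraMap (P : Ideal R) [P.IsPrime] (x : R) : RegAt P (algebraMap R K x) :=
  ⟨x, 1, fun h => (Ideal.IsPrime.ne_top inferInstance) ((Ideal.eq_top_iff_one P).mpr h),
    by rw [map_one, mul_one]⟩

/-- The denominator ideal of `z`. -/
def denomIdeal (z : K) : Ideal R where
  carrier := {b | ∃ a : R, z * algebraMap R K b = algebraMap R K a}
  add_mem' := by
    rintro b b' ⟨a, ha⟩ ⟨a', ha'⟩
    exact ⟨a + a', by rw [map_add, map_add, mul_add, ha, ha']⟩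
  zero_mem' := ⟨0, by rw [map_zero, mul_zero]⟩
  smul_mem' := by
    rintro c b ⟨a, ha⟩
    exact ⟨c * a, by rw [smul_eq_mul, map_mul, map_mul, mul_left_comm, ha]⟩

theorem mem_denomIdeal {z : K} {b : R} :
    b ∈ denomIdeal (R := R) z ↔ ∃ a : R, z * algebraMap R K b = algebraMap R K a := Iff.rfl

/-- If `z` is regular at every prime not containing `ϖ` then `z ∈ R[1/ϖ]`. -/
theorem exists_pow_mul_eq_of_forall_regAt (ϖ : R) (z : K)
    (hhor : ∀ P : Ideal R, P.IsPrime → ϖ ∉ P → RegAt P z) :
    ∃ (n : ℕ) (x : R), z * algebraMap R K ϖ ^ n = algebraMap R K x := by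
  have h1 : ϖ ∈ (denomIdeal (R := R) z).radical := by
    rw [Ideal.radical_eq_sInf, Ideal.mem_sInf]
    rintro P ⟨hIP, hP⟩
    by_contra hϖ
    obtain ⟨a, b, hb, hab⟩ := hhor P hP hϖ
    exact hb (hIP ⟨a, hab⟩)
  obtain ⟨n, x, hx⟩ := h1
  exact ⟨n, x, by rw [← map_pow]; exact hx⟩

/-- **The node lemma without normality.** Let `R ⧸ (ϖ)` be reduced. If `z ∈ R[1/ϖ]` is regular at
every minimal prime over `ϖ` then `z ∈ R`. -/
theorem mem_range_of_pow_mul_eq (ϖ : R) (hϖ : ϖ ≠ 0) (hrad : (Ideal.span {ϖ}).IsRadical) (z : K)
    (h1 : ∃ (n : ℕ) (x : R), z * algebraMap R K ϖ ^ n = algebraMap R K x)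
    (hver : ∀ P ∈ (Ideal.span {ϖ}).minimalPrimes, RegAt P z) :
    ∃ x : R, algebraMap R K x = z := by
  classical
  have hinj : Function.Injective (algebraMap R K) := IsFractionRing.injective R K
  have hϖK : algebraMap R K ϖ ≠ 0 := fun h => hϖ (hinj (by rw [h, map_zero]))
  obtain ⟨x, hx⟩ := Nat.find_spec h1
  rcases Nat.eq_zero_or_pos (Nat.find h1) with h0 | hpos
  · rw [h0, pow_zero, mul_one] at hx
    exact ⟨x, hx.symm⟩
  · exfalso
    -- `x` lies in every minimal prime over `ϖ`
    have hx' : x ∈ Ideal.span {ϖ} := by
      rw [← hrad.radical, ← Ideal.sInf_minimalPrimes, Ideal.mem_sInf]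
      intro P hP
      obtain ⟨a, b, hb, hab⟩ := hver P hP
      have hPprime : P.IsPrime := hP.1.1
      have hϖP : ϖ ∈ P := hP.1.2 (Ideal.mem_span_singleton_self ϖ)
      have h2 : x * b = a * ϖ ^ Nat.find h1 := by
        apply hinj
        rw [map_mul, map_mul, map_pow, ← hx, ← hab]
        ring
      have h3 : x * b ∈ P := by
        rw [h2]
        exact Ideal.mul_mem_left _ _ (Ideal.pow_mem_of_mem _ hϖP _ hpos)
      exact (hPprime.mem_or_mem h3).resolve_right hb
    obtain ⟨x', rfl⟩ := Ideal.mem_span_singleton.mp hx'
    have h4 : z * algebraMap R K ϖ ^ (Nat.find h1 - 1) = algebraMap R K x' := by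
      have h5 : z * algebraMap R K ϖ ^ (Nat.find h1 - 1) * algebraMap R K ϖ =
          algebraMap R K x' * algebraMap R K ϖ := by
        rw [mul_assoc, ← pow_succ, Nat.sub_add_cancel hpos, hx, map_mul]
        ring
      exact mul_right_cancel₀ hϖK h5
    exact Nat.find_min h1 (Nat.sub_lt hpos one_pos) ⟨x', h4⟩

/-- **The node lemma.** Let `R ⧸ (ϖ)` be reduced. If `z` is regular at every prime not containing
`ϖ` and at every minimal prime over `ϖ` then `z ∈ R`. -/
theorem mem_range_of_regAt (ϖ : R) (hϖ : ϖ ≠ 0) (hrad : (Ideal.span {ϖ}).IsRadical) (z : K)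
    (hhor : ∀ P : Ideal R, P.IsPrime → ϖ ∉ P → RegAt P z)
    (hver : ∀ P ∈ (Ideal.span {ϖ}).minimalPrimes, RegAt P z) :
    ∃ x : R, algebraMap R K x = z :=
  mem_range_of_pow_mul_eq ϖ hϖ hrad z (exists_pow_mul_eq_of_forall_regAt ϖ z hhor) hver

/-- The kernel of a ring homomorphism to a reduced ring is a radical ideal. -/
theorem isRadical_ker {S : Type*} [CommRing S] [IsReduced S] (ρ : R →+* S) :
    (RingHom.ker ρ).IsRadical := by
  intro x hx
  obtain ⟨n, hn⟩ := hx
  rw [RingHom.mem_ker, map_pow] at hn
  rw [RingHom.mem_ker]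
  exact IsReduced.eq_zero _ ⟨n, hn⟩

/-- A criterion for reducedness of `R ⧸ (ϖ)`: the ideal `(ϖ)` is the intersection of the kernels
of two ring homomorphisms to reduced rings (the residue maps of the two components through a
node). -/
theorem isRadical_span_of_ker_inf {S₁ S₂ : Type*} [CommRing S₁] [CommRing S₂] [IsReduced S₁]
    [IsReduced S₂] (ϖ : R) (ρ₁ : R →+* S₁) (ρ₂ : R →+* S₂)
    (h : RingHom.ker ρ₁ ⊓ RingHom.ker ρ₂ = Ideal.span {ϖ}) : (Ideal.span {ϖ}).IsRadical := by
  rw [← h]
  exact (isRadical_ker ρ₁).inf (isRadical_ker ρ₂)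

/-- In a local ring: an element regular at all horizontal and vertical primes whose value at the
closed point is nonzero is a unit, so its inverse has the same regularity. -/
theorem isUnit_of_not_mem_maximalIdeal [IsLocalRing R] {x : R}
    (hx : x ∉ IsLocalRing.maximalIdeal R) : IsUnit x := by
  by_contra h
  exact hx ((IsLocalRing.mem_maximalIdeal x).mpr h)

/-- A unit of `R` is regular, together with its inverse, at every prime: it has neither zeros nor
poles at the points specialising to the closed point. -/
theorem regAt_inv_of_isUnit (P : Ideal R) [P.IsPrime] {x : R} (hx : IsUnit x) :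
    RegAt P (algebraMap R K x)⁻¹ := by
  obtain ⟨u, rfl⟩ := hx
  refine ⟨((u⁻¹ : Rˣ) : R), 1,
    fun h => (Ideal.IsPrime.ne_top inferInstance) ((Ideal.eq_top_iff_one P).mpr h), ?_⟩
  rw [map_one, mul_one]
  have h1 : algebraMap R K (u : R) * algebraMap R K ((u⁻¹ : Rˣ) : R) = 1 := by
    rw [← map_mul, Units.mul_inv, map_one]
  exact inv_eq_of_mul_eq_one_right h1

end Fermat.Agent.BR.LocalNodeRed
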