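import Mathlib

/-!
# Program B (bad reduction), block B7: the smooth point lemma

Let `R` be a noetherian local domain and `ϖ : R` such that `R ⧸ (ϖ)` is a discrete valuation ring
(the local ring of a model of a curve over a discrete valuation ring with uniformizer `ϖ` at a
smooth point of the special fibre lying on one component, with reduced special fibre there).

* `exists_eq_span_singleton` : every nonzero prime ideal of `R` not containing `ϖ`
  (a *horizontal* prime, i.e. a closed point of the generic fibre specialising to the given point)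
  is principal;
* `ordBar ϖ x` : the order of the reduction of `x` modulo `ϖ`;
* `exists_prime_dvd` : every nonunit not divisible by `ϖ` is divisible by a prime element which is
  not divisible by `ϖ`;
* `exists_factorization` : every element not divisible by `ϖ` is a unit times a product of
  prime elements not divisible by `ϖ`, and the order of its reduction is the sum of the orders of
  the reductions of the factors (**conservation at a smooth point**, without Weierstrass
  preparation);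
* `ordBar_eq_one_of_ker` : a prime element `y` such that `R ⧸ (y)` has maximal ideal generated by
  `ϖ` (a rational point of the tube) has `ordBar ϖ y = 1`.
-/

set_option autoImplicit false
set_option linter.unusedSectionVars false

namespace Fermat.Agent.BR.LocalSmooth

open IsLocalRing IsDiscreteValuationRing

variable {R : Type*} [CommRing R] [IsDomain R] [IsNoetherianRing R] [IsLocalRing R]

section

variable (ϖ : R) [hprime : (Ideal.span {ϖ}).IsPrime]
  [hD : IsDiscreteValuationRing (R ⧸ Ideal.span {ϖ})]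

/-- The order of the reduction of `x` modulo `ϖ` (`⊤` if `ϖ ∣ x`). -/
noncomputable def ordBar (x : R) : ℕ∞ :=
  addVal (R ⧸ Ideal.span {ϖ}) (Ideal.Quotient.mk (Ideal.span {ϖ}) x)

theorem ordBar_mul (x y : R) : ordBar ϖ (x * y) = ordBar ϖ x + ordBar ϖ y := by
  unfold ordBar
  rw [map_mul, addVal_mul]

theorem ordBar_one : ordBar ϖ (1 : R) = 0 := by
  unfold ordBar
  rw [map_one, addVal_one]

theorem ordBar_eq_top_iff {x : R} : ordBar ϖ x = ⊤ ↔ ϖ ∣ x := by
  unfold ordBar
  rw [addVal_eq_top_iff, Ideal.Quotient.eq_zero_iff_mem, Ideal.mem_span_singleton]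

theorem ordBar_le_iff_exists {x y : R} :
    ordBar ϖ x ≤ ordBar ϖ y ↔ ∃ a b : R, y = x * a + ϖ * b := by
  unfold ordBar
  rw [addVal_le_iff_dvd]
  constructor
  · rintro ⟨c, hc⟩
    obtain ⟨a, rfl⟩ := Ideal.Quotient.mk_surjective c
    rw [← map_mul, Ideal.Quotient.eq, Ideal.mem_span_singleton] at hc
    obtain ⟨b, hb⟩ := hc
    exact ⟨a, b, by linear_combination hb⟩
  · rintro ⟨a, b, rfl⟩
    refine ⟨Ideal.Quotient.mk _ a, ?_⟩
    rw [← map_mul, Ideal.Quotient.eq, Ideal.mem_span_singleton]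
    exact ⟨b, by ring⟩

/-- `ϖ` is not a unit. -/
theorem not_isUnit_pi : ¬ IsUnit ϖ := by
  intro h
  have h1 : Ideal.span {ϖ} = ⊤ := Ideal.span_singleton_eq_top.mpr h
  have h2 : Subsingleton (R ⧸ Ideal.span {ϖ}) := Ideal.Quotient.subsingleton_iff.mpr h1
  exact not_subsingleton (R ⧸ Ideal.span {ϖ}) h2

theorem pi_mem_maximalIdeal : ϖ ∈ maximalIdeal R :=
  (mem_maximalIdeal ϖ).mpr (not_isUnit_pi ϖ)

theorem span_pi_le_jacobson : Ideal.span {ϖ} ≤ Ideal.jacobson (⊥ : Ideal R) := by
  rw [IsLocalRing.jacobson_eq_maximalIdeal ⊥ bot_ne_top, Ideal.span_singleton_le_iff_mem]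
  exact pi_mem_maximalIdeal ϖ

/-- `ϖ` is a prime element. -/
theorem prime_pi (hϖ : ϖ ≠ 0) : Prime ϖ :=
  (Ideal.span_singleton_prime hϖ).mp hprime

/-- The reduction of `x` is a unit iff `x` is a unit. -/
theorem ordBar_eq_zero_iff {x : R} : ordBar ϖ x = 0 ↔ IsUnit x := by
  unfold ordBar
  rw [addVal_eq_zero_iff]
  constructor
  · intro h
    by_contra hx
    have hx' : x ∈ maximalIdeal R := (mem_maximalIdeal x).mpr hx
    have h2 : Ideal.Quotient.mk (Ideal.span {ϖ}) x ∈ IsLocalRing.maximalIdeal (R ⧸ Ideal.span {ϖ}) := by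
      rw [mem_maximalIdeal]
      intro hu
      obtain ⟨c, hc⟩ := hu.exists_right_inv
      obtain ⟨a, rfl⟩ := Ideal.Quotient.mk_surjective c
      rw [← map_mul, ← map_one (Ideal.Quotient.mk (Ideal.span {ϖ})), Ideal.Quotient.eq,
        Ideal.mem_span_singleton] at hc
      obtain ⟨b, hb⟩ := hc
      have h3 : (1 : R) ∈ maximalIdeal R := by
        have : (1 : R) = x * a - ϖ * b := by linear_combination -hb
        rw [this]
        exact Ideal.sub_mem _ (Ideal.mul_mem_right _ _ hx')
          (Ideal.mul_mem_right _ _ (pi_mem_maximalIdeal ϖ))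
      exact (maximalIdeal.isMaximal R).ne_top ((Ideal.eq_top_iff_one _).mpr h3)
    exact (mem_maximalIdeal _).mp h2 h
  · intro h
    exact h.map _

variable {ϖ}

/-- The part of a horizontal prime inside `(ϖ)`. -/
theorem mem_smul_of_mem_of_dvd {P : Ideal R} [P.IsPrime] (hϖP : ϖ ∉ P) {x : R} (hx : x ∈ P)
    (hd : ϖ ∣ x) : x ∈ Ideal.span {ϖ} • P := by
  obtain ⟨x1, rfl⟩ := hd
  have h1 : x1 ∈ P := (Ideal.IsPrime.mem_or_mem inferInstance hx).resolve_left hϖP
  exact Ideal.mul_mem_mul (Ideal.mem_span_singleton_self ϖ) h1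

/-- A nonzero prime not containing `ϖ` is not contained in `(ϖ)`. -/
theorem exists_mem_not_dvd {P : Ideal R} [P.IsPrime] (hP : P ≠ ⊥) (hϖP : ϖ ∉ P) :
    ∃ y ∈ P, ¬ ϖ ∣ y := by
  by_contra hcon
  push Not at hcon
  apply hP
  apply Submodule.eq_bot_of_le_smul_of_le_jacobson_bot (Ideal.span {ϖ}) P
    (IsNoetherian.noetherian P) _ (span_pi_le_jacobson ϖ)
  intro x hx
  exact mem_smul_of_mem_of_dvd hϖP hx (hcon x hx)

/-- **The smooth point lemma.** Every nonzero prime ideal not containing `ϖ` is principal. -/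
theorem exists_eq_span_singleton (P : Ideal R) [P.IsPrime] (hP : P ≠ ⊥) (hϖP : ϖ ∉ P) :
    ∃ y, P = Ideal.span {y} ∧ ¬ ϖ ∣ y := by
  classical
  -- the set of orders of reductions of elements of `P` not divisible by `ϖ`
  have hne : ∃ n : ℕ, ∃ y ∈ P, ¬ ϖ ∣ y ∧ ordBar ϖ y = n := by
    obtain ⟨y, hyP, hy⟩ := exists_mem_not_dvd hP hϖP
    have h1 : ordBar ϖ y ≠ ⊤ := fun h => hy ((ordBar_eq_top_iff ϖ).mp h)
    obtain ⟨n, hn⟩ := ENat.ne_top_iff_exists.mp h1
    exact ⟨n, y, hyP, hy, hn.symm⟩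
  obtain ⟨y, hyP, hy, hyn⟩ := Nat.find_spec hne
  have hmin : ∀ x ∈ P, ¬ ϖ ∣ x → ordBar ϖ y ≤ ordBar ϖ x := by
    intro x hxP hx
    have h1 : ordBar ϖ x ≠ ⊤ := fun h => hx ((ordBar_eq_top_iff ϖ).mp h)
    obtain ⟨m, hm⟩ := ENat.ne_top_iff_exists.mp h1
    rw [hyn, ← hm]
    exact_mod_cast Nat.find_min' hne ⟨x, hxP, hx, hm.symm⟩
  refine ⟨y, le_antisymm ?_ ?_, hy⟩
  · apply Submodule.le_of_le_smul_of_le_jacobson_bot (IsNoetherian.noetherian P)
      (span_pi_le_jacobson ϖ)
    intro x hx
    by_cases hd : ϖ ∣ x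
    · exact Submodule.mem_sup_right (mem_smul_of_mem_of_dvd hϖP hx hd)
    · obtain ⟨a, b, hab⟩ := (ordBar_le_iff_exists ϖ).mp (hmin x hx hd)
      rw [hab]
      refine Submodule.add_mem_sup (Ideal.mem_span_singleton.mpr ⟨a, rfl⟩) ?_
      apply mem_smul_of_mem_of_dvd hϖP _ ⟨b, rfl⟩
      have : ϖ * b = x - y * a := by rw [hab]; ring
      rw [this]
      exact Ideal.sub_mem _ hx (Ideal.mul_mem_right _ _ hyP)
  · rw [Ideal.span_singleton_le_iff_mem]
    exact hyP

/-- Every nonunit not divisible by `ϖ` is divisible by a prime element not divisible by `ϖ`. -/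
theorem exists_prime_dvd (hϖ : ϖ ≠ 0) {x : R} (hx : ¬ IsUnit x) (hd : ¬ ϖ ∣ x) :
    ∃ y, Prime y ∧ ¬ ϖ ∣ y ∧ y ∣ x := by
  have hx0 : x ≠ 0 := fun h => hd (h ▸ dvd_zero ϖ)
  -- the ideal `(x)` is disjoint from the powers of `ϖ`
  have hdisj : Disjoint ((Ideal.span {x} : Ideal R) : Set R) (Submonoid.powers ϖ : Set R) := by
    rw [Set.disjoint_left]
    rintro z hz ⟨n, rfl⟩
    rw [SetLike.mem_coe, Ideal.mem_span_singleton] at hz
    -- `x ∣ ϖ ^ n` and `ϖ ∤ x` force `x` to be a unit
    have key : ∀ n : ℕ, x ∣ ϖ ^ n → IsUnit x := by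
      intro n
      induction n with
      | zero => intro h; rw [pow_zero] at h; exact isUnit_of_dvd_one h
      | succ n ih =>
        intro h
        obtain ⟨c, hc⟩ := h
        have h1 : ϖ ∣ x * c := ⟨ϖ ^ n, by rw [← hc, pow_succ]; ring⟩
        rcases (prime_pi ϖ hϖ).dvd_or_dvd h1 with h2 | h2
        · exact absurd h2 hd
        · obtain ⟨c', rfl⟩ := h2
          apply ih
          refine ⟨c', ?_⟩
          have h3 : ϖ * ϖ ^ n = ϖ * (x * c') := by rw [← pow_succ', hc]; ring
          exact mul_left_cancel₀ hϖ h3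
    exact hx (key n hz)
  obtain ⟨P, hPprime, hxP, hPdisj⟩ := Ideal.exists_le_prime_disjoint (Ideal.span {x})
    (Submonoid.powers ϖ) hdisj
  have := hPprime
  have hϖP : ϖ ∉ P := fun h =>
    Set.disjoint_left.mp hPdisj h (Submonoid.mem_powers ϖ)
  have hxP' : x ∈ P := hxP (Ideal.mem_span_singleton_self x)
  have hP : P ≠ ⊥ := fun h => hx0 (by rw [h] at hxP'; exact hxP')
  obtain ⟨y, rfl, hy⟩ := exists_eq_span_singleton P hP hϖP
  have hy0 : y ≠ 0 := fun h => hP (by rw [h]; exact Ideal.span_singleton_eq_bot.mpr rfl)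
  exact ⟨y, (Ideal.span_singleton_prime hy0).mp hPprime, hy, Ideal.mem_span_singleton.mp hxP'⟩

/-- **Factorisation and conservation at a smooth point.** Every element not divisible by `ϖ` is a
unit times a product of prime elements not divisible by `ϖ`; the order of its reduction is the sum
of the orders of the reductions of the factors. -/
theorem exists_factorization (hϖ : ϖ ≠ 0) (x : R) (hd : ¬ ϖ ∣ x) :
    ∃ (u : Rˣ) (s : Multiset R), (∀ y ∈ s, Prime y ∧ ¬ ϖ ∣ y) ∧ x = u * s.prod ∧
      ordBar ϖ x = (s.map (ordBar ϖ)).sum := by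
  have h1 : ordBar ϖ x ≠ ⊤ := fun h => hd ((ordBar_eq_top_iff ϖ).mp h)
  obtain ⟨n, hn⟩ := ENat.ne_top_iff_exists.mp h1
  induction n using Nat.strong_induction_on generalizing x with
  | _ n ih =>
    by_cases hu : IsUnit x
    · refine ⟨hu.unit, 0, by simp, by simp, ?_⟩
      rw [(ordBar_eq_zero_iff ϖ).mpr hu]
      simp
    · obtain ⟨y, hyp, hy, ⟨x', rfl⟩⟩ := exists_prime_dvd hϖ hu hd
      have hd' : ¬ ϖ ∣ x' := fun h => hd (Dvd.dvd.mul_left h y)
      have h2 : ordBar ϖ x' ≠ ⊤ := fun h => hd' ((ordBar_eq_top_iff ϖ).mp h)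
      obtain ⟨m, hm⟩ := ENat.ne_top_iff_exists.mp h2
      have h3 : ordBar ϖ y ≠ ⊤ := fun h => hy ((ordBar_eq_top_iff ϖ).mp h)
      obtain ⟨l, hl⟩ := ENat.ne_top_iff_exists.mp h3
      have hl0 : l ≠ 0 := by
        intro h
        rw [h] at hl
        exact hyp.not_isUnit ((ordBar_eq_zero_iff ϖ).mp hl.symm)
      have hnm : n = l + m := by
        have := ordBar_mul ϖ y x'
        rw [← hn, ← hl, ← hm] at this
        exact_mod_cast this
      obtain ⟨u, s, hs, hx', hord⟩ := ih m (by omega) x' hd' h2 hm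
      refine ⟨u, y ::ₘ s, ?_, ?_, ?_⟩
      · intro z hz
        rcases Multiset.mem_cons.mp hz with rfl | hz
        · exact ⟨hyp, hy⟩
        · exact hs z hz
      · rw [Multiset.prod_cons, hx']
        ring
      · rw [Multiset.map_cons, Multiset.sum_cons, ordBar_mul, hord]

/-- An element `y` such that the maximal ideal of `R` is generated by `ϖ` and `y`
(e.g. a generator of the kernel of a rational point of the tube) reduces to a uniformizer. -/
theorem ordBar_eq_one_of_maximalIdeal_eq {y : R}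
    (h : maximalIdeal R = Ideal.span {ϖ, y}) : ordBar ϖ y = 1 := by
  unfold ordBar
  apply addVal_uniformizer
  rw [irreducible_iff_uniformizer]
  rw [← map_maximalIdeal_of_surjective (Ideal.Quotient.mk (Ideal.span {ϖ}))
    Ideal.Quotient.mk_surjective, h, Ideal.map_span]
  apply le_antisymm
  · rw [Ideal.span_le]
    rintro z ⟨w, hw, rfl⟩
    rcases hw with rfl | hw
    · have : Ideal.Quotient.mk (Ideal.span {w}) w = 0 :=
        Ideal.Quotient.eq_zero_iff_mem.mpr (Ideal.mem_span_singleton_self w)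
      rw [this]
      exact Ideal.zero_mem _
    · rw [Set.mem_singleton_iff] at hw
      rw [hw]
      exact Ideal.mem_span_singleton_self _
  · rw [Ideal.span_le]
    rintro z hz
    rw [Set.mem_singleton_iff] at hz
    rw [hz]
    exact Ideal.subset_span ⟨y, by simp, rfl⟩

/-- `R` is a unique factorisation domain (a regular local ring of dimension two). -/
theorem uniqueFactorizationMonoid (hϖ : ϖ ≠ 0) : UniqueFactorizationMonoid R := by
  apply UniqueFactorizationMonoid.of_exists_prime_factors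
  intro x hx
  obtain ⟨n, x', hx', rfl⟩ := WfDvdMonoid.max_power_factor hx (prime_pi ϖ hϖ).irreducible
  obtain ⟨u, s, hs, hxs, -⟩ := exists_factorization hϖ x' hx'
  refine ⟨Multiset.replicate n ϖ + s, ?_, ?_⟩
  · intro b hb
    rcases Multiset.mem_add.mp hb with hb | hb
    · rw [Multiset.eq_of_mem_replicate hb]
      exact prime_pi ϖ hϖ
    · exact (hs b hb).1
  · rw [Multiset.prod_add, Multiset.prod_replicate, hxs]
    refine ⟨u, ?_⟩
    ring

/-- **Rational points of the tube.** The kernel of a surjection of `R` onto a discrete valuation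
ring in which `ϖ` is a uniformizer is generated by an element reducing to a uniformizer of
`R ⧸ (ϖ)`. -/
theorem exists_generator_of_point {W : Type*} [CommRing W] [IsDomain W]
    [IsDiscreteValuationRing W] (ψ : R →+* W) (hψ : Function.Surjective ψ)
    (hirr : Irreducible (ψ ϖ)) (hker : RingHom.ker ψ ≠ ⊥) :
    ∃ y, RingHom.ker ψ = Ideal.span {y} ∧ ¬ ϖ ∣ y ∧ ordBar ϖ y = 1 := by
  have hϖker : ϖ ∉ RingHom.ker ψ := by
    rw [RingHom.mem_ker]
    exact hirr.ne_zero
  have : (RingHom.ker ψ).IsPrime := RingHom.ker_isPrime ψ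
  obtain ⟨y, hy, hyd⟩ := exists_eq_span_singleton (RingHom.ker ψ) hker hϖker
  refine ⟨y, hy, hyd, ?_⟩
  apply ordBar_eq_one_of_maximalIdeal_eq
  have hloc : IsLocalHom ψ := hψ.isLocalHom ψ
  have h1 : maximalIdeal R = (IsLocalRing.maximalIdeal W).comap ψ :=
    (maximalIdeal_comap ψ).symm
  have h2 : IsLocalRing.maximalIdeal W = Ideal.span {ψ ϖ} :=
    (irreducible_iff_uniformizer _).mp hirr
  have h3 : Ideal.span {ψ ϖ} = (Ideal.span {ϖ}).map ψ := by
    rw [Ideal.map_span, Set.image_singleton]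
  rw [h1, h2, h3, Ideal.comap_map_of_surjective ψ hψ]
  have h4 : Ideal.comap ψ ⊥ = RingHom.ker ψ := rfl
  rw [h4, hy, ← Ideal.span_union, Set.singleton_union]

end

end Fermat.Agent.BR.LocalSmooth
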