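import Fermat.Agent.BR.ModUnitField
import Fermat.Agent.ES.PuiseuxRoots

/-!
# Program B, block B6.4 (e): the Atkin–Lehner involution and the modular unit

`W_q(T⁻¹) = q^{-12} T` for `T = Δ(s)/Δ(s^q)`; hence `q^12/T` is a unit for the second Gauss
valuation `w₂ = w₁ ∘ W_q` (and `w₂(T) = 12 v(q)`).

Proof: the Lagrange interpolation identity (ME3) of `Igusa.exists_modEq_complex`, in the full
`Idx`-indexed form, descended to `ℚ̄`: with `x_∞ = j(s^{q²})`, `x_b = j(ζ^b s)`, `u_∞`, `u_b`: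
`P(x_i, j(s^q)) / Φ'_X(x_i, j(s^q)) = u_i` for every `i`.  For `i = ∞` (un-expanded) this is
`T⁻¹ = P(j_q, j)/Φ'_X(j_q, j)`; for `i = 0` it is `q^{-12} T = P(j, j_q)/Φ'_X(j, j_q)`; and
`W_q` swaps `j` and `j_q`.
-/

set_option autoImplicit false
set_option linter.unusedSectionVars false
set_option linter.style.haveILetI false

noncomputable section

namespace Fermat.Agent.BR.ModUnit

open ModularCurve Polynomial Fermat.Agent.Igusa

/-! ### Lagrange interpolation -/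

section Lagrange

variable {R : Type*} [CommRing R] {ι : Type*} [Fintype ι] [DecidableEq ι]

theorem eval_lagrange_sum (a u : ι → R) (i0 : ι) :
    (∑ i, C (u i) * ∏ k ∈ Finset.univ.erase i, (X - C (a k))).eval (a i0) =
      u i0 * ∏ k ∈ Finset.univ.erase i0, (a i0 - a k) := by
  rw [Polynomial.eval_finsetSum, Finset.sum_eq_single i0]
  · rw [Polynomial.eval_mul, Polynomial.eval_C, Polynomial.eval_prod]
    simp only [Polynomial.eval_sub, Polynomial.eval_X, Polynomial.eval_C]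
  · intro i _ hi
    rw [Polynomial.eval_mul, Polynomial.eval_prod]
    have hmem : i0 ∈ Finset.univ.erase i :=
      Finset.mem_erase.mpr ⟨fun h => hi h.symm, Finset.mem_univ _⟩
    rw [Finset.prod_eq_zero hmem, mul_zero]
    simp
  · intro h
    exact absurd (Finset.mem_univ _) h

theorem eval_derivative_prod_X_sub_C' (a : ι → R) (i0 : ι) :
    (derivative (∏ i, (X - C (a i)))).eval (a i0) =
      ∏ k ∈ Finset.univ.erase i0, (a i0 - a k) := by
  rw [← Finset.mul_prod_erase Finset.univ (fun i => X - C (a i)) (Finset.mem_univ i0),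
    Polynomial.derivative_mul, Polynomial.eval_add, Polynomial.eval_mul, Polynomial.eval_mul,
    Polynomial.derivative_sub, Polynomial.derivative_X, Polynomial.derivative_C, sub_zero,
    Polynomial.eval_one, one_mul, Polynomial.eval_sub, Polynomial.eval_X, Polynomial.eval_C,
    sub_self, zero_mul, add_zero, Polynomial.eval_prod]
  simp only [Polynomial.eval_sub, Polynomial.eval_X, Polynomial.eval_C]

end Lagrange

/-! ### The `Idx`-form of the modular equations over `ℚ̄` -/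

section IdxForm

open Fermat.Agent.X0 Fermat.Agent.ES

variable (q : ℕ) [hq : Fact q.Prime]

local instance neZero_q₉ : NeZero q := ⟨hq.out.ne_zero⟩

theorem coeffMap_tX' {C D : Type*} [CommRing C] [CommRing D] (f : C →+* D) (ζ : Cˣ)
    (i : Idx q) : coeffMap f (tX q ζ i) = tX q (Units.map (f : C →* D) ζ) i := by
  cases i with
  | none => simp only [tX]; rw [coeffMap_J, map_one]
  | some b => simp only [tX]; rw [coeffMap_J, map_pow]

theorem coeffMap_tU' {C D : Type*} [CommRing C] [CommRing D] (f : C →+* D) (ζ : Cˣ) (pinv : C)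
    (i : Idx q) :
    coeffMap f (tU q ζ pinv i) = tU q (Units.map (f : C →* D) ζ) (f pinv) i := by
  cases i with
  | none => simp only [tU]; exact coeffMap_uInfS _ q
  | some b => simp only [tU]; rw [coeffMap_uFinS]

/-- The modular equations in `Idx`-form over `ℚ̄`. -/
theorem exists_idxForm_Kb : ∃ (ζ : Kbˣ) (Φ P : Kb[X][X]), IsPrimitiveRoot ζ q ∧
    evY (J (1 : Kbˣ) q) Φ = ∏ i : Idx q, (X - C (tX q ζ i)) ∧
    evY (J (1 : Kbˣ) q) P = ∑ i : Idx q, C (tU q ζ ((q : Kb)⁻¹) i) *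
      ∏ k ∈ Finset.univ.erase i, (X - C (tX q ζ k)) := by
  obtain ⟨Φ, -, P, -, -, -, -, h1, -, h3⟩ := exists_modEq_complex q
  set A := algNumSubring with hA
  have hζ := zetaC_mem_algNumSubring q
  have hpinv := natCast_inv_mem_algNumSubring q
  set ι := coeffMap A.subtype with hι
  have hinj : Function.Injective (Polynomial.map ι) :=
    Polynomial.map_injective _ (coeffMap_subtype_injective A)
  have e1 : ∏ i : Idx q, (X - C (sX q i)) =
      (∏ i : Idx q, (X - C (tX q (zetaA q hζ) i))).map ι := by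
    rw [Polynomial.map_prod]
    simp only [Polynomial.map_sub, Polynomial.map_X, Polynomial.map_C, hι, coeffMap_tX]
  have e3 : ∑ i : Idx q, C (sU q i) *
        ∏ k ∈ Finset.univ.erase i, (X - C (sX q k)) =
      (∑ i : Idx q, C (tU q (zetaA q hζ) ⟨(q : ℂ)⁻¹, hpinv⟩ i) *
        ∏ k ∈ Finset.univ.erase i, (X - C (tX q (zetaA q hζ) k))).map ι := by
    rw [Polynomial.map_sum]
    simp only [Polynomial.map_mul, Polynomial.map_prod, Polynomial.map_sub, Polynomial.map_X,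
      Polynomial.map_C, hι, coeffMap_tX, coeffMap_tU]
  have hJ : ι (J (1 : Aˣ) q) = J (1 : ℂˣ) q := by rw [hι, coeffMap_J, map_one]
  have key : ∀ (Θ : ℂ[X][X]) (R : (LaurentSeries A)[X]), evY (J (1 : ℂˣ) q) Θ = R.map ι →
      ∃ Θ' : A[X][X], evY (J (1 : Aˣ) q) Θ' = R := by
    intro Θ R hΘ
    have hl : Θ ∈ Polynomial.lifts (Polynomial.mapRingHom A.subtype) :=
      mem_lifts_of_evY_coeff_mem q A Θ fun n => by
        rw [hΘ, Polynomial.coeff_map]
        exact ⟨_, rfl⟩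
    obtain ⟨Θ', hΘ'0⟩ := hl
    have hΘ' : Θ'.map (Polynomial.mapRingHom A.subtype) = Θ := hΘ'0
    refine ⟨Θ', hinj ?_⟩
    rw [← hΘ, ← hΘ', ← hJ]
    exact (evY_map A.subtype (J (1 : Aˣ) q) Θ').symm
  obtain ⟨Φ', hΦ1⟩ := key Φ _ (h1.trans e1)
  obtain ⟨P', hP3⟩ := key P _ (h3.trans e3)
  -- transport to `Kb`
  set f : A →+* Kb := algNumToKb with hf
  have hq0 : ((q : ℕ) : Kb) ≠ 0 := Nat.cast_ne_zero.mpr hq.out.ne_zero
  have hfpinv : f ⟨(q : ℂ)⁻¹, hpinv⟩ = ((q : ℕ) : Kb)⁻¹ := by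
    apply eq_inv_of_mul_eq_one_left
    have h : (⟨(q : ℂ)⁻¹, hpinv⟩ : A) * ((q : ℕ) : A) = 1 := by
      apply Subtype.ext
      have hq0' : ((q : ℕ) : ℂ) ≠ 0 := Nat.cast_ne_zero.mpr hq.out.ne_zero
      simp [hq0']
    have h2 := congrArg f h
    rwa [map_mul, map_one, map_natCast] at h2
  refine ⟨Units.map (f : A →* Kb) (zetaA q hζ), Φ'.map (Polynomial.mapRingHom f),
    P'.map (Polynomial.mapRingHom f),
    isPrimitiveRoot_unitsMap_of_prime f hq.out hq0 (isPrimitiveRoot_zetaA q hζ), ?_, ?_⟩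
  · have h := congrArg (Polynomial.map (coeffMap f)) hΦ1
    rw [← evY_map, coeffMap_J, map_one] at h
    rw [h, Polynomial.map_prod]
    simp only [Polynomial.map_sub, Polynomial.map_X, Polynomial.map_C, coeffMap_tX']
  · have h := congrArg (Polynomial.map (coeffMap f)) hP3
    rw [← evY_map, coeffMap_J, map_one] at h
    rw [h, Polynomial.map_sum]
    simp only [Polynomial.map_mul, Polynomial.map_prod, Polynomial.map_sub, Polynomial.map_X,
      Polynomial.map_C, coeffMap_tX', coeffMap_tU', hfpinv]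

end IdxForm

/-! ### The two evaluations of the interpolation identity -/

section TwoEvals

variable {L : Type*} [Field L] (q : ℕ) [hq : Fact q.Prime]

local instance neZero_q₁₀ : NeZero q := ⟨hq.out.ne_zero⟩

theorem tX_injective {ζ : Lˣ} (hζ : IsPrimitiveRoot ζ q) : Function.Injective (tX (C := L) q ζ) := by
  have hq1 : 1 < q := hq.out.one_lt
  have hne : ∀ b : ZMod q, tX (C := L) q ζ none ≠ tX q ζ (some b) := by
    intro b h
    have h1 := congrArg HahnSeries.order h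
    simp only [tX] at h1
    rw [order_J, order_J] at h1
    push_cast at h1
    have h2 : (1 : ℤ) < q := by exact_mod_cast hq1
    nlinarith
  intro i k hik
  cases i with
  | none =>
    cases k with
    | none => rfl
    | some b => exact absurd hik (hne b)
  | some a =>
    cases k with
    | none => exact absurd hik.symm (hne a)
    | some b =>
      simp only [tX] at hik
      have h1 : ζ ^ a.val = ζ ^ b.val := (J_eq_J_iff 1).mp hik
      have h2 : a.val = b.val := hζ.pow_inj (ZMod.val_lt a) (ZMod.val_lt b) h1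
      exact congrArg some (ZMod.val_injective q h2)

variable {ζ : Lˣ} {pinv : L} {Φ P : L[X][X]}

/-- `P(x_i, j(s^q)) = u_i Φ'_X(x_i, j(s^q))` and `Φ'_X(x_i, j(s^q)) ≠ 0`. -/
theorem eval_P_eq (hζ : IsPrimitiveRoot ζ q)
    (hΦ : evY (J (1 : Lˣ) q) Φ = ∏ i : Idx q, (X - C (tX q ζ i)))
    (hP : evY (J (1 : Lˣ) q) P = ∑ i : Idx q, C (tU q ζ pinv i) *
      ∏ k ∈ Finset.univ.erase i, (X - C (tX q ζ k))) (i0 : Idx q) :
    (derivative (evY (J (1 : Lˣ) q) Φ)).eval (tX q ζ i0) ≠ 0 ∧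
    (evY (J (1 : Lˣ) q) P).eval (tX q ζ i0) =
      tU q ζ pinv i0 * (derivative (evY (J (1 : Lˣ) q) Φ)).eval (tX q ζ i0) := by
  classical
  rw [hΦ, hP, eval_lagrange_sum, eval_derivative_prod_X_sub_C']
  refine ⟨?_, rfl⟩
  rw [Finset.prod_ne_zero_iff]
  intro k hk h
  exact (Finset.mem_erase.mp hk).1 ((tX_injective q hζ (sub_eq_zero.mp h)).symm)

/-- **(I)** `T⁻¹ = P(j_q, j)/Φ'_X(j_q, j)` and **(II)** `pinv^12 T = P(j, j_q)/Φ'_X(j, j_q)`. -/
theorem two_formulas (hζ : IsPrimitiveRoot ζ q)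
    (hΦ : evY (J (1 : Lˣ) q) Φ = ∏ i : Idx q, (X - C (tX q ζ i)))
    (hP : evY (J (1 : Lˣ) q) P = ∑ i : Idx q, C (tU q ζ pinv i) *
      ∏ k ∈ Finset.univ.erase i, (X - C (tX q ζ k))) :
    ((derivative (evY (J (1 : Lˣ) 1) Φ)).eval (J (1 : Lˣ) q) ≠ 0 ∧
      (evY (J (1 : Lˣ) 1) P).eval (J (1 : Lˣ) q) =
        TKinv L q * (derivative (evY (J (1 : Lˣ) 1) Φ)).eval (J (1 : Lˣ) q)) ∧
    ((derivative (evY (J (1 : Lˣ) q) Φ)).eval (J (1 : Lˣ) 1) ≠ 0 ∧
      (evY (J (1 : Lˣ) q) P).eval (J (1 : Lˣ) 1) =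
        (HahnSeries.C (pinv ^ 12) * TK L q) *
          (derivative (evY (J (1 : Lˣ) q) Φ)).eval (J (1 : Lˣ) 1)) := by
  constructor
  · obtain ⟨h1, h2⟩ := eval_P_eq q hζ hΦ hP none
    simp only [tX, tU] at h1 h2
    rw [evY_derivative_eval_qExpand] at h1 h2
    rw [evY_eval_qExpand, ← qExpand_TKinv, ← map_mul] at h2
    refine ⟨fun h0 => h1 (by rw [h0, map_zero]), ?_⟩
    exact qExpand_injective (R := L) (N := q) h2
  · obtain ⟨h1, h2⟩ := eval_P_eq q hζ hΦ hP (some 0)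
    simp only [tX, tU, ZMod.val_zero, pow_zero] at h1 h2
    refine ⟨h1, ?_⟩
    rw [h2, uFinS, pow_zero, scale_one_apply, TK]
    ring

end TwoEvals

/-! ### The Atkin–Lehner involution on `T` -/

section AL

open Fermat.Agent.X0 Fermat.Agent.ES Fermat.Agent.Val Fermat.Agent.BR.TwoVal Fermat.Agent.Hecke.AL

variable (M q : ℕ) [NeZero M] [hq : Fact q.Prime]

/-- `j` as an element of `F̄_{Mq}`. -/
def jF : Fb (M * q) := jBarD (M * q) 1 (one_dvd _)

/-- `j_q = j(s^q)` as an element of `F̄_{Mq}`. -/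
def jqF : Fb (M * q) := jBarD (M * q) q (dvd_mul_left q M)

theorem coe_jF : ((jF M q : Fb (M * q)) : LaurentSeries Kb) = J (1 : Kbˣ) 1 := by
  rw [jF, coe_jBarD, coeffEmb_jqN, J_one_unit_eq_jqNModC]

theorem coe_jqF : ((jqF M q : Fb (M * q)) : LaurentSeries Kb) = J (1 : Kbˣ) q := by
  rw [jqF, coe_jBarD, coeffEmb_jqN, J_one_unit_eq_jqNModC]

theorem Wq_jF (hqM : ¬ q ∣ M) : Wq hqM (jF M q) = jqF M q := by
  have h := atkinLehner_gen hq.out (coprime_of_not_dvd hqM) ((⟨1, one_dvd M⟩, false) : Fermat.Agent.Hecke.AL.Idx M)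
  have e1 : gen M q ((⟨1, one_dvd M⟩, false) : Fermat.Agent.Hecke.AL.Idx M) = jF M q :=
    jBarD_congr _ (by simp [lev]) _ _
  have e2 : gen M q (swap M ((⟨1, one_dvd M⟩, false) : Fermat.Agent.Hecke.AL.Idx M)) = jqF M q :=
    jBarD_congr _ (by simp [lev, swap]) _ _
  rw [e1, e2] at h
  exact h

theorem Wq_jqF (hqM : ¬ q ∣ M) : Wq hqM (jqF M q) = jF M q := by
  rw [← Wq_jF M q hqM, Wq_Wq]

/-- Two-variable evaluation in `F̄_{Mq}` read in `ℚ̄((s))`. -/
theorem coe_ev2_Fb (Θ : Kb[X][X]) (a b : Fb (M * q)) :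
    ((ev2 (algebraMap Kb (Fb (M * q))) Θ a b : Fb (M * q)) : LaurentSeries Kb) =
      (evY (b : LaurentSeries Kb) Θ).eval (a : LaurentSeries Kb) := by
  have h := map_ev2 (algebraMap (Fb (M * q)) (LaurentSeries Kb)) (algebraMap Kb (Fb (M * q))) Θ a b
  have hκ : (algebraMap (Fb (M * q)) (LaurentSeries Kb)).comp (algebraMap Kb (Fb (M * q))) =
      (HahnSeries.C : Kb →+* LaurentSeries Kb) := by
    ext c : 1
    exact algebraMap_laurentSeries_eq_C c
  rw [hκ, ev2_laurent] at h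
  exact h

theorem Wq_ev2 (hqM : ¬ q ∣ M) (Θ : Kb[X][X]) (a b : Fb (M * q)) :
    Wq hqM (ev2 (algebraMap Kb (Fb (M * q))) Θ a b) =
      ev2 (algebraMap Kb (Fb (M * q))) Θ (Wq hqM a) (Wq hqM b) := by
  have h := map_ev2 ((Wq hqM : Fb (M * q) ≃ₐ[Kb] Fb (M * q)) : Fb (M * q) →+* Fb (M * q))
    (algebraMap Kb (Fb (M * q))) Θ a b
  have hκ : ((Wq hqM : Fb (M * q) ≃ₐ[Kb] Fb (M * q)) : Fb (M * q) →+* Fb (M * q)).comp
      (algebraMap Kb (Fb (M * q))) = algebraMap Kb (Fb (M * q)) := by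
    ext c : 1
    exact (Wq hqM).commutes c
  rw [hκ] at h
  exact h

/-- **B6.4 (e).** `W_q(T⁻¹) = q^{-12} T`. -/
theorem Wq_TBinv (hqM : ¬ q ∣ M) :
    Wq hqM (TBinv M q) = algebraMap Kb (Fb (M * q)) (((q : Kb)⁻¹) ^ 12) * TB M q := by
  obtain ⟨ζ, Φ, P, hζ, hΦ, hP⟩ := exists_idxForm_Kb q
  obtain ⟨⟨hD1, hI⟩, ⟨hD2, hII⟩⟩ := two_formulas q hζ hΦ hP
  have hder : ∀ y : LaurentSeries Kb, derivative (evY y Φ) = evY y (derivative Φ) := by
    intro y
    rw [evY_apply, evY_apply, Polynomial.derivative_map]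
  rw [hder] at hD1 hI hD2 hII
  set κ := algebraMap Kb (Fb (M * q)) with hκ
  -- (I) in `F̄_{Mq}`
  have e1 : ev2 κ P (jqF M q) (jF M q) =
      TBinv M q * ev2 κ (derivative Φ) (jqF M q) (jF M q) := by
    apply Subtype.ext
    rw [coe_ev2_Fb, coe_jF, coe_jqF, hI]
    show _ = ((TBinv M q : Fb (M * q)) : LaurentSeries Kb) *
      ((ev2 κ (derivative Φ) (jqF M q) (jF M q) : Fb (M * q)) : LaurentSeries Kb)
    rw [coe_ev2_Fb, coe_jF, coe_jqF, coe_TBinv]
  -- (II) in `F̄_{Mq}`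
  have e2 : ev2 κ P (jF M q) (jqF M q) =
      (κ (((q : Kb)⁻¹) ^ 12) * TB M q) * ev2 κ (derivative Φ) (jF M q) (jqF M q) := by
    apply Subtype.ext
    rw [coe_ev2_Fb, coe_jF, coe_jqF, hII]
    show _ = (((κ (((q : Kb)⁻¹) ^ 12) : Fb (M * q)) : LaurentSeries Kb) *
      ((TB M q : Fb (M * q)) : LaurentSeries Kb)) *
      ((ev2 κ (derivative Φ) (jF M q) (jqF M q) : Fb (M * q)) : LaurentSeries Kb)
    rw [coe_ev2_Fb, coe_jF, coe_jqF, coe_TB]
    congr 2
    exact (algebraMap_laurentSeries_eq_C _).symm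
  have hne2 : ev2 κ (derivative Φ) (jF M q) (jqF M q) ≠ 0 := by
    intro h0
    apply hD2
    have h1 := coe_ev2_Fb M q (derivative Φ) (jF M q) (jqF M q)
    rw [h0, coe_jF, coe_jqF] at h1
    exact h1.symm
  -- apply `W_q` to (I)
  have e3 := congrArg (Wq hqM) e1
  rw [map_mul, Wq_ev2, Wq_ev2, Wq_jF, Wq_jqF, e2] at e3
  exact (mul_right_cancel₀ hne2 e3).symm

/-- The constant `q` in `F̄_{Mq}`. -/
def qF : Fb (M * q) := algebraMap Kb (Fb (M * q)) ((q : ℕ) : Kb)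

theorem qF_ne_zero : qF M q ≠ 0 := by
  rw [qF, Ne, map_eq_zero]
  exact Nat.cast_ne_zero.mpr hq.out.ne_zero

theorem Wq_qF (hqM : ¬ q ∣ M) : Wq hqM (qF M q) = qF M q := (Wq hqM).commutes _

/-- `T' = q^12/T = q^12 Δ(s^q)/Δ(s)` in `F̄_{Mq}`. -/
def TB' : Fb (M * q) := qF M q ^ 12 * TBinv M q

/-- `T T' = q^12`. -/
theorem TB_mul_TB' : TB M q * TB' M q = qF M q ^ 12 := by
  rw [TB', mul_left_comm, TB_mul_TBinv, mul_one]

/-- **B6.4 (e).** `W_q(T') = T`. -/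
theorem Wq_TB' (hqM : ¬ q ∣ M) : Wq hqM (TB' M q) = TB M q := by
  rw [TB', map_mul, map_pow, Wq_qF, Wq_TBinv, qF, ← map_pow, ← mul_assoc, ← map_mul, ← mul_pow,
    mul_inv_cancel₀ (Nat.cast_ne_zero.mpr hq.out.ne_zero), one_pow, map_one, one_mul]

/-- **B6.4 (e).** `W_q(T) = T'`. -/
theorem Wq_TB (hqM : ¬ q ∣ M) : Wq hqM (TB M q) = TB' M q := by
  rw [← Wq_TB' M q hqM, Wq_Wq]

variable (B : ValuationSubring (AlgebraicClosure ℚ)) (hB : B.LiesOverPrime q)

theorem qF_mem_O1_and_res1 :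
    ∃ h : qF M q ∈ O1 M B hB, res1 M B hB ⟨qF M q, h⟩ = 0 := by
  have := algebraIsAlgebraic_rat_algebraicClosure
  have hchar : CharP (IsLocalRing.ResidueField B) q :=
    Fermat.Agent.Val.charP_residueField_of_liesOverPrime B hB
  obtain ⟨h, hres⟩ := gaussResBar_algebraMap B (IsLocalRing.residue B) (M * q) hq.out.ne_zero hB
    ((q : ℕ) : B)
  have e : algebraMap Kb (Fb (M * q)) ((((q : ℕ) : B) : Kb)) = qF M q := by
    rw [qF]; simp
  refine ⟨e ▸ h, ?_⟩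
  have e2 : (⟨qF M q, e ▸ h⟩ : O1 M B hB) =
      ⟨algebraMap Kb (Fb (M * q)) ((((q : ℕ) : B) : Kb)), h⟩ := Subtype.ext e.symm
  rw [e2]
  refine Eq.trans hres ?_
  rw [map_natCast, CharP.cast_eq_zero, map_zero]

theorem qF_mem_O1 : qF M q ∈ O1 M B hB := (qF_mem_O1_and_res1 M q B hB).1

theorem TB'_mem_O1 : TB' M q ∈ O1 M B hB :=
  mul_mem (pow_mem (qF_mem_O1 M q B hB) 12) (TBinv_mem_O1 M q B hB)

/-- `res1 T' = 0`: `T'` vanishes on the first component. -/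
theorem res1_TB'_eq_zero : res1 M B hB ⟨TB' M q, TB'_mem_O1 M q B hB⟩ = 0 := by
  have e : (⟨TB' M q, TB'_mem_O1 M q B hB⟩ : O1 M B hB) =
      ⟨qF M q, qF_mem_O1 M q B hB⟩ ^ 12 * ⟨TBinv M q, TBinv_mem_O1 M q B hB⟩ := Subtype.ext rfl
  rw [e, map_mul, map_pow, (qF_mem_O1_and_res1 M q B hB).2, zero_pow (by norm_num), zero_mul]

variable (hqM : ¬ q ∣ M)

/-- `T' ∈ O2`. -/
theorem TB'_mem_O2 : TB' M q ∈ O2 B hB hqM := by
  rw [mem_O2_iff, Wq_TB']
  exact TB_mem_O1 M q B hB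

/-- **B6.4 (e).** `res2 T' = T̄`: `T' = q^12/T` is a unit on the second component. -/
theorem res2_TB' :
    res2 B hB hqM ⟨TB' M q, TB'_mem_O2 M q B hB hqM⟩ = TK (IsLocalRing.ResidueField B) q := by
  rw [res2_apply, ← res1_TB M q B hB]
  congr 1
  exact Subtype.ext (Wq_TB' M q hqM)

/-- `T ∈ O2`. -/
theorem TB_mem_O2 : TB M q ∈ O2 B hB hqM := by
  rw [mem_O2_iff, Wq_TB]
  exact TB'_mem_O1 M q B hB

/-- **B6.4 (e).** `res2 T = 0`: `T` vanishes on the second component. -/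
theorem res2_TB_eq_zero : res2 B hB hqM ⟨TB M q, TB_mem_O2 M q B hB hqM⟩ = 0 := by
  rw [res2_apply, ← res1_TB'_eq_zero M q B hB]
  congr 1
  exact Subtype.ext (Wq_TB M q hqM)

/-- `T, T' ∈ R12 = O1 ∩ O2`. -/
theorem TB_mem_R12 : TB M q ∈ R12 B hB hqM :=
  ⟨TB_mem_O1 M q B hB, TB_mem_O2 M q B hB hqM⟩

theorem TB'_mem_R12 : TB' M q ∈ R12 B hB hqM :=
  ⟨TB'_mem_O1 M q B hB, TB'_mem_O2 M q B hB hqM⟩

/-- `T'` is a unit of `O2` (so `w₂(T) = 12 v(q)`). -/
theorem TB'_inv_mem_O2 : (TB' M q)⁻¹ ∈ O2 B hB hqM := by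
  rw [mem_O2_iff, map_inv₀, Wq_TB', TB_inv]
  exact TBinv_mem_O1 M q B hB

end AL

end Fermat.Agent.BR.ModUnit
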