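import Fermat.Agent.BR.ModUnitIntegral
import Fermat.Agent.BR.S0.RedModularInst
import Fermat.Agent.BR.Inst.SpecialIso
import Fermat.Agent.BR.Inst.NormalModel

/-!
# Program B, block B6.5 (f): the modular unit in the charts and models of `X₀(Mq)`

`T = Δ(s)/Δ(s^q)`, `T' = q^12/T` (`TF`, `TF'` over `ℚ`; `TB`, `TB'` in `Fb (M * q)`).

* `TF_mem_chartAlgFin`, `TF'_mem_chartAlgFin` : `T, T' ∈ chartAlgFin (M * q) ℓ`
  (integral closure of `ℤ_(ℓ)[j]` in `F_{Mq}`), every prime `ℓ`;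
* `TB_mem_chartBar`, `TB'_mem_chartBar`, `TB_mem_chartFin`, `TB'_mem_chartFin` : in the finite
  chart `Rfin` of `S0.RedModular.chartDataModular`;
* `isIntegral_AJ_TB`, `isIntegral_AJ_TB'` : integral over `A[j]` (`SpecIso.AJ`);
* `TB_mem_model`, `TB'_mem_model` : in every model `C = {x ∈ K'·F_{Mq} | x integral over W[j]}`
  (`NormalGen.IsModel (modelBase _ W) (modelField _ K') C`);
* for a model `R` in the sense of `SpecIso` (`hR : ∀ x ∈ R, IsIntegral (AJ M q A) x`) containing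
  `T`, `T'`: `coe_redOne_TB : redOne T = H(j̃)`, `coe_redTwo_TB' : redTwo T' = H(j̃)`,
  `redOne_TB' = 0`, `redTwo_TB = 0`, `TB ∉ ker redOne`, `TB' ∉ ker redTwo`,
  `TB_mul_TB'_model : T T' = q^12` in `R`.
-/

set_option autoImplicit false
set_option linter.unusedSectionVars false
set_option linter.style.haveILetI false

noncomputable section

namespace Fermat.Agent.BR.ModUnit

open ModularCurve ModularCurve.IgusaScheme Polynomial Fermat.Agent.Igusa Fermat.Agent.X0
  Fermat.Agent.Good.Bridge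

/-- `G(x, j) = 0` with `G ∈ ℤ[Y][X]` monic makes `x` integral over `A₀[j]`, any base ring
`A₀`. -/
theorem isIntegral_adjoin_of_ev2Z' (A₀ : Type*) {S : Type*} [CommRing A₀] [CommRing S]
    [Algebra A₀ S] {j x : S} {G : ℤ[X][X]} (hG : G.Monic) (h : ev2Z j x G = 0) :
    IsIntegral (Algebra.adjoin A₀ {j}) x := by
  set jA : Algebra.adjoin A₀ ({j} : Set S) := ⟨j, Algebra.subset_adjoin rfl⟩ with hjA
  refine ⟨G.map (Polynomial.eval₂RingHom (Int.castRingHom _) jA), hG.map _, ?_⟩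
  rw [Polynomial.eval₂_map, ← h, ev2Z]
  congr 1
  apply Polynomial.ringHom_ext
  · intro n; simp
  · simp [hjA]

section Rational

variable (M q : ℕ) [NeZero M] [hq : Fact q.Prime]

local instance neZero_q₁₅ : NeZero q := ⟨hq.out.ne_zero⟩

local instance neZero_Mq₁₅ : NeZero (M * q) := ⟨Nat.mul_ne_zero (NeZero.ne M) hq.out.ne_zero⟩

theorem barEmb_jFull_eq_jF : barEmb (M * q) (jFull (M * q)) = jF M q := by
  rw [barEmb_jFull]
  apply Subtype.ext
  show coeffEmb Kb jq = coeffEmb Kb (qExpand ℚ 1 jq)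
  rw [qExpand_one_apply]

theorem jBar_eq_jF : jBar (M * q) = jF M q := by
  rw [← barEmb_jFull, barEmb_jFull_eq_jF]

/-- `TKPoly(T, j) = 0` in `F_{Mq}`. -/
theorem ev2Z_TF : ev2Z (jFull (M * q)) (TF M q) (TKPoly q) = 0 := by
  apply barEmb_injective (M * q)
  rw [map_ev2Z, barEmb_jFull_eq_jF, barEmb_TF, map_zero]
  exact ev2Z_TB M q

/-- `TKinvPoly(T', j) = 0` in `F_{Mq}`. -/
theorem ev2Z_TF' : ev2Z (jFull (M * q)) (TF' M q) (TKinvPoly q) = 0 := by
  apply barEmb_injective (M * q)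
  rw [map_ev2Z, barEmb_jFull_eq_jF, barEmb_TF', map_zero]
  exact ev2Z_TB' M q

variable (ℓ : ℕ) [hℓ : Fact ℓ.Prime]

/-- **B6.5 (f).** `T` lies in the finite chart algebra (integral closure of `ℤ_(ℓ)[j]`). -/
theorem TF_mem_chartAlgFin : TF M q ∈ chartAlgFin (M * q) ℓ :=
  (mem_chartAlg_iff (M * q) ℓ).mpr
    (isIntegral_adjoin_of_ev2Z' _ (TKPoly_monic q) (ev2Z_TF M q))

/-- **B6.5 (f).** `T' = q^12/T` lies in the finite chart algebra. -/
theorem TF'_mem_chartAlgFin : TF' M q ∈ chartAlgFin (M * q) ℓ :=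
  (mem_chartAlg_iff (M * q) ℓ).mpr
    (isIntegral_adjoin_of_ev2Z' _ (TKinvPoly_monic q) (ev2Z_TF' M q))

theorem TB_mem_chartBar : TB M q ∈ Inst.chartBar (M * q) ℓ {jFull (M * q)} := by
  rw [← barEmb_TF]
  exact Inst.barEmb_mem_chartBar (TF_mem_chartAlgFin M q ℓ)

theorem TB'_mem_chartBar : TB' M q ∈ Inst.chartBar (M * q) ℓ {jFull (M * q)} := by
  rw [← barEmb_TF']
  exact Inst.barEmb_mem_chartBar (TF'_mem_chartAlgFin M q ℓ)

/-- `T` lies in the finite chart of `S0.RedModular.chartDataModular`. -/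
theorem TB_mem_chartFin : TB M q ∈ S0.RedModular.chartFin (M := M) (q := q) :=
  TB_mem_chartBar M q q

/-- `T'` lies in the finite chart of `S0.RedModular.chartDataModular`. -/
theorem TB'_mem_chartFin : TB' M q ∈ S0.RedModular.chartFin (M := M) (q := q) :=
  TB'_mem_chartBar M q q

end Rational

section Models

open Fermat.Agent.BR.Inst.NormalGen Fermat.Agent.BR.Inst.NormalModel Fermat.Agent.BR.Inst.SpecIso
  Fermat.Agent.BR.TwoVal Fermat.Agent.BR.TwoValInst Fermat.Agent.Val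

variable (M q : ℕ) [NeZero M] [hq : Fact q.Prime]

local instance neZero_q₁₆ : NeZero q := ⟨hq.out.ne_zero⟩

local instance neZero_Mq₁₆ : NeZero (M * q) := ⟨Nat.mul_ne_zero (NeZero.ne M) hq.out.ne_zero⟩

/-- **B6.5 (f), frame form.** `T` lies in every model
`C = {x ∈ K'·F_{Mq} | x integral over W[j]}`. -/
theorem TB_mem_model (W : Subring Kb) (K' : Subfield Kb) {C : Subring (Fb (M * q))}
    (hC : IsModel (modelBase (M * q) W) (modelField (M * q) K') C) : TB M q ∈ C := by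
  refine (hC _).mpr ⟨?_, isIntegral_TB M q _ ?_⟩
  · rw [← barEmb_TF]
    exact barEmb_mem_modelField (M * q) K' _
  · rw [← jBar_eq_jF]
    exact jBar_mem_modelBase (M * q) W

/-- **B6.5 (f), frame form.** `T' = q^12/T` lies in every model. -/
theorem TB'_mem_model (W : Subring Kb) (K' : Subfield Kb) {C : Subring (Fb (M * q))}
    (hC : IsModel (modelBase (M * q) W) (modelField (M * q) K') C) : TB' M q ∈ C := by
  refine (hC _).mpr ⟨?_, isIntegral_TB' M q _ ?_⟩
  · rw [← barEmb_TF']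
    exact barEmb_mem_modelField (M * q) K' _
  · rw [← jBar_eq_jF]
    exact jBar_mem_modelBase (M * q) W

variable (A : ValuationSubring Kb) (hA : A.LiesOverPrime q) (hqM : ¬ q ∣ M)

theorem jF_mem_AJ : jF M q ∈ AJ M q A :=
  Subring.subset_closure (Or.inr rfl)

/-- `T` is integral over `A[j]`. -/
theorem isIntegral_AJ_TB : IsIntegral ↥(AJ M q A) (TB M q) :=
  isIntegral_TB M q _ (jF_mem_AJ M q A)

/-- `T'` is integral over `A[j]`. -/
theorem isIntegral_AJ_TB' : IsIntegral ↥(AJ M q A) (TB' M q) :=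
  isIntegral_TB' M q _ (jF_mem_AJ M q A)

variable (R : Subring (Fb (M * q))) (hR : ∀ x ∈ R, IsIntegral ↥(AJ M q A) x)
  (hT : TB M q ∈ R) (hT' : TB' M q ∈ R)

/-- **`res₁ T = H(j̃)`** through `SpecIso.redOne`. -/
theorem coe_redOne_TB :
    haveI := charP_res q A hA
    ((redOne A hA hqM R hR ⟨TB M q, hT⟩ : ↥(Ck M A)) :
      ↥(modularFunctionFieldFullC (IsLocalRing.ResidueField A) M)) =
      Polynomial.aeval (jFullC (IsLocalRing.ResidueField A) M)
        (TbarPolyK (IsLocalRing.ResidueField A) q) := by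
  haveI := charP_res q A hA
  apply Subtype.ext
  rw [coe_coe_redOne, ← IntermediateField.aeval_coe]
  refine (res1_TB M q A hA).trans ?_
  exact (TbarPolyK_aeval (IsLocalRing.ResidueField A) q).symm

/-- **`res₂ T' = H(j̃)`** through `SpecIso.redTwo`. -/
theorem coe_redTwo_TB' :
    haveI := charP_res q A hA
    ((redTwo A hA hqM R hR ⟨TB' M q, hT'⟩ : ↥(Ck M A)) :
      ↥(modularFunctionFieldFullC (IsLocalRing.ResidueField A) M)) =
      Polynomial.aeval (jFullC (IsLocalRing.ResidueField A) M)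
        (TbarPolyK (IsLocalRing.ResidueField A) q) := by
  haveI := charP_res q A hA
  apply Subtype.ext
  rw [coe_coe_redTwo, ← IntermediateField.aeval_coe]
  refine (res2_TB' M q A hA hqM).trans ?_
  exact (TbarPolyK_aeval (IsLocalRing.ResidueField A) q).symm

/-- `T' ∈ P₁ = ker redOne`. -/
theorem redOne_TB' : redOne A hA hqM R hR ⟨TB' M q, hT'⟩ = 0 :=
  (redOne_eq_zero_iff A hA hqM R hR _).mpr (TB'_mem_nonunits_O1 M q A hA)

/-- `T ∈ P₂ = ker redTwo`. -/
theorem redTwo_TB : redTwo A hA hqM R hR ⟨TB M q, hT⟩ = 0 :=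
  (redTwo_eq_zero_iff A hA hqM R hR _).mpr (TB_mem_nonunits_O2 M q A hA hqM)

/-- `T ∉ P₁`. -/
theorem redOne_TB_ne_zero : redOne A hA hqM R hR ⟨TB M q, hT⟩ ≠ 0 := fun h =>
  TB_not_mem_nonunits_O1 M q A hA ((redOne_eq_zero_iff A hA hqM R hR _).mp h)

/-- `T' ∉ P₂`. -/
theorem redTwo_TB'_ne_zero : redTwo A hA hqM R hR ⟨TB' M q, hT'⟩ ≠ 0 := fun h =>
  TB'_not_mem_nonunits_O2 M q A hA hqM ((redTwo_eq_zero_iff A hA hqM R hR _).mp h)

/-- `T T' = q^12` in the model. -/
theorem TB_mul_TB'_model :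
    (⟨TB M q, hT⟩ : ↥R) * ⟨TB' M q, hT'⟩ = ((q : ℕ) : ↥R) ^ 12 := by
  apply Subtype.ext
  rw [Subring.coe_mul, Subring.coe_pow, Subring.coe_natCast]
  show TB M q * TB' M q = _
  rw [TB_mul_TB', qF, map_natCast]

end Models

end Fermat.Agent.BR.ModUnit
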