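import Fermat.Agent.Hecke.AtkinLehner
import Fermat.Agent.Val.GaussGalois

/-!
# Program B, block B1: the two valuations `w₁`, `w₂` of `F̄_{Mq}` over `q` — shared definitions

`M` prime to the prime `q`, `B ⊂ ℚ̄` a valuation subring over `q`, `k` its residue field,
`F = Fb (M * q)` (level written `M * q` as in `Hecke.AL`).

* `Wq`   : the Atkin–Lehner involution `w_q` of `F` (`Hecke.AL.atkinLehner`);
* `O1`   : the Gauss valuation subring of `F` (`q`-expansion at `∞`), `res1 : O1 →+* k((q))`;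
* `O2`   : `O1.comap Wq` (the Gauss valuation for the expansion at the cusp `0_q`),
  `res2 : O2 →+* k((q))`, `res2 x = res1 (Wq x)`;
* `R12`  : `O1 ⊓ O2` as a subring of `F`, `res12 : R12 →+* k((q)) × k((q))`.

Everything else of B1 (`BR/…`) is phrased against these names.
-/

set_option autoImplicit false

noncomputable section

namespace Fermat.Agent.BR.TwoVal

open ModularCurve AlgebraicCurve Fermat.Agent.X0 Fermat.Agent.Hecke.AL Fermat.Agent.Val

variable (M q : ℕ) [NeZero M] [hq : Fact q.Prime]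

scoped instance neZero_q : NeZero q := ⟨hq.out.ne_zero⟩

scoped instance neZero_Mq : NeZero (M * q) := ⟨Nat.mul_ne_zero (NeZero.ne M) hq.out.ne_zero⟩

variable {M q}

omit [NeZero M] in
theorem coprime_of_not_dvd (hqM : ¬ q ∣ M) : Nat.Coprime q M :=
  (Nat.Prime.coprime_iff_not_dvd hq.out).mpr hqM

/-- The Atkin–Lehner involution `w_q` of `F̄_{Mq}`. -/
def Wq (hqM : ¬ q ∣ M) : Fb (M * q) ≃ₐ[Kb] Fb (M * q) :=
  atkinLehner hq.out (coprime_of_not_dvd hqM)

@[simp]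
theorem Wq_Wq (hqM : ¬ q ∣ M) (f : Fb (M * q)) : Wq hqM (Wq hqM f) = f :=
  atkinLehner_atkinLehner hq.out (coprime_of_not_dvd hqM) f

theorem Wq_alpha (hqM : ¬ q ∣ M) (x : Fb M) :
    Wq hqM (heckeAlphaBar Kb M q x) = heckeBetaBar Kb M q x :=
  atkinLehner_alpha hq.out (coprime_of_not_dvd hqM) x

theorem Wq_beta (hqM : ¬ q ∣ M) (x : Fb M) :
    Wq hqM (heckeBetaBar Kb M q x) = heckeAlphaBar Kb M q x :=
  atkinLehner_beta hq.out (coprime_of_not_dvd hqM) x

variable (B : ValuationSubring (AlgebraicClosure ℚ)) (hB : B.LiesOverPrime q)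

variable (M) in
/-- `w₁`: the Gauss valuation subring of `F̄_{Mq}` for the `q`-expansion at `∞`. -/
def O1 : ValuationSubring (Fb (M * q)) := gaussValQbar B (M * q) hq.out.ne_zero hB

variable (M) in
/-- The residue map of `w₁`, with values in `k((q))`. -/
def res1 : O1 M B hB →+* LaurentSeries (IsLocalRing.ResidueField B) :=
  gaussResQbar B (M * q) hq.out.ne_zero hB

/-- `w₂ := w₁ ∘ w_q`. -/
def O2 (hqM : ¬ q ∣ M) : ValuationSubring (Fb (M * q)) :=
  (O1 M B hB).comap ((Wq hqM : Fb (M * q) ≃ₐ[Kb] Fb (M * q)) : Fb (M * q) →+* Fb (M * q))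

theorem mem_O2_iff (hqM : ¬ q ∣ M) {x : Fb (M * q)} :
    x ∈ O2 B hB hqM ↔ Wq hqM x ∈ O1 M B hB := Iff.rfl

theorem Wq_mem_O1_iff (hqM : ¬ q ∣ M) {x : Fb (M * q)} :
    Wq hqM x ∈ O1 M B hB ↔ x ∈ O2 B hB hqM := Iff.rfl

theorem Wq_mem_O2_iff (hqM : ¬ q ∣ M) {x : Fb (M * q)} :
    Wq hqM x ∈ O2 B hB hqM ↔ x ∈ O1 M B hB := by
  rw [mem_O2_iff, Wq_Wq]

/-- `w_q` as a ring homomorphism `O2 → O1`. -/
def WqO (hqM : ¬ q ∣ M) : O2 B hB hqM →+* O1 M B hB where
  toFun x := ⟨Wq hqM (x : Fb (M * q)), x.2⟩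
  map_one' := Subtype.ext (map_one _)
  map_mul' _ _ := Subtype.ext (map_mul _ _ _)
  map_zero' := Subtype.ext (map_zero _)
  map_add' _ _ := Subtype.ext (map_add _ _ _)

@[simp]
theorem coe_WqO (hqM : ¬ q ∣ M) (x : O2 B hB hqM) :
    ((WqO B hB hqM x : O1 M B hB) : Fb (M * q)) = Wq hqM (x : Fb (M * q)) := rfl

/-- The residue map of `w₂`, with values in `k((q))`: `res2 x = res1 (w_q x)`. -/
def res2 (hqM : ¬ q ∣ M) : O2 B hB hqM →+* LaurentSeries (IsLocalRing.ResidueField B) :=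
  (res1 M B hB).comp (WqO B hB hqM)

theorem res2_apply (hqM : ¬ q ∣ M) (x : O2 B hB hqM) :
    res2 B hB hqM x = res1 M B hB (WqO B hB hqM x) := rfl

/-- `R = O1 ∩ O2` (it will be the integral closure of the level-`M` Gauss valuation ring). -/
def R12 (hqM : ¬ q ∣ M) : Subring (Fb (M * q)) :=
  (O1 M B hB).toSubring ⊓ (O2 B hB hqM).toSubring

theorem mem_R12_iff (hqM : ¬ q ∣ M) {x : Fb (M * q)} :
    x ∈ R12 B hB hqM ↔ x ∈ O1 M B hB ∧ x ∈ O2 B hB hqM := Iff.rfl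

/-- The inclusion `R12 → O1`. -/
def R12toO1 (hqM : ¬ q ∣ M) : R12 B hB hqM →+* O1 M B hB :=
  Subring.inclusion (inf_le_left : R12 B hB hqM ≤ (O1 M B hB).toSubring)

/-- The inclusion `R12 → O2`. -/
def R12toO2 (hqM : ¬ q ∣ M) : R12 B hB hqM →+* O2 B hB hqM :=
  Subring.inclusion (inf_le_right : R12 B hB hqM ≤ (O2 B hB hqM).toSubring)

/-- The double residue map `R12 → k((q)) × k((q))`. -/
def res12 (hqM : ¬ q ∣ M) : R12 B hB hqM →+*
    LaurentSeries (IsLocalRing.ResidueField B) × LaurentSeries (IsLocalRing.ResidueField B) :=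
  ((res1 M B hB).comp (R12toO1 B hB hqM)).prod ((res2 B hB hqM).comp (R12toO2 B hB hqM))

theorem Wq_mem_R12 (hqM : ¬ q ∣ M) {x : Fb (M * q)} (hx : x ∈ R12 B hB hqM) :
    Wq hqM x ∈ R12 B hB hqM :=
  ⟨hx.2, (Wq_mem_O2_iff B hB hqM).2 hx.1⟩

end Fermat.Agent.BR.TwoVal
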