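import Fermat.Agent.BR.ModUnitRes
import Fermat.Agent.Igusa.BaseCase
import Fermat.Agent.ES.ModEqKb
import Fermat.Agent.BR.TwoValDefs
import Fermat.Agent.Val.ResidueFieldA

/-!
# Program B, block B6.4 (b): the modular unit `T = Δ(s)/Δ(s^q)` lies in `F̄_q`

From modular equation data `d : ModEqData L q ζ pinv` over a field `L`:
(ME1) gives `Φ'_X(j(s^{q²}), j(s^q)) = ∏_b (j(s^{q²}) - j(ζ^b s)) ≠ 0` and (ME3') gives
`u_∞ = Δ(s^{q²})/Δ(s^q) = P(j(s^{q²}), j(s^q)) / Φ'_X(j(s^{q²}), j(s^q))`.  Both sides are the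
images under the injective `s ↦ s^q` of identities in `L((s))`, so
`T⁻¹ = Δ(s^q)/Δ(s) = P(j(s^q), j(s)) / Φ'_X(j(s^q), j(s)) ∈ L(j(s), j(s^q))`.

* `TKinv_eq_div` : the formula above;
* `TK_mem_of_mem` : `T` lies in every intermediate field containing `j(s)` and `j(s^q)`;
* `TK_mem_bar` : `TK Kb q ∈ Fb N` for `q ∣ N`;
* `TB M q : Fb (M * q)`, `TB_mem_O1`, `res1_TB` : in the frame of `BR/TwoValDefs`, `T` is a unit of
  the first Gauss valuation ring with residue `T̄ = Δ̄^(1-q)`.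
-/

set_option autoImplicit false

noncomputable section

namespace Fermat.Agent.BR.ModUnit

open ModularCurve HahnSeries Polynomial Fermat.Agent.Igusa

section Formal

variable {L : Type*} [Field L] {q : ℕ} [NeZero q] {ζ : Lˣ} {pinv : L}

/-- Un-expanding: evaluation at `(j(s^{q²}), j(s^q))` is `s ↦ s^q` of evaluation at
`(j(s^q), j(s))`. -/
theorem evY_eval_qExpand (Θ : L[X][X]) :
    (evY (J (1 : Lˣ) q) Θ).eval (J (1 : Lˣ) (q * q)) =
      qExpand L q ((evY (J (1 : Lˣ) 1) Θ).eval (J (1 : Lˣ) q)) := by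
  have h1 : evY (J (1 : Lˣ) q) Θ = (evY (J (1 : Lˣ) 1) Θ).map (subst (1 : Lˣ) q) := by
    rw [evY_subst, subst_J]
    simp
  have h2 : J (1 : Lˣ) (q * q) = subst (1 : Lˣ) q (J (1 : Lˣ) q) := by
    rw [subst_J]
    simp
  rw [h1, h2, Polynomial.eval_map_apply, subst_one_unit]

theorem evY_derivative_eval_qExpand (Θ : L[X][X]) :
    (derivative (evY (J (1 : Lˣ) q) Θ)).eval (J (1 : Lˣ) (q * q)) =
      qExpand L q ((derivative (evY (J (1 : Lˣ) 1) Θ)).eval (J (1 : Lˣ) q)) := by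
  have h1 : evY (J (1 : Lˣ) q) Θ = (evY (J (1 : Lˣ) 1) Θ).map (subst (1 : Lˣ) q) := by
    rw [evY_subst, subst_J]
    simp
  have h2 : J (1 : Lˣ) (q * q) = subst (1 : Lˣ) q (J (1 : Lˣ) q) := by
    rw [subst_J]
    simp
  rw [h1, h2, Polynomial.derivative_map, Polynomial.eval_map_apply, subst_one_unit]

/-- `Φ'_X(j(s^{q²}), j(s^q)) = ∏_b (j(s^{q²}) - j(ζ^b s))`. -/
theorem derivative_Phi_eval (d : ModEqData L q ζ pinv) :
    (derivative (evY (J (1 : Lˣ) q) d.Phi)).eval (J (1 : Lˣ) (q * q)) =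
      ∏ b ∈ Finset.range q, (J (1 : Lˣ) (q * q) - J (ζ ^ b) 1) := by
  rw [d.me1, Polynomial.derivative_mul, Polynomial.eval_add, Polynomial.eval_mul,
    Polynomial.eval_mul, Polynomial.derivative_sub, Polynomial.derivative_X,
    Polynomial.derivative_C, sub_zero, Polynomial.eval_one, one_mul, Polynomial.eval_sub,
    Polynomial.eval_X, Polynomial.eval_C, sub_self, zero_mul, add_zero, Polynomial.eval_prod]
  simp only [Polynomial.eval_sub, Polynomial.eval_X, Polynomial.eval_C]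

theorem prod_J_sub_ne_zero (hq : 1 < q) :
    ∏ b ∈ Finset.range q, (J (1 : Lˣ) (q * q) - J (ζ ^ b) 1) ≠ 0 := by
  rw [Finset.prod_ne_zero_iff]
  intro b _ h
  have h1 := congrArg HahnSeries.order (sub_eq_zero.mp h)
  rw [order_J, order_J] at h1
  push_cast at h1
  have h2 : (1 : ℤ) < q := by exact_mod_cast hq
  nlinarith

/-- `qExpand q T⁻¹ = u_∞`. -/
theorem qExpand_TKinv : qExpand L q (TKinv L q) = uInfS L q := by
  rw [TKinv, map_mul, ModularCurve.qExpand_qExpand, uInfS, mul_comm]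

/-- **B6.4 (b), formula.** `T⁻¹ = P(j(s^q), j(s)) / Φ'_X(j(s^q), j(s))`. -/
theorem TKinv_eq_div (hq : 1 < q) (d : ModEqData L q ζ pinv) :
    (derivative (evY (J (1 : Lˣ) 1) d.Phi)).eval (J (1 : Lˣ) q) ≠ 0 ∧
    TKinv L q = (evY (J (1 : Lˣ) 1) d.P).eval (J (1 : Lˣ) q) /
      (derivative (evY (J (1 : Lˣ) 1) d.Phi)).eval (J (1 : Lˣ) q) := by
  have hD := derivative_Phi_eval d
  rw [evY_derivative_eval_qExpand] at hD
  have hne : (derivative (evY (J (1 : Lˣ) 1) d.Phi)).eval (J (1 : Lˣ) q) ≠ 0 := by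
    intro h0
    rw [h0, map_zero] at hD
    exact prod_J_sub_ne_zero hq hD.symm
  refine ⟨hne, ?_⟩
  apply qExpand_injective (R := L) (N := q)
  rw [map_div₀, qExpand_TKinv, ← evY_eval_qExpand, d.me3_eval, hD, mul_div_assoc,
    div_self (hD ▸ prod_J_sub_ne_zero hq), mul_one]

/-- Evaluation of a two-variable polynomial at two elements of an intermediate field. -/
theorem evY_eval_mem (S : IntermediateField L (LaurentSeries L)) {x y : LaurentSeries L}
    (hx : x ∈ S) (hy : y ∈ S) (Θ : L[X][X]) : (evY y Θ).eval x ∈ S := by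
  rw [evY_eq_map_aeval, Polynomial.eval_map, Polynomial.eval₂_eq_sum_range]
  refine S.sum_mem fun i _ => S.mul_mem ?_ (S.pow_mem hx i)
  show (aeval y (Θ.coeff i) : LaurentSeries L) ∈ S
  rw [Polynomial.aeval_eq_sum_range]
  exact S.sum_mem fun j _ => S.smul_mem (S.pow_mem hy j)

theorem evY_derivative_eval_mem (S : IntermediateField L (LaurentSeries L))
    {x y : LaurentSeries L} (hx : x ∈ S) (hy : y ∈ S) (Θ : L[X][X]) :
    (derivative (evY y Θ)).eval x ∈ S := by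
  have h : derivative (evY y Θ) = evY y (derivative Θ) := by
    rw [evY_apply, evY_apply, Polynomial.derivative_map]
  rw [h]
  exact evY_eval_mem S hx hy _

/-- **B6.4 (b).** `T⁻¹` (hence `T`) lies in every intermediate field of `L((s))/L` containing
`j(s)` and `j(s^q)`. -/
theorem TKinv_mem_of_mem (hq : 1 < q) (d : ModEqData L q ζ pinv)
    (S : IntermediateField L (LaurentSeries L)) (h1 : jqModC L ∈ S) (hq' : jqNModC L q ∈ S) :
    TKinv L q ∈ S := by
  have hx : J (1 : Lˣ) q ∈ S := by rw [J_one_unit_eq_jqNModC]; exact hq'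
  have hy : J (1 : Lˣ) 1 ∈ S := by rw [J_one_one]; exact h1
  rw [(TKinv_eq_div hq d).2]
  exact S.div_mem (evY_eval_mem S hx hy _) (evY_derivative_eval_mem S hx hy _)

theorem TK_mem_of_mem (hq : 1 < q) (d : ModEqData L q ζ pinv)
    (S : IntermediateField L (LaurentSeries L)) (h1 : jqModC L ∈ S) (hq' : jqNModC L q ∈ S) :
    TK L q ∈ S := by
  rw [← TKinv_inv]
  exact S.inv_mem (TKinv_mem_of_mem hq d S h1 hq')

end Formal

section Bar

open Fermat.Agent.X0 Fermat.Agent.Val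

variable (q : ℕ) [hq : Fact q.Prime]

local instance neZero_q₃ : NeZero q := ⟨hq.out.ne_zero⟩

theorem jqModC_mem_bar (L : Type*) [Field L] [Algebra ℚ L] (N : ℕ) [NeZero N] :
    jqModC L ∈ laurentBaseChange L (modularFunctionFieldFull N) := by
  have h := coeffEmb_mem_laurentBaseChange L (jqd_mem_full N (one_dvd N))
  rw [coeffEmb_jqN] at h
  have h2 : jqNModC L 1 = jqModC L := qExpand_one_apply _
  rwa [h2] at h

theorem jqNModC_mem_bar (L : Type*) [Field L] [Algebra ℚ L] (N : ℕ) [NeZero N] {d : ℕ} [NeZero d]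
    (hd : d ∣ N) : jqNModC L d ∈ laurentBaseChange L (modularFunctionFieldFull N) := by
  have h := coeffEmb_mem_laurentBaseChange L (jqd_mem_full N hd)
  rwa [coeffEmb_jqN] at h

/-- **B6.4 (b).** `T = Δ(s)/Δ(s^q) ∈ F̄_N` for `q ∣ N`. -/
theorem TK_mem_bar (N : ℕ) [NeZero N] (hqN : q ∣ N) : TK Kb q ∈ modularFunctionFieldBar N := by
  obtain ⟨ζ, pinv, -, ⟨d⟩⟩ := Fermat.Agent.ES.exists_modEqData_Kb q hq.out
  exact TK_mem_of_mem hq.out.one_lt d _ (jqModC_mem_bar Kb N) (jqNModC_mem_bar Kb N hqN)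

theorem TKinv_mem_bar (N : ℕ) [NeZero N] (hqN : q ∣ N) :
    TKinv Kb q ∈ modularFunctionFieldBar N := by
  rw [← TK_inv]
  exact (modularFunctionFieldBar N).inv_mem (TK_mem_bar q N hqN)

/-- `coeffEmb` of the Prelude's modular unit is `TK Kb q`. -/
theorem coeffEmb_modularUnitSeries : coeffEmb Kb (modularUnitSeries q) = TK Kb q := by
  rw [modularUnitSeries_eq, coeffEmb, coeffMap_TK]

end Bar

section TwoVal

open Fermat.Agent.X0 Fermat.Agent.Val Fermat.Agent.BR.TwoVal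

variable (M q : ℕ) [NeZero M] [hq : Fact q.Prime]

/-- The modular unit `T = Δ(s)/Δ(s^q)` as an element of `F̄_{Mq}`. -/
def TB : Fb (M * q) := ⟨TK Kb q, TK_mem_bar q (M * q) (dvd_mul_left q M)⟩

/-- Its inverse `Δ(s^q)/Δ(s)`. -/
def TBinv : Fb (M * q) := ⟨TKinv Kb q, TKinv_mem_bar q (M * q) (dvd_mul_left q M)⟩

@[simp] theorem coe_TB : ((TB M q : Fb (M * q)) : LaurentSeries Kb) = TK Kb q := rfl

@[simp] theorem coe_TBinv : ((TBinv M q : Fb (M * q)) : LaurentSeries Kb) = TKinv Kb q := rfl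

theorem TB_mul_TBinv : TB M q * TBinv M q = 1 :=
  Subtype.ext (TK_mul_TKinv Kb q)

theorem TB_inv : (TB M q)⁻¹ = TBinv M q :=
  inv_eq_of_mul_eq_one_right (TB_mul_TBinv M q)

theorem TB_ne_zero : TB M q ≠ 0 := left_ne_zero_of_mul_eq_one (TB_mul_TBinv M q)

variable (B : ValuationSubring (AlgebraicClosure ℚ)) (hB : B.LiesOverPrime q)

/-- **B6.4 (a), frame of B1.** `T ∈ O1` with `res1 T = T̄ = Δ̄(s)/Δ̄(s^q)`. -/
theorem TB_mem_O1_and_res1 :
    ∃ h : TB M q ∈ O1 M B hB,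
      res1 M B hB ⟨TB M q, h⟩ = TK (IsLocalRing.ResidueField B) q := by
  have := algebraIsAlgebraic_rat_algebraicClosure
  have h1 : coeffMap B.subtype (TK B q) = TK Kb q := coeffMap_TK q _
  have hmem : coeffMap B.subtype (TK B q) ∈ modularFunctionFieldBar (M * q) := by
    rw [h1]; exact TK_mem_bar q (M * q) (dvd_mul_left q M)
  obtain ⟨h2, h3⟩ := gaussResBar_coeffMap B (IsLocalRing.residue B) (M * q) hq.out.ne_zero hB
    (TK B q) hmem
  have h4 : TB M q = ⟨coeffMap B.subtype (TK B q), hmem⟩ := Subtype.ext h1.symm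
  refine ⟨h4 ▸ h2, ?_⟩
  have h5 : (⟨TB M q, h4 ▸ h2⟩ : O1 M B hB) =
      ⟨⟨coeffMap B.subtype (TK B q), hmem⟩, h2⟩ := Subtype.ext h4
  rw [h5]
  refine Eq.trans ?_ (Eq.trans h3 (coeffMap_TK q _))
  rfl

theorem TB_mem_O1 : TB M q ∈ O1 M B hB := (TB_mem_O1_and_res1 M q B hB).1

theorem res1_TB :
    res1 M B hB ⟨TB M q, TB_mem_O1 M q B hB⟩ = TK (IsLocalRing.ResidueField B) q :=
  (TB_mem_O1_and_res1 M q B hB).2

theorem TBinv_mem_O1_and_res1 :
    ∃ h : TBinv M q ∈ O1 M B hB,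
      res1 M B hB ⟨TBinv M q, h⟩ = TKinv (IsLocalRing.ResidueField B) q := by
  have := algebraIsAlgebraic_rat_algebraicClosure
  have h1 : coeffMap B.subtype (TKinv B q) = TKinv Kb q := coeffMap_TKinv q _
  have hmem : coeffMap B.subtype (TKinv B q) ∈ modularFunctionFieldBar (M * q) := by
    rw [h1]; exact TKinv_mem_bar q (M * q) (dvd_mul_left q M)
  obtain ⟨h2, h3⟩ := gaussResBar_coeffMap B (IsLocalRing.residue B) (M * q) hq.out.ne_zero hB
    (TKinv B q) hmem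
  have h4 : TBinv M q = ⟨coeffMap B.subtype (TKinv B q), hmem⟩ := Subtype.ext h1.symm
  refine ⟨h4 ▸ h2, ?_⟩
  have h5 : (⟨TBinv M q, h4 ▸ h2⟩ : O1 M B hB) =
      ⟨⟨coeffMap B.subtype (TKinv B q), hmem⟩, h2⟩ := Subtype.ext h4
  rw [h5]
  refine Eq.trans ?_ (Eq.trans h3 (coeffMap_TKinv q _))
  rfl

theorem TBinv_mem_O1 : TBinv M q ∈ O1 M B hB := (TBinv_mem_O1_and_res1 M q B hB).1

theorem res1_TBinv :
    res1 M B hB ⟨TBinv M q, TBinv_mem_O1 M q B hB⟩ = TKinv (IsLocalRing.ResidueField B) q :=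
  (TBinv_mem_O1_and_res1 M q B hB).2

/-- `T` is a unit of the first Gauss valuation ring `O1`. -/
theorem isUnit_TB_O1 : IsUnit (⟨TB M q, TB_mem_O1 M q B hB⟩ : O1 M B hB) :=
  IsUnit.of_mul_eq_one ⟨TBinv M q, TBinv_mem_O1 M q B hB⟩ (Subtype.ext (TB_mul_TBinv M q))

/-- **B6.4 (a), frame of B1.** `res1 T = Δ̄ · (Δ̄⁻¹)^q = Δ̄^(1-q)`. -/
theorem res1_TB' :
    res1 M B hB ⟨TB M q, TB_mem_O1 M q B hB⟩ =
      DeltaC (IsLocalRing.ResidueField B) * DeltaInvC (IsLocalRing.ResidueField B) ^ q := by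
  have : CharP (IsLocalRing.ResidueField B) q :=
    Fermat.Agent.Val.charP_residueField_of_liesOverPrime B hB
  rw [res1_TB, TK_char]

end TwoVal

end Fermat.Agent.BR.ModUnit
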