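import Fermat.Agent.BR.ModUnitRes
import Fermat.Agent.Igusa.ModEqExist

/-!
# Program B, block B6.4 (c): integrality of the modular unit over `ℤ[j]`

`T = Δ(s)/Δ(s^q)` and `T' = q^12 Δ(s^q)/Δ(s) = q^12/T` are integral over `ℤ[j]` (no `1/q`).

Route: the polynomial `Ψ` of `Igusa.exists_modEq_complex` (roots `u_∞ = Δ(s^{q²})/Δ(s^q)` and
`u_b = q^{-12} Δ(ζ^b s)/Δ(s^q)`) is rescaled by `q^12` (`Polynomial.scaleRoots`) and descended to
the ring `OC` of algebraic integers of `ℂ` (`Igusa.mem_lifts_of_evY_coeff_mem`):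

* `exists_PsiO` : `Ψ♯ ∈ OC[Y][X]` monic of degree `q+1`,
  `Ψ♯(X, j(s^q)) = (X - q^12 u_∞) ∏_b (X - v_b)`, `v_b = Δ(ζ^b s)/Δ(s^q)`;
* `uInfS_mul_prod_vFin` : `u_∞ ∏_b v_b = ε` (a root of unity): the constant term of `Ψ♯(X, j(s^q))`
  is a polynomial in `j(s^q)` of order `0` in `s`, hence a constant — this replaces the `η`-product
  formula;  `qExpand_TK_eq_prod` : `T(s^q) = ε⁻¹ ∏_b v_b`;
* `exists_monic_TK_OC`, `exists_monic_TKinv_OC` : integrality over `OC[j]`;
* `exists_monic_int_of_OC` : descent to `ℤ[j]` (transitivity of integrality, `OC/ℤ` integral);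
* `TKPoly q`, `TKinvPoly q : ℤ[X][X]` monic with `TKPoly(T, j) = 0`, `TKinvPoly(q^12/T, j) = 0` over
  every coefficient ring (`TKPoly_eval`, `TKinvPoly_eval`; portable forms `ev2Z_TKPoly`,
  `ev2Z_TKinvPoly` with `ev2Z j x G = G(x, j)`, `map_ev2Z`, `isIntegral_adjoin_of_ev2Z`).
-/

set_option autoImplicit false
set_option linter.unusedSectionVars false
set_option linter.style.haveILetI false

noncomputable section

namespace Fermat.Agent.BR.ModUnit

open ModularCurve Polynomial Fermat.Agent.Igusa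

/-! ### Un-expanding -/

section Unexpand

variable {C : Type*} [CommRing C] (q : ℕ) [NeZero q]

theorem evY_J_eq_map (Θ : C[X][X]) :
    evY (J (1 : Cˣ) q) Θ = (evY (J (1 : Cˣ) 1) Θ).map (qExpand C q) := by
  rw [← subst_one_unit_eq, evY_subst, subst_J]
  simp

/-- Evaluation at `(x(s^q), j(s^q))` is `s ↦ s^q` of the evaluation at `(x(s), j(s))`. -/
theorem evY_eval_qExpand' (Θ : C[X][X]) (x : LaurentSeries C) :
    (evY (J (1 : Cˣ) q) Θ).eval (qExpand C q x) =
      qExpand C q ((evY (J (1 : Cˣ) 1) Θ).eval x) := by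
  rw [evY_J_eq_map, Polynomial.eval_map_apply]

theorem evY_eval_eq_zero_of_qExpand {Θ : C[X][X]} {x : LaurentSeries C}
    (h : (evY (J (1 : Cˣ) q) Θ).eval (qExpand C q x) = 0) :
    (evY (J (1 : Cˣ) 1) Θ).eval x = 0 := by
  rw [evY_eval_qExpand'] at h
  exact qExpand_injective (R := C) (N := q) (by rw [h, map_zero])

end Unexpand

/-! ### `scaleRoots` of a product of linear factors -/

section ScaleRoots

variable {R : Type*} [CommRing R] [NoZeroDivisors R]

theorem prod_X_sub_C_scaleRoots {ι : Type*} (s : Finset ι) (a : ι → R) (r : R) :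
    (∏ i ∈ s, (X - C (a i))).scaleRoots r = ∏ i ∈ s, (X - C (a i * r)) := by
  classical
  induction s using Finset.induction_on with
  | empty => simp
  | insert i s hi ih =>
    rw [Finset.prod_insert hi, Finset.prod_insert hi, mul_scaleRoots_of_noZeroDivisors,
      X_sub_C_scaleRoots, ih]

end ScaleRoots

/-! ### The conjugates of `q^12/T` -/

section Conj

variable (q : ℕ) [NeZero q]

/-- The root `q^12 u_∞ = q^12 Δ(s^{q²})/Δ(s^q)`. -/
def tInf (C : Type*) [CommRing C] : LaurentSeries C :=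
  HahnSeries.C ((q : C) ^ 12) * uInfS C q

/-- The roots `v_b = Δ(ζ^b s)/Δ(s^q)`. -/
def vFin {C : Type*} [CommRing C] (ζ : Cˣ) (b : ℕ) : LaurentSeries C :=
  scale (ζ ^ b) (DeltaC C) * qExpand C q (DeltaInvC C)

theorem coeffMap_tInf {C D : Type*} [CommRing C] [CommRing D] (f : C →+* D) :
    coeffMap f (tInf q C) = tInf q D := by
  rw [tInf, tInf, map_mul, coeffMap_uInfS, coeffMap_HC, map_pow, map_natCast]

theorem coeffMap_vFin {C D : Type*} [CommRing C] [CommRing D] (f : C →+* D) (ζ : Cˣ) (b : ℕ) :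
    coeffMap f (vFin q ζ b) = vFin q (Units.map (f : C →* D) ζ) b := by
  rw [vFin, vFin, map_mul, coeffMap_qExpand, coeffMap_DeltaInvC, coeffMap_scale, coeffMap_DeltaC,
    map_pow]

end Conj

/-! ### The rescaled polynomial `Ψ♯` over the ring of algebraic integers of `ℂ` -/

section Complex

variable (q : ℕ) [hq : Fact q.Prime]

local instance neZero_q₄ : NeZero q := ⟨hq.out.ne_zero⟩

/-- The ring of algebraic integers of `ℂ`. -/
def OC : Subring ℂ := (integralClosure ℤ ℂ).toSubring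

theorem mem_OC_iff {z : ℂ} : z ∈ OC ↔ IsIntegral ℤ z := Iff.rfl

theorem zetaC_mem_OC : ((zetaC q : ℂˣ) : ℂ) ∈ OC := by
  rw [mem_OC_iff]
  refine IsIntegral.of_pow hq.out.pos ?_
  rw [← Units.val_pow_eq_pow_val, zetaC_pow_self, Units.val_one]
  exact isIntegral_one

/-- `ζ_q` as a unit of `OC`. -/
def zetaO : OCˣ := zetaA q (zetaC_mem_OC q)

theorem sU_none_mul : sU q none * HahnSeries.C (((q : ℂ)) ^ 12) = tInf q ℂ := by
  rw [tInf, mul_comm]
  rfl

theorem sU_some_mul (b : ZMod q) :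
    sU q (some b) * HahnSeries.C (((q : ℂ)) ^ 12) = vFin q (zetaC q) b.val := by
  have hq0 : (q : ℂ) ≠ 0 := Nat.cast_ne_zero.mpr hq.out.ne_zero
  have h1 : (HahnSeries.C (((q : ℂ)⁻¹) ^ 12) : LaurentSeries ℂ) * HahnSeries.C ((q : ℂ) ^ 12) = 1 := by
    rw [← map_mul, ← mul_pow, inv_mul_cancel₀ hq0, one_pow, map_one]
  show uFinS q (zetaC q) ((q : ℂ)⁻¹) b.val * _ = _
  rw [uFinS, vFin]
  calc HahnSeries.C (((q : ℂ)⁻¹) ^ 12) * scale (zetaC q ^ b.val) (DeltaC ℂ) *
        qExpand ℂ q (DeltaInvC ℂ) * HahnSeries.C ((q : ℂ) ^ 12)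
      = (HahnSeries.C (((q : ℂ)⁻¹) ^ 12) * HahnSeries.C ((q : ℂ) ^ 12)) *
        (scale (zetaC q ^ b.val) (DeltaC ℂ) * qExpand ℂ q (DeltaInvC ℂ)) := by ring
    _ = _ := by rw [h1, one_mul]

/-- **The rescaled modular-unit polynomial over the algebraic integers.** -/
theorem exists_PsiO : ∃ Ψ : OC[X][X], Ψ.Monic ∧ Ψ.natDegree = q + 1 ∧
    evY (J (1 : OCˣ) q) Ψ = (X - C (tInf q OC)) *
      ∏ b ∈ Finset.range q, (X - C (vFin q (zetaO q) b)) := by
  obtain ⟨-, Ψ, -, -, -, hΨm, hΨd, -, h2, -⟩ := exists_modEq_complex q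
  set c : ℂ[X] := Polynomial.C ((q : ℂ) ^ 12) with hc
  set Ψs : ℂ[X][X] := Ψ.scaleRoots c with hΨs
  have hΨsm : Ψs.Monic := (monic_scaleRoots_iff c).mpr hΨm
  have hΨsd : Ψs.natDegree = q + 1 := by rw [hΨs, natDegree_scaleRoots, hΨd]
  set ι := coeffMap OC.subtype with hι
  have hinj : Function.Injective (Polynomial.map ι) :=
    Polynomial.map_injective _ (coeffMap_subtype_injective OC)
  -- the identity over `ℂ`
  have h3 : evY (J (1 : ℂˣ) q) Ψs = (X - C (tInf q ℂ)) *
      ∏ b ∈ Finset.range q, (X - C (vFin q (zetaC q) b)) := by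
    have hlc : (Polynomial.eval₂RingHom (HahnSeries.C : ℂ →+* LaurentSeries ℂ) (J (1 : ℂˣ) q))
        Ψ.leadingCoeff ≠ 0 := by
      rw [hΨm.leadingCoeff, map_one]; exact one_ne_zero
    rw [hΨs, evY_apply, map_scaleRoots _ _ _ hlc, ← evY_apply, h2, hc,
      Polynomial.coe_eval₂RingHom, Polynomial.eval₂_C, prod_X_sub_C_scaleRoots,
      Fintype.prod_option, sU_none_mul]
    congr 1
    simp_rw [sU_some_mul]
    exact prod_zmod_val q fun n => X - C (vFin q (zetaC q) n)
  -- the right-hand side comes from `OC`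
  have e : (X - C (tInf q ℂ)) * ∏ b ∈ Finset.range q, (X - C (vFin q (zetaC q) b)) =
      ((X - C (tInf q OC)) * ∏ b ∈ Finset.range q, (X - C (vFin q (zetaO q) b))).map ι := by
    rw [Polynomial.map_mul, Polynomial.map_prod]
    simp only [Polynomial.map_sub, Polynomial.map_X, Polynomial.map_C, hι, coeffMap_tInf,
      coeffMap_vFin, zetaO, map_zetaA]
  have hJ : ι (J (1 : OCˣ) q) = J (1 : ℂˣ) q := by rw [hι, coeffMap_J, map_one]
  have hl : Ψs ∈ Polynomial.lifts (Polynomial.mapRingHom OC.subtype) :=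
    mem_lifts_of_evY_coeff_mem q OC Ψs fun n => by
      rw [h3, e, Polynomial.coeff_map]
      exact ⟨_, rfl⟩
  obtain ⟨Ψ', hΨ'0⟩ := hl
  have hΨ' : Ψ'.map (Polynomial.mapRingHom OC.subtype) = Ψs := hΨ'0
  have hΨ'm : Ψ'.Monic := by
    rw [← hΨ'] at hΨsm
    exact Polynomial.monic_of_injective
      (Polynomial.map_injective _ Subtype.val_injective) hΨsm
  have hΨ'd : Ψ'.natDegree = q + 1 := by
    rw [← hΨsd, ← hΨ', hΨ'm.natDegree_map]
  refine ⟨Ψ', hΨ'm, hΨ'd, hinj ?_⟩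
  rw [← e, ← h3, ← hΨ', ← hJ]
  exact (evY_map OC.subtype (J (1 : OCˣ) q) Ψ').symm

end Complex

/-! ### Orders and leading coefficients over a domain -/

section Domain

variable {D : Type*} [CommRing D] [IsDomain D] (q : ℕ) [NeZero q]

theorem DeltaC_lead : (DeltaC D).order = 1 ∧ (DeltaC D).leadingCoeff = 1 := by
  refine ⟨order_DeltaC D, ?_⟩
  rw [HahnSeries.leadingCoeff_eq, order_DeltaC, coeff_DeltaC_one]

theorem DeltaInvC_lead : (DeltaInvC D).order = -1 ∧ (DeltaInvC D).leadingCoeff = 1 := by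
  refine ⟨order_DeltaInvC D, ?_⟩
  rw [HahnSeries.leadingCoeff_eq, order_DeltaInvC, coeff_DeltaInvC_neg_one]

theorem qExpand_lead (f : LaurentSeries D) :
    (qExpand D q f).order = (q : ℤ) * f.order ∧
      (qExpand D q f).leadingCoeff = f.leadingCoeff := by
  rw [← subst_one_unit, order_subst, leadingCoeff_subst, one_zpow, Units.val_one, one_mul]
  exact ⟨rfl, rfl⟩

theorem qExpand_ne_zero' {f : LaurentSeries D} (hf : f ≠ 0) : qExpand D q f ≠ 0 := by
  rw [← subst_one_unit]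
  exact (subst_eq_zero_iff _ _).not.2 hf

theorem scale_lead (c : Dˣ) (f : LaurentSeries D) :
    (scale c f).order = f.order ∧
      (scale c f).leadingCoeff = ((c ^ f.order : Dˣ) : D) * f.leadingCoeff := by
  refine ⟨order_scale c f, ?_⟩
  rw [HahnSeries.leadingCoeff_eq, HahnSeries.leadingCoeff_eq, order_scale, scale_coeff]

theorem scale_ne_zero (c : Dˣ) {f : LaurentSeries D} (hf : f ≠ 0) : scale c f ≠ 0 :=
  fun h => hf (scale_injective c (by rw [h, map_zero]))

theorem vFin_ne_zero (ζ : Dˣ) (b : ℕ) : vFin q ζ b ≠ 0 :=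
  mul_ne_zero (scale_ne_zero _ (DeltaC_ne_zero D)) (qExpand_ne_zero' q (DeltaInvC_ne_zero D))

theorem vFin_lead (ζ : Dˣ) (b : ℕ) :
    (vFin q ζ b).order = 1 - (q : ℤ) ∧ (vFin q ζ b).leadingCoeff = ((ζ ^ b : Dˣ) : D) := by
  have h1 := scale_lead (ζ ^ b) (DeltaC D)
  have h2 := qExpand_lead q (DeltaInvC D)
  rw [(DeltaC_lead).1, (DeltaC_lead).2, zpow_one, mul_one] at h1
  rw [(DeltaInvC_lead).1, (DeltaInvC_lead).2] at h2
  refine ⟨?_, ?_⟩
  · rw [vFin, HahnSeries.order_mul (scale_ne_zero _ (DeltaC_ne_zero D))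
      (qExpand_ne_zero' q (DeltaInvC_ne_zero D)), h1.1, h2.1]
    ring
  · rw [vFin, HahnSeries.leadingCoeff_mul, h1.2, h2.2, mul_one]

theorem uInfS_ne_zero' : uInfS D q ≠ 0 :=
  mul_ne_zero (qExpand_ne_zero' (q * q) (DeltaC_ne_zero D)) (qExpand_ne_zero' q (DeltaInvC_ne_zero D))

theorem uInfS_lead :
    (uInfS D q).order = (q : ℤ) * q - q ∧ (uInfS D q).leadingCoeff = 1 := by
  have h1 := qExpand_lead (q * q) (DeltaC D)
  have h2 := qExpand_lead q (DeltaInvC D)
  rw [(DeltaC_lead).1, (DeltaC_lead).2] at h1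
  rw [(DeltaInvC_lead).1, (DeltaInvC_lead).2] at h2
  refine ⟨?_, ?_⟩
  · rw [uInfS, HahnSeries.order_mul (qExpand_ne_zero' (q * q) (DeltaC_ne_zero D))
      (qExpand_ne_zero' q (DeltaInvC_ne_zero D)), h1.1, h2.1]
    push_cast
    ring
  · rw [uInfS, HahnSeries.leadingCoeff_mul, h1.2, h2.2, mul_one]

/-- The product of the finite conjugates `v_b`. -/
theorem prod_vFin_lead (ζ : Dˣ) (n : ℕ) :
    (∏ b ∈ Finset.range n, vFin q ζ b) ≠ 0 ∧
    (∏ b ∈ Finset.range n, vFin q ζ b).order = (n : ℤ) * (1 - (q : ℤ)) ∧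
    (∏ b ∈ Finset.range n, vFin q ζ b).leadingCoeff =
      ((∏ b ∈ Finset.range n, ζ ^ b : Dˣ) : D) := by
  induction n with
  | zero =>
    refine ⟨by simp, by simp, by simp⟩
  | succ n ih =>
    obtain ⟨ih0, ih1, ih2⟩ := ih
    rw [Finset.prod_range_succ, Finset.prod_range_succ]
    refine ⟨mul_ne_zero ih0 (vFin_ne_zero q ζ n), ?_, ?_⟩
    · rw [HahnSeries.order_mul ih0 (vFin_ne_zero q ζ n), ih1, (vFin_lead q ζ n).1]
      push_cast
      ring
    · rw [HahnSeries.leadingCoeff_mul, ih2, (vFin_lead q ζ n).2, Units.val_mul]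

/-- `u_∞ ∏_b v_b` has order `0` and leading coefficient `∏_b ζ^b`. -/
theorem uInfS_mul_prod_vFin_lead (ζ : Dˣ) :
    (uInfS D q * ∏ b ∈ Finset.range q, vFin q ζ b).order = 0 ∧
    (uInfS D q * ∏ b ∈ Finset.range q, vFin q ζ b).leadingCoeff =
      ((∏ b ∈ Finset.range q, ζ ^ b : Dˣ) : D) := by
  obtain ⟨h0, h1, h2⟩ := prod_vFin_lead q ζ q
  refine ⟨?_, ?_⟩
  · rw [HahnSeries.order_mul (uInfS_ne_zero' q) h0, (uInfS_lead q).1, h1]
    ring
  · rw [HahnSeries.leadingCoeff_mul, (uInfS_lead q).2, h2, one_mul]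

/-- A polynomial in `j(s^q)` of order `0` is a constant. -/
theorem eval₂_J_eq_C_of_order_eq_zero (c : D[X])
    (h : (Polynomial.eval₂ (HahnSeries.C : D →+* LaurentSeries D) (J (1 : Dˣ) q) c).order = 0) :
    Polynomial.eval₂ (HahnSeries.C : D →+* LaurentSeries D) (J (1 : Dˣ) q) c =
      HahnSeries.C ((Polynomial.eval₂ (HahnSeries.C : D →+* LaurentSeries D)
        (J (1 : Dˣ) q) c).leadingCoeff) := by
  have hq0 : (0 : ℤ) < (q : ℤ) := by exact_mod_cast Nat.pos_of_ne_zero (NeZero.ne q)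
  have hdeg : c.natDegree = 0 := by
    by_contra hd
    have hd' : 0 < c.natDegree := Nat.pos_of_ne_zero hd
    have h1 := coeff_eval₂_J q c le_rfl
    have hlt : -((q : ℤ) * (c.natDegree : ℕ)) < 0 := by
      have : (0 : ℤ) < (c.natDegree : ℤ) := by exact_mod_cast hd'
      nlinarith
    rw [HahnSeries.coeff_eq_zero_of_lt_order (by rw [h]; exact hlt)] at h1
    have hc0 : c = 0 := Polynomial.leadingCoeff_eq_zero.mp h1.symm
    rw [hc0] at hd
    exact hd rfl
  have h1 := coeff_eval₂_J q c (le_of_eq hdeg)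
  rw [HahnSeries.leadingCoeff_eq, h]
  simp only [Nat.cast_zero, mul_zero, neg_zero] at h1
  rw [h1]
  conv_lhs => rw [Polynomial.eq_C_of_natDegree_eq_zero hdeg, Polynomial.eval₂_C]

end Domain

/-! ### Integrality over the algebraic integers -/

section IntegralOC

variable (q : ℕ) [hq : Fact q.Prime]

local instance neZero_q₅ : NeZero q := ⟨hq.out.ne_zero⟩

/-- The unit `ε = ∏_b ζ^b` (it is `±1`). -/
def epsO : OCˣ := ∏ b ∈ Finset.range q, zetaO q ^ b

theorem natCast_OC_ne_zero : ((q : ℕ) : OC) ≠ 0 := by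
  intro h
  have h1 : ((q : ℕ) : ℂ) = 0 := by
    have := congrArg (fun x : OC => (x : ℂ)) h
    simpa using this
  exact hq.out.ne_zero (Nat.cast_eq_zero.mp h1)

theorem qExpand_TKinv' (C : Type*) [CommRing C] : qExpand C q (TKinv C q) = uInfS C q := by
  rw [TKinv, map_mul, ModularCurve.qExpand_qExpand, uInfS, mul_comm]

theorem qExpand_TK_mul_uInfS (C : Type*) [CommRing C] : qExpand C q (TK C q) * uInfS C q = 1 := by
  rw [← qExpand_TKinv', ← map_mul, TK_mul_TKinv, map_one]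

/-- **The product formula**, obtained from the constant term of `Ψ♯`:
`u_∞ ∏_b v_b = ε`. -/
theorem uInfS_mul_prod_vFin :
    uInfS OC q * ∏ b ∈ Finset.range q, vFin q (zetaO q) b =
      HahnSeries.C ((epsO q : OCˣ) : OC) := by
  obtain ⟨Ψ, -, -, hΨ⟩ := exists_PsiO q
  set N := ∏ b ∈ Finset.range q, vFin q (zetaO q) b with hN
  set sgn : OC := (-1) ^ (q + 1) with hsgn
  have hsgn2 : sgn * sgn = 1 := by
    rw [hsgn, ← pow_add, ← two_mul, pow_mul]; simp
  have hq12 : ((q : OC) ^ 12) ≠ 0 := pow_ne_zero _ (natCast_OC_ne_zero q)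
  have hCq : (HahnSeries.C ((q : OC) ^ 12) : LaurentSeries OC) ≠ 0 := by
    intro h
    exact hq12 (HahnSeries.C_injective (by rw [h, map_zero]))
  -- constant terms
  have h0 := congrArg (fun P => P.eval 0) hΨ
  simp only [Polynomial.eval_mul, Polynomial.eval_sub, Polynomial.eval_X, Polynomial.eval_C,
    Polynomial.eval_prod, zero_sub] at h0
  rw [Finset.prod_neg, Finset.card_range, ← hN, ← Polynomial.coeff_zero_eq_eval_zero, evY_apply,
    Polynomial.coeff_map, Polynomial.coe_eval₂RingHom] at h0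
  -- `W = t N` is a polynomial in `j(s^q)`
  have hW : Polynomial.eval₂ (HahnSeries.C : OC →+* LaurentSeries OC) (J (1 : OCˣ) q)
      (Polynomial.C sgn * Ψ.coeff 0) = tInf q OC * N := by
    rw [Polynomial.eval₂_mul, Polynomial.eval₂_C, h0]
    have : (HahnSeries.C sgn : LaurentSeries OC) * HahnSeries.C sgn = 1 := by
      rw [← map_mul, hsgn2, map_one]
    calc HahnSeries.C sgn * (-tInf q OC * ((-1) ^ q * N))
        = (HahnSeries.C sgn * ((-1) ^ (q + 1))) * (tInf q OC * N) := by ring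
      _ = (HahnSeries.C sgn * HahnSeries.C sgn) * (tInf q OC * N) := by
          rw [hsgn, map_pow, map_neg, map_one]
      _ = tInf q OC * N := by rw [this, one_mul]
  have hUN := uInfS_mul_prod_vFin_lead (D := OC) q (zetaO q)
  rw [← hN] at hUN
  have hUN0 : uInfS OC q * N ≠ 0 :=
    mul_ne_zero (uInfS_ne_zero' q) (prod_vFin_lead q (zetaO q) q).1
  have hWeq : tInf q OC * N = HahnSeries.C ((q : OC) ^ 12) * (uInfS OC q * N) := by
    rw [tInf, mul_assoc]
  have hord : (tInf q OC * N).order = 0 := by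
    rw [hWeq, HahnSeries.order_mul hCq hUN0, HahnSeries.order_C, hUN.1, add_zero]
  have hlead : (tInf q OC * N).leadingCoeff = (q : OC) ^ 12 * ((epsO q : OCˣ) : OC) := by
    rw [hWeq, HahnSeries.leadingCoeff_mul, hUN.2, HahnSeries.C_apply,
      HahnSeries.leadingCoeff_of_single, epsO]
  have hconst := eval₂_J_eq_C_of_order_eq_zero q (Polynomial.C sgn * Ψ.coeff 0)
    (by rw [hW]; exact hord)
  rw [hW, hlead, map_mul, hWeq] at hconst
  exact mul_left_cancel₀ hCq hconst

/-- `T(s^q) = ε⁻¹ ∏_b Δ(ζ^b s)/Δ(s^q)`. -/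
theorem qExpand_TK_eq_prod :
    qExpand OC q (TK OC q) = HahnSeries.C (((epsO q)⁻¹ : OCˣ) : OC) *
      ∏ b ∈ Finset.range q, vFin q (zetaO q) b := by
  have h1 := qExpand_TK_mul_uInfS q OC
  have h2 := uInfS_mul_prod_vFin q
  have h3 : (HahnSeries.C (((epsO q)⁻¹ : OCˣ) : OC) : LaurentSeries OC) *
      HahnSeries.C ((epsO q : OCˣ) : OC) = 1 := by
    rw [← map_mul, ← Units.val_mul, inv_mul_cancel, Units.val_one, map_one]
  calc qExpand OC q (TK OC q)
      = HahnSeries.C (((epsO q)⁻¹ : OCˣ) : OC) *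
          ((qExpand OC q (TK OC q) * uInfS OC q) *
            ∏ b ∈ Finset.range q, vFin q (zetaO q) b) := by
        rw [mul_assoc (qExpand OC q (TK OC q)), h2, mul_comm (qExpand OC q (TK OC q)),
          ← mul_assoc, h3, one_mul]
    _ = _ := by rw [h1, one_mul]

/-- `T` is integral over `OC[j]`. -/
theorem exists_monic_TK_OC : ∃ g : OC[X][X], g.Monic ∧
    (evY (J (1 : OCˣ) 1) g).eval (TK OC q) = 0 := by
  obtain ⟨Ψ, hΨm, -, hΨ⟩ := exists_PsiO q
  set f : OC[X] →+* LaurentSeries OC :=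
    Polynomial.eval₂RingHom (HahnSeries.C : OC →+* LaurentSeries OC) (J (1 : OCˣ) q) with hf
  have hv : ∀ b ∈ Finset.range q, f.IsIntegralElem (vFin q (zetaO q) b) := by
    intro b hb
    refine ⟨Ψ, hΨm, ?_⟩
    rw [← Polynomial.eval_map]
    change (evY (J (1 : OCˣ) q) Ψ).eval (vFin q (zetaO q) b) = 0
    rw [hΨ, Polynomial.eval_mul, Polynomial.eval_prod, Finset.prod_eq_zero hb (by simp), mul_zero]
  have hN : ∀ n ≤ q, f.IsIntegralElem (∏ b ∈ Finset.range n, vFin q (zetaO q) b) := by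
    intro n
    induction n with
    | zero => intro _; rw [Finset.prod_range_zero]; exact f.isIntegralElem_one
    | succ n ih =>
      intro hn
      rw [Finset.prod_range_succ]
      exact RingHom.IsIntegralElem.mul f (ih (Nat.le_of_succ_le hn))
        (hv n (Finset.mem_range.mpr hn))
  have hC : f.IsIntegralElem (HahnSeries.C (((epsO q)⁻¹ : OCˣ) : OC)) := by
    have : (HahnSeries.C (((epsO q)⁻¹ : OCˣ) : OC) : LaurentSeries OC) =
        f (Polynomial.C (((epsO q)⁻¹ : OCˣ) : OC)) := by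
      rw [hf, Polynomial.coe_eval₂RingHom, Polynomial.eval₂_C]
    rw [this]
    exact f.isIntegralElem_map
  have hT : f.IsIntegralElem (qExpand OC q (TK OC q)) := by
    rw [qExpand_TK_eq_prod]
    exact RingHom.IsIntegralElem.mul f hC (hN q le_rfl)
  obtain ⟨g, hgm, hg⟩ := hT
  refine ⟨g, hgm, evY_eval_eq_zero_of_qExpand q ?_⟩
  rw [evY_apply, Polynomial.eval_map]
  exact hg

/-- `T' = q^12/T` is integral over `OC[j]`. -/
theorem exists_monic_TKinv_OC : ∃ g : OC[X][X], g.Monic ∧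
    (evY (J (1 : OCˣ) 1) g).eval (HahnSeries.C ((q : OC) ^ 12) * TKinv OC q) = 0 := by
  obtain ⟨Ψ, hΨm, -, hΨ⟩ := exists_PsiO q
  refine ⟨Ψ, hΨm, evY_eval_eq_zero_of_qExpand q ?_⟩
  rw [map_mul, qExpand_C, qExpand_TKinv', hΨ, Polynomial.eval_mul]
  have : Polynomial.eval (HahnSeries.C ((q : OC) ^ 12) * uInfS OC q) (X - C (tInf q OC)) = 0 := by
    rw [tInf]; simp
  rw [this, zero_mul]

end IntegralOC

/-! ### Descent from the algebraic integers to `ℤ` -/

section Descent

theorem isIntegralElem_comp {R A B : Type*} [CommRing R] [CommRing A] [CommRing B]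
    (f : R →+* A) (g : A →+* B) (hf : f.IsIntegral) {x : B} (hx : g.IsIntegralElem x) :
    (g.comp f).IsIntegralElem x := by
  letI := f.toAlgebra
  letI := g.toAlgebra
  letI := (g.comp f).toAlgebra
  haveI : IsScalarTower R A B := IsScalarTower.of_algebraMap_eq (fun _ => rfl)
  haveI : Algebra.IsIntegral R A := ⟨hf⟩
  exact isIntegral_trans x hx

theorem isIntegral_int_OC : Algebra.IsIntegral ℤ OC := by
  refine ⟨fun x => ?_⟩
  obtain ⟨p, hp, hpx⟩ := (x.2 : IsIntegral ℤ (x : ℂ))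
  refine ⟨p, hp, Subtype.ext ?_⟩
  have h := Polynomial.hom_eval₂ p (algebraMap ℤ OC) OC.subtype x
  have h2 : OC.subtype.comp (algebraMap ℤ OC) = algebraMap ℤ ℂ := RingHom.ext_int _ _
  rw [h2] at h
  change OC.subtype (Polynomial.eval₂ (algebraMap ℤ OC) x p) = 0
  rw [h]
  exact hpx

attribute [local instance] Polynomial.algebra in
theorem mapRingHom_int_OC_isIntegral :
    (Polynomial.mapRingHom (algebraMap ℤ OC)).IsIntegral := by
  haveI := isIntegral_int_OC
  exact fun x => Algebra.IsIntegral.isIntegral (R := ℤ[X]) x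

theorem coeffMap_intCast_OC_injective :
    Function.Injective (coeffMap (Int.castRingHom OC)) := by
  intro x y h
  ext n
  have h1 := congrArg (fun z => z.coeff n) h
  simp only [coeffMap_coeff] at h1
  have h2 : Function.Injective (Int.castRingHom OC) := by
    intro a b hab
    have := congrArg (fun z : OC => (z : ℂ)) hab
    simpa using this
  exact h2 h1

/-- A series over `ℤ` which is integral over `OC[j]` is integral over `ℤ[j]`. -/
theorem exists_monic_int_of_OC (x : LaurentSeries ℤ) (g : OC[X][X]) (hg : g.Monic)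
    (h : (evY (J (1 : OCˣ) 1) g).eval (coeffMap (Int.castRingHom OC) x) = 0) :
    ∃ G : ℤ[X][X], G.Monic ∧ (evY (J (1 : ℤˣ) 1) G).eval x = 0 := by
  set φ : ℤ →+* OC := Int.castRingHom OC with hφ
  have hφ' : algebraMap ℤ OC = φ := RingHom.ext_int _ _
  set f₁ : OC[X] →+* LaurentSeries OC :=
    Polynomial.eval₂RingHom (HahnSeries.C : OC →+* LaurentSeries OC) (J (1 : OCˣ) 1) with hf₁
  have hx : f₁.IsIntegralElem (coeffMap φ x) := by
    refine ⟨g, hg, ?_⟩
    rw [← Polynomial.eval_map]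
    exact h
  have hint : (Polynomial.mapRingHom φ).IsIntegral := by
    rw [← hφ']; exact mapRingHom_int_OC_isIntegral
  obtain ⟨G, hGm, hG⟩ := isIntegralElem_comp (Polynomial.mapRingHom φ) f₁ hint hx
  refine ⟨G, hGm, coeffMap_intCast_OC_injective ?_⟩
  rw [map_zero, ← hG, ← Polynomial.eval_map_apply, ← evY_map, coeffMap_J, map_one,
    ← Polynomial.eval₂_map, evY_apply, Polynomial.eval_map]

end Descent

/-! ### The final statements -/

section Final

variable (q : ℕ) [hq : Fact q.Prime]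

local instance neZero_q₆ : NeZero q := ⟨hq.out.ne_zero⟩

theorem exists_monic_TK_int : ∃ G : ℤ[X][X], G.Monic ∧
    (evY (J (1 : ℤˣ) 1) G).eval (TK ℤ q) = 0 := by
  obtain ⟨g, hg, h⟩ := exists_monic_TK_OC q
  exact exists_monic_int_of_OC (TK ℤ q) g hg (by rw [coeffMap_TK]; exact h)

theorem exists_monic_TKinv_int : ∃ G : ℤ[X][X], G.Monic ∧
    (evY (J (1 : ℤˣ) 1) G).eval (HahnSeries.C ((q : ℤ) ^ 12) * TKinv ℤ q) = 0 := by
  obtain ⟨g, hg, h⟩ := exists_monic_TKinv_OC q
  refine exists_monic_int_of_OC _ g hg ?_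
  rw [map_mul, coeffMap_TKinv, coeffMap_HC, map_pow, map_natCast]
  exact h

/-- A monic polynomial `G(X, Y) ∈ ℤ[Y][X]` with `G(T, j) = 0`. -/
def TKPoly : ℤ[X][X] := Classical.choose (exists_monic_TK_int q)

theorem TKPoly_monic : (TKPoly q).Monic := (Classical.choose_spec (exists_monic_TK_int q)).1

/-- A monic polynomial `G'(X, Y) ∈ ℤ[Y][X]` with `G'(q^12/T, j) = 0`. -/
def TKinvPoly : ℤ[X][X] := Classical.choose (exists_monic_TKinv_int q)

theorem TKinvPoly_monic : (TKinvPoly q).Monic :=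
  (Classical.choose_spec (exists_monic_TKinv_int q)).1

/-- **B6.4 (c).** `T = Δ(s)/Δ(s^q)` is integral over `ℤ[j]`, over any coefficient ring. -/
theorem TKPoly_eval (R : Type*) [CommRing R] :
    (evY (jqModC R) ((TKPoly q).map (Polynomial.mapRingHom (Int.castRingHom R)))).eval
      (TK R q) = 0 := by
  have h := (Classical.choose_spec (exists_monic_TK_int q)).2
  have h2 := congrArg (coeffMap (Int.castRingHom R)) h
  rw [map_zero, ← Polynomial.eval_map_apply, ← evY_map, coeffMap_J, map_one, J_one_one,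
    coeffMap_TK] at h2
  exact h2

/-- **B6.4 (c).** `T' = q^12 Δ(s^q)/Δ(s) = q^12/T` is integral over `ℤ[j]`, over any coefficient
ring. -/
theorem TKinvPoly_eval (R : Type*) [CommRing R] :
    (evY (jqModC R) ((TKinvPoly q).map (Polynomial.mapRingHom (Int.castRingHom R)))).eval
      (HahnSeries.C ((q : R) ^ 12) * TKinv R q) = 0 := by
  have h := (Classical.choose_spec (exists_monic_TKinv_int q)).2
  have h2 := congrArg (coeffMap (Int.castRingHom R)) h
  rw [map_zero, ← Polynomial.eval_map_apply, ← evY_map, coeffMap_J, map_one, J_one_one,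
    map_mul, coeffMap_TKinv, coeffMap_HC, map_pow, map_natCast] at h2
  exact h2

/-! ### Portable form: double evaluation of a polynomial in `ℤ[Y][X]` -/

/-- `G(x, j)` for `G ∈ ℤ[Y][X]` (outer variable `X ↦ x`, inner variable `Y ↦ j`) in any
commutative ring. -/
def ev2Z {S : Type*} [CommRing S] (j x : S) (G : ℤ[X][X]) : S :=
  Polynomial.eval₂ (Polynomial.eval₂RingHom (Int.castRingHom S) j) x G

theorem map_ev2Z {S S' : Type*} [CommRing S] [CommRing S'] (φ : S →+* S') (j x : S)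
    (G : ℤ[X][X]) : φ (ev2Z j x G) = ev2Z (φ j) (φ x) G := by
  rw [ev2Z, ev2Z, Polynomial.hom_eval₂]
  congr 1
  apply Polynomial.ringHom_ext
  · intro n; simp
  · simp

theorem isIntegralElem_of_ev2Z {S : Type*} [CommRing S] {j x : S} {G : ℤ[X][X]} (hG : G.Monic)
    (h : ev2Z j x G = 0) :
    (Polynomial.eval₂RingHom (Int.castRingHom S) j).IsIntegralElem x :=
  ⟨G, hG, h⟩

/-- `G(x, j) = 0` with `G` monic makes `x` integral over `ℤ[j]`. -/
theorem isIntegral_adjoin_of_ev2Z {S : Type*} [CommRing S] {j x : S} {G : ℤ[X][X]}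
    (hG : G.Monic) (h : ev2Z j x G = 0) : IsIntegral (Algebra.adjoin ℤ {j}) x := by
  set jA : Algebra.adjoin ℤ ({j} : Set S) := ⟨j, Algebra.subset_adjoin rfl⟩ with hjA
  refine ⟨G.map (Polynomial.eval₂RingHom (Int.castRingHom _) jA), hG.map _, ?_⟩
  rw [Polynomial.eval₂_map, ← h, ev2Z]
  congr 1
  apply Polynomial.ringHom_ext
  · intro n; simp
  · simp [hjA]

theorem evY_eval_eq_ev2Z (R : Type*) [CommRing R] (j x : LaurentSeries R) (G : ℤ[X][X]) :
    (evY j (G.map (Polynomial.mapRingHom (Int.castRingHom R)))).eval x = ev2Z j x G := by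
  rw [evY_apply, Polynomial.eval_map, Polynomial.eval₂_map, ev2Z]
  congr 1
  apply Polynomial.ringHom_ext
  · intro n; simp
  · simp

/-- **B6.4 (c)**, portable form: `TKPoly(T, j) = 0`. -/
theorem ev2Z_TKPoly (R : Type*) [CommRing R] : ev2Z (jqModC R) (TK R q) (TKPoly q) = 0 := by
  rw [← evY_eval_eq_ev2Z]; exact TKPoly_eval q R

/-- **B6.4 (c)**, portable form: `TKinvPoly(q^12/T, j) = 0`. -/
theorem ev2Z_TKinvPoly (R : Type*) [CommRing R] :
    ev2Z (jqModC R) (HahnSeries.C ((q : R) ^ 12) * TKinv R q) (TKinvPoly q) = 0 := by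
  rw [← evY_eval_eq_ev2Z]; exact TKinvPoly_eval q R

end Final

end Fermat.Agent.BR.ModUnit
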