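import Fermat.Agent.BR.ModUnitInt

/-!
# Program B, block B6.4 (d): `T̄ = Δ̄^(1-q)` is a monic polynomial of degree `q - 1` in `j̄`

Kronecker's congruence for the modular-unit polynomial: modulo a maximal ideal `𝔪 ∋ q` of the ring
`OC` of algebraic integers, `ζ ≡ 1` and `q^12 u_∞ ≡ 0`, so
`Ψ♯(X, j̄(s^q)) = X (X - T̄(s))^q = X (X^q - T̄(s^q))`.  Comparing the coefficients of `X`:
`T̄(s) = -ψ̄₁(j̄(s))`.  The coefficients of `-ψ̄₁` lie in the prime field (`Igusa.coeff_mem_of_eval₂_J_mem`).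

* `TbarPoly q : (ZMod q)[X]`, `TbarPoly_monic`, `TbarPoly_natDegree : natDegree = q - 1`;
* `TbarPoly_eval₂ R [CharP R q]` : `(TbarPoly q)(j̄) = T̄ = Δ̄(s)/Δ̄(s^q)` in `R((s))`;
* `TbarPoly_aeval k` for a field `k` with `[Algebra (ZMod q) k]`;
* `exists_root_TbarPoly` : over an algebraically closed field of characteristic `q` (`q ≥ 2`) the
  polynomial has a root.
-/

set_option autoImplicit false
set_option linter.unusedSectionVars false
set_option linter.style.haveILetI false

noncomputable section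

namespace Fermat.Agent.BR.ModUnit

open ModularCurve Polynomial Fermat.Agent.Igusa

section Unexpand1

variable {C : Type*} [CommRing C] (q : ℕ) [NeZero q]

theorem qExpand_J_one_one : qExpand C q (J (1 : Cˣ) 1) = J (1 : Cˣ) q := by
  rw [← subst_one_unit, subst_J]
  simp

theorem eval₂_J_eq_qExpand (c : C[X]) :
    Polynomial.eval₂ (HahnSeries.C : C →+* LaurentSeries C) (J (1 : Cˣ) q) c =
      qExpand C q (Polynomial.eval₂ (HahnSeries.C : C →+* LaurentSeries C) (J (1 : Cˣ) 1) c) := by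
  rw [Polynomial.hom_eval₂, qExpand_J_one_one]
  congr 1
  ext r : 1
  simp

end Unexpand1

section ModM

variable (q : ℕ) [hq : Fact q.Prime]

local instance neZero_q₇ : NeZero q := ⟨hq.out.ne_zero⟩

/-- A maximal ideal of the algebraic integers containing `q`. -/
theorem exists_maximal_OC : ∃ 𝔪 : Ideal OC, 𝔪.IsMaximal ∧ ((q : ℕ) : OC) ∈ 𝔪 := by
  haveI := isIntegral_int_OC
  haveI : (Ideal.span {(q : ℤ)}).IsMaximal :=
    PrincipalIdealRing.isMaximal_of_irreducible (Nat.prime_iff_prime_int.mp hq.out).irreducible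
  have hker : RingHom.ker (algebraMap ℤ OC) ≤ Ideal.span {(q : ℤ)} := by
    intro n hn
    rw [RingHom.mem_ker] at hn
    have h1 : ((n : ℤ) : ℂ) = 0 := by
      have := congrArg (fun x : OC => (x : ℂ)) hn
      simpa using this
    rw [Int.cast_eq_zero.mp h1]
    exact Ideal.zero_mem _
  obtain ⟨𝔪, hmax, hcomap⟩ :=
    Ideal.exists_ideal_over_maximal_of_isIntegral (S := OC) (Ideal.span {(q : ℤ)}) hker
  refine ⟨𝔪, hmax, ?_⟩
  have h1 : (q : ℤ) ∈ 𝔪.comap (algebraMap ℤ OC) := by
    rw [hcomap]; exact Ideal.mem_span_singleton_self _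
  rw [Ideal.mem_comap] at h1
  simpa using h1

/-- Kronecker's congruence for `Ψ♯`: under a ring hom `ρ : OC → k` into a field of characteristic
`q`, `T̄ = -ψ̄₁(j̄)`. -/
theorem eval₂_neg_coeff_one {k : Type*} [Field k] [CharP k q] (ρ : OC →+* k) (Ψ : OC[X][X])
    (hΨ : evY (J (1 : OCˣ) q) Ψ = (X - C (tInf q OC)) *
      ∏ b ∈ Finset.range q, (X - C (vFin q (zetaO q) b))) :
    Polynomial.eval₂ (HahnSeries.C : k →+* LaurentSeries k) (J (1 : kˣ) 1)
      (-((Ψ.map (Polynomial.mapRingHom ρ)).coeff 1)) = TK k q := by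
  have hq0 : ((q : ℕ) : k) = 0 := CharP.cast_eq_zero k q
  -- `ζ ≡ 1`
  have hζ1 : Units.map (ρ : OC →* k) (zetaO q) = 1 := by
    have h1 : (zetaO q) ^ q = 1 := (isPrimitiveRoot_zetaA q (zetaC_mem_OC q)).pow_eq_one
    have h2 : (Units.map (ρ : OC →* k) (zetaO q)) ^ q = 1 := by rw [← map_pow, h1, map_one]
    set z : kˣ := Units.map (ρ : OC →* k) (zetaO q) with hz
    have h3 : ((z : k) - 1) ^ q = 0 := by
      rw [sub_pow_char, one_pow, ← Units.val_pow_eq_pow_val, h2, Units.val_one, sub_self]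
    have h4 : (z : k) - 1 = 0 := pow_eq_zero_iff hq.out.ne_zero |>.mp h3
    exact Units.ext (sub_eq_zero.mp h4)
  have htInf : tInf q k = 0 := by rw [tInf, hq0, zero_pow (by norm_num), map_zero, zero_mul]
  have hvFin : ∀ b, vFin q (1 : kˣ) b = TK k q := by
    intro b
    rw [vFin, one_pow, scale_one_apply, TK]
  -- the reduction of `Ψ♯(X, j(s^q))`
  have h1 : evY (J (1 : kˣ) q) (Ψ.map (Polynomial.mapRingHom ρ)) =
      X * (X ^ q - C (qExpand k q (TK k q))) := by
    have h := congrArg (Polynomial.map (coeffMap ρ)) hΨ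
    rw [← evY_map, coeffMap_J, map_one] at h
    rw [h, Polynomial.map_mul, Polynomial.map_prod]
    simp only [Polynomial.map_sub, Polynomial.map_X, Polynomial.map_C, coeffMap_tInf,
      coeffMap_vFin, hζ1, htInf, hvFin, map_zero, sub_zero, Finset.prod_const, Finset.card_range]
    rw [sub_pow_char, ← C_pow, qExpand_TK_char]
  -- the coefficient of `X`
  have h2 := congrArg (fun P => P.coeff 1) h1
  simp only [evY_apply, Polynomial.coeff_map, Polynomial.coe_eval₂RingHom] at h2
  have h3 : (X * (X ^ q - C (qExpand k q (TK k q))) : (LaurentSeries k)[X]).coeff 1 =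
      -qExpand k q (TK k q) := by
    rw [Polynomial.coeff_X_mul, Polynomial.coeff_sub, Polynomial.coeff_X_pow,
      Polynomial.coeff_C_zero, if_neg (Ne.symm hq.out.ne_zero), zero_sub]
  rw [h3, eval₂_J_eq_qExpand] at h2
  rw [Polynomial.eval₂_neg]
  apply qExpand_injective (R := k) (N := q)
  rw [map_neg, Polynomial.coeff_map, h2, neg_neg]

/-- `T̄ = Δ̄(s)/Δ̄(s^q)` is a polynomial in `j̄` over some field of characteristic `q`. -/
theorem exists_field_poly : ∃ (k : Type) (_ : Field k) (_ : CharP k q) (H : k[X]),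
    Polynomial.eval₂ (HahnSeries.C : k →+* LaurentSeries k) (J (1 : kˣ) 1) H = TK k q := by
  obtain ⟨𝔪, hmax, hqm⟩ := exists_maximal_OC q
  letI : Field (OC ⧸ 𝔪) := Ideal.Quotient.field 𝔪
  have hq0 : ((q : ℕ) : OC ⧸ 𝔪) = 0 := by
    have : Ideal.Quotient.mk 𝔪 ((q : ℕ) : OC) = 0 := Ideal.Quotient.eq_zero_iff_mem.mpr hqm
    simpa using this
  haveI : CharP (OC ⧸ 𝔪) q := by
    have h2 : ringChar (OC ⧸ 𝔪) ∣ q := ringChar.dvd hq0
    have h3 : ringChar (OC ⧸ 𝔪) = q := by
      rcases (Nat.dvd_prime hq.out).mp h2 with h | h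
      · exfalso
        have : CharP (OC ⧸ 𝔪) 1 := h ▸ ringChar.charP _
        exact CharP.char_ne_one (OC ⧸ 𝔪) 1 rfl
      · exact h
    exact h3 ▸ ringChar.charP _
  obtain ⟨Ψ, -, -, hΨ⟩ := exists_PsiO q
  exact ⟨OC ⧸ 𝔪, inferInstance, inferInstance, _,
    eval₂_neg_coeff_one q (Ideal.Quotient.mk 𝔪) Ψ hΨ⟩

end ModM

section Descend

variable (q : ℕ) [hq : Fact q.Prime]

local instance neZero_q₈ : NeZero q := ⟨hq.out.ne_zero⟩

theorem coeffMap_eval₂_HC {R S : Type*} [CommRing R] [CommRing S] (f : R →+* S)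
    (y : LaurentSeries R) (c : R[X]) :
    coeffMap f (Polynomial.eval₂ (HahnSeries.C : R →+* LaurentSeries R) y c) =
      Polynomial.eval₂ (HahnSeries.C : S →+* LaurentSeries S) (coeffMap f y) (c.map f) := by
  rw [Polynomial.hom_eval₂, Polynomial.eval₂_map, coeffMap_comp_C]

/-- `T̄ = Δ̄(s)/Δ̄(s^q)` is a polynomial in `j̄` over the prime field. -/
theorem exists_poly_zmod : ∃ H : (ZMod q)[X],
    Polynomial.eval₂ (HahnSeries.C : ZMod q →+* LaurentSeries (ZMod q))
      (J (1 : (ZMod q)ˣ) 1) H = TK (ZMod q) q := by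
  obtain ⟨k, _, _, Hk, hHk⟩ := exists_field_poly q
  set φ : ZMod q →+* k := ZMod.castHom (dvd_refl q) k with hφ
  have hφinj : Function.Injective φ := φ.injective
  have hmem : Polynomial.eval₂ (HahnSeries.C : k →+* LaurentSeries k) (J (1 : kˣ) 1) Hk ∈
      (coeffMap φ.range.subtype).range := by
    rw [hHk]
    exact ⟨TK φ.range q, coeffMap_TK q _⟩
  have hc := coeff_mem_of_eval₂_J_mem 1 φ.range Hk hmem
  have hl : Hk ∈ Polynomial.lifts φ := by
    rw [Polynomial.lifts_iff_coeff_lifts]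
    intro n
    exact hc n
  obtain ⟨H, hH⟩ := hl
  have hH' : H.map φ = Hk := hH
  refine ⟨H, Fermat.Agent.ES.coeffMap_injective_of_injective φ hφinj ?_⟩
  rw [coeffMap_eval₂_HC, coeffMap_J, map_one, hH', hHk, coeffMap_TK]

/-- The shape of a polynomial `H` with `H(j̄) = T̄`: monic of degree `q - 1`. -/
theorem monic_natDegree_of_eval₂ {k : Type*} [Field k] (H : k[X])
    (hH : Polynomial.eval₂ (HahnSeries.C : k →+* LaurentSeries k) (J (1 : kˣ) 1) H = TK k q) :
    H.Monic ∧ H.natDegree = q - 1 := by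
  have hq1 : 1 ≤ q := hq.out.one_le
  have hH0 : H ≠ 0 := by
    rintro rfl
    rw [Polynomial.eval₂_zero] at hH
    exact TK_ne_zero k q hH.symm
  -- the degree is at most `q - 1`
  have hle : H.natDegree ≤ q - 1 := by
    have h1 := coeff_eval₂_J (B := k) 1 H le_rfl
    rw [hH] at h1
    by_contra hlt
    rw [not_le] at hlt
    have h2 : (-(((1 : ℕ) : ℤ) * (H.natDegree : ℤ))) < 1 - (q : ℤ) := by
      have : ((q - 1 : ℕ) : ℤ) < (H.natDegree : ℤ) := by exact_mod_cast hlt
      rw [Nat.cast_sub hq1] at this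
      push_cast at this ⊢
      linarith
    rw [coeff_TK_of_lt k q h2] at h1
    exact hH0 (Polynomial.leadingCoeff_eq_zero.mp h1.symm)
  -- the coefficient of `Y^(q-1)` is `1`
  have hcoeff : H.coeff (q - 1) = 1 := by
    have h1 := coeff_eval₂_J (B := k) 1 H hle
    rw [hH] at h1
    have h2 : (-(((1 : ℕ) : ℤ) * ((q - 1 : ℕ) : ℤ))) = 1 - (q : ℤ) := by
      rw [Nat.cast_sub hq1]
      push_cast
      ring
    rw [h2, coeff_TK_self] at h1
    exact h1.symm
  have hdeg : H.natDegree = q - 1 := by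
    refine le_antisymm hle (Polynomial.le_natDegree_of_ne_zero ?_)
    rw [hcoeff]
    exact one_ne_zero
  refine ⟨?_, hdeg⟩
  rw [Polynomial.Monic, Polynomial.leadingCoeff, hdeg, hcoeff]

/-- **B6.4 (d).** The polynomial `H ∈ 𝔽_q[Y]` with `H(j̄) = T̄ = Δ̄^(1-q)`. -/
def TbarPoly : (ZMod q)[X] := Classical.choose (exists_poly_zmod q)

theorem TbarPoly_spec :
    Polynomial.eval₂ (HahnSeries.C : ZMod q →+* LaurentSeries (ZMod q))
      (J (1 : (ZMod q)ˣ) 1) (TbarPoly q) = TK (ZMod q) q :=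
  Classical.choose_spec (exists_poly_zmod q)

/-- **B6.4 (d).** `H` is monic. -/
theorem TbarPoly_monic : (TbarPoly q).Monic :=
  (monic_natDegree_of_eval₂ q (TbarPoly q) (TbarPoly_spec q)).1

/-- **B6.4 (d).** `deg H = q - 1`. -/
theorem TbarPoly_natDegree : (TbarPoly q).natDegree = q - 1 :=
  (monic_natDegree_of_eval₂ q (TbarPoly q) (TbarPoly_spec q)).2

/-- **B6.4 (d).** `H(j̄) = T̄ = Δ̄(s)/Δ̄(s^q)` over every ring of characteristic `q`. -/
theorem TbarPoly_eval₂ (R : Type*) [CommRing R] [CharP R q] :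
    Polynomial.eval₂ (HahnSeries.C : R →+* LaurentSeries R) (jqModC R)
      ((TbarPoly q).map (ZMod.castHom (dvd_refl q) R)) = TK R q := by
  have h := congrArg (coeffMap (ZMod.castHom (dvd_refl q) R)) (TbarPoly_spec q)
  rw [coeffMap_eval₂_HC, coeffMap_J, map_one, J_one_one, coeffMap_TK] at h
  exact h

/-- **B6.4 (d).** `H(j̄) = Δ̄ · (Δ̄⁻¹)^q = Δ̄^(1-q)`. -/
theorem TbarPoly_eval₂' (R : Type*) [CommRing R] [CharP R q] :
    Polynomial.eval₂ (HahnSeries.C : R →+* LaurentSeries R) (jqModC R)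
      ((TbarPoly q).map (ZMod.castHom (dvd_refl q) R)) = DeltaC R * DeltaInvC R ^ q := by
  rw [TbarPoly_eval₂, TK_char]

/-- **B6.4 (d)**, `aeval` form over a field which is an algebra over the prime field. -/
theorem TbarPoly_aeval (k : Type*) [Field k] [Algebra (ZMod q) k] :
    Polynomial.aeval (jqModC k) (TbarPoly q) = TK k q := by
  haveI : CharP k q := by
    have h := (algebraMap (ZMod q) k).injective
    exact charP_of_injective_ringHom h q
  rw [← TbarPoly_eval₂ q k, Polynomial.aeval_def, Polynomial.eval₂_map]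
  congr 1
  apply RingHom.ext
  intro r
  have h1 : algebraMap (ZMod q) (PowerSeries k) r = PowerSeries.C (algebraMap (ZMod q) k r) := by
    rw [PowerSeries.algebraMap_apply]
  rw [RingHom.comp_apply, HahnSeries.algebraMap_apply', h1, HahnSeries.ofPowerSeries_C]
  congr 1
  exact congrArg (fun f : ZMod q →+* k => f r) (Subsingleton.elim _ _)

/-- **Crossing points exist**: over an algebraically closed field of characteristic `q` the
polynomial `H` (of degree `q - 1 ≥ 1`) has a root. -/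
theorem exists_root_TbarPoly (k : Type*) [Field k] [IsAlgClosed k] [CharP k q] :
    ∃ a : k, ((TbarPoly q).map (ZMod.castHom (dvd_refl q) k)).eval a = 0 := by
  have hdeg : ((TbarPoly q).map (ZMod.castHom (dvd_refl q) k)).degree ≠ 0 := by
    rw [Polynomial.degree_map, Polynomial.degree_eq_natDegree (TbarPoly_monic q).ne_zero,
      TbarPoly_natDegree]
    have : 1 ≤ q - 1 := Nat.le_sub_one_of_lt hq.out.one_lt
    exact_mod_cast (by omega : q - 1 ≠ 0)
  exact IsAlgClosed.exists_root _ hdeg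

end Descend

end Fermat.Agent.BR.ModUnit
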