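import Fermat.Agent.BR.ModUnitField
import Fermat.Agent.Good.ChartBridge

/-!
# Program B, block B6.4 (b'): `ℚ`-rationality of the modular unit

* `mem_of_coeffEmb_mem` (**soft descent**): for an intermediate field `F₀` of `ℚ((s))/ℚ` and a
  field `L ⊇ ℚ`, a series `x ∈ ℚ((s))` whose image in `L((s))` lies in the compositum
  `L · F₀ = laurentBaseChange L F₀` lies in `F₀`.  (Apply a `ℚ`-linear functional `λ : L → ℚ`
  coefficientwise to `x · b = a`, `a, b ∈ L[F₀]`.)
* `modularUnitSeries_mem_full` : `T = Δ(s)/Δ(s^q) ∈ modularFunctionFieldFull N` for `q ∣ N`;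
* `TF M q : modularFunctionFieldFull (M * q)` with `barEmb (TF M q) = TB M q`.
-/

set_option autoImplicit false
set_option linter.unusedSectionVars false

noncomputable section

namespace Fermat.Agent.BR.ModUnit

open ModularCurve Fermat.Agent.Igusa

/-! ### Soft descent -/

section SoftDescent

variable {L : Type*} [Field L] [Algebra ℚ L]

/-- Coefficientwise application of a `ℚ`-linear functional `L → ℚ`. -/
def lamMap (lam : L →ₗ[ℚ] ℚ) (z : LaurentSeries L) : LaurentSeries ℚ where
  coeff n := lam (z.coeff n)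
  isPWO_support' := z.isPWO_support.mono fun n hn => by
    rw [Function.mem_support] at hn
    rw [HahnSeries.mem_support]
    intro h
    exact hn (by rw [h, map_zero])

@[simp] theorem lamMap_coeff (lam : L →ₗ[ℚ] ℚ) (z : LaurentSeries L) (n : ℤ) :
    (lamMap lam z).coeff n = lam (z.coeff n) := rfl

theorem lamMap_zero (lam : L →ₗ[ℚ] ℚ) : lamMap lam 0 = 0 := by
  ext n; simp

theorem lamMap_add (lam : L →ₗ[ℚ] ℚ) (z w : LaurentSeries L) :
    lamMap lam (z + w) = lamMap lam z + lamMap lam w := by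
  ext n; simp

/-- `λ ∘ (c · )`. -/
def lamMul (lam : L →ₗ[ℚ] ℚ) (c : L) : L →ₗ[ℚ] ℚ := lam.comp (LinearMap.mulLeft ℚ c)

@[simp] theorem lamMul_apply (lam : L →ₗ[ℚ] ℚ) (c l : L) : lamMul lam c l = lam (c * l) := rfl

theorem lamMap_C_mul (lam : L →ₗ[ℚ] ℚ) (c : L) (z : LaurentSeries L) :
    lamMap lam (HahnSeries.C c * z) = lamMap (lamMul lam c) z := by
  ext n
  rw [lamMap_coeff, lamMap_coeff, coeff_C_mul, lamMul_apply]

theorem lamMap_coeffEmb (lam : L →ₗ[ℚ] ℚ) (f : LaurentSeries ℚ) :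
    lamMap lam (coeffEmb L f) = HahnSeries.C (lam 1) * f := by
  ext n
  rw [lamMap_coeff, coeffEmb_coeff, coeff_C_mul, Algebra.algebraMap_eq_smul_one, map_smul,
    smul_eq_mul, mul_comm]

theorem C_rat_mem (F₀ : IntermediateField ℚ (LaurentSeries ℚ)) (r : ℚ) :
    (HahnSeries.C r : LaurentSeries ℚ) ∈ F₀ := by
  have h := F₀.algebraMap_mem r
  rwa [algebraMap_laurentSeries_eq_single] at h

/-- **Soft descent.** A rational series whose base change lies in `L · F₀` lies in `F₀`. -/
theorem mem_of_coeffEmb_mem (F₀ : IntermediateField ℚ (LaurentSeries ℚ)) {x : LaurentSeries ℚ}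
    (h : coeffEmb L x ∈ laurentBaseChange L F₀) : x ∈ F₀ := by
  by_cases hx : x = 0
  · rw [hx]; exact F₀.zero_mem
  have hinj : Function.Injective (coeffEmb L) := (coeffEmb L).injective
  obtain ⟨r, hr, s, hs, hrs⟩ := IntermediateField.mem_adjoin_iff_div.mp h
  have hs0 : s ≠ 0 := by
    rintro rfl
    rw [div_zero] at hrs
    exact hx (hinj (by rw [hrs, map_zero]))
  have hy : coeffEmb L x * s = r := by
    rw [hrs]; field_simp
  -- the key property of the elements of `L[F₀]`
  have key : ∀ a ∈ Algebra.adjoin L (⇑(coeffEmb L) '' (F₀ : Set (LaurentSeries ℚ))),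
      ∀ lam : L →ₗ[ℚ] ℚ, lamMap lam a ∈ F₀ ∧ lamMap lam (coeffEmb L x * a) = x * lamMap lam a := by
    intro a ha
    have ha' : a ∈ Subalgebra.toSubmodule
        (Algebra.adjoin L (⇑(coeffEmb L) '' (F₀ : Set (LaurentSeries ℚ)))) := ha
    rw [Algebra.adjoin_eq_span] at ha'
    clear ha
    have hclos : ∀ m ∈ Submonoid.closure (⇑(coeffEmb L) '' (F₀ : Set (LaurentSeries ℚ))),
        m ∈ (⇑(coeffEmb L) '' (F₀ : Set (LaurentSeries ℚ))) := by
      intro m hm
      induction hm using Submonoid.closure_induction with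
      | mem y hy => exact hy
      | one => exact ⟨1, F₀.one_mem, map_one _⟩
      | mul y z _ _ hy hz =>
        obtain ⟨f, hf, rfl⟩ := hy
        obtain ⟨g, hg, rfl⟩ := hz
        exact ⟨f * g, F₀.mul_mem hf hg, map_mul _ _ _⟩
    induction ha' using Submodule.span_induction with
    | mem m hm =>
      obtain ⟨g, hg, rfl⟩ := hclos m hm
      intro lam
      refine ⟨?_, ?_⟩
      · rw [lamMap_coeffEmb]
        exact F₀.mul_mem (C_rat_mem F₀ _) hg
      · rw [← map_mul, lamMap_coeffEmb, lamMap_coeffEmb]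
        ring
    | zero =>
      intro lam
      rw [mul_zero, lamMap_zero, mul_zero]
      exact ⟨F₀.zero_mem, rfl⟩
    | add a b _ _ iha ihb =>
      intro lam
      obtain ⟨ha1, ha2⟩ := iha lam
      obtain ⟨hb1, hb2⟩ := ihb lam
      rw [mul_add, lamMap_add, lamMap_add, ha2, hb2, mul_add]
      exact ⟨F₀.add_mem ha1 hb1, rfl⟩
    | smul c a _ iha =>
      intro lam
      obtain ⟨h1, h2⟩ := iha (lamMul lam c)
      rw [Algebra.smul_def, algebraMap_laurentSeries_eq_single, ← HahnSeries.C_apply,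
        mul_left_comm, lamMap_C_mul, lamMap_C_mul]
      exact ⟨h1, h2⟩
  -- choose a functional not vanishing on `s`
  obtain ⟨n, hn⟩ : ∃ n, s.coeff n ≠ 0 := by
    by_contra hcon
    push Not at hcon
    exact hs0 (HahnSeries.ext (funext hcon))
  obtain ⟨lam, hlam⟩ : ∃ lam : Module.Dual ℚ L, lam (s.coeff n) ≠ 0 := by
    by_contra hcon
    push Not at hcon
    exact hn ((Module.forall_dual_apply_eq_zero_iff ℚ (s.coeff n)).mp hcon)
  obtain ⟨hs1, hs2⟩ := key s hs lam
  obtain ⟨hr1, -⟩ := key r hr lam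
  rw [hy] at hs2
  have hne : lamMap lam s ≠ 0 := by
    intro h0
    apply hlam
    have := congrArg (fun z => z.coeff n) h0
    simpa using this
  have hxeq : x = lamMap lam r / lamMap lam s := by
    rw [hs2, mul_div_assoc, div_self hne, mul_one]
  rw [hxeq]
  exact F₀.div_mem hr1 hs1

end SoftDescent

/-! ### The modular unit over `ℚ` -/

section Rat

open Fermat.Agent.X0 Fermat.Agent.Good.Bridge

section

variable (q : ℕ) [hq : Fact q.Prime]

local instance neZero_q₁₁ : NeZero q := ⟨hq.out.ne_zero⟩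

/-- **B6.4 (b), rational form.** `T = Δ(s)/Δ(s^q) ∈ F_N = ℚ(j(s^d) : d ∣ N)` for `q ∣ N`. -/
theorem modularUnitSeries_mem_full (N : ℕ) [NeZero N] (hqN : q ∣ N) :
    modularUnitSeries q ∈ modularFunctionFieldFull N := by
  apply mem_of_coeffEmb_mem (L := Kb)
  rw [coeffEmb_modularUnitSeries]
  exact TK_mem_bar q N hqN

end

variable (M q : ℕ) [NeZero M] [hq : Fact q.Prime]

local instance neZero_q₁₂ : NeZero q := ⟨hq.out.ne_zero⟩

local instance neZero_Mq₁₂ : NeZero (M * q) := ⟨Nat.mul_ne_zero (NeZero.ne M) hq.out.ne_zero⟩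

/-- The modular unit as an element of `F_{Mq}` (over `ℚ`). -/
def TF : ↥(modularFunctionFieldFull (M * q)) :=
  ⟨modularUnitSeries q, modularUnitSeries_mem_full q (M * q) (dvd_mul_left q M)⟩

@[simp] theorem coe_TF : ((TF M q : ↥(modularFunctionFieldFull (M * q))) : LaurentSeries ℚ) =
    modularUnitSeries q := rfl

/-- `TB` is the image of `TF` under `F_{Mq} → F̄_{Mq}`. -/
theorem barEmb_TF : barEmb (M * q) (TF M q) = TB M q := by
  apply Subtype.ext
  rw [coe_barEmb, coe_TF, coeffEmb_modularUnitSeries, coe_TB]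

theorem barEmb_TF_inv : barEmb (M * q) (TF M q)⁻¹ = TBinv M q := by
  rw [map_inv₀, barEmb_TF, TB_inv]

end Rat

end Fermat.Agent.BR.ModUnit
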