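import Fermat.Agent.BR.ModUnitAL
import Fermat.Agent.BR.ModUnitInt
import Fermat.Agent.BR.ModUnitPoly
import Fermat.Agent.BR.ModUnitRat
import Fermat.Agent.BR.ConstRedTwoFinal

/-!
# Program B, block B6.4: the modular unit on `Fb (M * q)` — integrality and reduction assembly

Everything the consumers of `T = Δ(s)/Δ(s^q)` and `T' = q^12 / T` need, stated on
`Fb (M * q)` (frame-free):

* `ev2Z_TB`, `ev2Z_TB'` : `TKPoly(T, j) = 0`, `TKinvPoly(T', j) = 0` in `Fb (M * q)`
  (`TKPoly q`, `TKinvPoly q : ℤ[X][X]` monic);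
* `isIntegral_subring_of_ev2Z`, `isIntegral_TB`, `isIntegral_TB'` : `T`, `T'` are integral over
  EVERY subring of `Fb (M * q)` containing `j` (`jF M q = jBarD (M * q) 1 _`);
* `TF' M q` and `barEmb_TF'` : `T' = barEmb (q^12 • T⁻¹)` is rational over `ℚ`;
* non-unit forms: `TB_mem_nonunits_O2`, `TB'_mem_nonunits_O1`, `TB_not_mem_nonunits_O1`,
  `TB'_not_mem_nonunits_O2`;
* `TbarPolyK k q : k[X]` (monic, `natDegree = q - 1`) and the reductions in the residue function
  field `F̃_M = modularFunctionFieldFullC k M`: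
  `constRedW1_res_TB : res₁ T = aeval j̃ H`, `constRedW2_res_TB' : res₂ T' = aeval j̃ H`,
  `constRedW1_res_TB' : res₁ T' = 0`, `constRedW2_res_TB : res₂ T = 0`.
-/

set_option autoImplicit false
set_option linter.unusedSectionVars false
set_option linter.style.haveILetI false

noncomputable section

namespace Fermat.Agent.BR.ModUnit

open ModularCurve Polynomial Fermat.Agent.Igusa Fermat.Agent.X0 Fermat.Agent.Good.Bridge

/-! ### Integrality over an arbitrary subring containing `j` -/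

/-- `G(x, j) = 0` with `G ∈ ℤ[Y][X]` monic makes `x` integral over every subring containing
`j`. -/
theorem isIntegral_subring_of_ev2Z {S : Type*} [CommRing S] (R : Subring S) {j x : S}
    (hj : j ∈ R) {G : ℤ[X][X]} (hG : G.Monic) (h : ev2Z j x G = 0) : IsIntegral R x := by
  set jR : R := ⟨j, hj⟩ with hjR
  refine ⟨G.map (Polynomial.eval₂RingHom (Int.castRingHom R) jR), hG.map _, ?_⟩
  rw [Polynomial.eval₂_map, ← h, ev2Z]
  congr 1
  apply Polynomial.ringHom_ext
  · intro n; simp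
  · simp only [Polynomial.coe_eval₂RingHom, Polynomial.eval₂_X, RingHom.coe_comp,
      Function.comp_apply, hjR]
    rfl

section Fb

variable (M q : ℕ) [NeZero M] [hq : Fact q.Prime]

local instance neZero_q₁₃ : NeZero q := ⟨hq.out.ne_zero⟩

local instance neZero_Mq₁₃ : NeZero (M * q) := ⟨Nat.mul_ne_zero (NeZero.ne M) hq.out.ne_zero⟩

theorem coe_jF' : ((jF M q : Fb (M * q)) : LaurentSeries Kb) = jqModC Kb := by
  rw [coe_jF, J_one_one]

theorem coe_qF : ((qF M q : Fb (M * q)) : LaurentSeries Kb) = HahnSeries.C ((q : Kb)) := by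
  rw [qF]
  change algebraMap Kb (LaurentSeries Kb) ((q : ℕ) : Kb) = _
  rw [algebraMap_laurentSeries_eq_single]
  rfl

theorem coe_TB' : ((TB' M q : Fb (M * q)) : LaurentSeries Kb) =
    HahnSeries.C ((q : Kb) ^ 12) * TKinv Kb q := by
  rw [TB']
  change ((qF M q : Fb (M * q)) : LaurentSeries Kb) ^ 12 * _ = _
  rw [coe_qF, coe_TBinv, map_pow]

/-- **B6.4 (c) on `Fb (M * q)`.** `TKPoly(T, j) = 0`. -/
theorem ev2Z_TB : ev2Z (jF M q) (TB M q) (TKPoly q) = 0 := by
  apply Subtype.ext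
  have h := map_ev2Z (modularFunctionFieldBar (M * q)).val.toRingHom (jF M q) (TB M q) (TKPoly q)
  change ((ev2Z (jF M q) (TB M q) (TKPoly q) : Fb (M * q)) : LaurentSeries Kb) =
    ev2Z ((jF M q : Fb (M * q)) : LaurentSeries Kb) ((TB M q : Fb (M * q)) : LaurentSeries Kb)
      (TKPoly q) at h
  rw [h, coe_jF', coe_TB, ev2Z_TKPoly]
  rfl

/-- **B6.4 (c) on `Fb (M * q)`.** `TKinvPoly(T', j) = 0`. -/
theorem ev2Z_TB' : ev2Z (jF M q) (TB' M q) (TKinvPoly q) = 0 := by
  apply Subtype.ext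
  have h := map_ev2Z (modularFunctionFieldBar (M * q)).val.toRingHom (jF M q) (TB' M q)
    (TKinvPoly q)
  change ((ev2Z (jF M q) (TB' M q) (TKinvPoly q) : Fb (M * q)) : LaurentSeries Kb) =
    ev2Z ((jF M q : Fb (M * q)) : LaurentSeries Kb) ((TB' M q : Fb (M * q)) : LaurentSeries Kb)
      (TKinvPoly q) at h
  rw [h, coe_jF', coe_TB', ev2Z_TKinvPoly]
  rfl

/-- `T` is integral over every subring of `Fb (M * q)` containing `j`. -/
theorem isIntegral_TB (R : Subring (Fb (M * q))) (hj : jF M q ∈ R) : IsIntegral R (TB M q) :=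
  isIntegral_subring_of_ev2Z R hj (TKPoly_monic q) (ev2Z_TB M q)

/-- `T' = q^12 / T` is integral over every subring of `Fb (M * q)` containing `j`. -/
theorem isIntegral_TB' (R : Subring (Fb (M * q))) (hj : jF M q ∈ R) : IsIntegral R (TB' M q) :=
  isIntegral_subring_of_ev2Z R hj (TKinvPoly_monic q) (ev2Z_TB' M q)

/-- `T` is integral over `ℤ[j]`. -/
theorem isIntegral_adjoin_TB : IsIntegral (Algebra.adjoin ℤ {jF M q}) (TB M q) :=
  isIntegral_adjoin_of_ev2Z (TKPoly_monic q) (ev2Z_TB M q)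

/-- `T'` is integral over `ℤ[j]`. -/
theorem isIntegral_adjoin_TB' : IsIntegral (Algebra.adjoin ℤ {jF M q}) (TB' M q) :=
  isIntegral_adjoin_of_ev2Z (TKinvPoly_monic q) (ev2Z_TB' M q)

/-! ### Rationality of `T'` -/

/-- `T' = q^12 / T` as an element of `F_{Mq}` (over `ℚ`). -/
def TF' : ↥(modularFunctionFieldFull (M * q)) :=
  algebraMap ℚ ↥(modularFunctionFieldFull (M * q)) ((q : ℚ) ^ 12) * (TF M q)⁻¹

theorem barEmb_TF' : barEmb (M * q) (TF' M q) = TB' M q := by
  rw [TF', map_mul, barEmb_TF_inv, TB', qF, map_pow, map_natCast, map_pow, map_natCast,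
    map_natCast]

theorem TF_mul_TF' : TF M q * TF' M q =
    algebraMap ℚ ↥(modularFunctionFieldFull (M * q)) ((q : ℚ) ^ 12) := by
  have h0 : TF M q ≠ 0 := by
    intro h
    have h1 := congrArg (barEmb (M * q)) h
    rw [barEmb_TF, map_zero] at h1
    exact TB_ne_zero M q h1
  rw [TF', mul_left_comm, mul_inv_cancel₀ h0, mul_one]

end Fb

/-! ### The polynomial `H` over the residue field -/

section PolyK

variable (k : Type*) [Field k] (q : ℕ) [hq : Fact q.Prime] [CharP k q]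

/-- `H = TbarPoly q` with coefficients in a field of characteristic `q`. -/
def TbarPolyK : k[X] := (TbarPoly q).map (ZMod.castHom (dvd_refl q) k)

theorem TbarPolyK_monic : (TbarPolyK k q).Monic := (TbarPoly_monic q).map _

theorem TbarPolyK_natDegree : (TbarPolyK k q).natDegree = q - 1 := by
  rw [TbarPolyK, (TbarPoly_monic q).natDegree_map, TbarPoly_natDegree]

theorem TbarPolyK_ne_zero : TbarPolyK k q ≠ 0 := (TbarPolyK_monic k q).ne_zero

/-- `H(j̄) = T̄` in `k((s))`. -/
theorem TbarPolyK_aeval : Polynomial.aeval (jqModC k) (TbarPolyK k q) = TK k q := by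
  rw [← TbarPoly_eval₂ q k, Polynomial.aeval_def, TbarPolyK]
  congr 1
  apply RingHom.ext
  intro r
  rw [algebraMap_laurentSeries_eq_single]
  rfl

/-- over an algebraically closed field `H` has a root -/
theorem exists_root_TbarPolyK [IsAlgClosed k] : ∃ a : k, (TbarPolyK k q).eval a = 0 :=
  exists_root_TbarPoly q k

end PolyK

/-! ### Non-unit forms and reductions in `F̃_M` -/

section Red

open Fermat.Agent.Val Fermat.Agent.BR.TwoVal Fermat.Agent.BR.ConstRedTwo

variable (M q : ℕ) [NeZero M] [hq : Fact q.Prime]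
variable (B : ValuationSubring (AlgebraicClosure ℚ)) (hB : B.LiesOverPrime q) (hqM : ¬ q ∣ M)

local instance neZero_q₁₄ : NeZero q := ⟨hq.out.ne_zero⟩

local instance neZero_Mq₁₄ : NeZero (M * q) := ⟨Nat.mul_ne_zero (NeZero.ne M) hq.out.ne_zero⟩

/-- membership in the non-units of a valuation subring through a residue map with
`res x = 0 ↔ ¬ IsUnit x` -/
theorem mem_nonunits_iff_of_res {F Ft : Type*} [Field F] [Field Ft] (O : ValuationSubring F)
    (res : O →+* Ft) (hres : ∀ x : O, res x = 0 ↔ ¬ IsUnit x) {x : F} (hx : x ∈ O) :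
    x ∈ O.nonunits ↔ res ⟨x, hx⟩ = 0 := by
  rw [hres, ValuationSubring.mem_nonunits_iff_exists_mem_maximalIdeal]
  constructor
  · rintro ⟨hx', h⟩
    exact (IsLocalRing.mem_maximalIdeal _).mp h
  · intro h
    exact ⟨hx, (IsLocalRing.mem_maximalIdeal _).mpr h⟩

/-- the residue characteristic, as an instance-free statement -/
theorem charP_res (q : ℕ) [Fact q.Prime] (B : ValuationSubring (AlgebraicClosure ℚ))
    (hB : B.LiesOverPrime q) : CharP (IsLocalRing.ResidueField B) q :=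
  Fermat.Agent.Val.charP_residueField_of_liesOverPrime B hB

/-- **`res₁ T = H(j̃)`** in `F̃_M = modularFunctionFieldFullC k M`. -/
theorem constRedW1_res_TB :
    haveI := charP_res q B hB
    (constRedW1 B hB hqM).res ⟨TB M q, TB_mem_O1 M q B hB⟩ =
      Polynomial.aeval (jFullC (IsLocalRing.ResidueField B) M)
        (TbarPolyK (IsLocalRing.ResidueField B) q) := by
  haveI := charP_res q B hB
  apply Subtype.ext
  refine (coe_constRedW1_res B hB hqM ⟨TB M q, TB_mem_O1 M q B hB⟩).trans ?_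
  rw [res1_TB, ← IntermediateField.aeval_coe]
  exact (TbarPolyK_aeval (IsLocalRing.ResidueField B) q).symm

/-- **`res₂ T' = H(j̃)`** in `F̃_M`. -/
theorem constRedW2_res_TB' :
    haveI := charP_res q B hB
    (constRedW2 B hB hqM).res ⟨TB' M q, TB'_mem_O2 M q B hB hqM⟩ =
      Polynomial.aeval (jFullC (IsLocalRing.ResidueField B) M)
        (TbarPolyK (IsLocalRing.ResidueField B) q) := by
  haveI := charP_res q B hB
  apply Subtype.ext
  refine (coe_constRedW2_res B hB hqM ⟨TB' M q, TB'_mem_O2 M q B hB hqM⟩).trans ?_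
  rw [res2_TB', ← IntermediateField.aeval_coe]
  exact (TbarPolyK_aeval (IsLocalRing.ResidueField B) q).symm

/-- `res₁ T' = 0`. -/
theorem constRedW1_res_TB' :
    (constRedW1 B hB hqM).res ⟨TB' M q, TB'_mem_O1 M q B hB⟩ = 0 := by
  apply Subtype.ext
  refine (coe_constRedW1_res B hB hqM ⟨TB' M q, TB'_mem_O1 M q B hB⟩).trans ?_
  rw [res1_TB'_eq_zero]
  rfl

/-- `res₂ T = 0`. -/
theorem constRedW2_res_TB :
    (constRedW2 B hB hqM).res ⟨TB M q, TB_mem_O2 M q B hB hqM⟩ = 0 := by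
  apply Subtype.ext
  refine (coe_constRedW2_res B hB hqM ⟨TB M q, TB_mem_O2 M q B hB hqM⟩).trans ?_
  rw [res2_TB_eq_zero]
  rfl

/-- `T' ∈ 𝔪(w₁)`. -/
theorem TB'_mem_nonunits_O1 : TB' M q ∈ (O1 M B hB).nonunits :=
  (TwoValInst.mem_nonunits_O1_iff B hB (TB'_mem_O1 M q B hB)).mpr (res1_TB'_eq_zero M q B hB)

/-- `T ∈ 𝔪(w₂)`. -/
theorem TB_mem_nonunits_O2 : TB M q ∈ (O2 B hB hqM).nonunits :=
  (TwoValInst.mem_nonunits_O2_iff B hB hqM (TB_mem_O2 M q B hB hqM)).mpr
    (res2_TB_eq_zero M q B hB hqM)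

/-- `T ∉ 𝔪(w₁)`. -/
theorem TB_not_mem_nonunits_O1 : TB M q ∉ (O1 M B hB).nonunits := by
  intro h
  have h1 := (TwoValInst.mem_nonunits_O1_iff B hB (TB_mem_O1 M q B hB)).mp h
  rw [res1_TB] at h1
  exact TK_ne_zero _ q h1

/-- `T' ∉ 𝔪(w₂)`. -/
theorem TB'_not_mem_nonunits_O2 : TB' M q ∉ (O2 B hB hqM).nonunits := by
  intro h
  have h1 := (TwoValInst.mem_nonunits_O2_iff B hB hqM (TB'_mem_O2 M q B hB hqM)).mp h
  rw [res2_TB'] at h1
  exact TK_ne_zero _ q h1

end Red

end Fermat.Agent.BR.ModUnit
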