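import Fermat.Agent.Igusa.GaussVal
import Fermat.Agent.Igusa.Subst
import Fermat.Agent.ES.LaurentFrob

/-!
# Program B, block B6.4 (a): the modular unit `T = Δ(s)/Δ(s^q)` and its Gauss residue

For a commutative ring `C` and `q ≥ 1`:

* `TK C q = Δ(s)/Δ(s^q)` and `TKinv C q = Δ(s^q)/Δ(s)` in `C((s))`, compatible with `coeffMap`;
  `TK ℚ q` is the Prelude's `ModularCurve.modularUnitSeries q` (`modularUnitSeries_eq`);
* in characteristic `q` (`q` prime): `TK k q = Δ̄ · (Δ̄⁻¹)^q = Δ̄^(1-q)` (`TK_char`);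
* orders and leading coefficients over a field;
* `T` lies in the Gauss valuation ring `Igusa.gaussSubring q` of `ℚ((s))` over `ℤ_(q)((s))`, it is
  a unit there, and its residue is `TK (ZMod q) q = Δ̄^(1-q)` (`gaussRes_modularUnitSeries`).
-/

set_option autoImplicit false

noncomputable section

namespace Fermat.Agent.BR.ModUnit

open ModularCurve HahnSeries Fermat.Agent.Igusa

section General

variable (C : Type*) [CommRing C] (q : ℕ) [NeZero q]

/-- `T = Δ(s)/Δ(s^q)` with coefficients in `C`. -/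
def TK : LaurentSeries C := DeltaC C * qExpand C q (DeltaInvC C)

/-- `T⁻¹ = Δ(s^q)/Δ(s)` with coefficients in `C`. -/
def TKinv : LaurentSeries C := DeltaInvC C * qExpand C q (DeltaC C)

theorem TK_mul_TKinv : TK C q * TKinv C q = 1 := by
  rw [TK, TKinv, mul_mul_mul_comm, DeltaC_mul_DeltaInvC, ← map_mul, DeltaInvC_mul_DeltaC, map_one,
    one_mul]

theorem TKinv_mul_TK : TKinv C q * TK C q = 1 := by
  rw [mul_comm, TK_mul_TKinv]

theorem isUnit_TK : IsUnit (TK C q) := IsUnit.of_mul_eq_one _ (TK_mul_TKinv C q)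

theorem isUnit_TKinv : IsUnit (TKinv C q) := IsUnit.of_mul_eq_one _ (TKinv_mul_TK C q)

variable {C} in
theorem coeffMap_TK {D : Type*} [CommRing D] (f : C →+* D) : coeffMap f (TK C q) = TK D q := by
  rw [TK, TK, map_mul, coeffMap_qExpand, coeffMap_DeltaC, coeffMap_DeltaInvC]

variable {C} in
theorem coeffMap_TKinv {D : Type*} [CommRing D] (f : C →+* D) :
    coeffMap f (TKinv C q) = TKinv D q := by
  rw [TKinv, TKinv, map_mul, coeffMap_qExpand, coeffMap_DeltaC, coeffMap_DeltaInvC]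

theorem TK_ne_zero [Nontrivial C] : TK C q ≠ 0 := (isUnit_TK C q).ne_zero

theorem TKinv_ne_zero [Nontrivial C] : TKinv C q ≠ 0 := (isUnit_TKinv C q).ne_zero

end General

section Field

variable (k : Type*) [Field k] (q : ℕ) [NeZero q]

theorem TK_inv : (TK k q)⁻¹ = TKinv k q :=
  inv_eq_of_mul_eq_one_right (TK_mul_TKinv k q)

theorem TKinv_inv : (TKinv k q)⁻¹ = TK k q :=
  inv_eq_of_mul_eq_one_right (TKinv_mul_TK k q)

theorem order_qExpand (f : LaurentSeries k) : (qExpand k q f).order = (q : ℤ) * f.order := by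
  rw [← subst_one_unit, order_subst]

theorem leadingCoeff_qExpand (f : LaurentSeries k) :
    (qExpand k q f).leadingCoeff = f.leadingCoeff := by
  rw [← subst_one_unit, leadingCoeff_subst, one_zpow, Units.val_one, one_mul]

theorem qExpand_ne_zero {f : LaurentSeries k} (hf : f ≠ 0) : qExpand k q f ≠ 0 := by
  rw [← subst_one_unit]
  exact (subst_eq_zero_iff _ _).not.2 hf

/-- `ord T = 1 - q`. -/
theorem order_TK : (TK k q).order = 1 - (q : ℤ) := by
  rw [TK, HahnSeries.order_mul (DeltaC_ne_zero k) (qExpand_ne_zero k q (DeltaInvC_ne_zero k)),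
    order_DeltaC, order_qExpand, order_DeltaInvC]
  ring

/-- `ord T⁻¹ = q - 1`. -/
theorem order_TKinv : (TKinv k q).order = (q : ℤ) - 1 := by
  rw [TKinv, HahnSeries.order_mul (DeltaInvC_ne_zero k) (qExpand_ne_zero k q (DeltaC_ne_zero k)),
    order_DeltaInvC, order_qExpand, order_DeltaC]
  ring

theorem leadingCoeff_DeltaC : (DeltaC k).leadingCoeff = 1 := by
  rw [HahnSeries.leadingCoeff_eq, order_DeltaC, coeff_DeltaC_one]

theorem leadingCoeff_DeltaInvC : (DeltaInvC k).leadingCoeff = 1 := by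
  rw [HahnSeries.leadingCoeff_eq, order_DeltaInvC, coeff_DeltaInvC_neg_one]

/-- The leading coefficient of `T` is `1`. -/
theorem leadingCoeff_TK : (TK k q).leadingCoeff = 1 := by
  rw [TK, HahnSeries.leadingCoeff_mul, leadingCoeff_DeltaC, leadingCoeff_qExpand,
    leadingCoeff_DeltaInvC, one_mul]

theorem coeff_TK_self : (TK k q).coeff (1 - (q : ℤ)) = 1 := by
  have h := leadingCoeff_TK k q
  rwa [HahnSeries.leadingCoeff_eq, order_TK] at h

theorem coeff_TK_of_lt {n : ℤ} (hn : n < 1 - (q : ℤ)) : (TK k q).coeff n = 0 :=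
  HahnSeries.coeff_eq_zero_of_lt_order (by rw [order_TK]; exact hn)

end Field

section Rat

variable (q : ℕ) [NeZero q]

/-- The Prelude's modular unit is `TK ℚ q`. -/
theorem modularUnitSeries_eq : modularUnitSeries q = TK ℚ q := by
  have h : (deltaSeriesN q)⁻¹ = qExpand ℚ q (DeltaInvC ℚ) := by
    apply inv_eq_of_mul_eq_one_right
    rw [deltaSeriesN, ← DeltaC_rat, ← map_mul, DeltaC_mul_DeltaInvC, map_one]
  rw [modularUnitSeries, h, ← DeltaC_rat, TK]

theorem modularUnitSeries_inv : (modularUnitSeries q)⁻¹ = TKinv ℚ q := by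
  rw [modularUnitSeries_eq, TK_inv]

end Rat

section CharQ

variable (k : Type*) [CommRing k] (q : ℕ) [hq : Fact q.Prime] [CharP k q]

local instance neZero_q' : NeZero q := ⟨hq.out.ne_zero⟩

/-- In characteristic `q`: `Δ̄(s^q) = Δ̄(s)^q`. -/
theorem qExpand_DeltaC_char : qExpand k q (DeltaC k) = DeltaC k ^ q := by
  rw [Fermat.Agent.ES.pow_char_eq_qExpand_coeffMap_frobenius q (DeltaC k), coeffMap_DeltaC]

theorem qExpand_DeltaInvC_char : qExpand k q (DeltaInvC k) = DeltaInvC k ^ q := by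
  rw [Fermat.Agent.ES.pow_char_eq_qExpand_coeffMap_frobenius q (DeltaInvC k), coeffMap_DeltaInvC]

/-- In characteristic `q`: `T̄ = Δ̄ · (Δ̄⁻¹)^q = Δ̄^(1-q)`. -/
theorem TK_char : TK k q = DeltaC k * DeltaInvC k ^ q := by
  rw [TK, qExpand_DeltaInvC_char]

theorem TKinv_char : TKinv k q = DeltaInvC k * DeltaC k ^ q := by
  rw [TKinv, qExpand_DeltaC_char]

/-- `T̄ · Δ̄^(q-1) = 1`. -/
theorem TK_mul_DeltaC_pow : TK k q * DeltaC k ^ (q - 1) = 1 := by
  have hq1 : q - 1 + 1 = q := Nat.sub_add_cancel hq.out.one_le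
  rw [TK_char]
  calc DeltaC k * DeltaInvC k ^ q * DeltaC k ^ (q - 1)
      = DeltaC k ^ (q - 1 + 1) * DeltaInvC k ^ q := by
        rw [pow_succ]
        ring
    _ = (DeltaC k * DeltaInvC k) ^ q := by rw [hq1, mul_pow]
    _ = 1 := by rw [DeltaC_mul_DeltaInvC, one_pow]

/-- the coefficientwise Frobenius fixes `T̄` -/
theorem qExpand_TK_char : qExpand k q (TK k q) = TK k q ^ q := by
  rw [Fermat.Agent.ES.pow_char_eq_qExpand_coeffMap_frobenius q (TK k q), coeffMap_TK]

end CharQ

section Gauss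

variable (q : ℕ) [hq : Fact q.Prime]

local instance neZero_q'' : NeZero q := ⟨hq.out.ne_zero⟩

set_option quotPrecheck false in
local notation "ℤq" => ↥(GaloisRep.ratLocalizedAt q)

theorem zlIota_TK : zlIota q (TK ℤq q) = modularUnitSeries q := by
  rw [modularUnitSeries_eq, zlIota, coeffMap_TK]

theorem zlIota_TKinv : zlIota q (TKinv ℤq q) = (modularUnitSeries q)⁻¹ := by
  rw [modularUnitSeries_inv, zlIota, coeffMap_TKinv]

/-- **B6.4 (a)** `T = Δ(s)/Δ(s^q)` is Gauss integral at `q`. -/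
theorem modularUnitSeries_mem_gaussSubring : modularUnitSeries q ∈ gaussSubring q := by
  rw [← zlIota_TK]
  exact zlIota_mem_gaussSubring q _

/-- `T⁻¹` is Gauss integral at `q`: `T` is a unit of the Gauss valuation ring. -/
theorem modularUnitSeries_inv_mem_gaussSubring : (modularUnitSeries q)⁻¹ ∈ gaussSubring q := by
  rw [← zlIota_TKinv]
  exact zlIota_mem_gaussSubring q _

/-- **B6.4 (a)** The Gauss residue of `T` is `T̄ = Δ̄(s)/Δ̄(s^q)`. -/
theorem gaussRes_modularUnitSeries :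
    gaussRes q ⟨modularUnitSeries q, modularUnitSeries_mem_gaussSubring q⟩ = TK (ZMod q) q := by
  have h : (⟨modularUnitSeries q, modularUnitSeries_mem_gaussSubring q⟩ : gaussSubring q) =
      ⟨zlIota q (TK ℤq q), zlIota_mem_gaussSubring q _⟩ := Subtype.ext (zlIota_TK q).symm
  rw [h, gaussRes_zlIota, zlRed, coeffMap_TK]

/-- **B6.4 (a)** The Gauss residue of `T` is `Δ̄^(1-q) = Δ̄ · (Δ̄⁻¹)^q`. -/
theorem gaussRes_modularUnitSeries' :
    gaussRes q ⟨modularUnitSeries q, modularUnitSeries_mem_gaussSubring q⟩ =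
      DeltaC (ZMod q) * DeltaInvC (ZMod q) ^ q := by
  rw [gaussRes_modularUnitSeries, TK_char]

theorem gaussRes_modularUnitSeries_inv :
    gaussRes q ⟨(modularUnitSeries q)⁻¹, modularUnitSeries_inv_mem_gaussSubring q⟩ =
      TKinv (ZMod q) q := by
  have h : (⟨(modularUnitSeries q)⁻¹, modularUnitSeries_inv_mem_gaussSubring q⟩ : gaussSubring q) =
      ⟨zlIota q (TKinv ℤq q), zlIota_mem_gaussSubring q _⟩ := Subtype.ext (zlIota_TKinv q).symm
  rw [h, gaussRes_zlIota, zlRed, coeffMap_TKinv]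

theorem gaussRes_modularUnitSeries_ne_zero :
    gaussRes q ⟨modularUnitSeries q, modularUnitSeries_mem_gaussSubring q⟩ ≠ 0 := by
  rw [gaussRes_modularUnitSeries]
  exact TK_ne_zero _ q

/-- The residue `T̄` has order `1 - q`. -/
theorem order_gaussRes_modularUnitSeries :
    (gaussRes q ⟨modularUnitSeries q, modularUnitSeries_mem_gaussSubring q⟩).order =
      1 - (q : ℤ) := by
  rw [gaussRes_modularUnitSeries, order_TK]

end Gauss

end Fermat.Agent.BR.ModUnit
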