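/-
Program B (BADRED), block B2 (helper22): local behaviour of a polynomial near an isolated simple
root, on top of `BR/NewtonPoly.lean`.

If the linear coefficient dominates on the disc `|y| ≤ ρ` (`|aᵢ| ρ^(i-1) < |a₁|` for `i ≥ 2`) then
`P` is a *similitude* on this disc: `|P y - P y'| = |a₁| |y - y'|` (`map_eval_sub_eval`). Hence `P`
is injective on the disc, the root of `P - c` in the disc (if any) is unique and depends
isometrically on `c` (`map_sub_eq_of_eval_eq`), and it is fixed by valuation-preserving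
automorphisms fixing the coefficients. Mathlib only.
-/
import Mathlib
import Fermat.Agent.BR.NewtonPoly

set_option autoImplicit false

namespace Fermat.Agent.BR.Newton

open Polynomial

variable {K : Type*} [Field K] {Γ₀ : Type*} [LinearOrderedCommGroupWithZero Γ₀]
  (v : Valuation K Γ₀)

/-- the divided difference `(yⁱ - y'ⁱ)/(y - y')` -/
def dq (y y' : K) (i : ℕ) : K := ∑ j ∈ Finset.range i, y ^ j * y' ^ (i - 1 - j)

theorem dq_mul (y y' : K) (i : ℕ) : dq y y' i * (y - y') = y ^ i - y' ^ i :=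
  geom_sum₂_mul y y' i

@[simp] theorem dq_zero (y y' : K) : dq y y' 0 = 0 := by simp [dq]

@[simp] theorem dq_one (y y' : K) : dq y y' 1 = 1 := by simp [dq]

theorem map_dq_le {ρ : Γ₀} {y y' : K} (hy : v y ≤ ρ) (hy' : v y' ≤ ρ) (i : ℕ) :
    v (dq y y' (i + 1)) ≤ ρ ^ i := by
  apply v.map_sum_le
  intro j hj
  have hj' : j < i + 1 := Finset.mem_range.mp hj
  rw [map_mul, map_pow, map_pow]
  calc v y ^ j * v y' ^ (i + 1 - 1 - j) ≤ ρ ^ j * ρ ^ (i + 1 - 1 - j) :=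
        mul_le_mul' (pow_le_pow_left₀ zero_le hy j) (pow_le_pow_left₀ zero_le hy' _)
    _ = ρ ^ i := by rw [← pow_add]; congr 1; omega

/-- `P y - P y' = (y - y') * ∑ aᵢ (yⁱ - y'ⁱ)/(y - y')` -/
theorem eval_sub_eval (P : K[X]) (y y' : K) :
    P.eval y - P.eval y' =
      (y - y') * ∑ i ∈ Finset.range (P.natDegree + 1), P.coeff i * dq y y' i := by
  rw [eval_eq_sum_range, eval_eq_sum_range, ← Finset.sum_sub_distrib, Finset.mul_sum]
  apply Finset.sum_congr rfl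
  intro i _
  rw [← mul_sub, ← dq_mul]
  ring

/-- **Similitude on a disc**: if `|aᵢ| ρ^(i-1) < |a₁|` for all `i ≥ 2`, then
`|P y - P y'| = |a₁| |y - y'|` for `|y|, |y'| ≤ ρ`. -/
theorem map_eval_sub_eval (P : K[X]) {ρ : Γ₀} (h1 : P.coeff 1 ≠ 0)
    (hdom : ∀ i, 2 ≤ i → v (P.coeff i) * ρ ^ (i - 1) < v (P.coeff 1))
    {y y' : K} (hy : v y ≤ ρ) (hy' : v y' ≤ ρ) :
    v (P.eval y - P.eval y') = v (P.coeff 1) * v (y - y') := by
  classical
  have hdeg : 1 ≤ P.natDegree := le_natDegree_of_ne_zero h1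
  rw [eval_sub_eval, map_mul, mul_comm]
  congr 1
  have hm1 : 1 ∈ Finset.range (P.natDegree + 1) := Finset.mem_range.mpr (by omega)
  rw [map_sum_eq_of_dominant v _ (fun i => P.coeff i * dq y y' i) hm1]
  · simp
  · intro i _ hi1
    show v (P.coeff i * dq y y' i) < v (P.coeff 1 * dq y y' 1)
    rw [dq_one, mul_one]
    rcases Nat.lt_or_ge i 2 with hi | hi
    · have hi0 : i = 0 := by omega
      rw [hi0, dq_zero, mul_zero, map_zero]
      exact zero_lt_iff.mpr ((v.ne_zero_iff).mpr h1)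
    · obtain ⟨a, rfl⟩ : ∃ a, i = a + 1 := ⟨i - 1, by omega⟩
      rw [map_mul]
      calc v (P.coeff (a + 1)) * v (dq y y' (a + 1))
          ≤ v (P.coeff (a + 1)) * ρ ^ a := mul_le_mul' le_rfl (map_dq_le v hy hy' a)
        _ < v (P.coeff 1) := by
            have := hdom (a + 1) hi
            rwa [Nat.add_sub_cancel] at this

/-- `P` is injective on the disc `|y| ≤ ρ` -/
theorem eq_of_eval_eq (P : K[X]) {ρ : Γ₀} (h1 : P.coeff 1 ≠ 0)
    (hdom : ∀ i, 2 ≤ i → v (P.coeff i) * ρ ^ (i - 1) < v (P.coeff 1))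
    {y y' : K} (hy : v y ≤ ρ) (hy' : v y' ≤ ρ) (h : P.eval y = P.eval y') : y = y' := by
  have := map_eval_sub_eval v P h1 hdom hy hy'
  rw [h, sub_self, map_zero] at this
  have h0 : v (y - y') = 0 := by
    rcases mul_eq_zero.mp this.symm with h' | h'
    · exact absurd h' ((v.ne_zero_iff).mpr h1)
    · exact h'
  exact sub_eq_zero.mp ((v.zero_iff).mp h0)

/-- **Isometric dependence on the constant term**: if `P y = c` and `P y' = c'` with `y, y'` in the
disc, then `|a₁| |y - y'| = |c - c'|`. -/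
theorem map_sub_eq_of_eval_eq (P : K[X]) {ρ : Γ₀} (h1 : P.coeff 1 ≠ 0)
    (hdom : ∀ i, 2 ≤ i → v (P.coeff i) * ρ ^ (i - 1) < v (P.coeff 1))
    {y y' c c' : K} (hy : v y ≤ ρ) (hy' : v y' ≤ ρ) (hc : P.eval y = c) (hc' : P.eval y' = c') :
    v (P.coeff 1) * v (y - y') = v (c - c') := by
  rw [← hc, ← hc', map_eval_sub_eval v P h1 hdom hy hy']

/-- a point of the disc where `P` takes a value fixed by `σ` is fixed by `σ`, for every
valuation-preserving endomorphism `σ` fixing the coefficients of `P` -/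
theorem map_eq_self_of_eval_eq (P : K[X]) {ρ : Γ₀} (h1 : P.coeff 1 ≠ 0)
    (hdom : ∀ i, 2 ≤ i → v (P.coeff i) * ρ ^ (i - 1) < v (P.coeff 1))
    (σ : K →+* K) (hσ : ∀ x, v (σ x) = v x) (hPσ : P.map σ = P)
    {y c : K} (hy : v y ≤ ρ) (hc : P.eval y = c) (hσc : σ c = c) : σ y = y := by
  apply eq_of_eval_eq v P h1 hdom (by rw [hσ]; exact hy) hy
  rw [hc, ← hσc, ← hc]
  conv_lhs => rw [← hPσ]
  rw [eval_map, eval₂_at_apply]

/-- the domination hypothesis of this file from the `hhigh` hypothesis of `vertex` at `k = 1`: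
if `|aᵢ| τⁱ ≤ |a₁| τ` for `i > 1` and `0 < ρ < τ` then `|aᵢ| ρ^(i-1) < |a₁|` -/
theorem dom_of_hhigh (P : K[X]) {ρ τ : Γ₀} (hρ : 0 < ρ) (hρτ : ρ < τ) (h1 : P.coeff 1 ≠ 0)
    (hhigh : ∀ i, 1 < i → v (P.coeff i) * τ ^ i ≤ v (P.coeff 1) * τ ^ 1) :
    ∀ i, 2 ≤ i → v (P.coeff i) * ρ ^ (i - 1) < v (P.coeff 1) := by
  intro i hi
  have hlt := mul_pow_lt_of_le_high hρ hρτ (show 1 < i by omega) ((v.ne_zero_iff).mpr h1)
    (hhigh i (by omega))
  obtain ⟨a, rfl⟩ : ∃ a, i = a + 1 := ⟨i - 1, by omega⟩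
  rw [Nat.add_sub_cancel]
  rw [pow_succ, ← mul_assoc, pow_one] at hlt
  exact lt_of_mul_lt_mul_right hlt zero_le


/-- the size of a point of the disc in terms of the value taken there:
`|a₁| |y| = |P y - a₀|` -/
theorem map_coeff_one_mul_map (P : K[X]) {ρ : Γ₀} (h1 : P.coeff 1 ≠ 0)
    (hdom : ∀ i, 2 ≤ i → v (P.coeff i) * ρ ^ (i - 1) < v (P.coeff 1))
    {y : K} (hy : v y ≤ ρ) : v (P.coeff 1) * v y = v (P.eval y - P.coeff 0) := by
  have h := map_eval_sub_eval v P h1 hdom hy (show v (0 : K) ≤ ρ by rw [map_zero]; exact zero_le)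
  rw [sub_zero, ← coeff_zero_eq_eval_zero] at h
  exact h.symm

/-- **The disc `|y| ≤ ρ` is mapped bijectively onto the disc `|c - a₀| ≤ |a₁| ρ`**: existence and
uniqueness of the solution of `P y = c` in the disc, in the situation of the vertex lemma at
`k = 1` (`|aᵢ| τⁱ ≤ |a₁| τ` for `i > 1`, `0 < ρ < τ`), when `P - c` splits. -/
theorem existsUnique_eval_eq (P : K[X]) {ρ τ : Γ₀} (hρ : 0 < ρ) (hρτ : ρ < τ)
    (h1 : P.coeff 1 ≠ 0)
    (hhigh : ∀ i, 1 < i → v (P.coeff i) * τ ^ i ≤ v (P.coeff 1) * τ ^ 1)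
    {c : K} (hsplit : (P - C c).Splits) (hc : v (P.coeff 0 - c) ≤ v (P.coeff 1) * ρ) :
    ∃! y, P.eval y = c ∧ v y ≤ ρ := by
  classical
  have hco : ∀ i, 0 < i → (P - C c).coeff i = P.coeff i := by
    intro i hi
    rw [coeff_sub, coeff_C, if_neg hi.ne', sub_zero]
  have hQ1 : (P - C c).coeff 1 ≠ 0 := by rw [hco 1 one_pos]; exact h1
  have hQ0 : (P - C c) ≠ 0 := fun h => hQ1 (by rw [h, coeff_zero])
  obtain ⟨-, hcard⟩ := vertex v (P - C c) hsplit 1 hρ hρτ hQ1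
    (by
      intro i hi
      have hi0 : i = 0 := by omega
      rw [hi0, hco 1 one_pos, coeff_sub, coeff_C_zero, pow_zero, mul_one, pow_one]
      exact hc)
    (by
      intro i hi
      rw [hco i (by omega), hco 1 one_pos]
      exact hhigh i hi)
  obtain ⟨y, ⟨hy1, hy2⟩, hyu⟩ := existsUnique_of_card_filter_eq_one (P - C c) hQ0
    (fun y => v y ≤ ρ) hcard
  have hev : ∀ z, (P - C c).eval z = 0 ↔ P.eval z = c := by
    intro z
    rw [eval_sub, eval_C, sub_eq_zero]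
  exact ⟨y, ⟨(hev y).mp hy1, hy2⟩, fun z hz => hyu z ⟨(hev z).mpr hz.1, hz.2⟩⟩

/-- the same over an algebraically closed field -/
theorem existsUnique_eval_eq_of_isAlgClosed [IsAlgClosed K] (P : K[X]) {ρ τ : Γ₀} (hρ : 0 < ρ)
    (hρτ : ρ < τ) (h1 : P.coeff 1 ≠ 0)
    (hhigh : ∀ i, 1 < i → v (P.coeff i) * τ ^ i ≤ v (P.coeff 1) * τ ^ 1)
    {c : K} (hc : v (P.coeff 0 - c) ≤ v (P.coeff 1) * ρ) :
    ∃! y, P.eval y = c ∧ v y ≤ ρ :=
  existsUnique_eval_eq v P hρ hρτ h1 hhigh (IsAlgClosed.splits _) hc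

end Fermat.Agent.BR.Newton
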