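/-
Program B (bad reduction), block B2, node NP-NODE, general form (helper20).
The local equation of a node of thickness `v(π)` in the shape delivered by the Kronecker congruence
at ANY lift `(a, b)` of a point `(ā, ā^q)`:
`G(x, y) = (p(x) - y) (x - r(y)) + π R(x, y)`,
`p, r` integral one-variable polynomials whose constant and linear coefficients lie in the maximal
ideal (`SmallLow v p`; e.g. `p = (a + T)^q - b`, `r = (b + T)^q - a`), `R` integral with unit
constant term, `π` any nonzero element of the maximal ideal.  Coordinates `X' = x - r(y)`,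
`Y' = y - p(x)`.  Same theorems as in `BR/NodeNewton.lean` (which is the case `p = r = T^q`):
* `annulus_of_zero`: `|X'| |Y'| = |π|`, `|π| < |X'|, |Y'| < 1` on the zeros in the open unit bidisc;
* `zero_unique_of_coordX/Y`, `coordX_injective`, `coordY_injective` (no algebraic closedness);
* `exists_zero_of_coordX/Y`, `existsUnique_zero_of_coordX/Y` (`K` algebraically closed): the annulus
  bijection zeros in the open unit bidisc `↔ {c : |π| < |c| < 1}`;
* `map_y_of_coordX`, `map_x_of_coordY`: position of the point;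
* `map_nodeEqG`, `nodeEqG_map_eq_zero`, `zero_map_of_coordX/Y`, `map_eq_self_of_coordX/Y`:
  equivariance under valuation-preserving ring endomorphisms fixing the equation;
* `smallLow_X_pow`, `smallLow_shift_pow`: the two basic examples of `SmallLow`.
-/
import Mathlib
import Fermat.Agent.BR.NodeNewton

set_option autoImplicit false

namespace Fermat.Agent.BR.NodeNewtonGen

open Polynomial
open Fermat.Agent.BR.NodeNewton
open scoped Polynomial.Bivariate

variable {K : Type*} [Field K] {Γ₀ : Type*} [LinearOrderedCommGroupWithZero Γ₀]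
  {v : Valuation K Γ₀}

/-! ### polynomials congruent to a multiple of `T^2` modulo the maximal ideal -/

variable (v) in
/-- integral polynomials whose constant and linear coefficients lie in the maximal ideal -/
structure SmallLow (p : K[X]) : Prop where
  int : IntCoeff v p
  c0 : v (p.coeff 0) < 1
  c1 : v (p.coeff 1) < 1

theorem map_natCast_le_one (n : ℕ) : v (n : K) ≤ 1 := by
  induction n with
  | zero => simp
  | succ n ih =>
    rw [Nat.cast_succ]
    exact le_trans (v.map_add _ _) (max_le ih (by simp))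

theorem intCoeff_derivative {p : K[X]} (hp : IntCoeff v p) : IntCoeff v (derivative p) := fun n => by
  rw [coeff_derivative, map_mul]
  have h : v ((n : K) + 1) ≤ 1 := by
    have := map_natCast_le_one (v := v) (n + 1)
    rwa [Nat.cast_succ] at this
  exact mul_le_one' (hp _) h

/-- a `SmallLow` polynomial maps the open unit disc to itself -/
theorem SmallLow.eval_lt {p : K[X]} (hp : SmallLow v p) {w : K} (hw : v w < 1) :
    v (p.eval w) < 1 := by
  have e : p.eval w = (p.eval w - p.coeff 0) + p.coeff 0 := by ring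
  rw [e]
  exact lt_of_le_of_lt (v.map_add _ _) (max_lt (hp.int.eval_sub_coeff_zero_lt hw) hp.c0)

/-- composition of `SmallLow` polynomials, with a shift in the open unit disc -/
theorem SmallLow.comp_add {p r : K[X]} (hp : SmallLow v p) (hr : SmallLow v r) {c : K}
    (hc : v c < 1) : SmallLow v (p.comp (C c + r)) := by
  have hg : IntCoeff v (C c + r) := (IntCoeff.C hc.le).add hr.int
  have hg0 : v ((C c + r).eval 0) < 1 := by
    rw [eval_add, eval_C, ← coeff_zero_eq_eval_zero]
    exact lt_of_le_of_lt (v.map_add _ _) (max_lt hc hr.c0)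
  refine ⟨hp.int.comp hg, ?_, ?_⟩
  · rw [coeff_zero_eq_eval_zero, eval_comp]
    exact hp.eval_lt hg0
  · have h1 : (p.comp (C c + r)).coeff 1 = (derivative (p.comp (C c + r))).coeff 0 := by
      rw [coeff_derivative]
      simp
    rw [h1, derivative_comp, coeff_zero_eq_eval_zero, eval_mul, eval_comp, map_mul]
    have hd : (derivative (C c + r)).eval 0 = r.coeff 1 := by
      rw [derivative_add, derivative_C, zero_add, ← coeff_zero_eq_eval_zero, coeff_derivative]
      simp
    rw [hd]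
    calc v (r.coeff 1) * v ((derivative p).eval ((C c + r).eval 0))
        ≤ v (r.coeff 1) * 1 :=
          mul_le_mul' le_rfl ((intCoeff_derivative hp.int).eval_le hg0.le)
      _ = v (r.coeff 1) := mul_one _
      _ < 1 := hr.c1

/-- `T^q` is `SmallLow` for `2 ≤ q` -/
theorem smallLow_X_pow {q : ℕ} (hq : 2 ≤ q) : SmallLow v (X ^ q : K[X]) := by
  refine ⟨IntCoeff.X.pow q, ?_, ?_⟩
  · rw [coeff_X_pow, if_neg (by omega)]
    simp
  · rw [coeff_X_pow, if_neg (by omega)]
    simp

/-- `(T + a)^q - b` is `SmallLow` when `a, b` are integral, `a^q ≡ b` and `q ≡ 0` modulo the maximal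
ideal -/
theorem smallLow_shift_pow {q : ℕ} {a b : K} (ha : v a ≤ 1) (hb : v b ≤ 1)
    (hab : v (a ^ q - b) < 1) (hqK : v (q : K) < 1) : SmallLow v ((X + C a) ^ q - C b : K[X]) := by
  refine ⟨((IntCoeff.X.add (IntCoeff.C ha)).pow q).sub (IntCoeff.C hb), ?_, ?_⟩
  · rw [coeff_sub, coeff_X_add_C_pow, coeff_C_zero]
    simpa using hab
  · rw [coeff_sub, coeff_X_add_C_pow, coeff_C, if_neg one_ne_zero, sub_zero, Nat.choose_one_right,
      map_mul, map_pow]
    calc v a ^ (q - 1) * v (q : K) ≤ 1 * v (q : K) := mul_le_mul' (pow_le_one' ha _) le_rfl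
      _ = v (q : K) := one_mul _
      _ < 1 := hqK

/-! ### the fibre polynomial -/

/-- the polynomial `c (S(T) - T) + π Rc(T)` -/
noncomputable def fibreG (S : K[X]) (pi c : K) (Rc : K[X]) : K[X] :=
  C c * (S - X) + C pi * Rc

theorem fibreG_eval (S : K[X]) (pi c : K) (Rc : K[X]) (y : K) :
    (fibreG S pi c Rc).eval y = c * (S.eval y - y) + pi * Rc.eval y := by
  simp [fibreG]

theorem fibreG_coeff (S : K[X]) (pi c : K) (Rc : K[X]) (i : ℕ) :
    (fibreG S pi c Rc).coeff i = c * (S.coeff i - (X : K[X]).coeff i) + pi * Rc.coeff i := by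
  rw [fibreG, coeff_add, coeff_C_mul, coeff_C_mul, coeff_sub]

theorem fibreG_coeff_zero (S : K[X]) (pi c : K) (Rc : K[X]) :
    (fibreG S pi c Rc).coeff 0 = c * S.eval 0 + pi * Rc.eval 0 := by
  rw [fibreG_coeff, coeff_X_zero, sub_zero, ← coeff_zero_eq_eval_zero, ← coeff_zero_eq_eval_zero]

theorem map_fibreG_coeff_one {S : K[X]} (hS : SmallLow v S) {pi c : K} (hc2 : v pi < v c)
    {Rc : K[X]} (hRc : IntCoeff v Rc) : v ((fibreG S pi c Rc).coeff 1) = v c := by
  rw [fibreG_coeff, coeff_X_one]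
  have h1 : v (S.coeff 1 - 1) = 1 := by
    rw [Valuation.map_sub_eq_of_lt_right _ (by rw [map_one]; exact hS.c1), map_one]
  have h : v (pi * Rc.coeff 1) < v (c * (S.coeff 1 - 1)) := by
    rw [map_mul, map_mul, h1, mul_one]
    calc v pi * v (Rc.coeff 1) ≤ v pi * 1 := mul_le_mul' le_rfl (hRc 1)
      _ = v pi := mul_one _
      _ < v c := hc2
  rw [Valuation.map_add_eq_of_lt_left _ h, map_mul, h1, mul_one]

theorem map_fibreG_coeff_le {S : K[X]} (hS : IntCoeff v S) {pi c : K} (hc2 : v pi < v c)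
    {Rc : K[X]} (hRc : IntCoeff v Rc) (i : ℕ) : v ((fibreG S pi c Rc).coeff i) ≤ v c := by
  rw [fibreG_coeff]
  refine le_trans (v.map_add _ _) (max_le ?_ ?_)
  · rw [map_mul]
    have h : v (S.coeff i - (X : K[X]).coeff i) ≤ 1 := by
      rw [← coeff_sub]
      exact (hS.sub IntCoeff.X) i
    calc v c * _ ≤ v c * 1 := mul_le_mul' le_rfl h
      _ = v c := mul_one _
  · rw [map_mul]
    calc v pi * v (Rc.coeff i) ≤ v pi * 1 := mul_le_mul' le_rfl (hRc i)
      _ = v pi := mul_one _
      _ ≤ v c := hc2.le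

theorem map_fibreG_coeff_zero_lt {S : K[X]} (hS : SmallLow v S) {pi c : K} (hc2 : v pi < v c)
    {Rc : K[X]} (hRc : IntCoeff v Rc) : v ((fibreG S pi c Rc).coeff 0) < v c := by
  have hc0 : 0 < v c := lt_of_le_of_lt zero_le hc2
  rw [fibreG_coeff, coeff_X_zero, sub_zero]
  refine lt_of_le_of_lt (v.map_add _ _) (max_lt ?_ ?_)
  · rw [map_mul]
    calc v c * v (S.coeff 0) < v c * 1 := mul_lt_mul_of_pos_left hS.c0 hc0
      _ = v c := mul_one _
  · rw [map_mul]
    calc v pi * v (Rc.coeff 0) ≤ v pi * 1 := mul_le_mul' le_rfl (hRc 0)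
      _ = v pi := mul_one _
      _ < v c := hc2

/-- uniqueness of the root of the fibre polynomial in the open unit disc -/
theorem fibreG_unique {S : K[X]} (hS : SmallLow v S) {pi c : K} (hc2 : v pi < v c)
    {Rc : K[X]} (hRc : IntCoeff v Rc) {y₁ y₂ : K} (h₁ : v y₁ < 1) (h₂ : v y₂ < 1)
    (e₁ : c * (S.eval y₁ - y₁) + pi * Rc.eval y₁ = 0)
    (e₂ : c * (S.eval y₂ - y₂) + pi * Rc.eval y₂ = 0) : y₁ = y₂ := by
  have hc0 : 0 < v c := lt_of_le_of_lt zero_le hc2
  have h1v := map_fibreG_coeff_one hS hc2 hRc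
  have h1 : (fibreG S pi c Rc).coeff 1 ≠ 0 := by
    intro h
    rw [h, map_zero] at h1v
    exact hc0.ne h1v
  refine root_unique_of_dominant_linear (v := v) h1 (fun i => ?_) h₁ h₂ ?_ ?_
  · rw [h1v]
    exact map_fibreG_coeff_le hS.int hc2 hRc i
  · rw [fibreG_eval]; exact e₁
  · rw [fibreG_eval]; exact e₂

/-- existence of a root of the fibre polynomial in the open unit disc -/
theorem fibreG_exists [IsAlgClosed K] {S : K[X]} (hS : SmallLow v S) {pi c : K}
    (hc2 : v pi < v c) {Rc : K[X]} (hRc : IntCoeff v Rc) :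
    ∃ y, v y < 1 ∧ c * (S.eval y - y) + pi * Rc.eval y = 0 := by
  have h01 : v ((fibreG S pi c Rc).coeff 0) < v ((fibreG S pi c Rc).coeff 1) := by
    rw [map_fibreG_coeff_one hS hc2 hRc]
    exact map_fibreG_coeff_zero_lt hS hc2 hRc
  obtain ⟨y, hy, e⟩ := exists_root_lt_one (IsAlgClosed.splits _) h01
  exact ⟨y, hy, by rw [← fibreG_eval]; exact e⟩

/-- the size of the root of the fibre polynomial in the open unit disc -/
theorem fibreG_size {S : K[X]} (hS : SmallLow v S) {pi c : K} (hc2 : v pi < v c)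
    {Rc : K[X]} (hRc : IntCoeff v Rc) {y : K} (hy : v y < 1)
    (e : c * (S.eval y - y) + pi * Rc.eval y = 0) :
    v y * v c = v (c * S.eval 0 + pi * Rc.eval 0) := by
  have h1v := map_fibreG_coeff_one hS hc2 hRc
  have h := map_coeff_zero_of_dominant_linear (v := v) (P := fibreG S pi c Rc)
    (fun i => by rw [h1v]; exact map_fibreG_coeff_le hS.int hc2 hRc i) hy
    (by rw [fibreG_eval]; exact e)
  rw [h1v, fibreG_coeff_zero] at h
  exact h.symm

/-! ### the two substitutions -/

/-- `R(g(T), T)` as a polynomial in `T` -/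
noncomputable def substXG (g : K[X]) (R : K[X][Y]) : K[X] :=
  ∑ i ∈ Finset.range (R.natDegree + 1), (R.coeff i).comp g * X ^ i

theorem substXG_eval (g : K[X]) (R : K[X][Y]) (y : K) :
    (substXG g R).eval y = R.evalEval (g.eval y) y := by
  rw [substXG, eval_finsetSum, evalEval_eq_sum]
  apply Finset.sum_congr rfl
  intro i _
  simp [eval_comp]

theorem substXG_intCoeff {g : K[X]} (hg : IntCoeff v g) {R : K[X][Y]} (hR : IntCoeff₂ v R) :
    IntCoeff v (substXG g R) :=
  IntCoeff.sum _ _ fun i _ => ((hR i).comp hg).mul (IntCoeff.X.pow i)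

/-- `R(T, g(T))` as a polynomial in `T` -/
noncomputable def substYG (g : K[X]) (R : K[X][Y]) : K[X] := R.eval g

theorem substYG_eval (g : K[X]) (R : K[X][Y]) (x : K) :
    (substYG g R).eval x = R.evalEval x (g.eval x) := by
  have h : R.eval g = ∑ i ∈ Finset.range (R.natDegree + 1), R.coeff i * g ^ i :=
    eval_eq_sum_range _
  rw [substYG, h, eval_finsetSum, evalEval_eq_sum]
  simp

theorem substYG_intCoeff {g : K[X]} (hg : IntCoeff v g) {R : K[X][Y]} (hR : IntCoeff₂ v R) :
    IntCoeff v (substYG g R) := by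
  have h : R.eval g = ∑ i ∈ Finset.range (R.natDegree + 1), R.coeff i * g ^ i :=
    eval_eq_sum_range _
  rw [substYG, h]
  exact IntCoeff.sum _ _ fun i _ => (hR i).mul (hg.pow i)

/-! ### the node equation -/

/-- the local equation of a node: `(p(x) - y) (x - r(y)) + π R(x, y)` -/
noncomputable def nodeEqG (p r : K[X]) (pi : K) (R : K[X][Y]) (x y : K) : K :=
  (p.eval x - y) * (x - r.eval y) + pi * R.evalEval x y

/-- the case `p = r = T^q` is the node equation of `BR/NodeNewton.lean` -/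
theorem nodeEqG_X_pow (q : ℕ) (pi : K) (R : K[X][Y]) (x y : K) :
    nodeEqG (X ^ q) (X ^ q) pi R x y = nodeEq q pi R x y := by
  simp [nodeEqG, nodeEq]

/-- the node equation as a bivariate polynomial (`x = C X`, `y = Y`) -/
noncomputable def nodePolyG (p r : K[X]) (pi : K) (R : K[X][Y]) : K[X][Y] :=
  (C p - Y) * (C X - r.map C) + C (C pi) * R

theorem nodePolyG_evalEval (p r : K[X]) (pi : K) (R : K[X][Y]) (x y : K) :
    (nodePolyG p r pi R).evalEval x y = nodeEqG p r pi R x y := by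
  simp [nodePolyG, nodeEqG, evalEval_add, evalEval_mul, evalEval_sub, evalEval_C, evalEval_map_C]

theorem nodeEqG_coordX (p r : K[X]) (pi : K) (R : K[X][Y]) (c y : K) :
    nodeEqG p r pi R (c + r.eval y) y =
      c * ((p.comp (C c + r)).eval y - y) + pi * (substXG (C c + r) R).eval y := by
  rw [substXG_eval, nodeEqG, eval_comp]
  simp only [eval_add, eval_C]
  ring

theorem nodeEqG_coordY (p r : K[X]) (pi : K) (R : K[X][Y]) (c x : K) :
    nodeEqG p r pi R x (c + p.eval x) =
      c * ((r.comp (C c + p)).eval x - x) + pi * (substYG (C c + p) R).eval x := by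
  rw [substYG_eval, nodeEqG, eval_comp]
  simp only [eval_add, eval_C]
  ring

/-- **The annulus.** On the zeros of the node equation in the open unit bidisc the functions
`X' = x - r(y)` and `Y' = y - p(x)` satisfy `|X'| |Y'| = |π|` and `|π| < |X'|, |Y'| < 1`. -/
theorem annulus_of_zero {p r : K[X]} (hp : SmallLow v p) (hr : SmallLow v r) {pi : K}
    (hpi : pi ≠ 0) {R : K[X][Y]} (hR : IntCoeff₂ v R) (hγ : v ((R.coeff 0).coeff 0) = 1)
    {x y : K} (hx : v x < 1) (hy : v y < 1) (h0 : nodeEqG p r pi R x y = 0) :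
    v (x - r.eval y) * v (y - p.eval x) = v pi ∧ v pi < v (x - r.eval y) ∧
      v (x - r.eval y) < 1 ∧ v pi < v (y - p.eval x) ∧ v (y - p.eval x) < 1 := by
  have hprod : (x - r.eval y) * (y - p.eval x) = pi * R.evalEval x y := by
    unfold nodeEqG at h0
    linear_combination -h0
  have hu := hR.evalEval_eq_one hγ hx hy
  have hv : v (x - r.eval y) * v (y - p.eval x) = v pi := by
    rw [← map_mul, hprod, map_mul, hu, mul_one]
  have hpi0 : v pi ≠ 0 := (Valuation.ne_zero_iff v).2 hpi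
  have hX : v (x - r.eval y) < 1 := v.map_sub_lt hx (hr.eval_lt hy)
  have hY : v (y - p.eval x) < 1 := v.map_sub_lt hy (hp.eval_lt hx)
  have hX0 : v (x - r.eval y) ≠ 0 := fun h => hpi0 (by rw [← hv, h, zero_mul])
  have hY0 : v (y - p.eval x) ≠ 0 := fun h => hpi0 (by rw [← hv, h, mul_zero])
  refine ⟨hv, ?_, hX, ?_, hY⟩
  · calc v pi = v (x - r.eval y) * v (y - p.eval x) := hv.symm
      _ < v (x - r.eval y) * 1 := mul_lt_mul_of_pos_left hY (zero_lt_iff.2 hX0)
      _ = v (x - r.eval y) := mul_one _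
  · calc v pi = v (x - r.eval y) * v (y - p.eval x) := hv.symm
      _ < 1 * v (y - p.eval x) := mul_lt_mul_of_pos_right hX (zero_lt_iff.2 hY0)
      _ = v (y - p.eval x) := one_mul _

/-! ### the annulus bijection -/

/-- **Injectivity of the coordinate `X' = x - r(y)`** on the zeros of the node equation in the
open unit bidisc lying over the annulus `|π| < |X'| < 1`. -/
theorem zero_unique_of_coordX {p r : K[X]} (hp : SmallLow v p) (hr : SmallLow v r) {pi : K}
    {R : K[X][Y]} (hR : IntCoeff₂ v R) {c : K} (hc1 : v c < 1) (hc2 : v pi < v c)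
    {x y x' y' : K} (hy : v y < 1) (hy' : v y' < 1)
    (h0 : nodeEqG p r pi R x y = 0) (h0' : nodeEqG p r pi R x' y' = 0)
    (hc : x - r.eval y = c) (hc' : x' - r.eval y' = c) : x = x' ∧ y = y' := by
  have ex : x = c + r.eval y := by rw [← hc]; ring
  have ex' : x' = c + r.eval y' := by rw [← hc']; ring
  rw [ex, nodeEqG_coordX] at h0
  rw [ex', nodeEqG_coordX] at h0'
  have hg : IntCoeff v (C c + r) := (IntCoeff.C hc1.le).add hr.int
  have hyy := fibreG_unique (hp.comp_add hr hc1) hc2 (substXG_intCoeff hg hR) hy hy' h0 h0'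
  refine ⟨?_, hyy⟩
  rw [ex, ex', hyy]

/-- **Injectivity of the coordinate `Y' = y - p(x)`**. -/
theorem zero_unique_of_coordY {p r : K[X]} (hp : SmallLow v p) (hr : SmallLow v r) {pi : K}
    {R : K[X][Y]} (hR : IntCoeff₂ v R) {c : K} (hc1 : v c < 1) (hc2 : v pi < v c)
    {x y x' y' : K} (hx : v x < 1) (hx' : v x' < 1)
    (h0 : nodeEqG p r pi R x y = 0) (h0' : nodeEqG p r pi R x' y' = 0)
    (hc : y - p.eval x = c) (hc' : y' - p.eval x' = c) : x = x' ∧ y = y' := by
  have ey : y = c + p.eval x := by rw [← hc]; ring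
  have ey' : y' = c + p.eval x' := by rw [← hc']; ring
  rw [ey, nodeEqG_coordY] at h0
  rw [ey', nodeEqG_coordY] at h0'
  have hg : IntCoeff v (C c + p) := (IntCoeff.C hc1.le).add hp.int
  have hxx := fibreG_unique (hr.comp_add hp hc1) hc2 (substYG_intCoeff hg hR) hx hx' h0 h0'
  refine ⟨hxx, ?_⟩
  rw [ey, ey', hxx]

/-- **Surjectivity of the coordinate `X' = x - r(y)`** onto the annulus `|π| < |c| < 1`
(`K` algebraically closed). -/
theorem exists_zero_of_coordX [IsAlgClosed K] {p r : K[X]} (hp : SmallLow v p)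
    (hr : SmallLow v r) {pi : K} {R : K[X][Y]} (hR : IntCoeff₂ v R) {c : K} (hc1 : v c < 1)
    (hc2 : v pi < v c) :
    ∃ x y : K, v x < 1 ∧ v y < 1 ∧ nodeEqG p r pi R x y = 0 ∧ x - r.eval y = c := by
  have hg : IntCoeff v (C c + r) := (IntCoeff.C hc1.le).add hr.int
  obtain ⟨y, hy, e⟩ := fibreG_exists (hp.comp_add hr hc1) hc2 (substXG_intCoeff hg hR)
  refine ⟨c + r.eval y, y, ?_, hy, ?_, by ring⟩
  · exact lt_of_le_of_lt (v.map_add _ _) (max_lt hc1 (hr.eval_lt hy))
  · rw [nodeEqG_coordX]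
    exact e

/-- **Surjectivity of the coordinate `Y' = y - p(x)`** onto the annulus `|π| < |c| < 1`. -/
theorem exists_zero_of_coordY [IsAlgClosed K] {p r : K[X]} (hp : SmallLow v p)
    (hr : SmallLow v r) {pi : K} {R : K[X][Y]} (hR : IntCoeff₂ v R) {c : K} (hc1 : v c < 1)
    (hc2 : v pi < v c) :
    ∃ x y : K, v x < 1 ∧ v y < 1 ∧ nodeEqG p r pi R x y = 0 ∧ y - p.eval x = c := by
  have hg : IntCoeff v (C c + p) := (IntCoeff.C hc1.le).add hp.int
  obtain ⟨x, hx, e⟩ := fibreG_exists (hr.comp_add hp hc1) hc2 (substYG_intCoeff hg hR)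
  refine ⟨x, c + p.eval x, hx, ?_, ?_, by ring⟩
  · exact lt_of_le_of_lt (v.map_add _ _) (max_lt hc1 (hp.eval_lt hx))
  · rw [nodeEqG_coordY]
    exact e

/-- **The annulus bijection** (coordinate `X' = x - r(y)`): for every `c` with `|π| < |c| < 1`
there is exactly one zero of the node equation in the open unit bidisc with `x - r(y) = c`. -/
theorem existsUnique_zero_of_coordX [IsAlgClosed K] {p r : K[X]} (hp : SmallLow v p)
    (hr : SmallLow v r) {pi : K} {R : K[X][Y]} (hR : IntCoeff₂ v R) {c : K} (hc1 : v c < 1)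
    (hc2 : v pi < v c) :
    ∃! z : K × K, v z.1 < 1 ∧ v z.2 < 1 ∧ nodeEqG p r pi R z.1 z.2 = 0 ∧
      z.1 - r.eval z.2 = c := by
  obtain ⟨x, y, hx, hy, h0, hc⟩ := exists_zero_of_coordX hp hr hR hc1 hc2
  refine ⟨(x, y), ⟨hx, hy, h0, hc⟩, ?_⟩
  rintro ⟨x', y'⟩ ⟨_, hy', h0', hc'⟩
  obtain ⟨e1, e2⟩ := zero_unique_of_coordX hp hr hR hc1 hc2 hy' hy h0' h0 hc' hc
  exact Prod.ext e1 e2

/-- **The annulus bijection** (coordinate `Y' = y - p(x)`). -/
theorem existsUnique_zero_of_coordY [IsAlgClosed K] {p r : K[X]} (hp : SmallLow v p)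
    (hr : SmallLow v r) {pi : K} {R : K[X][Y]} (hR : IntCoeff₂ v R) {c : K} (hc1 : v c < 1)
    (hc2 : v pi < v c) :
    ∃! z : K × K, v z.1 < 1 ∧ v z.2 < 1 ∧ nodeEqG p r pi R z.1 z.2 = 0 ∧
      z.2 - p.eval z.1 = c := by
  obtain ⟨x, y, hx, hy, h0, hc⟩ := exists_zero_of_coordY hp hr hR hc1 hc2
  refine ⟨(x, y), ⟨hx, hy, h0, hc⟩, ?_⟩
  rintro ⟨x', y'⟩ ⟨hx', _, h0', hc'⟩
  obtain ⟨e1, e2⟩ := zero_unique_of_coordY hp hr hR hc1 hc2 hx' hx h0' h0 hc' hc
  exact Prod.ext e1 e2

/-- the coordinate `X' = x - r(y)` is injective on all the zeros in the open unit bidisc -/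
theorem coordX_injective {p r : K[X]} (hp : SmallLow v p) (hr : SmallLow v r) {pi : K}
    (hpi : pi ≠ 0) {R : K[X][Y]} (hR : IntCoeff₂ v R) (hγ : v ((R.coeff 0).coeff 0) = 1)
    {x y x' y' : K} (hx : v x < 1) (hy : v y < 1) (hy' : v y' < 1)
    (h0 : nodeEqG p r pi R x y = 0) (h0' : nodeEqG p r pi R x' y' = 0)
    (hc : x - r.eval y = x' - r.eval y') : x = x' ∧ y = y' := by
  obtain ⟨-, h2, h3, -, -⟩ := annulus_of_zero hp hr hpi hR hγ hx hy h0
  exact zero_unique_of_coordX hp hr hR h3 h2 hy hy' h0 h0' rfl hc.symm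

/-- the coordinate `Y' = y - p(x)` is injective on all the zeros in the open unit bidisc -/
theorem coordY_injective {p r : K[X]} (hp : SmallLow v p) (hr : SmallLow v r) {pi : K}
    (hpi : pi ≠ 0) {R : K[X][Y]} (hR : IntCoeff₂ v R) (hγ : v ((R.coeff 0).coeff 0) = 1)
    {x y x' y' : K} (hx : v x < 1) (hy : v y < 1) (hx' : v x' < 1)
    (h0 : nodeEqG p r pi R x y = 0) (h0' : nodeEqG p r pi R x' y' = 0)
    (hc : y - p.eval x = y' - p.eval x') : x = x' ∧ y = y' := by
  obtain ⟨-, -, -, h4, h5⟩ := annulus_of_zero hp hr hpi hR hγ hx hy h0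
  exact zero_unique_of_coordY hp hr hR h5 h4 hx hx' h0 h0' rfl hc.symm

/-! ### position of the point with given annulus coordinate -/

/-- the size of `y` at the zero with `x - r(y) = c`:
`|y| |c| = |c p(c + r(0)) + π R(c + r(0), 0)|` -/
theorem map_y_of_coordX {p r : K[X]} (hp : SmallLow v p) (hr : SmallLow v r) {pi : K}
    {R : K[X][Y]} (hR : IntCoeff₂ v R) {c : K} (hc1 : v c < 1) (hc2 : v pi < v c) {x y : K}
    (hy : v y < 1) (h0 : nodeEqG p r pi R x y = 0) (hc : x - r.eval y = c) :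
    v y * v c = v (c * p.eval (c + r.eval 0) + pi * R.evalEval (c + r.eval 0) 0) := by
  have ex : x = c + r.eval y := by rw [← hc]; ring
  rw [ex, nodeEqG_coordX] at h0
  have hg : IntCoeff v (C c + r) := (IntCoeff.C hc1.le).add hr.int
  have h := fibreG_size (hp.comp_add hr hc1) hc2 (substXG_intCoeff hg hR) hy h0
  rw [substXG_eval, eval_comp] at h
  simpa only [eval_add, eval_C] using h

/-- the size of `x` at the zero with `y - p(x) = c`:
`|x| |c| = |c r(c + p(0)) + π R(0, c + p(0))|` -/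
theorem map_x_of_coordY {p r : K[X]} (hp : SmallLow v p) (hr : SmallLow v r) {pi : K}
    {R : K[X][Y]} (hR : IntCoeff₂ v R) {c : K} (hc1 : v c < 1) (hc2 : v pi < v c) {x y : K}
    (hx : v x < 1) (h0 : nodeEqG p r pi R x y = 0) (hc : y - p.eval x = c) :
    v x * v c = v (c * r.eval (c + p.eval 0) + pi * R.evalEval 0 (c + p.eval 0)) := by
  have ey : y = c + p.eval x := by rw [← hc]; ring
  rw [ey, nodeEqG_coordY] at h0
  have hg : IntCoeff v (C c + p) := (IntCoeff.C hc1.le).add hp.int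
  have h := fibreG_size (hr.comp_add hp hc1) hc2 (substYG_intCoeff hg hR) hx h0
  rw [substYG_eval, eval_comp] at h
  simpa only [eval_add, eval_C] using h

/-! ### equivariance -/

/-- ring homomorphisms transport the node equation -/
theorem map_nodeEqG (σ : K →+* K) (p r : K[X]) (pi : K) (R : K[X][Y]) (x y : K) :
    σ (nodeEqG p r pi R x y) =
      nodeEqG (p.map σ) (r.map σ) (σ pi) (R.map (mapRingHom σ)) (σ x) (σ y) := by
  simp only [nodeEqG, map_add, map_mul, map_sub, map_mapRingHom_evalEval, eval_map,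
    eval₂_at_apply]

/-- a ring endomorphism fixing the node equation permutes its zeros -/
theorem nodeEqG_map_eq_zero (σ : K →+* K) {p r : K[X]} (hpσ : p.map σ = p) (hrσ : r.map σ = r)
    {pi : K} {R : K[X][Y]} (hpi : σ pi = pi) (hRσ : R.map (mapRingHom σ) = R) {x y : K}
    (h0 : nodeEqG p r pi R x y = 0) : nodeEqG p r pi R (σ x) (σ y) = 0 := by
  have h := map_nodeEqG σ p r pi R x y
  rw [h0, map_zero, hpi, hRσ, hpσ, hrσ] at h
  exact h.symm

theorem map_eval_of_map_eq (σ : K →+* K) {p : K[X]} (hpσ : p.map σ = p) (x : K) :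
    σ (p.eval x) = p.eval (σ x) := by
  conv_rhs => rw [← hpσ]
  rw [eval_map, eval₂_at_apply]

/-- **Equivariance of the annulus coordinate** `X' = x - r(y)`: a valuation-preserving ring
endomorphism `σ` fixing the node equation sends the zero with coordinate `c` to the zero with
coordinate `σ c`. -/
theorem zero_map_of_coordX (σ : K →+* K) (hσ : ∀ a, v (σ a) = v a) {p r : K[X]}
    (hp : SmallLow v p) (hr : SmallLow v r) (hpσ : p.map σ = p) (hrσ : r.map σ = r) {pi : K}
    (hpi : σ pi = pi) {R : K[X][Y]} (hR : IntCoeff₂ v R) (hRσ : R.map (mapRingHom σ) = R)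
    {c : K} (hc1 : v c < 1) (hc2 : v pi < v c) {x y x' y' : K} (hy : v y < 1) (hy' : v y' < 1)
    (h0 : nodeEqG p r pi R x y = 0) (h0' : nodeEqG p r pi R x' y' = 0)
    (hc : x - r.eval y = c) (hc' : x' - r.eval y' = σ c) : x' = σ x ∧ y' = σ y := by
  have h0σ := nodeEqG_map_eq_zero σ hpσ hrσ hpi hRσ h0
  have hcσ : σ x - r.eval (σ y) = σ c := by rw [← hc, map_sub, map_eval_of_map_eq σ hrσ]
  exact zero_unique_of_coordX hp hr hR (by rw [hσ]; exact hc1) (by rw [hσ]; exact hc2) hy'
    (by rw [hσ]; exact hy) h0' h0σ hc' hcσ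

/-- **Equivariance**, coordinate `Y' = y - p(x)`. -/
theorem zero_map_of_coordY (σ : K →+* K) (hσ : ∀ a, v (σ a) = v a) {p r : K[X]}
    (hp : SmallLow v p) (hr : SmallLow v r) (hpσ : p.map σ = p) (hrσ : r.map σ = r) {pi : K}
    (hpi : σ pi = pi) {R : K[X][Y]} (hR : IntCoeff₂ v R) (hRσ : R.map (mapRingHom σ) = R)
    {c : K} (hc1 : v c < 1) (hc2 : v pi < v c) {x y x' y' : K} (hx : v x < 1) (hx' : v x' < 1)
    (h0 : nodeEqG p r pi R x y = 0) (h0' : nodeEqG p r pi R x' y' = 0)
    (hc : y - p.eval x = c) (hc' : y' - p.eval x' = σ c) : x' = σ x ∧ y' = σ y := by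
  have h0σ := nodeEqG_map_eq_zero σ hpσ hrσ hpi hRσ h0
  have hcσ : σ y - p.eval (σ x) = σ c := by rw [← hc, map_sub, map_eval_of_map_eq σ hpσ]
  exact zero_unique_of_coordY hp hr hR (by rw [hσ]; exact hc1) (by rw [hσ]; exact hc2) hx'
    (by rw [hσ]; exact hx) h0' h0σ hc' hcσ

/-- a valuation-preserving ring endomorphism fixing the node equation and the annulus coordinate
`x - r(y)` of a zero fixes this zero -/
theorem map_eq_self_of_coordX (σ : K →+* K) (hσ : ∀ a, v (σ a) = v a) {p r : K[X]}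
    (hp : SmallLow v p) (hr : SmallLow v r) (hpσ : p.map σ = p) (hrσ : r.map σ = r) {pi : K}
    (hpi : σ pi = pi) {R : K[X][Y]} (hR : IntCoeff₂ v R) (hRσ : R.map (mapRingHom σ) = R)
    {x y : K} (hy : v y < 1) (hc1 : v (x - r.eval y) < 1) (hc2 : v pi < v (x - r.eval y))
    (h0 : nodeEqG p r pi R x y = 0) (hfix : σ (x - r.eval y) = x - r.eval y) :
    σ x = x ∧ σ y = y := by
  have h := zero_map_of_coordX σ hσ hp hr hpσ hrσ hpi hR hRσ hc1 hc2 hy hy h0 h0 rfl hfix.symm
  exact ⟨h.1.symm, h.2.symm⟩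

/-- a valuation-preserving ring endomorphism fixing the node equation and the annulus coordinate
`y - p(x)` of a zero fixes this zero -/
theorem map_eq_self_of_coordY (σ : K →+* K) (hσ : ∀ a, v (σ a) = v a) {p r : K[X]}
    (hp : SmallLow v p) (hr : SmallLow v r) (hpσ : p.map σ = p) (hrσ : r.map σ = r) {pi : K}
    (hpi : σ pi = pi) {R : K[X][Y]} (hR : IntCoeff₂ v R) (hRσ : R.map (mapRingHom σ) = R)
    {x y : K} (hx : v x < 1) (hc1 : v (y - p.eval x) < 1) (hc2 : v pi < v (y - p.eval x))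
    (h0 : nodeEqG p r pi R x y = 0) (hfix : σ (y - p.eval x) = y - p.eval x) :
    σ x = x ∧ σ y = y := by
  have h := zero_map_of_coordY σ hσ hp hr hpσ hrσ hpi hR hRσ hc1 hc2 hx hx h0 h0 rfl hfix.symm
  exact ⟨h.1.symm, h.2.symm⟩

end Fermat.Agent.BR.NodeNewtonGen
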