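/-
Program B (bad reduction), block B2 (helper20): from the Kronecker congruence to the node theorems.
Input: bivariate polynomials `Φ, Ψ` over a valued field `K` with
`Φ(x, y) = (x^q - y) (x - y^q) + q Ψ(x, y)` (Kronecker, evaluated form), `Ψ` with integral
coefficients, a point `(a, b)` with `a, b` integral, `a^q ≡ b`, `b^q ≡ a` modulo the maximal ideal
(a lift of an `F_{q^2}`-point `(ā, ā^q)`), `|q| < 1`.
Output: the zeros `(X₀, Y₀)` of `Φ` in the residue bidisc `|X₀ - a| < 1`, `|Y₀ - b| < 1`: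
* `annulus_of_zero`: if `Ψ(a, b)` is a unit, `|X₀ - Y₀^q| |Y₀ - X₀^q| = |q|`, both factors strictly
  between `|q|` and `1`;
* `zero_unique_of_coordX/Y`, `existsUnique_zero_of_coordX/Y`: the annulus bijection in the
  coordinate `X₀ - Y₀^q` (resp. `Y₀ - X₀^q`);
* `zero_map_of_coordX`, `map_eq_self_of_coordX`: equivariance under valuation-preserving ring
  endomorphisms fixing `a, b, Φ, Ψ`.
On top of `BR/NodeNewtonGen.lean`; no Teichmüller lift is needed.
-/
import Mathlib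
import Fermat.Agent.BR.NodeNewtonGen

set_option autoImplicit false

namespace Fermat.Agent.BR.NodeKron

open Polynomial
open Fermat.Agent.BR.NodeNewton Fermat.Agent.BR.NodeNewtonGen
open scoped Polynomial.Bivariate

variable {K : Type*} [Field K] {Γ₀ : Type*} [LinearOrderedCommGroupWithZero Γ₀]
  {v : Valuation K Γ₀}

/-! ### algebra of bivariate polynomials with integral coefficients -/

theorem intCoeff₂_zero : IntCoeff₂ v (0 : K[X][Y]) := fun i => by
  rw [coeff_zero]; exact IntCoeff.zero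

theorem intCoeff₂_C {p : K[X]} (hp : IntCoeff v p) : IntCoeff₂ v (C p : K[X][Y]) := fun i => by
  rw [coeff_C]
  split_ifs
  · exact hp
  · exact IntCoeff.zero

theorem intCoeff₂_one : IntCoeff₂ v (1 : K[X][Y]) := by
  have : (1 : K[X][Y]) = C 1 := by simp
  rw [this]
  exact intCoeff₂_C IntCoeff.one

theorem intCoeff₂_X : IntCoeff₂ v (X : K[X][Y]) := fun i => by
  rw [coeff_X]
  split_ifs
  · exact IntCoeff.one
  · exact IntCoeff.zero

theorem intCoeff₂_add {P Q : K[X][Y]} (hP : IntCoeff₂ v P) (hQ : IntCoeff₂ v Q) :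
    IntCoeff₂ v (P + Q) := fun i => by
  rw [coeff_add]; exact (hP i).add (hQ i)

theorem intCoeff₂_mul {P Q : K[X][Y]} (hP : IntCoeff₂ v P) (hQ : IntCoeff₂ v Q) :
    IntCoeff₂ v (P * Q) := fun i => by
  rw [coeff_mul]
  exact IntCoeff.sum _ _ fun x _ => (hP _).mul (hQ _)

theorem intCoeff₂_pow {P : K[X][Y]} (hP : IntCoeff₂ v P) (n : ℕ) : IntCoeff₂ v (P ^ n) := by
  induction n with
  | zero => rw [pow_zero]; exact intCoeff₂_one
  | succ n ih => rw [pow_succ]; exact intCoeff₂_mul ih hP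

theorem intCoeff₂_sum {ι : Type*} (s : Finset ι) (f : ι → K[X][Y])
    (h : ∀ i ∈ s, IntCoeff₂ v (f i)) : IntCoeff₂ v (∑ i ∈ s, f i) := fun n => by
  rw [finsetSum_coeff]
  exact IntCoeff.sum _ _ fun i hi => h i hi n

theorem intCoeff₂_comp {P Q : K[X][Y]} (hP : IntCoeff₂ v P) (hQ : IntCoeff₂ v Q) :
    IntCoeff₂ v (P.comp Q) := by
  rw [comp_eq_sum_left, Polynomial.sum_def]
  exact intCoeff₂_sum _ _ fun i _ => intCoeff₂_mul (intCoeff₂_C (hP i)) (intCoeff₂_pow hQ i)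

theorem intCoeff₂_map_compRingHom {P : K[X][Y]} (hP : IntCoeff₂ v P) {g : K[X]}
    (hg : IntCoeff v g) : IntCoeff₂ v (P.map (compRingHom g)) := fun i => by
  rw [coeff_map, coe_compRingHom_apply]
  exact (hP i).comp hg

theorem map_intCast_le_one (n : ℤ) : v (n : K) ≤ 1 := by
  rcases Int.natAbs_eq n with h | h
  · rw [h, Int.cast_natCast]; exact map_natCast_le_one _
  · rw [h, Int.cast_neg, Valuation.map_neg, Int.cast_natCast]; exact map_natCast_le_one _

/-- integer polynomials have integral coefficients -/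
theorem intCoeff₂_map_int (P : ℤ[X][Y]) :
    IntCoeff₂ v (P.map (mapRingHom (Int.castRingHom K))) := fun i j => by
  rw [coeff_map, coe_mapRingHom, coeff_map]
  exact map_intCast_le_one _

/-- integer polynomials are fixed by every ring endomorphism -/
theorem map_int_map (σ : K →+* K) (P : ℤ[X][Y]) :
    (P.map (mapRingHom (Int.castRingHom K))).map (mapRingHom σ) =
      P.map (mapRingHom (Int.castRingHom K)) := by
  rw [Polynomial.map_map]
  congr 1
  apply Polynomial.ringHom_ext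
  · intro n
    simp
  · simp

/-! ### translation of a bivariate polynomial -/

/-- `Ψ(a + x, b + y)` as a bivariate polynomial in `(x, y)` -/
noncomputable def shift₂ (a b : K) : K[X][Y] →+* K[X][Y] :=
  (compRingHom (X + C (C b) : K[X][Y])).comp (mapRingHom (compRingHom (X + C a : K[X])))

theorem shift₂_apply (a b : K) (P : K[X][Y]) :
    shift₂ a b P = (P.map (compRingHom (X + C a : K[X]))).comp (X + C (C b)) := rfl

theorem evalEval_shift₂ (a b x y : K) (P : K[X][Y]) :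
    (shift₂ a b P).evalEval x y = P.evalEval (x + a) (y + b) := by
  have h : (evalEvalRingHom x y).comp (shift₂ a b) = evalEvalRingHom (x + a) (y + b) := by
    apply Polynomial.ringHom_ext
    · intro p
      simp [shift₂_apply, eval_comp]
    · simp [shift₂_apply]
  exact congrArg (fun f => f P) h

theorem intCoeff₂_shift₂ {a b : K} (ha : v a ≤ 1) (hb : v b ≤ 1) {P : K[X][Y]}
    (hP : IntCoeff₂ v P) : IntCoeff₂ v (shift₂ a b P) := by
  rw [shift₂_apply]
  exact intCoeff₂_comp (intCoeff₂_map_compRingHom hP (IntCoeff.X.add (IntCoeff.C ha)))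
    (intCoeff₂_add intCoeff₂_X (intCoeff₂_C (IntCoeff.C hb)))

theorem shift₂_coeff_zero (a b : K) (P : K[X][Y]) :
    ((shift₂ a b P).coeff 0).coeff 0 = P.evalEval a b := by
  have h := evalEval_shift₂ a b 0 0 P
  rw [zero_add, zero_add] at h
  rw [← h, evalEval, coeff_zero_eq_eval_zero, coeff_zero_eq_eval_zero, C_0]

theorem map_shift₂ (σ : K →+* K) {a b : K} (ha : σ a = a) (hb : σ b = b) (P : K[X][Y]) :
    (shift₂ a b P).map (mapRingHom σ) = shift₂ a b (P.map (mapRingHom σ)) := by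
  have h : (mapRingHom (mapRingHom σ)).comp (shift₂ a b) =
      (shift₂ a b).comp (mapRingHom (mapRingHom σ)) := by
    apply Polynomial.ringHom_ext
    · intro p
      simp only [RingHom.comp_apply, shift₂_apply, coe_mapRingHom, map_C, C_comp,
        coe_compRingHom_apply]
      congr 1
      rw [Polynomial.map_comp, Polynomial.map_add, map_X, map_C, ha]
    · simp only [RingHom.comp_apply, shift₂_apply, coe_mapRingHom, map_X, X_comp,
        Polynomial.map_add, map_C, hb]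
  exact congrArg (fun f => f P) h

/-! ### the Kronecker shape at a point -/

/-- the first branch polynomial `(T + a)^q - b` -/
noncomputable def pK (q : ℕ) (a b : K) : K[X] := (X + C a) ^ q - C b

theorem pK_eval (q : ℕ) (a b x : K) : (pK q a b).eval x = (x + a) ^ q - b := by
  simp [pK]

/-- **Kronecker ⟹ node equation**: if `Φ(x, y) = (x^q - y)(x - y^q) + q Ψ(x, y)` identically then
`Φ(a + x, b + y)` is the node equation `nodeEqG` with `p = (T + a)^q - b`, `r = (T + b)^q - a`,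
`π = q`, `R = Ψ(a + ·, b + ·)`. -/
theorem evalEval_eq_nodeEqG {q : ℕ} {Φ Ψ : K[X][Y]}
    (hK : ∀ x y : K, Φ.evalEval x y = (x ^ q - y) * (x - y ^ q) + (q : K) * Ψ.evalEval x y)
    (a b x y : K) :
    Φ.evalEval (x + a) (y + b) = nodeEqG (pK q a b) (pK q b a) (q : K) (shift₂ a b Ψ) x y := by
  rw [hK, nodeEqG, pK_eval, pK_eval, evalEval_shift₂]
  ring

theorem smallLow_pK {q : ℕ} {a b : K} (ha : v a ≤ 1) (hb : v b ≤ 1) (hab : v (a ^ q - b) < 1)
    (hqK : v (q : K) < 1) : SmallLow v (pK q a b) :=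
  smallLow_shift_pow ha hb hab hqK

theorem map_pK (σ : K →+* K) (q : ℕ) {a b : K} (ha : σ a = a) (hb : σ b = b) :
    (pK q a b).map σ = pK q a b := by
  simp [pK, ha, hb]

/-! ### the node theorems for `Φ` in the residue bidisc of `(a, b)` -/

section Node

variable {q : ℕ} {Φ Ψ : K[X][Y]}
  (hK : ∀ x y : K, Φ.evalEval x y = (x ^ q - y) * (x - y ^ q) + (q : K) * Ψ.evalEval x y)
  (hΨ : IntCoeff₂ v Ψ) {a b : K} (ha : v a ≤ 1) (hb : v b ≤ 1) (hab : v (a ^ q - b) < 1)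
  (hba : v (b ^ q - a) < 1) (hqK : v (q : K) < 1)

include hK hΨ ha hb hab hba hqK

/-- **The annulus.** If `Ψ(a, b)` is a unit, the zeros `(X₀, Y₀)` of `Φ` in the residue bidisc of
`(a, b)` satisfy `|X₀ - Y₀^q| |Y₀ - X₀^q| = |q|` with both factors strictly between `|q|` and `1`. -/
theorem annulus_of_zero (hq0 : (q : K) ≠ 0) (hγ : v (Ψ.evalEval a b) = 1) {X₀ Y₀ : K}
    (hX : v (X₀ - a) < 1) (hY : v (Y₀ - b) < 1) (h0 : Φ.evalEval X₀ Y₀ = 0) :
    v (X₀ - Y₀ ^ q) * v (Y₀ - X₀ ^ q) = v (q : K) ∧ v (q : K) < v (X₀ - Y₀ ^ q) ∧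
      v (X₀ - Y₀ ^ q) < 1 ∧ v (q : K) < v (Y₀ - X₀ ^ q) ∧ v (Y₀ - X₀ ^ q) < 1 := by
  have e := evalEval_eq_nodeEqG hK a b (X₀ - a) (Y₀ - b)
  rw [sub_add_cancel, sub_add_cancel, h0] at e
  have h := NodeNewtonGen.annulus_of_zero (smallLow_pK ha hb hab hqK) (smallLow_pK hb ha hba hqK)
    hq0 (intCoeff₂_shift₂ ha hb hΨ) (by rw [shift₂_coeff_zero]; exact hγ) hX hY e.symm
  rw [pK_eval, pK_eval, sub_add_cancel, sub_add_cancel] at h
  have e1 : X₀ - a - (Y₀ ^ q - a) = X₀ - Y₀ ^ q := by ring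
  have e2 : Y₀ - b - (X₀ ^ q - b) = Y₀ - X₀ ^ q := by ring
  rw [e1, e2] at h
  exact h

/-- **Injectivity of the coordinate `X₀ - Y₀^q`** on the zeros in the residue bidisc over the
annulus `|q| < |c| < 1` (no algebraic closedness needed). -/
theorem zero_unique_of_coordX {c : K} (hc1 : v c < 1) (hc2 : v (q : K) < v c) {X₀ Y₀ X₁ Y₁ : K}
    (hY : v (Y₀ - b) < 1) (hY' : v (Y₁ - b) < 1)
    (h0 : Φ.evalEval X₀ Y₀ = 0) (h0' : Φ.evalEval X₁ Y₁ = 0)
    (hc : X₀ - Y₀ ^ q = c) (hc' : X₁ - Y₁ ^ q = c) : X₀ = X₁ ∧ Y₀ = Y₁ := by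
  have e := evalEval_eq_nodeEqG hK a b (X₀ - a) (Y₀ - b)
  rw [sub_add_cancel, sub_add_cancel, h0] at e
  have e' := evalEval_eq_nodeEqG hK a b (X₁ - a) (Y₁ - b)
  rw [sub_add_cancel, sub_add_cancel, h0'] at e'
  have h := NodeNewtonGen.zero_unique_of_coordX (smallLow_pK ha hb hab hqK)
    (smallLow_pK hb ha hba hqK) (intCoeff₂_shift₂ ha hb hΨ) hc1 hc2 hY hY' e.symm e'.symm
    (by rw [pK_eval, sub_add_cancel, ← hc]; ring) (by rw [pK_eval, sub_add_cancel, ← hc']; ring)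
  exact ⟨sub_left_injective h.1, sub_left_injective h.2⟩

/-- **Injectivity of the coordinate `Y₀ - X₀^q`**. -/
theorem zero_unique_of_coordY {c : K} (hc1 : v c < 1) (hc2 : v (q : K) < v c) {X₀ Y₀ X₁ Y₁ : K}
    (hX : v (X₀ - a) < 1) (hX' : v (X₁ - a) < 1)
    (h0 : Φ.evalEval X₀ Y₀ = 0) (h0' : Φ.evalEval X₁ Y₁ = 0)
    (hc : Y₀ - X₀ ^ q = c) (hc' : Y₁ - X₁ ^ q = c) : X₀ = X₁ ∧ Y₀ = Y₁ := by
  have e := evalEval_eq_nodeEqG hK a b (X₀ - a) (Y₀ - b)
  rw [sub_add_cancel, sub_add_cancel, h0] at e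
  have e' := evalEval_eq_nodeEqG hK a b (X₁ - a) (Y₁ - b)
  rw [sub_add_cancel, sub_add_cancel, h0'] at e'
  have h := NodeNewtonGen.zero_unique_of_coordY (smallLow_pK ha hb hab hqK)
    (smallLow_pK hb ha hba hqK) (intCoeff₂_shift₂ ha hb hΨ) hc1 hc2 hX hX' e.symm e'.symm
    (by rw [pK_eval, sub_add_cancel, ← hc]; ring) (by rw [pK_eval, sub_add_cancel, ← hc']; ring)
  exact ⟨sub_left_injective h.1, sub_left_injective h.2⟩

/-- **The annulus bijection** in the coordinate `X₀ - Y₀^q` (`K` algebraically closed): for every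
`c` with `|q| < |c| < 1` there is exactly one zero of `Φ` in the residue bidisc of `(a, b)` with
`X₀ - Y₀^q = c`. -/
theorem existsUnique_zero_of_coordX [IsAlgClosed K] {c : K} (hc1 : v c < 1)
    (hc2 : v (q : K) < v c) :
    ∃! z : K × K, v (z.1 - a) < 1 ∧ v (z.2 - b) < 1 ∧ Φ.evalEval z.1 z.2 = 0 ∧
      z.1 - z.2 ^ q = c := by
  obtain ⟨x, y, hx, hy, h0, hc⟩ := NodeNewtonGen.exists_zero_of_coordX
    (smallLow_pK ha hb hab hqK) (smallLow_pK hb ha hba hqK) (intCoeff₂_shift₂ ha hb hΨ) hc1 hc2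
  have hz : Φ.evalEval (x + a) (y + b) = 0 := by rw [evalEval_eq_nodeEqG hK]; exact h0
  have hcz : (x + a) - (y + b) ^ q = c := by rw [← hc, pK_eval]; ring
  refine ⟨(x + a, y + b), ⟨by simpa using hx, by simpa using hy, hz, hcz⟩, ?_⟩
  rintro ⟨X₁, Y₁⟩ ⟨_, hY', h0', hc'⟩
  obtain ⟨e1, e2⟩ := zero_unique_of_coordX hK hΨ ha hb hab hba hqK hc1 hc2 hY'
    (by simpa using hy) h0' hz hc' hcz
  exact Prod.ext e1 e2

/-- **The annulus bijection** in the coordinate `Y₀ - X₀^q`. -/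
theorem existsUnique_zero_of_coordY [IsAlgClosed K] {c : K} (hc1 : v c < 1)
    (hc2 : v (q : K) < v c) :
    ∃! z : K × K, v (z.1 - a) < 1 ∧ v (z.2 - b) < 1 ∧ Φ.evalEval z.1 z.2 = 0 ∧
      z.2 - z.1 ^ q = c := by
  obtain ⟨x, y, hx, hy, h0, hc⟩ := NodeNewtonGen.exists_zero_of_coordY
    (smallLow_pK ha hb hab hqK) (smallLow_pK hb ha hba hqK) (intCoeff₂_shift₂ ha hb hΨ) hc1 hc2
  have hz : Φ.evalEval (x + a) (y + b) = 0 := by rw [evalEval_eq_nodeEqG hK]; exact h0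
  have hcz : (y + b) - (x + a) ^ q = c := by rw [← hc, pK_eval]; ring
  refine ⟨(x + a, y + b), ⟨by simpa using hx, by simpa using hy, hz, hcz⟩, ?_⟩
  rintro ⟨X₁, Y₁⟩ ⟨hX', _, h0', hc'⟩
  obtain ⟨e1, e2⟩ := zero_unique_of_coordY hK hΨ ha hb hab hba hqK hc1 hc2 hX'
    (by simpa using hx) h0' hz hc' hcz
  exact Prod.ext e1 e2

/-- **Equivariance**: a valuation-preserving ring endomorphism `σ` fixing `a`, `b` and `Ψ` sends
the zero with coordinate `c` to the zero with coordinate `σ c`. -/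
theorem zero_map_of_coordX (σ : K →+* K) (hσ : ∀ t, v (σ t) = v t) (hσa : σ a = a)
    (hσb : σ b = b) (hΨσ : Ψ.map (mapRingHom σ) = Ψ) {c : K} (hc1 : v c < 1)
    (hc2 : v (q : K) < v c) {X₀ Y₀ X₁ Y₁ : K} (hY : v (Y₀ - b) < 1) (hY' : v (Y₁ - b) < 1)
    (h0 : Φ.evalEval X₀ Y₀ = 0) (h0' : Φ.evalEval X₁ Y₁ = 0)
    (hc : X₀ - Y₀ ^ q = c) (hc' : X₁ - Y₁ ^ q = σ c) : X₁ = σ X₀ ∧ Y₁ = σ Y₀ := by
  have e := evalEval_eq_nodeEqG hK a b (X₀ - a) (Y₀ - b)
  rw [sub_add_cancel, sub_add_cancel, h0] at e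
  have e' := evalEval_eq_nodeEqG hK a b (X₁ - a) (Y₁ - b)
  rw [sub_add_cancel, sub_add_cancel, h0'] at e'
  have hRσ : (shift₂ a b Ψ).map (mapRingHom σ) = shift₂ a b Ψ := by
    rw [map_shift₂ σ hσa hσb, hΨσ]
  have h := NodeNewtonGen.zero_map_of_coordX σ hσ (smallLow_pK ha hb hab hqK)
    (smallLow_pK hb ha hba hqK) (map_pK σ q hσa hσb) (map_pK σ q hσb hσa) (map_natCast σ q)
    (intCoeff₂_shift₂ ha hb hΨ) hRσ hc1 hc2 hY hY' e.symm e'.symm
    (by rw [pK_eval, sub_add_cancel, ← hc]; ring) (by rw [pK_eval, sub_add_cancel, ← hc']; ring)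
  constructor
  · have := h.1
    rw [map_sub, hσa] at this
    exact sub_left_injective this
  · have := h.2
    rw [map_sub, hσb] at this
    exact sub_left_injective this

/-- a valuation-preserving ring endomorphism fixing `a`, `b`, `Ψ` and the annulus coordinate
`X₀ - Y₀^q` of a zero in the residue bidisc fixes this zero -/
theorem map_eq_self_of_coordX (σ : K →+* K) (hσ : ∀ t, v (σ t) = v t) (hσa : σ a = a)
    (hσb : σ b = b) (hΨσ : Ψ.map (mapRingHom σ) = Ψ) {X₀ Y₀ : K} (hY : v (Y₀ - b) < 1)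
    (hc1 : v (X₀ - Y₀ ^ q) < 1) (hc2 : v (q : K) < v (X₀ - Y₀ ^ q))
    (h0 : Φ.evalEval X₀ Y₀ = 0) (hfix : σ (X₀ - Y₀ ^ q) = X₀ - Y₀ ^ q) :
    σ X₀ = X₀ ∧ σ Y₀ = Y₀ := by
  have h := zero_map_of_coordX hK hΨ ha hb hab hba hqK σ hσ hσa hσb hΨσ hc1 hc2 hY hY h0 h0 rfl
    hfix.symm
  exact ⟨h.1.symm, h.2.symm⟩

end Node

end Fermat.Agent.BR.NodeKron
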