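import Mathlib
import Fermat.Agent.BR.NodeLemma

/-!
# Program B (BADRED), node B6.1 (second file): termination of the node lemma

Abstract form of finding 'B6 UNIFORM NODE STRUCTURE (helper23)', section 3 (ii): if `T` lies in
the maximal ideal, `p1` is a non-maximal prime and `T ^ n ∣ v ^ d`, then `n ≤ d` (in the domain
`O / p1` the maximal ideal is generated by the image of `v`).  Consequently, if normality supplies
`T ^ n ∣ v' ^ d` whenever `u' v' = q ^ n c`, the node lemma stops at a thickness `e ≤ d`.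
-/

set_option autoImplicit false

namespace Fermat.Agent.BR.NodeLemma

open IsLocalRing

variable {O : Type*} [CommRing O] [IsLocalRing O]

namespace NodeData

variable {q u v : O} {p1 p2 : Ideal O}

theorem v_notMem_p1 (h : NodeData q u v p1 p2) (hp1 : p1 ≠ maximalIdeal O) : v ∉ p1 := by
  intro hv
  apply hp1
  rw [h.max1]
  apply le_antisymm le_sup_left
  rw [sup_le_iff]
  exact ⟨le_rfl, (Ideal.span_singleton_le_iff_mem _).mpr hv⟩

theorem u_notMem_p2 (h : NodeData q u v p1 p2) (hp2 : p2 ≠ maximalIdeal O) : u ∉ p2 :=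
  h.symm.v_notMem_p1 hp2

/-- every element of the maximal ideal is congruent modulo `p1` to a multiple of `v` -/
theorem exists_sub_mul_mem_p1 (h : NodeData q u v p1 p2) {T : O} (hT : T ∈ maximalIdeal O) :
    ∃ t : O, T - t * v ∈ p1 := by
  rw [h.max1] at hT
  obtain ⟨p, hp, s, hs, rfl⟩ := Submodule.mem_sup.mp hT
  obtain ⟨t, rfl⟩ := Ideal.mem_span_singleton'.mp hs
  exact ⟨t, by simpa using hp⟩

/-- **termination bound**: in `O / p1` (a domain whose maximal ideal is generated by `v`) a power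
`T ^ n` of a non-unit can divide `v ^ d` only if `n ≤ d`. -/
theorem le_of_pow_dvd (h : NodeData q u v p1 p2) [hp : p1.IsPrime]
    (hp1 : p1 ≠ maximalIdeal O) {T : O} (hT : T ∈ maximalIdeal O) {n d : ℕ}
    (hdvd : T ^ n ∣ v ^ d) : n ≤ d := by
  by_contra hlt
  obtain ⟨k, rfl⟩ : ∃ k, n = d + 1 + k := ⟨n - d - 1, by omega⟩
  obtain ⟨t, ht⟩ := h.exists_sub_mul_mem_p1 hT
  obtain ⟨w, hw⟩ := hdvd
  have h1 : T ^ (d + 1 + k) - (t * v) ^ (d + 1 + k) ∈ p1 := by
    obtain ⟨r, hr⟩ := sub_dvd_pow_sub_pow T (t * v) (d + 1 + k)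
    rw [hr]; exact p1.mul_mem_right r ht
  have h2 : v ^ d * (1 - v ^ (k + 1) * t ^ (d + 1 + k) * w) ∈ p1 := by
    have : v ^ d * (1 - v ^ (k + 1) * t ^ (d + 1 + k) * w) =
        (T ^ (d + 1 + k) - (t * v) ^ (d + 1 + k)) * w := by
      rw [sub_mul, ← hw]; ring
    rw [this]; exact p1.mul_mem_right w h1
  have hv1 : v ∉ p1 := h.v_notMem_p1 hp1
  rcases hp.mem_or_mem h2 with h3 | h3
  · exact hv1 (hp.mem_of_pow_mem d h3)
  · have h4 : v ^ (k + 1) * t ^ (d + 1 + k) * w ∈ maximalIdeal O := by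
      rw [pow_succ, mul_assoc, mul_assoc]
      exact Ideal.mul_mem_left _ _ (Ideal.mul_mem_right _ _ h.v_mem_maximalIdeal)
    have h5 : (1 : O) ∈ maximalIdeal O := by
      have : (1 : O) = (1 - v ^ (k + 1) * t ^ (d + 1 + k) * w) +
          v ^ (k + 1) * t ^ (d + 1 + k) * w := by ring
      rw [this]
      exact Ideal.add_mem _ (h.p1_le_maximalIdeal h3) h4
    exact (Ideal.ne_top_iff_one _).mp (IsLocalRing.maximalIdeal.isMaximal O).ne_top h5

/-- the node lemma without the (unused) domain hypotheses of `exists_unit` -/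
theorem exists_unit_of_bound (h : NodeData q u v p1 p2) (Bd : ℕ)
    (hbound : ∀ (n : ℕ) (u' v' c : O), NodeData q u' v' p1 p2 → u' * v' = q ^ n * c → n ≤ Bd) :
    ∃ (e : ℕ) (u' v' ε : O), 1 ≤ e ∧ e ≤ Bd ∧ NodeData q u' v' p1 p2 ∧
      u' - u ∈ Ideal.span {q} ∧ v' - v ∈ Ideal.span {q} ∧ IsUnit ε ∧ u' * v' = q ^ e * ε := by
  have key : ∀ (k n : ℕ), 1 ≤ n → Bd + 1 - n ≤ k → ∀ (u' v' c : O), NodeData q u' v' p1 p2 →
      u' - u ∈ Ideal.span {q} → v' - v ∈ Ideal.span {q} → u' * v' = q ^ n * c →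
      ∃ (e : ℕ) (u'' v'' ε : O), 1 ≤ e ∧ e ≤ Bd ∧ NodeData q u'' v'' p1 p2 ∧
        u'' - u ∈ Ideal.span {q} ∧ v'' - v ∈ Ideal.span {q} ∧ IsUnit ε ∧
        u'' * v'' = q ^ e * ε := by
    intro k
    induction k with
    | zero =>
      intro n hn hk u' v' c hN _ _ hc
      have := hbound n u' v' c hN hc
      omega
    | succ k ih =>
      intro n hn hk u' v' c hN hu' hv' hc
      by_cases hcu : IsUnit c
      · exact ⟨n, u', v', c, hn, hbound n u' v' c hN hc, hN, hu', hv', hcu, hc⟩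
      · have hcm : c ∈ maximalIdeal O := (IsLocalRing.mem_maximalIdeal c).mpr hcu
        obtain ⟨u'', v'', c', hN', hu'', hv'', hc'⟩ := hN.step hn hc hcm
        have hle : Ideal.span {q ^ n} ≤ Ideal.span {q} := by
          obtain ⟨j, rfl⟩ := Nat.exists_eq_add_of_le hn
          rw [Ideal.span_singleton_le_iff_mem, Ideal.mem_span_singleton']
          exact ⟨q ^ j, by ring⟩
        have hu3 : u'' - u ∈ Ideal.span {q} := by
          have : u'' - u = (u'' - u') + (u' - u) := by ring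
          rw [this]; exact Ideal.add_mem _ (hle hu'') hu'
        have hv3 : v'' - v ∈ Ideal.span {q} := by
          have : v'' - v = (v'' - v') + (v' - v) := by ring
          rw [this]; exact Ideal.add_mem _ (hle hv'') hv'
        have hnB : n ≤ Bd := hbound n u' v' c hN hc
        exact ih (n + 1) (by omega) (by omega) u'' v'' c' hN' hu3 hv3 hc'
  obtain ⟨c, hc⟩ := h.exists_mul_eq
  exact key (Bd + 1) 1 le_rfl (by omega) u v c h (by simp) (by simp) (by rw [hc, pow_one])

/-- **NODE LEMMA with the normality input**: if `T` is a non-unit and `T ^ n ∣ v' ^ d` whenever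
`u' v' = q ^ n c` (for all admissible pairs), then some admissible pair, congruent to `(u, v)`
modulo `q`, satisfies `u' v' = q ^ e ε` with `ε` a unit and `1 ≤ e ≤ d`. -/
theorem exists_unit_of_dvd (h : NodeData q u v p1 p2) [p1.IsPrime]
    (hp1 : p1 ≠ maximalIdeal O) {T : O} (hT : T ∈ maximalIdeal O) (d : ℕ)
    (hnorm : ∀ (n : ℕ) (u' v' c : O), NodeData q u' v' p1 p2 → u' * v' = q ^ n * c →
      T ^ n ∣ v' ^ d) :
    ∃ (e : ℕ) (u' v' ε : O), 1 ≤ e ∧ e ≤ d ∧ NodeData q u' v' p1 p2 ∧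
      u' - u ∈ Ideal.span {q} ∧ v' - v ∈ Ideal.span {q} ∧ IsUnit ε ∧ u' * v' = q ^ e * ε :=
  h.exists_unit_of_bound d fun n u' v' c hN hc =>
    hN.le_of_pow_dvd hp1 hT (hnorm n u' v' c hN hc)

end NodeData

end Fermat.Agent.BR.NodeLemma
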