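import Mathlib

/-!
# Program B (BADRED), block B7.2: the node ring `W⟦U,V⟧ / (U * V - ϖ)` and its Laurent normal form

Pure algebra, Mathlib only.

* `NodeRing.PiComplete ϖ` : elementary form of `ϖ`-adic separatedness + completeness of `W`
  (`PiComplete.of_isAdicComplete` : from `IsAdicComplete (Ideal.span {ϖ}) W`), with the sums
  `PiComplete.tsum h x = ∑ ϖ ^ m * x m`.
* `NodeRing W ϖ := W⟦U⟧⟦V⟧ ⧸ (U * V - ϖ)` with `U V : NodeRing W ϖ`, `U_mul_V`.
* `ofSeq a b` : the class of `∑ a i * U ^ i + ∑_{j ≥ 1} b j * V ^ j`.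
* **Normal form** (`h : PiComplete ϖ`): `coeffU h i`, `coeffV h j` (`coeffV h 0 = coeffU h 0`),
  `ofSeq_coeff`, `coeffU_ofSeq`, `coeffV_ofSeq`, `ext_coeff`, linearity (`coeffUₗ`, `coeffVₗ`).
* **Shift rules** for multiplication by `U`, `V`, `U ^ N`, `V ^ N`.
* **Truncation** `eq_trunc_add_tails : f = trunc N f + U ^ N * tailU N f + V ^ N * tailV N f`,
  and `U ^ N * trunc N f` is a polynomial in `U` (`polyU`, `exists_polyU_eq`).
* **Reductions** `red₁ p hp` (`V ↦ 0`), `red₂ p hp` (`U ↦ 0`) to `k⟦X⟧` for `p : W →+* k`,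
  `p ϖ = 0`; `constantCoeff_red₁_eq_red₂` (formal matching at the node).
* **Units** (`W` local, `ϖ` in the maximal ideal): `isLocalRing_of_mem`, `isUnit_iff`
  (an element is a unit iff its value at the node is a unit).
-/

set_option autoImplicit false

namespace Fermat.Agent.BR

namespace NodeRing

open PowerSeries

section PiCompleteSec

variable {W : Type*} [CommRing W]

/-- Elementary form of `ϖ`-adic separatedness and completeness of `W`. -/
structure PiComplete (ϖ : W) : Prop where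
  sep : ∀ x : W, (∀ n : ℕ, ϖ ^ n ∣ x) → x = 0
  complete : ∀ x : ℕ → W, ∃ s : W, ∀ n : ℕ, ϖ ^ n ∣ s - ∑ m ∈ Finset.range n, ϖ ^ m * x m

namespace PiComplete

variable {ϖ : W} (h : PiComplete ϖ)

/-- The sum `∑ ϖ ^ m * x m`. -/
noncomputable def tsum (x : ℕ → W) : W := (h.complete x).choose

theorem tsum_spec (x : ℕ → W) (n : ℕ) :
    ϖ ^ n ∣ h.tsum x - ∑ m ∈ Finset.range n, ϖ ^ m * x m :=
  (h.complete x).choose_spec n

theorem tsum_unique {x : ℕ → W} {s : W}
    (hs : ∀ n : ℕ, ϖ ^ n ∣ s - ∑ m ∈ Finset.range n, ϖ ^ m * x m) : s = h.tsum x := by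
  rw [← sub_eq_zero]
  apply h.sep
  intro n
  have h1 := dvd_sub (hs n) (h.tsum_spec x n)
  rwa [sub_sub_sub_cancel_right] at h1

theorem tsum_add (x y : ℕ → W) : h.tsum (fun m => x m + y m) = h.tsum x + h.tsum y := by
  symm
  apply h.tsum_unique
  intro n
  have h1 := dvd_add (h.tsum_spec x n) (h.tsum_spec y n)
  have h2 : h.tsum x + h.tsum y - ∑ m ∈ Finset.range n, ϖ ^ m * (x m + y m) =
      (h.tsum x - ∑ m ∈ Finset.range n, ϖ ^ m * x m) +
        (h.tsum y - ∑ m ∈ Finset.range n, ϖ ^ m * y m) := by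
    simp only [mul_add, Finset.sum_add_distrib]
    ring
  rwa [h2]

theorem tsum_mul_left (c : W) (x : ℕ → W) : h.tsum (fun m => c * x m) = c * h.tsum x := by
  symm
  apply h.tsum_unique
  intro n
  have h1 := Dvd.dvd.mul_left (h.tsum_spec x n) c
  have h2 : c * h.tsum x - ∑ m ∈ Finset.range n, ϖ ^ m * (c * x m) =
      c * (h.tsum x - ∑ m ∈ Finset.range n, ϖ ^ m * x m) := by
    rw [mul_sub, Finset.mul_sum]
    congr 1
    apply Finset.sum_congr rfl
    intro m _
    ring
  rwa [h2]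

theorem tsum_zero : h.tsum (fun _ => (0 : W)) = 0 := by
  symm
  apply h.tsum_unique
  intro n
  simp

theorem tsum_succ (x : ℕ → W) : h.tsum x = x 0 + ϖ * h.tsum (fun m => x (m + 1)) := by
  symm
  apply h.tsum_unique
  intro n
  cases n with
  | zero => simp
  | succ n =>
    have h1 := Dvd.dvd.mul_left (h.tsum_spec (fun m => x (m + 1)) n) ϖ
    have h2 : x 0 + ϖ * h.tsum (fun m => x (m + 1)) -
        ∑ m ∈ Finset.range (n + 1), ϖ ^ m * x m =
        ϖ * (h.tsum (fun m => x (m + 1)) - ∑ m ∈ Finset.range n, ϖ ^ m * x (m + 1)) := by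
      rw [Finset.sum_range_succ', mul_sub, Finset.mul_sum]
      have : ∑ i ∈ Finset.range n, ϖ * (ϖ ^ i * x (i + 1)) =
          ∑ k ∈ Finset.range n, ϖ ^ (k + 1) * x (k + 1) := by
        apply Finset.sum_congr rfl
        intro m _
        ring
      rw [this]
      ring
    rw [h2, pow_succ']
    exact mul_dvd_mul_left ϖ (h.tsum_spec (fun m => x (m + 1)) n)

theorem tsum_eq_single (x : ℕ → W) (hx : ∀ m, x (m + 1) = 0) : h.tsum x = x 0 := by
  rw [h.tsum_succ]
  have : (fun m => x (m + 1)) = fun _ => (0 : W) := funext hx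
  rw [this, h.tsum_zero, mul_zero, add_zero]

theorem tsum_zero_succ (x : ℕ → W) (hx : x 0 = 0) :
    h.tsum x = ϖ * h.tsum (fun m => x (m + 1)) := by
  rw [h.tsum_succ, hx, zero_add]

end PiComplete

end PiCompleteSec

variable {W : Type*} [CommRing W]

/-- The ambient ring `W⟦U⟧⟦V⟧` (outer variable `V`, inner variable `U`). -/
abbrev Amb (W : Type*) [CommRing W] := PowerSeries (PowerSeries W)

/-- The coefficient of `U ^ i * V ^ j`. -/
noncomputable def cf (F : Amb W) (i j : ℕ) : W := coeff i (coeff j F)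

/-- `U` in the ambient ring. -/
noncomputable def Uamb : Amb W := C (X : PowerSeries W)

/-- `V` in the ambient ring. -/
noncomputable def Vamb : Amb W := X

/-- The relation `U * V - ϖ`. -/
noncomputable def rel (ϖ : W) : Amb W := Uamb * Vamb - C (C ϖ)

theorem amb_ext {F G : Amb W} (hFG : ∀ i j, cf F i j = cf G i j) : F = G := by
  ext j i
  exact hFG i j

@[simp] theorem cf_add (F G : Amb W) (i j : ℕ) : cf (F + G) i j = cf F i j + cf G i j := by
  simp [cf]

@[simp] theorem cf_sub (F G : Amb W) (i j : ℕ) : cf (F - G) i j = cf F i j - cf G i j := by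
  simp [cf]

@[simp] theorem cf_zero (i j : ℕ) : cf (0 : Amb W) i j = 0 := by
  simp [cf]

@[simp] theorem cf_CC_mul (c : W) (F : Amb W) (i j : ℕ) :
    cf (C (C c) * F) i j = c * cf F i j := by
  simp [cf, coeff_C_mul]

@[simp] theorem cf_Uamb_mul_succ (F : Amb W) (i j : ℕ) : cf (Uamb * F) (i + 1) j = cf F i j := by
  simp [cf, Uamb, coeff_C_mul, coeff_succ_X_mul]

@[simp] theorem cf_Uamb_mul_zero (F : Amb W) (j : ℕ) : cf (Uamb * F) 0 j = 0 := by
  simp [cf, Uamb, coeff_C_mul]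

@[simp] theorem cf_Vamb_mul_succ (F : Amb W) (i j : ℕ) : cf (Vamb * F) i (j + 1) = cf F i j := by
  simp [cf, Vamb, coeff_succ_X_mul]

@[simp] theorem cf_Vamb_mul_zero (F : Amb W) (i : ℕ) : cf (Vamb * F) i 0 = 0 := by
  simp [cf, Vamb]

theorem rel_mul (ϖ : W) (G : Amb W) : rel ϖ * G = Uamb * (Vamb * G) - C (C ϖ) * G := by
  rw [rel, sub_mul, mul_assoc]

section NF

variable {ϖ : W} (h : PiComplete ϖ)

/-- The `U ^ n`-coefficient of the normal form. -/
noncomputable def nfU (F : Amb W) (n : ℕ) : W := h.tsum (fun m => cf F (n + m) m)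

/-- The `V ^ n`-coefficient of the normal form. -/
noncomputable def nfV (F : Amb W) (n : ℕ) : W := h.tsum (fun m => cf F m (n + m))

theorem nfV_zero (F : Amb W) : nfV h F 0 = nfU h F 0 := by
  simp [nfV, nfU]

theorem nfU_add (F G : Amb W) (n : ℕ) : nfU h (F + G) n = nfU h F n + nfU h G n := by
  simp only [nfU, cf_add]
  exact h.tsum_add _ _

theorem nfV_add (F G : Amb W) (n : ℕ) : nfV h (F + G) n = nfV h F n + nfV h G n := by
  simp only [nfV, cf_add]
  exact h.tsum_add _ _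

theorem nfU_CC_mul (c : W) (F : Amb W) (n : ℕ) : nfU h (C (C c) * F) n = c * nfU h F n := by
  simp only [nfU, cf_CC_mul]
  exact h.tsum_mul_left _ _

theorem nfV_CC_mul (c : W) (F : Amb W) (n : ℕ) : nfV h (C (C c) * F) n = c * nfV h F n := by
  simp only [nfV, cf_CC_mul]
  exact h.tsum_mul_left _ _

theorem nfU_zero' (n : ℕ) : nfU h (0 : Amb W) n = 0 := by
  simp only [nfU, cf_zero]
  exact h.tsum_zero

theorem nfV_zero' (n : ℕ) : nfV h (0 : Amb W) n = 0 := by
  simp only [nfV, cf_zero]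
  exact h.tsum_zero

theorem nfU_neg (F : Amb W) (n : ℕ) : nfU h (-F) n = - nfU h F n := by
  have h1 := nfU_add h F (-F) n
  rw [add_neg_cancel, nfU_zero'] at h1
  exact eq_neg_of_add_eq_zero_right h1.symm

theorem nfV_neg (F : Amb W) (n : ℕ) : nfV h (-F) n = - nfV h F n := by
  have h1 := nfV_add h F (-F) n
  rw [add_neg_cancel, nfV_zero'] at h1
  exact eq_neg_of_add_eq_zero_right h1.symm

theorem nfU_sub (F G : Amb W) (n : ℕ) : nfU h (F - G) n = nfU h F n - nfU h G n := by
  rw [sub_eq_add_neg, nfU_add, nfU_neg, ← sub_eq_add_neg]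

theorem nfV_sub (F G : Amb W) (n : ℕ) : nfV h (F - G) n = nfV h F n - nfV h G n := by
  rw [sub_eq_add_neg, nfV_add, nfV_neg, ← sub_eq_add_neg]

theorem nfU_Uamb_mul_succ (F : Amb W) (n : ℕ) : nfU h (Uamb * F) (n + 1) = nfU h F n := by
  unfold nfU
  congr 1
  funext m
  rw [show n + 1 + m = (n + m) + 1 by omega, cf_Uamb_mul_succ]

theorem nfU_Uamb_mul_zero (F : Amb W) : nfU h (Uamb * F) 0 = ϖ * nfV h F 1 := by
  unfold nfU nfV
  rw [h.tsum_zero_succ _ (by simp)]
  congr 2
  funext m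
  rw [show 0 + (m + 1) = m + 1 by omega, cf_Uamb_mul_succ, add_comm 1 m]

theorem nfV_Uamb_mul (F : Amb W) (n : ℕ) : nfV h (Uamb * F) n = ϖ * nfV h F (n + 1) := by
  unfold nfV
  rw [h.tsum_zero_succ _ (by simp)]
  congr 2
  funext m
  rw [cf_Uamb_mul_succ, show n + (m + 1) = n + 1 + m by omega]

theorem nfV_Vamb_mul_succ (F : Amb W) (n : ℕ) : nfV h (Vamb * F) (n + 1) = nfV h F n := by
  unfold nfV
  congr 1
  funext m
  rw [show n + 1 + m = (n + m) + 1 by omega, cf_Vamb_mul_succ]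

theorem nfU_Vamb_mul (F : Amb W) (n : ℕ) : nfU h (Vamb * F) n = ϖ * nfU h F (n + 1) := by
  unfold nfU
  rw [h.tsum_zero_succ _ (by simp)]
  congr 2
  funext m
  rw [cf_Vamb_mul_succ, show n + (m + 1) = n + 1 + m by omega]

/-- The normal form coefficients vanish on the ideal `(U * V - ϖ)`. -/
theorem nfU_rel_mul (G : Amb W) (n : ℕ) : nfU h (rel ϖ * G) n = 0 := by
  rw [rel_mul, nfU_sub, nfU_CC_mul]
  cases n with
  | zero => rw [nfU_Uamb_mul_zero, nfV_Vamb_mul_succ, nfV_zero, sub_self]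
  | succ n => rw [nfU_Uamb_mul_succ, nfU_Vamb_mul, sub_self]

theorem nfV_rel_mul (G : Amb W) (n : ℕ) : nfV h (rel ϖ * G) n = 0 := by
  rw [rel_mul, nfV_sub, nfV_CC_mul, nfV_Uamb_mul, nfV_Vamb_mul_succ, sub_self]

/-- The series `∑ a i * U ^ i + ∑_{j ≥ 1} b j * V ^ j` in the ambient ring. -/
noncomputable def ofSeqAmb (a b : ℕ → W) : Amb W :=
  PowerSeries.mk (fun j => if j = 0 then PowerSeries.mk a else C (b j))

@[simp] theorem cf_ofSeqAmb_zero (a b : ℕ → W) (i : ℕ) : cf (ofSeqAmb a b) i 0 = a i := by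
  simp [cf, ofSeqAmb]

@[simp] theorem cf_ofSeqAmb_succ (a b : ℕ → W) (i j : ℕ) :
    cf (ofSeqAmb a b) i (j + 1) = if i = 0 then b (j + 1) else 0 := by
  simp [cf, ofSeqAmb, coeff_C]

theorem nfU_ofSeqAmb (a b : ℕ → W) (n : ℕ) : nfU h (ofSeqAmb a b) n = a n := by
  unfold nfU
  rw [h.tsum_eq_single]
  · simp
  · intro m
    rw [cf_ofSeqAmb_succ, if_neg (by omega)]

theorem nfV_ofSeqAmb (a b : ℕ → W) (n : ℕ) : nfV h (ofSeqAmb a b) (n + 1) = b (n + 1) := by
  unfold nfV
  rw [h.tsum_eq_single]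
  · simp
  · intro m
    rw [show n + 1 + (m + 1) = (n + 1 + m) + 1 by omega, cf_ofSeqAmb_succ, if_neg (by omega)]

/-- The cofactor in `F - (normal form of F) = rel * G`. -/
noncomputable def cofactor (F : Amb W) : Amb W :=
  PowerSeries.mk (fun j => PowerSeries.mk (fun i => h.tsum (fun m => cf F (i + 1 + m) (j + 1 + m))))

theorem cf_cofactor (F : Amb W) (i j : ℕ) :
    cf (cofactor h F) i j = h.tsum (fun m => cf F (i + 1 + m) (j + 1 + m)) := by
  simp [cf, cofactor]

theorem sub_ofSeqAmb_eq (F : Amb W) :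
    F - ofSeqAmb (nfU h F) (nfV h F) = rel ϖ * cofactor h F := by
  apply amb_ext
  intro i j
  rw [rel_mul, cf_sub, cf_sub, cf_CC_mul]
  cases j with
  | zero =>
    rw [cf_ofSeqAmb_zero]
    have h1 : cf (Uamb * (Vamb * cofactor h F)) i 0 = 0 := by
      cases i with
      | zero => simp
      | succ i => simp
    rw [h1, cf_cofactor, nfU, h.tsum_succ (fun m => cf F (i + m) m)]
    have h2 : (fun m => cf F (i + (m + 1)) (m + 1)) = fun m => cf F (i + 1 + m) (0 + 1 + m) := by
      funext m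
      rw [show i + (m + 1) = i + 1 + m by omega, show m + 1 = 0 + 1 + m by omega]
    rw [h2]
    simp only [add_zero]
    ring
  | succ j =>
    cases i with
    | zero =>
      rw [cf_ofSeqAmb_succ, if_pos rfl, cf_Uamb_mul_zero, cf_cofactor, nfV,
        h.tsum_succ (fun m => cf F m (j + 1 + m))]
      have h2 : (fun m => cf F (m + 1) (j + 1 + (m + 1))) =
          fun m => cf F (0 + 1 + m) (j + 1 + 1 + m) := by
        funext m
        rw [show m + 1 = 0 + 1 + m by omega, show j + 1 + (0 + 1 + m) = j + 1 + 1 + m by omega]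
      rw [h2]
      simp only [add_zero]
      ring
    | succ i =>
      rw [cf_ofSeqAmb_succ, if_neg (by omega), cf_Uamb_mul_succ, cf_Vamb_mul_succ, cf_cofactor,
        cf_cofactor, h.tsum_succ (fun m => cf F (i + 1 + m) (j + 1 + m))]
      have h2 : (fun m => cf F (i + 1 + (m + 1)) (j + 1 + (m + 1))) =
          fun m => cf F (i + 1 + 1 + m) (j + 1 + 1 + m) := by
        funext m
        rw [show i + 1 + (m + 1) = i + 1 + 1 + m by omega,
          show j + 1 + (m + 1) = j + 1 + 1 + m by omega]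
      rw [h2]
      simp only [add_zero]
      ring

end NF


end NodeRing

/-- The node ring `W⟦U,V⟧ / (U * V - ϖ)`. -/
abbrev NodeRing (W : Type*) [CommRing W] (ϖ : W) := NodeRing.Amb W ⧸ Ideal.span {NodeRing.rel ϖ}

namespace NodeRing

open PowerSeries

section Quot

variable {W : Type*} [CommRing W] {ϖ : W}

/-- The quotient map. -/
noncomputable def mkN (ϖ : W) : Amb W →+* NodeRing W ϖ := Ideal.Quotient.mk _

theorem mkN_surjective : Function.Surjective (mkN ϖ) := Ideal.Quotient.mk_surjective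

theorem mkN_eq_mkN_iff {F G : Amb W} : mkN ϖ F = mkN ϖ G ↔ ∃ H, F - G = rel ϖ * H := by
  unfold mkN
  rw [Ideal.Quotient.eq, Ideal.mem_span_singleton']
  constructor
  · rintro ⟨a, ha⟩
    exact ⟨a, by rw [← ha, mul_comm]⟩
  · rintro ⟨a, ha⟩
    exact ⟨a, by rw [ha, mul_comm]⟩

theorem mkN_rel : mkN ϖ (rel ϖ) = 0 := by
  unfold mkN
  rw [Ideal.Quotient.eq_zero_iff_mem]
  exact Ideal.mem_span_singleton_self _

/-- The coordinate `U`. -/
noncomputable def U : NodeRing W ϖ := mkN ϖ Uamb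

/-- The coordinate `V`. -/
noncomputable def V : NodeRing W ϖ := mkN ϖ Vamb

theorem algebraMap_eq (c : W) : algebraMap W (NodeRing W ϖ) c = mkN ϖ (C (C c)) := by
  unfold mkN
  rw [← Ideal.Quotient.mk_algebraMap, PowerSeries.algebraMap_apply, PowerSeries.algebraMap_apply]
  rfl

theorem smul_mkN (c : W) (F : Amb W) : c • mkN ϖ F = mkN ϖ (C (C c) * F) := by
  have e2 : C (C c) * F = c • F := by
    rw [Algebra.smul_def, PowerSeries.algebraMap_apply, PowerSeries.algebraMap_apply]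
    rfl
  rw [e2]
  rfl

theorem U_mul_V : (U : NodeRing W ϖ) * V = algebraMap W (NodeRing W ϖ) ϖ := by
  have h1 : mkN ϖ (Uamb * Vamb - C (C ϖ)) = 0 := mkN_rel (ϖ := ϖ)
  rw [map_sub, sub_eq_zero, map_mul] at h1
  rw [algebraMap_eq]
  exact h1

/-- The element `∑ a i * U ^ i + ∑_{j ≥ 1} b j * V ^ j` of the node ring (`b 0` is ignored). -/
noncomputable def ofSeq (a b : ℕ → W) : NodeRing W ϖ := mkN ϖ (ofSeqAmb a b)

variable (h : PiComplete ϖ)

/-- The coefficient of `U ^ i` in the normal form. -/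
noncomputable def coeffU (i : ℕ) (f : NodeRing W ϖ) : W :=
  nfU h (Function.surjInv (mkN_surjective (ϖ := ϖ)) f) i

/-- The coefficient of `V ^ j` in the normal form (`coeffV h 0 = coeffU h 0`). -/
noncomputable def coeffV (j : ℕ) (f : NodeRing W ϖ) : W :=
  nfV h (Function.surjInv (mkN_surjective (ϖ := ϖ)) f) j

theorem coeffU_mkN (i : ℕ) (F : Amb W) : coeffU h i (mkN ϖ F) = nfU h F i := by
  unfold coeffU
  have h1 : mkN ϖ (Function.surjInv (mkN_surjective (ϖ := ϖ)) (mkN ϖ F)) = mkN ϖ F :=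
    Function.surjInv_eq _ _
  obtain ⟨H, hH⟩ := mkN_eq_mkN_iff.1 h1
  have h2 : Function.surjInv (mkN_surjective (ϖ := ϖ)) (mkN ϖ F) = F + rel ϖ * H := by
    rw [← hH]; ring
  rw [h2, nfU_add, nfU_rel_mul, add_zero]

theorem coeffV_mkN (j : ℕ) (F : Amb W) : coeffV h j (mkN ϖ F) = nfV h F j := by
  unfold coeffV
  have h1 : mkN ϖ (Function.surjInv (mkN_surjective (ϖ := ϖ)) (mkN ϖ F)) = mkN ϖ F :=
    Function.surjInv_eq _ _
  obtain ⟨H, hH⟩ := mkN_eq_mkN_iff.1 h1
  have h2 : Function.surjInv (mkN_surjective (ϖ := ϖ)) (mkN ϖ F) = F + rel ϖ * H := by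
    rw [← hH]; ring
  rw [h2, nfV_add, nfV_rel_mul, add_zero]

theorem coeffV_zero (f : NodeRing W ϖ) : coeffV h 0 f = coeffU h 0 f := by
  obtain ⟨F, rfl⟩ := mkN_surjective f
  rw [coeffV_mkN, coeffU_mkN, nfV_zero]

/-- **Normal form, existence.** -/
theorem ofSeq_coeff (f : NodeRing W ϖ) :
    ofSeq (fun i => coeffU h i f) (fun j => coeffV h j f) = f := by
  obtain ⟨F, rfl⟩ := mkN_surjective f
  unfold ofSeq
  symm
  rw [mkN_eq_mkN_iff]
  refine ⟨cofactor h F, ?_⟩
  rw [← sub_ofSeqAmb_eq]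
  congr 2
  · funext i
    rw [coeffU_mkN]
  · funext j
    rw [coeffV_mkN]

theorem coeffU_ofSeq (a b : ℕ → W) (i : ℕ) : coeffU h i (ofSeq a b : NodeRing W ϖ) = a i := by
  unfold ofSeq
  rw [coeffU_mkN, nfU_ofSeqAmb]

theorem coeffV_ofSeq (a b : ℕ → W) (j : ℕ) :
    coeffV h (j + 1) (ofSeq a b : NodeRing W ϖ) = b (j + 1) := by
  unfold ofSeq
  rw [coeffV_mkN, nfV_ofSeqAmb]

/-- **Normal form, uniqueness.** -/
theorem ext_coeff {f g : NodeRing W ϖ} (hU : ∀ i, coeffU h i f = coeffU h i g)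
    (hV : ∀ j, coeffV h (j + 1) f = coeffV h (j + 1) g) : f = g := by
  rw [← ofSeq_coeff h f, ← ofSeq_coeff h g]
  unfold ofSeq
  congr 1
  apply amb_ext
  intro i j
  cases j with
  | zero => rw [cf_ofSeqAmb_zero, cf_ofSeqAmb_zero, hU]
  | succ j => rw [cf_ofSeqAmb_succ, cf_ofSeqAmb_succ, hV]

include h in
theorem ofSeq_injective {a b a' b' : ℕ → W} (hb : b 0 = b' 0)
    (hab : (ofSeq a b : NodeRing W ϖ) = ofSeq a' b') : a = a' ∧ b = b' := by
  constructor
  · funext i
    rw [← coeffU_ofSeq h a b i, hab, coeffU_ofSeq]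
  · funext j
    cases j with
    | zero => exact hb
    | succ j => rw [← coeffV_ofSeq h a b j, hab, coeffV_ofSeq]

@[simp] theorem coeffU_add (i : ℕ) (f g : NodeRing W ϖ) :
    coeffU h i (f + g) = coeffU h i f + coeffU h i g := by
  obtain ⟨F, rfl⟩ := mkN_surjective f
  obtain ⟨G, rfl⟩ := mkN_surjective g
  rw [← map_add, coeffU_mkN, coeffU_mkN, coeffU_mkN, nfU_add]

@[simp] theorem coeffV_add (j : ℕ) (f g : NodeRing W ϖ) :
    coeffV h j (f + g) = coeffV h j f + coeffV h j g := by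
  obtain ⟨F, rfl⟩ := mkN_surjective f
  obtain ⟨G, rfl⟩ := mkN_surjective g
  rw [← map_add, coeffV_mkN, coeffV_mkN, coeffV_mkN, nfV_add]

@[simp] theorem coeffU_smul (i : ℕ) (c : W) (f : NodeRing W ϖ) :
    coeffU h i (c • f) = c * coeffU h i f := by
  obtain ⟨F, rfl⟩ := mkN_surjective f
  rw [smul_mkN, coeffU_mkN, coeffU_mkN, nfU_CC_mul]

@[simp] theorem coeffV_smul (j : ℕ) (c : W) (f : NodeRing W ϖ) :
    coeffV h j (c • f) = c * coeffV h j f := by
  obtain ⟨F, rfl⟩ := mkN_surjective f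
  rw [smul_mkN, coeffV_mkN, coeffV_mkN, nfV_CC_mul]

/-- `coeffU` as a linear map. -/
noncomputable def coeffUₗ (h : PiComplete ϖ) (i : ℕ) : NodeRing W ϖ →ₗ[W] W where
  toFun := coeffU h i
  map_add' := coeffU_add h i
  map_smul' := coeffU_smul h i

/-- `coeffV` as a linear map. -/
noncomputable def coeffVₗ (h : PiComplete ϖ) (j : ℕ) : NodeRing W ϖ →ₗ[W] W where
  toFun := coeffV h j
  map_add' := coeffV_add h j
  map_smul' := coeffV_smul h j

@[simp] theorem coeffU_zero' (i : ℕ) : coeffU h i (0 : NodeRing W ϖ) = 0 :=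
  (coeffUₗ h i).map_zero

@[simp] theorem coeffV_zero' (j : ℕ) : coeffV h j (0 : NodeRing W ϖ) = 0 :=
  (coeffVₗ h j).map_zero

@[simp] theorem coeffU_neg (i : ℕ) (f : NodeRing W ϖ) : coeffU h i (-f) = - coeffU h i f :=
  (coeffUₗ h i).map_neg f

@[simp] theorem coeffV_neg (j : ℕ) (f : NodeRing W ϖ) : coeffV h j (-f) = - coeffV h j f :=
  (coeffVₗ h j).map_neg f

@[simp] theorem coeffU_sub (i : ℕ) (f g : NodeRing W ϖ) :
    coeffU h i (f - g) = coeffU h i f - coeffU h i g :=
  (coeffUₗ h i).map_sub f g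

@[simp] theorem coeffV_sub (j : ℕ) (f g : NodeRing W ϖ) :
    coeffV h j (f - g) = coeffV h j f - coeffV h j g :=
  (coeffVₗ h j).map_sub f g

theorem coeffU_sum {ι : Type*} (s : Finset ι) (f : ι → NodeRing W ϖ) (i : ℕ) :
    coeffU h i (∑ x ∈ s, f x) = ∑ x ∈ s, coeffU h i (f x) :=
  map_sum (coeffUₗ h i) f s

theorem coeffV_sum {ι : Type*} (s : Finset ι) (f : ι → NodeRing W ϖ) (j : ℕ) :
    coeffV h j (∑ x ∈ s, f x) = ∑ x ∈ s, coeffV h j (f x) :=
  map_sum (coeffVₗ h j) f s

/-! ### Shift rules -/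

theorem coeffU_U_mul_succ (f : NodeRing W ϖ) (n : ℕ) :
    coeffU h (n + 1) (U * f) = coeffU h n f := by
  obtain ⟨F, rfl⟩ := mkN_surjective f
  rw [U, ← map_mul, coeffU_mkN, coeffU_mkN, nfU_Uamb_mul_succ]

theorem coeffU_U_mul_zero (f : NodeRing W ϖ) : coeffU h 0 (U * f) = ϖ * coeffV h 1 f := by
  obtain ⟨F, rfl⟩ := mkN_surjective f
  rw [U, ← map_mul, coeffU_mkN, coeffV_mkN, nfU_Uamb_mul_zero]

theorem coeffV_U_mul (f : NodeRing W ϖ) (n : ℕ) :
    coeffV h n (U * f) = ϖ * coeffV h (n + 1) f := by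
  obtain ⟨F, rfl⟩ := mkN_surjective f
  rw [U, ← map_mul, coeffV_mkN, coeffV_mkN, nfV_Uamb_mul]

theorem coeffV_V_mul_succ (f : NodeRing W ϖ) (n : ℕ) :
    coeffV h (n + 1) (V * f) = coeffV h n f := by
  obtain ⟨F, rfl⟩ := mkN_surjective f
  rw [V, ← map_mul, coeffV_mkN, coeffV_mkN, nfV_Vamb_mul_succ]

theorem coeffU_V_mul (f : NodeRing W ϖ) (n : ℕ) :
    coeffU h n (V * f) = ϖ * coeffU h (n + 1) f := by
  obtain ⟨F, rfl⟩ := mkN_surjective f
  rw [V, ← map_mul, coeffU_mkN, coeffU_mkN, nfU_Vamb_mul]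

end Quot


section Powers

variable {W : Type*} [CommRing W] {ϖ : W} (h : PiComplete ϖ)

theorem coeffV_U_pow_mul (N : ℕ) (f : NodeRing W ϖ) (j : ℕ) :
    coeffV h j (U ^ N * f) = ϖ ^ N * coeffV h (j + N) f := by
  induction N generalizing j with
  | zero => simp
  | succ N ih =>
    rw [pow_succ', mul_assoc, coeffV_U_mul, ih, pow_succ', mul_assoc,
      show j + 1 + N = j + (N + 1) by omega]

theorem coeffU_V_pow_mul (N : ℕ) (f : NodeRing W ϖ) (i : ℕ) :
    coeffU h i (V ^ N * f) = ϖ ^ N * coeffU h (i + N) f := by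
  induction N generalizing i with
  | zero => simp
  | succ N ih =>
    rw [pow_succ', mul_assoc, coeffU_V_mul, ih, pow_succ', mul_assoc,
      show i + 1 + N = i + (N + 1) by omega]

theorem coeffU_U_pow_mul (N : ℕ) (f : NodeRing W ϖ) (i : ℕ) :
    coeffU h i (U ^ N * f) =
      if N ≤ i then coeffU h (i - N) f else ϖ ^ (N - i) * coeffV h (N - i) f := by
  induction N generalizing i with
  | zero => simp
  | succ N ih =>
    rw [pow_succ', mul_assoc]
    cases i with
    | zero =>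
      rw [coeffU_U_mul_zero, coeffV_U_pow_mul, if_neg (by omega),
        show N + 1 - 0 = N + 1 by omega, pow_succ', mul_assoc, show 1 + N = N + 1 by omega]
    | succ i =>
      rw [coeffU_U_mul_succ, ih]
      by_cases hN : N ≤ i
      · rw [if_pos hN, if_pos (by omega), show i + 1 - (N + 1) = i - N by omega]
      · rw [if_neg hN, if_neg (by omega), show N + 1 - (i + 1) = N - i by omega]

theorem coeffV_V_pow_mul (N : ℕ) (f : NodeRing W ϖ) (j : ℕ) :
    coeffV h j (V ^ N * f) =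
      if N ≤ j then coeffV h (j - N) f else ϖ ^ (N - j) * coeffU h (N - j) f := by
  induction N generalizing j with
  | zero => simp
  | succ N ih =>
    rw [pow_succ', mul_assoc]
    cases j with
    | zero =>
      rw [coeffV_zero, coeffU_V_mul, coeffU_V_pow_mul, if_neg (by omega),
        show N + 1 - 0 = N + 1 by omega, pow_succ', mul_assoc, show 0 + 1 + N = N + 1 by omega]
    | succ j =>
      rw [coeffV_V_mul_succ, ih]
      by_cases hN : N ≤ j
      · rw [if_pos hN, if_pos (by omega), show j + 1 - (N + 1) = j - N by omega]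
      · rw [if_neg hN, if_neg (by omega), show N + 1 - (j + 1) = N - j by omega]

/-- The truncation of the normal form at order `N`. -/
noncomputable def trunc (N : ℕ) (f : NodeRing W ϖ) : NodeRing W ϖ :=
  ofSeq (fun i => if i < N then coeffU h i f else 0) (fun j => if j < N then coeffV h j f else 0)

/-- The `U`-tail: `f = trunc N f + U ^ N * tailU N f + V ^ N * tailV N f`. -/
noncomputable def tailU (N : ℕ) (f : NodeRing W ϖ) : NodeRing W ϖ :=
  ofSeq (fun i => coeffU h (i + N) f) (fun _ => 0)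

/-- The `V`-tail. -/
noncomputable def tailV (N : ℕ) (f : NodeRing W ϖ) : NodeRing W ϖ :=
  ofSeq (fun i => if i = 0 then coeffV h N f else 0) (fun j => coeffV h (j + N) f)

theorem coeffU_trunc (N : ℕ) (f : NodeRing W ϖ) (i : ℕ) :
    coeffU h i (trunc h N f) = if i < N then coeffU h i f else 0 := by
  rw [trunc, coeffU_ofSeq]

theorem coeffV_trunc (N : ℕ) (f : NodeRing W ϖ) (j : ℕ) :
    coeffV h (j + 1) (trunc h N f) = if j + 1 < N then coeffV h (j + 1) f else 0 := by
  rw [trunc, coeffV_ofSeq]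

/-- **Truncation.** -/
theorem eq_trunc_add_tails {N : ℕ} (hN : 1 ≤ N) (f : NodeRing W ϖ) :
    f = trunc h N f + U ^ N * tailU h N f + V ^ N * tailV h N f := by
  apply ext_coeff h
  · intro i
    rw [coeffU_add, coeffU_add, coeffU_trunc, coeffU_U_pow_mul, coeffU_V_pow_mul]
    have h1 : coeffU h (i + N) (tailV h N f) = 0 := by
      rw [tailV, coeffU_ofSeq, if_neg (by omega)]
    rw [h1, mul_zero, add_zero]
    by_cases hi : i < N
    · rw [if_pos hi, if_neg (by omega)]
      have h2 : coeffV h (N - i) (tailU h N f) = 0 := by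
        obtain ⟨m, hm⟩ : ∃ m, N - i = m + 1 := ⟨N - i - 1, by omega⟩
        rw [hm, tailU, coeffV_ofSeq]
      rw [h2, mul_zero, add_zero]
    · rw [if_neg hi, if_pos (by omega), zero_add, tailU, coeffU_ofSeq,
        show i - N + N = i by omega]
  · intro j
    rw [coeffV_add, coeffV_add, coeffV_trunc, coeffV_U_pow_mul, coeffV_V_pow_mul]
    have h1 : coeffV h (j + 1 + N) (tailU h N f) = 0 := by
      rw [show j + 1 + N = (j + N) + 1 by omega, tailU, coeffV_ofSeq]
    rw [h1, mul_zero, add_zero]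
    by_cases hj : j + 1 < N
    · rw [if_pos hj, if_neg (by omega)]
      have h2 : coeffU h (N - (j + 1)) (tailV h N f) = 0 := by
        rw [tailV, coeffU_ofSeq, if_neg (by omega)]
      rw [h2, mul_zero, add_zero]
    · rw [if_neg hj, if_pos (by omega), zero_add]
      by_cases hj2 : j + 1 = N
      · rw [show j + 1 - N = 0 by omega, coeffV_zero, tailV, coeffU_ofSeq, if_pos rfl, hj2]
      · obtain ⟨m, hm⟩ : ∃ m, j + 1 - N = m + 1 := ⟨j + 1 - N - 1, by omega⟩
        rw [hm, tailV, coeffV_ofSeq, show m + 1 + N = j + 1 by omega]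

theorem coeffV_U_pow_mul_trunc (N : ℕ) (f : NodeRing W ϖ) (j : ℕ) :
    coeffV h (j + 1) (U ^ N * trunc h N f) = 0 := by
  rw [coeffV_U_pow_mul, show j + 1 + N = (j + N) + 1 by omega, coeffV_trunc, if_neg (by omega),
    mul_zero]

theorem coeffU_U_pow_mul_trunc_of_le (N : ℕ) (f : NodeRing W ϖ) {i : ℕ} (hi : 2 * N ≤ i) :
    coeffU h i (U ^ N * trunc h N f) = 0 := by
  rw [coeffU_U_pow_mul, if_pos (by omega), coeffU_trunc, if_neg (by omega)]

/-- The ring homomorphism `W[X] → NodeRing W ϖ`, `X ↦ U`. -/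
noncomputable def polyU (ϖ : W) : Polynomial W →+* NodeRing W ϖ :=
  (mkN ϖ).comp ((C : PowerSeries W →+* Amb W).comp Polynomial.coeToPowerSeries.ringHom)

theorem polyU_apply (P : Polynomial W) : polyU ϖ P = mkN ϖ (C (P : PowerSeries W)) := rfl

@[simp] theorem polyU_X : polyU ϖ (Polynomial.X : Polynomial W) = U := by
  rw [polyU_apply, Polynomial.coe_X]
  rfl

@[simp] theorem polyU_C (c : W) : polyU ϖ (Polynomial.C c) = algebraMap W (NodeRing W ϖ) c := by
  rw [polyU_apply, Polynomial.coe_C, algebraMap_eq]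

theorem coeffU_polyU (P : Polynomial W) (i : ℕ) : coeffU h i (polyU ϖ P) = P.coeff i := by
  rw [polyU_apply, coeffU_mkN, nfU, h.tsum_eq_single]
  · simp [cf]
  · intro m
    simp [cf]

theorem coeffV_polyU (P : Polynomial W) (j : ℕ) : coeffV h (j + 1) (polyU ϖ P) = 0 := by
  rw [polyU_apply, coeffV_mkN, nfV, h.tsum_eq_single]
  · simp [cf]
  · intro m
    simp [cf, coeff_C]

/-- An element without `V`-part and with finitely many `U`-coefficients is a polynomial in `U`. -/
theorem exists_polyU_eq {g : NodeRing W ϖ} {M : ℕ} (hV : ∀ j, coeffV h (j + 1) g = 0)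
    (hU : ∀ i, M ≤ i → coeffU h i g = 0) :
    ∃ P : Polynomial W, polyU ϖ P = g ∧ ∀ i, P.coeff i = coeffU h i g := by
  refine ⟨∑ i ∈ Finset.range M, Polynomial.monomial i (coeffU h i g), ?_, ?_⟩
  · apply ext_coeff h
    · intro i
      rw [coeffU_polyU, Polynomial.finsetSum_coeff]
      simp only [Polynomial.coeff_monomial]
      rw [Finset.sum_ite_eq' (Finset.range M) i]
      by_cases hi : i < M
      · rw [if_pos (Finset.mem_range.2 hi)]
      · rw [if_neg (by simpa using hi), hU i (by omega)]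
    · intro j
      rw [coeffV_polyU, hV]
  · intro i
    rw [Polynomial.finsetSum_coeff]
    simp only [Polynomial.coeff_monomial]
    rw [Finset.sum_ite_eq' (Finset.range M) i]
    by_cases hi : i < M
    · rw [if_pos (Finset.mem_range.2 hi)]
    · rw [if_neg (by simpa using hi), hU i (by omega)]

end Powers


section Reductions

variable {W : Type*} [CommRing W] {ϖ : W} {k : Type*} [CommRing k]

/-- Reduction to the first branch: `V ↦ 0`, coefficients reduced along `p`. -/
noncomputable def red₁ (p : W →+* k) (hp : p ϖ = 0) : NodeRing W ϖ →+* PowerSeries k :=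
  Ideal.Quotient.lift (Ideal.span {rel ϖ})
    ((PowerSeries.map p).comp (PowerSeries.constantCoeff (R := PowerSeries W)))
    (by
      intro a ha
      rw [Ideal.mem_span_singleton'] at ha
      obtain ⟨b, rfl⟩ := ha
      rw [map_mul]
      have h1 : ((PowerSeries.map p).comp (PowerSeries.constantCoeff (R := PowerSeries W)))
          (rel ϖ) = 0 := by
        simp [rel, Uamb, Vamb, hp]
      rw [h1, mul_zero])

/-- Reduction to the second branch: `U ↦ 0`, coefficients reduced along `p`. -/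
noncomputable def red₂ (p : W →+* k) (hp : p ϖ = 0) : NodeRing W ϖ →+* PowerSeries k :=
  Ideal.Quotient.lift (Ideal.span {rel ϖ})
    ((PowerSeries.map p).comp (PowerSeries.map (PowerSeries.constantCoeff (R := W))))
    (by
      intro a ha
      rw [Ideal.mem_span_singleton'] at ha
      obtain ⟨b, rfl⟩ := ha
      rw [map_mul]
      have h1 : ((PowerSeries.map p).comp (PowerSeries.map (PowerSeries.constantCoeff (R := W))))
          (rel ϖ) = 0 := by
        simp [rel, Uamb, Vamb, hp]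
      rw [h1, mul_zero])

theorem red₁_mkN (p : W →+* k) (hp : p ϖ = 0) (F : Amb W) :
    red₁ p hp (mkN ϖ F) = PowerSeries.map p (PowerSeries.constantCoeff F) := rfl

theorem red₂_mkN (p : W →+* k) (hp : p ϖ = 0) (F : Amb W) :
    red₂ p hp (mkN ϖ F) = PowerSeries.map p (PowerSeries.map PowerSeries.constantCoeff F) := rfl

theorem coeff_red₁_mkN (p : W →+* k) (hp : p ϖ = 0) (F : Amb W) (i : ℕ) :
    coeff i (red₁ p hp (mkN ϖ F)) = p (cf F i 0) := by
  rw [red₁_mkN, coeff_map, cf, coeff_zero_eq_constantCoeff_apply]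

theorem coeff_red₂_mkN (p : W →+* k) (hp : p ϖ = 0) (F : Amb W) (j : ℕ) :
    coeff j (red₂ p hp (mkN ϖ F)) = p (cf F 0 j) := by
  rw [red₂_mkN, coeff_map, coeff_map, cf, coeff_zero_eq_constantCoeff_apply]

@[simp] theorem red₁_U (p : W →+* k) (hp : p ϖ = 0) : red₁ p hp (U : NodeRing W ϖ) = X := by
  rw [U, red₁_mkN]
  simp [Uamb]

@[simp] theorem red₁_V (p : W →+* k) (hp : p ϖ = 0) : red₁ p hp (V : NodeRing W ϖ) = 0 := by
  rw [V, red₁_mkN]
  simp [Vamb]

@[simp] theorem red₂_U (p : W →+* k) (hp : p ϖ = 0) : red₂ p hp (U : NodeRing W ϖ) = 0 := by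
  rw [U, red₂_mkN]
  simp [Uamb]

@[simp] theorem red₂_V (p : W →+* k) (hp : p ϖ = 0) : red₂ p hp (V : NodeRing W ϖ) = X := by
  rw [V, red₂_mkN]
  simp [Vamb]

@[simp] theorem red₁_algebraMap (p : W →+* k) (hp : p ϖ = 0) (c : W) :
    red₁ p hp (algebraMap W (NodeRing W ϖ) c) = C (p c) := by
  rw [algebraMap_eq, red₁_mkN]
  simp

@[simp] theorem red₂_algebraMap (p : W →+* k) (hp : p ϖ = 0) (c : W) :
    red₂ p hp (algebraMap W (NodeRing W ϖ) c) = C (p c) := by
  rw [algebraMap_eq, red₂_mkN]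
  simp

variable (h : PiComplete ϖ)

theorem coeff_red₁ (p : W →+* k) (hp : p ϖ = 0) (f : NodeRing W ϖ) (i : ℕ) :
    coeff i (red₁ p hp f) = p (coeffU h i f) := by
  obtain ⟨F, rfl⟩ := mkN_surjective f
  rw [coeff_red₁_mkN, coeffU_mkN, nfU, h.tsum_succ, map_add, map_mul, hp, zero_mul, add_zero,
    add_zero]

theorem coeff_red₂ (p : W →+* k) (hp : p ϖ = 0) (f : NodeRing W ϖ) (j : ℕ) :
    coeff j (red₂ p hp f) = p (coeffV h j f) := by
  obtain ⟨F, rfl⟩ := mkN_surjective f
  rw [coeff_red₂_mkN, coeffV_mkN, nfV, h.tsum_succ, map_add, map_mul, hp, zero_mul, add_zero,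
    add_zero]

/-- **Formal matching at the node**: the two reductions of an element of the node ring have the
same constant term. -/
theorem constantCoeff_red₁_eq_red₂ (p : W →+* k) (hp : p ϖ = 0) (f : NodeRing W ϖ) :
    constantCoeff (red₁ p hp f) = constantCoeff (red₂ p hp f) := by
  obtain ⟨F, rfl⟩ := mkN_surjective f
  rw [← coeff_zero_eq_constantCoeff_apply, ← coeff_zero_eq_constantCoeff_apply, coeff_red₁_mkN,
    coeff_red₂_mkN]

theorem constantCoeff_red₁ (p : W →+* k) (hp : p ϖ = 0) (f : NodeRing W ϖ) :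
    constantCoeff (red₁ p hp f) = p (coeffU h 0 f) := by
  rw [← coeff_zero_eq_constantCoeff_apply, coeff_red₁ h]

theorem constantCoeff_red₂ (p : W →+* k) (hp : p ϖ = 0) (f : NodeRing W ϖ) :
    constantCoeff (red₂ p hp f) = p (coeffU h 0 f) := by
  rw [← constantCoeff_red₁_eq_red₂, constantCoeff_red₁ h]

end Reductions

section Units

variable {W : Type*} [CommRing W] [IsLocalRing W] {ϖ : W}

theorem nontrivial_of_mem (hϖ : ϖ ∈ IsLocalRing.maximalIdeal W) : Nontrivial (NodeRing W ϖ) := by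
  have hp : IsLocalRing.residue W ϖ = 0 := (IsLocalRing.residue_eq_zero_iff ϖ).2 hϖ
  refine ⟨⟨0, 1, fun h01 => ?_⟩⟩
  have h1 := congrArg (red₁ (IsLocalRing.residue W) hp) h01
  rw [map_zero, map_one] at h1
  exact zero_ne_one h1

theorem isLocalRing_of_mem (hϖ : ϖ ∈ IsLocalRing.maximalIdeal W) : IsLocalRing (NodeRing W ϖ) := by
  have := nontrivial_of_mem hϖ
  exact IsLocalRing.of_surjective' (mkN ϖ) mkN_surjective

/-- **Formal unit criterion at the node**: an element of the node ring is a unit iff its value at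
the node is a unit. -/
theorem isUnit_iff (h : PiComplete ϖ) (hϖ : ϖ ∈ IsLocalRing.maximalIdeal W) (f : NodeRing W ϖ) :
    IsUnit f ↔ IsUnit (coeffU h 0 f) := by
  have hp : IsLocalRing.residue W ϖ = 0 := (IsLocalRing.residue_eq_zero_iff ϖ).2 hϖ
  constructor
  · intro hf
    have h1 := hf.map (red₁ (IsLocalRing.residue W) hp)
    rw [PowerSeries.isUnit_iff_constantCoeff, constantCoeff_red₁ h] at h1
    by_contra h2
    have h3 : coeffU h 0 f ∈ IsLocalRing.maximalIdeal W := (IsLocalRing.mem_maximalIdeal _).2 h2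
    rw [(IsLocalRing.residue_eq_zero_iff _).2 h3] at h1
    exact not_isUnit_zero h1
  · intro hf
    obtain ⟨F, rfl⟩ := mkN_surjective f
    apply IsUnit.map
    rw [PowerSeries.isUnit_iff_constantCoeff, PowerSeries.isUnit_iff_constantCoeff]
    rw [coeffU_mkN, nfU, h.tsum_succ] at hf
    have h4 : ϖ * h.tsum (fun m => cf F (0 + (m + 1)) (m + 1)) ∈ IsLocalRing.maximalIdeal W :=
      Ideal.mul_mem_right _ _ hϖ
    have h5 : cf F (0 + 0) 0 = constantCoeff (constantCoeff F) := by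
      simp [cf]
    rw [← h5]
    by_contra h6
    have h7 : cf F (0 + 0) 0 ∈ IsLocalRing.maximalIdeal W := (IsLocalRing.mem_maximalIdeal _).2 h6
    exact (IsLocalRing.mem_maximalIdeal _).1 (Ideal.add_mem _ h7 h4) hf

end Units

section Bridge

variable {W : Type*} [CommRing W] {ϖ : W}

/-- `ϖ`-adic completeness in Mathlib's sense gives the elementary form. -/
theorem PiComplete.of_isAdicComplete [IsAdicComplete (Ideal.span {ϖ}) W] : PiComplete ϖ := by
  have hpow : ∀ n : ℕ, ∀ x : W, x ≡ 0 [SMOD ((Ideal.span {ϖ}) ^ n • ⊤ : Submodule W W)] ↔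
      ϖ ^ n ∣ x := by
    intro n x
    rw [SModEq.zero, smul_eq_mul, Ideal.mul_top, Ideal.span_singleton_pow,
      Ideal.mem_span_singleton]
  constructor
  · intro x hx
    apply IsHausdorff.haus (I := Ideal.span {ϖ}) (M := W) inferInstance
    intro n
    exact (hpow n x).2 (hx n)
  · intro x
    have hc : ∀ {m n : ℕ}, m ≤ n →
        (∑ i ∈ Finset.range m, ϖ ^ i * x i) ≡ (∑ i ∈ Finset.range n, ϖ ^ i * x i)
          [SMOD ((Ideal.span {ϖ}) ^ m • ⊤ : Submodule W W)] := by
      intro m n hmn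
      rw [SModEq.sub_mem, smul_eq_mul, Ideal.mul_top, Ideal.span_singleton_pow,
        Ideal.mem_span_singleton]
      rw [← Finset.sum_range_add_sum_Ico _ hmn, sub_add_cancel_left, dvd_neg]
      apply Finset.dvd_sum
      intro i hi
      rw [Finset.mem_Ico] at hi
      exact Dvd.dvd.mul_right (pow_dvd_pow ϖ hi.1) _
    obtain ⟨s, hs⟩ := IsPrecomplete.prec (I := Ideal.span {ϖ}) (M := W) inferInstance hc
    refine ⟨s, fun n => ?_⟩
    have h1 := (hs n).symm
    rw [SModEq.sub_mem, smul_eq_mul, Ideal.mul_top, Ideal.span_singleton_pow,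
      Ideal.mem_span_singleton] at h1
    exact h1

end Bridge

end NodeRing

end Fermat.Agent.BR
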