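import Fermat.Agent.Val.SupNorm

/-!
# Program B, node B1.ORTHOSUB: the orthonormal-approximation engine for a `Subring`

Verbatim port of `Val.approx_of_coords` (`Val/SupNorm.lean`), `Val.HasApprox`,
`Val.HasApprox.of_mul_unit`, `Val.approx_of_exhaustion` (`Val/OrthoApprox.lean`),
`Val.linearIndependent_of_orthonormal`, `Val.exists_coords_of_orthonormal`,
`Val.exhaustion_of_ortho`, `Val.approx_of_ortho` (`Val/OrthoExhaust.lean`) with the valuation
subring `O` of `E` replaced by an arbitrary `O : Subring E` (the proofs only use that `O` is a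
subring).  Intended use: `O = R12 = O1 ⊓ O2` (intersection of the two Gauss valuation rings of
`F̄_{Mq}`), `Ft = k((q)) × k((q))`, `res = res12` (sup norm `max(w_1, w_2)`).
-/

set_option autoImplicit false
set_option linter.style.haveILetI false

namespace Fermat.Agent.BR.OrthoSub

open Fermat.Agent.Val Finset

section Coords

variable {L : Type*} [Field L] {ι : Type*} [Fintype ι]
variable (A : ValuationSubring L) {F Ft : Type*} [Field F] [Algebra L F] [Ring Ft]

/-- **Abstract form of `RedSetup.approx`** (`Red/Setup.lean`): let `O` be a valuation subring of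
`F` with a residue map `res`, and `W ≤ F` a finite-dimensional `L`-subspace with coordinates
`coords : W ≃ (ι → L)` which are *orthonormal*: `f ∈ O ↔ ‖coords f‖ ≤ 1` and
`res f = 0 ↔ ‖coords f‖ < 1` for `f ∈ W`.  Then every subspace `V ≤ W` is orthogonally
complemented in `W`: for `y ∈ W \ V` there are `w ∈ V` and a scalar `c ≠ 0` with
`c (y - w) ∈ O` whose residue is not the residue of any element of `V ∩ O`. -/
theorem approx_of_coords (O : Subring F) (res : O →+* Ft) (W : Submodule L F)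
    (coords : W ≃ₗ[L] (ι → L))
    (hO : ∀ f : W, (f : F) ∈ O ↔ supVal A.valuation (coords f) ≤ 1)
    (hres : ∀ (f : W) (hf : (f : F) ∈ O),
      res ⟨(f : F), hf⟩ = 0 ↔ supVal A.valuation (coords f) < 1)
    (V : Submodule L F) (hVW : V ≤ W) {y : F} (hyW : y ∈ W) (hyV : y ∉ V) :
    ∃ w ∈ V, ∃ c : L, c ≠ 0 ∧ ∃ h : c • (y - w) ∈ O,
      ∀ z : O, (z : F) ∈ V → res z ≠ res ⟨c • (y - w), h⟩ := by
  -- the image of `V` in coordinates
  let V₀ : Submodule L (ι → L) := (V.comap W.subtype).map coords.toLinearMap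
  have hmemV₀ : ∀ f : W, coords f ∈ V₀ ↔ (f : F) ∈ V := by
    intro f
    constructor
    · rintro ⟨g, hg, hgf⟩
      have : g = f := coords.injective hgf
      rw [← this]
      exact hg
    · intro hf
      exact ⟨f, hf, rfl⟩
  have hy₀ : coords ⟨y, hyW⟩ ∉ V₀ := fun h => hyV ((hmemV₀ ⟨y, hyW⟩).1 h)
  obtain ⟨w₀, hw₀, c, hc, hc1, hmin⟩ := exists_approx_supVal_eq_one A.valuation V₀ hy₀
  obtain ⟨w', hw'V, rfl⟩ := hw₀
  have hw'V' : (w' : F) ∈ V := hw'V
  -- the scaled difference, as an element of `W`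
  let u : W := c • (⟨y, hyW⟩ - w')
  have hu_coe : (u : F) = c • (y - (w' : F)) := rfl
  have hu_coords : coords u = c • (coords ⟨y, hyW⟩ - coords w') := by
    show coords (c • (⟨y, hyW⟩ - w')) = _
    rw [map_smul, map_sub]
  have huO : (u : F) ∈ O := (hO u).2 (by rw [hu_coords]; exact hc1.le)
  refine ⟨(w' : F), hw'V', c, hc, huO, fun z hz heq => ?_⟩
  let z' : W := ⟨(z : F), hVW hz⟩
  have hz'₀ : coords z' ∈ V₀ := (hmemV₀ z').2 hz
  have hdiffO : ((u - z' : W) : F) ∈ O := by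
    show (u : F) - (z : F) ∈ O
    exact sub_mem huO z.2
  have hres0 : res ⟨((u - z' : W) : F), hdiffO⟩ = 0 := by
    have h1 : (⟨((u - z' : W) : F), hdiffO⟩ : O) = ⟨(u : F), huO⟩ - z := Subtype.ext rfl
    rw [h1, map_sub, sub_eq_zero]
    exact heq.symm
  have hlt := (hres (u - z') hdiffO).1 hres0
  have hge := hmin (-(coords z')) (V₀.neg_mem hz'₀)
  rw [map_sub, hu_coords, sub_eq_add_neg] at hlt
  exact absurd hlt (not_lt.2 hge)

end Coords

section Approx


variable {L E Ft : Type*} [Field L] [Field E] [Algebra L E] [Ring Ft]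

/-- The conclusion of the field `approx` of `Red.RedSetup` for the pair `(V, y)`. -/
def HasApprox (O : Subring E) (res : O →+* Ft) (V : Submodule L E) (y : E) : Prop :=
  ∃ w ∈ V, ∃ c : L, c ≠ 0 ∧ ∃ h : c • (y - w) ∈ O,
    ∀ z : O, (z : E) ∈ V → res z ≠ res ⟨c • (y - w), h⟩

variable {O : Subring E} {res : O →+* Ft}

/-- Transfer of best approximations along multiplication by a unit `b` of `O`. -/
theorem HasApprox.of_mul_unit {V : Submodule L E} {y : E} {b : E} (hb0 : b ≠ 0) (hb : b ∈ O)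
    (hb' : b⁻¹ ∈ O) (h : HasApprox O res (V.map (LinearMap.mulLeft L b)) (b * y)) :
    HasApprox O res V y := by
  obtain ⟨w', ⟨w, hwV, rfl⟩, c, hc, hmem, hne⟩ := h
  have hw' : (LinearMap.mulLeft L b) w = b * w := rfl
  have hkey : c • (b * y - (LinearMap.mulLeft L b) w) = b * (c • (y - w)) := by
    rw [hw', ← mul_sub, mul_smul_comm]
  have hmem' : c • (y - w) ∈ O := by
    have : c • (y - w) = b⁻¹ * (c • (b * y - (LinearMap.mulLeft L b) w)) := by
      rw [hkey, ← mul_assoc, inv_mul_cancel₀ hb0, one_mul]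
    rw [this]
    exact O.mul_mem hb' hmem
  refine ⟨w, hwV, c, hc, hmem', fun z hzV hres => ?_⟩
  have hbz : b * (z : E) ∈ O := O.mul_mem hb z.2
  have hbzV : b * (z : E) ∈ V.map (LinearMap.mulLeft L b) := ⟨z, hzV, rfl⟩
  refine hne ⟨b * (z : E), hbz⟩ hbzV ?_
  have h1 : (⟨b * (z : E), hbz⟩ : O) = ⟨b, hb⟩ * z := Subtype.ext rfl
  have h2 : (⟨c • (b * y - (LinearMap.mulLeft L b) w), hmem⟩ : O) =
      ⟨b, hb⟩ * ⟨c • (y - w), hmem'⟩ := Subtype.ext hkey
  rw [h1, h2, map_mul, map_mul, hres]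

/-- **`RedSetup.approx` from orthonormal exhaustions.** Suppose that for every finite subset `S`
of `E` there are a unit `b` of `O` and a finite-dimensional subspace `W` of `E` containing `b • S`
with orthonormal coordinates `coords : W ≃ (ι → L)` (`f ∈ O ↔ ‖coords f‖ ≤ 1` and
`res f = 0 ↔ ‖coords f‖ < 1`).  Then every finite-dimensional `L`-subspace of `E` has best
approximations; the conclusion is verbatim the field `approx` of `Red.RedSetup`. -/
theorem approx_of_exhaustion (A : ValuationSubring L) (O : Subring E) (res : O →+* Ft)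
    (hex : ∀ S : Finset E, ∃ b : E, b ≠ 0 ∧ b ∈ O ∧ b⁻¹ ∈ O ∧
      ∃ (ι : Type) (_ : Fintype ι) (W : Submodule L E) (coords : W ≃ₗ[L] (ι → L)),
        (∀ f : W, (f : E) ∈ O ↔ supVal A.valuation (coords f) ≤ 1) ∧
        (∀ (f : W) (hf : (f : E) ∈ O),
          res ⟨(f : E), hf⟩ = 0 ↔ supVal A.valuation (coords f) < 1) ∧
        ∀ s ∈ S, b * s ∈ W)
    (V : Submodule L E) (hV : Module.Finite L V) (y : E) (hy : y ∉ V) :
    ∃ w ∈ V, ∃ c : L, c ≠ 0 ∧ ∃ h : c • (y - w) ∈ O,
      ∀ z : O, (z : E) ∈ V → res z ≠ res ⟨c • (y - w), h⟩ := by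
  classical
  obtain ⟨S₀, hS₀⟩ := Module.Finite.iff_fg.1 hV
  obtain ⟨b, hb0, hb, hb', ι, _, W, coords, hO, hres, hW⟩ := hex (insert y S₀)
  have hVW : V.map (LinearMap.mulLeft L b) ≤ W := by
    rw [← hS₀, Submodule.map_span, Submodule.span_le]
    rintro _ ⟨s, hs, rfl⟩
    exact hW s (Finset.mem_insert_of_mem hs)
  have hyW : b * y ∈ W := hW y (Finset.mem_insert_self y S₀)
  have hyV : b * y ∉ V.map (LinearMap.mulLeft L b) := by
    rintro ⟨v, hv, hvy⟩
    have : b * v = b * y := hvy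
    exact hy ((mul_left_cancel₀ hb0 this) ▸ hv)
  exact HasApprox.of_mul_unit hb0 hb hb'
    (approx_of_coords A O res W coords hO hres _ hVW hyW hyV)




end Approx

section Exhaust

open Polynomial

variable {L E Ft : Type*} [Field L] [Field E] [Algebra L E] [Ring Ft]
variable (A : ValuationSubring L) (O : Subring E) (res : O →+* Ft)

/-- Orthonormal finite families are linearly independent. -/
theorem linearIndependent_of_orthonormal {σ : Type*} [Fintype σ] (e : σ → E)
    (hb : ∀ (lam : σ → L) (h : (∑ s, lam s • e s) ∈ O),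
      res ⟨∑ s, lam s • e s, h⟩ = 0 → ∀ s, A.valuation (lam s) < 1) :
    LinearIndependent L e := by
  classical
  rw [Fintype.linearIndependent_iff]
  intro g hg
  by_contra hne
  push Not at hne
  obtain ⟨s₁, hs₁⟩ := hne
  obtain ⟨s₀, -, hmax⟩ := Finset.exists_max_image Finset.univ (fun s => A.valuation (g s))
    ⟨s₁, Finset.mem_univ _⟩
  have hs₀ : g s₀ ≠ 0 := by
    intro h0
    have := hmax s₁ (Finset.mem_univ _)
    rw [h0, map_zero] at this
    exact hs₁ ((Valuation.zero_iff _).1 (le_antisymm this zero_le))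
  set lam : σ → L := fun s => (g s₀)⁻¹ * g s with hlam
  have hsum : (∑ s, lam s • e s) = 0 := by
    have : (∑ s, lam s • e s) = (g s₀)⁻¹ • ∑ s, g s • e s := by
      rw [Finset.smul_sum]
      exact Finset.sum_congr rfl fun s _ => by rw [hlam, mul_smul]
    rw [this, hg, smul_zero]
  have hmem : (∑ s, lam s • e s) ∈ O := by rw [hsum]; exact O.zero_mem
  have hres0 : res ⟨∑ s, lam s • e s, hmem⟩ = 0 := by
    have : (⟨∑ s, lam s • e s, hmem⟩ : O) = 0 := Subtype.ext hsum
    rw [this, map_zero]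
  have := hb lam hmem hres0 s₀
  rw [hlam] at this
  simp only [inv_mul_cancel₀ hs₀, map_one] at this
  exact lt_irrefl _ this

/-- **Orthonormal coordinates from an orthonormal family.** -/
theorem exists_coords_of_orthonormal {σ : Type*} [Fintype σ] (e : σ → E)
    (ha : ∀ lam : σ → L, (∑ s, lam s • e s) ∈ O ↔ ∀ s, lam s ∈ A)
    (hb : ∀ (lam : σ → L) (h : (∑ s, lam s • e s) ∈ O),
      res ⟨∑ s, lam s • e s, h⟩ = 0 ↔ ∀ s, A.valuation (lam s) < 1) :
    ∃ (W : Submodule L E) (coords : W ≃ₗ[L] (σ → L)),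
      W = Submodule.span L (Set.range e) ∧
      (∀ f : W, (f : E) ∈ O ↔ supVal A.valuation (coords f) ≤ 1) ∧
      (∀ (f : W) (hf : (f : E) ∈ O),
        res ⟨(f : E), hf⟩ = 0 ↔ supVal A.valuation (coords f) < 1) := by
  classical
  have hli : LinearIndependent L e :=
    linearIndependent_of_orthonormal A O res e fun lam h h0 => (hb lam h).1 h0
  set bs := Module.Basis.span hli with hbs
  refine ⟨Submodule.span L (Set.range e), bs.equivFun, rfl, ?_, ?_⟩
  · intro f
    have hf : (f : E) = ∑ s, bs.equivFun f s • e s := by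
      conv_lhs => rw [← bs.sum_equivFun f]
      rw [AddSubmonoidClass.coe_finsetSum]
      refine Finset.sum_congr rfl fun s _ => ?_
      rw [Submodule.coe_smul, hbs, Module.Basis.span_apply]
    rw [hf, ha, supVal_le_one_iff_forall_mem]
  · intro f hfO
    have hf : (f : E) = ∑ s, bs.equivFun f s • e s := by
      conv_lhs => rw [← bs.sum_equivFun f]
      rw [AddSubmonoidClass.coe_finsetSum]
      refine Finset.sum_congr rfl fun s _ => ?_
      rw [Submodule.coe_smul, hbs, Module.Basis.span_apply]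
    have hmem : (∑ s, bs.equivFun f s • e s) ∈ O := hf ▸ hfO
    have heq : (⟨(f : E), hfO⟩ : O) = ⟨∑ s, bs.equivFun f s • e s, hmem⟩ := Subtype.ext hf
    rw [heq, hb _ hmem]
    rcases isEmpty_or_nonempty σ with hσ | hσ
    · constructor
      · intro _
        have : supVal A.valuation (bs.equivFun f) = 0 := by
          rw [supVal_eq_zero_iff]
          exact Subsingleton.elim _ _
        rw [this]
        exact zero_lt_one
      · intro _ s
        exact (hσ.false s).elim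
    · exact (supVal_lt_one_iff_forall_lt A).symm

variable {A O res}

/-- **Exhaustion from an orthonormal monomial family.** Let `x : E`, `m : Fin n → E` be such that
for every `d` the family `x ^ a * m i` (`a ≤ d`) is orthonormal, every `f ∈ E` satisfies
`f * Q(x) = ∑ i, Pᵢ(x) * m i` with `Q ≠ 0`, and every `Q(x)`, `Q ≠ 0`, is a constant times a unit
of `O`. Then the hypothesis `hex` of `approx_of_exhaustion` holds. -/
theorem exhaustion_of_ortho (x : E) {n : ℕ} (m : Fin n → E)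
    (hU : ∀ Q : L[X], Q ≠ 0 → ∃ c : L, c ≠ 0 ∧ c • aeval x Q ≠ 0 ∧ c • aeval x Q ∈ O ∧
      (c • aeval x Q)⁻¹ ∈ O)
    (ha : ∀ (d : ℕ) (lam : Fin n × Fin (d + 1) → L),
      (∑ s, lam s • (x ^ (s.2 : ℕ) * m s.1)) ∈ O ↔ ∀ s, lam s ∈ A)
    (hb : ∀ (d : ℕ) (lam : Fin n × Fin (d + 1) → L)
      (h : (∑ s, lam s • (x ^ (s.2 : ℕ) * m s.1)) ∈ O),
      res ⟨∑ s, lam s • (x ^ (s.2 : ℕ) * m s.1), h⟩ = 0 ↔ ∀ s, A.valuation (lam s) < 1)
    (hrep : ∀ f : E, ∃ Q : L[X], Q ≠ 0 ∧ ∃ P : Fin n → L[X],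
      f * aeval x Q = ∑ i, aeval x (P i) * m i)
    (S : Finset E) :
    ∃ b : E, b ≠ 0 ∧ b ∈ O ∧ b⁻¹ ∈ O ∧
      ∃ (ι : Type) (_ : Fintype ι) (W : Submodule L E) (coords : W ≃ₗ[L] (ι → L)),
        (∀ f : W, (f : E) ∈ O ↔ supVal A.valuation (coords f) ≤ 1) ∧
        (∀ (f : W) (hf : (f : E) ∈ O),
          res ⟨(f : E), hf⟩ = 0 ↔ supVal A.valuation (coords f) < 1) ∧
        ∀ s ∈ S, b * s ∈ W := by
  classical
  choose Qf hQf Pf hPf using hrep
  -- common denominator
  set Q : L[X] := ∏ s ∈ S, Qf s with hQ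
  have hQ0 : Q ≠ 0 := Finset.prod_ne_zero_iff.2 fun s _ => hQf s
  -- numerators over the common denominator
  set P' : E → Fin n → L[X] := fun s i => Pf s i * ∏ t ∈ S.erase s, Qf t with hP'
  have hrep' : ∀ s ∈ S, s * aeval x Q = ∑ i, aeval x (P' s i) * m i := by
    intro s hs
    rw [hQ, ← Finset.mul_prod_erase S Qf hs, map_mul, ← mul_assoc, hPf s, Finset.sum_mul]
    refine Finset.sum_congr rfl fun i _ => ?_
    rw [hP', map_mul]
    ring
  -- degree bound
  set d : ℕ := S.sup fun s => Finset.univ.sup fun i => (P' s i).natDegree with hd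
  have hdeg : ∀ s ∈ S, ∀ i, (P' s i).natDegree ≤ d := fun s hs i =>
    (Finset.le_sup (f := fun i => (P' s i).natDegree) (Finset.mem_univ i)).trans
      (Finset.le_sup (f := fun s => Finset.univ.sup fun i => (P' s i).natDegree) hs)
  obtain ⟨c, hc, hb0, hbO, hbO'⟩ := hU Q hQ0
  obtain ⟨W, coords, hW, hO, hres⟩ := exists_coords_of_orthonormal A O res
    (fun s : Fin n × Fin (d + 1) => x ^ (s.2 : ℕ) * m s.1) (ha d) (hb d)
  refine ⟨c • aeval x Q, hb0, hbO, hbO', Fin n × Fin (d + 1), inferInstance, W, coords, hO, hres,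
    fun s hs => ?_⟩
  rw [hW]
  have h1 : c • aeval x Q * s = c • ∑ i, aeval x (P' s i) * m i := by
    rw [smul_mul_assoc, mul_comm, hrep' s hs]
  rw [h1]
  refine Submodule.smul_mem _ _ (Submodule.sum_mem _ fun i _ => ?_)
  rw [aeval_eq_sum_range' (Nat.lt_succ_of_le (hdeg s hs i)), Finset.sum_mul]
  refine Submodule.sum_mem _ fun a ha' => ?_
  rw [smul_mul_assoc]
  refine Submodule.smul_mem _ _ (Submodule.subset_span ?_)
  exact ⟨(i, ⟨a, Finset.mem_range.1 ha'⟩), rfl⟩

/-- **`RedSetup.approx` from an orthonormal monomial family** (combination of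
`exhaustion_of_ortho` and `approx_of_exhaustion`). -/
theorem approx_of_ortho (x : E) {n : ℕ} (m : Fin n → E)
    (hU : ∀ Q : L[X], Q ≠ 0 → ∃ c : L, c ≠ 0 ∧ c • aeval x Q ≠ 0 ∧ c • aeval x Q ∈ O ∧
      (c • aeval x Q)⁻¹ ∈ O)
    (ha : ∀ (d : ℕ) (lam : Fin n × Fin (d + 1) → L),
      (∑ s, lam s • (x ^ (s.2 : ℕ) * m s.1)) ∈ O ↔ ∀ s, lam s ∈ A)
    (hb : ∀ (d : ℕ) (lam : Fin n × Fin (d + 1) → L)
      (h : (∑ s, lam s • (x ^ (s.2 : ℕ) * m s.1)) ∈ O),
      res ⟨∑ s, lam s • (x ^ (s.2 : ℕ) * m s.1), h⟩ = 0 ↔ ∀ s, A.valuation (lam s) < 1)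
    (hrep : ∀ f : E, ∃ Q : L[X], Q ≠ 0 ∧ ∃ P : Fin n → L[X],
      f * aeval x Q = ∑ i, aeval x (P i) * m i)
    (V : Submodule L E) (hV : Module.Finite L V) (y : E) (hy : y ∉ V) :
    ∃ w ∈ V, ∃ c : L, c ≠ 0 ∧ ∃ h : c • (y - w) ∈ O,
      ∀ z : O, (z : E) ∈ V → res z ≠ res ⟨c • (y - w), h⟩ :=
  approx_of_exhaustion A O res (exhaustion_of_ortho x m hU ha hb hrep) V hV y hy


end Exhaust

end Fermat.Agent.BR.OrthoSub
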