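/-
Program B (BADRED), block B4 (helper8): the `ℙ¹` identity.

On a `ℙ¹`-component of the refined special fibre with coordinate `u`, inertia acts by `u ↦ z u`
(`z` a root of unity of the residue field).  If `r` is the reduction of a function `h` with
`div h = m D` on that component, then the reduction of `σ² h · h / (σ h)²` is
`ρ = r(c² u) · r(u) / r(c u)²` (`c = z⁻¹`), and

* `div ρ` is the second difference of `div r` along the `z`-orbit
  (`rootMultiplicity_rhoNum_sub`),
* `ρ` is a unit with value `1` at `u = 0` (`natTrailingDegree_rhoNum`, `trailingCoeff_rhoNum`),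
* `ρ` is a unit with value `1` at `u = ∞` (`natDegree_rhoNum`, `leadingCoeff_rhoNum`).

Everything is stated for an arbitrary nonzero rational function `r = p / q` over an arbitrary
field; Mathlib only.
-/
import Mathlib

set_option autoImplicit false

namespace Fermat.Agent.BR.POne

open Polynomial

variable {k : Type*} [Field k]

/-- the substitution `p(X) ↦ p(c X)` -/
noncomputable def sc (c : k) (p : k[X]) : k[X] := p.comp (C c * X)

@[simp] theorem sc_zero (c : k) : sc c (0 : k[X]) = 0 := by simp [sc]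

@[simp] theorem sc_one (c : k) : sc c (1 : k[X]) = 1 := by simp [sc]

theorem sc_mul (c : k) (p q : k[X]) : sc c (p * q) = sc c p * sc c q := by simp [sc]

theorem sc_pow (c : k) (p : k[X]) (n : ℕ) : sc c (p ^ n) = sc c p ^ n := by simp [sc]

@[simp] theorem sc_X (c : k) : sc c (X : k[X]) = C c * X := by simp [sc]

@[simp] theorem sc_C (c a : k) : sc c (C a : k[X]) = C a := by simp [sc]

theorem coeff_sc (c : k) (p : k[X]) (n : ℕ) : (sc c p).coeff n = p.coeff n * c ^ n := by
  simp [sc]

theorem sc_sc (c d : k) (p : k[X]) : sc c (sc d p) = sc (d * c) p := by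
  ext n
  rw [coeff_sc, coeff_sc, coeff_sc, mul_pow, mul_assoc]

theorem sc_ne_zero {c : k} (hc : c ≠ 0) {p : k[X]} (hp : p ≠ 0) : sc c p ≠ 0 := by
  intro h
  apply hp
  ext n
  have := congrArg (fun f => coeff f n) h
  simp only [coeff_sc, coeff_zero] at this
  rcases mul_eq_zero.mp this with h' | h'
  · simpa using h'
  · exact absurd h' (pow_ne_zero n hc)

theorem eval_sc (c b : k) (p : k[X]) : (sc c p).eval b = p.eval (c * b) := by
  simp [sc]

theorem natDegree_sc {c : k} (hc : c ≠ 0) (p : k[X]) : (sc c p).natDegree = p.natDegree := by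
  apply le_antisymm
  · rw [natDegree_le_iff_coeff_eq_zero]
    intro n hn
    rw [coeff_sc, coeff_eq_zero_of_natDegree_lt hn, zero_mul]
  · rcases eq_or_ne p 0 with rfl | hp
    · simp
    apply le_natDegree_of_ne_zero
    rw [coeff_sc]
    exact mul_ne_zero (by simpa using hp) (pow_ne_zero _ hc)

theorem leadingCoeff_sc {c : k} (hc : c ≠ 0) (p : k[X]) :
    (sc c p).leadingCoeff = p.leadingCoeff * c ^ p.natDegree := by
  rw [leadingCoeff, natDegree_sc hc, coeff_sc, leadingCoeff]

theorem natTrailingDegree_sc {c : k} (hc : c ≠ 0) (p : k[X]) :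
    (sc c p).natTrailingDegree = p.natTrailingDegree := by
  rcases eq_or_ne p 0 with rfl | hp
  · simp
  have hp' := sc_ne_zero hc hp
  apply le_antisymm
  · apply natTrailingDegree_le_of_ne_zero
    rw [coeff_sc]
    exact mul_ne_zero (by simpa [trailingCoeff] using hp) (pow_ne_zero _ hc)
  · apply le_natTrailingDegree hp'
    intro n hn
    rw [coeff_sc, coeff_eq_zero_of_lt_natTrailingDegree hn, zero_mul]

theorem trailingCoeff_sc {c : k} (hc : c ≠ 0) (p : k[X]) :
    (sc c p).trailingCoeff = p.trailingCoeff * c ^ p.natTrailingDegree := by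
  rw [trailingCoeff, natTrailingDegree_sc hc, coeff_sc, trailingCoeff]

theorem rootMultiplicity_sc {c : k} (hc : c ≠ 0) (p : k[X]) (b : k) :
    (sc c p).rootMultiplicity b = p.rootMultiplicity (c * b) := by
  have h := rootMultiplicity_comp_C_mul_X_add_C p c 0 b (isUnit_iff_ne_zero.mpr hc)
  simpa [sc] using h

/-! ### numerator and denominator of `ρ` -/

/-- numerator of `ρ = r(c² X) r(X) / r(c X)²` for `r = p / q` -/
noncomputable def rhoNum (c : k) (p q : k[X]) : k[X] :=
  sc (c ^ 2) p * p * (sc c q * sc c q)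

/-- denominator of `ρ = r(c² X) r(X) / r(c X)²` for `r = p / q` -/
noncomputable def rhoDen (c : k) (p q : k[X]) : k[X] :=
  sc c p * sc c p * (sc (c ^ 2) q * q)

variable {c : k} {p q : k[X]}

theorem rhoNum_ne_zero (hc : c ≠ 0) (hp : p ≠ 0) (hq : q ≠ 0) : rhoNum c p q ≠ 0 :=
  mul_ne_zero (mul_ne_zero (sc_ne_zero (pow_ne_zero 2 hc) hp) hp)
    (mul_ne_zero (sc_ne_zero hc hq) (sc_ne_zero hc hq))

theorem rhoDen_ne_zero (hc : c ≠ 0) (hp : p ≠ 0) (hq : q ≠ 0) : rhoDen c p q ≠ 0 :=
  mul_ne_zero (mul_ne_zero (sc_ne_zero hc hp) (sc_ne_zero hc hp))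
    (mul_ne_zero (sc_ne_zero (pow_ne_zero 2 hc) hq) hq)

/-- `ρ` has no zero or pole at `∞`: equal degrees ... -/
theorem natDegree_rhoNum (hc : c ≠ 0) (hp : p ≠ 0) (hq : q ≠ 0) :
    (rhoNum c p q).natDegree = (rhoDen c p q).natDegree := by
  have hc2 : c ^ 2 ≠ 0 := pow_ne_zero 2 hc
  have h1 := sc_ne_zero hc2 hp
  have h2 := sc_ne_zero hc hq
  have h3 := sc_ne_zero hc hp
  have h4 := sc_ne_zero hc2 hq
  rw [rhoNum, rhoDen, natDegree_mul (mul_ne_zero h1 hp) (mul_ne_zero h2 h2), natDegree_mul h1 hp,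
    natDegree_mul h2 h2, natDegree_mul (mul_ne_zero h3 h3) (mul_ne_zero h4 hq),
    natDegree_mul h3 h3, natDegree_mul h4 hq, natDegree_sc hc2, natDegree_sc hc, natDegree_sc hc,
    natDegree_sc hc2]

/-- ... and value `1` at `∞`: equal leading coefficients -/
theorem leadingCoeff_rhoNum (hc : c ≠ 0) :
    (rhoNum c p q).leadingCoeff = (rhoDen c p q).leadingCoeff := by
  have hc2 : c ^ 2 ≠ 0 := pow_ne_zero 2 hc
  rw [rhoNum, rhoDen]
  simp only [leadingCoeff_mul, leadingCoeff_sc hc2, leadingCoeff_sc hc]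
  ring

/-- `ρ` has no zero or pole at `0`: equal trailing degrees ... -/
theorem natTrailingDegree_rhoNum (hc : c ≠ 0) (hp : p ≠ 0) (hq : q ≠ 0) :
    (rhoNum c p q).natTrailingDegree = (rhoDen c p q).natTrailingDegree := by
  have hc2 : c ^ 2 ≠ 0 := pow_ne_zero 2 hc
  have h1 := sc_ne_zero hc2 hp
  have h2 := sc_ne_zero hc hq
  have h3 := sc_ne_zero hc hp
  have h4 := sc_ne_zero hc2 hq
  rw [rhoNum, rhoDen, natTrailingDegree_mul (mul_ne_zero h1 hp) (mul_ne_zero h2 h2),
    natTrailingDegree_mul h1 hp, natTrailingDegree_mul h2 h2,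
    natTrailingDegree_mul (mul_ne_zero h3 h3) (mul_ne_zero h4 hq), natTrailingDegree_mul h3 h3,
    natTrailingDegree_mul h4 hq, natTrailingDegree_sc hc2, natTrailingDegree_sc hc,
    natTrailingDegree_sc hc, natTrailingDegree_sc hc2]

/-- ... and value `1` at `0`: equal trailing coefficients -/
theorem trailingCoeff_rhoNum (hc : c ≠ 0) :
    (rhoNum c p q).trailingCoeff = (rhoDen c p q).trailingCoeff := by
  have hc2 : c ^ 2 ≠ 0 := pow_ne_zero 2 hc
  rw [rhoNum, rhoDen]
  simp only [trailingCoeff_mul, trailingCoeff_sc hc2, trailingCoeff_sc hc]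
  ring

/-- the divisor of `ρ` on `𝔾_m` (in fact on `𝔸¹`) is the second difference of the divisor of
`r = p / q` along the orbit `b, c b, c² b`. -/
theorem rootMultiplicity_rhoNum_sub (hc : c ≠ 0) (hp : p ≠ 0) (hq : q ≠ 0) (b : k) :
    ((rhoNum c p q).rootMultiplicity b : ℤ) - (rhoDen c p q).rootMultiplicity b =
      ((p.rootMultiplicity (c ^ 2 * b) : ℤ) - 2 * p.rootMultiplicity (c * b) +
          p.rootMultiplicity b) -
        ((q.rootMultiplicity (c ^ 2 * b) : ℤ) - 2 * q.rootMultiplicity (c * b) +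
          q.rootMultiplicity b) := by
  have hc2 : c ^ 2 ≠ 0 := pow_ne_zero 2 hc
  have h1 := sc_ne_zero hc2 hp
  have h2 := sc_ne_zero hc hq
  have h3 := sc_ne_zero hc hp
  have h4 := sc_ne_zero hc2 hq
  have hN := rhoNum_ne_zero hc hp hq
  have hD := rhoDen_ne_zero hc hp hq
  have e1 : (rhoNum c p q).rootMultiplicity b =
      p.rootMultiplicity (c ^ 2 * b) + p.rootMultiplicity b +
        (q.rootMultiplicity (c * b) + q.rootMultiplicity (c * b)) := by
    unfold rhoNum at hN ⊢
    rw [rootMultiplicity_mul hN, rootMultiplicity_mul (mul_ne_zero h1 hp),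
      rootMultiplicity_mul (mul_ne_zero h2 h2), rootMultiplicity_sc hc2, rootMultiplicity_sc hc]
  have e2 : (rhoDen c p q).rootMultiplicity b =
      (p.rootMultiplicity (c * b) + p.rootMultiplicity (c * b)) +
        (q.rootMultiplicity (c ^ 2 * b) + q.rootMultiplicity b) := by
    unfold rhoDen at hD ⊢
    rw [rootMultiplicity_mul hD, rootMultiplicity_mul (mul_ne_zero h3 h3),
      rootMultiplicity_mul (mul_ne_zero h4 hq), rootMultiplicity_sc hc2, rootMultiplicity_sc hc]
  rw [e1, e2]
  push_cast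
  ring

end Fermat.Agent.BR.POne
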