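import Mathlib
import Fermat.Agent.Jac.CorrGalois

/-!
# Program B: functoriality of `Pic⁰` along a finite map of function fields

`φ : F →ₐ[K] F'` a finite map of function fields over an algebraically closed field (Riemann
packages on both sides), with the fundamental identity and the norm formula.

* `pic0Pull φ … : Pic0 K F →+ Pic0 K F'` (pull-back `φ^*`), `pic0Push φ … : Pic0 K F' →+ Pic0 K F`
  (push-forward `φ_*`);
* `pic0Push_pic0Pull : φ_* (φ^* x) = [F' : F] • x`;
* equivariance: if semilinear automorphisms `g` of `F` and `g'` of `F'` satisfy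
  `φ (g • f) = g' • φ f`, then `φ^* (g • x) = g' • φ^* x` and `φ_* (g' • y) = g • φ_* y`.

Everything is deduced from the behaviour on principal divisors by the constancy lemma
`Hecke.eq_of_eq_on_principal`.
-/

set_option autoImplicit false
set_option linter.style.haveILetI false
set_option linter.unusedSectionVars false

noncomputable section

namespace Fermat.Agent.BR.PicFunct

open AlgebraicCurve Fermat.Agent.Red Fermat.Agent.Jac

variable {K F F' : Type*} [Field K] [Field F] [Field F'] [Algebra K F] [Algebra K F']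
variable [HasPrincipalDivisors K F] [HasPrincipalDivisors K F']
variable (φ : F →ₐ[K] F') (hφ : φ.toRingHom.IsIntegral)
variable (hFI : FundamentalIdentityAlong K φ hφ)
variable (hfin : FiniteAlong K φ) (hN : NormFormulaAlong K φ hfin)

/-! ### The maps on `Pic⁰` -/

/-- `φ^*` on divisors of degree zero. -/
def degZeroPull :
    Divisor.degZero (K := K) (F := F) →+ Divisor.degZero (K := K) (F := F') :=
  ((Divisor.pullbackAlong φ hφ).domRestrict (Divisor.degZero (K := K) (F := F))).codRestrict _
    (fun D => Divisor.pullbackAlong_mem_degZero φ hφ hFI D.2)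

@[simp]
theorem coe_degZeroPull (D : Divisor.degZero (K := K) (F := F)) :
    (degZeroPull φ hφ hFI D : Divisor K F') = Divisor.pullbackAlong φ hφ (D : Divisor K F) :=
  rfl

/-- `φ^* : Pic⁰(F) → Pic⁰(F')`. -/
def pic0Pull : Pic0 K F →+ Pic0 K F' :=
  QuotientAddGroup.map _ _ (degZeroPull φ hφ hFI) (by
    rintro ⟨D, hD0⟩ hD
    simp only [AddSubgroup.mem_addSubgroupOf] at hD ⊢
    exact Divisor.isPrincipal_pullbackAlong φ hφ hD)

theorem pic0Pull_mk (D : Divisor.degZero (K := K) (F := F)) :
    pic0Pull φ hφ hFI (Pic0.mk D) = Pic0.mk (degZeroPull φ hφ hFI D) :=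
  rfl

/-- `φ_*` on divisors of degree zero. -/
def degZeroPush :
    Divisor.degZero (K := K) (F := F') →+ Divisor.degZero (K := K) (F := F) :=
  ((Divisor.pushforwardAlong φ hφ).domRestrict (Divisor.degZero (K := K) (F := F'))).codRestrict _
    (fun D => Divisor.pushforwardAlong_mem_degZero φ hφ D.2)

@[simp]
theorem coe_degZeroPush (D : Divisor.degZero (K := K) (F := F')) :
    (degZeroPush φ hφ D : Divisor K F) = Divisor.pushforwardAlong φ hφ (D : Divisor K F') :=
  rfl

/-- `φ_* : Pic⁰(F') → Pic⁰(F)`. -/
def pic0Push : Pic0 K F' →+ Pic0 K F :=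
  QuotientAddGroup.map _ _ (degZeroPush φ hφ) (by
    rintro ⟨D, hD0⟩ hD
    simp only [AddSubgroup.mem_addSubgroupOf] at hD ⊢
    exact Divisor.isPrincipal_pushforwardAlong φ hφ hfin hN hD)

theorem pic0Push_mk (D : Divisor.degZero (K := K) (F := F')) :
    pic0Push φ hφ hfin hN (Pic0.mk D) = Pic0.mk (degZeroPush φ hφ D) :=
  rfl

/-! ### `φ_* φ^* = [F' : F]` -/

include hfin in
theorem normAlong_apply (f : F) : normAlong φ (φ f) = f ^ finrankAlong K φ := by
  letI := algebraAlong φ
  haveI : Module.Finite F F' := hfin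
  show Algebra.norm F (algebraMap F F' f) = f ^ Module.finrank F F'
  exact Algebra.norm_algebraMap f

include hFI hfin hN in
/-- `φ_* φ^* D = [F' : F] D` for `D` of degree zero. -/
theorem pushforwardAlong_pullbackAlong (hF : RiemannPkg K F) (D : Divisor K F)
    (hD : Divisor.degree D = 0) :
    Divisor.pushforwardAlong φ hφ (Divisor.pullbackAlong φ hφ D) = finrankAlong K φ • D := by
  have h := Fermat.Agent.Hecke.eq_of_eq_on_principal hF hF.deg_one
    ((Divisor.pushforwardAlong φ hφ).comp (Divisor.pullbackAlong φ hφ))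
    (finrankAlong K φ • AddMonoidHom.id (Divisor K F))
    (fun D hD => pushforwardAlong_nonneg φ hφ (pullbackAlong_nonneg φ hφ hD))
    (fun D hD => by
      rw [AddMonoidHom.smul_apply, AddMonoidHom.id_apply]
      exact nsmul_nonneg hD _)
    (finrankAlong K φ : ℤ)
    (fun D => by
      rw [AddMonoidHom.comp_apply, Divisor.degree_pushforwardAlong,
        Divisor.degree_pullbackAlong φ hφ hFI])
    (fun D => by
      rw [AddMonoidHom.smul_apply, AddMonoidHom.id_apply, map_nsmul, nsmul_eq_mul])
    (fun f hf => by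
      rw [AddMonoidHom.comp_apply, AddMonoidHom.smul_apply, AddMonoidHom.id_apply,
        pullbackAlong_divOf, pushforwardAlong_divOf φ hφ hfin hN ((map_ne_zero φ).mpr hf),
        normAlong_apply φ hfin, divOf_pow])
    D hD
  rw [AddMonoidHom.comp_apply, AddMonoidHom.smul_apply, AddMonoidHom.id_apply] at h
  exact h

include hFI hfin hN in
/-- **`φ_* φ^* = [F' : F]` on `Pic⁰`.** -/
theorem pic0Push_pic0Pull (hF : RiemannPkg K F) (x : Pic0 K F) :
    pic0Push φ hφ hfin hN (pic0Pull φ hφ hFI x) = finrankAlong K φ • x := by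
  obtain ⟨D, rfl⟩ := Pic0.mk_surjective x
  rw [pic0Pull_mk, pic0Push_mk]
  have h : degZeroPush φ hφ (degZeroPull φ hφ hFI D) = finrankAlong K φ • D := by
    apply Subtype.ext
    rw [coe_degZeroPush, coe_degZeroPull,
      pushforwardAlong_pullbackAlong φ hφ hFI hfin hN hF _ (Divisor.mem_degZero.mp D.2)]
    rfl
  rw [h]
  rfl

/-! ### Equivariance -/

variable (g : SemilinearAut K F) (g' : SemilinearAut K F')
  (hg : ∀ f : F, φ (g • f) = g' • φ f)

include hg in
/-- Norms along `φ` commute with compatible semilinear automorphisms. -/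
theorem normAlong_smul (z : F') : normAlong φ (g' • z) = g • normAlong φ z := by
  letI := algebraAlong φ
  have he : RingHom.comp (algebraMap F F')
        ((SemilinearAut.toRingAut g : F ≃+* F) : F →+* F) =
      RingHom.comp ((SemilinearAut.toRingAut g' : F' ≃+* F') : F' →+* F')
        (algebraMap F F') := RingHom.ext fun y => hg y
  have h := Algebra.norm_eq_of_equiv_equiv (SemilinearAut.toRingAut g)
    (SemilinearAut.toRingAut g') he z
  show Algebra.norm F (SemilinearAut.toRingAut g' z) =
    SemilinearAut.toRingAut g (Algebra.norm F z)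
  rw [h, RingEquiv.apply_symm_apply]

theorem smul_ne_zero' {f : F} (hf : f ≠ 0) : g • f ≠ 0 := by
  rw [SemilinearAut.smul_def]
  exact (map_ne_zero_iff _ (SemilinearAut.toRingAut g).injective).mpr hf

include hFI hg in
/-- `φ^* (g • D) = g' • φ^* D` for `D` of degree zero. -/
theorem pullbackAlong_smul (hF : RiemannPkg K F) (hF' : RiemannPkg K F') (D : Divisor K F)
    (hD : Divisor.degree D = 0) :
    Divisor.pullbackAlong φ hφ (g • D) = g' • Divisor.pullbackAlong φ hφ D := by
  have h := Fermat.Agent.Hecke.eq_of_eq_on_principal hF hF'.deg_one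
    ((Divisor.pullbackAlong φ hφ).comp (DistribSMul.toAddMonoidHom (Divisor K F) g))
    ((DistribSMul.toAddMonoidHom (Divisor K F') g').comp (Divisor.pullbackAlong φ hφ))
    (fun D hD => pullbackAlong_nonneg φ hφ (semilinearAut_smul_nonneg g hD))
    (fun D hD => semilinearAut_smul_nonneg g' (pullbackAlong_nonneg φ hφ hD))
    (finrankAlong K φ : ℤ)
    (fun D => by
      rw [AddMonoidHom.comp_apply, Divisor.degree_pullbackAlong φ hφ hFI]
      show _ * Divisor.degree (g • D) = _
      rw [SemilinearAut.degree_smul])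
    (fun D => by
      rw [AddMonoidHom.comp_apply]
      show Divisor.degree (g' • Divisor.pullbackAlong φ hφ D) = _
      rw [SemilinearAut.degree_smul, Divisor.degree_pullbackAlong φ hφ hFI])
    (fun f hf => by
      rw [AddMonoidHom.comp_apply, AddMonoidHom.comp_apply]
      show Divisor.pullbackAlong φ hφ (g • divOf K f) = g' • Divisor.pullbackAlong φ hφ (divOf K f)
      rw [semilinearAut_smul_divOf, pullbackAlong_divOf, pullbackAlong_divOf,
        semilinearAut_smul_divOf, hg])
    D hD
  exact h

include hfin hN hg in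
/-- `φ_* (g' • D) = g • φ_* D` for `D` of degree zero. -/
theorem pushforwardAlong_smul (hF : RiemannPkg K F) (hF' : RiemannPkg K F') (D : Divisor K F')
    (hD : Divisor.degree D = 0) :
    Divisor.pushforwardAlong φ hφ (g' • D) = g • Divisor.pushforwardAlong φ hφ D := by
  have h := Fermat.Agent.Hecke.eq_of_eq_on_principal hF' hF.deg_one
    ((Divisor.pushforwardAlong φ hφ).comp (DistribSMul.toAddMonoidHom (Divisor K F') g'))
    ((DistribSMul.toAddMonoidHom (Divisor K F) g).comp (Divisor.pushforwardAlong φ hφ))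
    (fun D hD => pushforwardAlong_nonneg φ hφ (semilinearAut_smul_nonneg g' hD))
    (fun D hD => semilinearAut_smul_nonneg g (pushforwardAlong_nonneg φ hφ hD))
    (1 : ℤ)
    (fun D => by
      rw [AddMonoidHom.comp_apply, Divisor.degree_pushforwardAlong, one_mul]
      show Divisor.degree (g' • D) = _
      rw [SemilinearAut.degree_smul])
    (fun D => by
      rw [AddMonoidHom.comp_apply, one_mul]
      show Divisor.degree (g • Divisor.pushforwardAlong φ hφ D) = _
      rw [SemilinearAut.degree_smul, Divisor.degree_pushforwardAlong])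
    (fun z hz => by
      rw [AddMonoidHom.comp_apply, AddMonoidHom.comp_apply]
      show Divisor.pushforwardAlong φ hφ (g' • divOf K z) =
        g • Divisor.pushforwardAlong φ hφ (divOf K z)
      rw [semilinearAut_smul_divOf, pushforwardAlong_divOf φ hφ hfin hN (smul_ne_zero' g' hz),
        pushforwardAlong_divOf φ hφ hfin hN hz, semilinearAut_smul_divOf,
        normAlong_smul φ g g' hg])
    D hD
  exact h

include hg in
/-- **`φ^*` is equivariant.** -/
theorem pic0Pull_smul (hF : RiemannPkg K F) (hF' : RiemannPkg K F') (x : Pic0 K F) :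
    pic0Pull φ hφ hFI (g • x) = g' • pic0Pull φ hφ hFI x := by
  obtain ⟨D, rfl⟩ := Pic0.mk_surjective x
  rw [SemilinearAut.pic0_smul_mk, pic0Pull_mk, pic0Pull_mk, SemilinearAut.pic0_smul_mk]
  refine congrArg Pic0.mk (Subtype.ext ?_)
  rw [coe_degZeroPull, SemilinearAut.coe_degZeroSMulHom, SemilinearAut.coe_degZeroSMulHom,
    coe_degZeroPull]
  exact pullbackAlong_smul φ hφ hFI g g' hg hF hF' _ (Divisor.mem_degZero.mp D.2)

include hg in
/-- **`φ_*` is equivariant.** -/
theorem pic0Push_smul (hF : RiemannPkg K F) (hF' : RiemannPkg K F') (y : Pic0 K F') :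
    pic0Push φ hφ hfin hN (g' • y) = g • pic0Push φ hφ hfin hN y := by
  obtain ⟨D, rfl⟩ := Pic0.mk_surjective y
  rw [SemilinearAut.pic0_smul_mk, pic0Push_mk, pic0Push_mk, SemilinearAut.pic0_smul_mk]
  refine congrArg Pic0.mk (Subtype.ext ?_)
  rw [coe_degZeroPush, SemilinearAut.coe_degZeroSMulHom, SemilinearAut.coe_degZeroSMulHom,
    coe_degZeroPush]
  exact pushforwardAlong_smul φ hφ hfin hN g g' hg hF hF' _ (Divisor.mem_degZero.mp D.2)

end Fermat.Agent.BR.PicFunct

end
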