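import Fermat.Agent.S13.InertiaConj
import Fermat.Agent.BR.CentreRed
import Fermat.Agent.Good.RamDescentCount

/-!
# Program B, node B7.3b (PLACE-LIFT): existence of places centred at a point of a model

The dictionary "horizontal primes of the local ring `O` of an integral model `↔` places of the
function field over `ℚ̄` centred at that point" needs, in the direction "prime `→` place", that
a place found by Chevalley's theorem can be moved by the Galois group of the coefficient field
`E` of the model into the tube of the point.  This is the conjugacy of the valuation rings of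
`Ω = ℚ̄` over a given valuation ring of `E`.

* `exists_smul_eq_of_comap_eq` (PL1): two valuation subrings of `Ω` with the same restriction to
  an intermediate field `E` are conjugate under `Gal(Ω/E)`;
* `exists_algEquiv_forall_mem` (PL2): a local subring `D` of `Ω` dominating `A ∩ E` is mapped
  into `A`, locally, by some element of `Gal(Ω/E)`;
* `exists_smul_centredAt` (PL3): the place form: `R` a local subring of a function field
  `F / Ω`, fixed pointwise by the semilinear action of `Gal(Ω/E)`, dominating `A ∩ E`; every place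
  `P₀` of degree one regular on `R` has a Galois conjugate centred at `R` (with respect to `A`),
  and the kernel of the evaluation on `R` does not change;
* `exists_place_of_prime` (PL4): Chevalley for a prime `p` of a subring `R` of a function field
  (constants integral over `R`): a place `P₀` regular on `R` with `𝔪_{P₀} ∩ R = p`;
* `exists_centredAt_of_prime` (PL5) = (PL4) + (PL3): **every nonzero prime `p` of the local ring
  `R` of a point of the model is the kernel of the evaluation at a place centred at that point**.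
-/

set_option autoImplicit false
set_option linter.style.haveILetI false

open IsLocalRing AlgebraicCurve

open scoped Pointwise

namespace Fermat.Agent.BR.PlaceLift

open Fermat.Agent.S13 Fermat.Agent.S14 Fermat.Agent.S54.FrobExists
open Fermat.Agent.Red Fermat.Agent.BR.AnnulusRed Fermat.Agent.BR.Centre

universe u

section Conj

variable {Ω : Type u} [Field Ω] [CharZero Ω] [Algebra ℚ Ω] [IsGalois ℚ Ω]

variable (E : Type*) [Field E] [Algebra ℚ E] [Algebra E Ω] [IsScalarTower ℚ E Ω]

/-- **(PL1) Conjugacy over an intermediate field.** Two valuation subrings of `Ω` with the same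
restriction to `E` are conjugate under `Gal(Ω/E)`. -/
theorem exists_smul_eq_of_comap_eq (A A' : ValuationSubring Ω)
    (h : A.comap (algebraMap E Ω) = A'.comap (algebraMap E Ω)) :
    ∃ g : Ω ≃ₐ[E] Ω, g • A = A' := by
  haveI : IsGalois E Ω := IsGalois.tower_top_of_isGalois ℚ E Ω
  letI : TopologicalSpace (integralClosure ℤ Ω) := ⊥
  haveI : DiscreteTopology (integralClosure ℤ Ω) := ⟨rfl⟩
  haveI : ContinuousSMul (Ω ≃ₐ[E] Ω) (integralClosure ℤ Ω) := continuousSMul_integralClosure E
  haveI : Algebra.IsInvariant (FixedPoints.subalgebra ℤ (integralClosure ℤ Ω) (Ω ≃ₐ[E] Ω))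
      (integralClosure ℤ Ω) (Ω ≃ₐ[E] Ω) := ⟨fun b hb => ⟨⟨b, hb⟩, rfl⟩⟩
  have hunder : (centerIdeal A').under
        (FixedPoints.subalgebra ℤ (integralClosure ℤ Ω) (Ω ≃ₐ[E] Ω))
      = (centerIdeal A).under
        (FixedPoints.subalgebra ℤ (integralClosure ℤ Ω) (Ω ≃ₐ[E] Ω)) := by
    ext a
    rw [Ideal.under_def, Ideal.mem_comap, Ideal.mem_comap, mem_centerIdeal_iff,
      mem_centerIdeal_iff]
    obtain ⟨e, he⟩ : ∃ e : E, algebraMap E Ω e = ((a : integralClosure ℤ Ω) : Ω) := by
      apply mem_of_forall_smul_eq E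
      intro g
      have := congrArg (fun z : integralClosure ℤ Ω => (z : Ω)) (a.2 g)
      simpa using this
    show A'.valuation ((a : integralClosure ℤ Ω) : Ω) < 1 ↔
      A.valuation ((a : integralClosure ℤ Ω) : Ω) < 1
    rw [← he, ← valuation_comap_lt_one_iff, ← valuation_comap_lt_one_iff, h]
  obtain ⟨g, hg⟩ := Algebra.IsInvariant.exists_smul_of_under_eq_of_profinite
    (A := FixedPoints.subalgebra ℤ (integralClosure ℤ Ω) (Ω ≃ₐ[E] Ω)) (G := Ω ≃ₐ[E] Ω)
    (centerIdeal A') (centerIdeal A) hunder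
  refine ⟨g⁻¹, ?_⟩
  apply valuationSubring_eq_of_centerIdeal_eq isAlgebraic_int
  rw [centerIdeal_smul, hg, inv_smul_smul]

/-- The image of a non-unit of a local ring under a surjective ring homomorphism onto a nontrivial
ring is a non-unit. -/
theorem not_isUnit_map_of_surjective {R S : Type*} [CommRing R] [IsLocalRing R] [CommRing S]
    [Nontrivial S] (f : R →+* S) (hf : Function.Surjective f) {x : R} (hx : ¬ IsUnit x) :
    ¬ IsUnit (f x) := by
  intro hu
  obtain ⟨d, hd⟩ := hu.exists_right_inv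
  obtain ⟨s, rfl⟩ := hf d
  have hker : x * s - 1 ∈ RingHom.ker f := by
    rw [RingHom.mem_ker, map_sub, map_mul, hd, map_one, sub_self]
  have hne : RingHom.ker f ≠ ⊤ := RingHom.ker_ne_top f
  have h1 : x * s - 1 ∈ maximalIdeal R := le_maximalIdeal hne hker
  have h2 : x * s ∈ maximalIdeal R :=
    Ideal.mul_mem_right s _ ((mem_maximalIdeal x).mpr hx)
  have h3 : (1 : R) ∈ maximalIdeal R := by
    have := Ideal.sub_mem _ h2 h1
    rwa [sub_sub_cancel] at this
  exact (mem_maximalIdeal (1 : R)).mp h3 isUnit_one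

/-- **(PL2)** A local subring `D` of `Ω` which dominates `A ∩ E` is mapped into `A` by an element
of `Gal(Ω/E)`, the non-units of `D` going to non-units of `A`. -/
theorem exists_algEquiv_forall_mem (A : ValuationSubring Ω) (D : Subring Ω) [IsLocalRing D]
    (hE : ∀ e : E, algebraMap E Ω e ∈ A → algebraMap E Ω e ∈ D)
    (hEloc : ∀ (e : E) (he : algebraMap E Ω e ∈ A), A.valuation (algebraMap E Ω e) < 1 →
      ¬ IsUnit (⟨algebraMap E Ω e, hE e he⟩ : D)) :
    ∃ g : Ω ≃ₐ[E] Ω, ∀ x : D, g (x : Ω) ∈ A ∧ (¬ IsUnit x → A.valuation (g (x : Ω)) < 1) := by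
  have hI : maximalIdeal D ≠ ⊤ := Ideal.IsPrime.ne_top'
  obtain ⟨V, hDV, hIV⟩ := Ideal.image_subset_nonunits_valuationSubring (maximalIdeal D) hI
  have hcomap : V.comap (algebraMap E Ω) = A.comap (algebraMap E Ω) := by
    ext e
    rw [ValuationSubring.mem_comap, ValuationSubring.mem_comap]
    constructor
    · intro heV
      by_contra heA
      have he0 : algebraMap E Ω e ≠ 0 := fun h0 => heA (h0 ▸ A.zero_mem)
      have hinvA : (algebraMap E Ω e)⁻¹ ∈ A := (A.mem_or_inv_mem _).resolve_left heA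
      have hinv : algebraMap E Ω e⁻¹ ∈ A := by rwa [map_inv₀]
      have hlt : A.valuation (algebraMap E Ω e⁻¹) < 1 := by
        rw [map_inv₀, map_inv₀]
        have h1 : 1 < A.valuation (algebraMap E Ω e) := by
          rw [← not_le, A.valuation_le_one_iff]
          exact heA
        exact inv_lt_one_of_one_lt₀ h1
      have hnu := hEloc e⁻¹ hinv hlt
      have hmem : (⟨algebraMap E Ω e⁻¹, hE e⁻¹ hinv⟩ : D) ∈ maximalIdeal D :=
        (mem_maximalIdeal _).mpr hnu
      have hVnu : algebraMap E Ω e⁻¹ ∈ V.nonunits := hIV ⟨_, hmem, rfl⟩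
      rw [ValuationSubring.mem_nonunits_iff, map_inv₀, map_inv₀] at hVnu
      have h2 : V.valuation (algebraMap E Ω e) ≤ 1 := (V.valuation_le_one_iff _).mpr heV
      have h3 : V.valuation (algebraMap E Ω e) ≠ 0 := (Valuation.ne_zero_iff _).mpr he0
      have h4 : 1 ≤ (V.valuation (algebraMap E Ω e))⁻¹ := (one_le_inv₀ (zero_lt_iff.mpr h3)).mpr h2
      exact absurd hVnu (not_lt.mpr h4)
    · intro heA
      exact hDV (hE e heA)
  obtain ⟨g, hg⟩ := exists_smul_eq_of_comap_eq E V A hcomap
  refine ⟨g, fun x => ⟨?_, fun hx => ?_⟩⟩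
  · rw [← hg, ValuationSubring.mem_pointwise_smul_iff_inv_smul_mem]
    show g⁻¹ (g (x : Ω)) ∈ V
    have : g⁻¹ (g (x : Ω)) = (x : Ω) := by
      show g.symm (g (x : Ω)) = x
      exact g.symm_apply_apply _
    rw [this]
    exact hDV x.2
  · rw [← hg, valuation_smul_lt_one_iff]
    have : g⁻¹ (g (x : Ω)) = (x : Ω) := by
      show g.symm (g (x : Ω)) = x
      exact g.symm_apply_apply _
    rw [this, ← V.mem_nonunits_iff]
    exact hIV ⟨x, (mem_maximalIdeal _).mpr hx, rfl⟩

end Conj

section PlaceForm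

variable {Ω : Type u} [Field Ω] [CharZero Ω] [Algebra ℚ Ω] [IsGalois ℚ Ω]

variable (E : Type*) [Field E] [Algebra ℚ E] [Algebra E Ω] [IsScalarTower ℚ E Ω]

variable {F : Type*} [Field F] [Algebra Ω F]

/-- **(PL3) A Galois conjugate of a place is centred at `R`.**  `R` a local subring of `F`, fixed
pointwise by the semilinear action `act` of `Gal(Ω/E)`, containing `A ∩ E` with `𝔪_A ∩ E` going to
non-units; `P₀` a place of degree one whose valuation ring contains `R`.  Then for some
`g ∈ Gal(Ω/E)` the place `act g • P₀` is centred at `R` with respect to `A`, and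
`y(act g • P₀) = g (y(P₀))` for all `y ∈ R`. -/
theorem exists_smul_centredAt (A : ValuationSubring Ω)
    (act : (Ω ≃ₐ[E] Ω) → SemilinearAut Ω F)
    (hact : ∀ (g : Ω ≃ₐ[E] Ω) (c : Ω), SemilinearAut.baseAut (act g) c = g c)
    (R : Subring F) [IsLocalRing R]
    (hfix : ∀ (g : Ω ≃ₐ[E] Ω), ∀ y ∈ R, act g • y = y)
    (hE : ∀ e : E, algebraMap E Ω e ∈ A → algebraMap Ω F (algebraMap E Ω e) ∈ R)
    (hEloc : ∀ (e : E) (he : algebraMap E Ω e ∈ A), A.valuation (algebraMap E Ω e) < 1 →
      ¬ IsUnit (⟨algebraMap Ω F (algebraMap E Ω e), hE e he⟩ : R))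
    (P₀ : Place Ω F) (hdeg : P₀.deg = 1) (hP₀ : ∀ y ∈ R, y ∈ P₀.toValuationSubring) :
    ∃ g : Ω ≃ₐ[E] Ω, CentredAt A R (act g • P₀) ∧
      ∀ y ∈ R, IsValueAt (act g • P₀) y (g (evalAt P₀ y)) := by
  -- the evaluation homomorphism `R → Ω` at `P₀`
  let ι : R →+* P₀.toValuationSubring :=
    { toFun := fun y => ⟨y, hP₀ y y.2⟩
      map_one' := rfl
      map_mul' := fun _ _ => rfl
      map_zero' := rfl
      map_add' := fun _ _ => rfl }
  let φ : R →+* Ω := (evalHom P₀ hdeg).comp ι
  have hφ : ∀ y : R, φ y = evalAt P₀ (y : F) := fun y => evalHom_apply P₀ hdeg (ι y)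
  let D : Subring Ω := φ.range
  let ψ : R →+* D := φ.rangeRestrict
  have hψ : Function.Surjective ψ := φ.rangeRestrict_surjective
  haveI : IsLocalRing D := IsLocalRing.of_surjective' ψ hψ
  have hED : ∀ e : E, algebraMap E Ω e ∈ A → algebraMap E Ω e ∈ D := by
    intro e he
    refine ⟨⟨_, hE e he⟩, ?_⟩
    rw [hφ]
    exact evalAt_algebraMap P₀ _
  have hEDloc : ∀ (e : E) (he : algebraMap E Ω e ∈ A), A.valuation (algebraMap E Ω e) < 1 →
      ¬ IsUnit (⟨algebraMap E Ω e, hED e he⟩ : D) := by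
    intro e he hlt
    have h1 := not_isUnit_map_of_surjective ψ hψ (hEloc e he hlt)
    have h2 : ψ ⟨algebraMap Ω F (algebraMap E Ω e), hE e he⟩ = ⟨algebraMap E Ω e, hED e he⟩ := by
      apply Subtype.ext
      show φ _ = _
      rw [hφ]
      exact evalAt_algebraMap P₀ _
    rwa [h2] at h1
  obtain ⟨g, hg⟩ := exists_algEquiv_forall_mem E A D hED hEDloc
  have hval : ∀ y ∈ R, IsValueAt (act g • P₀) y (g (evalAt P₀ y)) := by
    intro y hy
    have h1 : IsValueAt P₀ y (evalAt P₀ y) := isValueAt_evalAt P₀ hdeg (hP₀ y hy)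
    have h2 := isValueAt_smul_of_fixed (act g) (hfix g y hy) h1
    rwa [hact] at h2
  have hint : IntegralAt A R (act g • P₀) := by
    intro y hy
    refine ⟨g (evalAt P₀ y), ?_, hval y hy⟩
    have := (hg (ψ ⟨y, hy⟩)).1
    have e1 : ((ψ ⟨y, hy⟩ : D) : Ω) = evalAt P₀ y := hφ ⟨y, hy⟩
    rwa [e1] at this
  refine ⟨g, ⟨hint, fun y hy => ?_⟩, hval⟩
  rw [mem_centre_iff, evalAt_eq_of_isValueAt (hval y y.2)]
  have h1 := not_isUnit_map_of_surjective ψ hψ hy
  have h2 := (hg (ψ y)).2 h1
  have e1 : ((ψ y : D) : Ω) = evalAt P₀ (y : F) := hφ y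
  rwa [e1] at h2

omit [CharZero Ω] [Algebra ℚ Ω] [IsGalois ℚ Ω] in
/-- **(PL4) Chevalley for a prime of a subring of a function field.**  If the constants are
integral over `R` and the valuation subrings of `F` over the constants are discrete, every nonzero
prime `p` of `R` is the centre on `R` of a place regular on `R`. -/
theorem exists_place_of_prime (R : Subring F) (p : Ideal R) [p.IsPrime] (hp : p ≠ ⊥)
    (hconst : ∀ c : Ω, IsIntegral R (algebraMap Ω F c))
    (hplace : ∀ V : ValuationSubring F, (∀ a : Ω, algebraMap Ω F a ∈ V) → V ≠ ⊤ →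
      IsPrincipalIdealRing V) :
    ∃ P₀ : Place Ω F, (∀ y ∈ R, y ∈ P₀.toValuationSubring) ∧
      ∀ y : R, (y : F) ∈ P₀.toValuationSubring.nonunits ↔ y ∈ p := by
  obtain ⟨V, hV⟩ := (LocalSubring.ofPrime R p).exists_le_valuationSubring
  obtain ⟨hle, hloc⟩ := hV
  have hRV : ∀ y ∈ R, y ∈ V := fun y hy => hle (LocalSubring.le_ofPrime R p hy)
  -- the centre of `V` on `R` is `p`
  have hcentre : ∀ y : R, (y : F) ∈ V.nonunits ↔ y ∈ p := by
    intro y
    have h1 : (y : F) ∈ V.nonunits ↔
        ¬ IsUnit (⟨(y : F), hRV y y.2⟩ : V) := by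
      rw [ValuationSubring.mem_nonunits_iff_exists_mem_maximalIdeal]
      constructor
      · rintro ⟨_, hm⟩
        exact (mem_maximalIdeal _).mp hm
      · intro hu
        exact ⟨hRV y y.2, (mem_maximalIdeal _).mpr hu⟩
    rw [h1]
    have h2 : IsUnit (⟨(y : F), hRV y y.2⟩ : V) ↔
        IsUnit (algebraMap R (LocalSubring.ofPrime R p).toSubring y) := by
      constructor
      · intro hu
        exact hloc.map_nonunit (⟨(y : F), LocalSubring.le_ofPrime R p y.2⟩ :
          (LocalSubring.ofPrime R p).toSubring) hu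
      · intro hu
        exact hu.map (Subring.inclusion hle)
    rw [h2, IsLocalization.AtPrime.isUnit_to_map_iff (LocalSubring.ofPrime R p).toSubring p y]
    exact not_not
  have hK : ∀ a : Ω, algebraMap Ω F a ∈ V := fun a =>
    Fermat.Agent.Good.RamDesc.mem_valuationSubring_of_isIntegral (B0 := R) V
      (fun b => hRV b b.2) (hconst a)
  have hVtop : V ≠ ⊤ := by
    rintro rfl
    obtain ⟨y, hy, hy0⟩ := Submodule.exists_mem_ne_zero_of_ne_bot hp
    have h1 := (hcentre y).mpr hy
    rw [ValuationSubring.mem_nonunits_iff_or] at h1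
    rcases h1 with h1 | h1
    · exact hy0 (Subtype.ext h1)
    · exact h1 (ValuationSubring.mem_top _)
  exact ⟨⟨V, hK, hVtop, hplace V hK hVtop⟩, hRV, hcentre⟩

omit [CharZero Ω] [Algebra ℚ Ω] [IsGalois ℚ Ω] in
/-- For a function regular at a place `P` of degree one: it is a non-unit at `P` iff its value
is `0`. -/
theorem mem_nonunits_iff_evalAt_eq_zero (P : Place Ω F) (hdeg : P.deg = 1) {y : F}
    (hy : y ∈ P.toValuationSubring) :
    y ∈ P.toValuationSubring.nonunits ↔ evalAt P y = 0 := by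
  have hval := isValueAt_evalAt P hdeg hy
  have h1 : y ∈ P.toValuationSubring.nonunits ↔ P.adicValuation y < 1 := by
    rw [ValuationSubring.mem_nonunits_iff_exists_mem_maximalIdeal]
    have hle := P.adicValuation_le_one_of_mem hy
    constructor
    · rintro ⟨_, hm⟩
      refine lt_of_le_of_ne hle fun heq => ?_
      exact (mem_maximalIdeal _).mp hm ((P.adicValuation_coe_eq_one_iff ⟨y, hy⟩).mp heq)
    · intro hlt
      refine ⟨hy, (mem_maximalIdeal _).mpr fun hu => ?_⟩
      exact absurd ((P.adicValuation_coe_eq_one_iff ⟨y, hy⟩).mpr hu) (ne_of_lt hlt)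
  rw [h1, ← isValueAt_zero_iff]
  constructor
  · intro h0
    exact evalAt_eq_of_isValueAt h0
  · intro h0
    rwa [h0] at hval

/-- **(PL5) = (PL4) + (PL3): places centred at a point over a given prime.**  `R ⊆ F` the local
ring of a point of a model over `A ∩ E`, fixed by the Galois action; `p` a nonzero prime of `R`.
Then some place `P`, centred at `R` with respect to `A`, has `𝔪_P ∩ R = p`
(equivalently `p = ker (y ↦ y(P))`). -/
theorem exists_centredAt_of_prime (A : ValuationSubring Ω)
    (act : (Ω ≃ₐ[E] Ω) → SemilinearAut Ω F)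
    (hact : ∀ (g : Ω ≃ₐ[E] Ω) (c : Ω), SemilinearAut.baseAut (act g) c = g c)
    (R : Subring F) [IsLocalRing R]
    (hfix : ∀ (g : Ω ≃ₐ[E] Ω), ∀ y ∈ R, act g • y = y)
    (hE : ∀ e : E, algebraMap E Ω e ∈ A → algebraMap Ω F (algebraMap E Ω e) ∈ R)
    (hEloc : ∀ (e : E) (he : algebraMap E Ω e ∈ A), A.valuation (algebraMap E Ω e) < 1 →
      ¬ IsUnit (⟨algebraMap Ω F (algebraMap E Ω e), hE e he⟩ : R))
    (hconst : ∀ c : Ω, IsIntegral R (algebraMap Ω F c))
    (hplace : ∀ V : ValuationSubring F, (∀ a : Ω, algebraMap Ω F a ∈ V) → V ≠ ⊤ →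
      IsPrincipalIdealRing V)
    (hdeg : ∀ P : Place Ω F, P.deg = 1)
    (p : Ideal R) [p.IsPrime] (hp : p ≠ ⊥) :
    ∃ P : Place Ω F, CentredAt A R P ∧
      (∀ y : R, (y : F) ∈ P.toValuationSubring.nonunits ↔ y ∈ p) ∧
      ∀ y : R, evalAt P (y : F) = 0 ↔ y ∈ p := by
  obtain ⟨P₀, hP₀, hcentre⟩ := exists_place_of_prime R p hp hconst hplace
  obtain ⟨g, hcen, hval⟩ := exists_smul_centredAt E A act hact R hfix hE hEloc P₀ (hdeg P₀) hP₀
  have hev : ∀ y : R, evalAt (act g • P₀) (y : F) = 0 ↔ y ∈ p := by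
    intro y
    rw [evalAt_eq_of_isValueAt (hval y y.2), ← hcentre y,
      mem_nonunits_iff_evalAt_eq_zero P₀ (hdeg P₀) (hP₀ y y.2)]
    constructor
    · intro h0
      have := congrArg g.symm h0
      rwa [g.symm_apply_apply, map_zero] at this
    · intro h0
      rw [h0, map_zero]
  refine ⟨act g • P₀, hcen, fun y => ?_, hev⟩
  have hy : (y : F) ∈ (act g • P₀).toValuationSubring := (hval y y.2).mem
  rw [mem_nonunits_iff_evalAt_eq_zero _ (hdeg _) hy]
  exact hev y

end PlaceForm

end Fermat.Agent.BR.PlaceLift
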