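import Fermat.Agent.BR.PlaceLift

/-!
# Program B, node B7.3b (PLACE-LIFT), corrected forms of (PL4), (PL5)

In `BR/PlaceLift.lean` the hypothesis `hconst` of `exists_place_of_prime` /
`exists_centredAt_of_prime` (all constants integral over `R`) cannot hold for the local ring
`R = O_{n,W'}` of a point of a model over `W' = A ∩ E`: the constant `1/π'` is not integral over
`R` (helper18).  What is true, and what the proof uses, is that the coefficient field `E` lies in
the localisation `R_p` at a horizontal prime `p` (`π' ∉ p`), and that `Ω` is algebraic over `E`.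

* `exists_place_of_prime'` (PL4'): hypothesis `hfrac : ∀ e : E, ∃ a s : R, s ∉ p ∧ e * s = a`;
* `exists_centredAt_of_prime'` (PL5'): the same replacement in (PL5);
* `hfrac_of_uniformizer`: `hfrac` from a uniformizer `ϖ ∈ E` with `ϖ ∈ R ∖ p` and
  `∀ e, ∃ n, ϖ ^ n * e ∈ A`.
-/

set_option autoImplicit false
set_option linter.style.haveILetI false
set_option linter.unusedSectionVars false

open IsLocalRing AlgebraicCurve

open scoped Pointwise

namespace Fermat.Agent.BR.PlaceLift

open Fermat.Agent.S13 Fermat.Agent.S14 Fermat.Agent.S54.FrobExists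
open Fermat.Agent.Red Fermat.Agent.BR.AnnulusRed Fermat.Agent.BR.Centre

universe u

section PlaceForm

variable {Ω : Type u} [Field Ω] [CharZero Ω] [Algebra ℚ Ω] [IsGalois ℚ Ω]

variable (E : Type*) [Field E] [Algebra ℚ E] [Algebra E Ω] [IsScalarTower ℚ E Ω]

variable {F : Type*} [Field F] [Algebra Ω F]

/-- **(PL4') Chevalley for a prime of a subring of a function field**, corrected form: the
coefficient field `E` lies in the localisation of `R` at `p` (fraction form `hfrac`), `Ω` is
algebraic over `E`, and the valuation subrings of `F` over the constants are discrete.  Then the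
nonzero prime `p` of `R` is the centre on `R` of a place regular on `R`. -/
theorem exists_place_of_prime' (R : Subring F) (p : Ideal R) [p.IsPrime] (hp : p ≠ ⊥)
    (hfrac : ∀ e : E, ∃ a s : R, s ∉ p ∧
      algebraMap Ω F (algebraMap E Ω e) * (s : F) = (a : F))
    (hplace : ∀ V : ValuationSubring F, (∀ a : Ω, algebraMap Ω F a ∈ V) → V ≠ ⊤ →
      IsPrincipalIdealRing V) :
    ∃ P₀ : Place Ω F, (∀ y ∈ R, y ∈ P₀.toValuationSubring) ∧
      ∀ y : R, (y : F) ∈ P₀.toValuationSubring.nonunits ↔ y ∈ p := by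
  haveI : Algebra.IsIntegral E Ω := Algebra.IsIntegral.tower_top ℚ
  obtain ⟨V, hV⟩ := (LocalSubring.ofPrime R p).exists_le_valuationSubring
  obtain ⟨hle, hloc⟩ := hV
  have hRV : ∀ y ∈ R, y ∈ V := fun y hy => hle (LocalSubring.le_ofPrime R p hy)
  -- the centre of `V` on `R` is `p`
  have hcentre : ∀ y : R, (y : F) ∈ V.nonunits ↔ y ∈ p := by
    intro y
    have h1 : (y : F) ∈ V.nonunits ↔
        ¬ IsUnit (⟨(y : F), hRV y y.2⟩ : V) := by
      rw [ValuationSubring.mem_nonunits_iff_exists_mem_maximalIdeal]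
      constructor
      · rintro ⟨_, hm⟩
        exact (mem_maximalIdeal _).mp hm
      · intro hu
        exact ⟨hRV y y.2, (mem_maximalIdeal _).mpr hu⟩
    rw [h1]
    have h2 : IsUnit (⟨(y : F), hRV y y.2⟩ : V) ↔
        IsUnit (algebraMap R (LocalSubring.ofPrime R p).toSubring y) := by
      constructor
      · intro hu
        exact hloc.map_nonunit (⟨(y : F), LocalSubring.le_ofPrime R p y.2⟩ :
          (LocalSubring.ofPrime R p).toSubring) hu
      · intro hu
        exact hu.map (Subring.inclusion hle)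
    rw [h2, IsLocalization.AtPrime.isUnit_to_map_iff (LocalSubring.ofPrime R p).toSubring p y]
    exact not_not
  -- `E ⊆ V`
  have hEV : ∀ e : E, algebraMap Ω F (algebraMap E Ω e) ∈ V := by
    intro e
    obtain ⟨a, s, hs, has⟩ := hfrac e
    have hsV : (s : F) ∈ V := hRV s s.2
    have hsnu : (s : F) ∉ V.nonunits := fun h => hs ((hcentre s).mp h)
    have hs0 : (s : F) ≠ 0 := by
      intro h0
      apply hsnu
      rw [h0, ValuationSubring.mem_nonunits_iff, map_zero]
      exact zero_lt_one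
    have hsinv : (s : F)⁻¹ ∈ V := by
      by_contra hni
      apply hsnu
      rw [ValuationSubring.mem_nonunits_iff, ← not_le, ← inv_le_one₀
        (zero_lt_iff.mpr ((Valuation.ne_zero_iff _).mpr hs0)), ← map_inv₀,
        V.valuation_le_one_iff]
      exact hni
    have : algebraMap Ω F (algebraMap E Ω e) = (a : F) * (s : F)⁻¹ := by
      rw [← has, mul_assoc, mul_inv_cancel₀ hs0, mul_one]
    rw [this]
    exact V.mul_mem _ _ (hRV a a.2) hsinv
  -- hence `Ω ⊆ V`
  have hK : ∀ a : Ω, algebraMap Ω F a ∈ V := by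
    intro c
    let φ : E →+* V := ((algebraMap Ω F).comp (algebraMap E Ω)).codRestrict V.toSubring hEV
    have hc : IsIntegral E c := Algebra.IsIntegral.isIntegral c
    have h1 : IsIntegral V ((algebraMap Ω F) c) :=
      IsIntegral.map_of_comp_eq φ (algebraMap Ω F) (by ext a; rfl) hc
    obtain ⟨y, hy⟩ := IsIntegrallyClosed.isIntegral_iff.mp h1
    rw [← hy]
    exact y.2
  have hVtop : V ≠ ⊤ := by
    rintro rfl
    obtain ⟨y, hy, hy0⟩ := Submodule.exists_mem_ne_zero_of_ne_bot hp
    have h1 := (hcentre y).mpr hy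
    rw [ValuationSubring.mem_nonunits_iff_or] at h1
    rcases h1 with h1 | h1
    · exact hy0 (Subtype.ext h1)
    · exact h1 (ValuationSubring.mem_top _)
  exact ⟨⟨V, hK, hVtop, hplace V hK hVtop⟩, hRV, hcentre⟩

/-- `hfrac` from a uniformizer: if `ϖ ∈ E` lies in `R ∖ p`, the elements of `E ∩ A` lie in `R`, and
every element of `E` becomes integral (in `A`) after multiplication by a power of `ϖ`, then `E` lies
in the localisation of `R` at `p`. -/
theorem hfrac_of_uniformizer (A : ValuationSubring Ω) (R : Subring F) (p : Ideal R)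
    (hE : ∀ e : E, algebraMap E Ω e ∈ A → algebraMap Ω F (algebraMap E Ω e) ∈ R)
    (ϖ : E) (hϖA : algebraMap E Ω ϖ ∈ A)
    (hϖp : (⟨algebraMap Ω F (algebraMap E Ω ϖ), hE ϖ hϖA⟩ : R) ∉ p) [p.IsPrime]
    (hpow : ∀ e : E, ∃ n : ℕ, algebraMap E Ω (ϖ ^ n * e) ∈ A) :
    ∀ e : E, ∃ a s : R, s ∉ p ∧ algebraMap Ω F (algebraMap E Ω e) * (s : F) = (a : F) := by
  intro e
  obtain ⟨n, hn⟩ := hpow e
  refine ⟨⟨_, hE _ hn⟩, (⟨algebraMap Ω F (algebraMap E Ω ϖ), hE ϖ hϖA⟩ : R) ^ n, ?_, ?_⟩
  · intro h
    exact hϖp (Ideal.IsPrime.mem_of_pow_mem inferInstance n h)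
  · rw [Subring.coe_pow]
    simp only [map_mul, map_pow]
    ring

/-- **(PL5') places centred at a point over a given prime**, corrected form of
`exists_centredAt_of_prime`: `R ⊆ F` the local ring of a point of a model over `A ∩ E`, fixed by
the Galois action; `p` a nonzero prime of `R` such that `E` lies in the localisation `R_p`
(`hfrac`; automatic for a horizontal prime, see `hfrac_of_uniformizer`).  Then some place `P`,
centred at `R` with respect to `A`, has `𝔪_P ∩ R = p`. -/
theorem exists_centredAt_of_prime' (A : ValuationSubring Ω)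
    (act : (Ω ≃ₐ[E] Ω) → SemilinearAut Ω F)
    (hact : ∀ (g : Ω ≃ₐ[E] Ω) (c : Ω), SemilinearAut.baseAut (act g) c = g c)
    (R : Subring F) [IsLocalRing R]
    (hfix : ∀ (g : Ω ≃ₐ[E] Ω), ∀ y ∈ R, act g • y = y)
    (hE : ∀ e : E, algebraMap E Ω e ∈ A → algebraMap Ω F (algebraMap E Ω e) ∈ R)
    (hEloc : ∀ (e : E) (he : algebraMap E Ω e ∈ A), A.valuation (algebraMap E Ω e) < 1 →
      ¬ IsUnit (⟨algebraMap Ω F (algebraMap E Ω e), hE e he⟩ : R))
    (hplace : ∀ V : ValuationSubring F, (∀ a : Ω, algebraMap Ω F a ∈ V) → V ≠ ⊤ →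
      IsPrincipalIdealRing V)
    (hdeg : ∀ P : Place Ω F, P.deg = 1)
    (p : Ideal R) [p.IsPrime] (hp : p ≠ ⊥)
    (hfrac : ∀ e : E, ∃ a s : R, s ∉ p ∧
      algebraMap Ω F (algebraMap E Ω e) * (s : F) = (a : F)) :
    ∃ P : Place Ω F, CentredAt A R P ∧
      (∀ y : R, (y : F) ∈ P.toValuationSubring.nonunits ↔ y ∈ p) ∧
      ∀ y : R, evalAt P (y : F) = 0 ↔ y ∈ p := by
  obtain ⟨P₀, hP₀, hcentre⟩ := exists_place_of_prime' E R p hp hfrac hplace
  obtain ⟨g, hcen, hval⟩ := exists_smul_centredAt E A act hact R hfix hE hEloc P₀ (hdeg P₀) hP₀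
  have hev : ∀ y : R, evalAt (act g • P₀) (y : F) = 0 ↔ y ∈ p := by
    intro y
    rw [evalAt_eq_of_isValueAt (hval y y.2), ← hcentre y,
      mem_nonunits_iff_evalAt_eq_zero P₀ (hdeg P₀) (hP₀ y y.2)]
    constructor
    · intro h0
      have := congrArg g.symm h0
      rwa [g.symm_apply_apply, map_zero] at this
    · intro h0
      rw [h0, map_zero]
  refine ⟨act g • P₀, hcen, fun y => ?_, hev⟩
  have hy : (y : F) ∈ (act g • P₀).toValuationSubring := (hval y y.2).mem
  rw [mem_nonunits_iff_evalAt_eq_zero _ (hdeg _) hy]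
  exact hev y

end PlaceForm

end Fermat.Agent.BR.PlaceLift
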