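import Mathlib
import Fermat.Agent.Red.Values

/-!
# Program B (BADRED), block B7: a place from a directed family of local data (`B7.PL`)

`F / K` a field extension.  A *`τ`-family* is a directed family of subrings `R i ⊆ F`
(the local rings `O_{n,W_i}` of the model at ONE closed point `n`, over the levels `W_i = A ∩ K_i`)
with prime ideals `𝔭 i ⊆ R i` (the centre primes of ONE point of the tube: `𝔭 i = ker (R i → A)`),
compatible (`𝔭 k ∩ R i = 𝔭 i`), such that ONE element `τ ∈ F` generates `𝔭 i (R i)_{𝔭 i}` for all `i`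
(`τ = t - c` at a smooth point, `τ = u - c` at a node): every `0 ≠ x ∈ R i` is `τ ^ n * a / b` with
`a, b ∈ R i ∖ 𝔭 i`.  If `F = ⋃ Frac (R i)` and `K ⊆ ⋃ R i` then

  `O = {a / b | a, b ∈ R i, b ∉ 𝔭 i}`

is a discrete valuation ring of `F` containing `K` with uniformizer `τ`: a `Place K F`.  This is the
(hom → place) half of the dictionary "places of the tube ↔ `A`-valued points of the local rings":
no tensor product, no linear disjointness, no completion.

Main statements: `TauFamily.place`, `le_place`, `ord_tau` (`= 1`), `ord_pos_iff`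
(`0 < ord x ↔ x ∈ 𝔭 i`), `isValueAt_iff` (`y(P) = c ↔ y - c ∈ 𝔭 i`).
-/

set_option autoImplicit false
set_option linter.style.haveILetI false
set_option linter.unusedSectionVars false

namespace Fermat.Agent.BR.PlaceOfLevels

open AlgebraicCurve Fermat.Agent.Red

variable {K F : Type*} [Field K] [Field F] [Algebra K F]

/-- A directed family of subrings of `F` with compatible primes, all generated (after
localisation) by one element `τ`. -/
structure TauFamily (K : Type*) {F : Type*} [Field K] [Field F] [Algebra K F] {ι : Type*}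
    (R : ι → Subring F) (𝔭 : ∀ i, Ideal (R i)) (τ : F) : Prop where
  nonempty : Nonempty ι
  directed : ∀ i j, ∃ k, R i ≤ R k ∧ R j ≤ R k
  prime : ∀ i, (𝔭 i).IsPrime
  compat : ∀ i k (h : R i ≤ R k) (x : R i), Subring.inclusion h x ∈ 𝔭 k ↔ x ∈ 𝔭 i
  tau_ne_zero : τ ≠ 0
  tau_mem : ∀ i, ∃ h : τ ∈ R i, (⟨τ, h⟩ : R i) ∈ 𝔭 i
  dvr : ∀ i (x : R i), x ≠ 0 → ∃ (n : ℕ) (a b : R i), a ∉ 𝔭 i ∧ b ∉ 𝔭 i ∧
    (x : F) * b = τ ^ n * a
  exhaust : ∀ y : F, ∃ i, ∃ a b : R i, b ≠ 0 ∧ y * (b : F) = a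
  const : ∀ c : K, ∃ i, algebraMap K F c ∈ R i

namespace TauFamily

variable {ι : Type*} {R : ι → Subring F} {𝔭 : ∀ i, Ideal (R i)} {τ : F}

/-- Membership in the union of the localisations. -/
def Mem (_T : TauFamily K R 𝔭 τ) (y : F) : Prop :=
  ∃ i, ∃ a b : R i, b ∉ 𝔭 i ∧ y * (b : F) = a

variable (T : TauFamily K R 𝔭 τ)

include T in
theorem ne_zero_of_not_mem {i : ι} {b : R i} (hb : b ∉ 𝔭 i) : (b : F) ≠ 0 := by
  intro h
  apply hb
  have : b = 0 := Subtype.ext h
  rw [this]
  exact (𝔭 i).zero_mem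

include T in
theorem mem_up {y : F} {i k : ι} (h : R i ≤ R k) {a b : R i} (hb : b ∉ 𝔭 i)
    (hy : y * (b : F) = a) :
    ∃ a' b' : R k, b' ∉ 𝔭 k ∧ y * (b' : F) = a' :=
  ⟨Subring.inclusion h a, Subring.inclusion h b, fun hb' => hb ((T.compat i k h b).1 hb'), hy⟩

theorem mem_add {x y : F} (hx : T.Mem x) (hy : T.Mem y) : T.Mem (x + y) := by
  obtain ⟨i, a, b, hb, hab⟩ := hx
  obtain ⟨j, c, d, hd, hcd⟩ := hy
  obtain ⟨k, hik, hjk⟩ := T.directed i j
  obtain ⟨a', b', hb', hab'⟩ := T.mem_up hik hb hab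
  obtain ⟨c', d', hd', hcd'⟩ := T.mem_up hjk hd hcd
  haveI := T.prime k
  refine ⟨k, a' * d' + c' * b', b' * d', fun h => ?_, ?_⟩
  · rcases (T.prime k).mem_or_mem h with h | h
    · exact hb' h
    · exact hd' h
  · push_cast
    rw [← hab', ← hcd']
    ring

theorem mem_mul {x y : F} (hx : T.Mem x) (hy : T.Mem y) : T.Mem (x * y) := by
  obtain ⟨i, a, b, hb, hab⟩ := hx
  obtain ⟨j, c, d, hd, hcd⟩ := hy
  obtain ⟨k, hik, hjk⟩ := T.directed i j
  obtain ⟨a', b', hb', hab'⟩ := T.mem_up hik hb hab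
  obtain ⟨c', d', hd', hcd'⟩ := T.mem_up hjk hd hcd
  refine ⟨k, a' * c', b' * d', fun h => ?_, ?_⟩
  · rcases (T.prime k).mem_or_mem h with h | h
    · exact hb' h
    · exact hd' h
  · push_cast
    rw [← hab', ← hcd']
    ring

theorem mem_of_mem {i : ι} {x : F} (hx : x ∈ R i) : T.Mem x :=
  ⟨i, ⟨x, hx⟩, 1, (Ideal.ne_top_iff_one _).1 (T.prime i).ne_top, by simp⟩

theorem mem_zero : T.Mem 0 := by
  obtain ⟨i⟩ := T.nonempty
  exact T.mem_of_mem (i := i) (R i).zero_mem

theorem mem_one : T.Mem 1 := by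
  obtain ⟨i⟩ := T.nonempty
  exact T.mem_of_mem (i := i) (R i).one_mem

theorem mem_neg {x : F} (hx : T.Mem x) : T.Mem (-x) := by
  obtain ⟨i, a, b, hb, hab⟩ := hx
  exact ⟨i, -a, b, hb, by push_cast; rw [← hab]; ring⟩

include T in
/-- Every nonzero element of `F` is `τ ^ n * a / b` or `τ ^ (-n) * a / b` with `a, b` outside the
centre prime of some level. -/
theorem exists_repr {y : F} (hy : y ≠ 0) :
    ∃ i, ∃ (n m : ℕ) (a b : R i), a ∉ 𝔭 i ∧ b ∉ 𝔭 i ∧ y * τ ^ m * (b : F) = τ ^ n * a := by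
  obtain ⟨i, a, b, hb0, hab⟩ := T.exhaust y
  have ha0 : a ≠ 0 := by
    rintro rfl
    have hbF : (b : F) ≠ 0 := fun h => hb0 (Subtype.ext h)
    have : y * (b : F) = 0 := by rw [hab]; rfl
    rcases mul_eq_zero.1 this with h | h
    · exact hy h
    · exact hbF h
  obtain ⟨n, a₁, b₁, ha₁, hb₁, h1⟩ := T.dvr i a ha0
  obtain ⟨m, a₂, b₂, ha₂, hb₂, h2⟩ := T.dvr i b hb0
  refine ⟨i, n, m, a₁ * b₂, b₁ * a₂, fun h => ?_, fun h => ?_, ?_⟩
  · rcases (T.prime i).mem_or_mem h with h | h
    · exact ha₁ h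
    · exact hb₂ h
  · rcases (T.prime i).mem_or_mem h with h | h
    · exact hb₁ h
    · exact ha₂ h
  · push_cast
    have hbF : (b : F) ≠ 0 := fun h => hb0 (Subtype.ext h)
    have hb₂F : (b₂ : F) ≠ 0 := T.ne_zero_of_not_mem hb₂
    -- y * b = a ; a * b₁ = τ^n a₁ ; b * b₂ = τ^m a₂
    have e1 : y * τ ^ m * ((b₁ : F) * a₂) * b₂ = τ ^ n * ((a₁ : F) * b₂) * b₂ := by
      calc y * τ ^ m * ((b₁ : F) * a₂) * b₂
          = y * (τ ^ m * a₂) * b₁ * b₂ := by ring
        _ = y * ((b : F) * b₂) * b₁ * b₂ := by rw [h2]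
        _ = (y * b) * b₁ * b₂ * b₂ := by ring
        _ = ((a : F) * b₁) * b₂ * b₂ := by rw [hab]
        _ = (τ ^ n * a₁) * b₂ * b₂ := by rw [h1]
        _ = τ ^ n * ((a₁ : F) * b₂) * b₂ := by ring
    exact mul_right_cancel₀ hb₂F e1

theorem mem_or_inv_mem (y : F) : T.Mem y ∨ T.Mem y⁻¹ := by
  rcases eq_or_ne y 0 with rfl | hy
  · exact Or.inl T.mem_zero
  obtain ⟨i, n, m, a, b, ha, hb, h⟩ := T.exists_repr hy
  obtain ⟨hτ, hτ𝔭⟩ := T.tau_mem i
  have hτ0 := T.tau_ne_zero
  rcases le_total m n with hmn | hnm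
  · left
    refine ⟨i, ⟨τ, hτ⟩ ^ (n - m) * a, b, hb, ?_⟩
    push_cast
    have : τ ^ n = τ ^ m * τ ^ (n - m) := by rw [← pow_add, Nat.add_sub_cancel' hmn]
    rw [this] at h
    have h' : τ ^ m * (y * (b : F)) = τ ^ m * (τ ^ (n - m) * a) := by
      rw [← mul_assoc, ← mul_assoc, mul_comm (τ ^ m) y]; exact h
    exact mul_left_cancel₀ (pow_ne_zero _ hτ0) h'
  · right
    refine ⟨i, ⟨τ, hτ⟩ ^ (m - n) * b, a, ha, ?_⟩
    push_cast
    have : τ ^ m = τ ^ n * τ ^ (m - n) := by rw [← pow_add, Nat.add_sub_cancel' hnm]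
    rw [this] at h
    have haF : (a : F) ≠ 0 := T.ne_zero_of_not_mem ha
    have h' : τ ^ n * (y * (τ ^ (m - n) * (b : F))) = τ ^ n * a := by
      rw [← h]; ring
    have h'' := mul_left_cancel₀ (pow_ne_zero _ hτ0) h'
    rw [← h'']
    field_simp

/-- The valuation ring of the point. -/
def valuationSubring : ValuationSubring F where
  carrier := {y | T.Mem y}
  mul_mem' := fun hx hy => T.mem_mul hx hy
  one_mem' := T.mem_one
  add_mem' := fun hx hy => T.mem_add hx hy
  zero_mem' := T.mem_zero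
  neg_mem' := fun hx => T.mem_neg hx
  mem_or_inv_mem' := T.mem_or_inv_mem

theorem mem_valuationSubring_iff {y : F} : y ∈ T.valuationSubring ↔ T.Mem y := Iff.rfl

theorem le_valuationSubring (i : ι) : R i ≤ T.valuationSubring.toSubring :=
  fun _ hx => T.mem_of_mem hx

theorem algebraMap_mem (c : K) : algebraMap K F c ∈ T.valuationSubring := by
  obtain ⟨i, hi⟩ := T.const c
  exact T.mem_of_mem hi

theorem tau_mem_valuationSubring : τ ∈ T.valuationSubring := by
  obtain ⟨i⟩ := T.nonempty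
  exact T.mem_of_mem (T.tau_mem i).1

/-- An element of `R i` is a unit of the valuation ring iff it is outside the centre prime. -/
theorem inv_mem_iff {i : ι} (x : R i) (hx0 : x ≠ 0) :
    (x : F)⁻¹ ∈ T.valuationSubring ↔ x ∉ 𝔭 i := by
  have hxF : (x : F) ≠ 0 := fun h => hx0 (Subtype.ext h)
  constructor
  · rintro ⟨j, a, b, hb, hab⟩ hx
    obtain ⟨k, hik, hjk⟩ := T.directed i j
    obtain ⟨a', b', hb', hab'⟩ := T.mem_up hjk hb hab
    apply hb'
    have hx' : Subring.inclusion hik x ∈ 𝔭 k := (T.compat i k hik x).2 hx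
    have : b' = a' * Subring.inclusion hik x := by
      apply Subtype.ext
      push_cast
      rw [← hab']
      show (b' : F) = (x : F)⁻¹ * b' * x
      field_simp
    rw [this]
    exact (𝔭 k).mul_mem_left _ hx'
  · intro hx
    exact ⟨i, 1, x, hx, by simp [hxF]⟩

theorem tau_inv_not_mem : τ⁻¹ ∉ T.valuationSubring := by
  obtain ⟨i⟩ := T.nonempty
  obtain ⟨hτ, hτ𝔭⟩ := T.tau_mem i
  intro h
  have h0 : (⟨τ, hτ⟩ : R i) ≠ 0 := fun h0 => T.tau_ne_zero (congrArg Subtype.val h0)
  exact (T.inv_mem_iff ⟨τ, hτ⟩ h0).1 h hτ𝔭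

theorem valuationSubring_ne_top : T.valuationSubring ≠ ⊤ := by
  intro h
  apply T.tau_inv_not_mem
  rw [h]
  exact ValuationSubring.mem_top _

/-- `τ` as an element of the valuation ring. -/
def tauElt : T.valuationSubring := ⟨τ, T.tau_mem_valuationSubring⟩

theorem tauElt_not_isUnit : ¬ IsUnit T.tauElt := by
  intro hu
  obtain ⟨b, hb⟩ := hu.exists_right_inv
  apply T.tau_inv_not_mem
  have hb' : τ * (b : F) = 1 := congrArg Subtype.val hb
  have : τ⁻¹ = (b : F) := by
    rw [eq_comm, ← mul_right_inj' T.tau_ne_zero, hb', mul_inv_cancel₀ T.tau_ne_zero]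
  rw [this]
  exact b.2

/-- Every nonzero element of the valuation ring is associated to a power of `τ`. -/
theorem associated_pow (x : T.valuationSubring) (hx : x ≠ 0) :
    ∃ n : ℕ, Associated (T.tauElt ^ n) x := by
  have hxF : (x : F) ≠ 0 := fun h => hx (Subtype.ext h)
  obtain ⟨i, n, m, a, b, ha, hb, h⟩ := T.exists_repr hxF
  have haF : (a : F) ≠ 0 := T.ne_zero_of_not_mem ha
  have hbF : (b : F) ≠ 0 := T.ne_zero_of_not_mem hb
  have ha0 : a ≠ 0 := fun h0 => haF (by rw [h0]; rfl)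
  have hb0 : b ≠ 0 := fun h0 => hbF (by rw [h0]; rfl)
  have hτ0 := T.tau_ne_zero
  -- the unit `a / b`
  have hamem : (a : F) ∈ T.valuationSubring := T.mem_of_mem a.2
  have hbmem : (b : F) ∈ T.valuationSubring := T.mem_of_mem b.2
  have hainv : (a : F)⁻¹ ∈ T.valuationSubring := (T.inv_mem_iff a ha0).2 ha
  have hbinv : (b : F)⁻¹ ∈ T.valuationSubring := (T.inv_mem_iff b hb0).2 hb
  let ε : T.valuationSubringˣ :=
    ⟨⟨(a : F) * (b : F)⁻¹, T.valuationSubring.mul_mem _ _ hamem hbinv⟩,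
      ⟨(b : F) * (a : F)⁻¹, T.valuationSubring.mul_mem _ _ hbmem hainv⟩,
      by apply Subtype.ext; show (a : F) * (b : F)⁻¹ * ((b : F) * (a : F)⁻¹) = 1; field_simp,
      by apply Subtype.ext; show (b : F) * (a : F)⁻¹ * ((a : F) * (b : F)⁻¹) = 1; field_simp⟩
  -- `m ≤ n` since `x` is integral
  have hmn : m ≤ n := by
    by_contra hlt
    rw [not_le] at hlt
    -- then `τ⁻¹ = x * τ^(m-n-1) * b / a` would be integral
    apply T.tau_inv_not_mem
    have e : τ⁻¹ = (x : F) * τ ^ (m - n - 1) * ((b : F) * (a : F)⁻¹) := by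
      have hm : m = n + (m - n - 1) + 1 := by omega
      have h' : (x : F) * (τ ^ n * τ ^ (m - n - 1) * τ) * (b : F) = τ ^ n * a := by
        rw [← pow_add, ← pow_succ, ← hm]; exact h
      have h'' : τ ^ n * ((x : F) * τ ^ (m - n - 1) * τ * (b : F)) = τ ^ n * a := by
        rw [← h']; ring
      have h3 := mul_left_cancel₀ (pow_ne_zero _ hτ0) h''
      field_simp
      rw [← h3]
      ring
    rw [e]
    refine T.valuationSubring.mul_mem _ _ (T.valuationSubring.mul_mem _ _ x.2 ?_)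
      (T.valuationSubring.mul_mem _ _ hbmem hainv)
    exact pow_mem T.tau_mem_valuationSubring _
  refine ⟨n - m, ε, ?_⟩
  apply Subtype.ext
  show τ ^ (n - m) * ((a : F) * (b : F)⁻¹) = (x : F)
  have hn : τ ^ n = τ ^ m * τ ^ (n - m) := by rw [← pow_add, Nat.add_sub_cancel' hmn]
  rw [hn] at h
  have h' : τ ^ m * ((x : F) * (b : F)) = τ ^ m * (τ ^ (n - m) * a) := by
    rw [← mul_assoc, ← mul_assoc, mul_comm (τ ^ m) (x : F)]; exact h
  have h3 := mul_left_cancel₀ (pow_ne_zero _ hτ0) h'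
  field_simp
  rw [← h3, mul_comm]

theorem tauElt_irreducible : Irreducible T.tauElt := by
  have hτ0 : T.tauElt ≠ 0 := fun h => T.tau_ne_zero (congrArg Subtype.val h)
  refine ⟨T.tauElt_not_isUnit, fun x y hxy => ?_⟩
  have hx0 : x ≠ 0 := by rintro rfl; rw [zero_mul] at hxy; exact hτ0 hxy
  have hy0 : y ≠ 0 := by rintro rfl; rw [mul_zero] at hxy; exact hτ0 hxy
  obtain ⟨n, hn⟩ := T.associated_pow x hx0
  obtain ⟨m, hm⟩ := T.associated_pow y hy0
  have h1 : Associated (T.tauElt ^ (n + m)) T.tauElt := by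
    have h0 := hn.mul_mul hm
    rw [← hxy, ← pow_add] at h0
    exact h0
  -- `n + m = 1`
  have hnm : n + m = 1 := by
    rcases Nat.lt_trichotomy (n + m) 1 with h | h | h
    · exfalso
      have h0 : n + m = 0 := by omega
      rw [h0, pow_zero] at h1
      exact T.tauElt_not_isUnit ((h1.isUnit_iff).1 isUnit_one)
    · exact h
    · exfalso
      obtain ⟨u, hu⟩ := h1
      have hpow : T.tauElt ^ (n + m) = T.tauElt * (T.tauElt ^ (n + m - 2) * T.tauElt) := by
        rw [← pow_succ, ← pow_succ']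
        congr 1
        omega
      have h2 : T.tauElt * (T.tauElt ^ (n + m - 2) * T.tauElt * u) = T.tauElt * 1 := by
        calc T.tauElt * (T.tauElt ^ (n + m - 2) * T.tauElt * u)
            = T.tauElt * (T.tauElt ^ (n + m - 2) * T.tauElt) * u := by ring
          _ = T.tauElt ^ (n + m) * u := by rw [← hpow]
          _ = T.tauElt * 1 := by rw [hu, mul_one]
      have h3 := mul_left_cancel₀ hτ0 h2
      apply T.tauElt_not_isUnit
      exact IsUnit.of_mul_eq_one (T.tauElt ^ (n + m - 2) * u) (by rw [← h3]; ring)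
  rcases Nat.eq_zero_or_pos n with h | h
  · left
    rw [h, pow_zero] at hn
    exact (hn.isUnit_iff).1 isUnit_one
  · right
    have : m = 0 := by omega
    rw [this, pow_zero] at hm
    exact (hm.isUnit_iff).1 isUnit_one

theorem isPrincipalIdealRing : IsPrincipalIdealRing T.valuationSubring := by
  haveI : IsDiscreteValuationRing T.valuationSubring :=
    IsDiscreteValuationRing.ofHasUnitMulPowIrreducibleFactorization
      ⟨T.tauElt, T.tauElt_irreducible, fun {x} hx => T.associated_pow x hx⟩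
  infer_instance

/-- **The place of the point.** -/
def place : Place K F where
  toValuationSubring := T.valuationSubring
  algebraMap_mem' := T.algebraMap_mem
  ne_top' := T.valuationSubring_ne_top
  isPrincipalIdealRing' := T.isPrincipalIdealRing

theorem place_toValuationSubring : T.place.toValuationSubring = T.valuationSubring := rfl

theorem le_place (i : ι) : R i ≤ T.place.toValuationSubring.toSubring :=
  T.le_valuationSubring i

/-- `τ` is a uniformizer: `ord τ = 1`. -/
theorem ord_tau : T.place.ord τ = 1 := by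
  have h := T.place.adicValuation_coe_irreducible (π := T.tauElt) T.tauElt_irreducible
  have h2 : T.place.adicValuation τ = WithZero.exp (-1 : ℤ) := h
  rw [T.place.adicValuation_eq_exp_neg_ord T.tau_ne_zero] at h2
  have := WithZero.exp_injective h2
  omega

/-- For `x ∈ R i`: `x` has positive valuation at the place iff `x` lies in the centre prime. -/
theorem adicValuation_lt_one_iff {i : ι} (x : R i) :
    T.place.adicValuation (x : F) < 1 ↔ x ∈ 𝔭 i := by
  have hxm : (x : F) ∈ T.place.toValuationSubring := T.mem_of_mem x.2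
  have hle : T.place.adicValuation (x : F) ≤ 1 := T.place.adicValuation_le_one_of_mem hxm
  rcases eq_or_ne x 0 with rfl | hx0
  · simp
  have hunit : T.place.adicValuation (x : F) = 1 ↔ IsUnit (⟨(x : F), hxm⟩ : T.place.toValuationSubring) :=
    T.place.adicValuation_coe_eq_one_iff ⟨(x : F), hxm⟩
  have hxF : (x : F) ≠ 0 := fun h => hx0 (Subtype.ext h)
  have hinv : IsUnit (⟨(x : F), hxm⟩ : T.place.toValuationSubring) ↔ x ∉ 𝔭 i := by
    rw [← T.inv_mem_iff x hx0]
    constructor
    · intro hu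
      obtain ⟨b, hb⟩ := hu.exists_right_inv
      have hb' : (x : F) * (b : F) = 1 := congrArg Subtype.val hb
      have : (x : F)⁻¹ = (b : F) := by
        rw [eq_comm, ← mul_right_inj' hxF, hb', mul_inv_cancel₀ hxF]
      rw [this]
      exact b.2
    · intro h
      exact IsUnit.of_mul_eq_one (⟨(x : F)⁻¹, h⟩ : T.place.toValuationSubring)
        (by apply Subtype.ext; show (x : F) * (x : F)⁻¹ = 1; exact mul_inv_cancel₀ hxF)
  rw [lt_iff_le_and_ne]
  constructor
  · rintro ⟨-, hne⟩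
    by_contra hx
    exact hne (hunit.2 (hinv.2 hx))
  · intro hx
    exact ⟨hle, fun h => (hinv.1 (hunit.1 h)) hx⟩

theorem ord_pos_iff {i : ι} (x : R i) (hx0 : x ≠ 0) :
    0 < T.place.ord (x : F) ↔ x ∈ 𝔭 i := by
  have hxF : (x : F) ≠ 0 := fun h => hx0 (Subtype.ext h)
  rw [← T.adicValuation_lt_one_iff x, Fermat.Agent.Red.adicValuation_lt_one_iff]
  constructor
  · intro h; exact Or.inr h
  · rintro (h | h)
    · exact absurd h hxF
    · exact h

theorem ord_eq_zero_of_not_mem {i : ι} (x : R i) (hx : x ∉ 𝔭 i) : T.place.ord (x : F) = 0 := by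
  have hx0 : x ≠ 0 := fun h => hx (h ▸ (𝔭 i).zero_mem)
  have hxm : (x : F) ∈ T.place.toValuationSubring := T.mem_of_mem x.2
  have h1 : ¬ 0 < T.place.ord (x : F) := fun h => hx ((T.ord_pos_iff x hx0).1 h)
  have hxF : (x : F) ≠ 0 := fun h => hx0 (Subtype.ext h)
  have h2 : 0 ≤ T.place.ord (x : F) :=
    (T.place.adicValuation_le_one_iff.1 (T.place.adicValuation_le_one_of_mem hxm)).resolve_left hxF
  omega

/-- Values: for `y ∈ R i` and a constant `c` with `c ∈ R i`: `y(P) = c ↔ y - c ∈ 𝔭 i`. -/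
theorem isValueAt_iff {i : ι} {y : F} (hy : y ∈ R i) {c : K} (hc : algebraMap K F c ∈ R i) :
    IsValueAt T.place y c ↔ (⟨y, hy⟩ - ⟨algebraMap K F c, hc⟩ : R i) ∈ 𝔭 i := by
  rw [← T.adicValuation_lt_one_iff]
  rfl

/-- The order of `y = τ ^ n * a / b` (`a, b` outside the centre prime) is `n`. -/
theorem ord_eq_of_repr {i : ι} {y : F} {n : ℤ} (a b : R i) (ha : a ∉ 𝔭 i) (hb : b ∉ 𝔭 i)
    (h : y * (b : F) = τ ^ n * a) : T.place.ord y = n := by
  have haF : (a : F) ≠ 0 := T.ne_zero_of_not_mem ha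
  have hbF : (b : F) ≠ 0 := T.ne_zero_of_not_mem hb
  have hτ0 := T.tau_ne_zero
  have hτn : τ ^ n ≠ 0 := zpow_ne_zero _ hτ0
  have hy0 : y ≠ 0 := by
    rintro rfl
    rw [zero_mul] at h
    exact (mul_ne_zero hτn haF) h.symm
  have h1 := congrArg T.place.ord h
  rw [T.place.ord_mul hy0 hbF, T.place.ord_mul hτn haF, T.ord_eq_zero_of_not_mem a ha,
    T.ord_eq_zero_of_not_mem b hb, add_zero, add_zero] at h1
  rw [h1]
  -- `ord (τ ^ n) = n`
  have hpow : ∀ k : ℕ, T.place.ord (τ ^ k) = k := by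
    intro k
    induction k with
    | zero => simp
    | succ k ih =>
      rw [pow_succ, T.place.ord_mul (pow_ne_zero _ hτ0) hτ0, ih, T.ord_tau]
      push_cast
      ring
  rcases Int.eq_nat_or_neg n with ⟨k, rfl | rfl⟩
  · rw [zpow_natCast]; exact hpow k
  · rw [zpow_neg, zpow_natCast, T.place.ord_inv, hpow k]

/-- **Uniqueness.**  A place whose valuation ring contains all `R i` and inverts the elements
outside the centre primes is the place of the family. -/
theorem eq_place (P : Place K F) (hR : ∀ i (x : R i), (x : F) ∈ P.toValuationSubring)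
    (hinv : ∀ i (x : R i), x ∉ 𝔭 i → (x : F)⁻¹ ∈ P.toValuationSubring) : P = T.place := by
  have hle : ∀ y, T.Mem y → y ∈ P.toValuationSubring := by
    rintro y ⟨i, a, b, hb, hab⟩
    have hbF : (b : F) ≠ 0 := T.ne_zero_of_not_mem hb
    have : y = (a : F) * (b : F)⁻¹ := by
      rw [← hab]; field_simp
    rw [this]
    exact P.toValuationSubring.mul_mem _ _ (hR i a) (hinv i b hb)
  apply Place.ext
  apply le_antisymm
  · -- `O_P ≤ O_T`: otherwise `τ⁻¹ ∈ O_P` and `O_P = ⊤`
    intro y hy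
    by_contra hyT
    have hy0 : y ≠ 0 := fun h => hyT (h ▸ T.mem_zero)
    have hyinv : T.Mem y⁻¹ := (T.mem_or_inv_mem y).resolve_left hyT
    -- `y⁻¹` is a nonunit of `O_T`, hence `τ ∣ y⁻¹` there
    obtain ⟨n, u, hu⟩ := T.associated_pow ⟨y⁻¹, hyinv⟩
      (fun h => inv_ne_zero hy0 (congrArg Subtype.val h))
    have huF : τ ^ n * ((u : T.valuationSubring) : F) = y⁻¹ := congrArg Subtype.val hu
    have hn : n ≠ 0 := by
      rintro rfl
      rw [pow_zero, one_mul] at huF
      apply hyT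
      have : y = (((u⁻¹ : T.valuationSubringˣ) : T.valuationSubring) : F) := by
        have h1 : ((u : T.valuationSubring) : F) * (((u⁻¹ : T.valuationSubringˣ) :
            T.valuationSubring) : F) = 1 := congrArg Subtype.val u.mul_inv
        rw [huF] at h1
        field_simp at h1
        exact h1.symm
      rw [this]
      exact (((u⁻¹ : T.valuationSubringˣ) : T.valuationSubring)).2
    -- `τ⁻¹ = y * τ^(n-1) * u ∈ O_P`
    have hτinv : τ⁻¹ ∈ P.toValuationSubring := by
      have e : τ⁻¹ = y * τ ^ (n - 1) * ((u : T.valuationSubring) : F) := by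
        have hτ0 := T.tau_ne_zero
        have hn' : n = (n - 1) + 1 := by omega
        rw [hn', pow_succ] at huF
        have h2 : y * (τ ^ (n - 1) * τ * ((u : T.valuationSubring) : F)) = 1 := by
          rw [huF]; exact mul_inv_cancel₀ hy0
        field_simp
        rw [← h2]; ring
      rw [e]
      exact P.toValuationSubring.mul_mem _ _ (P.toValuationSubring.mul_mem _ _ hy
        (pow_mem (hle τ T.tau_mem_valuationSubring) _)) (hle _ (u : T.valuationSubring).2)
    -- then every element of `F` is in `O_P`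
    apply P.ne_top'
    rw [eq_top_iff]
    intro z _
    rcases eq_or_ne z 0 with rfl | hz0
    · exact zero_mem _
    rcases T.mem_or_inv_mem z with hz | hz
    · exact hle z hz
    · obtain ⟨m, w, hw⟩ := T.associated_pow ⟨z⁻¹, hz⟩
        (fun h => inv_ne_zero hz0 (congrArg Subtype.val h))
      have hwF : τ ^ m * ((w : T.valuationSubring) : F) = z⁻¹ := congrArg Subtype.val hw
      have hz' : z = (τ⁻¹) ^ m * (((w⁻¹ : T.valuationSubringˣ) : T.valuationSubring) : F) := by
        have h1 : ((w : T.valuationSubring) : F) * (((w⁻¹ : T.valuationSubringˣ) :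
            T.valuationSubring) : F) = 1 := congrArg Subtype.val w.mul_inv
        have hw0 : ((w : T.valuationSubring) : F) ≠ 0 := left_ne_zero_of_mul_eq_one h1
        have hτ0 := T.tau_ne_zero
        have h3 : z * (τ ^ m * ((w : T.valuationSubring) : F)) = 1 := by
          rw [hwF]; exact mul_inv_cancel₀ hz0
        have h4 : (((w⁻¹ : T.valuationSubringˣ) : T.valuationSubring) : F)
            = ((w : T.valuationSubring) : F)⁻¹ := eq_inv_of_mul_eq_one_right h1
        rw [h4, inv_pow]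
        field_simp
        rw [← h3]; ring
      rw [hz']
      exact P.toValuationSubring.mul_mem _ _ (pow_mem hτinv _)
        (hle _ (((w⁻¹ : T.valuationSubringˣ) : T.valuationSubring)).2)
  · intro y hy
    exact hle y hy

end TauFamily

end Fermat.Agent.BR.PlaceOfLevels
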