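import Mathlib

/-!
# Program B (BADRED), block B7: existence of integral points (`B7.EX`)

Let `A` be a valuation ring of an algebraically closed field `K`, `W` a Bezout domain (e.g. a
discrete valuation ring `A ∩ K'`) with an injective ring homomorphism `W → A`, and `D` a domain
which is an algebraic, torsion-free `W`-algebra.  Then every `W`-algebra homomorphism
`χ : D → A / 𝔪_A` (a point of `D` with values in the residue field of `A`) lifts to a `W`-algebra
homomorphism `φ : D → A`.

Use: `D = O / 𝔭` for a horizontal prime `𝔭` of the local ring `O` of the model at a closed point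
(over `W = A ∩ K'`, NOT complete, NOT henselian): the prime `𝔭` carries an `A`-valued point of the
tube of that closed point.  This is the "existence of zeros" input of the factorisation of a
function on a residue disc / annulus; no completion, no Weierstrass preparation, no Hensel lemma
(only: `A` is integrally closed in the algebraically closed field `K`).

Proof: `T = A ⊗[W] D` is `A`-flat, so the nonzero elements of `A` are nonzerodivisors of `T`; a
minimal prime `𝔮` of `T` below the maximal ideal `ker (A ⊗ D → k)` does not meet `A ∖ 0`; `T ⧸ 𝔮` is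
a domain, algebraic over `A`, hence embeds into `K` over `A`; the image is a subring of `K`
containing `A` with a proper ideal containing `𝔪_A`, so it is `A`.
-/

set_option autoImplicit false
set_option linter.style.haveILetI false

namespace Fermat.Agent.BR.PointExists

open IsLocalRing TensorProduct

section Abstract

variable {K : Type*} [Field K] [IsAlgClosed K] (A : ValuationSubring K)
  {E : Type*} [CommRing E] [IsDomain E] [Algebra A E]

omit [IsAlgClosed K] in
/-- An `A`-algebra homomorphism from an algebraic domain over `A` into `K` is injective. -/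
theorem injective_of_isAlgebraic [Algebra.IsAlgebraic A E] (ι : E →ₐ[A] K) :
    Function.Injective ι := by
  rw [injective_iff_map_eq_zero]
  intro e he
  by_contra he0
  have hne := Ideal.comap_ne_bot_of_algebraic_mem (R := A)
    (I := RingHom.ker ι.toRingHom) he0 (by
      rw [RingHom.mem_ker]; exact he) (Algebra.IsAlgebraic.isAlgebraic e)
  apply hne
  rw [eq_bot_iff]
  intro a ha
  rw [Ideal.mem_comap, RingHom.mem_ker] at ha
  have h2 : ι (algebraMap A _ a) = (a : K) := ι.commutes a
  have h3 : (a : K) = 0 := by rw [← h2]; exact ha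
  rw [Ideal.mem_bot]
  exact Subtype.ext h3

/-- A domain `E`, algebraic over the valuation ring `A` of the algebraically closed field `K`,
with `A → E` injective and with a ring homomorphism `E → ResidueField A` extending the residue
map, is `A` itself: there is an `A`-algebra map `E → A`, compatible with the residue maps. -/
theorem exists_algHom_of_residue (hinj : Function.Injective (algebraMap A E))
    [Algebra.IsAlgebraic A E] (Xbar : E →+* ResidueField A)
    (hXbar : ∀ a : A, Xbar (algebraMap A E a) = residue A a) :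
    ∃ ψ : E →ₐ[A] A, ∀ e, residue A (ψ e) = Xbar e := by
  haveI : Module.IsTorsionFree A E := Module.isTorsionFree_iff_algebraMap_injective.2 hinj
  let ι : E →ₐ[A] K := IsAlgClosed.lift (M := K) (R := A) (S := E)
  have hιinj : Function.Injective ι := injective_of_isAlgebraic A ι
  have himg : ∀ e, ι e ∈ A := by
    intro e
    by_contra hx
    have hx0 : ι e ≠ 0 := fun h => hx (h ▸ A.zero_mem)
    have hinv : (ι e)⁻¹ ∈ A := (A.mem_or_inv_mem (ι e)).resolve_left hx
    set a : A := ⟨(ι e)⁻¹, hinv⟩ with ha
    have hanu : ¬ IsUnit a := by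
      intro hu
      obtain ⟨b, hb⟩ := hu.exists_right_inv
      have hb' : (ι e)⁻¹ * (b : K) = 1 := by
        have := congrArg (Subtype.val) hb
        simpa [ha] using this
      have hbe : (b : K) = ι e := by
        field_simp at hb'
        exact hb'
      exact hx (hbe ▸ b.2)
    have hres : residue A a = 0 := by
      rw [residue_eq_zero_iff]
      exact hanu
    have hone : e * algebraMap A E a = 1 := by
      apply hιinj
      rw [map_mul, map_one, ι.commutes a]
      show ι e * (ι e)⁻¹ = 1
      exact mul_inv_cancel₀ hx0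
    have := congrArg Xbar hone
    rw [map_mul, hXbar, hres, mul_zero, map_one] at this
    exact zero_ne_one this
  have hcomm : ∀ e, e = algebraMap A E ⟨ι e, himg e⟩ := by
    intro e
    apply hιinj
    rw [ι.commutes]
    rfl
  let ψ0 : E →+* A := ι.toRingHom.codRestrict A himg
  have hψ0 : ∀ e, ((ψ0 e : A) : K) = ι e := fun e => rfl
  have hψA : ∀ a : A, ψ0 (algebraMap A E a) = algebraMap A A a := by
    intro a
    apply Subtype.ext
    rw [hψ0, ι.commutes]
    rfl
  refine ⟨{ ψ0 with commutes' := hψA }, fun e => ?_⟩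
  show residue A (ψ0 e) = Xbar e
  have h1 : e = algebraMap A E (ψ0 e) := hcomm e
  have h2 := congrArg Xbar h1
  rw [hXbar] at h2
  exact h2.symm

end Abstract

section Core

variable {W D K : Type*} [CommRing W] [IsDomain W] [IsBezout W] [CommRing D] [IsDomain D]
  [Algebra W D] [Field K] [IsAlgClosed K] (A : ValuationSubring K) [Algebra W A]

/-- **Integral points lift residue points.**  `W → A` injective, `D` a domain, algebraic and
torsion-free over the Bezout domain `W`; every ring homomorphism `χ : D → ResidueField A`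
compatible with `W → A → ResidueField A` lifts to a `W`-algebra homomorphism `D → A`. -/
theorem exists_algHom_residue_eq
    (hinjD : Function.Injective (algebraMap W D))
    (hinjA : Function.Injective (algebraMap W A))
    (halg : Algebra.IsAlgebraic W D)
    (χ : D →+* ResidueField A)
    (hχ : ∀ w, χ (algebraMap W D w) = residue A (algebraMap W A w)) :
    ∃ φ : D →ₐ[W] A, ∀ d, residue A (φ d) = χ d := by
  classical
  -- flatness of `D` over `W`
  haveI hflat : Module.Flat W D := by
    rw [Module.Flat.flat_iff_torsion_eq_bot_of_isBezout,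
      ← Submodule.isTorsionFree_iff_torsion_eq_bot,
      Module.isTorsionFree_iff_algebraMap_injective]
    exact hinjD
  -- the residue field as a `W`-algebra, `χ` and the residue map as `W`-algebra maps
  letI algk : Algebra W (ResidueField A) := ((residue A).comp (algebraMap W A)).toAlgebra
  let χ' : D →ₐ[W] ResidueField A := { χ with commutes' := hχ }
  let resA : A →ₐ[W] ResidueField A := { residue A with commutes' := fun _ => rfl }
  let X : A ⊗[W] D →ₐ[W] ResidueField A := Algebra.TensorProduct.productMap resA χ'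
  have hX : ∀ (a : A) (d : D), X (a ⊗ₜ[W] d) = residue A a * χ d := fun a d =>
    Algebra.TensorProduct.productMap_apply_tmul resA χ' a d
  have hXsurj : Function.Surjective (X : A ⊗[W] D →+* ResidueField A) := by
    intro y
    obtain ⟨a, rfl⟩ := residue_surjective (R := A) y
    exact ⟨a ⊗ₜ[W] 1, by
      show X (a ⊗ₜ[W] (1 : D)) = _
      rw [hX, map_one, mul_one]⟩
  haveI hMmax : (RingHom.ker (X : A ⊗[W] D →+* ResidueField A)).IsMaximal :=
    RingHom.ker_isMaximal_of_surjective _ hXsurj
  -- a minimal prime below the maximal ideal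
  obtain ⟨𝔮, h𝔮min, h𝔮M⟩ := Ideal.exists_minimalPrimes_le
    (I := (⊥ : Ideal (A ⊗[W] D))) (J := RingHom.ker (X : A ⊗[W] D →+* ResidueField A)) bot_le
  haveI h𝔮prime : 𝔮.IsPrime := h𝔮min.1.1
  -- nonzero elements of `A` are nonzerodivisors of the tensor product
  have hnzd : ∀ a : A, a ≠ 0 → (a ⊗ₜ[W] (1 : D)) ∈ nonZeroDivisors (A ⊗[W] D) := by
    intro a ha
    have hinj : Function.Injective (LinearMap.rTensor D (LinearMap.mulLeft W a)) := by
      apply Module.Flat.rTensor_preserves_injective_linearMap
      intro x y hxy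
      exact mul_left_cancel₀ ha hxy
    have hmul : ∀ t : A ⊗[W] D, (a ⊗ₜ[W] (1 : D)) * t
        = LinearMap.rTensor D (LinearMap.mulLeft W a) t := by
      intro t
      induction t using TensorProduct.induction_on with
      | zero => simp
      | tmul b d =>
        rw [Algebra.TensorProduct.tmul_mul_tmul, one_mul, LinearMap.rTensor_tmul]
        rfl
      | add x y hx hy => rw [mul_add, hx, hy, map_add]
    rw [mem_nonZeroDivisors_iff]
    have h1 : ∀ t : A ⊗[W] D, (a ⊗ₜ[W] (1 : D)) * t = 0 → t = 0 := by
      intro t ht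
      rw [hmul] at ht
      exact hinj (by rw [ht, map_zero])
    exact ⟨h1, fun t ht => h1 t (by rw [mul_comm]; exact ht)⟩
  have hA𝔮 : ∀ a : A, (a ⊗ₜ[W] (1 : D)) ∈ 𝔮 → a = 0 := by
    intro a ha
    by_contra ha0
    have hdisj := Ideal.disjoint_nonZeroDivisors_of_mem_minimalPrimes
      (show 𝔮 ∈ minimalPrimes (A ⊗[W] D) from h𝔮min)
    exact Set.disjoint_left.1 hdisj ha (hnzd a ha0)
  -- the domain `E = T ⧸ 𝔮`
  haveI hdomE : IsDomain ((A ⊗[W] D) ⧸ 𝔮) := Ideal.Quotient.isDomain 𝔮
  have halgmap : ∀ a : A, algebraMap A ((A ⊗[W] D) ⧸ 𝔮) a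
      = Ideal.Quotient.mk 𝔮 (a ⊗ₜ[W] (1 : D)) := fun a => rfl
  have hinjE : Function.Injective (algebraMap A ((A ⊗[W] D) ⧸ 𝔮)) := by
    rw [injective_iff_map_eq_zero]
    intro a ha
    rw [halgmap, Ideal.Quotient.eq_zero_iff_mem] at ha
    exact hA𝔮 a ha
  let g : D →ₐ[W] ((A ⊗[W] D) ⧸ 𝔮) :=
    (Ideal.Quotient.mkₐ W 𝔮).comp Algebra.TensorProduct.includeRight
  have hg1 : ∀ d, g d = Ideal.Quotient.mk 𝔮 ((1 : A) ⊗ₜ[W] d) := fun d => rfl
  -- `E` is algebraic over `A`
  haveI halgE : Algebra.IsAlgebraic A ((A ⊗[W] D) ⧸ 𝔮) := by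
    constructor
    intro e
    obtain ⟨t, rfl⟩ := Ideal.Quotient.mk_surjective e
    have hmem : Ideal.Quotient.mk 𝔮 t ∈ Subalgebra.algebraicClosure A ((A ⊗[W] D) ⧸ 𝔮) := by
      induction t using TensorProduct.induction_on with
      | zero => rw [map_zero]; exact Subalgebra.zero_mem _
      | tmul a d =>
        have h1 : (a ⊗ₜ[W] d : A ⊗[W] D) = (a ⊗ₜ[W] (1 : D)) * ((1 : A) ⊗ₜ[W] d) := by
          rw [Algebra.TensorProduct.tmul_mul_tmul, mul_one, one_mul]
        rw [h1, map_mul]
        refine Subalgebra.mul_mem _ ?_ ?_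
        · rw [← halgmap]; exact Subalgebra.algebraMap_mem _ a
        · -- `1 ⊗ d` is algebraic over `W`, hence over `A`
          have hd : IsAlgebraic W d := halg.isAlgebraic d
          have hg : IsAlgebraic W (g d) := hd.algHom g
          exact hg.extendScalars hinjA
      | add x y hx hy => rw [map_add]; exact Subalgebra.add_mem _ hx hy
    exact hmem
  -- the residue map descends to `E`
  let Xbar : ((A ⊗[W] D) ⧸ 𝔮) →+* ResidueField A :=
    Ideal.Quotient.lift 𝔮 (X : A ⊗[W] D →+* ResidueField A) (fun t ht => by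
      have := h𝔮M ht
      rwa [RingHom.mem_ker] at this)
  have hXbar : ∀ t, Xbar (Ideal.Quotient.mk 𝔮 t) = X t := fun t => Ideal.Quotient.lift_mk _ _ _
  have hXbarA : ∀ a : A, Xbar (algebraMap A _ a) = residue A a := by
    intro a
    rw [halgmap, hXbar, hX, map_one, mul_one]
  obtain ⟨ψ, hψ⟩ := exists_algHom_of_residue (E := (A ⊗[W] D) ⧸ 𝔮) A hinjE Xbar hXbarA
  -- the lift
  let φ0 : D →+* A := ψ.toRingHom.comp g.toRingHom
  have hφW : ∀ w, φ0 (algebraMap W D w) = algebraMap W A w := by
    intro w
    show ψ (g (algebraMap W D w)) = _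
    rw [g.commutes, IsScalarTower.algebraMap_apply W A ((A ⊗[W] D) ⧸ 𝔮), ψ.commutes]
    rfl
  refine ⟨{ φ0 with commutes' := hφW }, fun d => ?_⟩
  show residue A (ψ (g d)) = χ d
  rw [hψ, hg1, hXbar, hX, map_one, one_mul]

end Core

section Prime

variable {W O K : Type*} [CommRing W] [IsDomain W] [IsBezout W] [CommRing O]
  [Algebra W O] [Field K] [IsAlgClosed K] (A : ValuationSubring K) [Algebra W A]

/-- **A point on a prime.**  `𝔭` a prime of the `W`-algebra `O` with `W → O ⧸ 𝔭` injective and
`O ⧸ 𝔭` algebraic over `W`; `χ₀ : O → ResidueField A` a ring homomorphism killing `𝔭` and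
compatible with `W → A`.  Then there is a `W`-algebra homomorphism `φ : O → A` with kernel exactly
`𝔭` which lifts `χ₀`. -/
theorem exists_algHom_ker_eq (𝔭 : Ideal O) [𝔭.IsPrime]
    (hinjA : Function.Injective (algebraMap W A))
    (h0 : ∀ w : W, algebraMap W O w ∈ 𝔭 → w = 0)
    (halg : ∀ y : O, ∃ p : Polynomial W, p ≠ 0 ∧ Polynomial.aeval y p ∈ 𝔭)
    (χ₀ : O →+* ResidueField A) (hχ𝔭 : ∀ y ∈ 𝔭, χ₀ y = 0)
    (hχ : ∀ w, χ₀ (algebraMap W O w) = residue A (algebraMap W A w)) :
    ∃ φ : O →ₐ[W] A, (∀ y, φ y = 0 ↔ y ∈ 𝔭) ∧ ∀ y, residue A (φ y) = χ₀ y := by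
  haveI : IsDomain (O ⧸ 𝔭) := Ideal.Quotient.isDomain 𝔭
  have hinjD : Function.Injective (algebraMap W (O ⧸ 𝔭)) := by
    rw [injective_iff_map_eq_zero]
    intro w hw
    apply h0 w
    rw [← Ideal.Quotient.eq_zero_iff_mem]
    exact hw
  have halgD : Algebra.IsAlgebraic W (O ⧸ 𝔭) := by
    constructor
    intro e
    obtain ⟨y, rfl⟩ := Ideal.Quotient.mk_surjective e
    obtain ⟨p, hp0, hp⟩ := halg y
    refine ⟨p, hp0, ?_⟩
    have h1 : Polynomial.aeval (Ideal.Quotient.mkₐ W 𝔭 y) p
        = Ideal.Quotient.mkₐ W 𝔭 (Polynomial.aeval y p) := Polynomial.aeval_algHom_apply _ _ _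
    have h2 : Ideal.Quotient.mkₐ W 𝔭 (Polynomial.aeval y p) = 0 :=
      Ideal.Quotient.eq_zero_iff_mem.2 hp
    rw [← h2, ← h1]
    rfl
  let χ : (O ⧸ 𝔭) →+* ResidueField A := Ideal.Quotient.lift 𝔭 χ₀ hχ𝔭
  have hχmk : ∀ y, χ (Ideal.Quotient.mk 𝔭 y) = χ₀ y := fun y => Ideal.Quotient.lift_mk _ _ _
  have hχW : ∀ w, χ (algebraMap W (O ⧸ 𝔭) w) = residue A (algebraMap W A w) := by
    intro w
    have : algebraMap W (O ⧸ 𝔭) w = Ideal.Quotient.mk 𝔭 (algebraMap W O w) := rfl
    rw [this, hχmk, hχ]
  obtain ⟨φD, hφD⟩ := exists_algHom_residue_eq (D := O ⧸ 𝔭) A hinjD hinjA halgD χ hχW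
  -- `φD` is injective
  have hφDinj : Function.Injective φD := by
    rw [injective_iff_map_eq_zero]
    intro e he
    by_contra he0
    have hne := Ideal.comap_ne_bot_of_algebraic_mem (R := W)
      (I := RingHom.ker φD.toRingHom) he0 (by
        rw [RingHom.mem_ker]; exact he) (halgD.isAlgebraic e)
    apply hne
    rw [eq_bot_iff]
    intro w hw
    rw [Ideal.mem_comap, RingHom.mem_ker] at hw
    have h2 : φD (algebraMap W _ w) = algebraMap W A w := φD.commutes w
    have h3 : algebraMap W A w = 0 := by rw [← h2]; exact hw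
    rw [Ideal.mem_bot]
    exact hinjA (by rw [h3, map_zero])
  refine ⟨φD.comp (Ideal.Quotient.mkₐ W 𝔭), fun y => ?_, fun y => ?_⟩
  · show φD (Ideal.Quotient.mk 𝔭 y) = 0 ↔ _
    rw [← Ideal.Quotient.eq_zero_iff_mem]
    constructor
    · intro h
      exact hφDinj (by rw [h, map_zero])
    · intro h
      rw [h, map_zero]
  · show residue A (φD (Ideal.Quotient.mk 𝔭 y)) = _
    rw [hφD, hχmk]

omit [IsDomain W] [IsBezout W] [IsAlgClosed K] in
/-- The residue homomorphism `O → ResidueField A` of a local `W`-algebra `O` whose residue field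
is that of `W` (`hsurj`), when the kernel of `W → O / 𝔪` dies in the residue field of `A`. -/
theorem exists_residueHom [IsLocalRing O]
    (hsurj : ∀ y : O, ∃ w : W, y - algebraMap W O w ∈ maximalIdeal O)
    (hker : ∀ w : W, algebraMap W O w ∈ maximalIdeal O → residue A (algebraMap W A w) = 0) :
    ∃ χ₀ : O →+* ResidueField A, (∀ y ∈ maximalIdeal O, χ₀ y = 0) ∧
      ∀ w, χ₀ (algebraMap W O w) = residue A (algebraMap W A w) := by
  let f : W →+* ResidueField O := (residue O).comp (algebraMap W O)
  have hf : Function.Surjective f := by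
    intro z
    obtain ⟨y, rfl⟩ := residue_surjective (R := O) z
    obtain ⟨w, hw⟩ := hsurj y
    refine ⟨w, ?_⟩
    show residue O (algebraMap W O w) = residue O y
    have h1 : residue O (y - algebraMap W O w) = 0 := by
      rw [residue_eq_zero_iff]
      exact hw
    rw [map_sub, sub_eq_zero] at h1
    exact h1.symm
  let g : W →+* ResidueField A := (residue A).comp (algebraMap W A)
  have hfg : RingHom.ker f ≤ RingHom.ker g := by
    intro w hw
    rw [RingHom.mem_ker] at hw ⊢
    apply hker w
    have : residue O (algebraMap W O w) = 0 := hw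
    rwa [residue_eq_zero_iff] at this
  let l : ResidueField O →+* ResidueField A := f.liftOfSurjective hf ⟨g, hfg⟩
  have hl : ∀ w, l (f w) = g w := fun w => f.liftOfSurjective_comp_apply hf ⟨g, hfg⟩ w
  refine ⟨l.comp (residue O), fun y hy => ?_, fun w => ?_⟩
  · show l (residue O y) = 0
    have : residue O y = 0 := by
      rw [residue_eq_zero_iff]
      exact hy
    rw [this, map_zero]
  · exact hl w

end Prime

end Fermat.Agent.BR.PointExists
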