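import Fermat.Agent.BR.TwoValDefs
import Fermat.Agent.ES.LaurentFrob
import Fermat.Agent.Val.ResidueFieldA

/-!
# Program B, block B1, node B1.RES: residues of the generators, restriction of `w₁`, `w₂` to
level `M` along `α` and `β`

`α = heckeAlphaBar Kb M q` (inclusion), `β = heckeBetaBar Kb M q` (`y(q) ↦ y(q^q)`),
`O_M = gaussValQbar B M`, `res_M = gaussResQbar B M`, `V = qExpand k q`.

* generic: `qExpand` preserves Gauss integrality, contents and commutes with the residue map;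
* `jqNModC_mul_char` : `j̃(q^{dq}) = j̃(q^d)^q` in characteristic `q`;
* `modularFunctionFieldFullC_mul_char` : `F̃_{Mq} = F̃_M` inside `k((q))`;
* `alpha_mem_O1_iff`, `beta_mem_O1_iff`, `alpha_mem_O2_iff`, `beta_mem_O2_iff` :
  `w₁ ∘ α = w₁ ∘ β = w₂ ∘ α = w₂ ∘ β = w_M`;
* `res1_alpha = res_M`, `res1_beta = V ∘ res_M`, `res2_alpha = V ∘ res_M`, `res2_beta = res_M`;
* generators: `j_d, j_{dq} ∈ R12` with `res1 j_d = j̃_d`, `res1 j_{dq} = j̃_d^q`,
  `res2 j_d = j̃_d^q`, `res2 j_{dq} = j̃_d`.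
-/

set_option autoImplicit false

noncomputable section

namespace Fermat.Agent.BR.ResGen

open ModularCurve AlgebraicCurve Fermat.Agent.X0 Fermat.Agent.Val Fermat.Agent.BR.TwoVal

/-! ### Generic: `qExpand` and the Gauss ring -/

section Generic

variable {L : Type*} [Field L] (A : ValuationSubring L) {k : Type*} [Field k] (π : A →+* k)
variable (N : ℕ) [NeZero N]

theorem aIota_qExpand (a : LaurentSeries A) :
    aIota A (qExpand A N a) = qExpand L N (aIota A a) := by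
  unfold aIota
  rw [coeffMap_qExpand]

theorem aRed_qExpand (a : LaurentSeries A) :
    aRed π (qExpand A N a) = qExpand k N (aRed π a) := by
  unfold aRed
  rw [coeffMap_qExpand]

theorem aRed_qExpand_ne_zero {a : LaurentSeries A} (ha : aRed π a ≠ 0) :
    aRed π (qExpand A N a) ≠ 0 := by
  rw [aRed_qExpand]
  exact fun h => ha (qExpand_injective N (h.trans (map_zero _).symm))

variable {A π} in
/-- `qExpand` preserves Gauss integrality. -/
theorem qExpand_mem_gaussRingA {x : LaurentSeries L} (hx : x ∈ gaussRingA A π) :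
    qExpand L N x ∈ gaussRingA A π := by
  obtain ⟨a, b, hb, hab⟩ := hx
  refine ⟨qExpand A N a, qExpand A N b, aRed_qExpand_ne_zero A π N hb, ?_⟩
  rw [aIota_qExpand, aIota_qExpand, ← map_mul, hab]

variable {A π} in
/-- `qExpand` commutes with the residue map of the Gauss ring. -/
theorem gaussResA_qExpand {x : LaurentSeries L} (hx : x ∈ gaussRingA A π) :
    gaussResA A π ⟨qExpand L N x, qExpand_mem_gaussRingA N hx⟩ =
      qExpand k N (gaussResA A π ⟨x, hx⟩) := by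
  obtain ⟨a, b, hb, hab⟩ := hx
  have hx' : x ∈ gaussRingA A π := ⟨a, b, hb, hab⟩
  have h1 : gaussResA A π ⟨x, hx'⟩ = aRed π a / aRed π b :=
    gaussResA_eq A π ⟨x, hx'⟩ hb hab
  have hab' : qExpand L N x * aIota A (qExpand A N b) = aIota A (qExpand A N a) := by
    rw [aIota_qExpand, aIota_qExpand, ← map_mul, hab]
  have h2 : gaussResA A π ⟨qExpand L N x, qExpand_mem_gaussRingA N hx'⟩ =
      aRed π (qExpand A N a) / aRed π (qExpand A N b) :=
    gaussResA_eq A π ⟨qExpand L N x, qExpand_mem_gaussRingA N hx'⟩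
      (aRed_qExpand_ne_zero A π N hb) hab'
  rw [h1, h2, aRed_qExpand, aRed_qExpand, map_div₀]

variable {A π} in
/-- `qExpand` preserves contents. -/
theorem hasContent_qExpand {x : LaurentSeries L} {c : L} (h : HasContent A π x c) :
    HasContent A π (qExpand L N x) c := by
  obtain ⟨hc, a, b, ha, hb, hab⟩ := h
  refine ⟨hc, qExpand A N a, qExpand A N b, aRed_qExpand_ne_zero A π N ha,
    aRed_qExpand_ne_zero A π N hb, ?_⟩
  rw [aIota_qExpand, aIota_qExpand, ← map_mul, hab, map_mul, qExpand_C]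

variable {A π} in
/-- For a series with content, `f(q^N)` is Gauss integral iff `f` is. -/
theorem qExpand_mem_gaussRingA_iff (hπ : ∀ a : A, a ∈ IsLocalRing.maximalIdeal A → π a = 0)
    {x : LaurentSeries L} (hx : x ≠ 0 → ∃ c, HasContent A π x c) :
    qExpand L N x ∈ gaussRingA A π ↔ x ∈ gaussRingA A π := by
  by_cases hx0 : x = 0
  · rw [hx0, map_zero]
  · obtain ⟨c, hc⟩ := hx hx0
    rw [(hasContent_qExpand N hc).mem_gaussRingA_iff hπ, hc.mem_gaussRingA_iff hπ]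

end Generic

/-! ### Characteristic `q`: `j̃(q^{dq}) = j̃(q^d)^q` -/

section CharQ

variable (k : Type*) [Field k] (q : ℕ) [hq : Fact q.Prime] [CharP k q]

theorem jqNModC_mul_char (d : ℕ) [NeZero d] [NeZero (d * q)] :
    jqNModC k (d * q) = (jqNModC k d) ^ q := by
  have : NeZero q := ⟨hq.out.ne_zero⟩
  rw [Fermat.Agent.ES.pow_char_eq_qExpand_coeffMap_frobenius q (jqNModC k d),
    coeffMap_jqNModC, jqNModC, jqNModC, qExpand_qExpand]
  exact qExpand_congr (mul_comm d q) _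

/-- `F̃_{Mq} = F̃_M` inside `k((q))` in characteristic `q`. -/
theorem modularFunctionFieldFullC_mul_char (M : ℕ) [NeZero M] [NeZero (M * q)] :
    modularFunctionFieldFullC k (M * q) = modularFunctionFieldFullC k M := by
  have : NeZero q := ⟨hq.out.ne_zero⟩
  refine le_antisymm ?_ (full_degeneracyC_le k (dvd_mul_right M q))
  rw [modularFunctionFieldFullC, IntermediateField.adjoin_le_iff]
  rintro x ⟨d, hne, hdvd, rfl⟩
  have := hne
  by_cases hqd : q ∣ d
  · obtain ⟨d', rfl⟩ := hqd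
    have hd'0 : d' ≠ 0 := fun h => NeZero.ne (q * d') (by rw [h, mul_zero])
    have : NeZero d' := ⟨hd'0⟩
    have : NeZero (d' * q) := ⟨Nat.mul_ne_zero hd'0 hq.out.ne_zero⟩
    have hd'M : d' ∣ M := by
      rw [mul_comm q d'] at hdvd
      exact Nat.dvd_of_mul_dvd_mul_right hq.out.pos hdvd
    have h1 : qExpand k (q * d') (jqModC k) = (jqNModC k d') ^ q := by
      rw [← jqNModC_mul_char k q d']
      exact qExpand_congr (mul_comm q d') _
    rw [SetLike.mem_coe, h1]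
    exact pow_mem (jqModCd_mem_full k M hd'M) q
  · have hcop : Nat.Coprime d q := ((Nat.Prime.coprime_iff_not_dvd hq.out).2 hqd).symm
    exact jqModCd_mem_full k M (hcop.dvd_of_dvd_mul_right hdvd)

end CharQ

/-! ### Level `M q`: restriction of `w₁`, `w₂` along `α`, `β` -/

section Level

variable {M q : ℕ} [NeZero M] [hq : Fact q.Prime]
variable (B : ValuationSubring (AlgebraicClosure ℚ)) (hB : B.LiesOverPrime q)

local notation "kB" => IsLocalRing.ResidueField B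

variable (M) in
/-- The level-`M` Gauss valuation subring `O_M`. -/
abbrev OM : ValuationSubring (Fb M) := gaussValQbar B M hq.out.ne_zero hB

variable (M) in
/-- The level-`M` residue map `res_M`. -/
abbrev resM : OM M B hB →+* LaurentSeries kB := gaussResQbar B M hq.out.ne_zero hB

theorem mem_OM_iff {x : Fb M} :
    x ∈ OM M B hB ↔ (x : LaurentSeries Kb) ∈ gaussRingA B (IsLocalRing.residue B) := Iff.rfl

theorem mem_O1_iff {x : Fb (M * q)} :
    x ∈ O1 M B hB ↔ (x : LaurentSeries Kb) ∈ gaussRingA B (IsLocalRing.residue B) := Iff.rfl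

theorem resM_apply (x : OM M B hB) :
    resM M B hB x = gaussResA B (IsLocalRing.residue B) ⟨((x : Fb M) : LaurentSeries Kb), x.2⟩ :=
  rfl

theorem res1_apply (x : O1 M B hB) :
    res1 M B hB x =
      gaussResA B (IsLocalRing.residue B) ⟨((x : Fb (M * q)) : LaurentSeries Kb), x.2⟩ :=
  rfl

omit hq in
/-- contents exist at level `M` -/
theorem exists_hasContent {ℓ : ℕ} (hℓ : ℓ ≠ 0) (hB' : B.LiesOverPrime ℓ) (x : Fb M)
    (hx : (x : LaurentSeries Kb) ≠ 0) :
    ∃ c, HasContent B (IsLocalRing.residue B) (x : LaurentSeries Kb) c :=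
  haveI := algebraIsAlgebraic_rat_algebraicClosure
  hasContent_of_mem_bar B (IsLocalRing.residue B) M hℓ hB' x.2 hx

omit hq [NeZero M] in
/-- the residue only depends on the underlying series -/
theorem gaussResA_congr {x y : LaurentSeries Kb}
    (hx : x ∈ gaussRingA B (IsLocalRing.residue B))
    (hy : y ∈ gaussRingA B (IsLocalRing.residue B)) (h : x = y) :
    gaussResA B (IsLocalRing.residue B) ⟨x, hx⟩ = gaussResA B (IsLocalRing.residue B) ⟨y, hy⟩ := by
  subst h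
  rfl

/-- `w₁ ∘ α = w_M`. -/
theorem alpha_mem_O1_iff (x : Fb M) : heckeAlphaBar Kb M q x ∈ O1 M B hB ↔ x ∈ OM M B hB := by
  rw [mem_O1_iff, mem_OM_iff, coe_heckeAlphaBar]

/-- `w₁ ∘ β = w_M`. -/
theorem beta_mem_O1_iff (x : Fb M) : heckeBetaBar Kb M q x ∈ O1 M B hB ↔ x ∈ OM M B hB := by
  rw [mem_O1_iff, mem_OM_iff, coe_heckeBetaBar]
  exact qExpand_mem_gaussRingA_iff q (residue_eq_zero_of_mem_maximalIdeal B)
    (exists_hasContent B hq.out.ne_zero hB x)

/-- `res₁ ∘ α = res_M`. -/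
theorem res1_alpha (x : Fb M) (hx : x ∈ OM M B hB) :
    res1 M B hB ⟨heckeAlphaBar Kb M q x, (alpha_mem_O1_iff B hB x).2 hx⟩ = resM M B hB ⟨x, hx⟩ := by
  rw [res1_apply, resM_apply]
  exact gaussResA_congr B _ _ (coe_heckeAlphaBar M q x)

/-- `res₁ ∘ β = V ∘ res_M`. -/
theorem res1_beta (x : Fb M) (hx : x ∈ OM M B hB) :
    res1 M B hB ⟨heckeBetaBar Kb M q x, (beta_mem_O1_iff B hB x).2 hx⟩ =
      qExpand kB q (resM M B hB ⟨x, hx⟩) := by
  rw [res1_apply, resM_apply]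
  exact gaussResA_qExpand q ((mem_OM_iff B hB).1 hx)

variable (hqM : ¬ q ∣ M)

/-- `w₂ ∘ α = w_M`. -/
theorem alpha_mem_O2_iff (x : Fb M) :
    heckeAlphaBar Kb M q x ∈ O2 B hB hqM ↔ x ∈ OM M B hB := by
  rw [mem_O2_iff, Wq_alpha, beta_mem_O1_iff]

/-- `w₂ ∘ β = w_M`. -/
theorem beta_mem_O2_iff (x : Fb M) :
    heckeBetaBar Kb M q x ∈ O2 B hB hqM ↔ x ∈ OM M B hB := by
  rw [mem_O2_iff, Wq_beta, alpha_mem_O1_iff]

/-- `res₂ ∘ α = V ∘ res_M`. -/
theorem res2_alpha (x : Fb M) (hx : x ∈ OM M B hB) :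
    res2 B hB hqM ⟨heckeAlphaBar Kb M q x, (alpha_mem_O2_iff B hB hqM x).2 hx⟩ =
      qExpand kB q (resM M B hB ⟨x, hx⟩) := by
  rw [res2_apply, ← res1_beta B hB x hx, res1_apply, res1_apply]
  refine gaussResA_congr B _ _ ?_
  show ((Wq hqM (heckeAlphaBar Kb M q x) : Fb (M * q)) : LaurentSeries Kb) = _
  rw [Wq_alpha]

/-- `res₂ ∘ β = res_M`. -/
theorem res2_beta (x : Fb M) (hx : x ∈ OM M B hB) :
    res2 B hB hqM ⟨heckeBetaBar Kb M q x, (beta_mem_O2_iff B hB hqM x).2 hx⟩ =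
      resM M B hB ⟨x, hx⟩ := by
  rw [res2_apply, ← res1_alpha B hB x hx, res1_apply, res1_apply]
  refine gaussResA_congr B _ _ ?_
  show ((Wq hqM (heckeBetaBar Kb M q x) : Fb (M * q)) : LaurentSeries Kb) = _
  rw [Wq_beta]

/-- comap forms -/
theorem comap_alpha_O1 :
    (O1 M B hB).comap (heckeAlphaBar Kb M q : Fb M →+* Fb (M * q)) = OM M B hB := by
  ext x
  rw [ValuationSubring.mem_comap, RingHom.coe_coe]
  exact alpha_mem_O1_iff B hB x

theorem comap_beta_O1 :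
    (O1 M B hB).comap (heckeBetaBar Kb M q : Fb M →+* Fb (M * q)) = OM M B hB := by
  ext x
  rw [ValuationSubring.mem_comap, RingHom.coe_coe]
  exact beta_mem_O1_iff B hB x

theorem comap_alpha_O2 :
    (O2 B hB hqM).comap (heckeAlphaBar Kb M q : Fb M →+* Fb (M * q)) = OM M B hB := by
  ext x
  rw [ValuationSubring.mem_comap, RingHom.coe_coe]
  exact alpha_mem_O2_iff B hB hqM x

theorem comap_beta_O2 :
    (O2 B hB hqM).comap (heckeBetaBar Kb M q : Fb M →+* Fb (M * q)) = OM M B hB := by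
  ext x
  rw [ValuationSubring.mem_comap, RingHom.coe_coe]
  exact beta_mem_O2_iff B hB hqM x

/-! ### The generators `j_d`, `j_{dq}` -/

omit hq in
/-- `j(q^d)` is Gauss integral at every level, with residue `j̃(q^d)`. -/
theorem jBarD_mem_gaussValQbar (N : ℕ) [NeZero N] {ℓ : ℕ} (hℓ : ℓ ≠ 0)
    (hB' : B.LiesOverPrime ℓ) (d : ℕ) [NeZero d] (hd : d ∣ N) :
    jBarD N d hd ∈ gaussValQbar B N hℓ hB' := by
  have := algebraIsAlgebraic_rat_algebraicClosure
  obtain ⟨hmem, h, -⟩ := gaussResBar_jqN B (IsLocalRing.residue B) N hℓ hB' hd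
  show ((jBarD N d hd : Fb N) : LaurentSeries Kb) ∈ gaussRingA B (IsLocalRing.residue B)
  rw [coe_jBarD, coeffEmb_jqN]
  exact h

omit hq in
theorem gaussResQbar_jBarD (N : ℕ) [NeZero N] {ℓ : ℕ} (hℓ : ℓ ≠ 0)
    (hB' : B.LiesOverPrime ℓ) (d : ℕ) [NeZero d] (hd : d ∣ N) :
    gaussResQbar B N hℓ hB' ⟨jBarD N d hd, jBarD_mem_gaussValQbar B N hℓ hB' d hd⟩ =
      jqNModC kB d := by
  have := algebraIsAlgebraic_rat_algebraicClosure
  obtain ⟨hmem, h, hres⟩ := gaussResBar_jqN B (IsLocalRing.residue B) N hℓ hB' hd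
  rw [← hres]
  show gaussResA B (IsLocalRing.residue B) ⟨_, _⟩ = gaussResA B (IsLocalRing.residue B) ⟨_, _⟩
  refine gaussResA_congr B _ _ ?_
  show ((jBarD N d hd : Fb N) : LaurentSeries Kb) = jqNModC Kb d
  rw [coe_jBarD, coeffEmb_jqN]

include hB in
/-- the residue field has characteristic `q` -/
theorem charP_kB : CharP kB q := charP_residueField_of_liesOverPrime B hB

variable (d : ℕ) [NeZero d] (hd : d ∣ M)

/-- `j_d ∈ O₁`, `res₁ j_d = j̃_d`. -/
theorem jBarD_mem_O1 : jBarD (M * q) d (Dvd.dvd.mul_right hd q) ∈ O1 M B hB :=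
  jBarD_mem_gaussValQbar B (M * q) hq.out.ne_zero hB d _

theorem res1_jBarD :
    res1 M B hB ⟨jBarD (M * q) d (Dvd.dvd.mul_right hd q), jBarD_mem_O1 B hB d hd⟩ =
      jqNModC kB d :=
  gaussResQbar_jBarD B (M * q) hq.out.ne_zero hB d _

/-- `j_{dq} ∈ O₁`, `res₁ j_{dq} = j̃_d ^ q`. -/
theorem jBarD_mul_mem_O1 :
    jBarD (M * q) (d * q) (Nat.mul_dvd_mul_right hd q) ∈ O1 M B hB :=
  jBarD_mem_gaussValQbar B (M * q) hq.out.ne_zero hB (d * q) _

theorem res1_jBarD_mul :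
    res1 M B hB ⟨jBarD (M * q) (d * q) (Nat.mul_dvd_mul_right hd q),
      jBarD_mul_mem_O1 B hB d hd⟩ = (jqNModC kB d) ^ q := by
  have := charP_kB B hB
  rw [← jqNModC_mul_char kB q d]
  exact gaussResQbar_jBarD B (M * q) hq.out.ne_zero hB (d * q) _

/-- `W_q j_d = j_{dq}`. -/
theorem Wq_jBarD :
    Wq hqM (jBarD (M * q) d (Dvd.dvd.mul_right hd q)) =
      jBarD (M * q) (d * q) (Nat.mul_dvd_mul_right hd q) := by
  rw [← Fermat.Agent.Hecke.AL.heckeAlphaBar_jBarD M q d hd, Wq_alpha,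
    Fermat.Agent.Hecke.AL.heckeBetaBar_jBarD M q d hd]

/-- `W_q j_{dq} = j_d`. -/
theorem Wq_jBarD_mul :
    Wq hqM (jBarD (M * q) (d * q) (Nat.mul_dvd_mul_right hd q)) =
      jBarD (M * q) d (Dvd.dvd.mul_right hd q) := by
  rw [← Wq_jBarD hqM d hd, Wq_Wq]

/-- `j_d ∈ O₂`, `res₂ j_d = j̃_d ^ q`. -/
theorem jBarD_mem_O2 : jBarD (M * q) d (Dvd.dvd.mul_right hd q) ∈ O2 B hB hqM := by
  rw [mem_O2_iff, Wq_jBarD hqM d hd]
  exact jBarD_mul_mem_O1 B hB d hd

theorem res2_jBarD :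
    res2 B hB hqM ⟨jBarD (M * q) d (Dvd.dvd.mul_right hd q), jBarD_mem_O2 B hB hqM d hd⟩ =
      (jqNModC kB d) ^ q := by
  rw [res2_apply, ← res1_jBarD_mul B hB d hd, res1_apply, res1_apply]
  refine gaussResA_congr B _ _ ?_
  show ((Wq hqM (jBarD (M * q) d (Dvd.dvd.mul_right hd q)) : Fb (M * q)) : LaurentSeries Kb) = _
  rw [Wq_jBarD hqM d hd]

/-- `j_{dq} ∈ O₂`, `res₂ j_{dq} = j̃_d`. -/
theorem jBarD_mul_mem_O2 :
    jBarD (M * q) (d * q) (Nat.mul_dvd_mul_right hd q) ∈ O2 B hB hqM := by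
  rw [mem_O2_iff, Wq_jBarD_mul hqM d hd]
  exact jBarD_mem_O1 B hB d hd

theorem res2_jBarD_mul :
    res2 B hB hqM ⟨jBarD (M * q) (d * q) (Nat.mul_dvd_mul_right hd q),
      jBarD_mul_mem_O2 B hB hqM d hd⟩ = jqNModC kB d := by
  rw [res2_apply, ← res1_jBarD B hB d hd, res1_apply, res1_apply]
  refine gaussResA_congr B _ _ ?_
  show ((Wq hqM (jBarD (M * q) (d * q) (Nat.mul_dvd_mul_right hd q)) : Fb (M * q)) :
    LaurentSeries Kb) = _
  rw [Wq_jBarD_mul hqM d hd]

/-- both generators lie in `R12 = O₁ ∩ O₂`. -/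
theorem jBarD_mem_R12 : jBarD (M * q) d (Dvd.dvd.mul_right hd q) ∈ R12 B hB hqM :=
  ⟨jBarD_mem_O1 B hB d hd, jBarD_mem_O2 B hB hqM d hd⟩

theorem jBarD_mul_mem_R12 :
    jBarD (M * q) (d * q) (Nat.mul_dvd_mul_right hd q) ∈ R12 B hB hqM :=
  ⟨jBarD_mul_mem_O1 B hB d hd, jBarD_mul_mem_O2 B hB hqM d hd⟩

end Level

end Fermat.Agent.BR.ResGen
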