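/-
Program B (bad reduction), block B2 (helper20): the standard node `u w = ϖ` over a valued field,
in the vocabulary of `BR/NodeNewton.lean` (multiplicative `v : Valuation K Γ₀`, `|x| := v x`).
* `annulus_of_mul_eq`: `ϖ ≠ 0`, `|u|, |w| < 1`, `u w = ϖ` ⟹ `|u| |w| = |ϖ|`, `|ϖ| < |u|, |w|`;
* `existsUnique_of_coord`: for `|ϖ| < |c| < 1` the unique zero in the open unit bidisc with first
  coordinate `c` is `(c, ϖ / c)`; `mem_iff`: description of the zero set;
* `eq_zero_or_eq_zero`: `ϖ = 0` ⟹ two crossing discs;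
* `map_mul_eq`, `snd_map_of_coord`: equivariance.
Mathlib only.
-/
import Mathlib

set_option autoImplicit false

namespace Fermat.Agent.BR.StdNode

variable {K : Type*} [Field K] {Γ₀ : Type*} [LinearOrderedCommGroupWithZero Γ₀]
  {v : Valuation K Γ₀}

/-- **The annulus** of the standard node `u w = ϖ`, `ϖ ≠ 0`. -/
theorem annulus_of_mul_eq {pi : K} (hpi : pi ≠ 0) {u w : K} (hu : v u < 1) (hw : v w < 1)
    (h : u * w = pi) : v u * v w = v pi ∧ v pi < v u ∧ v pi < v w := by
  have hv : v u * v w = v pi := by rw [← map_mul, h]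
  have hpi0 : v pi ≠ 0 := (Valuation.ne_zero_iff v).2 hpi
  have hu0 : v u ≠ 0 := fun h0 => hpi0 (by rw [← hv, h0, zero_mul])
  have hw0 : v w ≠ 0 := fun h0 => hpi0 (by rw [← hv, h0, mul_zero])
  refine ⟨hv, ?_, ?_⟩
  · calc v pi = v u * v w := hv.symm
      _ < v u * 1 := mul_lt_mul_of_pos_left hw (zero_lt_iff.2 hu0)
      _ = v u := mul_one _
  · calc v pi = v u * v w := hv.symm
      _ < 1 * v w := mul_lt_mul_of_pos_right hu (zero_lt_iff.2 hw0)
      _ = v w := one_mul _

/-- the zero set of `u w = ϖ` in the open unit bidisc, `ϖ ≠ 0`: the graph of `c ↦ ϖ / c` over the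
annulus `|ϖ| < |c| < 1` -/
theorem mem_iff {pi : K} (hpi : pi ≠ 0) {u w : K} :
    (v u < 1 ∧ v w < 1 ∧ u * w = pi) ↔ (v pi < v u ∧ v u < 1 ∧ w = pi / u) := by
  constructor
  · rintro ⟨hu, hw, h⟩
    obtain ⟨-, h2, -⟩ := annulus_of_mul_eq hpi hu hw h
    have hu0 : u ≠ 0 := by
      rintro rfl
      rw [zero_mul] at h
      exact hpi h.symm
    exact ⟨h2, hu, by rw [← h]; field_simp⟩
  · rintro ⟨h1, h2, rfl⟩
    have hu0 : u ≠ 0 := by
      rintro rfl
      rw [map_zero] at h1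
      exact not_lt_zero h1
    have hvu : 0 < v u := zero_lt_iff.2 ((Valuation.ne_zero_iff v).2 hu0)
    refine ⟨h2, ?_, by field_simp⟩
    rw [map_div₀, div_lt_one₀ hvu]
    exact h1

/-- **The annulus bijection** for the standard node: for `|ϖ| < |c| < 1` there is exactly one zero
in the open unit bidisc with first coordinate `c`. -/
theorem existsUnique_of_coord {pi : K} (hpi : pi ≠ 0) {c : K} (hc1 : v c < 1)
    (hc2 : v pi < v c) : ∃! z : K × K, v z.1 < 1 ∧ v z.2 < 1 ∧ z.1 * z.2 = pi ∧ z.1 = c := by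
  have hm := (mem_iff (v := v) hpi (u := c) (w := pi / c)).2 ⟨hc2, hc1, rfl⟩
  refine ⟨(c, pi / c), ⟨hm.1, hm.2.1, hm.2.2, rfl⟩, ?_⟩
  rintro ⟨u, w⟩ ⟨hu, hw, h, rfl⟩
  have := (mem_iff (v := v) hpi).1 ⟨hu, hw, h⟩
  exact Prod.ext rfl this.2.2

/-- `ϖ = 0`: two crossing discs -/
theorem eq_zero_or_eq_zero {u w : K} (h : u * w = 0) : u = 0 ∨ w = 0 := mul_eq_zero.mp h

/-- ring endomorphisms fixing `ϖ` permute the zeros -/
theorem map_mul_eq (σ : K →+* K) {pi : K} (hpi : σ pi = pi) {u w : K} (h : u * w = pi) :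
    σ u * σ w = pi := by rw [← map_mul, h, hpi]

/-- equivariance: the second coordinate of the zero over `σ c` is `σ` of the second coordinate of
the zero over `c` -/
theorem snd_map_of_coord (σ : K →+* K) {pi : K} (hpi : σ pi = pi) (c : K) :
    pi / σ c = σ (pi / c) := by rw [map_div₀, hpi]

/-- a ring endomorphism fixing `ϖ` and the first coordinate of a zero fixes the zero -/
theorem map_eq_self_of_coord (σ : K →+* K) {pi : K} (hpi0 : pi ≠ 0) (hpi : σ pi = pi) {u w : K}
    (h : u * w = pi) (hfix : σ u = u) : σ w = w := by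
  have hu0 : u ≠ 0 := by
    rintro rfl
    rw [zero_mul] at h
    exact hpi0 h.symm
  have h1 := map_mul_eq σ hpi h
  rw [hfix, ← h] at h1
  exact mul_left_cancel₀ hu0 h1

end Fermat.Agent.BR.StdNode
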