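import Fermat.Agent.Pseudo.TraceLimit

/-!
# Program B (bad reduction), block B5: the universal trace of a unipotent element

Abstract Program-T layer.  In `Pseudo/TraceAbstract.lean` the universal trace of `g` modulo `M` is
the Hecke operator acting as `g + d(g) g⁻¹` on the `G`-span of `rho Lam`.  If `s` satisfies
`(s - 1)² = 0` on that span and `d(s) ≡ 1`, then `s + s⁻¹ = 2`, hence the universal trace of `s` is
`2` modulo `M`.  We propagate this through `TraceSystem` (all levels `p^m`) and `TraceLimitInput`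
(the limit trace): `t_unip : D.t s = 2`.

The unipotency hypothesis is used in the form `s • (s • x - x) = s • x - x`.
-/

set_option autoImplicit false

namespace Fermat.Agent.BR.TraceUnip

open Fermat.Agent.Pseudo

variable {G Lam X I : Type*} [Group G] [AddCommGroup Lam] [AddCommGroup X] [DistribMulAction G X]

/-! ### Level `M` -/

section Data

variable (D : TraceData G Lam X I)

/-- If `(s - 1)² = 0` on the span and `d(s) ≡ 1`, the universal trace of `s` acts as `2`. -/
theorem T_tau_unip {s : G} (hs : ∀ y ∈ D.span, s • (s • y - y) = s • y - y)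
    (hds : (D.M : ℤ) ∣ D.d s - 1) {x : X} (hx : x ∈ D.span) :
    D.T (D.tau s) x = (2 : ℤ) • x := by
  have h1 := hs (s⁻¹ • x) (D.smul_mem s⁻¹ hx)
  rw [smul_inv_smul, smul_sub, smul_inv_smul] at h1
  -- `h1 : s • x - x = x - s⁻¹ • x`
  rw [D.T_tau_apply s hx, D.zsmul_congr hds (D.smul_mem s⁻¹ hx), one_smul, two_smul]
  exact sub_eq_sub_iff_add_eq_add.mp h1

/-- The universal trace of a unipotent element is `2` modulo `M`. -/
theorem tau_unip {s : G} (hs : ∀ y ∈ D.span, s • (s • y - y) = s • y - y)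
    (hds : (D.M : ℤ) ∣ D.d s - 1) : ModEq D.M (D.TL (D.tau s)) 2 := by
  refine D.modEq_of_eq_on_span (D.intertwined_TL _) (B' := 2) ?_ ?_
  · have := Intertwined.intCast (rho := D.rho) 2
    simpa using this
  · intro x hx
    rw [T_tau_unip D hs hds hx]
    rw [show (2 : Module.End ℤ X) = ((2 : ℤ) : Module.End ℤ X) by norm_num, ← zsmul_one,
      LinearMap.smul_apply, Module.End.one_apply]

/-- The same for an arbitrary Frobenius index of `s`. -/
theorem frob_unip {s : G} {i : I} (hi : D.IsFrobIndex s i)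
    (hs : ∀ y ∈ D.span, s • (s • y - y) = s • y - y)
    (hds : (D.M : ℤ) ∣ D.d s - 1) : ModEq D.M (D.TL i) 2 :=
  (D.tau_wellDefined hi).trans (tau_unip D hs hds)

end Data

/-! ### All levels `p^m` -/

section System

variable (Y : TraceSystem G Lam X I)

/-- The universal trace modulo `p^m` of an element acting unipotently on the `p`-power torsion
(inertia at a prime of semistable reduction) is `2`. -/
theorem idx_unip (m : ℕ) {s : G}
    (hs : ∀ x : X, (∃ n : ℕ, Y.p ^ n • x = 0) → s • (s • x - x) = s • x - x)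
    (hds : ((Y.p ^ m : ℕ) : ℤ) ∣ Y.d m s - 1) :
    ModEq (Y.p ^ m) (Y.TL (Y.idx m s)) 2 :=
  frob_unip (Y.data m) (Y.isFrobIndex_idx le_rfl s)
    (fun y hy => hs y ⟨m, Y.pow_smul_span m hy⟩) hds

end System

/-! ### The limit -/

section Limit

variable {Y : TraceSystem G Lam X I} {R : Type*} [CommRing R] {J : Ideal R}
  (D : TraceLimitInput Y R J)

theorem approx_unip (m : ℕ) {s : G}
    (hs : ∀ x : X, (∃ n : ℕ, Y.p ^ n • x = 0) → s • (s • x - x) = s • x - x)
    (hds : ((Y.p ^ m : ℕ) : ℤ) ∣ Y.d m s - 1) :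
    D.approx m s - 2 ∈ J ^ (m - D.c) := by
  have h := D.sat_sub (P := D.tl (Y.idx m s)) (Q := 2) (idx_unip Y m hs hds)
  rwa [map_ofNat] at h

/-- **The limit trace of a unipotent element is `2`.** -/
theorem t_unip [IsAdicComplete J R] {s : G}
    (hs : ∀ x : X, (∃ n : ℕ, Y.p ^ n • x = 0) → s • (s • x - x) = s • x - x)
    (hds : ∀ m : ℕ, ((Y.p ^ m : ℕ) : ℤ) ∣ Y.d m s - 1) : D.t s = 2 := by
  refine eq_of_forall_sub_mem_pow_sub J D.c fun m => ?_
  rw [← Ideal.Quotient.eq, D.mk_t, Ideal.Quotient.eq]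
  exact approx_unip D m hs (hds m)

end Limit

end Fermat.Agent.BR.TraceUnip
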