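import Fermat.Agent.Pseudo.TraceLimit

/-!
# Program B (bad reduction), block B5: the universal trace of an element unipotent up to a factor

Weak form of `BR/TraceUnip.lean`: if `e • (s - 1)² = 0` on the `p`-power torsion (for a fixed
natural number `e`), then `e * (t s - 2) = 0` for the limit trace `t`.  In a ring where `e` is not
a zero divisor (characteristic zero), `t s = 2`.

This allows the geometric blocks to prove unipotency of inertia on `J₀(N)[p^∞]` through an
auxiliary level `N ℓ` (`α_* α^* = ℓ + 1`) without any divisibility of torsion.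
-/

set_option autoImplicit false

namespace Fermat.Agent.BR.TraceUnipWeak

open Fermat.Agent.Pseudo

variable {G Lam X I : Type*} [Group G] [AddCommGroup Lam] [AddCommGroup X] [DistribMulAction G X]

/-! ### Level `M` -/

section Data

variable (D : TraceData G Lam X I)

/-- If `e (s - 1)² = 0` on the span and `d(s) ≡ 1`, then `e` times the universal trace of `s` acts
as `2 e`. -/
theorem T_tau_unip_weak (e : ℕ) {s : G}
    (hs : ∀ y ∈ D.span, e • (s • (s • y - y) - (s • y - y)) = 0)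
    (hds : (D.M : ℤ) ∣ D.d s - 1) {x : X} (hx : x ∈ D.span) :
    e • D.T (D.tau s) x = e • ((2 : ℤ) • x) := by
  have h1 := hs (s⁻¹ • x) (D.smul_mem s⁻¹ hx)
  simp only [smul_inv_smul] at h1
  -- `h1 : e • (s • (x - s⁻¹ • x) - (x - s⁻¹ • x)) = 0`
  rw [D.T_tau_apply s hx, D.zsmul_congr hds (D.smul_mem s⁻¹ hx), one_smul, two_smul,
    ← sub_eq_zero, ← smul_sub]
  rw [← h1]
  congr 1
  rw [smul_sub, smul_inv_smul]
  abel

/-- `e` times the universal trace of `s` is `2 e` modulo `M`. -/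
theorem tau_unip_weak (e : ℕ) {s : G}
    (hs : ∀ y ∈ D.span, e • (s • (s • y - y) - (s • y - y)) = 0)
    (hds : (D.M : ℤ) ∣ D.d s - 1) :
    ModEq D.M (e • D.TL (D.tau s)) (e • (2 : Module.End ℤ Lam)) := by
  refine D.modEq_of_eq_on_span ((D.intertwined_TL _).nsmul e)
    (B' := e • (2 : Module.End ℤ X)) ?_ ?_
  · have h2 : Intertwined D.rho (2 : Module.End ℤ Lam) (2 : Module.End ℤ X) := by
      have := Intertwined.intCast (rho := D.rho) 2
      simpa using this
    exact h2.nsmul e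
  · intro x hx
    rw [LinearMap.smul_apply, LinearMap.smul_apply, T_tau_unip_weak D e hs hds hx]
    rw [show (2 : Module.End ℤ X) = ((2 : ℤ) : Module.End ℤ X) by norm_num, ← zsmul_one,
      LinearMap.smul_apply, Module.End.one_apply]

/-- The same for an arbitrary Frobenius index of `s`. -/
theorem frob_unip_weak (e : ℕ) {s : G} {i : I} (hi : D.IsFrobIndex s i)
    (hs : ∀ y ∈ D.span, e • (s • (s • y - y) - (s • y - y)) = 0)
    (hds : (D.M : ℤ) ∣ D.d s - 1) :
    ModEq D.M (e • D.TL i) (e • (2 : Module.End ℤ Lam)) := by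
  have h := (D.tau_wellDefined hi).zsmul (e : ℤ)
  rw [natCast_zsmul, natCast_zsmul] at h
  exact h.trans (tau_unip_weak D e hs hds)

end Data

/-! ### All levels `p^m` -/

section System

variable (Y : TraceSystem G Lam X I)

theorem idx_unip_weak (e : ℕ) (m : ℕ) {s : G}
    (hs : ∀ x : X, (∃ n : ℕ, Y.p ^ n • x = 0) → e • (s • (s • x - x) - (s • x - x)) = 0)
    (hds : ((Y.p ^ m : ℕ) : ℤ) ∣ Y.d m s - 1) :
    ModEq (Y.p ^ m) (e • Y.TL (Y.idx m s)) (e • (2 : Module.End ℤ Lam)) :=
  frob_unip_weak (Y.data m) e (Y.isFrobIndex_idx le_rfl s)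
    (fun y hy => hs y ⟨m, Y.pow_smul_span m hy⟩) hds

end System

/-! ### The limit -/

section Limit

variable {Y : TraceSystem G Lam X I} {R : Type*} [CommRing R] {J : Ideal R}
  (D : TraceLimitInput Y R J)

theorem approx_unip_weak (e : ℕ) (m : ℕ) {s : G}
    (hs : ∀ x : X, (∃ n : ℕ, Y.p ^ n • x = 0) → e • (s • (s • x - x) - (s • x - x)) = 0)
    (hds : ((Y.p ^ m : ℕ) : ℤ) ∣ Y.d m s - 1) :
    (e : R) * (D.approx m s - 2) ∈ J ^ (m - D.c) := by
  have hP : ((e • D.tl (Y.idx m s) : D.A) : Module.End ℤ Lam) = e • Y.TL (Y.idx m s) := rfl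
  have hQ : ((e • (2 : D.A) : D.A) : Module.End ℤ Lam) = e • (2 : Module.End ℤ Lam) := rfl
  have h := D.sat_sub (P := e • D.tl (Y.idx m s)) (Q := e • (2 : D.A)) (by
    rw [hP, hQ]
    exact idx_unip_weak Y e m hs hds)
  rw [map_nsmul, map_nsmul, map_ofNat, ← smul_sub, nsmul_eq_mul] at h
  exact h

/-- **`e` times (the limit trace of `s` minus `2`) vanishes.** -/
theorem t_unip_weak [IsAdicComplete J R] (e : ℕ) {s : G}
    (hs : ∀ x : X, (∃ n : ℕ, Y.p ^ n • x = 0) → e • (s • (s • x - x) - (s • x - x)) = 0)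
    (hds : ∀ m : ℕ, ((Y.p ^ m : ℕ) : ℤ) ∣ Y.d m s - 1) : (e : R) * (D.t s - 2) = 0 := by
  refine eq_zero_of_forall_mem_pow_sub J D.c fun m => ?_
  have h1 : D.t s - D.approx m s ∈ J ^ (m - D.c) := by
    rw [← Ideal.Quotient.eq, D.mk_t]
  have h2 := approx_unip_weak D e m hs (hds m)
  have h3 : (e : R) * (D.t s - 2) = (e : R) * (D.t s - D.approx m s) + (e : R) * (D.approx m s - 2) := by
    ring
  rw [h3]
  exact Ideal.add_mem _ (Ideal.mul_mem_left _ _ h1) h2

end Limit

end Fermat.Agent.BR.TraceUnipWeak
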