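import Mathlib
import Fermat.Agent.Val.ValUnique

/-!
# Program B, block B1, node B1.TV (generic, Mathlib only): the two-valuation package

`E/F` a finite field extension, `O₀` a valuation subring of `F`, `O₁, O₂` two rank one valuation
subrings of `E` lying over `O₀`, separated by an element `e` (`e ≡ 0 mod 𝔪₁`, `e ≡ 1 mod 𝔪₂`).
Residue degrees are handled in element form (`ResIndep`), without residue field types.

* `Setup.linearIndependent`, `Setup.card_add_card_le` : the fundamental inequality `f₁ + f₂ ≤ n`;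
* `Full` : the situation `f₁ + f₂ = n`;
* `Full.exists_basis` : `O₁ ∩ O₂` is free over `O₀` on an `F`-basis of `E`;
* `Full.isIntegralElem_iff` : `O₁ ∩ O₂` is the integral closure of `O₀` in `E`;
* `Full.eq_or_eq_of_comap_eq` : EXHAUSTION, `O₁, O₂` are the only valuation subrings over `O₀`;
* `Full.card_le₁`, `Full.card_le₂` : the residue degrees are exactly `f₁`, `f₂`;
* `Setup.exists_approx` : strong approximation for `O₁, O₂`;
* `Full.comap_eq_or` : automorphisms of `E` over an automorphism of `(F, O₀)` permute `{O₁, O₂}`.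

Intended use: `F = F_M`, `E = F_{qM}`, `O₀` the Gauss valuation ring at `q`, `O₁ = w₁`,
`O₂ = w₂ = w₁ ∘ W_q`, `f₁ = 1`, `f₂ = q`, `n = q + 1`.
-/

set_option autoImplicit false

namespace Fermat.Agent.BR.TwoVal

open Polynomial Fermat.Agent.Val

variable {F E : Type*} [Field F] [Field E] [Algebra F E]

/-- Rank one (archimedean) property of a valuation subring, in element form. -/
def Arch (O : ValuationSubring E) : Prop :=
  ∀ x : E, ∀ u ∈ O.nonunits, u ≠ 0 → ∃ n : ℕ, x * u ^ n ∈ O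

/-- The `x i` lie in `O` and their residues are linearly independent over the residue field of
`O₀` (element form, no residue field types). -/
def ResIndep (O₀ : ValuationSubring F) (O : ValuationSubring E) {ι : Type*} [Fintype ι]
    (x : ι → E) : Prop :=
  (∀ i, x i ∈ O) ∧ ∀ c : ι → F, (∀ i, c i ∈ O₀) → ∑ i, c i • x i ∈ O.nonunits →
    ∀ i, c i ∈ O₀.nonunits

/-- Two archimedean valuation subrings `O₁, O₂` of `E` over `O₀`, separated by `e`
(`e ≡ 0 mod 𝔪₁`, `e ≡ 1 mod 𝔪₂`). -/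
structure Setup (O₀ : ValuationSubring F) (O₁ O₂ : ValuationSubring E) : Prop where
  lies₁ : O₁.comap (algebraMap F E) = O₀
  lies₂ : O₂.comap (algebraMap F E) = O₀
  arch₁ : Arch O₁
  arch₂ : Arch O₂
  sep : ∃ e : E, e ∈ O₁.nonunits ∧ 1 - e ∈ O₂.nonunits

/-! ### Elementary lemmas on a single valuation subring -/

section Single

variable (O : ValuationSubring E)

theorem one_notMem_nonunits : (1 : E) ∉ O.nonunits := by
  rw [O.mem_nonunits_iff, map_one]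
  exact lt_irrefl _

theorem add_mem_nonunits {a b : E} (ha : a ∈ O.nonunits) (hb : b ∈ O.nonunits) :
    a + b ∈ O.nonunits := O.nonunits.add_mem ha hb

theorem neg_mem_nonunits {a : E} (ha : a ∈ O.nonunits) : -a ∈ O.nonunits :=
  O.nonunits.neg_mem ha

theorem mul_mem_nonunits_right {a b : E} (ha : a ∈ O.nonunits) (hb : b ∈ O) :
    a * b ∈ O.nonunits := by
  rw [mul_comm]
  exact mul_mem_nonunits_of_mem O hb ha

theorem sum_mem_nonunits {ι : Type*} (s : Finset ι) (f : ι → E)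
    (h : ∀ i ∈ s, f i ∈ O.nonunits) : ∑ i ∈ s, f i ∈ O.nonunits :=
  O.nonunits.sum_mem h

theorem mem_of_sub_one_mem_nonunits {u : E} (hu : u - 1 ∈ O.nonunits) : u ∈ O := by
  have h : u = (u - 1) + 1 := by ring
  rw [h]
  exact O.add_mem _ _ (mem_of_mem_nonunits O hu) O.one_mem

theorem notMem_nonunits_of_sub_one_mem {u : E} (hu : u - 1 ∈ O.nonunits) : u ∉ O.nonunits := by
  intro h
  apply one_notMem_nonunits O
  have h1 : (1 : E) = u - (u - 1) := by ring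
  rw [h1]
  exact sub_mem_nonunits O h hu

/-- `u ≡ 1` implies `u ^ n ≡ 1`. -/
theorem pow_sub_one_mem_nonunits {u : E} (hu : u - 1 ∈ O.nonunits) (n : ℕ) :
    u ^ n - 1 ∈ O.nonunits := by
  have hu1 : u ∈ O := mem_of_sub_one_mem_nonunits O hu
  induction n with
  | zero =>
    rw [pow_zero, sub_self]
    exact zero_mem_nonunits O
  | succ n ih =>
    have h : u ^ (n + 1) - 1 = u * (u ^ n - 1) + (u - 1) := by ring
    rw [h]
    exact add_mem_nonunits O (mul_mem_nonunits_of_mem O hu1 ih) hu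

/-- a unit of `O`: element of `O` which is not a nonunit has inverse in `O` -/
theorem inv_mem_of_notMem_nonunits {z : E} (hz' : z ∉ O.nonunits) : z⁻¹ ∈ O := by
  by_cases h0 : z = 0
  · rw [h0, inv_zero]
    exact O.zero_mem
  · by_contra h
    exact hz' ((mem_nonunits_iff_inv_notMem O h0).2 h)

theorem Arch.exists_forall_ge {O : ValuationSubring E} (hO : Arch O) (x : E) {u : E}
    (hu : u ∈ O.nonunits) (hu0 : u ≠ 0) :
    ∃ n : ℕ, ∀ m, n ≤ m → x * u ^ m ∈ O.nonunits := by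
  obtain ⟨n, hn⟩ := hO x u hu hu0
  refine ⟨n + 1, fun m hm => ?_⟩
  obtain ⟨k, rfl⟩ := Nat.exists_eq_add_of_le hm
  have h : x * u ^ (n + 1 + k) = (x * u ^ n * u ^ k) * u := by ring
  rw [h]
  exact mul_mem_nonunits_of_mem O
    (O.mul_mem _ _ hn (pow_mem (mem_of_mem_nonunits O hu) k)) hu

theorem Arch.exists_forall_family {O : ValuationSubring E} (hO : Arch O) {ι : Type*} [Fintype ι]
    (x : ι → E) {u : E} (hu : u ∈ O.nonunits) (hu0 : u ≠ 0) :
    ∃ n : ℕ, ∀ i, x i * u ^ n ∈ O.nonunits := by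
  choose n hn using fun i => hO.exists_forall_ge (x i) hu hu0
  exact ⟨Finset.univ.sup n, fun i => hn i _ (Finset.le_sup (Finset.mem_univ i))⟩

/-- A rank one valuation subring is a maximal proper subring. -/
theorem Arch.eq_of_le {O O' : ValuationSubring E} (hO : Arch O) (hle : O ≤ O')
    (hO' : ∃ y : E, y ∉ O') : O' = O := by
  refine le_antisymm (fun g hg => ?_) hle
  by_contra hgO
  have hg0 : g ≠ 0 := fun h => hgO (h ▸ O.zero_mem)
  have hinv : g⁻¹ ∈ O.nonunits := by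
    rw [mem_nonunits_iff_inv_notMem O (inv_ne_zero hg0), inv_inv]
    exact hgO
  obtain ⟨y, hy⟩ := hO'
  obtain ⟨n, hn⟩ := hO y g⁻¹ hinv (inv_ne_zero hg0)
  apply hy
  have h : y = (y * g⁻¹ ^ n) * g ^ n := by
    rw [inv_pow, mul_assoc, inv_mul_cancel₀ (pow_ne_zero n hg0), mul_one]
  rw [h]
  exact O'.mul_mem _ _ (hle hn) (pow_mem hg n)

end Single

/-- pivot: a coefficient of maximal valuation -/
theorem exists_pivot {τ : Type*} [Fintype τ] (O₀ : ValuationSubring F) (c : τ → F)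
    (hc : ∃ t, c t ≠ 0) : ∃ t₀, c t₀ ≠ 0 ∧ ∀ t, c t / c t₀ ∈ O₀ := by
  obtain ⟨t₁, ht₁⟩ := hc
  obtain ⟨t₀, -, ht₀⟩ := Finset.exists_max_image Finset.univ (fun t => O₀.valuation (c t))
    ⟨t₁, Finset.mem_univ t₁⟩
  have h0 : c t₀ ≠ 0 := by
    intro h
    have h1 := ht₀ t₁ (Finset.mem_univ t₁)
    rw [h, map_zero, le_zero_iff, map_eq_zero] at h1
    exact ht₁ h1
  refine ⟨t₀, h0, fun t => ?_⟩
  rw [← O₀.valuation_le_one_iff, map_div₀]
  have hpos : 0 < O₀.valuation (c t₀) := by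
    rw [pos_iff_ne_zero, ne_eq, map_eq_zero]
    exact h0
  rw [div_le_one₀ hpos]
  exact ht₀ t (Finset.mem_univ t)

variable {O₀ : ValuationSubring F} {O₁ O₂ : ValuationSubring E}

/-- a separating element from incomparability -/
theorem exists_sep_of_not_le (h₁₂ : ¬ O₁ ≤ O₂) (h₂₁ : ¬ O₂ ≤ O₁) :
    ∃ e : E, e ∈ O₁.nonunits ∧ 1 - e ∈ O₂.nonunits := by
  obtain ⟨a, ha₁, ha₂⟩ := SetLike.not_le_iff_exists.1 h₁₂
  obtain ⟨b, hb₂, hb₁⟩ := SetLike.not_le_iff_exists.1 h₂₁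
  have ha0 : a ≠ 0 := fun h => ha₂ (h ▸ O₂.zero_mem)
  have hb0 : b ≠ 0 := fun h => hb₁ (h ▸ O₁.zero_mem)
  -- `c = a / b` is in `𝔪₁` and its inverse is in `𝔪₂`
  have hb₁' : b⁻¹ ∈ O₁.nonunits := by
    rw [mem_nonunits_iff_inv_notMem O₁ (inv_ne_zero hb0), inv_inv]
    exact hb₁
  have ha₂' : a⁻¹ ∈ O₂.nonunits := by
    rw [mem_nonunits_iff_inv_notMem O₂ (inv_ne_zero ha0), inv_inv]
    exact ha₂
  have hc₁ : a * b⁻¹ ∈ O₁.nonunits := mul_mem_nonunits_of_mem O₁ ha₁ hb₁'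
  have hc₂ : b * a⁻¹ ∈ O₂.nonunits := mul_mem_nonunits_of_mem O₂ hb₂ ha₂'
  have hab : a + b ≠ 0 := by
    intro h
    have hb : b = -a := by linear_combination h
    exact hb₁ (hb ▸ O₁.neg_mem _ ha₁)
  -- `e = a / (a + b)`
  refine ⟨a * (a + b)⁻¹, ?_, ?_⟩
  · -- `e = (a/b) / (1 + a/b)`
    have h1 : (1 + a * b⁻¹) - 1 ∈ O₁.nonunits := by
      rw [add_sub_cancel_left]
      exact hc₁
    have hunit := inv_mem_of_notMem_nonunits O₁ (notMem_nonunits_of_sub_one_mem O₁ h1)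
    have h : a * (a + b)⁻¹ = (a * b⁻¹) * (1 + a * b⁻¹)⁻¹ := by
      have h2 : 1 + a * b⁻¹ = (a + b) * b⁻¹ := by
        field_simp
        ring
      rw [h2, mul_inv, inv_inv]
      field_simp
    rw [h]
    exact mul_mem_nonunits_right O₁ hc₁ hunit
  · have h1 : (1 + b * a⁻¹) - 1 ∈ O₂.nonunits := by
      rw [add_sub_cancel_left]
      exact hc₂
    have hunit := inv_mem_of_notMem_nonunits O₂ (notMem_nonunits_of_sub_one_mem O₂ h1)
    have h : 1 - a * (a + b)⁻¹ = (b * a⁻¹) * (1 + b * a⁻¹)⁻¹ := by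
      have h2 : 1 + b * a⁻¹ = (a + b) * a⁻¹ := by
        field_simp
      rw [h2, mul_inv, inv_inv]
      field_simp
      ring
    rw [h]
    exact mul_mem_nonunits_right O₂ hc₂ hunit

/-! ### Consequences of a `Setup` -/

namespace Setup

variable (S : Setup O₀ O₁ O₂)
include S

theorem algebraMap_mem₁ {c : F} (hc : c ∈ O₀) : algebraMap F E c ∈ O₁ := by
  rw [← ValuationSubring.mem_comap, S.lies₁]
  exact hc

theorem algebraMap_mem₂ {c : F} (hc : c ∈ O₀) : algebraMap F E c ∈ O₂ := by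
  rw [← ValuationSubring.mem_comap, S.lies₂]
  exact hc

theorem smul_mem₁ {c : F} (hc : c ∈ O₀) {z : E} (hz : z ∈ O₁) : c • z ∈ O₁ := by
  rw [Algebra.smul_def]
  exact O₁.mul_mem _ _ (S.algebraMap_mem₁ hc) hz

theorem smul_mem₂ {c : F} (hc : c ∈ O₀) {z : E} (hz : z ∈ O₂) : c • z ∈ O₂ := by
  rw [Algebra.smul_def]
  exact O₂.mul_mem _ _ (S.algebraMap_mem₂ hc) hz

theorem smul_mem_nonunits₁ {c : F} (hc : c ∈ O₀) {z : E} (hz : z ∈ O₁.nonunits) :
    c • z ∈ O₁.nonunits := by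
  rw [Algebra.smul_def]
  exact mul_mem_nonunits_of_mem O₁ (S.algebraMap_mem₁ hc) hz

theorem smul_mem_nonunits₂ {c : F} (hc : c ∈ O₀) {z : E} (hz : z ∈ O₂.nonunits) :
    c • z ∈ O₂.nonunits := by
  rw [Algebra.smul_def]
  exact mul_mem_nonunits_of_mem O₂ (S.algebraMap_mem₂ hc) hz

theorem nonunit_smul_mem_nonunits₁ {c : F} (hc : c ∈ O₀.nonunits) {z : E} (hz : z ∈ O₁) :
    c • z ∈ O₁.nonunits := by
  rw [Algebra.smul_def]
  exact mul_mem_nonunits_right O₁ ((algebraMap_mem_nonunits_iff S.lies₁ c).2 hc) hz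

theorem nonunit_smul_mem_nonunits₂ {c : F} (hc : c ∈ O₀.nonunits) {z : E} (hz : z ∈ O₂) :
    c • z ∈ O₂.nonunits := by
  rw [Algebra.smul_def]
  exact mul_mem_nonunits_right O₂ ((algebraMap_mem_nonunits_iff S.lies₂ c).2 hc) hz

/-- the symmetric setup -/
theorem symm : Setup O₀ O₂ O₁ where
  lies₁ := S.lies₂
  lies₂ := S.lies₁
  arch₁ := S.arch₂
  arch₂ := S.arch₁
  sep := by
    obtain ⟨e, he₁, he₂⟩ := S.sep
    refine ⟨1 - e, he₂, ?_⟩
    rw [sub_sub_cancel]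
    exact he₁

theorem ne : O₁ ≠ O₂ := by
  obtain ⟨e, he₁, he₂⟩ := S.sep
  intro h
  apply one_notMem_nonunits O₂
  have h1 : (1 : E) = e + (1 - e) := by ring
  rw [h1]
  exact add_mem_nonunits O₂ (h ▸ he₁) he₂

/-- Adapting a residue-independent family of `O₁`: same residues in `O₁`, zero residues
in `O₂`. -/
theorem exists_adapted {ι : Type*} [Fintype ι] {x : ι → E} (hx : ∀ i, x i ∈ O₁) :
    ∃ x' : ι → E, ∀ i, x' i ∈ O₁ ∧ x' i - x i ∈ O₁.nonunits ∧ x' i ∈ O₂.nonunits := by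
  obtain ⟨e, he₁, he₂⟩ := S.sep
  have hu0 : 1 - e ≠ 0 := by
    intro h
    apply one_notMem_nonunits O₁
    have h1 : (1 : E) = e := by linear_combination h
    rw [h1]
    exact he₁
  obtain ⟨n, hn⟩ := S.arch₂.exists_forall_family x he₂ hu0
  have hu1 : (1 - e) - 1 ∈ O₁.nonunits := by
    have h1 : (1 - e) - 1 = -e := by ring
    rw [h1]
    exact neg_mem_nonunits O₁ he₁
  have hpow := pow_sub_one_mem_nonunits O₁ hu1 n
  refine ⟨fun i => x i * (1 - e) ^ n, fun i => ⟨?_, ?_, hn i⟩⟩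
  · exact O₁.mul_mem _ _ (hx i) (pow_mem (mem_of_sub_one_mem_nonunits O₁ hu1) n)
  · have h1 : x i * (1 - e) ^ n - x i = x i * ((1 - e) ^ n - 1) := by ring
    rw [h1]
    exact mul_mem_nonunits_of_mem O₁ (hx i) hpow

/-- Core of all the arguments: a combination with coefficients in `O₀` of an adapted family
which is `≡ 0` for both valuations has all its coefficients in the maximal ideal of `O₀`. -/
theorem coeff_mem_nonunits {ι κ : Type*} [Fintype ι] [Fintype κ]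
    {x : ι → E} {y : κ → E} (hx : ResIndep O₀ O₁ x) (hy : ResIndep O₀ O₂ y)
    {x' : ι → E} {y' : κ → E}
    (hx' : ∀ i, x' i ∈ O₁ ∧ x' i - x i ∈ O₁.nonunits ∧ x' i ∈ O₂.nonunits)
    (hy' : ∀ j, y' j ∈ O₂ ∧ y' j - y j ∈ O₂.nonunits ∧ y' j ∈ O₁.nonunits)
    (d : ι ⊕ κ → F) (hd : ∀ t, d t ∈ O₀)
    (h₁ : ∑ t, d t • Sum.elim x' y' t ∈ O₁.nonunits)
    (h₂ : ∑ t, d t • Sum.elim x' y' t ∈ O₂.nonunits) : ∀ t, d t ∈ O₀.nonunits := by
  rw [Fintype.sum_sum_type] at h₁ h₂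
  simp only [Sum.elim_inl, Sum.elim_inr] at h₁ h₂
  -- the `y'`-part is `≡ 0` in `O₁`, the `x'`-part is `≡ 0` in `O₂`
  have hB₁ : ∑ j, d (Sum.inr j) • y' j ∈ O₁.nonunits :=
    sum_mem_nonunits O₁ _ _ fun j _ => S.smul_mem_nonunits₁ (hd _) (hy' j).2.2
  have hA₂ : ∑ i, d (Sum.inl i) • x' i ∈ O₂.nonunits :=
    sum_mem_nonunits O₂ _ _ fun i _ => S.smul_mem_nonunits₂ (hd _) (hx' i).2.2
  have hA₁ : ∑ i, d (Sum.inl i) • x' i ∈ O₁.nonunits := by
    have h := sub_mem_nonunits O₁ h₁ hB₁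
    rwa [add_sub_cancel_right] at h
  have hB₂ : ∑ j, d (Sum.inr j) • y' j ∈ O₂.nonunits := by
    have h := sub_mem_nonunits O₂ h₂ hA₂
    rwa [add_sub_cancel_left] at h
  -- pass from `x'` to `x`, from `y'` to `y`
  have hA : ∑ i, d (Sum.inl i) • x i ∈ O₁.nonunits := by
    have hdiff : ∑ i, d (Sum.inl i) • (x' i - x i) ∈ O₁.nonunits :=
      sum_mem_nonunits O₁ _ _ fun i _ => S.smul_mem_nonunits₁ (hd _) (hx' i).2.1
    have h := sub_mem_nonunits O₁ hA₁ hdiff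
    rw [← Finset.sum_sub_distrib] at h
    refine (congrArg (· ∈ O₁.nonunits) (Finset.sum_congr rfl fun i _ => ?_)).mp h
    rw [← smul_sub, sub_sub_cancel]
  have hB : ∑ j, d (Sum.inr j) • y j ∈ O₂.nonunits := by
    have hdiff : ∑ j, d (Sum.inr j) • (y' j - y j) ∈ O₂.nonunits :=
      sum_mem_nonunits O₂ _ _ fun j _ => S.smul_mem_nonunits₂ (hd _) (hy' j).2.1
    have h := sub_mem_nonunits O₂ hB₂ hdiff
    rw [← Finset.sum_sub_distrib] at h
    refine (congrArg (· ∈ O₂.nonunits) (Finset.sum_congr rfl fun j _ => ?_)).mp h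
    rw [← smul_sub, sub_sub_cancel]
  rintro (i | j)
  · exact hx.2 (fun i => d (Sum.inl i)) (fun i => hd _) hA i
  · exact hy.2 (fun j => d (Sum.inr j)) (fun j => hd _) hB j

/-- **(T1)** The fundamental inequality, linear independence form. -/
theorem linearIndependent {ι κ : Type*} [Fintype ι] [Fintype κ]
    {x : ι → E} {y : κ → E} (hx : ResIndep O₀ O₁ x) (hy : ResIndep O₀ O₂ y) :
    ∃ (x' : ι → E) (y' : κ → E),
      (∀ i, x' i ∈ O₁ ∧ x' i - x i ∈ O₁.nonunits ∧ x' i ∈ O₂.nonunits) ∧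
      (∀ j, y' j ∈ O₂ ∧ y' j - y j ∈ O₂.nonunits ∧ y' j ∈ O₁.nonunits) ∧
      LinearIndependent F (Sum.elim x' y') := by
  obtain ⟨x', hx'⟩ := S.exists_adapted hx.1
  obtain ⟨y', hy'⟩ := S.symm.exists_adapted hy.1
  refine ⟨x', y', hx', hy', ?_⟩
  rw [Fintype.linearIndependent_iff]
  intro g hg
  by_contra hne
  push Not at hne
  obtain ⟨t₀, ht₀, hpiv⟩ := exists_pivot O₀ g hne
  have hsum : ∑ t, (g t / g t₀) • Sum.elim x' y' t = 0 := by
    have h1 : ∑ t, (g t / g t₀) • Sum.elim x' y' t = (g t₀)⁻¹ • ∑ t, g t • Sum.elim x' y' t := by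
      rw [Finset.smul_sum]
      refine Finset.sum_congr rfl fun t _ => ?_
      rw [smul_smul, div_eq_inv_mul]
    rw [h1, hg, smul_zero]
  have h := S.coeff_mem_nonunits hx hy hx' hy' (fun t => g t / g t₀) hpiv
    (hsum ▸ zero_mem_nonunits O₁) (hsum ▸ zero_mem_nonunits O₂) t₀
  rw [div_self ht₀] at h
  rw [O₀.mem_nonunits_iff, map_one] at h
  exact lt_irrefl _ h

/-- **(T1')** The fundamental inequality `f₁ + f₂ ≤ [E : F]`. -/
theorem card_add_card_le [FiniteDimensional F E]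
    {ι κ : Type*} [Fintype ι] [Fintype κ]
    {x : ι → E} {y : κ → E} (hx : ResIndep O₀ O₁ x) (hy : ResIndep O₀ O₂ y) :
    Fintype.card ι + Fintype.card κ ≤ Module.finrank F E := by
  obtain ⟨x', y', -, -, hli⟩ := S.linearIndependent hx hy
  have h := hli.fintype_card_le_finrank
  rwa [Fintype.card_sum] at h

/-- If `O₃ ⊇ O₁ ∩ O₂` and `𝔪₃ ∩ O₁ ∩ O₂ ⊆ 𝔪₁`, then `O₁ ⊆ O₃`. -/
theorem le_of_nonunits {O₃ : ValuationSubring E}
    (hS₃ : ∀ w, w ∈ O₁ → w ∈ O₂ → w ∈ O₃)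
    (h : ∀ w, w ∈ O₁ → w ∈ O₂ → w ∈ O₃.nonunits → w ∈ O₁.nonunits) : O₁ ≤ O₃ := by
  obtain ⟨e, he₁, he₂⟩ := S.sep
  have hu0 : 1 - e ≠ 0 := by
    intro h0
    apply one_notMem_nonunits O₁
    have h1 : (1 : E) = e := by linear_combination h0
    rw [h1]
    exact he₁
  have hu1 : (1 - e) - 1 ∈ O₁.nonunits := by
    have h1 : (1 - e) - 1 = -e := by ring
    rw [h1]
    exact neg_mem_nonunits O₁ he₁
  have hg₁ : 1 - e ∈ O₁ := mem_of_sub_one_mem_nonunits O₁ hu1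
  have hg₂ : 1 - e ∈ O₂ := mem_of_mem_nonunits O₂ he₂
  intro x hx
  obtain ⟨n, hn⟩ := S.arch₂ x (1 - e) he₂ hu0
  have hb₁ : (1 - e) ^ n ∈ O₁ := pow_mem hg₁ n
  have hb₂ : (1 - e) ^ n ∈ O₂ := pow_mem hg₂ n
  have hb₃ : (1 - e) ^ n ∈ O₃ := hS₃ _ hb₁ hb₂
  have hbn₁ : (1 - e) ^ n ∉ O₁.nonunits :=
    notMem_nonunits_of_sub_one_mem O₁ (pow_sub_one_mem_nonunits O₁ hu1 n)
  have hbn₃ : (1 - e) ^ n ∉ O₃.nonunits := fun h3 => hbn₁ (h _ hb₁ hb₂ h3)
  have hinv : ((1 - e) ^ n)⁻¹ ∈ O₃ := inv_mem_of_notMem_nonunits O₃ hbn₃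
  have ha₃ : x * (1 - e) ^ n ∈ O₃ := hS₃ _ (O₁.mul_mem _ _ hx hb₁) hn
  have hx' : x = (x * (1 - e) ^ n) * ((1 - e) ^ n)⁻¹ := by
    rw [mul_assoc, mul_inv_cancel₀ (pow_ne_zero n hu0), mul_one]
  rw [hx']
  exact O₃.mul_mem _ _ ha₃ hinv

/-- **(T6)** Strong approximation for the two valuations. -/
theorem exists_approx (c u v : E) :
    ∃ z : E, (z - u) * c⁻¹ ∈ O₁ ∧ (z - v) * c⁻¹ ∈ O₂ := by
  obtain ⟨e, he₁, he₂⟩ := S.sep
  have he0 : e ≠ 0 := by
    intro h0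
    apply one_notMem_nonunits O₂
    have h1 : (1 : E) = 1 - e := by rw [h0, sub_zero]
    rw [h1]
    exact he₂
  have hu0 : 1 - e ≠ 0 := by
    intro h0
    apply one_notMem_nonunits O₁
    have h1 : (1 : E) = e := by linear_combination h0
    rw [h1]
    exact he₁
  have hu1 : (1 - e) - 1 ∈ O₁.nonunits := by
    have h1 : (1 - e) - 1 = -e := by ring
    rw [h1]
    exact neg_mem_nonunits O₁ he₁
  have hg₁ : 1 - e ∈ O₁ := mem_of_sub_one_mem_nonunits O₁ hu1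
  have hg₂ : 1 - e ∈ O₂ := mem_of_mem_nonunits O₂ he₂
  set d : E := (u - v) * c⁻¹ with hd
  obtain ⟨m, hm⟩ := S.arch₁ d e he₁ he0
  obtain ⟨n, hn⟩ := S.arch₂ d (1 - e) he₂ hu0
  set g : E := 1 - e with hg
  -- `1 - g ^ n = e * h₁`
  set h₁ : E := ∑ i ∈ Finset.range n, g ^ i with hh₁
  have hh₁mem : h₁ ∈ O₁ := sum_mem fun i _ => pow_mem hg₁ i
  have hgn : 1 - g ^ n = h₁ * e := by
    have := geom_sum_mul_neg g n
    rw [hg, sub_sub_cancel] at this
    rw [hh₁, hg]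
    exact this.symm
  -- `ε = 1 - (1 - g ^ n) ^ m = g ^ n * h₂`
  set h₂ : E := ∑ i ∈ Finset.range m, (1 - g ^ n) ^ i with hh₂
  have hh₂mem : h₂ ∈ O₂ := by
    refine sum_mem fun i _ => pow_mem ?_ i
    exact sub_mem O₂.one_mem (pow_mem hg₂ n)
  have hε : 1 - (1 - g ^ n) ^ m = h₂ * g ^ n := by
    have := geom_sum_mul_neg (1 - g ^ n) m
    rw [sub_sub_cancel] at this
    rw [hh₂]
    exact this.symm
  refine ⟨v + (u - v) * (1 - (1 - g ^ n) ^ m), ?_, ?_⟩
  · have h1 : (v + (u - v) * (1 - (1 - g ^ n) ^ m) - u) * c⁻¹ =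
        -((d * e ^ m) * h₁ ^ m) := by
      rw [hgn, mul_pow, hd]
      ring
    rw [h1]
    exact O₁.neg_mem _ (O₁.mul_mem _ _ hm (pow_mem hh₁mem m))
  · have h1 : (v + (u - v) * (1 - (1 - g ^ n) ^ m) - v) * c⁻¹ = (d * g ^ n) * h₂ := by
      rw [hε, hd]
      ring
    rw [h1]
    exact O₂.mul_mem _ _ hn hh₂mem

end Setup

/-! ### The full situation `f₁ + f₂ = [E : F]` -/

/-- The full situation: `f₁ + f₂ = [E : F]`, witnessed by residue-independent families. -/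
structure Full (O₀ : ValuationSubring F) (O₁ O₂ : ValuationSubring E) (ι κ : Type*)
    [Fintype ι] [Fintype κ] : Type _ where
  setup : Setup O₀ O₁ O₂
  x : ι → E
  y : κ → E
  hx : ResIndep O₀ O₁ x
  hy : ResIndep O₀ O₂ y
  card_eq : Fintype.card ι + Fintype.card κ = Module.finrank F E

namespace Full

variable {ι κ : Type*} [Fintype ι] [Fintype κ]

/-- the symmetric full situation -/
def symm (D : Full O₀ O₁ O₂ ι κ) : Full O₀ O₂ O₁ κ ι where
  setup := D.setup.symm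
  x := D.y
  y := D.x
  hx := D.hy
  hy := D.hx
  card_eq := by rw [add_comm]; exact D.card_eq

/-- **(T2)** An `F`-basis of `E` which is an `O₀`-basis of `O₁ ∩ O₂`. -/
theorem exists_basis [FiniteDimensional F E] (D : Full O₀ O₁ O₂ ι κ) :
    ∃ b : Module.Basis (ι ⊕ κ) F E, ∀ w : E,
      (w ∈ O₁ ∧ w ∈ O₂) ↔ ∀ t, b.repr w t ∈ O₀ := by
  classical
  have S := D.setup
  obtain ⟨x', y', hx', hy', hli⟩ := S.linearIndependent D.hx D.hy
  have hcard : Fintype.card (ι ⊕ κ) = Module.finrank F E := by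
    rw [Fintype.card_sum]
    exact D.card_eq
  have : Nonempty (ι ⊕ κ) := Fintype.card_pos_iff.1 (hcard ▸ Module.finrank_pos)
  refine ⟨basisOfLinearIndependentOfCardEqFinrank hli hcard, fun w => ?_⟩
  set b := basisOfLinearIndependentOfCardEqFinrank hli hcard with hb
  have hbz : ∀ t, b t = Sum.elim x' y' t := fun t => by
    rw [hb, coe_basisOfLinearIndependentOfCardEqFinrank]
  have hz₁ : ∀ t, Sum.elim x' y' t ∈ O₁ := by
    rintro (i | j)
    · exact (hx' i).1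
    · exact mem_of_mem_nonunits O₁ (hy' j).2.2
  have hz₂ : ∀ t, Sum.elim x' y' t ∈ O₂ := by
    rintro (i | j)
    · exact mem_of_mem_nonunits O₂ (hx' i).2.2
    · exact (hy' j).1
  have hrepr : ∑ t, b.repr w t • Sum.elim x' y' t = w := by
    conv_rhs => rw [← b.sum_repr w]
    exact Finset.sum_congr rfl fun t _ => by rw [hbz]
  constructor
  · rintro ⟨hw₁, hw₂⟩
    by_contra hne
    push Not at hne
    obtain ⟨t₁, ht₁⟩ := hne
    have hex : ∃ t, b.repr w t ≠ 0 := ⟨t₁, fun h => ht₁ (h ▸ O₀.zero_mem)⟩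
    obtain ⟨t₀, ht₀, hpiv⟩ := exists_pivot O₀ (fun t => b.repr w t) hex
    have ht₀' : b.repr w t₀ ∉ O₀ := by
      intro h
      apply ht₁
      have h1 : b.repr w t₁ = (b.repr w t₁ / b.repr w t₀) * b.repr w t₀ := by
        rw [div_mul_cancel₀ _ ht₀]
      rw [h1]
      exact O₀.mul_mem _ _ (hpiv t₁) h
    have hinv : (b.repr w t₀)⁻¹ ∈ O₀.nonunits := by
      rw [mem_nonunits_iff_inv_notMem O₀ (inv_ne_zero ht₀), inv_inv]
      exact ht₀'
    have hsum : ∑ t, (b.repr w t / b.repr w t₀) • Sum.elim x' y' t = (b.repr w t₀)⁻¹ • w := by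
      have h1 : ∑ t, (b.repr w t / b.repr w t₀) • Sum.elim x' y' t =
          (b.repr w t₀)⁻¹ • ∑ t, b.repr w t • Sum.elim x' y' t := by
        rw [Finset.smul_sum]
        refine Finset.sum_congr rfl fun t _ => ?_
        rw [smul_smul, div_eq_inv_mul]
      rw [h1, hrepr]
    have h := S.coeff_mem_nonunits D.hx D.hy hx' hy' (fun t => b.repr w t / b.repr w t₀) hpiv
      (hsum ▸ S.nonunit_smul_mem_nonunits₁ hinv hw₁)
      (hsum ▸ S.nonunit_smul_mem_nonunits₂ hinv hw₂) t₀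
    rw [div_self ht₀] at h
    rw [O₀.mem_nonunits_iff, map_one] at h
    exact lt_irrefl _ h
  · intro h
    rw [← hrepr]
    exact ⟨sum_mem fun t _ => S.smul_mem₁ (h t) (hz₁ t),
      sum_mem fun t _ => S.smul_mem₂ (h t) (hz₂ t)⟩

/-- **(T3)** `O₁ ∩ O₂` is the integral closure of `O₀` in `E`. -/
theorem isIntegralElem_iff [FiniteDimensional F E] (D : Full O₀ O₁ O₂ ι κ) (w : E) :
    ((algebraMap F E).comp O₀.subtype).IsIntegralElem w ↔ w ∈ O₁ ∧ w ∈ O₂ := by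
  classical
  have S := D.setup
  constructor
  · intro h
    exact ⟨mem_of_isIntegralElem S.lies₁ h, mem_of_isIntegralElem S.lies₂ h⟩
  · rintro ⟨hw₁, hw₂⟩
    obtain ⟨b, hb⟩ := D.exists_basis
    let _ : Algebra O₀ E := ((algebraMap F E).comp O₀.subtype).toAlgebra
    have hsmul : ∀ (a : O₀) (z : E), a • z = (a : F) • z := fun a z => by
      rw [Algebra.smul_def, Algebra.smul_def]
      rfl
    -- `N = O₁ ∩ O₂` as an `O₀`-submodule: the span of the basis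
    let N : Submodule O₀ E := Submodule.span O₀ (Set.range b)
    have hbt : ∀ t, b t ∈ O₁ ∧ b t ∈ O₂ := fun t => by
      rw [hb]
      intro t'
      rw [b.repr_self, Finsupp.single_apply]
      split_ifs
      · exact O₀.one_mem
      · exact O₀.zero_mem
    have hN : ∀ v : E, v ∈ N ↔ v ∈ O₁ ∧ v ∈ O₂ := by
      intro v
      constructor
      · intro hv
        induction hv using Submodule.span_induction with
        | mem z hz =>
          obtain ⟨t, rfl⟩ := hz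
          exact hbt t
        | zero => exact ⟨O₁.zero_mem, O₂.zero_mem⟩
        | add z z' _ _ hz hz' => exact ⟨O₁.add_mem _ _ hz.1 hz'.1, O₂.add_mem _ _ hz.2 hz'.2⟩
        | smul a z _ hz =>
          rw [hsmul]
          exact ⟨S.smul_mem₁ a.2 hz.1, S.smul_mem₂ a.2 hz.2⟩
      · intro hv
        have hv' := (hb v).1 hv
        rw [← b.sum_repr v]
        refine sum_mem fun t _ => ?_
        have h1 : b.repr v t • b t = (⟨b.repr v t, hv' t⟩ : O₀) • b t :=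
          (hsmul ⟨b.repr v t, hv' t⟩ (b t)).symm
        rw [h1]
        exact Submodule.smul_mem _ _ (Submodule.subset_span ⟨t, rfl⟩)
    have hNbot : N ≠ ⊥ := by
      intro h
      have h1 : (1 : E) ∈ N := (hN 1).2 ⟨O₁.one_mem, O₂.one_mem⟩
      rw [h, Submodule.mem_bot] at h1
      exact one_ne_zero h1
    have hNfg : N.FG := Submodule.fg_span (Set.finite_range b)
    have hint : IsIntegral O₀ w := by
      refine isIntegral_of_smul_mem_submodule N hNbot hNfg w fun n hn => ?_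
      rw [hN] at hn ⊢
      rw [smul_eq_mul]
      exact ⟨O₁.mul_mem _ _ hw₁ hn.1, O₂.mul_mem _ _ hw₂ hn.2⟩
    exact hint

/-- **(T4)** EXHAUSTION: `O₁, O₂` are the only valuation subrings of `E` over `O₀`. -/
theorem eq_or_eq_of_comap_eq [FiniteDimensional F E] (D : Full O₀ O₁ O₂ ι κ)
    (O₃ : ValuationSubring E) (h₃ : O₃.comap (algebraMap F E) = O₀) : O₃ = O₁ ∨ O₃ = O₂ := by
  have S := D.setup
  obtain ⟨e, he₁, he₂⟩ := S.sep
  have he0 : e ≠ 0 := by
    intro h0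
    apply one_notMem_nonunits O₂
    have h1 : (1 : E) = 1 - e := by rw [h0, sub_zero]
    rw [h1]
    exact he₂
  -- `O₁ ∩ O₂ ⊆ O₃`
  have hS₃ : ∀ w, w ∈ O₁ → w ∈ O₂ → w ∈ O₃ := fun w h1 h2 =>
    mem_of_isIntegralElem h₃ ((D.isIntegralElem_iff w).2 ⟨h1, h2⟩)
  -- `O₃ ≠ ⊤`
  have htop : ∃ y : E, y ∉ O₃ := by
    by_contra hall
    push Not at hall
    have hO₀ : ∀ c : F, c ∈ O₀ := fun c => by
      rw [← h₃, ValuationSubring.mem_comap]
      exact hall _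
    obtain ⟨b, hb⟩ := D.exists_basis
    have h1 : e⁻¹ ∈ O₁ := ((hb e⁻¹).2 fun t => hO₀ _).1
    exact (mem_nonunits_iff_inv_notMem O₁ he0).1 he₁ h1
  have he₁' : e ∈ O₁ := mem_of_mem_nonunits O₁ he₁
  have hg₂ : 1 - e ∈ O₂ := mem_of_mem_nonunits O₂ he₂
  have he₂' : e ∈ O₂ := by
    have h1 : e = 1 - (1 - e) := by ring
    rw [h1]
    exact sub_mem O₂.one_mem hg₂
  have hg₁ : 1 - e ∈ O₁ := sub_mem O₁.one_mem he₁'
  have he₃ : e ∈ O₃ := hS₃ _ he₁' he₂'
  have hg₃ : 1 - e ∈ O₃ := hS₃ _ hg₁ hg₂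
  by_cases hcase : ∀ w, w ∈ O₁ → w ∈ O₂ → w ∈ O₃.nonunits → w ∈ O₁.nonunits
  · left
    exact Arch.eq_of_le S.arch₁ (S.le_of_nonunits hS₃ hcase) htop
  · right
    push Not at hcase
    obtain ⟨x₀, hx₁, hx₂, hx₃, hxn₁⟩ := hcase
    refine Arch.eq_of_le S.arch₂ (S.symm.le_of_nonunits (fun w h2 h1 => hS₃ w h1 h2) ?_) htop
    intro y hy₂ hy₁ hy₃
    by_contra hyn₂
    -- `z = x₀ (1 - e) + y e` is a unit of `O₁` and of `O₂`, but a nonunit of `O₃`
    set z : E := x₀ * (1 - e) + y * e with hz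
    have hz₃ : z ∈ O₃.nonunits :=
      add_mem_nonunits O₃ (mul_mem_nonunits_right O₃ hx₃ hg₃) (mul_mem_nonunits_right O₃ hy₃ he₃)
    have hz₁ : z ∈ O₁ := O₁.add_mem _ _ (O₁.mul_mem _ _ hx₁ hg₁) (O₁.mul_mem _ _ hy₁ he₁')
    have hz₂ : z ∈ O₂ := O₂.add_mem _ _ (O₂.mul_mem _ _ hx₂ hg₂) (O₂.mul_mem _ _ hy₂ he₂')
    have hzn₁ : z ∉ O₁.nonunits := by
      intro h
      apply hxn₁
      have h1 : x₀ = z - (y - x₀) * e := by rw [hz]; ring
      rw [h1]
      exact sub_mem_nonunits O₁ h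
        (mul_mem_nonunits_of_mem O₁ (sub_mem hy₁ hx₁) he₁)
    have hzn₂ : z ∉ O₂.nonunits := by
      intro h
      apply hyn₂
      have h1 : y = z - (x₀ - y) * (1 - e) := by rw [hz]; ring
      rw [h1]
      exact sub_mem_nonunits O₂ h
        (mul_mem_nonunits_of_mem O₂ (sub_mem hx₂ hy₂) he₂)
    have hzinv : z⁻¹ ∈ O₃ := hS₃ _ (inv_mem_of_notMem_nonunits O₁ hzn₁)
      (inv_mem_of_notMem_nonunits O₂ hzn₂)
    have hz0 : z ≠ 0 := fun h => hzn₁ (h ▸ zero_mem_nonunits O₁)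
    apply one_notMem_nonunits O₃
    rw [← inv_mul_cancel₀ hz0]
    exact mul_mem_nonunits_of_mem O₃ hzinv hz₃

/-- **(T5)** Exactness of the residue degree of `O₁`. -/
theorem card_le₁ [FiniteDimensional F E] (D : Full O₀ O₁ O₂ ι κ) {ι' : Type*} [Fintype ι']
    {x' : ι' → E} (hx' : ResIndep O₀ O₁ x') : Fintype.card ι' ≤ Fintype.card ι := by
  have h := D.setup.card_add_card_le hx' D.hy
  rw [← D.card_eq] at h
  exact Nat.le_of_add_le_add_right h

/-- **(T5)** Exactness of the residue degree of `O₂`. -/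
theorem card_le₂ [FiniteDimensional F E] (D : Full O₀ O₁ O₂ ι κ) {κ' : Type*} [Fintype κ']
    {y' : κ' → E} (hy' : ResIndep O₀ O₂ y') : Fintype.card κ' ≤ Fintype.card κ :=
  D.symm.card_le₁ hy'

/-- lying over is preserved by pulling back along an automorphism over an automorphism of
`(F, O₀)` -/
theorem comap_comap_eq {O : ValuationSubring E} (hO : O.comap (algebraMap F E) = O₀)
    (σ : E ≃+* E) (σ₀ : F ≃+* F) (hσ : ∀ a, σ (algebraMap F E a) = algebraMap F E (σ₀ a))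
    (hσ₀ : ∀ a, σ₀ a ∈ O₀ ↔ a ∈ O₀) :
    (O.comap (σ : E →+* E)).comap (algebraMap F E) = O₀ := by
  ext a
  rw [ValuationSubring.mem_comap, ValuationSubring.mem_comap]
  show σ (algebraMap F E a) ∈ O ↔ _
  rw [hσ, ← ValuationSubring.mem_comap, hO, hσ₀]

theorem comap_injective (σ : E ≃+* E) {O O' : ValuationSubring E}
    (h : O.comap (σ : E →+* E) = O'.comap (σ : E →+* E)) : O = O' := by
  ext x
  have h1 : σ.symm x ∈ O.comap (σ : E →+* E) ↔ σ.symm x ∈ O'.comap (σ : E →+* E) := by rw [h]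
  rw [ValuationSubring.mem_comap, ValuationSubring.mem_comap] at h1
  have h2 : (σ : E →+* E) (σ.symm x) = x := σ.apply_symm_apply x
  rwa [h2] at h1

/-- **(T7)** Equivariance: an automorphism of `E` over an automorphism of `(F, O₀)` permutes
`{O₁, O₂}`. -/
theorem comap_eq_or [FiniteDimensional F E] (D : Full O₀ O₁ O₂ ι κ)
    (σ : E ≃+* E) (σ₀ : F ≃+* F) (hσ : ∀ a, σ (algebraMap F E a) = algebraMap F E (σ₀ a))
    (hσ₀ : ∀ a, σ₀ a ∈ O₀ ↔ a ∈ O₀) :
    (O₁.comap (σ : E →+* E) = O₁ ∧ O₂.comap (σ : E →+* E) = O₂) ∨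
    (O₁.comap (σ : E →+* E) = O₂ ∧ O₂.comap (σ : E →+* E) = O₁) := by
  have S := D.setup
  have h1 := D.eq_or_eq_of_comap_eq _ (comap_comap_eq S.lies₁ σ σ₀ hσ hσ₀)
  have h2 := D.eq_or_eq_of_comap_eq _ (comap_comap_eq S.lies₂ σ σ₀ hσ hσ₀)
  rcases h1 with h1 | h1 <;> rcases h2 with h2 | h2
  · exact absurd (comap_injective σ (h1.trans h2.symm)) S.ne
  · exact Or.inl ⟨h1, h2⟩
  · exact Or.inr ⟨h1, h2⟩
  · exact absurd (comap_injective σ (h1.trans h2.symm)) S.ne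

/-- nonunits of a pulled back valuation subring -/
theorem mem_nonunits_comap_iff (σ : E ≃+* E) (O : ValuationSubring E) (t : E) :
    t ∈ (O.comap (σ : E →+* E)).nonunits ↔ σ t ∈ O.nonunits := by
  rw [ValuationSubring.mem_nonunits_iff_or, ValuationSubring.mem_nonunits_iff_or,
    ValuationSubring.mem_comap]
  show t = 0 ∨ σ t⁻¹ ∉ O ↔ _
  rw [map_inv₀, map_eq_zero_iff σ σ.injective]

/-- If moreover `σ` maps some unit `t` of `O₂` into `𝔪₁`, then `σ` preserves both `O₁`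
and `O₂`. -/
theorem comap_eq_of_mem [FiniteDimensional F E] (D : Full O₀ O₁ O₂ ι κ)
    (σ : E ≃+* E) (σ₀ : F ≃+* F) (hσ : ∀ a, σ (algebraMap F E a) = algebraMap F E (σ₀ a))
    (hσ₀ : ∀ a, σ₀ a ∈ O₀ ↔ a ∈ O₀) {t : E} (ht₂ : t ∉ O₂.nonunits)
    (hσt : σ t ∈ O₁.nonunits) :
    O₁.comap (σ : E →+* E) = O₁ ∧ O₂.comap (σ : E →+* E) = O₂ := by
  rcases D.comap_eq_or σ σ₀ hσ hσ₀ with h | h
  · exact h
  · exfalso
    apply ht₂
    rw [← h.1, mem_nonunits_comap_iff]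
    exact hσt

end Full

end Fermat.Agent.BR.TwoVal
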