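import Mathlib
import Fermat.Agent.BR.UnramTower
import Fermat.Agent.BR.DVRLattice

/-!
# Program B (BADRED), node B6.5(h): adapter from `UnramTower.DVRField` to `DVRLattice`

`UnramTower.DVRField A K' p` (value group of `K'` generated by `v p`) implies the elementary
factorisation form `DVRLattice.IsDVRSubfield A K' p` used by the lattice-approximation nodes.
Also the unfolded variant for an intermediate field.
-/

set_option autoImplicit false

namespace Fermat.Agent.BR.UnramTowerDVR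

open Fermat.Agent.Red Fermat.Agent.BR Fermat.Agent.BR.UnramTower

variable {K : Type*} [Field K] {A : ValuationSubring K}

/-- Unfolded form: a subfield whose nonzero elements have valuation in `⟨v p⟩`, `v p < 1`,
`p ≠ 0`, is a discretely valued subfield in the sense of `DVRLattice`. -/
theorem isDVRSubfield_of_valuation {K' : Subfield K} {p : K} (hpK : p ∈ K') (hp0 : p ≠ 0)
    (hp1 : A.valuation p < 1)
    (hval : ∀ x ∈ K', x ≠ 0 → ∃ n : ℤ, A.valuation x = A.valuation p ^ n) :
    DVRLattice.IsDVRSubfield A K' p := by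
  have hvp0 : A.valuation p ≠ 0 := (map_ne_zero _).2 hp0
  refine ⟨hpK, isModulus_iff_valuation.2 ⟨hp0, hp1⟩, ?_⟩
  intro c hcK hcA hc0
  obtain ⟨n, hn⟩ := hval c hcK hc0
  have h1 : A.valuation p ^ n ≤ 1 := by
    rw [← hn]
    exact mem_iff_le.1 hcA
  have h2 := zpow_nonneg_of_le_one hvp0 hp1 h1
  obtain ⟨m, rfl⟩ := Int.eq_ofNat_of_zero_le h2
  rw [zpow_natCast] at hn
  have hpm0 : p ^ m ≠ 0 := pow_ne_zero m hp0
  have hve : A.valuation (c / p ^ m) = 1 := by
    rw [map_div₀, map_pow, hn, div_self (pow_ne_zero m hvp0)]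
  refine ⟨m, c / p ^ m, ?_, ?_, ?_⟩
  · rw [mem_iff_le, hve]
  · rw [mem_iff_le, map_inv₀, hve, inv_one]
  · rw [mul_div_cancel₀ _ hpm0]

theorem isDVRSubfield_of_dvrField {K' : Subfield K} {p : K} (h : DVRField A K' p) :
    DVRLattice.IsDVRSubfield A K' p :=
  isDVRSubfield_of_valuation h.1 h.2.1 h.2.2.1 h.2.2.2

/-- The converse: `IsDVRSubfield` gives a cyclic value group. -/
theorem dvrField_of_isDVRSubfield {K' : Subfield K} {p : K}
    (h : DVRLattice.IsDVRSubfield A K' p) : DVRField A K' p := by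
  have hp0 : p ≠ 0 := h.isModulus.ne_zero
  have hp1 : A.valuation p < 1 := (isModulus_iff_valuation.1 h.isModulus).2
  have key : ∀ c ∈ K', c ∈ A → c ≠ 0 → ∃ m : ℕ, A.valuation c = A.valuation p ^ m := by
    intro c hcK hcA hc0
    obtain ⟨m, e, he, he', hce⟩ := h.factor c hcK hcA hc0
    refine ⟨m, ?_⟩
    have he0 : e ≠ 0 := by
      rintro rfl
      rw [mul_zero] at hce
      exact hc0 hce
    have hve : A.valuation e = 1 := by
      apply le_antisymm (mem_iff_le.1 he)
      have h1 := mem_iff_le.1 he'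
      rw [map_inv₀] at h1
      exact (inv_le_one₀ (zero_lt_iff.2 ((map_ne_zero _).2 he0))).1 h1
    rw [hce, map_mul, map_pow, hve, mul_one]
  refine ⟨h.mem, hp0, hp1, ?_⟩
  intro x hx hx0
  rcases A.mem_or_inv_mem x with hxA | hxA
  · obtain ⟨m, hm⟩ := key x hx hxA hx0
    exact ⟨m, by rw [hm, zpow_natCast]⟩
  · obtain ⟨m, hm⟩ := key x⁻¹ (K'.inv_mem hx) hxA (inv_ne_zero hx0)
    refine ⟨-(m : ℤ), ?_⟩
    rw [zpow_neg, zpow_natCast, ← hm, map_inv₀, inv_inv]

/-- **Cover lemma, `DVRLattice` form.**  Let `K0` have value group `⟨v q⟩` and full residue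
field, `K` algebraic over `K0`.  Every finite `S ⊆ K` lies in a subfield `K' ⊇ K0` with a
uniformizer `ϖ` (`IsDVRSubfield A K' ϖ`) and full residue field. -/
theorem exists_isDVRSubfield_cover (K0 : Subfield K) [Algebra.IsAlgebraic K0 K] {q : K}
    (hq : q ∈ K0) (hq0 : q ≠ 0) (hq1 : A.valuation q < 1) (hval : ValIn A K0 (A.valuation q))
    (hfull : FullRes A K0) (S : Finset K) :
    ∃ (K' : Subfield K) (ϖ : K), K0 ≤ K' ∧ (S : Set K) ⊆ K' ∧
      DVRLattice.IsDVRSubfield A K' ϖ ∧ FullRes A K' := by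
  obtain ⟨h1, h2, h3, ⟨p, hp⟩, -⟩ := tower_of_base (A := A) K0 hq hq0 hq1 hval hfull S
  exact ⟨towerField K0 (S : Set K), p, h1, h2, isDVRSubfield_of_dvrField hp, h3⟩

end Fermat.Agent.BR.UnramTowerDVR
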